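/-
Program F (S55, Poitou–Tate), chapter PRO, helper25.

`HyperLevel25`: a concrete model of `Ext^r_{G}(A, X)` (r = 1, 2) for a profinite-like group `G`
given with a basis `𝒰` of open normal subgroups of finite index, as the LEVEL HYPERCOHOMOLOGY of a
two-term complex `f : Y⁰ → Y¹` of discrete `G`-modules (think `Y^i = Hom(P_i, X)` for a fixed
resolution `0 → P₁ → P₀ → A → 0` by finitely generated free abelian groups).

Part 1 (abstract): four-term complexes of modules, `H¹`, `H²`, the connecting map and the exact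
sequence `H¹(C) → H¹(C'') → H²(C') → H²(C)` (+ exactness at `H¹(C)` and `H²(C)`), by hand,
with concrete quotient modules.
Part 2: level cochains for `(G, 𝒰)`, the total complex of `f : Y⁰ → Y¹`, its `ℍ¹`, `ℍ²`.
-/
import Mathlib

set_option autoImplicit false

namespace Fermat.Agent.PT.PRO.HyperLevel25

open Function

/-! ## Part 1: four-term complexes of modules -/

section Abstract

/-- A four-term cochain complex `X⁰ → X¹ → X² → X³` of `k`-modules. -/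
structure Cpx (k : Type*) [CommRing k] (X0 X1 X2 X3 : Type*)
    [AddCommGroup X0] [Module k X0] [AddCommGroup X1] [Module k X1]
    [AddCommGroup X2] [Module k X2] [AddCommGroup X3] [Module k X3] where
  d0 : X0 →ₗ[k] X1
  d1 : X1 →ₗ[k] X2
  d2 : X2 →ₗ[k] X3
  d1_d0 : ∀ x, d1 (d0 x) = 0
  d2_d1 : ∀ x, d2 (d1 x) = 0

namespace Cpx

variable {k : Type*} [CommRing k]
variable {X0 X1 X2 X3 : Type*}
  [AddCommGroup X0] [Module k X0] [AddCommGroup X1] [Module k X1]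
  [AddCommGroup X2] [Module k X2] [AddCommGroup X3] [Module k X3]
variable (C : Cpx k X0 X1 X2 X3)

/-- 1-cocycles. -/
abbrev Z1 : Submodule k X1 := LinearMap.ker C.d1
/-- 2-cocycles. -/
abbrev Z2 : Submodule k X2 := LinearMap.ker C.d2
/-- 1-coboundaries, inside the 1-cocycles. -/
def B1 : Submodule k C.Z1 := (LinearMap.range C.d0).comap C.Z1.subtype
/-- 2-coboundaries, inside the 2-cocycles. -/
def B2 : Submodule k C.Z2 := (LinearMap.range C.d1).comap C.Z2.subtype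
/-- First cohomology. -/
abbrev H1 : Type _ := C.Z1 ⧸ C.B1
/-- Second cohomology. -/
abbrev H2 : Type _ := C.Z2 ⧸ C.B2
/-- The class of a 1-cocycle. -/
def π1 : C.Z1 →ₗ[k] C.H1 := C.B1.mkQ
/-- The class of a 2-cocycle. -/
def π2 : C.Z2 →ₗ[k] C.H2 := C.B2.mkQ

lemma π1_surjective : Surjective C.π1 := Submodule.mkQ_surjective _
lemma π2_surjective : Surjective C.π2 := Submodule.mkQ_surjective _

lemma mem_B1_iff (z : C.Z1) : z ∈ C.B1 ↔ ∃ y, C.d0 y = (z : X1) := by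
  simp [B1, LinearMap.mem_range]

lemma mem_B2_iff (z : C.Z2) : z ∈ C.B2 ↔ ∃ x, C.d1 x = (z : X2) := by
  simp [B2, LinearMap.mem_range]

lemma π1_eq_zero_iff (z : C.Z1) : C.π1 z = 0 ↔ ∃ y, C.d0 y = (z : X1) := by
  rw [π1, Submodule.mkQ_apply, Submodule.Quotient.mk_eq_zero, mem_B1_iff]

lemma π2_eq_zero_iff (z : C.Z2) : C.π2 z = 0 ↔ ∃ x, C.d1 x = (z : X2) := by
  rw [π2, Submodule.mkQ_apply, Submodule.Quotient.mk_eq_zero, mem_B2_iff]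

lemma π1_eq_iff (z w : C.Z1) : C.π1 z = C.π1 w ↔ ∃ y, C.d0 y = (z : X1) - (w : X1) := by
  rw [← sub_eq_zero, ← map_sub, π1_eq_zero_iff]; rfl

lemma π2_eq_iff (z w : C.Z2) : C.π2 z = C.π2 w ↔ ∃ x, C.d1 x = (z : X2) - (w : X2) := by
  rw [← sub_eq_zero, ← map_sub, π2_eq_zero_iff]; rfl

/-- The 1-cocycle `d⁰ y`. -/
def bdry1 (y : X0) : C.Z1 := ⟨C.d0 y, C.d1_d0 y⟩
/-- The 2-cocycle `d¹ x`. -/
def bdry2 (x : X1) : C.Z2 := ⟨C.d1 x, C.d2_d1 x⟩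

@[simp] lemma π1_bdry1 (y : X0) : C.π1 (C.bdry1 y) = 0 := (C.π1_eq_zero_iff _).2 ⟨y, rfl⟩
@[simp] lemma π2_bdry2 (x : X1) : C.π2 (C.bdry2 x) = 0 := (C.π2_eq_zero_iff _).2 ⟨x, rfl⟩

variable {Y0 Y1 Y2 Y3 : Type*}
  [AddCommGroup Y0] [Module k Y0] [AddCommGroup Y1] [Module k Y1]
  [AddCommGroup Y2] [Module k Y2] [AddCommGroup Y3] [Module k Y3]

/-- A morphism of four-term complexes. -/
structure Hom (C : Cpx k X0 X1 X2 X3) (D : Cpx k Y0 Y1 Y2 Y3) where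
  m0 : X0 →ₗ[k] Y0
  m1 : X1 →ₗ[k] Y1
  m2 : X2 →ₗ[k] Y2
  m3 : X3 →ₗ[k] Y3
  c0 : ∀ x, m1 (C.d0 x) = D.d0 (m0 x)
  c1 : ∀ x, m2 (C.d1 x) = D.d1 (m1 x)
  c2 : ∀ x, m3 (C.d2 x) = D.d2 (m2 x)

namespace Hom

variable {C} {D : Cpx k Y0 Y1 Y2 Y3} (φ : Hom C D)

/-- The induced map on 1-cocycles. -/
def mapZ1 : C.Z1 →ₗ[k] D.Z1 :=
  φ.m1.restrict (p := C.Z1) (q := D.Z1) (fun x hx => by
    rw [LinearMap.mem_ker] at hx ⊢
    rw [← φ.c1, hx, map_zero])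

/-- The induced map on 2-cocycles. -/
def mapZ2 : C.Z2 →ₗ[k] D.Z2 :=
  φ.m2.restrict (p := C.Z2) (q := D.Z2) (fun x hx => by
    rw [LinearMap.mem_ker] at hx ⊢
    rw [← φ.c2, hx, map_zero])

@[simp] lemma coe_mapZ1 (z : C.Z1) : ((φ.mapZ1 z : D.Z1) : Y1) = φ.m1 z := rfl
@[simp] lemma coe_mapZ2 (z : C.Z2) : ((φ.mapZ2 z : D.Z2) : Y2) = φ.m2 z := rfl

/-- The induced map on `H¹`. -/
def mapH1 : C.H1 →ₗ[k] D.H1 :=
  Submodule.mapQ C.B1 D.B1 φ.mapZ1 (fun z hz => by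
    rw [Submodule.mem_comap, mem_B1_iff]
    obtain ⟨y, hy⟩ := (C.mem_B1_iff z).1 hz
    exact ⟨φ.m0 y, by rw [← φ.c0, hy]; rfl⟩)

/-- The induced map on `H²`. -/
def mapH2 : C.H2 →ₗ[k] D.H2 :=
  Submodule.mapQ C.B2 D.B2 φ.mapZ2 (fun z hz => by
    rw [Submodule.mem_comap, mem_B2_iff]
    obtain ⟨y, hy⟩ := (C.mem_B2_iff z).1 hz
    exact ⟨φ.m1 y, by rw [← φ.c1, hy]; rfl⟩)

@[simp] lemma mapH1_π1 (z : C.Z1) : φ.mapH1 (C.π1 z) = D.π1 (φ.mapZ1 z) := rfl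
@[simp] lemma mapH2_π2 (z : C.Z2) : φ.mapH2 (C.π2 z) = D.π2 (φ.mapZ2 z) := rfl

end Hom

variable {Z0 Z1' Z2' Z3 : Type*}
  [AddCommGroup Z0] [Module k Z0] [AddCommGroup Z1'] [Module k Z1']
  [AddCommGroup Z2'] [Module k Z2'] [AddCommGroup Z3] [Module k Z3]

/-- Short exactness (in the degrees that matter) of `0 → C' → C → C'' → 0`. -/
structure ShortExact {C' : Cpx k X0 X1 X2 X3} {C : Cpx k Y0 Y1 Y2 Y3} {C'' : Cpx k Z0 Z1' Z2' Z3}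
    (φ : Hom C' C) (ψ : Hom C C'') : Prop where
  inj2 : Injective φ.m2
  inj3 : Injective φ.m3
  surj0 : Surjective ψ.m0
  surj1 : Surjective ψ.m1
  zero1 : ∀ x, ψ.m1 (φ.m1 x) = 0
  zero2 : ∀ x, ψ.m2 (φ.m2 x) = 0
  exact1 : ∀ x, ψ.m1 x = 0 → ∃ x', φ.m1 x' = x
  exact2 : ∀ x, ψ.m2 x = 0 → ∃ x', φ.m2 x' = x

section Les

variable {C' : Cpx k X0 X1 X2 X3} {C : Cpx k Y0 Y1 Y2 Y3} {C'' : Cpx k Z0 Z1' Z2' Z3}
  {φ : Hom C' C} {ψ : Hom C C''}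

/-- The connecting relation: `z''` lifts to `x`, and `d¹ x` comes from `z'`. -/
def Rel (φ : Hom C' C) (ψ : Hom C C'') (z'' : Z1') (z' : X2) : Prop :=
  ∃ x : Y1, ψ.m1 x = z'' ∧ C.d1 x = φ.m2 z'

lemma Rel.add {a'' b'' : Z1'} {a' b' : X2} (ha : Rel φ ψ a'' a') (hb : Rel φ ψ b'' b') :
    Rel φ ψ (a'' + b'') (a' + b') := by
  obtain ⟨x, hx1, hx2⟩ := ha
  obtain ⟨y, hy1, hy2⟩ := hb
  exact ⟨x + y, by rw [map_add, hx1, hy1], by rw [map_add, map_add, hx2, hy2]⟩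

lemma Rel.smul (r : k) {a'' : Z1'} {a' : X2} (ha : Rel φ ψ a'' a') :
    Rel φ ψ (r • a'') (r • a') := by
  obtain ⟨x, hx1, hx2⟩ := ha
  exact ⟨r • x, by rw [map_smul, hx1], by rw [map_smul, map_smul, hx2]⟩

lemma Rel.mem_Z2 (h : ShortExact φ ψ) {a'' : Z1'} {a' : X2} (ha : Rel φ ψ a'' a') :
    a' ∈ C'.Z2 := by
  obtain ⟨x, -, hx2⟩ := ha
  rw [LinearMap.mem_ker]
  apply h.inj3
  rw [φ.c2, ← hx2, C.d2_d1, map_zero]

lemma Rel.exists_of_mem (h : ShortExact φ ψ) (z : C''.Z1) : ∃ z' : C'.Z2, Rel φ ψ (z : Z1') (z' : X2) := by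
  obtain ⟨x, hx⟩ := h.surj1 z
  have h0 : ψ.m2 (C.d1 x) = 0 := by
    rw [ψ.c1, hx]; exact z.2
  obtain ⟨z', hz'⟩ := h.exact2 _ h0
  have hr : Rel φ ψ (z : Z1') z' := ⟨x, hx, hz'.symm⟩
  exact ⟨⟨z', hr.mem_Z2 h⟩, hr⟩

lemma Rel.unique (h : ShortExact φ ψ) {a'' : Z1'} {a' b' : C'.Z2}
    (ha : Rel φ ψ a'' (a' : X2)) (hb : Rel φ ψ a'' (b' : X2)) : C'.π2 a' = C'.π2 b' := by
  obtain ⟨x, hx1, hx2⟩ := ha
  obtain ⟨y, hy1, hy2⟩ := hb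
  obtain ⟨w, hw⟩ := h.exact1 (x - y) (by rw [map_sub, hx1, hy1, sub_self])
  rw [π2_eq_iff]
  refine ⟨w, h.inj2 ?_⟩
  rw [φ.c1, hw, map_sub, map_sub, hx2, hy2]

/-- The connecting map on cocycles. -/
noncomputable def δZ (h : ShortExact φ ψ) : C''.Z1 →ₗ[k] C'.H2 where
  toFun z := C'.π2 (Classical.choose (Rel.exists_of_mem h z))
  map_add' a b := by
    rw [← map_add]
    exact Rel.unique h (Classical.choose_spec (Rel.exists_of_mem h (a + b)))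
      ((Classical.choose_spec (Rel.exists_of_mem h a)).add
        (Classical.choose_spec (Rel.exists_of_mem h b)))
  map_smul' r a := by
    rw [RingHom.id_apply, ← map_smul]
    exact Rel.unique h (Classical.choose_spec (Rel.exists_of_mem h (r • a)))
      ((Classical.choose_spec (Rel.exists_of_mem h a)).smul r)

lemma δZ_eq (h : ShortExact φ ψ) (z : C''.Z1) (z' : C'.Z2) (hr : Rel φ ψ (z : Z1') (z' : X2)) :
    δZ h z = C'.π2 z' :=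
  Rel.unique h (Classical.choose_spec (Rel.exists_of_mem h z)) hr

/-- The connecting map `H¹(C'') → H²(C')`. -/
noncomputable def δ (h : ShortExact φ ψ) : C''.H1 →ₗ[k] C'.H2 :=
  C''.B1.liftQ (δZ h) (fun z hz => by
    rw [LinearMap.mem_ker]
    obtain ⟨y'', hy''⟩ := (C''.mem_B1_iff z).1 hz
    obtain ⟨y, rfl⟩ := h.surj0 y''
    rw [δZ_eq h z 0 ⟨C.d0 y, by rw [ψ.c0, hy''], by
      rw [C.d1_d0, Submodule.coe_zero, map_zero]⟩, map_zero])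

lemma δ_π1 (h : ShortExact φ ψ) (z : C''.Z1) (z' : C'.Z2) (hr : Rel φ ψ (z : Z1') (z' : X2)) :
    δ h (C''.π1 z) = C'.π2 z' := by
  rw [δ, π1, Submodule.mkQ_apply, Submodule.liftQ_apply]
  exact δZ_eq h z z' hr

/-- Exactness of `H¹(C) → H¹(C'') → H²(C')`. -/
theorem exact_mapH1_δ (h : ShortExact φ ψ) : Function.Exact ψ.mapH1 (δ h) := by
  intro c
  obtain ⟨z, rfl⟩ := C''.π1_surjective c
  obtain ⟨z', hr⟩ := Rel.exists_of_mem h z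
  rw [δ_π1 h z z' hr]
  constructor
  · intro h0
    obtain ⟨w', hw'⟩ := (C'.π2_eq_zero_iff z').1 h0
    obtain ⟨x, hx1, hx2⟩ := hr
    have hmem : x - φ.m1 w' ∈ C.Z1 := by
      rw [LinearMap.mem_ker, map_sub, hx2, ← φ.c1, hw', sub_self]
    refine ⟨C.π1 ⟨x - φ.m1 w', hmem⟩, ?_⟩
    rw [Hom.mapH1_π1]
    congr 1
    apply Subtype.ext
    rw [Hom.coe_mapZ1]
    show ψ.m1 (x - φ.m1 w') = z
    rw [map_sub, hx1, h.zero1, sub_zero]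
  · rintro ⟨b, hb⟩
    obtain ⟨y, rfl⟩ := C.π1_surjective b
    rw [Hom.mapH1_π1] at hb
    have : δ h (C''.π1 z) = 0 := by
      rw [← hb]
      rw [δ_π1 h (ψ.mapZ1 y) 0 ⟨y, rfl, by
        rw [Submodule.coe_zero, map_zero]; exact y.2⟩, map_zero]
    rw [← δ_π1 h z z' hr]
    exact this

/-- Exactness of `H¹(C'') → H²(C') → H²(C)`. -/
theorem exact_δ_mapH2 (h : ShortExact φ ψ) : Function.Exact (δ h) φ.mapH2 := by
  intro c
  obtain ⟨z', rfl⟩ := C'.π2_surjective c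
  rw [Hom.mapH2_π2]
  constructor
  · intro h0
    obtain ⟨x, hx⟩ := (C.π2_eq_zero_iff _).1 h0
    rw [Hom.coe_mapZ2] at hx
    have hmem : ψ.m1 x ∈ C''.Z1 := by
      rw [LinearMap.mem_ker, ← ψ.c1, hx, h.zero2]
    exact ⟨C''.π1 ⟨ψ.m1 x, hmem⟩, δ_π1 h _ z' ⟨x, rfl, hx⟩⟩
  · rintro ⟨b, hb⟩
    obtain ⟨z, rfl⟩ := C''.π1_surjective b
    obtain ⟨w', hr⟩ := Rel.exists_of_mem h z
    rw [δ_π1 h z w' hr] at hb
    rw [← Hom.mapH2_π2, ← hb, Hom.mapH2_π2, π2_eq_zero_iff]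
    obtain ⟨x, -, hx2⟩ := hr
    exact ⟨x, by rw [hx2]; rfl⟩

/-- Exactness of `H¹(C') → H¹(C) → H¹(C'')`. -/
theorem exact_mapH1_mapH1 (h : ShortExact φ ψ) : Function.Exact φ.mapH1 ψ.mapH1 := by
  intro c
  obtain ⟨z, rfl⟩ := C.π1_surjective c
  rw [Hom.mapH1_π1]
  constructor
  · intro h0
    obtain ⟨y'', hy''⟩ := (C''.π1_eq_zero_iff _).1 h0
    rw [Hom.coe_mapZ1] at hy''
    obtain ⟨y, rfl⟩ := h.surj0 y''
    obtain ⟨x', hx'⟩ := h.exact1 ((z : Y1) - C.d0 y) (by rw [map_sub, ← hy'', ψ.c0, sub_self])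
    have hmem : x' ∈ C'.Z1 := by
      rw [LinearMap.mem_ker]
      apply h.inj2
      rw [φ.c1, hx', map_sub, C.d1_d0, sub_zero, map_zero]
      exact z.2
    refine ⟨C'.π1 ⟨x', hmem⟩, ?_⟩
    rw [Hom.mapH1_π1, π1_eq_iff]
    exact ⟨-y, by rw [map_neg, Hom.coe_mapZ1]; show -C.d0 y = φ.m1 x' - z; rw [hx']; abel⟩
  · rintro ⟨b, hb⟩
    obtain ⟨z', rfl⟩ := C'.π1_surjective b
    rw [Hom.mapH1_π1] at hb
    rw [← Hom.mapH1_π1, ← hb, Hom.mapH1_π1, π1_eq_zero_iff]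
    exact ⟨0, by rw [map_zero, Hom.coe_mapZ1, Hom.coe_mapZ1, h.zero1]⟩

/-- Exactness of `H²(C') → H²(C) → H²(C'')`. -/
theorem exact_mapH2_mapH2 (h : ShortExact φ ψ) : Function.Exact φ.mapH2 ψ.mapH2 := by
  intro c
  obtain ⟨z, rfl⟩ := C.π2_surjective c
  rw [Hom.mapH2_π2]
  constructor
  · intro h0
    obtain ⟨x'', hx''⟩ := (C''.π2_eq_zero_iff _).1 h0
    rw [Hom.coe_mapZ2] at hx''
    obtain ⟨x, rfl⟩ := h.surj1 x''
    obtain ⟨z', hz'⟩ := h.exact2 ((z : Y2) - C.d1 x) (by rw [map_sub, ← hx'', ψ.c1, sub_self])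
    have hmem : z' ∈ C'.Z2 := by
      rw [LinearMap.mem_ker]
      apply h.inj3
      rw [φ.c2, hz', map_sub, C.d2_d1, sub_zero, map_zero]
      exact z.2
    refine ⟨C'.π2 ⟨z', hmem⟩, ?_⟩
    rw [Hom.mapH2_π2, π2_eq_iff]
    exact ⟨-x, by rw [map_neg, Hom.coe_mapZ2]; show -C.d1 x = φ.m2 z' - z; rw [hz']; abel⟩
  · rintro ⟨b, hb⟩
    obtain ⟨z', rfl⟩ := C'.π2_surjective b
    rw [Hom.mapH2_π2] at hb
    rw [← Hom.mapH2_π2, ← hb, Hom.mapH2_π2, π2_eq_zero_iff]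
    exact ⟨0, by rw [map_zero, Hom.coe_mapZ2, Hom.coe_mapZ2, h.zero2]⟩

end Les

end Cpx

end Abstract

/-! ## Part 2: level cochains for a group with a basis of open subgroups -/

section Level

variable {G : Type*} [Group G]

/-- A basis of "open" subgroups: nonempty, directed, with normal refinements, of finite index. -/
structure IsLevelBasis (𝒰 : Set (Subgroup G)) : Prop where
  nonempty : 𝒰.Nonempty
  inf : ∀ U ∈ 𝒰, ∀ V ∈ 𝒰, ∃ W ∈ 𝒰, W ≤ U ⊓ V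
  normal : ∀ U ∈ 𝒰, ∃ W ∈ 𝒰, W ≤ U ∧ W.Normal
  finiteIndex : ∀ U ∈ 𝒰, U.FiniteIndex

/-- A function on `G` is level (= locally constant) if it is right-invariant under some `U ∈ 𝒰`. -/
def IsLevel₁ (𝒰 : Set (Subgroup G)) {X : Type*} (f : G → X) : Prop :=
  ∃ U ∈ 𝒰, ∀ g s, s ∈ U → f (g * s) = f g

/-- A function on `G × G` is level if it is right-invariant under some `U × U`, `U ∈ 𝒰`. -/
def IsLevel₂ (𝒰 : Set (Subgroup G)) {X : Type*} (f : G × G → X) : Prop :=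
  ∃ U ∈ 𝒰, ∀ g g' s s', s ∈ U → s' ∈ U → f (g * s, g' * s') = f (g, g')

variable {𝒰 : Set (Subgroup G)}

lemma IsLevel₁.comp {X X' : Type*} {f : G → X} (hf : IsLevel₁ 𝒰 f) (φ : X → X') :
    IsLevel₁ 𝒰 (φ ∘ f) := by
  obtain ⟨U, hU, h⟩ := hf
  exact ⟨U, hU, fun g s hs => by simp only [Function.comp_apply, h g s hs]⟩

lemma IsLevel₂.comp {X X' : Type*} {f : G × G → X} (hf : IsLevel₂ 𝒰 f) (φ : X → X') :
    IsLevel₂ 𝒰 (φ ∘ f) := by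
  obtain ⟨U, hU, h⟩ := hf
  exact ⟨U, hU, fun g g' s s' hs hs' => by simp only [Function.comp_apply, h g g' s s' hs hs']⟩

lemma IsLevelBasis.isLevel₁_const (h𝒰 : IsLevelBasis 𝒰) {X : Type*} (x : X) :
    IsLevel₁ 𝒰 (fun _ : G => x) := by
  obtain ⟨U, hU⟩ := h𝒰.nonempty
  exact ⟨U, hU, fun _ _ _ => rfl⟩

lemma IsLevelBasis.isLevel₂_const (h𝒰 : IsLevelBasis 𝒰) {X : Type*} (x : X) :
    IsLevel₂ 𝒰 (fun _ : G × G => x) := by
  obtain ⟨U, hU⟩ := h𝒰.nonempty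
  exact ⟨U, hU, fun _ _ _ _ _ _ => rfl⟩

lemma IsLevelBasis.isLevel₁_add (h𝒰 : IsLevelBasis 𝒰) {X : Type*} [Add X] {f f' : G → X}
    (hf : IsLevel₁ 𝒰 f) (hf' : IsLevel₁ 𝒰 f') : IsLevel₁ 𝒰 (f + f') := by
  obtain ⟨U, hU, h⟩ := hf
  obtain ⟨U', hU', h'⟩ := hf'
  obtain ⟨W, hW, hWle⟩ := h𝒰.inf U hU U' hU'
  refine ⟨W, hW, fun g s hs => ?_⟩
  simp only [Pi.add_apply]
  rw [h g s (hWle hs).1, h' g s (hWle hs).2]

lemma IsLevelBasis.isLevel₂_add (h𝒰 : IsLevelBasis 𝒰) {X : Type*} [Add X] {f f' : G × G → X}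
    (hf : IsLevel₂ 𝒰 f) (hf' : IsLevel₂ 𝒰 f') : IsLevel₂ 𝒰 (f + f') := by
  obtain ⟨U, hU, h⟩ := hf
  obtain ⟨U', hU', h'⟩ := hf'
  obtain ⟨W, hW, hWle⟩ := h𝒰.inf U hU U' hU'
  refine ⟨W, hW, fun g g' s s' hs hs' => ?_⟩
  simp only [Pi.add_apply]
  rw [h g g' s s' (hWle hs).1 (hWle hs').1, h' g g' s s' (hWle hs).2 (hWle hs').2]

/-- Finitely many members of a level basis have a common lower bound in the basis. -/
lemma IsLevelBasis.exists_le_of_finite (h𝒰 : IsLevelBasis 𝒰) {ι : Type*} [Finite ι]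
    (V : ι → Subgroup G) (hV : ∀ i, V i ∈ 𝒰) : ∃ W ∈ 𝒰, ∀ i, W ≤ V i := by
  classical
  cases nonempty_fintype ι
  suffices H : ∀ s : Finset ι, ∃ W ∈ 𝒰, ∀ i ∈ s, W ≤ V i by
    obtain ⟨W, hW, h⟩ := H Finset.univ
    exact ⟨W, hW, fun i => h i (Finset.mem_univ i)⟩
  intro s
  induction s using Finset.induction_on with
  | empty =>
    obtain ⟨U, hU⟩ := h𝒰.nonempty
    exact ⟨U, hU, fun i hi => absurd hi (Finset.notMem_empty i)⟩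
  | insert a s _ ih =>
    obtain ⟨W, hW, h⟩ := ih
    obtain ⟨W', hW', hle⟩ := h𝒰.inf W hW (V a) (hV a)
    refine ⟨W', hW', fun i hi => ?_⟩
    rcases Finset.mem_insert.1 hi with rfl | hi
    · exact hle.trans inf_le_right
    · exact (hle.trans inf_le_left).trans (h i hi)

/-- A level function takes only finitely many values: it is determined by its values on a
(finite) set of coset representatives. -/
lemma IsLevelBasis.exists_normal_of_isLevel₁ (h𝒰 : IsLevelBasis 𝒰) {X : Type*} {f : G → X}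
    (hf : IsLevel₁ 𝒰 f) (P : X → Subgroup G → Prop)
    (hP : ∀ x, ∃ U ∈ 𝒰, P x U) (hmono : ∀ x U V, V ≤ U → P x U → P x V) :
    ∃ W ∈ 𝒰, W.Normal ∧ (∀ g s, s ∈ W → f (g * s) = f g) ∧ ∀ g, P (f g) W := by
  obtain ⟨U, hU, hfU⟩ := hf
  have := h𝒰.finiteIndex U hU
  have : Finite (G ⧸ U) := Subgroup.finite_quotient_of_finiteIndex
  choose V hV𝒰 hVP using hP
  obtain ⟨W₀, hW₀, hW₀le⟩ := h𝒰.exists_le_of_finite (fun q : G ⧸ U => V (f q.out))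
    (fun q => hV𝒰 _)
  obtain ⟨W₁, hW₁, hW₁le⟩ := h𝒰.inf W₀ hW₀ U hU
  obtain ⟨W, hW, hWle, hWn⟩ := h𝒰.normal W₁ hW₁
  have hrep : ∀ g : G, f g = f (QuotientGroup.mk (s := U) g).out := by
    intro g
    have hmem : ((QuotientGroup.mk (s := U) g).out)⁻¹ * g ∈ U := by
      rw [← QuotientGroup.eq]
      exact QuotientGroup.out_eq' _
    have := hfU (QuotientGroup.mk (s := U) g).out _ hmem
    rw [mul_inv_cancel_left] at this
    exact this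
  refine ⟨W, hW, hWn, fun g s hs => hfU g s ((hWle.trans hW₁le) hs).2, fun g => ?_⟩
  rw [hrep g]
  exact hmono _ _ _ ((hWle.trans hW₁le).trans (inf_le_left.trans (hW₀le _))) (hVP _)

end Level

/-! ## Part 3: inhomogeneous differentials in low degrees and discrete modules -/

section Diff

variable {k G : Type*} [CommRing k] [Group G]
variable {Y : Type*} [AddCommGroup Y] [Module k Y]

/-- `d⁰ y = (g ↦ g y - y)` (same formula as Mathlib's `groupCohomology.d₀₁`). -/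
def dZero (ρ : Representation k G Y) : Y →ₗ[k] (G → Y) where
  toFun y g := ρ g y - y
  map_add' x y := by funext g; simp only [map_add, Pi.add_apply]; abel
  map_smul' r y := by funext g; simp only [map_smul, Pi.smul_apply, RingHom.id_apply, smul_sub]

/-- `d¹ c = ((g, h) ↦ g c(h) - c(gh) + c(g))` (same formula as Mathlib's `d₁₂`). -/
def dOne (ρ : Representation k G Y) : (G → Y) →ₗ[k] (G × G → Y) where
  toFun c p := ρ p.1 (c p.2) - c (p.1 * p.2) + c p.1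
  map_add' x y := by funext p; simp only [map_add, Pi.add_apply]; abel
  map_smul' r y := by
    funext p; simp only [map_smul, Pi.smul_apply, RingHom.id_apply, smul_sub, smul_add]

/-- `d² c = ((g, h, j) ↦ g c(h, j) - c(gh, j) + c(g, hj) - c(g, h))` (as Mathlib's `d₂₃`). -/
def dTwo (ρ : Representation k G Y) : (G × G → Y) →ₗ[k] (G × G × G → Y) where
  toFun c p := ρ p.1 (c (p.2.1, p.2.2)) - c (p.1 * p.2.1, p.2.2) + c (p.1, p.2.1 * p.2.2)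
    - c (p.1, p.2.1)
  map_add' x y := by funext p; simp only [map_add, Pi.add_apply]; abel
  map_smul' r y := by
    funext p; simp only [map_smul, Pi.smul_apply, RingHom.id_apply, smul_sub, smul_add]

@[simp] lemma dZero_apply (ρ : Representation k G Y) (y : Y) (g : G) :
    dZero ρ y g = ρ g y - y := rfl

@[simp] lemma dOne_apply (ρ : Representation k G Y) (c : G → Y) (g h : G) :
    dOne ρ c (g, h) = ρ g (c h) - c (g * h) + c g := rfl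

@[simp] lemma dTwo_apply (ρ : Representation k G Y) (c : G × G → Y) (g h j : G) :
    dTwo ρ c (g, h, j) = ρ g (c (h, j)) - c (g * h, j) + c (g, h * j) - c (g, h) := rfl

lemma dOne_dZero (ρ : Representation k G Y) (y : Y) : dOne ρ (dZero ρ y) = 0 := by
  funext ⟨g, h⟩
  simp only [dOne_apply, dZero_apply, map_sub, map_mul, Module.End.mul_apply, Pi.zero_apply]
  abel

lemma dTwo_dOne (ρ : Representation k G Y) (c : G → Y) : dTwo ρ (dOne ρ c) = 0 := by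
  funext ⟨g, h, j⟩
  simp only [dTwo_apply, dOne_apply, map_sub, map_add, map_mul, Module.End.mul_apply,
    Pi.zero_apply, mul_assoc]
  abel

/-- Equivariant maps commute with `d⁰`. -/
lemma comp_dZero {Y' : Type*} [AddCommGroup Y'] [Module k Y'] (ρ : Representation k G Y)
    (ρ' : Representation k G Y') (f : Y →ₗ[k] Y') (hf : ∀ g y, f (ρ g y) = ρ' g (f y)) (y : Y) :
    f ∘ dZero ρ y = dZero ρ' (f y) := by
  funext g
  simp only [Function.comp_apply, dZero_apply, map_sub, hf]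

/-- Equivariant maps commute with `d¹`. -/
lemma comp_dOne {Y' : Type*} [AddCommGroup Y'] [Module k Y'] (ρ : Representation k G Y)
    (ρ' : Representation k G Y') (f : Y →ₗ[k] Y') (hf : ∀ g y, f (ρ g y) = ρ' g (f y))
    (c : G → Y) : f ∘ dOne ρ c = dOne ρ' (f ∘ c) := by
  funext ⟨g, h⟩
  simp only [Function.comp_apply, dOne_apply, map_sub, map_add, hf]

/-- Equivariant maps commute with `d²`. -/
lemma comp_dTwo {Y' : Type*} [AddCommGroup Y'] [Module k Y'] (ρ : Representation k G Y)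
    (ρ' : Representation k G Y') (f : Y →ₗ[k] Y') (hf : ∀ g y, f (ρ g y) = ρ' g (f y))
    (c : G × G → Y) : f ∘ dTwo ρ c = dTwo ρ' (f ∘ c) := by
  funext ⟨g, h, j⟩
  simp only [Function.comp_apply, dTwo_apply, map_sub, map_add, hf]

variable (𝒰 : Set (Subgroup G))

/-- A representation is discrete if every vector is fixed by some `U ∈ 𝒰`. -/
def IsDiscrete (ρ : Representation k G Y) : Prop :=
  ∀ y, ∃ U ∈ 𝒰, ∀ s ∈ U, ρ s y = y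

variable {𝒰}

lemma isLevel₁_dZero {ρ : Representation k G Y} (hρ : IsDiscrete 𝒰 ρ) (y : Y) :
    IsLevel₁ 𝒰 (dZero ρ y) := by
  obtain ⟨U, hU, h⟩ := hρ y
  refine ⟨U, hU, fun g s hs => ?_⟩
  simp only [dZero_apply, map_mul, Module.End.mul_apply, h s hs]

/-- A level cochain with values in a discrete module is invariant under, and has all its values
fixed by, a single normal `W ∈ 𝒰`. -/
lemma IsLevelBasis.exists_normal_fixing (h𝒰 : IsLevelBasis 𝒰) {ρ : Representation k G Y}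
    (hρ : IsDiscrete 𝒰 ρ) {c : G → Y} (hc : IsLevel₁ 𝒰 c) :
    ∃ W ∈ 𝒰, W.Normal ∧ (∀ g s, s ∈ W → c (g * s) = c g) ∧ ∀ g s, s ∈ W → ρ s (c g) = c g := by
  obtain ⟨W, hW, hWn, h1, h2⟩ := h𝒰.exists_normal_of_isLevel₁ hc
    (fun y U => ∀ s ∈ U, ρ s y = y) hρ (fun y U V hVU h s hs => h s (hVU hs))
  exact ⟨W, hW, hWn, h1, fun g s hs => h2 g s hs⟩

lemma IsLevelBasis.isLevel₂_dOne (h𝒰 : IsLevelBasis 𝒰) {ρ : Representation k G Y}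
    (hρ : IsDiscrete 𝒰 ρ) {c : G → Y} (hc : IsLevel₁ 𝒰 c) : IsLevel₂ 𝒰 (dOne ρ c) := by
  obtain ⟨W, hW, hWn, h1, h2⟩ := h𝒰.exists_normal_fixing hρ hc
  refine ⟨W, hW, fun g g' s s' hs hs' => ?_⟩
  simp only [dOne_apply, map_mul, Module.End.mul_apply]
  have e1 : c (g' * s') = c g' := h1 g' s' hs'
  have e2 : c (g * s) = c g := h1 g s hs
  have e3 : c (g * s * (g' * s')) = c (g * g') := by
    have : g * s * (g' * s') = g * g' * ((g'⁻¹ * s * g') * s') := by group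
    rw [this]
    refine h1 _ _ (W.mul_mem ?_ hs')
    have := hWn.conj_mem s hs g'⁻¹
    simpa using this
  rw [e1, e2, e3, h2 g' s hs]

end Diff

/-! ## Part 4: two-term complexes of discrete modules and their level hypercohomology -/

section Hyper

variable {k G : Type*} [CommRing k] [Group G]

lemma IsLevelBasis.isLevel₁_sub {𝒰 : Set (Subgroup G)} (h𝒰 : IsLevelBasis 𝒰) {X : Type*} [Sub X]
    {f f' : G → X} (hf : IsLevel₁ 𝒰 f) (hf' : IsLevel₁ 𝒰 f') : IsLevel₁ 𝒰 (f - f') := by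
  obtain ⟨U, hU, h⟩ := hf
  obtain ⟨U', hU', h'⟩ := hf'
  obtain ⟨W, hW, hWle⟩ := h𝒰.inf U hU U' hU'
  refine ⟨W, hW, fun g s hs => ?_⟩
  simp only [Pi.sub_apply]
  rw [h g s (hWle hs).1, h' g s (hWle hs).2]

variable (k) in
/-- The submodule of level 1-cochains. -/
def lev₁ {𝒰 : Set (Subgroup G)} (h𝒰 : IsLevelBasis 𝒰) (Y : Type*) [AddCommGroup Y] [Module k Y] :
    Submodule k (G → Y) where
  carrier := {f | IsLevel₁ 𝒰 f}
  add_mem' := h𝒰.isLevel₁_add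
  zero_mem' := h𝒰.isLevel₁_const 0
  smul_mem' c _ hf := hf.comp (c • ·)

variable (k) in
/-- The submodule of level 2-cochains. -/
def lev₂ {𝒰 : Set (Subgroup G)} (h𝒰 : IsLevelBasis 𝒰) (Y : Type*) [AddCommGroup Y] [Module k Y] :
    Submodule k (G × G → Y) where
  carrier := {f | IsLevel₂ 𝒰 f}
  add_mem' := h𝒰.isLevel₂_add
  zero_mem' := h𝒰.isLevel₂_const 0
  smul_mem' c _ hf := hf.comp (c • ·)

@[simp] lemma mem_lev₁ {𝒰 : Set (Subgroup G)} (h𝒰 : IsLevelBasis 𝒰) {Y : Type*} [AddCommGroup Y]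
    [Module k Y] (f : G → Y) : f ∈ lev₁ k h𝒰 Y ↔ IsLevel₁ 𝒰 f := Iff.rfl

@[simp] lemma mem_lev₂ {𝒰 : Set (Subgroup G)} (h𝒰 : IsLevelBasis 𝒰) {Y : Type*} [AddCommGroup Y]
    [Module k Y] (f : G × G → Y) : f ∈ lev₂ k h𝒰 Y ↔ IsLevel₂ 𝒰 f := Iff.rfl

variable (k) in
/-- Level part of the total 1-cochains `C¹(Y⁰) × C⁰(Y¹)`. -/
def K1lev {𝒰 : Set (Subgroup G)} (h𝒰 : IsLevelBasis 𝒰) (Y0 Y1 : Type*) [AddCommGroup Y0]
    [Module k Y0] [AddCommGroup Y1] [Module k Y1] : Submodule k ((G → Y0) × Y1) :=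
  (lev₁ k h𝒰 Y0).comap (LinearMap.fst k (G → Y0) Y1)

variable (k) in
/-- Level part of the total 2-cochains `C²(Y⁰) × C¹(Y¹)`. -/
def K2lev {𝒰 : Set (Subgroup G)} (h𝒰 : IsLevelBasis 𝒰) (Y0 Y1 : Type*) [AddCommGroup Y0]
    [Module k Y0] [AddCommGroup Y1] [Module k Y1] : Submodule k ((G × G → Y0) × (G → Y1)) :=
  (lev₂ k h𝒰 Y0).comap (LinearMap.fst k (G × G → Y0) (G → Y1)) ⊓
    (lev₁ k h𝒰 Y1).comap (LinearMap.snd k (G × G → Y0) (G → Y1))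

lemma mem_K1lev {𝒰 : Set (Subgroup G)} (h𝒰 : IsLevelBasis 𝒰) {Y0 Y1 : Type*} [AddCommGroup Y0]
    [Module k Y0] [AddCommGroup Y1] [Module k Y1] (x : (G → Y0) × Y1) :
    x ∈ K1lev k h𝒰 Y0 Y1 ↔ IsLevel₁ 𝒰 x.1 := Iff.rfl

lemma mem_K2lev {𝒰 : Set (Subgroup G)} (h𝒰 : IsLevelBasis 𝒰) {Y0 Y1 : Type*} [AddCommGroup Y0]
    [Module k Y0] [AddCommGroup Y1] [Module k Y1] (x : (G × G → Y0) × (G → Y1)) :
    x ∈ K2lev k h𝒰 Y0 Y1 ↔ IsLevel₂ 𝒰 x.1 ∧ IsLevel₁ 𝒰 x.2 := Iff.rfl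

/-- A two-term complex `f : Y⁰ → Y¹` of discrete `G`-modules. -/
structure Cx (k : Type*) [CommRing k] {G : Type*} [Group G] (𝒰 : Set (Subgroup G))
    (Y0 Y1 : Type*) [AddCommGroup Y0] [Module k Y0] [AddCommGroup Y1] [Module k Y1] where
  ρ0 : Representation k G Y0
  ρ1 : Representation k G Y1
  f : Y0 →ₗ[k] Y1
  comm : ∀ g y, f (ρ0 g y) = ρ1 g (f y)
  disc0 : IsDiscrete 𝒰 ρ0
  disc1 : IsDiscrete 𝒰 ρ1

namespace Cx

variable {𝒰 : Set (Subgroup G)}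
variable {Y0 Y1 : Type*} [AddCommGroup Y0] [Module k Y0] [AddCommGroup Y1] [Module k Y1]
variable (Y : Cx k 𝒰 Y0 Y1)

/-- Total differential in degree 0: `y ↦ (d⁰ y, f y)`. -/
def D0 : Y0 →ₗ[k] (G → Y0) × Y1 := (dZero Y.ρ0).prod Y.f

/-- Total differential in degree 1: `(c, e) ↦ (d¹ c, f ∘ c - d⁰ e)`. -/
def D1 : (G → Y0) × Y1 →ₗ[k] (G × G → Y0) × (G → Y1) :=
  ((dOne Y.ρ0).comp (LinearMap.fst k (G → Y0) Y1)).prod
    ((Y.f.compLeft G).comp (LinearMap.fst k (G → Y0) Y1) -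
      (dZero Y.ρ1).comp (LinearMap.snd k (G → Y0) Y1))

/-- Total differential in degree 2: `(c, e) ↦ (d² c, f ∘ c - d¹ e)`. -/
def D2 : (G × G → Y0) × (G → Y1) →ₗ[k] (G × G × G → Y0) × (G × G → Y1) :=
  ((dTwo Y.ρ0).comp (LinearMap.fst k (G × G → Y0) (G → Y1))).prod
    ((Y.f.compLeft (G × G)).comp (LinearMap.fst k (G × G → Y0) (G → Y1)) -
      (dOne Y.ρ1).comp (LinearMap.snd k (G × G → Y0) (G → Y1)))

lemma D0_apply (y : Y0) : Y.D0 y = (dZero Y.ρ0 y, Y.f y) := rfl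

lemma D1_apply (x : (G → Y0) × Y1) :
    Y.D1 x = (dOne Y.ρ0 x.1, ⇑Y.f ∘ x.1 - dZero Y.ρ1 x.2) := rfl

lemma D2_apply (x : (G × G → Y0) × (G → Y1)) :
    Y.D2 x = (dTwo Y.ρ0 x.1, ⇑Y.f ∘ x.1 - dOne Y.ρ1 x.2) := rfl

lemma D1_D0 (y : Y0) : Y.D1 (Y.D0 y) = 0 := by
  rw [D0_apply, D1_apply]
  simp only [dOne_dZero, comp_dZero Y.ρ0 Y.ρ1 Y.f Y.comm, sub_self]
  rfl

lemma D2_D1 (x : (G → Y0) × Y1) : Y.D2 (Y.D1 x) = 0 := by
  rw [D1_apply, D2_apply]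
  simp only [dTwo_dOne, comp_dOne Y.ρ0 Y.ρ1 Y.f Y.comm, map_sub, dOne_dZero, sub_zero, sub_self]
  rfl

lemma D0_mem (h𝒰 : IsLevelBasis 𝒰) (y : Y0) : Y.D0 y ∈ K1lev k h𝒰 Y0 Y1 :=
  isLevel₁_dZero Y.disc0 y

lemma D1_mem (h𝒰 : IsLevelBasis 𝒰) (x : (G → Y0) × Y1) (hx : x ∈ K1lev k h𝒰 Y0 Y1) :
    Y.D1 x ∈ K2lev k h𝒰 Y0 Y1 :=
  ⟨h𝒰.isLevel₂_dOne Y.disc0 hx,
    h𝒰.isLevel₁_sub (IsLevel₁.comp hx _) (isLevel₁_dZero Y.disc1 x.2)⟩

/-- The level total complex `Y⁰ → K¹_lev → K²_lev → K³` of a two-term complex. -/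
def tot (h𝒰 : IsLevelBasis 𝒰) :
    Cpx k Y0 (K1lev k h𝒰 Y0 Y1) (K2lev k h𝒰 Y0 Y1) ((G × G × G → Y0) × (G × G → Y1)) where
  d0 := Y.D0.codRestrict (K1lev k h𝒰 Y0 Y1) (Y.D0_mem h𝒰)
  d1 := Y.D1.restrict (Y.D1_mem h𝒰)
  d2 := Y.D2.comp (K2lev k h𝒰 Y0 Y1).subtype
  d1_d0 y := Subtype.ext (Y.D1_D0 y)
  d2_d1 x := Y.D2_D1 x

/-- First level hypercohomology `ℍ¹(G, Y⁰ → Y¹)`. -/
abbrev ℍ1 (h𝒰 : IsLevelBasis 𝒰) : Type _ := (Y.tot h𝒰).H1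

/-- Second level hypercohomology `ℍ²(G, Y⁰ → Y¹)`. -/
abbrev ℍ2 (h𝒰 : IsLevelBasis 𝒰) : Type _ := (Y.tot h𝒰).H2

/-- Explicit description of hyper-1-cocycles. -/
lemma mem_Z1_iff (h𝒰 : IsLevelBasis 𝒰) (x : K1lev k h𝒰 Y0 Y1) :
    x ∈ (Y.tot h𝒰).Z1 ↔ dOne Y.ρ0 x.1.1 = 0 ∧ ⇑Y.f ∘ x.1.1 = dZero Y.ρ1 x.1.2 := by
  rw [LinearMap.mem_ker, Subtype.ext_iff]
  show Y.D1 x.1 = 0 ↔ _
  rw [D1_apply, Prod.mk_eq_zero, sub_eq_zero]

/-- Explicit description of hyper-2-cocycles. -/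
lemma mem_Z2_iff (h𝒰 : IsLevelBasis 𝒰) (x : K2lev k h𝒰 Y0 Y1) :
    x ∈ (Y.tot h𝒰).Z2 ↔ dTwo Y.ρ0 x.1.1 = 0 ∧ ⇑Y.f ∘ x.1.1 = dOne Y.ρ1 x.1.2 := by
  rw [LinearMap.mem_ker]
  show Y.D2 x.1 = 0 ↔ _
  rw [D2_apply, Prod.mk_eq_zero, sub_eq_zero]

variable {A0 A1 B0 B1 C0 C1 : Type*}
  [AddCommGroup A0] [Module k A0] [AddCommGroup A1] [Module k A1]
  [AddCommGroup B0] [Module k B0] [AddCommGroup B1] [Module k B1]
  [AddCommGroup C0] [Module k C0] [AddCommGroup C1] [Module k C1]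

/-- A morphism of two-term complexes of `G`-modules. -/
structure Hom (A : Cx k 𝒰 A0 A1) (B : Cx k 𝒰 B0 B1) where
  φ0 : A0 →ₗ[k] B0
  φ1 : A1 →ₗ[k] B1
  comm0 : ∀ g y, φ0 (A.ρ0 g y) = B.ρ0 g (φ0 y)
  comm1 : ∀ g y, φ1 (A.ρ1 g y) = B.ρ1 g (φ1 y)
  commf : ∀ y, φ1 (A.f y) = B.f (φ0 y)

namespace Hom

variable {A : Cx k 𝒰 A0 A1} {B : Cx k 𝒰 B0 B1} {C : Cx k 𝒰 C0 C1}

/-- The map on total 1-cochains. -/
def map1 (φ : Hom A B) : (G → A0) × A1 →ₗ[k] (G → B0) × B1 :=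
  (φ.φ0.compLeft G).prodMap φ.φ1

/-- The map on total 2-cochains. -/
def map2 (φ : Hom A B) : (G × G → A0) × (G → A1) →ₗ[k] (G × G → B0) × (G → B1) :=
  (φ.φ0.compLeft (G × G)).prodMap (φ.φ1.compLeft G)

/-- The map on total 3-cochains. -/
def map3 (φ : Hom A B) :
    (G × G × G → A0) × (G × G → A1) →ₗ[k] (G × G × G → B0) × (G × G → B1) :=
  (φ.φ0.compLeft (G × G × G)).prodMap (φ.φ1.compLeft (G × G))

lemma map1_apply (φ : Hom A B) (x : (G → A0) × A1) : φ.map1 x = (⇑φ.φ0 ∘ x.1, φ.φ1 x.2) := rfl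
lemma map2_apply (φ : Hom A B) (x : (G × G → A0) × (G → A1)) :
    φ.map2 x = (⇑φ.φ0 ∘ x.1, ⇑φ.φ1 ∘ x.2) := rfl
lemma map3_apply (φ : Hom A B) (x : (G × G × G → A0) × (G × G → A1)) :
    φ.map3 x = (⇑φ.φ0 ∘ x.1, ⇑φ.φ1 ∘ x.2) := rfl

lemma map1_D0 (φ : Hom A B) (y : A0) : φ.map1 (A.D0 y) = B.D0 (φ.φ0 y) := by
  rw [D0_apply, D0_apply, map1_apply]
  simp only [comp_dZero A.ρ0 B.ρ0 φ.φ0 φ.comm0, φ.commf]

lemma map2_D1 (φ : Hom A B) (x : (G → A0) × A1) : φ.map2 (A.D1 x) = B.D1 (φ.map1 x) := by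
  rw [D1_apply, D1_apply, map2_apply, map1_apply]
  refine Prod.ext (comp_dOne A.ρ0 B.ρ0 φ.φ0 φ.comm0 _) ?_
  funext g
  simp only [Function.comp_apply, Pi.sub_apply, map_sub, dZero_apply, φ.commf, φ.comm1]

lemma map3_D2 (φ : Hom A B) (x : (G × G → A0) × (G → A1)) :
    φ.map3 (A.D2 x) = B.D2 (φ.map2 x) := by
  rw [D2_apply, D2_apply, map3_apply, map2_apply]
  refine Prod.ext (comp_dTwo A.ρ0 B.ρ0 φ.φ0 φ.comm0 _) ?_
  funext ⟨g, h⟩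
  simp only [Function.comp_apply, Pi.sub_apply, map_sub, map_add, dOne_apply, φ.commf, φ.comm1]

lemma map1_mem (φ : Hom A B) (h𝒰 : IsLevelBasis 𝒰) (x : (G → A0) × A1)
    (hx : x ∈ K1lev k h𝒰 A0 A1) : φ.map1 x ∈ K1lev k h𝒰 B0 B1 :=
  (mem_K1lev h𝒰 _).2 (((mem_K1lev h𝒰 _).1 hx).comp _)

lemma map2_mem (φ : Hom A B) (h𝒰 : IsLevelBasis 𝒰) (x : (G × G → A0) × (G → A1))
    (hx : x ∈ K2lev k h𝒰 A0 A1) : φ.map2 x ∈ K2lev k h𝒰 B0 B1 :=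
  (mem_K2lev h𝒰 _).2 ⟨((mem_K2lev h𝒰 _).1 hx).1.comp _, ((mem_K2lev h𝒰 _).1 hx).2.comp _⟩

/-- The induced morphism of level total complexes. -/
def tot (φ : Hom A B) (h𝒰 : IsLevelBasis 𝒰) : Cpx.Hom (A.tot h𝒰) (B.tot h𝒰) where
  m0 := φ.φ0
  m1 := φ.map1.restrict (φ.map1_mem h𝒰)
  m2 := φ.map2.restrict (φ.map2_mem h𝒰)
  m3 := φ.map3
  c0 y := Subtype.ext (φ.map1_D0 y)
  c1 x := Subtype.ext (φ.map2_D1 x)
  c2 x := φ.map3_D2 x

/-- The induced map on `ℍ¹`. -/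
def mapℍ1 (φ : Hom A B) (h𝒰 : IsLevelBasis 𝒰) : A.ℍ1 h𝒰 →ₗ[k] B.ℍ1 h𝒰 := (φ.tot h𝒰).mapH1

/-- The induced map on `ℍ²`. -/
def mapℍ2 (φ : Hom A B) (h𝒰 : IsLevelBasis 𝒰) : A.ℍ2 h𝒰 →ₗ[k] B.ℍ2 h𝒰 := (φ.tot h𝒰).mapH2

/-- Termwise short exactness `0 → A → B → C → 0` of two-term complexes. -/
structure ShortExact (φ : Hom A B) (ψ : Hom B C) : Prop where
  inj0 : Injective φ.φ0
  inj1 : Injective φ.φ1
  surj0 : Surjective ψ.φ0
  surj1 : Surjective ψ.φ1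
  exact0 : Function.Exact φ.φ0 ψ.φ0
  exact1 : Function.Exact φ.φ1 ψ.φ1

/-- Lifting a cochain through a surjection, pointwise. -/
lemma exists_lift {X : Type*} {M N : Type*} (ψ : M → N) (hψ : Surjective ψ) (c : X → N) :
    ψ ∘ (Function.surjInv hψ ∘ c) = c := by
  funext x
  exact Function.surjInv_eq hψ (c x)

/-- Factoring a cochain with values in the range of an injection, pointwise. -/
lemma exists_factor {X : Type*} {M N P : Type*} [Zero M] (φ : M → N) (ψ : N → P) [Zero P]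
    (hex : Function.Exact φ ψ) (c : X → N) (hc : ψ ∘ c = 0) :
    ∃ τ : N → M, φ ∘ (τ ∘ c) = c := by
  classical
  refine ⟨fun n => if h : ∃ m, φ m = n then h.choose else 0, ?_⟩
  funext x
  have hx : ψ (c x) = 0 := congrFun hc x
  have hex' : ∃ m, φ m = c x := (hex (c x)).1 hx
  simp only [Function.comp_apply, dif_pos hex']
  exact hex'.choose_spec

theorem ShortExact.tot {φ : Hom A B} {ψ : Hom B C} (h : ShortExact φ ψ) (h𝒰 : IsLevelBasis 𝒰) :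
    Cpx.ShortExact (φ.tot h𝒰) (ψ.tot h𝒰) where
  inj2 := by
    rintro ⟨⟨c, e⟩, hx⟩ ⟨⟨c', e'⟩, hx'⟩ hxx
    have hxx' := congrArg Subtype.val hxx
    change (φ.map2 (c, e)) = (φ.map2 (c', e')) at hxx'
    rw [map2_apply, map2_apply, Prod.mk.injEq] at hxx'
    apply Subtype.ext
    exact Prod.ext (h.inj0.comp_left hxx'.1) (h.inj1.comp_left hxx'.2)
  inj3 := by
    rintro ⟨c, e⟩ ⟨c', e'⟩ hxx
    change (φ.map3 (c, e)) = (φ.map3 (c', e')) at hxx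
    rw [map3_apply, map3_apply, Prod.mk.injEq] at hxx
    exact Prod.ext (h.inj0.comp_left hxx.1) (h.inj1.comp_left hxx.2)
  surj0 := h.surj0
  surj1 := by
    rintro ⟨⟨c, e⟩, hx⟩
    have hc : IsLevel₁ 𝒰 c := hx
    refine ⟨⟨(Function.surjInv h.surj0 ∘ c, Function.surjInv h.surj1 e),
      (mem_K1lev h𝒰 _).2 (hc.comp (Function.surjInv h.surj0))⟩, ?_⟩
    apply Subtype.ext
    change ψ.map1 _ = (c, e)
    rw [map1_apply]
    exact Prod.ext (exists_lift _ h.surj0 c) (Function.surjInv_eq h.surj1 e)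
  zero1 := by
    rintro ⟨⟨c, e⟩, hx⟩
    apply Subtype.ext
    change ψ.map1 (φ.map1 (c, e)) = 0
    rw [map1_apply, map1_apply]
    refine Prod.ext ?_ (h.exact1.apply_apply_eq_zero e)
    funext g
    exact h.exact0.apply_apply_eq_zero (c g)
  zero2 := by
    rintro ⟨⟨c, e⟩, hx⟩
    apply Subtype.ext
    change ψ.map2 (φ.map2 (c, e)) = 0
    rw [map2_apply, map2_apply]
    refine Prod.ext ?_ ?_
    · funext g
      exact h.exact0.apply_apply_eq_zero (c g)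
    · funext g
      exact h.exact1.apply_apply_eq_zero (e g)
  exact1 := by
    rintro ⟨⟨c, e⟩, hx⟩ h0
    have h0' := congrArg Subtype.val h0
    change ψ.map1 (c, e) = 0 at h0'
    rw [map1_apply, Prod.mk_eq_zero] at h0'
    obtain ⟨τ, hτ⟩ := exists_factor φ.φ0 ψ.φ0 h.exact0 c h0'.1
    obtain ⟨e', he'⟩ := (h.exact1 e).1 h0'.2
    have hc : IsLevel₁ 𝒰 c := hx
    refine ⟨⟨(τ ∘ c, e'), (mem_K1lev h𝒰 _).2 (hc.comp τ)⟩, ?_⟩
    apply Subtype.ext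
    change φ.map1 _ = (c, e)
    rw [map1_apply]
    exact Prod.ext hτ he'
  exact2 := by
    rintro ⟨⟨c, e⟩, hx⟩ h0
    have h0' := congrArg Subtype.val h0
    change ψ.map2 (c, e) = 0 at h0'
    rw [map2_apply, Prod.mk_eq_zero] at h0'
    obtain ⟨τ, hτ⟩ := exists_factor φ.φ0 ψ.φ0 h.exact0 c h0'.1
    obtain ⟨τ', hτ'⟩ := exists_factor φ.φ1 ψ.φ1 h.exact1 e h0'.2
    have hc : IsLevel₂ 𝒰 c := hx.1
    have he : IsLevel₁ 𝒰 e := hx.2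
    refine ⟨⟨(τ ∘ c, τ' ∘ e), (mem_K2lev h𝒰 _).2 ⟨hc.comp τ, he.comp τ'⟩⟩, ?_⟩
    apply Subtype.ext
    change φ.map2 _ = (c, e)
    rw [map2_apply]
    exact Prod.ext hτ hτ'

/-- The connecting map `ℍ¹(C) → ℍ²(A)` of a short exact sequence `0 → A → B → C → 0`. -/
noncomputable def δ {φ : Hom A B} {ψ : Hom B C} (h : ShortExact φ ψ) (h𝒰 : IsLevelBasis 𝒰) :
    C.ℍ1 h𝒰 →ₗ[k] A.ℍ2 h𝒰 :=
  Cpx.δ (h.tot h𝒰)

/-- `ℍ¹(B) → ℍ¹(C) → ℍ²(A)` is exact. -/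
theorem exact_mapℍ1_δ {φ : Hom A B} {ψ : Hom B C} (h : ShortExact φ ψ) (h𝒰 : IsLevelBasis 𝒰) :
    Function.Exact (ψ.mapℍ1 h𝒰) (δ h h𝒰) :=
  Cpx.exact_mapH1_δ (h.tot h𝒰)

/-- `ℍ¹(C) → ℍ²(A) → ℍ²(B)` is exact. -/
theorem exact_δ_mapℍ2 {φ : Hom A B} {ψ : Hom B C} (h : ShortExact φ ψ) (h𝒰 : IsLevelBasis 𝒰) :
    Function.Exact (δ h h𝒰) (φ.mapℍ2 h𝒰) :=
  Cpx.exact_δ_mapH2 (h.tot h𝒰)

/-- `ℍ¹(A) → ℍ¹(B) → ℍ¹(C)` is exact. -/
theorem exact_mapℍ1_mapℍ1 {φ : Hom A B} {ψ : Hom B C} (h : ShortExact φ ψ)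
    (h𝒰 : IsLevelBasis 𝒰) : Function.Exact (φ.mapℍ1 h𝒰) (ψ.mapℍ1 h𝒰) :=
  Cpx.exact_mapH1_mapH1 (h.tot h𝒰)

/-- `ℍ²(A) → ℍ²(B) → ℍ²(C)` is exact. -/
theorem exact_mapℍ2_mapℍ2 {φ : Hom A B} {ψ : Hom B C} (h : ShortExact φ ψ)
    (h𝒰 : IsLevelBasis 𝒰) : Function.Exact (φ.mapℍ2 h𝒰) (ψ.mapℍ2 h𝒰) :=
  Cpx.exact_mapH2_mapH2 (h.tot h𝒰)

end Hom

end Cx

end Hyper

end Fermat.Agent.PT.PRO.HyperLevel25
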