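/-
Program F (S55, Poitou–Tate), chapter PRO, helper4 (program lead).

`Resolved4`: on top of `HyperLevel25` (unbundled `Representation k G Y`, level cochains):

* `lvl ρ`   : the level complex `Y → C¹_lev(Y) → C²_lev(Y) → C³(Y)` of a discrete module, as a
  `HyperLevel25.Cpx`; `Hlev1 = (lvl ρ).H1`, `Hlev2 = (lvl ρ).H2` are level `H¹`, `H²`;
* `lvl0 ρ`  : the SHIFTED complex `0 → Y → C¹_lev(Y) → C²_lev(Y)`; `(lvl0 ρ).H1 = Y^G` (as a quotient by
  `⊥`), `(lvl0 ρ).H2 = H¹` -- so that `HyperLevel25.Cpx.δ` for `lvl0` is the connecting map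
  `H⁰(C) → H¹(A)` and the abstract long exact sequence gives
  `A^G → B^G → C^G → H¹(A) → H¹(B) → H¹(C)`;
* equivariant maps and short exact sequences of discrete modules induce `Cpx.Hom` / `Cpx.ShortExact`;
* `Resolved` : a short exact sequence `0 → P₁ → P₀ → M → 0` of discrete `G`-modules (the "resolved
  modules" of `PT_SPINE4.md` §1), `Resolved.K` : the two-term complex `Hom(P₀, C) → Hom(P₁, C)` as a
  `HyperLevel25.Cx` (for `P₀, P₁` finitely generated), morphisms, and the short exact sequence of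
  `K`'s attached to a (split) short exact sequence of resolved modules.
-/
import Mathlib
import Fermat.Agent.PT.PRO.HyperLevel25

set_option autoImplicit false

namespace Fermat.Agent.PT.PRO.Resolved4

open Function Fermat.Agent.PT.PRO.HyperLevel25

/-! ## Part 1: the level complexes `lvl`, `lvl0` -/

section Lvl

variable {k G : Type*} [CommRing k] [Group G] {𝒰 : Set (Subgroup G)}
variable {Y : Type*} [AddCommGroup Y] [Module k Y]

/-- `d⁰` with values in level 1-cochains. -/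
def dZeroLev (h𝒰 : IsLevelBasis 𝒰) (ρ : Representation k G Y) (hρ : IsDiscrete 𝒰 ρ) :
    Y →ₗ[k] lev₁ k h𝒰 Y :=
  (dZero ρ).codRestrict (lev₁ k h𝒰 Y) (isLevel₁_dZero hρ)

/-- `d¹` from level 1-cochains to level 2-cochains. -/
def dOneLev (h𝒰 : IsLevelBasis 𝒰) (ρ : Representation k G Y) (hρ : IsDiscrete 𝒰 ρ) :
    lev₁ k h𝒰 Y →ₗ[k] lev₂ k h𝒰 Y :=
  (dOne ρ).restrict (p := lev₁ k h𝒰 Y) (q := lev₂ k h𝒰 Y) (fun _ hc => h𝒰.isLevel₂_dOne hρ hc)

@[simp] lemma coe_dZeroLev (h𝒰 : IsLevelBasis 𝒰) (ρ : Representation k G Y) (hρ : IsDiscrete 𝒰 ρ)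
    (y : Y) : ((dZeroLev h𝒰 ρ hρ y : lev₁ k h𝒰 Y) : G → Y) = dZero ρ y := rfl

@[simp] lemma coe_dOneLev (h𝒰 : IsLevelBasis 𝒰) (ρ : Representation k G Y) (hρ : IsDiscrete 𝒰 ρ)
    (c : lev₁ k h𝒰 Y) : ((dOneLev h𝒰 ρ hρ c : lev₂ k h𝒰 Y) : G × G → Y) = dOne ρ c := rfl

/-- The level complex `Y → C¹_lev → C²_lev → C³` of a discrete module. -/
def lvl (h𝒰 : IsLevelBasis 𝒰) (ρ : Representation k G Y) (hρ : IsDiscrete 𝒰 ρ) :
    Cpx k Y (lev₁ k h𝒰 Y) (lev₂ k h𝒰 Y) (G × G × G → Y) where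
  d0 := dZeroLev h𝒰 ρ hρ
  d1 := dOneLev h𝒰 ρ hρ
  d2 := (dTwo ρ).comp (lev₂ k h𝒰 Y).subtype
  d1_d0 y := Subtype.ext (dOne_dZero ρ y)
  d2_d1 c := dTwo_dOne ρ c

/-- The shifted level complex `0 → Y → C¹_lev → C²_lev`: its `H1` is `Y^G`, its `H2` is `H¹`. -/
def lvl0 (h𝒰 : IsLevelBasis 𝒰) (ρ : Representation k G Y) (hρ : IsDiscrete 𝒰 ρ) :
    Cpx k PUnit.{1} Y (lev₁ k h𝒰 Y) (lev₂ k h𝒰 Y) where
  d0 := 0
  d1 := dZeroLev h𝒰 ρ hρ
  d2 := dOneLev h𝒰 ρ hρ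
  d1_d0 _ := by simp
  d2_d1 y := Subtype.ext (dOne_dZero ρ y)

/-- Level `H¹`. -/
abbrev Hlev1 (h𝒰 : IsLevelBasis 𝒰) (ρ : Representation k G Y) (hρ : IsDiscrete 𝒰 ρ) : Type _ :=
  (lvl h𝒰 ρ hρ).H1

/-- Level `H²`. -/
abbrev Hlev2 (h𝒰 : IsLevelBasis 𝒰) (ρ : Representation k G Y) (hρ : IsDiscrete 𝒰 ρ) : Type _ :=
  (lvl h𝒰 ρ hρ).H2

/-- Level `H⁰` (the invariants, as `ker d⁰` modulo `⊥`). -/
abbrev Hlev0 (h𝒰 : IsLevelBasis 𝒰) (ρ : Representation k G Y) (hρ : IsDiscrete 𝒰 ρ) : Type _ :=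
  (lvl0 h𝒰 ρ hρ).H1

/-- `H2` of the shifted complex is `H1` of the level complex (definitionally). -/
example (h𝒰 : IsLevelBasis 𝒰) (ρ : Representation k G Y) (hρ : IsDiscrete 𝒰 ρ) :
    (lvl0 h𝒰 ρ hρ).H2 = Hlev1 h𝒰 ρ hρ := rfl


variable (h𝒰 : IsLevelBasis 𝒰) (ρ : Representation k G Y) (hρ : IsDiscrete 𝒰 ρ)

lemma mem_lvl_Z1_iff (c : lev₁ k h𝒰 Y) : c ∈ (lvl h𝒰 ρ hρ).Z1 ↔ dOne ρ (c : G → Y) = 0 := by
  rw [LinearMap.mem_ker, Subtype.ext_iff]; rfl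

lemma mem_lvl_Z2_iff (c : lev₂ k h𝒰 Y) : c ∈ (lvl h𝒰 ρ hρ).Z2 ↔ dTwo ρ (c : G × G → Y) = 0 := by
  rw [LinearMap.mem_ker]; rfl

lemma mem_lvl0_Z1_iff (y : Y) : y ∈ (lvl0 h𝒰 ρ hρ).Z1 ↔ ∀ g, ρ g y = y := by
  rw [LinearMap.mem_ker, Subtype.ext_iff]
  show dZero ρ y = 0 ↔ _
  constructor
  · intro h g
    have := congrFun h g
    rwa [dZero_apply, Pi.zero_apply, sub_eq_zero] at this
  · intro h
    funext g
    rw [dZero_apply, Pi.zero_apply, sub_eq_zero]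
    exact h g

/-- The level 1-cocycle attached to a function. -/
def mkZ1 (c : G → Y) (hl : IsLevel₁ 𝒰 c) (hc : dOne ρ c = 0) : (lvl h𝒰 ρ hρ).Z1 :=
  ⟨⟨c, hl⟩, (mem_lvl_Z1_iff h𝒰 ρ hρ _).2 hc⟩

/-- The level 2-cocycle attached to a function. -/
def mkZ2 (c : G × G → Y) (hl : IsLevel₂ 𝒰 c) (hc : dTwo ρ c = 0) : (lvl h𝒰 ρ hρ).Z2 :=
  ⟨⟨c, hl⟩, (mem_lvl_Z2_iff h𝒰 ρ hρ _).2 hc⟩

/-- The invariant element as a 0-cocycle. -/
def mkZ0 (y : Y) (hy : ∀ g, ρ g y = y) : (lvl0 h𝒰 ρ hρ).Z1 :=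
  ⟨y, (mem_lvl0_Z1_iff h𝒰 ρ hρ y).2 hy⟩

@[simp] lemma coe_mkZ1 (c : G → Y) (hl : IsLevel₁ 𝒰 c) (hc : dOne ρ c = 0) :
    (((mkZ1 h𝒰 ρ hρ c hl hc : (lvl h𝒰 ρ hρ).Z1) : lev₁ k h𝒰 Y) : G → Y) = c := rfl

@[simp] lemma coe_mkZ2 (c : G × G → Y) (hl : IsLevel₂ 𝒰 c) (hc : dTwo ρ c = 0) :
    (((mkZ2 h𝒰 ρ hρ c hl hc : (lvl h𝒰 ρ hρ).Z2) : lev₂ k h𝒰 Y) : G × G → Y) = c := rfl

lemma π2_lvl_eq_zero_iff (z : (lvl h𝒰 ρ hρ).Z2) :
    (lvl h𝒰 ρ hρ).π2 z = 0 ↔ ∃ b : G → Y, IsLevel₁ 𝒰 b ∧ dOne ρ b = ((z : lev₂ k h𝒰 Y) : G × G → Y) := by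
  rw [Cpx.π2_eq_zero_iff]
  constructor
  · rintro ⟨x, hx⟩
    exact ⟨x.1, x.2, congrArg Subtype.val hx⟩
  · rintro ⟨b, hb, h⟩
    exact ⟨⟨b, hb⟩, Subtype.ext h⟩

lemma π2_lvl_eq_iff (z w : (lvl h𝒰 ρ hρ).Z2) :
    (lvl h𝒰 ρ hρ).π2 z = (lvl h𝒰 ρ hρ).π2 w ↔ ∃ b : G → Y, IsLevel₁ 𝒰 b ∧
      dOne ρ b = ((z : lev₂ k h𝒰 Y) : G × G → Y) - ((w : lev₂ k h𝒰 Y) : G × G → Y) := by
  rw [← sub_eq_zero, ← map_sub, π2_lvl_eq_zero_iff]
  rfl

lemma π1_lvl_eq_zero_iff (z : (lvl h𝒰 ρ hρ).Z1) :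
    (lvl h𝒰 ρ hρ).π1 z = 0 ↔ ∃ y : Y, dZero ρ y = ((z : lev₁ k h𝒰 Y) : G → Y) := by
  rw [Cpx.π1_eq_zero_iff]
  constructor
  · rintro ⟨y, hy⟩
    exact ⟨y, congrArg Subtype.val hy⟩
  · rintro ⟨y, h⟩
    exact ⟨y, Subtype.ext h⟩

lemma π1_lvl0_eq_iff (z w : (lvl0 h𝒰 ρ hρ).Z1) :
    (lvl0 h𝒰 ρ hρ).π1 z = (lvl0 h𝒰 ρ hρ).π1 w ↔ (z : Y) = (w : Y) := by
  rw [Cpx.π1_eq_iff]
  constructor
  · rintro ⟨y, hy⟩
    have : (0 : Y) = (z : Y) - (w : Y) := hy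
    exact sub_eq_zero.1 this.symm
  · intro h
    exact ⟨0, by rw [h, sub_self]; rfl⟩

end Lvl

/-! ## Part 2: functoriality of `lvl`, `lvl0` and short exact sequences -/

section LvlHom

variable {k G : Type*} [CommRing k] [Group G] {𝒰 : Set (Subgroup G)}
variable {A B C : Type*} [AddCommGroup A] [Module k A] [AddCommGroup B] [Module k B]
  [AddCommGroup C] [Module k C]
variable (h𝒰 : IsLevelBasis 𝒰)
variable {ρA : Representation k G A} {ρB : Representation k G B} {ρC : Representation k G C}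
variable (hA : IsDiscrete 𝒰 ρA) (hB : IsDiscrete 𝒰 ρB) (hC : IsDiscrete 𝒰 ρC)

/-- Post-composition on level 1-cochains. -/
def compLev₁ (φ : A →ₗ[k] B) : lev₁ k h𝒰 A →ₗ[k] lev₁ k h𝒰 B :=
  (φ.compLeft G).restrict (p := lev₁ k h𝒰 A) (q := lev₁ k h𝒰 B) (fun _ hc => IsLevel₁.comp hc φ)

/-- Post-composition on level 2-cochains. -/
def compLev₂ (φ : A →ₗ[k] B) : lev₂ k h𝒰 A →ₗ[k] lev₂ k h𝒰 B :=
  (φ.compLeft (G × G)).restrict (p := lev₂ k h𝒰 A) (q := lev₂ k h𝒰 B)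
    (fun _ hc => IsLevel₂.comp hc φ)

@[simp] lemma coe_compLev₁ (φ : A →ₗ[k] B) (c : lev₁ k h𝒰 A) :
    ((compLev₁ h𝒰 φ c : lev₁ k h𝒰 B) : G → B) = ⇑φ ∘ (c : G → A) := rfl

@[simp] lemma coe_compLev₂ (φ : A →ₗ[k] B) (c : lev₂ k h𝒰 A) :
    ((compLev₂ h𝒰 φ c : lev₂ k h𝒰 B) : G × G → B) = ⇑φ ∘ (c : G × G → A) := rfl

/-- An equivariant map induces a morphism of level complexes. -/
def lvlHom (φ : A →ₗ[k] B) (hφ : ∀ g a, φ (ρA g a) = ρB g (φ a)) :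
    Cpx.Hom (lvl h𝒰 ρA hA) (lvl h𝒰 ρB hB) where
  m0 := φ
  m1 := compLev₁ h𝒰 φ
  m2 := compLev₂ h𝒰 φ
  m3 := φ.compLeft (G × G × G)
  c0 y := Subtype.ext (comp_dZero ρA ρB φ hφ y)
  c1 c := Subtype.ext (comp_dOne ρA ρB φ hφ c)
  c2 c := comp_dTwo ρA ρB φ hφ c

/-- An equivariant map induces a morphism of shifted level complexes. -/
def lvl0Hom (φ : A →ₗ[k] B) (hφ : ∀ g a, φ (ρA g a) = ρB g (φ a)) :
    Cpx.Hom (lvl0 h𝒰 ρA hA) (lvl0 h𝒰 ρB hB) where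
  m0 := LinearMap.id
  m1 := φ
  m2 := compLev₁ h𝒰 φ
  m3 := compLev₂ h𝒰 φ
  c0 _ := by simp [lvl0]
  c1 y := Subtype.ext (comp_dZero ρA ρB φ hφ y)
  c2 c := Subtype.ext (comp_dOne ρA ρB φ hφ c)

variable {φ : A →ₗ[k] B} {ψ : B →ₗ[k] C}
  (hφ : ∀ g a, φ (ρA g a) = ρB g (φ a)) (hψ : ∀ g b, ψ (ρB g b) = ρC g (ψ b))

/-- A short exact sequence of discrete modules gives a short exact sequence of level complexes. -/
theorem lvl_shortExact (hinj : Injective φ) (hsurj : Surjective ψ) (hex : Function.Exact φ ψ) :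
    Cpx.ShortExact (lvlHom h𝒰 hA hB φ hφ) (lvlHom h𝒰 hB hC ψ hψ) where
  inj2 := by
    intro c c' h
    apply Subtype.ext
    have := congrArg Subtype.val h
    exact hinj.comp_left this
  inj3 := fun c c' h => hinj.comp_left h
  surj0 := hsurj
  surj1 := by
    rintro ⟨c, hc⟩
    refine ⟨⟨Function.surjInv hsurj ∘ c, IsLevel₁.comp hc _⟩, Subtype.ext ?_⟩
    exact Cx.Hom.exists_lift ψ hsurj c
  zero1 := by
    rintro ⟨c, hc⟩
    apply Subtype.ext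
    funext g
    exact hex.apply_apply_eq_zero (c g)
  zero2 := by
    rintro ⟨c, hc⟩
    apply Subtype.ext
    funext g
    exact hex.apply_apply_eq_zero (c g)
  exact1 := by
    rintro ⟨c, hc⟩ h0
    have h0' : ⇑ψ ∘ c = 0 := congrArg Subtype.val h0
    obtain ⟨τ, hτ⟩ := Cx.Hom.exists_factor φ ψ hex c h0'
    exact ⟨⟨τ ∘ c, IsLevel₁.comp hc τ⟩, Subtype.ext hτ⟩
  exact2 := by
    rintro ⟨c, hc⟩ h0
    have h0' : ⇑ψ ∘ c = 0 := congrArg Subtype.val h0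
    obtain ⟨τ, hτ⟩ := Cx.Hom.exists_factor φ ψ hex c h0'
    exact ⟨⟨τ ∘ c, IsLevel₂.comp hc τ⟩, Subtype.ext hτ⟩

/-- A short exact sequence of discrete modules gives a short exact sequence of shifted level
complexes. -/
theorem lvl0_shortExact (hinj : Injective φ) (hsurj : Surjective ψ) (hex : Function.Exact φ ψ) :
    Cpx.ShortExact (lvl0Hom h𝒰 hA hB φ hφ) (lvl0Hom h𝒰 hB hC ψ hψ) where
  inj2 := by
    intro c c' h
    apply Subtype.ext
    have := congrArg Subtype.val h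
    exact hinj.comp_left this
  inj3 := by
    intro c c' h
    apply Subtype.ext
    have := congrArg Subtype.val h
    exact hinj.comp_left this
  surj0 := fun x => ⟨x, rfl⟩
  surj1 := hsurj
  zero1 := fun a => hex.apply_apply_eq_zero a
  zero2 := by
    rintro ⟨c, hc⟩
    apply Subtype.ext
    funext g
    exact hex.apply_apply_eq_zero (c g)
  exact1 := fun b hb => (hex b).1 hb
  exact2 := by
    rintro ⟨c, hc⟩ h0
    have h0' : ⇑ψ ∘ c = 0 := congrArg Subtype.val h0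
    obtain ⟨τ, hτ⟩ := Cx.Hom.exists_factor φ ψ hex c h0'
    exact ⟨⟨τ ∘ c, IsLevel₁.comp hc τ⟩, Subtype.ext hτ⟩

end LvlHom

/-! ## Part 3: resolved modules and the complex `K(P; C) = [Hom(P₀, C) → Hom(P₁, C)]` -/

section Res

variable {k G : Type*} [CommRing k] [Group G]

/-- `Hom(P, C)` is discrete when `P` is finitely generated and discrete and `C` is discrete. -/
theorem isDiscrete_linHom {𝒰 : Set (Subgroup G)} (h𝒰 : IsLevelBasis 𝒰) {P C : Type*}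
    [AddCommGroup P] [Module k P] [AddCommGroup C] [Module k C] [Module.Finite k P]
    {ρP : Representation k G P} {ρC : Representation k G C}
    (hP : IsDiscrete 𝒰 ρP) (hC : IsDiscrete 𝒰 ρC) :
    IsDiscrete 𝒰 (Representation.linHom ρP ρC) := by
  classical
  intro f
  obtain ⟨S, hS⟩ := (Module.Finite.fg_top : (⊤ : Submodule k P).FG)
  choose U hU hUfix using hP
  choose V hV hVfix using hC
  obtain ⟨W₁, hW₁, hW₁le⟩ := h𝒰.exists_le_of_finite (fun s : S => U (s : P)) (fun s => hU _)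
  obtain ⟨W₂, hW₂, hW₂le⟩ := h𝒰.exists_le_of_finite (fun s : S => V (f (s : P))) (fun s => hV _)
  obtain ⟨W, hW, hWle⟩ := h𝒰.inf W₁ hW₁ W₂ hW₂
  refine ⟨W, hW, fun w hw => ?_⟩
  apply LinearMap.ext_on_range (v := fun s : S => (s : P))
  · rw [Subtype.range_coe_subtype]
    simpa using hS
  · intro s
    rw [Representation.linHom_apply]
    simp only [LinearMap.comp_apply]
    have h1 : ρP w⁻¹ (s : P) = s :=
      hUfix _ _ (hW₁le s ((hWle (W.inv_mem hw)).1))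
    rw [h1]
    exact hVfix _ _ (hW₂le s ((hWle hw).2))

/-- A resolved module: a short exact sequence `0 → P₁ → P₀ → M → 0` of discrete `G`-modules. -/
structure Resolved (k : Type*) [CommRing k] {G : Type*} [Group G] (𝒰 : Set (Subgroup G))
    (P1 P0 M : Type*) [AddCommGroup P1] [Module k P1] [AddCommGroup P0] [Module k P0]
    [AddCommGroup M] [Module k M] where
  ρ1 : Representation k G P1
  ρ0 : Representation k G P0
  ρM : Representation k G M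
  ι : P1 →ₗ[k] P0
  π : P0 →ₗ[k] M
  ι_comm : ∀ g x, ι (ρ1 g x) = ρ0 g (ι x)
  π_comm : ∀ g x, π (ρ0 g x) = ρM g (π x)
  ι_inj : Injective ι
  π_surj : Surjective π
  exact : Function.Exact ι π
  disc0 : IsDiscrete 𝒰 ρ0

namespace Resolved

variable {𝒰 : Set (Subgroup G)}
variable {P1 P0 M : Type*} [AddCommGroup P1] [Module k P1] [AddCommGroup P0] [Module k P0]
  [AddCommGroup M] [Module k M]
variable (P : Resolved k 𝒰 P1 P0 M)

lemma disc1 : IsDiscrete 𝒰 P.ρ1 := by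
  intro x
  obtain ⟨U, hU, h⟩ := P.disc0 (P.ι x)
  exact ⟨U, hU, fun s hs => P.ι_inj (by rw [P.ι_comm, h s hs])⟩

lemma discM : IsDiscrete 𝒰 P.ρM := by
  intro m
  obtain ⟨x, rfl⟩ := P.π_surj m
  obtain ⟨U, hU, h⟩ := P.disc0 x
  exact ⟨U, hU, fun s hs => by rw [← P.π_comm, h s hs]⟩

lemma π_ι (x : P1) : P.π (P.ι x) = 0 := P.exact.apply_apply_eq_zero x

variable {C : Type*} [AddCommGroup C] [Module k C]

/-- The two-term complex `Hom(P₀, C) → Hom(P₁, C)` (restriction along `ι`). -/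
def K [Module.Finite k P0] [Module.Finite k P1] (h𝒰 : IsLevelBasis 𝒰)
    (ρC : Representation k G C) (hC : IsDiscrete 𝒰 ρC) :
    Cx k 𝒰 (P0 →ₗ[k] C) (P1 →ₗ[k] C) where
  ρ0 := Representation.linHom P.ρ0 ρC
  ρ1 := Representation.linHom P.ρ1 ρC
  f := LinearMap.lcomp k C P.ι
  comm g y := by
    ext x
    simp only [LinearMap.lcomp_apply, Representation.linHom_apply, LinearMap.comp_apply, P.ι_comm]
  disc0 := isDiscrete_linHom h𝒰 P.disc0 hC
  disc1 := isDiscrete_linHom h𝒰 P.disc1 hC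

variable {Q1 Q0 N : Type*} [AddCommGroup Q1] [Module k Q1] [AddCommGroup Q0] [Module k Q0]
  [AddCommGroup N] [Module k N]
variable {R1 R0 L : Type*} [AddCommGroup R1] [Module k R1] [AddCommGroup R0] [Module k R0]
  [AddCommGroup L] [Module k L]

/-- A morphism of resolved modules. -/
structure Hom (P : Resolved k 𝒰 P1 P0 M) (Q : Resolved k 𝒰 Q1 Q0 N) where
  φ1 : P1 →ₗ[k] Q1
  φ0 : P0 →ₗ[k] Q0
  φM : M →ₗ[k] N
  comm1 : ∀ g x, φ1 (P.ρ1 g x) = Q.ρ1 g (φ1 x)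
  comm0 : ∀ g x, φ0 (P.ρ0 g x) = Q.ρ0 g (φ0 x)
  commι : ∀ x, φ0 (P.ι x) = Q.ι (φ1 x)
  commπ : ∀ x, φM (P.π x) = Q.π (φ0 x)

namespace Hom

variable {P} {Q : Resolved k 𝒰 Q1 Q0 N} {R : Resolved k 𝒰 R1 R0 L}

lemma commM (φ : Hom P Q) (g : G) (m : M) : φ.φM (P.ρM g m) = Q.ρM g (φ.φM m) := by
  obtain ⟨x, rfl⟩ := P.π_surj m
  rw [← P.π_comm, φ.commπ, φ.comm0, Q.π_comm, φ.commπ]

/-- The induced (contravariant) morphism `K(Q; C) → K(P; C)`. -/
def K [Module.Finite k P0] [Module.Finite k P1] [Module.Finite k Q0] [Module.Finite k Q1]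
    (φ : Hom P Q) (h𝒰 : IsLevelBasis 𝒰) (ρC : Representation k G C) (hC : IsDiscrete 𝒰 ρC) :
    Cx.Hom (Q.K h𝒰 ρC hC) (P.K h𝒰 ρC hC) where
  φ0 := LinearMap.lcomp k C φ.φ0
  φ1 := LinearMap.lcomp k C φ.φ1
  comm0 g y := by
    ext x
    simp only [Resolved.K, LinearMap.lcomp_apply, Representation.linHom_apply,
      LinearMap.comp_apply, φ.comm0]
  comm1 g y := by
    ext x
    simp only [Resolved.K, LinearMap.lcomp_apply, Representation.linHom_apply,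
      LinearMap.comp_apply, φ.comm1]
  commf y := by
    ext x
    simp only [Resolved.K, LinearMap.lcomp_apply, φ.commι]

/-- A short exact sequence `0 → P → Q → R → 0` of resolved modules, split as `k`-modules in
degrees 0 and 1 (automatic when `R₀`, `R₁` are projective). -/
structure ShortExact (j : Hom P Q) (q : Hom Q R) : Prop where
  inj0 : Injective j.φ0
  inj1 : Injective j.φ1
  surj0 : Surjective q.φ0
  surj1 : Surjective q.φ1
  exact0 : Function.Exact j.φ0 q.φ0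
  exact1 : Function.Exact j.φ1 q.φ1
  split0 : ∃ s : R0 →ₗ[k] Q0, q.φ0 ∘ₗ s = LinearMap.id
  split1 : ∃ s : R1 →ₗ[k] Q1, q.φ1 ∘ₗ s = LinearMap.id

/-- Projectivity gives the splittings. -/
theorem ShortExact.of_projective {j : Hom P Q} {q : Hom Q R} [Module.Projective k R0]
    [Module.Projective k R1] (inj0 : Injective j.φ0) (inj1 : Injective j.φ1)
    (surj0 : Surjective q.φ0) (surj1 : Surjective q.φ1) (exact0 : Function.Exact j.φ0 q.φ0)
    (exact1 : Function.Exact j.φ1 q.φ1) : ShortExact j q :=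
  ⟨inj0, inj1, surj0, surj1, exact0, exact1,
    Module.projective_lifting_property q.φ0 LinearMap.id surj0,
    Module.projective_lifting_property q.φ1 LinearMap.id surj1⟩

/-- Abstract exactness of `Hom(-, C)` on a split short exact sequence. -/
theorem lcomp_shortExact {X Y Z : Type*} [AddCommGroup X] [Module k X] [AddCommGroup Y]
    [Module k Y] [AddCommGroup Z] [Module k Z] (j : X →ₗ[k] Y) (q : Y →ₗ[k] Z)
    (hj : Injective j) (_hq : Surjective q) (hex : Function.Exact j q)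
    (hs : ∃ s : Z →ₗ[k] Y, q ∘ₗ s = LinearMap.id) :
    Injective (LinearMap.lcomp k C q) ∧ Surjective (LinearMap.lcomp k C j) ∧
      Function.Exact (LinearMap.lcomp k C q) (LinearMap.lcomp k C j) := by
  obtain ⟨s, hs⟩ := hs
  have hs' : ∀ z, q (s z) = z := fun z => by
    have := congrArg (fun f => f z) hs
    simpa using this
  -- retraction of `j`
  have hker : ∀ y, ∃ x, j x = y - s (q y) := fun y => (hex _).1 (by rw [map_sub, hs', sub_self])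
  choose r hr using hker
  have hr_add : ∀ y y', r (y + y') = r y + r y' := fun y y' => hj (by
    rw [map_add, hr, hr, hr, map_add, map_add]; abel)
  have hr_smul : ∀ (c : k) y, r (c • y) = c • r y := fun c y => hj (by
    rw [map_smul, hr, hr, map_smul, map_smul, smul_sub])
  let rl : Y →ₗ[k] X := { toFun := r, map_add' := hr_add, map_smul' := hr_smul }
  have hrj : ∀ x, rl (j x) = x := fun x => hj (by
    show j (r (j x)) = j x
    rw [hr, hex.apply_apply_eq_zero, map_zero, sub_zero])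
  refine ⟨?_, ?_, ?_⟩
  · intro f f' h
    ext z
    have := congrArg (fun F => F (s z)) h
    simpa [hs'] using this
  · intro f
    refine ⟨f ∘ₗ rl, ?_⟩
    ext x
    simp only [LinearMap.lcomp_apply, LinearMap.comp_apply, hrj]
  · intro f
    constructor
    · intro h
      refine ⟨f ∘ₗ s, ?_⟩
      ext y
      simp only [LinearMap.lcomp_apply, LinearMap.comp_apply]
      have hy : y = j (rl y) + s (q y) := by
        show y = j (r y) + s (q y)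
        rw [hr]; abel
      have hfj : ∀ x, f (j x) = 0 := fun x => by
        have := congrArg (fun F => F x) h
        simpa using this
      conv_rhs => rw [hy, map_add, hfj, zero_add]
    · rintro ⟨f', rfl⟩
      ext x
      simp only [LinearMap.lcomp_apply, hex.apply_apply_eq_zero, map_zero, LinearMap.zero_apply]

/-- The short exact sequence `0 → K(R; C) → K(Q; C) → K(P; C) → 0`. -/
theorem ShortExact.K [Module.Finite k P0] [Module.Finite k P1] [Module.Finite k Q0]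
    [Module.Finite k Q1] [Module.Finite k R0] [Module.Finite k R1]
    {j : Hom P Q} {q : Hom Q R} (h : ShortExact j q) (h𝒰 : IsLevelBasis 𝒰)
    (ρC : Representation k G C) (hC : IsDiscrete 𝒰 ρC) :
    Cx.Hom.ShortExact (q.K h𝒰 ρC hC) (j.K h𝒰 ρC hC) := by
  obtain ⟨i0, s0, e0⟩ := lcomp_shortExact (C := C) j.φ0 q.φ0 h.inj0 h.surj0 h.exact0 h.split0
  obtain ⟨i1, s1, e1⟩ := lcomp_shortExact (C := C) j.φ1 q.φ1 h.inj1 h.surj1 h.exact1 h.split1
  exact ⟨i0, i1, s0, s1, e0, e1⟩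

end Hom

end Resolved

end Res

end Fermat.Agent.PT.PRO.Resolved4
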