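/-
Program F (S55, Poitou–Tate), chapter PRO, piece P5, helper4 (program lead).

`ExtPairing4`: the explicit pairings (positive degrees only) between the level hypercohomology of a
two-term complex `Y = [Y⁰ → Y¹]` (think `K(P; C) = [Hom(P₀, C) → Hom(P₁, C)]`, i.e. `Ext_G(M, C)`)
and the level cohomology of `M = P₀ / P₁`, with values in `H²(G, C)`:

  `pair11 : ℍ¹(Y) × H¹(G, M) → H²(G, C)`,   `pair20 : ℍ²(Y) × H⁰(G, M) → H²(G, C)`.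

Cochain formulas (`x̃ : G → P₀` a level lift of the cocycle `x`, `ι ∘ y' = d x̃`; `m̃ ∈ P₀` a lift of the
invariant `m`, `ι (z' h) = h m̃ - m̃`):

  `⟨(c, e), x⟩ (g, h) = β⁰ (c g) (g • x̃ h) + β¹ e (y' (g, h))`
  `⟨(c₂, c₁), m⟩ (g, h) = β⁰ (c₂ (g, h)) (g h • m̃) - β¹ (c₁ g) (g • z' h)`.

Proved: cocycle, independence of all choices, bilinearity, naturality, and the compatibility
`⟨δ ξ, m⟩₂₀ = ⟨ξ, ∂ m⟩₁₁` with the connecting maps (sign `+`).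
-/
import Mathlib
import Fermat.Agent.PT.PRO.HyperLevel25
import Fermat.Agent.PT.PRO.Resolved4

set_option autoImplicit false

namespace Fermat.Agent.PT.PRO.ExtPairing4

open Function Fermat.Agent.PT.PRO.HyperLevel25 Fermat.Agent.PT.PRO.Resolved4

/-! ## Part 1: Leibniz rules for an equivariant bilinear map, on raw cochains -/

section Leibniz

variable {k G : Type*} [CommRing k] [Group G]
variable {Y P C : Type*} [AddCommGroup Y] [Module k Y] [AddCommGroup P] [Module k P]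
  [AddCommGroup C] [Module k C]
variable {ρY : Representation k G Y} {ρP : Representation k G P} {ρC : Representation k G C}
variable (β : Y →ₗ[k] P →ₗ[k] C) (hβ : ∀ g y p, β (ρY g y) (ρP g p) = ρC g (β y p))

include hβ

lemma leib00 (e : Y) (u : P) (g : G) :
    dZero ρC (β e u) g = β (dZero ρY e g) (ρP g u) + β e (dZero ρP u g) := by
  simp only [dZero_apply, ← hβ, map_sub, LinearMap.sub_apply]
  abel

lemma leib10 (c : G → Y) (u : P) (g h : G) :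
    dOne ρC (fun a => β (c a) (ρP a u)) (g, h) =
      β (dOne ρY c (g, h)) (ρP (g * h) u) - β (c g) (ρP g (dZero ρP u h)) := by
  simp only [dOne_apply, dZero_apply, ← hβ, map_sub, map_add, LinearMap.sub_apply,
    LinearMap.add_apply, map_mul, Module.End.mul_apply]
  abel

lemma leib01 (e : Y) (w : G → P) (g h : G) :
    dOne ρC (fun a => β e (w a)) (g, h) =
      β (dZero ρY e g) (ρP g (w h)) + β e (dOne ρP w (g, h)) := by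
  simp only [dOne_apply, dZero_apply, ← hβ, map_sub, map_add, LinearMap.sub_apply]
  abel

lemma leib11 (c : G → Y) (u : G → P) (g h j : G) :
    dTwo ρC (fun q => β (c q.1) (ρP q.1 (u q.2))) (g, h, j) =
      β (dOne ρY c (g, h)) (ρP (g * h) (u j)) - β (c g) (ρP g (dOne ρP u (h, j))) := by
  simp only [dTwo_apply, dOne_apply, ← hβ, map_sub, map_add, LinearMap.sub_apply,
    LinearMap.add_apply, map_mul, Module.End.mul_apply]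
  abel

lemma leib02 (e : Y) (y2 : G × G → P) (g h j : G) :
    dTwo ρC (fun q => β e (y2 q)) (g, h, j) =
      β (dZero ρY e g) (ρP g (y2 (h, j))) + β e (dTwo ρP y2 (g, h, j)) := by
  simp only [dTwo_apply, dZero_apply, ← hβ, map_sub, map_add, LinearMap.sub_apply]
  abel

lemma leib20 (c2 : G × G → Y) (u : P) (g h j : G) :
    dTwo ρC (fun q => β (c2 q) (ρP (q.1 * q.2) u)) (g, h, j) =
      β (dTwo ρY c2 (g, h, j)) (ρP (g * h * j) u) +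
        β (c2 (g, h)) (ρP (g * h) (dZero ρP u j)) := by
  simp only [dTwo_apply, dZero_apply, ← hβ, map_sub, map_add, LinearMap.sub_apply,
    LinearMap.add_apply, map_mul, Module.End.mul_apply, mul_assoc]
  abel

end Leibniz

/-! ## Part 2: level-ness of cup-type cochains -/

section LevelLemmas

variable {k G : Type*} [CommRing k] [Group G] {𝒰 : Set (Subgroup G)}
variable {Y P C : Type*} [AddCommGroup P] [Module k P]
variable {ρP : Representation k G P}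

lemma isLevel₂_cup11 (h𝒰 : IsLevelBasis 𝒰) (hP : IsDiscrete 𝒰 ρP) (β : Y → P → C) {c : G → Y}
    {u : G → P} (hc : IsLevel₁ 𝒰 c) (hu : IsLevel₁ 𝒰 u) :
    IsLevel₂ 𝒰 (fun q : G × G => β (c q.1) (ρP q.1 (u q.2))) := by
  obtain ⟨W, hW, -, h1, h2⟩ := h𝒰.exists_normal_fixing hP hu
  obtain ⟨U, hU, hcU⟩ := hc
  obtain ⟨W', hW', hle⟩ := h𝒰.inf W hW U hU
  refine ⟨W', hW', fun g g' s s' hs hs' => ?_⟩
  show β (c (g * s)) (ρP (g * s) (u (g' * s'))) = β (c g) (ρP g (u g'))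
  rw [hcU g s (hle hs).2, h1 g' s' (hle hs').1, map_mul, Module.End.mul_apply,
    h2 g' s (hle hs).1]

lemma isLevel₁_cup10 (h𝒰 : IsLevelBasis 𝒰) (hP : IsDiscrete 𝒰 ρP) (β : Y → P → C) {c : G → Y}
    (hc : IsLevel₁ 𝒰 c) (u : P) : IsLevel₁ 𝒰 (fun a : G => β (c a) (ρP a u)) := by
  obtain ⟨V, hV, hfix⟩ := hP u
  obtain ⟨U, hU, hcU⟩ := hc
  obtain ⟨W', hW', hle⟩ := h𝒰.inf V hV U hU
  refine ⟨W', hW', fun g s hs => ?_⟩
  show β (c (g * s)) (ρP (g * s) u) = β (c g) (ρP g u)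
  rw [hcU g s (hle hs).2, map_mul, Module.End.mul_apply, hfix s (hle hs).1]

lemma isLevel₂_cup20 (h𝒰 : IsLevelBasis 𝒰) (hP : IsDiscrete 𝒰 ρP) (β : Y → P → C)
    {c2 : G × G → Y} (hc : IsLevel₂ 𝒰 c2) (u : P) :
    IsLevel₂ 𝒰 (fun q : G × G => β (c2 q) (ρP (q.1 * q.2) u)) := by
  obtain ⟨V, hV, hfix⟩ := hP u
  obtain ⟨U, hU, hcU⟩ := hc
  obtain ⟨W₁, hW₁, hle₁⟩ := h𝒰.inf V hV U hU
  obtain ⟨W', hW', hle, hn⟩ := h𝒰.normal W₁ hW₁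
  refine ⟨W', hW', fun g g' s s' hs hs' => ?_⟩
  show β (c2 (g * s, g' * s')) (ρP (g * s * (g' * s')) u) = β (c2 (g, g')) (ρP (g * g') u)
  have e : g * s * (g' * s') = g * g' * ((g'⁻¹ * s * g') * s') := by group
  have hmem : (g'⁻¹ * s * g') * s' ∈ W' := by
    refine W'.mul_mem ?_ hs'
    have := hn.conj_mem s hs g'⁻¹
    simpa using this
  rw [hcU g g' s s' (hle₁ (hle hs)).2 (hle₁ (hle hs')).2, e, map_mul, Module.End.mul_apply,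
    hfix _ (hle₁ (hle hmem)).1]

end LevelLemmas

/-! ## Part 3: pairing data and the raw cochain formulas -/

section Raw

variable {k G : Type*} [CommRing k] [Group G] {𝒰 : Set (Subgroup G)}
variable {Y0 Y1 P1 P0 M C : Type*}
  [AddCommGroup Y0] [Module k Y0] [AddCommGroup Y1] [Module k Y1]
  [AddCommGroup P1] [Module k P1] [AddCommGroup P0] [Module k P0]
  [AddCommGroup M] [Module k M] [AddCommGroup C] [Module k C]

/-- Pairing data between a two-term complex `Y⁰ → Y¹` and a resolved module `P₁ → P₀ → M` with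
values in `C`: equivariant bilinear maps `β⁰ : Y⁰ × P₀ → C`, `β¹ : Y¹ × P₁ → C` with
`β¹ (f y, p) = β⁰ (y, ι p)`. -/
structure Pairing (Y : Cx k 𝒰 Y0 Y1) (P : Resolved k 𝒰 P1 P0 M) (ρC : Representation k G C) where
  β0 : Y0 →ₗ[k] P0 →ₗ[k] C
  β1 : Y1 →ₗ[k] P1 →ₗ[k] C
  equiv0 : ∀ g y p, β0 (Y.ρ0 g y) (P.ρ0 g p) = ρC g (β0 y p)
  equiv1 : ∀ g y p, β1 (Y.ρ1 g y) (P.ρ1 g p) = ρC g (β1 y p)
  compat : ∀ y p, β1 (Y.f y) p = β0 y (P.ι p)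

variable {Y : Cx k 𝒰 Y0 Y1} {P : Resolved k 𝒰 P1 P0 M} {ρC : Representation k G C}
variable (B : Pairing Y P ρC)

namespace Pairing

/-- The `(1,1)` cochain: `(g, h) ↦ β⁰ (c g) (g • x̃ h) + β¹ e (y' (g, h))`. -/
def p11 (c : G → Y0) (e : Y1) (xt : G → P0) (y' : G × G → P1) : G × G → C :=
  fun q => B.β0 (c q.1) (P.ρ0 q.1 (xt q.2)) + B.β1 e (y' q)

/-- The `(2,0)` cochain: `(g, h) ↦ β⁰ (c₂ (g, h)) (g h • m̃) - β¹ (c₁ g) (g • z' h)`. -/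
def p20 (c2 : G × G → Y0) (c1 : G → Y1) (mt : P0) (z' : G → P1) : G × G → C :=
  fun q => B.β0 (c2 q) (P.ρ0 (q.1 * q.2) mt) - B.β1 (c1 q.1) (P.ρ1 q.1 (z' q.2))

lemma p11_eq (c : G → Y0) (e : Y1) (xt : G → P0) (y' : G × G → P1) :
    B.p11 c e xt y' = (fun q : G × G => B.β0 (c q.1) (P.ρ0 q.1 (xt q.2))) +
      (fun q : G × G => B.β1 e (y' q)) := rfl

lemma p20_eq (c2 : G × G → Y0) (c1 : G → Y1) (mt : P0) (z' : G → P1) :
    B.p20 c2 c1 mt z' = (fun q : G × G => B.β0 (c2 q) (P.ρ0 (q.1 * q.2) mt)) -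
      (fun q : G × G => B.β1 (c1 q.1) (P.ρ1 q.1 (z' q.2))) := rfl

/-- `β⁰ y (g • ι p) = β¹ (f y) (g • p)`. -/
lemma β0_ρ_ι (y : Y0) (g : G) (p : P1) :
    B.β0 y (P.ρ0 g (P.ι p)) = B.β1 (Y.f y) (P.ρ1 g p) := by
  rw [← P.ι_comm, B.compat]

/-- If `ι ∘ y' = d¹ x̃` then `d² y' = 0`. -/
lemma dTwo_eq_zero_of_ι {xt : G → P0} {y' : G × G → P1}
    (hy : ∀ g h, P.ι (y' (g, h)) = dOne P.ρ0 xt (g, h)) (g h j : G) :
    dTwo P.ρ1 y' (g, h, j) = 0 := by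
  apply P.ι_inj
  have h1 := congrFun (comp_dTwo P.ρ1 P.ρ0 P.ι P.ι_comm y') (g, h, j)
  have h2 : (⇑P.ι ∘ y') = dOne P.ρ0 xt := by
    funext ⟨a, b⟩
    exact hy a b
  rw [Function.comp_apply] at h1
  rw [h1, h2, dTwo_dOne, map_zero]
  rfl

/-- If `ι ∘ z' = d⁰ m̃` then `d¹ z' = 0`. -/
lemma dOne_eq_zero_of_ι {mt : P0} {z' : G → P1}
    (hz : ∀ g, P.ι (z' g) = dZero P.ρ0 mt g) (g h : G) :
    dOne P.ρ1 z' (g, h) = 0 := by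
  apply P.ι_inj
  have h1 := congrFun (comp_dOne P.ρ1 P.ρ0 P.ι P.ι_comm z') (g, h)
  have h2 : (⇑P.ι ∘ z') = dZero P.ρ0 mt := by
    funext a
    exact hz a
  rw [Function.comp_apply] at h1
  rw [h1, h2, dOne_dZero, map_zero]
  rfl

/-- The `(1,1)` cochain of a hyper-1-cocycle and a lifted 1-cocycle is a 2-cocycle. -/
theorem dTwo_p11 {c : G → Y0} {e : Y1} {xt : G → P0} {y' : G × G → P1}
    (hc : ∀ g h, dOne Y.ρ0 c (g, h) = 0) (he : ∀ g, Y.f (c g) = dZero Y.ρ1 e g)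
    (hy : ∀ g h, P.ι (y' (g, h)) = dOne P.ρ0 xt (g, h)) :
    dTwo ρC (B.p11 c e xt y') = 0 := by
  funext ⟨g, h, j⟩
  rw [p11_eq, map_add, Pi.add_apply, leib11 B.β0 B.equiv0, leib02 B.β1 B.equiv1, hc,
    dTwo_eq_zero_of_ι hy, ← hy, B.β0_ρ_ι, he]
  simp

/-- Change of lift in the `(1,1)` cochain. -/
theorem p11_change_lift {c : G → Y0} {e : Y1} (he : ∀ g, Y.f (c g) = dZero Y.ρ1 e g)
    (xt : G → P0) (y' : G × G → P1) (w : G → P1) :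
    B.p11 c e (fun a => xt a + P.ι (w a)) (fun q => y' q + dOne P.ρ1 w q) - B.p11 c e xt y' =
      dOne ρC (fun a => B.β1 e (w a)) := by
  funext ⟨g, h⟩
  rw [leib01 B.β1 B.equiv1, ← he, ← B.β0_ρ_ι]
  simp only [p11, Pi.sub_apply, map_add]
  abel

/-- The `(1,1)` cochain against a coboundary `d⁰ m`. -/
theorem p11_bdry_right {c : G → Y0} (e : Y1) (hc : ∀ g h, dOne Y.ρ0 c (g, h) = 0) (mt : P0) :
    B.p11 c e (dZero P.ρ0 mt) 0 = - dOne ρC (fun a => B.β0 (c a) (P.ρ0 a mt)) := by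
  funext ⟨g, h⟩
  rw [Pi.neg_apply, leib10 B.β0 B.equiv0, hc]
  simp [p11]

/-- The `(1,1)` cochain of a hyper-coboundary `D⁰ y`. -/
theorem p11_bdry_left (y0 : Y0) {xt : G → P0} {y' : G × G → P1}
    (hy : ∀ g h, P.ι (y' (g, h)) = dOne P.ρ0 xt (g, h)) :
    B.p11 (dZero Y.ρ0 y0) (Y.f y0) xt y' = dOne ρC (fun a => B.β0 y0 (xt a)) := by
  funext ⟨g, h⟩
  rw [leib01 B.β0 B.equiv0, ← hy, ← B.compat]
  rfl

/-- The `(2,0)` cochain of a hyper-2-cocycle and a lifted invariant is a 2-cocycle. -/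
theorem dTwo_p20 {c2 : G × G → Y0} {c1 : G → Y1} {mt : P0} {z' : G → P1}
    (hc2 : ∀ g h j, dTwo Y.ρ0 c2 (g, h, j) = 0)
    (hc1 : ∀ g h, Y.f (c2 (g, h)) = dOne Y.ρ1 c1 (g, h))
    (hz : ∀ g, P.ι (z' g) = dZero P.ρ0 mt g) :
    dTwo ρC (B.p20 c2 c1 mt z') = 0 := by
  funext ⟨g, h, j⟩
  rw [p20_eq, map_sub, Pi.sub_apply, leib20 B.β0 B.equiv0, leib11 B.β1 B.equiv1, hc2,
    dOne_eq_zero_of_ι hz, ← hz, B.β0_ρ_ι, hc1]
  simp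

/-- Change of lift in the `(2,0)` cochain. -/
theorem p20_change_lift {c2 : G × G → Y0} {c1 : G → Y1}
    (hc1 : ∀ g h, Y.f (c2 (g, h)) = dOne Y.ρ1 c1 (g, h)) (mt : P0) (z' : G → P1) (w0 : P1) :
    B.p20 c2 c1 (mt + P.ι w0) (fun a => z' a + dZero P.ρ1 w0 a) - B.p20 c2 c1 mt z' =
      dOne ρC (fun a => B.β1 (c1 a) (P.ρ1 a w0)) := by
  funext ⟨g, h⟩
  rw [leib10 B.β1 B.equiv1, ← hc1, ← B.β0_ρ_ι]
  simp only [p20, Pi.sub_apply, map_add]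
  abel

/-- The `(2,0)` cochain of a hyper-coboundary `D¹ (b, y)`. -/
theorem p20_bdry_left (b0 : G → Y0) (y1 : Y1) {mt : P0} {z' : G → P1}
    (hz : ∀ g, P.ι (z' g) = dZero P.ρ0 mt g) :
    B.p20 (dOne Y.ρ0 b0) (fun a => Y.f (b0 a) - dZero Y.ρ1 y1 a) mt z' =
      dOne ρC (fun a => B.β0 (b0 a) (P.ρ0 a mt) + B.β1 y1 (z' a)) := by
  funext ⟨g, h⟩
  have e1 : (fun a => B.β0 (b0 a) (P.ρ0 a mt) + B.β1 y1 (z' a)) =
      (fun a => B.β0 (b0 a) (P.ρ0 a mt)) + (fun a => B.β1 y1 (z' a)) := rfl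
  rw [e1, map_add, Pi.add_apply, leib10 B.β0 B.equiv0, leib01 B.β1 B.equiv1,
    dOne_eq_zero_of_ι hz, ← hz, B.β0_ρ_ι]
  simp only [p20, map_sub, LinearMap.sub_apply, map_zero]
  abel

end Pairing

end Raw

/-! ## Part 4: classes of raw cocycles -/

section Classes

variable {k G : Type*} [CommRing k] [Group G] {𝒰 : Set (Subgroup G)}
variable {C : Type*} [AddCommGroup C] [Module k C]
variable (h𝒰 : IsLevelBasis 𝒰) (ρC : Representation k G C) (hC : IsDiscrete 𝒰 ρC)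

/-- The class in level `H²` of a raw level 2-cocycle. -/
def cl2 (f : G × G → C) (hl : IsLevel₂ 𝒰 f) (hc : dTwo ρC f = 0) : Hlev2 h𝒰 ρC hC :=
  (lvl h𝒰 ρC hC).π2 (mkZ2 h𝒰 ρC hC f hl hc)

/-- The class in level `H¹` of a raw level 1-cocycle. -/
def cl1 (f : G → C) (hl : IsLevel₁ 𝒰 f) (hc : dOne ρC f = 0) : Hlev1 h𝒰 ρC hC :=
  (lvl h𝒰 ρC hC).π1 (mkZ1 h𝒰 ρC hC f hl hc)

variable {h𝒰 ρC hC}

lemma cl2_congr {f f' : G × G → C} (h : f = f') (hl : IsLevel₂ 𝒰 f) (hc : dTwo ρC f = 0)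
    (hl' : IsLevel₂ 𝒰 f') (hc' : dTwo ρC f' = 0) :
    cl2 h𝒰 ρC hC f hl hc = cl2 h𝒰 ρC hC f' hl' hc' := by
  subst h; rfl

lemma cl2_eq_iff {f f' : G × G → C} (hl : IsLevel₂ 𝒰 f) (hc : dTwo ρC f = 0)
    (hl' : IsLevel₂ 𝒰 f') (hc' : dTwo ρC f' = 0) :
    cl2 h𝒰 ρC hC f hl hc = cl2 h𝒰 ρC hC f' hl' hc' ↔
      ∃ b : G → C, IsLevel₁ 𝒰 b ∧ dOne ρC b = f - f' :=
  π2_lvl_eq_iff h𝒰 ρC hC _ _

lemma cl2_eq_zero_iff {f : G × G → C} (hl : IsLevel₂ 𝒰 f) (hc : dTwo ρC f = 0) :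
    cl2 h𝒰 ρC hC f hl hc = 0 ↔ ∃ b : G → C, IsLevel₁ 𝒰 b ∧ dOne ρC b = f :=
  π2_lvl_eq_zero_iff h𝒰 ρC hC _

lemma cl2_add {f f' : G × G → C} (hl : IsLevel₂ 𝒰 f) (hc : dTwo ρC f = 0)
    (hl' : IsLevel₂ 𝒰 f') (hc' : dTwo ρC f' = 0) (hl'' : IsLevel₂ 𝒰 (f + f'))
    (hc'' : dTwo ρC (f + f') = 0) :
    cl2 h𝒰 ρC hC (f + f') hl'' hc'' = cl2 h𝒰 ρC hC f hl hc + cl2 h𝒰 ρC hC f' hl' hc' := by
  unfold cl2
  rw [← map_add]
  rfl

lemma cl2_smul (r : k) {f : G × G → C} (hl : IsLevel₂ 𝒰 f) (hc : dTwo ρC f = 0)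
    (hl'' : IsLevel₂ 𝒰 (r • f)) (hc'' : dTwo ρC (r • f) = 0) :
    cl2 h𝒰 ρC hC (r • f) hl'' hc'' = r • cl2 h𝒰 ρC hC f hl hc := by
  unfold cl2
  rw [← map_smul]
  rfl

lemma cl2_surjective (w : Hlev2 h𝒰 ρC hC) :
    ∃ (f : G × G → C) (hl : IsLevel₂ 𝒰 f) (hc : dTwo ρC f = 0), cl2 h𝒰 ρC hC f hl hc = w := by
  obtain ⟨z, rfl⟩ := (lvl h𝒰 ρC hC).π2_surjective w
  exact ⟨z.1.1, z.1.2, (mem_lvl_Z2_iff h𝒰 ρC hC z.1).1 z.2, rfl⟩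

lemma cl1_surjective (w : Hlev1 h𝒰 ρC hC) :
    ∃ (f : G → C) (hl : IsLevel₁ 𝒰 f) (hc : dOne ρC f = 0), cl1 h𝒰 ρC hC f hl hc = w := by
  obtain ⟨z, rfl⟩ := (lvl h𝒰 ρC hC).π1_surjective w
  exact ⟨z.1.1, z.1.2, (mem_lvl_Z1_iff h𝒰 ρC hC z.1).1 z.2, rfl⟩

lemma cl1_eq_zero_iff {f : G → C} (hl : IsLevel₁ 𝒰 f) (hc : dOne ρC f = 0) :
    cl1 h𝒰 ρC hC f hl hc = 0 ↔ ∃ y : C, dZero ρC y = f :=
  π1_lvl_eq_zero_iff h𝒰 ρC hC _

lemma isLevel₂_sub' (h𝒰 : IsLevelBasis 𝒰) {X : Type*} [Sub X] {f f' : G × G → X}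
    (hf : IsLevel₂ 𝒰 f) (hf' : IsLevel₂ 𝒰 f') : IsLevel₂ 𝒰 (f - f') := by
  obtain ⟨U, hU, h⟩ := hf
  obtain ⟨U', hU', h'⟩ := hf'
  obtain ⟨W, hW, hWle⟩ := h𝒰.inf U hU U' hU'
  refine ⟨W, hW, fun g g' s s' hs hs' => ?_⟩
  simp only [Pi.sub_apply]
  rw [h g g' s s' (hWle hs).1 (hWle hs').1, h' g g' s s' (hWle hs).2 (hWle hs').2]

end Classes

/-! ## Part 4b: descending bilinear maps to cohomology (abstract complexes) -/

section Abstract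

variable {k : Type*} [CommRing k]
variable {X0 X1 X2 X3 : Type*}
  [AddCommGroup X0] [Module k X0] [AddCommGroup X1] [Module k X1]
  [AddCommGroup X2] [Module k X2] [AddCommGroup X3] [Module k X3]
variable {W0 W1 W2 W3 : Type*}
  [AddCommGroup W0] [Module k W0] [AddCommGroup W1] [Module k W1]
  [AddCommGroup W2] [Module k W2] [AddCommGroup W3] [Module k W3]
variable {H : Type*} [AddCommGroup H] [Module k H]

/-- Descend a bilinear map on 1-cocycles to `H¹ × H¹`. -/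
noncomputable def liftH1H1 (C : Cpx k X0 X1 X2 X3) (D : Cpx k W0 W1 W2 W3)
    (f : C.Z1 →ₗ[k] D.Z1 →ₗ[k] H) (hl : ∀ z ∈ C.B1, f z = 0) (hr : ∀ z, ∀ x ∈ D.B1, f z x = 0) :
    C.H1 →ₗ[k] D.H1 →ₗ[k] H :=
  LinearMap.flip (D.B1.liftQ (LinearMap.flip (C.B1.liftQ f (fun z hz => by
    rw [LinearMap.mem_ker]; exact hl z hz))) (fun x hx => by
    rw [LinearMap.mem_ker]
    ext w
    exact hr w x hx))

lemma liftH1H1_apply (C : Cpx k X0 X1 X2 X3) (D : Cpx k W0 W1 W2 W3)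
    (f : C.Z1 →ₗ[k] D.Z1 →ₗ[k] H) (hl : ∀ z ∈ C.B1, f z = 0) (hr : ∀ z, ∀ x ∈ D.B1, f z x = 0)
    (z : C.Z1) (x : D.Z1) : liftH1H1 C D f hl hr (C.π1 z) (D.π1 x) = f z x := rfl

/-- Descend a bilinear map on (2-cocycles) × (1-cocycles) to `H² × H¹`. -/
noncomputable def liftH2H1 (C : Cpx k X0 X1 X2 X3) (D : Cpx k W0 W1 W2 W3)
    (f : C.Z2 →ₗ[k] D.Z1 →ₗ[k] H) (hl : ∀ z ∈ C.B2, f z = 0) (hr : ∀ z, ∀ x ∈ D.B1, f z x = 0) :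
    C.H2 →ₗ[k] D.H1 →ₗ[k] H :=
  LinearMap.flip (D.B1.liftQ (LinearMap.flip (C.B2.liftQ f (fun z hz => by
    rw [LinearMap.mem_ker]; exact hl z hz))) (fun x hx => by
    rw [LinearMap.mem_ker]
    ext w
    exact hr w x hx))

lemma liftH2H1_apply (C : Cpx k X0 X1 X2 X3) (D : Cpx k W0 W1 W2 W3)
    (f : C.Z2 →ₗ[k] D.Z1 →ₗ[k] H) (hl : ∀ z ∈ C.B2, f z = 0) (hr : ∀ z, ∀ x ∈ D.B1, f z x = 0)
    (z : C.Z2) (x : D.Z1) : liftH2H1 C D f hl hr (C.π2 z) (D.π1 x) = f z x := rfl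

end Abstract

/-! ## Part 5: lifts and the `(1,1)` pairing on cohomology -/

section Pair11

variable {k G : Type*} [CommRing k] [Group G] {𝒰 : Set (Subgroup G)}
variable {Y0 Y1 P1 P0 M C : Type*}
  [AddCommGroup Y0] [Module k Y0] [AddCommGroup Y1] [Module k Y1]
  [AddCommGroup P1] [Module k P1] [AddCommGroup P0] [Module k P0]
  [AddCommGroup M] [Module k M] [AddCommGroup C] [Module k C]

/-- A level 1-cochain `x̃ : G → P₀` whose image in `M` is a cocycle, together with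
`y' = ι⁻¹ (d¹ x̃)`. -/
structure Lift1 (P : Resolved k 𝒰 P1 P0 M) where
  xt : G → P0
  y' : G × G → P1
  lev : IsLevel₁ 𝒰 xt
  hy : ∀ g h, P.ι (y' (g, h)) = dOne P.ρ0 xt (g, h)

namespace Lift1

variable {P : Resolved k 𝒰 P1 P0 M}

/-- `L` lifts the cochain `x : G → M`. -/
def Lifts (L : Lift1 P) (x : G → M) : Prop := ∀ g, P.π (L.xt g) = x g

lemma isLevel₂_y' (h𝒰 : IsLevelBasis 𝒰) (L : Lift1 P) : IsLevel₂ 𝒰 L.y' := by
  obtain ⟨U, hU, h⟩ := h𝒰.isLevel₂_dOne P.disc0 L.lev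
  refine ⟨U, hU, fun g g' s s' hs hs' => P.ι_inj ?_⟩
  rw [L.hy, L.hy]
  exact h g g' s s' hs hs'

/-- Every level 1-cocycle has a lift. -/
theorem exists_lift {x : G → M} (hl : IsLevel₁ 𝒰 x) (hc : dOne P.ρM x = 0) :
    ∃ L : Lift1 P, L.Lifts x := by
  have hxt : ∀ g, P.π ((Function.surjInv P.π_surj ∘ x) g) = x g :=
    fun g => Function.surjInv_eq P.π_surj (x g)
  have hker : ∀ q : G × G, ∃ p1, P.ι p1 = dOne P.ρ0 (Function.surjInv P.π_surj ∘ x) q := by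
    intro q
    apply (P.exact _).1
    have h1 := congrFun (comp_dOne P.ρ0 P.ρM P.π P.π_comm (Function.surjInv P.π_surj ∘ x)) q
    rw [Function.comp_apply] at h1
    rw [h1]
    have h2 : ⇑P.π ∘ (Function.surjInv P.π_surj ∘ x) = x := funext hxt
    rw [h2, hc]
    rfl
  choose y' hy' using hker
  exact ⟨⟨Function.surjInv P.π_surj ∘ x, y', hl.comp _, fun g h => hy' (g, h)⟩, hxt⟩

/-- Sum of lifts. -/
def add (h𝒰 : IsLevelBasis 𝒰) (L L' : Lift1 P) : Lift1 P where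
  xt := L.xt + L'.xt
  y' := L.y' + L'.y'
  lev := h𝒰.isLevel₁_add L.lev L'.lev
  hy g h := by
    simp only [Pi.add_apply, map_add, L.hy, L'.hy]

lemma Lifts.add (h𝒰 : IsLevelBasis 𝒰) {L L' : Lift1 P} {x x' : G → M} (h : L.Lifts x)
    (h' : L'.Lifts x') : (L.add h𝒰 L').Lifts (x + x') := fun g => by
  simp only [Lift1.add, Pi.add_apply, map_add, h g, h' g]

/-- Scalar multiple of a lift. -/
def smul (r : k) (L : Lift1 P) : Lift1 P where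
  xt := r • L.xt
  y' := r • L.y'
  lev := L.lev.comp (r • ·)
  hy g h := by
    simp only [Pi.smul_apply, map_smul, L.hy]

lemma Lifts.smul (r : k) {L : Lift1 P} {x : G → M} (h : L.Lifts x) :
    (L.smul r).Lifts (r • x) := fun g => by
  simp only [Lift1.smul, Pi.smul_apply, map_smul, h g]

/-- The lift `d⁰ m̃` of a coboundary. -/
def bdry (mt : P0) : Lift1 P where
  xt := dZero P.ρ0 mt
  y' := 0
  lev := isLevel₁_dZero P.disc0 mt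
  hy g h := by
    have := congrFun (dOne_dZero P.ρ0 mt) (g, h)
    rw [this]
    simp

lemma lifts_bdry (mt : P0) : (bdry (P := P) mt).Lifts (dZero P.ρM (P.π mt)) := fun g => by
  simp only [bdry, dZero_apply, map_sub, P.π_comm]

/-- A cocycle `x₀ : G → P₀` as a lift (of `π ∘ x₀`). -/
def ofCocycle (x0 : G → P0) (hl : IsLevel₁ 𝒰 x0) (hc : dOne P.ρ0 x0 = 0) : Lift1 P where
  xt := x0
  y' := 0
  lev := hl
  hy g h := by
    rw [hc]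
    simp

end Lift1

variable {Y : Cx k 𝒰 Y0 Y1} {P : Resolved k 𝒰 P1 P0 M} {ρC : Representation k G C}
variable (B : Pairing Y P ρC) (h𝒰 : IsLevelBasis 𝒰) (hC : IsDiscrete 𝒰 ρC)

/-- Raw hyper-1-cocycle data `(c, e)` of a two-term complex. -/
structure HZ1 (Y : Cx k 𝒰 Y0 Y1) where
  c : G → Y0
  e : Y1
  lev : IsLevel₁ 𝒰 c
  hc : ∀ g h, dOne Y.ρ0 c (g, h) = 0
  he : ∀ g, Y.f (c g) = dZero Y.ρ1 e g

namespace HZ1

/-- The hyper-1-cocycle of `HyperLevel25` attached to raw data. -/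
def toZ1 (ξ : HZ1 Y) : (Y.tot h𝒰).Z1 :=
  ⟨⟨(ξ.c, ξ.e), ξ.lev⟩, (Y.mem_Z1_iff h𝒰 _).2 ⟨funext fun q => ξ.hc q.1 q.2, funext ξ.he⟩⟩

/-- The class in `ℍ¹`. -/
def cls (ξ : HZ1 Y) : Y.ℍ1 h𝒰 := (Y.tot h𝒰).π1 (ξ.toZ1 h𝒰)

/-- Raw data of a hyper-1-cocycle of `HyperLevel25`. -/
def ofZ1 (z : (Y.tot h𝒰).Z1) : HZ1 Y where
  c := z.1.1.1
  e := z.1.1.2
  lev := z.1.2
  hc g h := congrFun ((Y.mem_Z1_iff h𝒰 z.1).1 z.2).1 (g, h)
  he g := congrFun ((Y.mem_Z1_iff h𝒰 z.1).1 z.2).2 g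

lemma toZ1_ofZ1 (z : (Y.tot h𝒰).Z1) : (ofZ1 h𝒰 z).toZ1 h𝒰 = z := rfl

lemma cls_ofZ1 (z : (Y.tot h𝒰).Z1) : (ofZ1 h𝒰 z).cls h𝒰 = (Y.tot h𝒰).π1 z := rfl

lemma cls_surjective (w : Y.ℍ1 h𝒰) : ∃ ξ : HZ1 Y, ξ.cls h𝒰 = w := by
  obtain ⟨z, rfl⟩ := (Y.tot h𝒰).π1_surjective w
  exact ⟨ofZ1 h𝒰 z, rfl⟩

end HZ1

include h𝒰 in
/-- The raw `(1,1)` cochain of a hyper-1-cocycle and a lift is a level 2-cochain. -/
lemma isLevel₂_p11 (ξ : HZ1 Y) (L : Lift1 P) :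
    IsLevel₂ 𝒰 (B.p11 ξ.c ξ.e L.xt L.y') :=
  h𝒰.isLevel₂_add (isLevel₂_cup11 h𝒰 P.disc0 (fun y p => B.β0 y p) ξ.lev L.lev)
    ((L.isLevel₂_y' h𝒰).comp (B.β1 ξ.e))

/-- The class of the `(1,1)` cochain. -/
def cls11 (ξ : HZ1 Y) (L : Lift1 P) : Hlev2 h𝒰 ρC hC :=
  cl2 h𝒰 ρC hC (B.p11 ξ.c ξ.e L.xt L.y') (isLevel₂_p11 B h𝒰 ξ L) (B.dTwo_p11 ξ.hc ξ.he L.hy)

/-- Independence of the lift. -/
theorem cls11_indep (ξ : HZ1 Y) (L L' : Lift1 P) (hLL' : ∀ g, P.π (L'.xt g) = P.π (L.xt g)) :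
    cls11 B h𝒰 hC ξ L' = cls11 B h𝒰 hC ξ L := by
  have hker : ∀ g, ∃ w, P.ι w = L'.xt g - L.xt g := fun g =>
    (P.exact _).1 (by rw [map_sub, hLL', sub_self])
  choose w hw using hker
  have hwl : IsLevel₁ 𝒰 w := by
    obtain ⟨U, hU, h⟩ := h𝒰.isLevel₁_sub L'.lev L.lev
    refine ⟨U, hU, fun g s hs => P.ι_inj ?_⟩
    rw [hw, hw]
    exact h g s hs
  have hxt : L'.xt = fun a => L.xt a + P.ι (w a) := by
    funext a
    rw [hw]; abel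
  have hy' : L'.y' = fun q => L.y' q + dOne P.ρ1 w q := by
    funext ⟨g, h⟩
    apply P.ι_inj
    have h1 := congrFun (comp_dOne P.ρ1 P.ρ0 P.ι P.ι_comm w) (g, h)
    rw [Function.comp_apply] at h1
    rw [map_add, h1, L'.hy, L.hy, hxt]
    simp only [dOne_apply, Function.comp_apply, map_add]
    abel
  unfold cls11
  rw [cl2_eq_iff]
  refine ⟨fun a => B.β1 ξ.e (w a), hwl.comp (B.β1 ξ.e), ?_⟩
  rw [← B.p11_change_lift ξ.he L.xt L.y' w, ← hxt, ← hy']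

/-! ### Bilinearity on cocycles -/

lemma cls11_add_left {ξ ξ' ξ'' : HZ1 Y} (hc : ξ''.c = ξ.c + ξ'.c) (he : ξ''.e = ξ.e + ξ'.e)
    (L : Lift1 P) :
    cls11 B h𝒰 hC ξ'' L = cls11 B h𝒰 hC ξ L + cls11 B h𝒰 hC ξ' L := by
  unfold cls11
  rw [← cl2_add]
  · apply cl2_congr
    funext q
    simp only [Pairing.p11, hc, he, Pi.add_apply, map_add, LinearMap.add_apply]
    abel
  · exact h𝒰.isLevel₂_add (isLevel₂_p11 B h𝒰 ξ L) (isLevel₂_p11 B h𝒰 ξ' L)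
  · rw [map_add, B.dTwo_p11 ξ.hc ξ.he L.hy, B.dTwo_p11 ξ'.hc ξ'.he L.hy, add_zero]

lemma cls11_smul_left (r : k) {ξ ξ'' : HZ1 Y} (hc : ξ''.c = r • ξ.c) (he : ξ''.e = r • ξ.e)
    (L : Lift1 P) :
    cls11 B h𝒰 hC ξ'' L = r • cls11 B h𝒰 hC ξ L := by
  unfold cls11
  rw [← cl2_smul]
  · apply cl2_congr
    funext q
    simp only [Pairing.p11, hc, he, Pi.smul_apply, map_smul, LinearMap.smul_apply, smul_add]
  · exact (isLevel₂_p11 B h𝒰 ξ L).comp (r • ·)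
  · rw [map_smul, B.dTwo_p11 ξ.hc ξ.he L.hy, smul_zero]

lemma cls11_add_right (ξ : HZ1 Y) (L L' : Lift1 P) :
    cls11 B h𝒰 hC ξ (L.add h𝒰 L') = cls11 B h𝒰 hC ξ L + cls11 B h𝒰 hC ξ L' := by
  unfold cls11
  rw [← cl2_add]
  · apply cl2_congr
    funext q
    simp only [Pairing.p11, Lift1.add, Pi.add_apply, map_add]
    abel
  · exact h𝒰.isLevel₂_add (isLevel₂_p11 B h𝒰 ξ L) (isLevel₂_p11 B h𝒰 ξ L')
  · rw [map_add, B.dTwo_p11 ξ.hc ξ.he L.hy, B.dTwo_p11 ξ.hc ξ.he L'.hy, add_zero]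

lemma cls11_smul_right (r : k) (ξ : HZ1 Y) (L : Lift1 P) :
    cls11 B h𝒰 hC ξ (L.smul r) = r • cls11 B h𝒰 hC ξ L := by
  unfold cls11
  rw [← cl2_smul]
  · apply cl2_congr
    funext q
    simp only [Pairing.p11, Lift1.smul, Pi.smul_apply, map_smul, smul_add]
  · exact (isLevel₂_p11 B h𝒰 ξ L).comp (r • ·)
  · rw [map_smul, B.dTwo_p11 ξ.hc ξ.he L.hy, smul_zero]

/-- Vanishing against coboundaries `d⁰ m`. -/
lemma cls11_bdry_right (ξ : HZ1 Y) (mt : P0) :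
    cls11 B h𝒰 hC ξ (Lift1.bdry mt) = 0 := by
  unfold cls11
  rw [cl2_eq_zero_iff]
  refine ⟨-(fun a => B.β0 (ξ.c a) (P.ρ0 a mt)),
    (isLevel₁_cup10 h𝒰 P.disc0 (fun y p => B.β0 y p) ξ.lev mt).comp (fun v => -v), ?_⟩
  rw [map_neg]
  exact (B.p11_bdry_right ξ.e ξ.hc mt).symm

/-- Vanishing of hyper-coboundaries `D⁰ y`. -/
lemma cls11_bdry_left {ξ : HZ1 Y} (y0 : Y0) (hc : ξ.c = dZero Y.ρ0 y0) (he : ξ.e = Y.f y0)
    (L : Lift1 P) : cls11 B h𝒰 hC ξ L = 0 := by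
  unfold cls11
  rw [cl2_eq_zero_iff]
  refine ⟨fun a => B.β0 y0 (L.xt a), L.lev.comp (B.β0 y0), ?_⟩
  rw [hc, he]
  exact (B.p11_bdry_left y0 L.hy).symm

/-- The underlying function of a level 1-cocycle of `M`. -/
abbrev fn1 (x : (lvl h𝒰 P.ρM P.discM).Z1) : G → M := ((x : lev₁ k h𝒰 M) : G → M)

lemma fn1_level (x : (lvl h𝒰 P.ρM P.discM).Z1) : IsLevel₁ 𝒰 (fn1 h𝒰 x) := x.1.2

lemma fn1_cocycle (x : (lvl h𝒰 P.ρM P.discM).Z1) : dOne P.ρM (fn1 h𝒰 x) = 0 :=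
  (mem_lvl_Z1_iff h𝒰 P.ρM P.discM x.1).1 x.2

/-- The pairing on cocycles, via a chosen lift. -/
noncomputable def pair11Z (ξ : HZ1 Y) (x : (lvl h𝒰 P.ρM P.discM).Z1) : Hlev2 h𝒰 ρC hC :=
  cls11 B h𝒰 hC ξ (Classical.choose (Lift1.exists_lift (fn1_level h𝒰 x) (fn1_cocycle h𝒰 x)))

lemma pair11Z_eq (ξ : HZ1 Y) (x : (lvl h𝒰 P.ρM P.discM).Z1) (L : Lift1 P)
    (hL : L.Lifts (fn1 h𝒰 x)) : pair11Z B h𝒰 hC ξ x = cls11 B h𝒰 hC ξ L := by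
  unfold pair11Z
  apply cls11_indep
  intro g
  rw [Classical.choose_spec (Lift1.exists_lift (fn1_level h𝒰 x) (fn1_cocycle h𝒰 x)) g, hL g]

/-- The pairing as a bilinear map on cocycles. -/
noncomputable def pair11ZZ :
    (Y.tot h𝒰).Z1 →ₗ[k] (lvl h𝒰 P.ρM P.discM).Z1 →ₗ[k] Hlev2 h𝒰 ρC hC :=
  LinearMap.mk₂ k (fun z x => pair11Z B h𝒰 hC (HZ1.ofZ1 h𝒰 z) x)
    (fun z z' x => by
      obtain ⟨L, hL⟩ := Lift1.exists_lift (P := P) (fn1_level h𝒰 x) (fn1_cocycle h𝒰 x)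
      rw [pair11Z_eq B h𝒰 hC _ x L hL, pair11Z_eq B h𝒰 hC _ x L hL,
        pair11Z_eq B h𝒰 hC _ x L hL]
      exact cls11_add_left B h𝒰 hC rfl rfl L)
    (fun r z x => by
      obtain ⟨L, hL⟩ := Lift1.exists_lift (P := P) (fn1_level h𝒰 x) (fn1_cocycle h𝒰 x)
      rw [pair11Z_eq B h𝒰 hC _ x L hL, pair11Z_eq B h𝒰 hC _ x L hL]
      exact cls11_smul_left B h𝒰 hC r rfl rfl L)
    (fun z x x' => by
      obtain ⟨L, hL⟩ := Lift1.exists_lift (P := P) (fn1_level h𝒰 x) (fn1_cocycle h𝒰 x)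
      obtain ⟨L', hL'⟩ := Lift1.exists_lift (P := P) (fn1_level h𝒰 x') (fn1_cocycle h𝒰 x')
      rw [pair11Z_eq B h𝒰 hC _ x L hL, pair11Z_eq B h𝒰 hC _ x' L' hL',
        pair11Z_eq B h𝒰 hC _ (x + x') (L.add h𝒰 L') (hL.add h𝒰 hL')]
      exact cls11_add_right B h𝒰 hC _ L L')
    (fun r z x => by
      obtain ⟨L, hL⟩ := Lift1.exists_lift (P := P) (fn1_level h𝒰 x) (fn1_cocycle h𝒰 x)
      rw [pair11Z_eq B h𝒰 hC _ x L hL, pair11Z_eq B h𝒰 hC _ (r • x) (L.smul r) (hL.smul r)]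
      exact cls11_smul_right B h𝒰 hC r _ L)

lemma pair11ZZ_apply (z : (Y.tot h𝒰).Z1) (x : (lvl h𝒰 P.ρM P.discM).Z1) (L : Lift1 P)
    (hL : L.Lifts (fn1 h𝒰 x)) :
    pair11ZZ B h𝒰 hC z x = cls11 B h𝒰 hC (HZ1.ofZ1 h𝒰 z) L :=
  pair11Z_eq B h𝒰 hC _ x L hL

lemma pair11ZZ_bdry_left (z : (Y.tot h𝒰).Z1) (hz : z ∈ (Y.tot h𝒰).B1) :
    pair11ZZ B h𝒰 hC z = 0 := by
  obtain ⟨y0, hy0⟩ := ((Y.tot h𝒰).mem_B1_iff z).1 hz
  ext x
  obtain ⟨L, hL⟩ := Lift1.exists_lift (P := P) (fn1_level h𝒰 x) (fn1_cocycle h𝒰 x)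
  rw [pair11ZZ_apply B h𝒰 hC z x L hL, LinearMap.zero_apply]
  have h1 : (z : K1lev k h𝒰 Y0 Y1).1 = (dZero Y.ρ0 y0, Y.f y0) := by
    rw [← hy0]; rfl
  exact cls11_bdry_left B h𝒰 hC y0 (congrArg Prod.fst h1) (congrArg Prod.snd h1) L

lemma pair11ZZ_bdry_right (z : (Y.tot h𝒰).Z1) (x : (lvl h𝒰 P.ρM P.discM).Z1)
    (hx : x ∈ (lvl h𝒰 P.ρM P.discM).B1) : pair11ZZ B h𝒰 hC z x = 0 := by
  obtain ⟨m, hm⟩ := ((lvl h𝒰 P.ρM P.discM).mem_B1_iff x).1 hx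
  obtain ⟨mt, rfl⟩ := P.π_surj m
  have h1 : fn1 h𝒰 x = dZero P.ρM (P.π mt) := by
    rw [fn1, ← hm]; rfl
  rw [pair11ZZ_apply B h𝒰 hC z x (Lift1.bdry mt) (h1 ▸ Lift1.lifts_bdry mt)]
  exact cls11_bdry_right B h𝒰 hC _ mt

/-- **The `(1,1)` pairing** `ℍ¹(Y) × H¹(G, M) → H²(G, C)`. -/
noncomputable def pair11 :
    Y.ℍ1 h𝒰 →ₗ[k] Hlev1 h𝒰 P.ρM P.discM →ₗ[k] Hlev2 h𝒰 ρC hC :=
  liftH1H1 (Y.tot h𝒰) (lvl h𝒰 P.ρM P.discM) (pair11ZZ B h𝒰 hC)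
    (pair11ZZ_bdry_left B h𝒰 hC) (pair11ZZ_bdry_right B h𝒰 hC)

/-- The defining property: the pairing of classes is the class of the raw cochain, for ANY lift. -/
theorem pair11_mk (ξ : HZ1 Y) (x : (lvl h𝒰 P.ρM P.discM).Z1) (L : Lift1 P)
    (hL : L.Lifts (fn1 h𝒰 x)) :
    pair11 B h𝒰 hC (ξ.cls h𝒰) ((lvl h𝒰 P.ρM P.discM).π1 x) = cls11 B h𝒰 hC ξ L :=
  pair11ZZ_apply B h𝒰 hC _ x L hL

/-- Variant for raw cocycles. -/
theorem pair11_cl1 (ξ : HZ1 Y) (x : G → M) (hl : IsLevel₁ 𝒰 x) (hc : dOne P.ρM x = 0) (L : Lift1 P)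
    (hL : L.Lifts x) :
    pair11 B h𝒰 hC (ξ.cls h𝒰) (cl1 h𝒰 P.ρM P.discM x hl hc) = cls11 B h𝒰 hC ξ L :=
  pair11_mk B h𝒰 hC ξ _ L hL

end Pair11

end Fermat.Agent.PT.PRO.ExtPairing4
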