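/-
Program F (S55, Poitou–Tate), chapter PRO, helper20.

`Pairing20`: the explicit pairing `ℍ¹(Y⁰ → Y¹) × H¹(A) → H²(X)` ("Ext¹(A, X) × H¹(A) → H²(X)`),
at the cochain level, for an abstract *pairing datum*:

* a two-term complex `f : Y⁰ → Y¹` of `G`-modules (think `Y^i = Hom(F_i, X)`),
* a resolution `0 → F₁ --ι--> F₀ --π--> A → 0` of `G`-modules,
* equivariant bilinear evaluations `ev₀ : Y⁰ × F₀ → X`, `ev₁ : Y¹ × F₁ → X` with
  `ev₁ (f y) x = ev₀ y (ι x)`.

For a hyper-1-cocycle `(c, y)` (`d c = 0`, `f ∘ c = d y`) and a *lifted cocycle* `(ã, b)`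
(`ã : G → F₀`, `b : G × G → F₁`, `ι ∘ b = d ã`; then `π ∘ ã` is a 1-cocycle of `A`) put
`pairFun (c, y) (ã, b) (g, h) = ev₀ (c g) (g • ã h) + ev₁ y (b (g, h))`.
It is a 2-cocycle of `X`; it changes by a coboundary `d(level cochain)` when `(c, y)` changes by a
hyper-coboundary, when `ã` changes by `ι ∘ t`, and when `ã` changes by `d x₀`.
-/
import Mathlib
import Fermat.Agent.PT.PRO.HyperLevel25

set_option autoImplicit false

namespace Fermat.Agent.PT.PRO.Pairing20

open Fermat.Agent.PT.PRO.HyperLevel25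

variable {k : Type*} [CommRing k] {G : Type*} [Group G]
variable {Y0 Y1 F0 F1 A X : Type*}
  [AddCommGroup Y0] [Module k Y0] [AddCommGroup Y1] [Module k Y1]
  [AddCommGroup F0] [Module k F0] [AddCommGroup F1] [Module k F1]
  [AddCommGroup A] [Module k A] [AddCommGroup X] [Module k X]

/-- A pairing datum (see the header). -/
structure Datum (k : Type*) [CommRing k] (G : Type*) [Group G] (Y0 Y1 F0 F1 A X : Type*)
    [AddCommGroup Y0] [Module k Y0] [AddCommGroup Y1] [Module k Y1]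
    [AddCommGroup F0] [Module k F0] [AddCommGroup F1] [Module k F1]
    [AddCommGroup A] [Module k A] [AddCommGroup X] [Module k X] where
  ρY0 : Representation k G Y0
  ρY1 : Representation k G Y1
  ρF0 : Representation k G F0
  ρF1 : Representation k G F1
  ρA : Representation k G A
  ρX : Representation k G X
  f : Y0 →ₗ[k] Y1
  f_comm : ∀ g y, f (ρY0 g y) = ρY1 g (f y)
  ι : F1 →ₗ[k] F0
  ι_comm : ∀ g x, ι (ρF1 g x) = ρF0 g (ι x)
  ι_inj : Function.Injective ι
  π : F0 →ₗ[k] A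
  π_comm : ∀ g x, π (ρF0 g x) = ρA g (π x)
  π_surj : Function.Surjective π
  exact : ∀ x, π x = 0 ↔ ∃ z, ι z = x
  ev0 : Y0 →ₗ[k] F0 →ₗ[k] X
  ev1 : Y1 →ₗ[k] F1 →ₗ[k] X
  ev0_comm : ∀ g y x, ev0 (ρY0 g y) (ρF0 g x) = ρX g (ev0 y x)
  ev1_comm : ∀ g y x, ev1 (ρY1 g y) (ρF1 g x) = ρX g (ev1 y x)
  ev_compat : ∀ y x, ev1 (f y) x = ev0 y (ι x)

namespace Datum

variable (D : Datum k G Y0 Y1 F0 F1 A X)

/-- `(c, y)` is a hyper-1-cocycle of `f : Y⁰ → Y¹`. -/
def IsHyperCocycle (c : G → Y0) (y : Y1) : Prop :=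
  dOne D.ρY0 c = 0 ∧ ∀ g, D.f (c g) = D.ρY1 g y - y

/-- `(ã, b)` is a lifted cocycle: `ι ∘ b = d ã`. -/
def IsLift (a' : G → F0) (b : G × G → F1) : Prop :=
  ∀ q, D.ι (b q) = dOne D.ρF0 a' q

/-- The pairing on cochains. -/
def pairFun (c : G → Y0) (y : Y1) (a' : G → F0) (b : G × G → F1) : G × G → X :=
  fun q => D.ev0 (c q.1) (D.ρF0 q.1 (a' q.2)) + D.ev1 y (b q)

@[simp] lemma pairFun_apply (c : G → Y0) (y : Y1) (a' : G → F0) (b : G × G → F1) (g h : G) :
    D.pairFun c y a' b (g, h) = D.ev0 (c g) (D.ρF0 g (a' h)) + D.ev1 y (b (g, h)) := rfl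

lemma cocycle_mul {c : G → Y0} (hc : dOne D.ρY0 c = 0) (g h : G) :
    c (g * h) = D.ρY0 g (c h) + c g := by
  have := congrFun hc (g, h)
  simp only [dOne_apply, Pi.zero_apply] at this
  rw [sub_add_eq_add_sub, sub_eq_zero] at this
  exact this.symm

/-- For a lifted cocycle, `b` is a 2-cocycle of `F₁`. -/
lemma IsLift.dTwo_eq_zero {a' : G → F0} {b : G × G → F1} (hb : D.IsLift a' b) (g h j : G) :
    D.ρF1 g (b (h, j)) - b (g * h, j) + b (g, h * j) - b (g, h) = 0 := by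
  apply D.ι_inj
  have hb' : ∀ q, D.ι (b q) = dOne D.ρF0 a' q := hb
  have h0 := congrFun (dTwo_dOne D.ρF0 a') (g, h, j)
  simp only [dTwo_apply, Pi.zero_apply] at h0
  simp only [map_sub, map_add, map_zero, D.ι_comm, hb']
  exact h0

/-- `π ∘ ã` is a 1-cocycle of `A` for a lifted cocycle. -/
lemma IsLift.dOne_comp {a' : G → F0} {b : G × G → F1} (hb : D.IsLift a' b) :
    dOne D.ρA (⇑D.π ∘ a') = 0 := by
  funext q
  have h1 : D.π (dOne D.ρF0 a' q) = 0 := by rw [← hb q]; exact (D.exact _).2 ⟨_, rfl⟩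
  obtain ⟨g, h⟩ := q
  simp only [dOne_apply, map_add, map_sub, D.π_comm] at h1
  simpa using h1

/-- **The pairing of a hyper-1-cocycle with a lifted cocycle is a 2-cocycle.** -/
theorem dTwo_pairFun {c : G → Y0} {y : Y1} (hcy : D.IsHyperCocycle c y) {a' : G → F0}
    {b : G × G → F1} (hb : D.IsLift a' b) : dTwo D.ρX (D.pairFun c y a' b) = 0 := by
  funext q
  obtain ⟨g, h, j⟩ := q
  simp only [dTwo_apply, pairFun_apply, Pi.zero_apply, map_add]
  have e1 : D.ρX g (D.ev0 (c h) (D.ρF0 h (a' j))) =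
      D.ev0 (D.ρY0 g (c h)) (D.ρF0 (g * h) (a' j)) := by
    rw [← D.ev0_comm, map_mul, Module.End.mul_apply]
  have e2 : D.ρX g (D.ev1 y (b (h, j))) = D.ev1 (D.ρY1 g y) (D.ρF1 g (b (h, j))) := by
    rw [D.ev1_comm]
  have e3 := D.cocycle_mul hcy.1 g h
  have e4 : D.ev1 (D.ρY1 g y) (D.ρF1 g (b (h, j))) - D.ev1 y (D.ρF1 g (b (h, j)))
      = D.ev0 (c g) (D.ρF0 g (D.ρF0 h (a' j) - a' (h * j) + a' h)) := by
    have := hb (h, j)
    simp only [dOne_apply] at this
    rw [← this, ← D.ι_comm, ← D.ev_compat, hcy.2 g, map_sub, LinearMap.sub_apply]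
  have e5 := hb.dTwo_eq_zero D g h j
  have e6 : D.ev1 y (D.ρF1 g (b (h, j))) =
      D.ev1 y (b (g * h, j)) - D.ev1 y (b (g, h * j)) + D.ev1 y (b (g, h)) := by
    rw [← map_sub, ← map_add]
    congr 1
    rw [← sub_eq_zero, ← e5]
    abel
  rw [e1, e2, e3, map_add, LinearMap.add_apply]
  simp only [map_sub, map_add, map_mul, Module.End.mul_apply] at e4 ⊢
  rw [e6] at e4
  rw [← sub_eq_zero] at e4
  rw [← e4]
  abel

/-! ### Additivity -/

lemma pairFun_add_left (c c' : G → Y0) (y y' : Y1) (a' : G → F0) (b : G × G → F1) :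
    D.pairFun (c + c') (y + y') a' b = D.pairFun c y a' b + D.pairFun c' y' a' b := by
  funext q
  simp only [pairFun, Pi.add_apply, map_add, LinearMap.add_apply]
  abel

lemma pairFun_smul_left (r : k) (c : G → Y0) (y : Y1) (a' : G → F0) (b : G × G → F1) :
    D.pairFun (r • c) (r • y) a' b = r • D.pairFun c y a' b := by
  funext q
  simp only [pairFun, Pi.smul_apply, map_smul, LinearMap.smul_apply, smul_add]

lemma pairFun_add_right (c : G → Y0) (y : Y1) (a' a'' : G → F0) (b b' : G × G → F1) :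
    D.pairFun c y (a' + a'') (b + b') = D.pairFun c y a' b + D.pairFun c y a'' b' := by
  funext q
  simp only [pairFun, Pi.add_apply, map_add]
  abel

lemma pairFun_smul_right (r : k) (c : G → Y0) (y : Y1) (a' : G → F0) (b : G × G → F1) :
    D.pairFun c y (r • a') (r • b) = r • D.pairFun c y a' b := by
  funext q
  simp only [pairFun, Pi.smul_apply, map_smul, smul_add]

lemma IsHyperCocycle.add {c c' : G → Y0} {y y' : Y1} (h : D.IsHyperCocycle c y)
    (h' : D.IsHyperCocycle c' y') : D.IsHyperCocycle (c + c') (y + y') := by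
  refine ⟨by rw [map_add, h.1, h'.1, add_zero], fun g => ?_⟩
  rw [Pi.add_apply, map_add, map_add, h.2, h'.2]; abel

lemma IsLift.add {a' a'' : G → F0} {b b' : G × G → F1} (h : D.IsLift a' b)
    (h' : D.IsLift a'' b') : D.IsLift (a' + a'') (b + b') := by
  intro q
  have h1 : D.ι (b q) = dOne D.ρF0 a' q := h q
  have h2 : D.ι (b' q) = dOne D.ρF0 a'' q := h' q
  rw [Pi.add_apply, map_add, map_add, Pi.add_apply, h1, h2]

lemma IsLift.smul (r : k) {a' : G → F0} {b : G × G → F1} (h : D.IsLift a' b) :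
    D.IsLift (r • a') (r • b) := by
  intro q
  have h1 : D.ι (b q) = dOne D.ρF0 a' q := h q
  rw [Pi.smul_apply, map_smul, map_smul, Pi.smul_apply, h1]

lemma isLift_zero : D.IsLift (0 : G → F0) (0 : G × G → F1) := by
  intro q; simp

/-! ### The three coboundary lemmas -/

/-- Hyper-coboundaries are hyper-cocycles. -/
lemma isHyperCocycle_bdry (y₀ : Y0) : D.IsHyperCocycle (dZero D.ρY0 y₀) (D.f y₀) := by
  refine ⟨dOne_dZero _ _, fun g => ?_⟩
  rw [dZero_apply, map_sub, D.f_comm]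

/-- **Change of `(c, y)` by a hyper-coboundary** `(d y₀, f y₀)` changes the pairing by
`d (g ↦ ev₀ y₀ (ã g))`. -/
theorem pairFun_bdry_left (y₀ : Y0) {a' : G → F0} {b : G × G → F1} (hb : D.IsLift a' b) :
    D.pairFun (dZero D.ρY0 y₀) (D.f y₀) a' b = dOne D.ρX (fun g => D.ev0 y₀ (a' g)) := by
  funext q
  obtain ⟨g, h⟩ := q
  have hb' := hb (g, h)
  simp only [dOne_apply] at hb'
  simp only [pairFun_apply, dZero_apply, dOne_apply, map_sub, LinearMap.sub_apply,
    D.ev_compat, hb', map_add, D.ev0_comm]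
  abel

/-- The lift `(ι ∘ t, d t)` of the zero cocycle. -/
lemma isLift_ι (t : G → F1) : D.IsLift (⇑D.ι ∘ t) (dOne D.ρF1 t) := by
  intro q
  obtain ⟨g, h⟩ := q
  simp only [dOne_apply, Function.comp_apply, map_add, map_sub, D.ι_comm]

/-- **Change of the lift by `ι ∘ t`** changes the pairing by `d (g ↦ ev₁ y (t g))`. -/
theorem pairFun_ι {c : G → Y0} {y : Y1} (hcy : D.IsHyperCocycle c y) (t : G → F1) :
    D.pairFun c y (⇑D.ι ∘ t) (dOne D.ρF1 t) = dOne D.ρX (fun g => D.ev1 y (t g)) := by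
  funext q
  obtain ⟨g, h⟩ := q
  simp only [pairFun_apply, dOne_apply, Function.comp_apply, map_add, map_sub]
  rw [← D.ι_comm, ← D.ev_compat, hcy.2 g, map_sub, LinearMap.sub_apply, D.ev1_comm]
  abel

/-- The lift `(d x₀, 0)` of the coboundary `d (π x₀)`. -/
lemma isLift_dZero (x₀ : F0) : D.IsLift (dZero D.ρF0 x₀) 0 := by
  intro q
  have := congrFun (dOne_dZero D.ρF0 x₀) q
  simp only [Pi.zero_apply, map_zero] at this ⊢
  exact this.symm

/-- **Change of the cocycle `a` by the coboundary `d (π x₀)`** changes the pairing by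
`- d (g ↦ ev₀ (c g) (g x₀))`. -/
theorem pairFun_dZero {c : G → Y0} {y : Y1} (hcy : D.IsHyperCocycle c y) (x₀ : F0) :
    D.pairFun c y (dZero D.ρF0 x₀) 0 = - dOne D.ρX (fun g => D.ev0 (c g) (D.ρF0 g x₀)) := by
  funext q
  obtain ⟨g, h⟩ := q
  have e3 := D.cocycle_mul hcy.1 g h
  simp only [pairFun_apply, dZero_apply, dOne_apply, Pi.zero_apply, Pi.neg_apply, map_zero,
    add_zero, map_sub, e3, map_add, LinearMap.add_apply, map_mul, Module.End.mul_apply]
  rw [← D.ev0_comm]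
  abel

end Datum

end Fermat.Agent.PT.PRO.Pairing20
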