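/-
Program F (S55, Poitou–Tate), chapter PRO, helper20.

`GlobalDuality20`: the LIMIT ARGUMENT for the duality `Ext¹_G(M, C) × H¹(G, M) → H²(G, C)`,
at the cochain level (no quotient types), for an abstract pairing datum `D` (`Pairing20.Datum`)
and a basis `𝒰` of open subgroups.

Input: *finite-level* nondegeneracy statements `TNl`, `TNr` (hyper Tate–Nakayama at the level `V`,
for `V` in a cofinal family `ℱ` of normal members of `𝒰`), injectivity of inflation in degree 2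
(`INJ2`), "no universal norms mod `p`" (`RECN`), and `p · ℍ¹ = 0` (`Hp`).
Output: the pairing on level cocycles has trivial left kernel (`left_kernel`) and trivial right
kernel (`right_kernel`) modulo (hyper-)coboundaries.
-/
import Mathlib
import Fermat.Agent.PT.PRO.HyperLevel25
import Fermat.Agent.PT.PRO.Pairing20

set_option autoImplicit false

namespace Fermat.Agent.PT.PRO.GlobalDuality20

open Fermat.Agent.PT.PRO.HyperLevel25 Fermat.Agent.PT.PRO.Pairing20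

variable {k : Type*} [CommRing k] {G : Type*} [Group G]

section LevelAt

variable {Y : Type*} [AddCommGroup Y] [Module k Y]

/-- `y` is fixed by the subgroup `U`. -/
def FixedBy (ρ : Representation k G Y) (U : Subgroup G) (y : Y) : Prop := ∀ s ∈ U, ρ s y = y

/-- A 1-cochain of level `U`: right-`U`-invariant with `U`-fixed values. -/
def IsLevelAt₁ (ρ : Representation k G Y) (U : Subgroup G) (c : G → Y) : Prop :=
  (∀ g s, s ∈ U → c (g * s) = c g) ∧ ∀ g, FixedBy ρ U (c g)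

/-- A 2-cochain of level `U`. -/
def IsLevelAt₂ (ρ : Representation k G Y) (U : Subgroup G) (φ : G × G → Y) : Prop :=
  (∀ g g' s s', s ∈ U → s' ∈ U → φ (g * s, g' * s') = φ (g, g')) ∧ ∀ q, FixedBy ρ U (φ q)

lemma FixedBy.mono {ρ : Representation k G Y} {U V : Subgroup G} (h : V ≤ U) {y : Y}
    (hy : FixedBy ρ U y) : FixedBy ρ V y := fun s hs => hy s (h hs)

lemma IsLevelAt₁.mono {ρ : Representation k G Y} {U V : Subgroup G} (h : V ≤ U) {c : G → Y}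
    (hc : IsLevelAt₁ ρ U c) : IsLevelAt₁ ρ V c :=
  ⟨fun g s hs => hc.1 g s (h hs), fun g => (hc.2 g).mono h⟩

lemma IsLevelAt₂.mono {ρ : Representation k G Y} {U V : Subgroup G} (h : V ≤ U) {φ : G × G → Y}
    (hφ : IsLevelAt₂ ρ U φ) : IsLevelAt₂ ρ V φ :=
  ⟨fun g g' s s' hs hs' => hφ.1 g g' s s' (h hs) (h hs'), fun q => (hφ.2 q).mono h⟩

lemma IsLevelAt₁.isLevel₁ {𝒰 : Set (Subgroup G)} {ρ : Representation k G Y} {U : Subgroup G}
    (hU : U ∈ 𝒰) {c : G → Y} (hc : IsLevelAt₁ ρ U c) : IsLevel₁ 𝒰 c := ⟨U, hU, hc.1⟩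

lemma IsLevelAt₂.isLevel₂ {𝒰 : Set (Subgroup G)} {ρ : Representation k G Y} {U : Subgroup G}
    (hU : U ∈ 𝒰) {φ : G × G → Y} (hφ : IsLevelAt₂ ρ U φ) : IsLevel₂ 𝒰 φ := ⟨U, hU, hφ.1⟩

/-- The norm `N_{G/U} e = ∑_{q ∈ G/U} q̃ · e` (meaningful for `U`-fixed `e`, `U` of finite index). -/
noncomputable def nrm (ρ : Representation k G Y) (U : Subgroup G) (e : Y) : Y :=
  ∑ᶠ q : G ⧸ U, ρ (Quotient.out q) e

end LevelAt

variable {Y0 Y1 F0 F1 A X : Type*}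
  [AddCommGroup Y0] [Module k Y0] [AddCommGroup Y1] [Module k Y1]
  [AddCommGroup F0] [Module k F0] [AddCommGroup F1] [Module k F1]
  [AddCommGroup A] [Module k A] [AddCommGroup X] [Module k X]

variable (D : Datum k G Y0 Y1 F0 F1 A X)

/-- `(c, y)` is a hyper-1-cocycle of level `V`. -/
def IsHyperAt (V : Subgroup G) (c : G → Y0) (y : Y1) : Prop :=
  D.IsHyperCocycle c y ∧ IsLevelAt₁ D.ρY0 V c ∧ FixedBy D.ρY1 V y

/-- `(ã, b)` is a lifted cocycle of level `V`. -/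
def IsLiftAt (V : Subgroup G) (a' : G → F0) (b : G × G → F1) : Prop :=
  D.IsLift a' b ∧ IsLevelAt₁ D.ρF0 V a' ∧ IsLevelAt₂ D.ρF1 V b

/-- The pairing of level-`V` data is a level-`V` 2-cochain (`V` normal). -/
lemma isLevelAt₂_pairFun {V : Subgroup G} (hV : V.Normal) {c : G → Y0} {y : Y1}
    (hcy : IsHyperAt D V c y) {a' : G → F0} {b : G × G → F1} (hab : IsLiftAt D V a' b) :
    IsLevelAt₂ D.ρX V (D.pairFun c y a' b) := by
  obtain ⟨-, hc, hy⟩ := hcy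
  obtain ⟨-, ha, hb⟩ := hab
  refine ⟨fun g g' s s' hs hs' => ?_, fun q t ht => ?_⟩
  · simp only [Datum.pairFun_apply]
    rw [hc.1 g s hs, ha.1 g' s' hs', hb.1 g g' s s' hs hs', map_mul, Module.End.mul_apply,
      ha.2 g' s hs]
  · obtain ⟨g, h⟩ := q
    simp only [Datum.pairFun_apply, map_add]
    rw [← D.ev0_comm, ← D.ev1_comm, hc.2 g t ht, hy t ht, hb.2 (g, h) t ht]
    congr 2
    have h1 : t * g = g * (g⁻¹ * t * g) := by group
    have h2 : g⁻¹ * t * g ∈ V := by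
      have := hV.conj_mem t ht g⁻¹
      simpa using this
    rw [← Module.End.mul_apply, ← map_mul, h1, map_mul, Module.End.mul_apply, ha.2 h _ h2]

/-- The finite-level hypotheses of the limit argument. -/
structure Hyp (𝒰 : Set (Subgroup G)) (ℱ : Set (Subgroup G)) (p : ℕ) : Prop where
  /-- `ℱ` is a cofinal family of normal members of `𝒰` -/
  sub : ℱ ⊆ 𝒰
  normal : ∀ V ∈ ℱ, V.Normal
  cofinal : ∀ U ∈ 𝒰, ∃ V ∈ ℱ, V ≤ U
  /-- hyper Tate–Nakayama at level `V`, left kernel = norms -/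
  TNl : ∀ V ∈ ℱ, ∀ (c : G → Y0) (y : Y1), IsHyperAt D V c y →
    (∀ a' b, IsLiftAt D V a' b → ∃ u, IsLevelAt₁ D.ρX V u ∧ D.pairFun c y a' b = dOne D.ρX u) →
    ∃ (y₀ : Y0) (e : Y1), FixedBy D.ρY1 V e ∧ c = dZero D.ρY0 y₀ ∧ y = D.f y₀ + nrm D.ρY1 V e
  /-- hyper Tate–Nakayama at level `V`, right kernel = 0 -/
  TNr : ∀ V ∈ ℱ, ∀ (a' : G → F0) (b : G × G → F1), IsLiftAt D V a' b →
    (∀ c y, IsHyperAt D V c y → ∃ u, IsLevelAt₁ D.ρX V u ∧ D.pairFun c y a' b = dOne D.ρX u) →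
    ∃ a₀ : A, ⇑D.π ∘ a' = dZero D.ρA a₀
  /-- inflation `H²(G/V, X^V) → H²(𝒰; X)` is injective -/
  INJ2 : ∀ V ∈ ℱ, ∀ φ : G × G → X, IsLevelAt₂ D.ρX V φ →
    (∃ u, IsLevel₁ 𝒰 u ∧ φ = dOne D.ρX u) → ∃ u, IsLevelAt₁ D.ρX V u ∧ φ = dOne D.ρX u
  /-- no universal norms modulo `p` -/
  RECN : ∀ U ∈ ℱ, ∃ V ∈ ℱ, V ≤ U ∧ ∀ e, FixedBy D.ρY1 V e →
    ∃ n' : Y1, (∀ g, D.ρY1 g n' = n') ∧ nrm D.ρY1 V e = (p : k) • n'
  /-- `p` kills `ℍ¹` -/
  Hp : ∀ (c : G → Y0) (y : Y1), D.IsHyperCocycle c y → IsLevel₁ 𝒰 c →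
    ∃ y₀ : Y0, (p : k) • c = dZero D.ρY0 y₀ ∧ (p : k) • y = D.f y₀

variable {D} {𝒰 ℱ : Set (Subgroup G)} {p : ℕ}

/-- A level cochain with values in a discrete module is of level `V` for some `V ∈ ℱ` below any
given member of `𝒰`. -/
lemma exists_levelAt₁ (h𝒰 : IsLevelBasis 𝒰) (H : Hyp D 𝒰 ℱ p) {Y : Type*} [AddCommGroup Y]
    [Module k Y] {ρ : Representation k G Y} (hρ : IsDiscrete 𝒰 ρ) {c : G → Y}
    (hc : IsLevel₁ 𝒰 c) (U : Subgroup G) (hU : U ∈ 𝒰) :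
    ∃ V ∈ ℱ, V ≤ U ∧ IsLevelAt₁ ρ V c := by
  obtain ⟨W, hW, -, h1, h2⟩ := h𝒰.exists_normal_fixing hρ hc
  obtain ⟨W', hW', hle⟩ := h𝒰.inf W hW U hU
  obtain ⟨V, hV, hVle⟩ := H.cofinal W' hW'
  exact ⟨V, hV, hVle.trans (hle.trans inf_le_right),
    ⟨fun g s hs => h1 g s ((hVle.trans (hle.trans inf_le_left)) hs),
     fun g s hs => h2 g s ((hVle.trans (hle.trans inf_le_left)) hs)⟩⟩

/-- For a lifted cocycle `(ã, b)` with `ã` of level `V` (`V` normal), `b` is of level `V`. -/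
lemma isLevelAt₂_of_isLift {V : Subgroup G} (hV : V.Normal) {a' : G → F0} {b : G × G → F1}
    (hab : D.IsLift a' b) (ha : IsLevelAt₁ D.ρF0 V a') : IsLevelAt₂ D.ρF1 V b := by
  have hb : ∀ q, D.ι (b q) = dOne D.ρF0 a' q := hab
  have hconj : ∀ (t g : G), t ∈ V → g⁻¹ * t * g ∈ V := fun t g ht => by
    have := hV.conj_mem t ht g⁻¹
    simpa using this
  refine ⟨fun g g' s s' hs hs' => D.ι_inj ?_, fun q t ht => D.ι_inj ?_⟩
  · rw [hb, hb]
    simp only [dOne_apply]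
    have e1 : g * s * (g' * s') = g * g' * ((g'⁻¹ * s * g') * s') := by group
    rw [ha.1 g' s' hs', ha.1 g s hs, e1, ha.1 _ _ (V.mul_mem (hconj s g' hs) hs'), map_mul,
      Module.End.mul_apply, ha.2 g' s hs]
  · obtain ⟨g, h⟩ := q
    rw [D.ι_comm, hb]
    simp only [dOne_apply, map_add, map_sub]
    have e1 : t * g = g * (g⁻¹ * t * g) := by group
    rw [ha.2 _ t ht, ha.2 _ t ht, ← Module.End.mul_apply, ← map_mul, e1, map_mul,
      Module.End.mul_apply, ha.2 h _ (hconj t g ht)]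

/-- **Left kernel.**  A level hyper-1-cocycle which pairs to a level coboundary with every level
lifted cocycle is a hyper-coboundary. -/
theorem left_kernel (h𝒰 : IsLevelBasis 𝒰) (H : Hyp D 𝒰 ℱ p) (hY0 : IsDiscrete 𝒰 D.ρY0)
    (hY1 : IsDiscrete 𝒰 D.ρY1) {c : G → Y0} {y : Y1} (hcy : D.IsHyperCocycle c y)
    (hc : IsLevel₁ 𝒰 c)
    (hpair : ∀ a' b, D.IsLift a' b → IsLevel₁ 𝒰 a' →
      ∃ u, IsLevel₁ 𝒰 u ∧ D.pairFun c y a' b = dOne D.ρX u) :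
    ∃ y₀ : Y0, c = dZero D.ρY0 y₀ ∧ y = D.f y₀ := by
  obtain ⟨U₁, hU₁, hyU₁⟩ := hY1 y
  obtain ⟨V₀, hV₀, hV₀le, hcV₀⟩ := exists_levelAt₁ h𝒰 H hY0 hc U₁ hU₁
  obtain ⟨V, hV, hVle, hrec⟩ := H.RECN V₀ hV₀
  have hVn := H.normal V hV
  have hcyV : IsHyperAt D V c y :=
    ⟨hcy, hcV₀.mono hVle, fun s hs => hyU₁ s (hV₀le (hVle hs))⟩
  obtain ⟨y₀, e, he, hc0, hy0⟩ := H.TNl V hV c y hcyV (fun a' b hab => by
    obtain ⟨u, hu, hpu⟩ := hpair a' b hab.1 ⟨V, H.sub hV, hab.2.1.1⟩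
    exact H.INJ2 V hV _ (isLevelAt₂_pairFun D hVn hcyV hab) ⟨u, hu, hpu⟩)
  obtain ⟨n', hn', hnrm⟩ := hrec e he
  have hcoc : D.IsHyperCocycle (0 : G → Y0) n' := by
    refine ⟨map_zero _, fun g => ?_⟩
    rw [Pi.zero_apply, map_zero, hn' g, sub_self]
  obtain ⟨y₁, h1, h2⟩ := H.Hp 0 n' hcoc (h𝒰.isLevel₁_const 0)
  refine ⟨y₀ + y₁, ?_, ?_⟩
  · rw [map_add, ← h1, smul_zero, add_zero, hc0]
  · rw [map_add, ← h2, ← hnrm, hy0]

/-- **Right kernel.**  A level lifted cocycle which pairs to a level coboundary with every level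
hyper-1-cocycle lifts a coboundary. -/
theorem right_kernel (h𝒰 : IsLevelBasis 𝒰) (H : Hyp D 𝒰 ℱ p) (hF0 : IsDiscrete 𝒰 D.ρF0)
    {a' : G → F0} {b : G × G → F1} (hab : D.IsLift a' b) (ha : IsLevel₁ 𝒰 a')
    (hpair : ∀ c y, D.IsHyperCocycle c y → IsLevel₁ 𝒰 c →
      ∃ u, IsLevel₁ 𝒰 u ∧ D.pairFun c y a' b = dOne D.ρX u) :
    ∃ a₀ : A, ⇑D.π ∘ a' = dZero D.ρA a₀ := by
  obtain ⟨U, hU⟩ := h𝒰.nonempty
  obtain ⟨V, hV, -, haV⟩ := exists_levelAt₁ h𝒰 H hF0 ha U hU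
  have hVn := H.normal V hV
  have habV : IsLiftAt D V a' b := ⟨hab, haV, isLevelAt₂_of_isLift hVn hab haV⟩
  exact H.TNr V hV a' b habV (fun c y hcy => by
    obtain ⟨u, hu, hpu⟩ := hpair c y hcy.1 ⟨V, H.sub hV, hcy.2.1.1⟩
    exact H.INJ2 V hV _ (isLevelAt₂_pairFun D hVn hcy habV) ⟨u, hu, hpu⟩)

end Fermat.Agent.PT.PRO.GlobalDuality20
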