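/-
Program F (S55, Poitou–Tate), chapter PRO, helper20.

`GlobalDuality20b`: the limit argument of `GlobalDuality20` with the finite-level hypotheses in
their `p`-PRIMARY form (this is the version to instantiate):

* `INJ2p` : injectivity of inflation `H²(G/V, X^V) → H²(𝒰; X)` only on classes killed by `p`
  (needs only `H¹(V/V', X^{V'})(p) = 0`);
* `HpAt` : `p` kills the hyper-1-cocycle classes of level `V`, by a coboundary of level `V`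
  (for `K(P; C)`: `p (c, y) = D⁰ (y ∘ h)`, `h = p : P₀ → P₁`).
-/
import Mathlib
import Fermat.Agent.PT.PRO.GlobalDuality20

set_option autoImplicit false

namespace Fermat.Agent.PT.PRO.GlobalDuality20b

open Fermat.Agent.PT.PRO.HyperLevel25 Fermat.Agent.PT.PRO.Pairing20
open Fermat.Agent.PT.PRO.GlobalDuality20

variable {k : Type*} [CommRing k] {G : Type*} [Group G]
variable {Y0 Y1 F0 F1 A X : Type*}
  [AddCommGroup Y0] [Module k Y0] [AddCommGroup Y1] [Module k Y1]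
  [AddCommGroup F0] [Module k F0] [AddCommGroup F1] [Module k F1]
  [AddCommGroup A] [Module k A] [AddCommGroup X] [Module k X]

variable (D : Datum k G Y0 Y1 F0 F1 A X)

/-- The finite-level hypotheses of the limit argument, `p`-primary form. -/
structure HypP (𝒰 : Set (Subgroup G)) (ℱ : Set (Subgroup G)) (p : ℕ) : Prop where
  sub : ℱ ⊆ 𝒰
  normal : ∀ V ∈ ℱ, V.Normal
  cofinal : ∀ U ∈ 𝒰, ∃ V ∈ ℱ, V ≤ U
  /-- hyper Tate–Nakayama at level `V`, left kernel = norms -/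
  TNl : ∀ V ∈ ℱ, ∀ (c : G → Y0) (y : Y1), IsHyperAt D V c y →
    (∀ a' b, IsLiftAt D V a' b → ∃ u, IsLevelAt₁ D.ρX V u ∧ D.pairFun c y a' b = dOne D.ρX u) →
    ∃ (y₀ : Y0) (e : Y1), FixedBy D.ρY1 V e ∧ c = dZero D.ρY0 y₀ ∧ y = D.f y₀ + nrm D.ρY1 V e
  /-- hyper Tate–Nakayama at level `V`, right kernel = 0 -/
  TNr : ∀ V ∈ ℱ, ∀ (a' : G → F0) (b : G × G → F1), IsLiftAt D V a' b →
    (∀ c y, IsHyperAt D V c y → ∃ u, IsLevelAt₁ D.ρX V u ∧ D.pairFun c y a' b = dOne D.ρX u) →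
    ∃ a₀ : A, ⇑D.π ∘ a' = dZero D.ρA a₀
  /-- inflation `H²(G/V, X^V)[p] → H²(𝒰; X)` is injective -/
  INJ2p : ∀ V ∈ ℱ, ∀ φ : G × G → X, IsLevelAt₂ D.ρX V φ →
    (∃ u, IsLevelAt₁ D.ρX V u ∧ (p : k) • φ = dOne D.ρX u) →
    (∃ u, IsLevel₁ 𝒰 u ∧ φ = dOne D.ρX u) → ∃ u, IsLevelAt₁ D.ρX V u ∧ φ = dOne D.ρX u
  /-- no universal norms modulo `p` -/
  RECN : ∀ U ∈ ℱ, ∃ V ∈ ℱ, V ≤ U ∧ ∀ e, FixedBy D.ρY1 V e →
    ∃ n' : Y1, (∀ g, D.ρY1 g n' = n') ∧ nrm D.ρY1 V e = (p : k) • n'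
  /-- `p` kills the level-`V` hyper-1-cocycle classes, at level `V` -/
  HpAt : ∀ V ∈ ℱ, ∀ (c : G → Y0) (y : Y1), IsHyperAt D V c y →
    ∃ y₀ : Y0, FixedBy D.ρY0 V y₀ ∧ (p : k) • c = dZero D.ρY0 y₀ ∧ (p : k) • y = D.f y₀

variable {D} {𝒰 ℱ : Set (Subgroup G)} {p : ℕ}

/-- `p` times the pairing of level-`V` data is a level-`V` coboundary. -/
lemma HypP.smul_pairFun (H : HypP D 𝒰 ℱ p) {V : Subgroup G} (hV : V ∈ ℱ) {c : G → Y0} {y : Y1}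
    (hcy : IsHyperAt D V c y) {a' : G → F0} {b : G × G → F1} (hab : IsLiftAt D V a' b) :
    ∃ u, IsLevelAt₁ D.ρX V u ∧ (p : k) • D.pairFun c y a' b = dOne D.ρX u := by
  obtain ⟨y₀, hy₀, h1, h2⟩ := H.HpAt V hV c y hcy
  refine ⟨fun g => D.ev0 y₀ (a' g),
    ⟨fun g s hs => by show D.ev0 y₀ (a' (g * s)) = D.ev0 y₀ (a' g); rw [hab.2.1.1 g s hs],
      fun g s hs => ?_⟩, ?_⟩
  · show D.ρX s (D.ev0 y₀ (a' g)) = D.ev0 y₀ (a' g)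
    rw [← D.ev0_comm, hy₀ s hs, hab.2.1.2 g s hs]
  · rw [← D.pairFun_smul_left, h1, h2, D.pairFun_bdry_left y₀ hab.1]

lemma HypP.exists_levelAt₁ (h𝒰 : IsLevelBasis 𝒰) (H : HypP D 𝒰 ℱ p) {Y : Type*} [AddCommGroup Y]
    [Module k Y] {ρ : Representation k G Y} (hρ : IsDiscrete 𝒰 ρ) {c : G → Y}
    (hc : IsLevel₁ 𝒰 c) (U : Subgroup G) (hU : U ∈ 𝒰) :
    ∃ V ∈ ℱ, V ≤ U ∧ IsLevelAt₁ ρ V c := by
  obtain ⟨W, hW, -, h1, h2⟩ := h𝒰.exists_normal_fixing hρ hc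
  obtain ⟨W', hW', hle⟩ := h𝒰.inf W hW U hU
  obtain ⟨V, hV, hVle⟩ := H.cofinal W' hW'
  exact ⟨V, hV, hVle.trans (hle.trans inf_le_right),
    ⟨fun g s hs => h1 g s ((hVle.trans (hle.trans inf_le_left)) hs),
     fun g s hs => h2 g s ((hVle.trans (hle.trans inf_le_left)) hs)⟩⟩

/-- **Left kernel** (`p`-primary hypotheses). -/
theorem left_kernel (h𝒰 : IsLevelBasis 𝒰) (H : HypP D 𝒰 ℱ p) (hY0 : IsDiscrete 𝒰 D.ρY0)
    (hY1 : IsDiscrete 𝒰 D.ρY1) {c : G → Y0} {y : Y1} (hcy : D.IsHyperCocycle c y)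
    (hc : IsLevel₁ 𝒰 c)
    (hpair : ∀ a' b, D.IsLift a' b → IsLevel₁ 𝒰 a' →
      ∃ u, IsLevel₁ 𝒰 u ∧ D.pairFun c y a' b = dOne D.ρX u) :
    ∃ y₀ : Y0, c = dZero D.ρY0 y₀ ∧ y = D.f y₀ := by
  obtain ⟨U₁, hU₁, hyU₁⟩ := hY1 y
  obtain ⟨V₀, hV₀, hV₀le, hcV₀⟩ := H.exists_levelAt₁ h𝒰 hY0 hc U₁ hU₁
  obtain ⟨V, hV, hVle, hrec⟩ := H.RECN V₀ hV₀
  have hVn := H.normal V hV
  have hcyV : IsHyperAt D V c y :=
    ⟨hcy, hcV₀.mono hVle, fun s hs => hyU₁ s (hV₀le (hVle hs))⟩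
  obtain ⟨y₀, e, he, hc0, hy0⟩ := H.TNl V hV c y hcyV (fun a' b hab => by
    obtain ⟨u, hu, hpu⟩ := hpair a' b hab.1 ⟨V, H.sub hV, hab.2.1.1⟩
    exact H.INJ2p V hV _ (isLevelAt₂_pairFun D hVn hcyV hab) (H.smul_pairFun hV hcyV hab)
      ⟨u, hu, hpu⟩)
  obtain ⟨n', hn', hnrm⟩ := hrec e he
  have hcoc : IsHyperAt D V (0 : G → Y0) n' := by
    refine ⟨⟨map_zero _, fun g => ?_⟩, ⟨fun _ _ _ => rfl, fun g s _ => map_zero _⟩,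
      fun s _ => hn' s⟩
    rw [Pi.zero_apply, map_zero, hn' g, sub_self]
  obtain ⟨y₁, -, h1, h2⟩ := H.HpAt V hV 0 n' hcoc
  refine ⟨y₀ + y₁, ?_, ?_⟩
  · rw [map_add, ← h1, smul_zero, add_zero, hc0]
  · rw [map_add, ← h2, ← hnrm, hy0]

/-- **Right kernel** (`p`-primary hypotheses). -/
theorem right_kernel (h𝒰 : IsLevelBasis 𝒰) (H : HypP D 𝒰 ℱ p) (hF0 : IsDiscrete 𝒰 D.ρF0)
    {a' : G → F0} {b : G × G → F1} (hab : D.IsLift a' b) (ha : IsLevel₁ 𝒰 a')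
    (hpair : ∀ c y, D.IsHyperCocycle c y → IsLevel₁ 𝒰 c →
      ∃ u, IsLevel₁ 𝒰 u ∧ D.pairFun c y a' b = dOne D.ρX u) :
    ∃ a₀ : A, ⇑D.π ∘ a' = dZero D.ρA a₀ := by
  obtain ⟨U, hU⟩ := h𝒰.nonempty
  obtain ⟨V, hV, -, haV⟩ := H.exists_levelAt₁ h𝒰 hF0 ha U hU
  have hVn := H.normal V hV
  have habV : IsLiftAt D V a' b := ⟨hab, haV, isLevelAt₂_of_isLift hVn hab haV⟩
  exact H.TNr V hV a' b habV (fun c y hcy => by
    obtain ⟨u, hu, hpu⟩ := hpair c y hcy.1 ⟨V, H.sub hV, hcy.2.1.1⟩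
    exact H.INJ2p V hV _ (isLevelAt₂_pairFun D hVn hcy habV) (H.smul_pairFun hV hcy habV)
      ⟨u, hu, hpu⟩)

end Fermat.Agent.PT.PRO.GlobalDuality20b
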