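/-
Program F (S55, Poitou–Tate), chapter PRO, piece P5 (continued), helper4.

`ExtPairingB4`, on top of `ExtPairing4` / `Resolved4` and helper20's `Pairing20` / `GlobalDuality20b`:

* `evalPairing` : `K(P; C) = [Hom(P₀, C) → Hom(P₁, C)]` with evaluation, as a `Pairing`;
* `Pairing.toDatum` : the adapter to `Pairing20.Datum` (`pairFun = p11` by `rfl`);
* `pair11_eq_zero_iff` and the packaged kernel statements
  `pair11_left_kernel` / `pair11_right_kernel` : under `GlobalDuality20b.HypP`, the bilinear map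
  `pair11 : ℍ¹(Y) × H¹(M) → H²(C)` has trivial left and right kernels;
* `PairingHom` and `pair11_natural` : naturality of `pair11` (covers functoriality in `C`, in `P`,
  and in `Y`).
-/
import Mathlib
import Fermat.Agent.PT.PRO.HyperLevel25
import Fermat.Agent.PT.PRO.Resolved4
import Fermat.Agent.PT.PRO.ExtPairing4
import Fermat.Agent.PT.PRO.Pairing20
import Fermat.Agent.PT.PRO.GlobalDuality20b

set_option autoImplicit false

namespace Fermat.Agent.PT.PRO.ExtPairingB4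

open Function Fermat.Agent.PT.PRO.HyperLevel25 Fermat.Agent.PT.PRO.Resolved4
  Fermat.Agent.PT.PRO.ExtPairing4

variable {k G : Type*} [CommRing k] [Group G] {𝒰 : Set (Subgroup G)}
variable {Y0 Y1 P1 P0 M C : Type*}
  [AddCommGroup Y0] [Module k Y0] [AddCommGroup Y1] [Module k Y1]
  [AddCommGroup P1] [Module k P1] [AddCommGroup P0] [Module k P0]
  [AddCommGroup M] [Module k M] [AddCommGroup C] [Module k C]

/-! ## The evaluation pairing of `K(P; C)` -/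

/-- `K(P; C)` pairs with `P` by evaluation. -/
def evalPairing (P : Resolved k 𝒰 P1 P0 M) [Module.Finite k P0] [Module.Finite k P1]
    (h𝒰 : IsLevelBasis 𝒰) (ρC : Representation k G C) (hC : IsDiscrete 𝒰 ρC) :
    Pairing (P.K h𝒰 ρC hC) P ρC where
  β0 := LinearMap.id
  β1 := LinearMap.id
  equiv0 g y p := by
    show (Representation.linHom P.ρ0 ρC g y) (P.ρ0 g p) = ρC g (y p)
    rw [Representation.linHom_apply]
    simp only [LinearMap.comp_apply, Representation.inv_self_apply]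
  equiv1 g y p := by
    show (Representation.linHom P.ρ1 ρC g y) (P.ρ1 g p) = ρC g (y p)
    rw [Representation.linHom_apply]
    simp only [LinearMap.comp_apply, Representation.inv_self_apply]
  compat _ _ := rfl

@[simp] lemma evalPairing_β0 (P : Resolved k 𝒰 P1 P0 M) [Module.Finite k P0] [Module.Finite k P1]
    (h𝒰 : IsLevelBasis 𝒰) (ρC : Representation k G C) (hC : IsDiscrete 𝒰 ρC)
    (y : P0 →ₗ[k] C) (p : P0) : (evalPairing P h𝒰 ρC hC).β0 y p = y p := rfl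

@[simp] lemma evalPairing_β1 (P : Resolved k 𝒰 P1 P0 M) [Module.Finite k P0] [Module.Finite k P1]
    (h𝒰 : IsLevelBasis 𝒰) (ρC : Representation k G C) (hC : IsDiscrete 𝒰 ρC)
    (y : P1 →ₗ[k] C) (p : P1) : (evalPairing P h𝒰 ρC hC).β1 y p = y p := rfl

/-! ## Adapter to `Pairing20.Datum` -/

variable {Y : Cx k 𝒰 Y0 Y1} {P : Resolved k 𝒰 P1 P0 M} {ρC : Representation k G C}

/-- The `Pairing20.Datum` of a pairing. -/
def toDatum (B : Pairing Y P ρC) : Pairing20.Datum k G Y0 Y1 P0 P1 M C where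
  ρY0 := Y.ρ0
  ρY1 := Y.ρ1
  ρF0 := P.ρ0
  ρF1 := P.ρ1
  ρA := P.ρM
  ρX := ρC
  f := Y.f
  f_comm := Y.comm
  ι := P.ι
  ι_comm := P.ι_comm
  ι_inj := P.ι_inj
  π := P.π
  π_comm := P.π_comm
  π_surj := P.π_surj
  exact x := P.exact x
  ev0 := B.β0
  ev1 := B.β1
  ev0_comm := B.equiv0
  ev1_comm := B.equiv1
  ev_compat := B.compat

lemma toDatum_pairFun (B : Pairing Y P ρC) (c : G → Y0) (e : Y1) (xt : G → P0)
    (y' : G × G → P1) : (toDatum B).pairFun c e xt y' = B.p11 c e xt y' := rfl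

/-! ## Vanishing criterion and kernels -/

variable (B : Pairing Y P ρC) (h𝒰 : IsLevelBasis 𝒰) (hC : IsDiscrete 𝒰 ρC)

/-- The pairing of two classes vanishes iff the raw cochain is a level coboundary. -/
theorem pair11_eq_zero_iff (ξ : HZ1 Y) (x : G → M) (hl : IsLevel₁ 𝒰 x) (hc : dOne P.ρM x = 0)
    (L : Lift1 P) (hL : L.Lifts x) :
    pair11 B h𝒰 hC (ξ.cls h𝒰) (cl1 h𝒰 P.ρM P.discM x hl hc) = 0 ↔
      ∃ u : G → C, IsLevel₁ 𝒰 u ∧ dOne ρC u = B.p11 ξ.c ξ.e L.xt L.y' := by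
  rw [pair11_cl1 B h𝒰 hC ξ x hl hc L hL]
  exact cl2_eq_zero_iff _ _

/-- **Left kernel.**  Under the finite-level hypotheses `HypP`, a class of `ℍ¹(Y)` pairing to zero
with all of `H¹(M)` is zero. -/
theorem pair11_left_kernel {ℱ : Set (Subgroup G)} {p : ℕ}
    (H : GlobalDuality20b.HypP (toDatum B) 𝒰 ℱ p) (ξ : Y.ℍ1 h𝒰)
    (h : ∀ x, pair11 B h𝒰 hC ξ x = 0) : ξ = 0 := by
  obtain ⟨ξ', rfl⟩ := HZ1.cls_surjective h𝒰 ξ
  have hcy : (toDatum B).IsHyperCocycle ξ'.c ξ'.e :=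
    ⟨funext fun q => ξ'.hc q.1 q.2, fun g => ξ'.he g⟩
  obtain ⟨y₀, h1, h2⟩ := GlobalDuality20b.left_kernel (D := toDatum B) h𝒰 H Y.disc0 Y.disc1 hcy
    ξ'.lev (fun a' b hab ha' => by
      have hx : dOne P.ρM (⇑P.π ∘ a') = 0 := Pairing20.Datum.IsLift.dOne_comp (toDatum B) hab
      let L : Lift1 P := ⟨a', b, ha', fun g h => hab (g, h)⟩
      have hL : L.Lifts (⇑P.π ∘ a') := fun g => rfl
      obtain ⟨u, hu, hdu⟩ := (pair11_eq_zero_iff B h𝒰 hC ξ' (⇑P.π ∘ a') (ha'.comp _) hx L hL).1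
        (h _)
      exact ⟨u, hu, hdu.symm⟩)
  unfold HZ1.cls
  rw [Cpx.π1_eq_zero_iff]
  refine ⟨y₀, Subtype.ext ?_⟩
  show Y.D0 y₀ = (ξ'.c, ξ'.e)
  have h1' : ξ'.c = dZero Y.ρ0 y₀ := h1
  have h2' : ξ'.e = Y.f y₀ := h2
  rw [Cx.D0_apply, h1', h2']

/-- **Right kernel.**  Under `HypP`, a class of `H¹(M)` pairing to zero with all of `ℍ¹(Y)` is
zero. -/
theorem pair11_right_kernel {ℱ : Set (Subgroup G)} {p : ℕ}
    (H : GlobalDuality20b.HypP (toDatum B) 𝒰 ℱ p) (x : Hlev1 h𝒰 P.ρM P.discM)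
    (h : ∀ ξ, pair11 B h𝒰 hC ξ x = 0) : x = 0 := by
  obtain ⟨x', hl, hc, rfl⟩ := cl1_surjective (h𝒰 := h𝒰) (ρC := P.ρM) (hC := P.discM) x
  obtain ⟨L, hL⟩ := Lift1.exists_lift (P := P) hl hc
  have hab : (toDatum B).IsLift L.xt L.y' := fun q => L.hy q.1 q.2
  obtain ⟨a₀, ha₀⟩ := GlobalDuality20b.right_kernel (D := toDatum B) h𝒰 H P.disc0 hab L.lev
    (fun c y hcy hcl => by
      let ξ' : HZ1 Y := ⟨c, y, hcl, fun g h => congrFun hcy.1 (g, h), fun g => hcy.2 g⟩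
      obtain ⟨u, hu, hdu⟩ := (pair11_eq_zero_iff B h𝒰 hC ξ' x' hl hc L hL).1 (h _)
      exact ⟨u, hu, hdu.symm⟩)
  have ha₀' : ⇑P.π ∘ L.xt = dZero P.ρM a₀ := ha₀
  rw [cl1_eq_zero_iff]
  refine ⟨a₀, ?_⟩
  rw [← ha₀']
  funext g
  exact hL g

/-! ## Naturality -/

section Natural

variable {Y0' Y1' P1' P0' M' C' : Type*}
  [AddCommGroup Y0'] [Module k Y0'] [AddCommGroup Y1'] [Module k Y1']
  [AddCommGroup P1'] [Module k P1'] [AddCommGroup P0'] [Module k P0']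
  [AddCommGroup M'] [Module k M'] [AddCommGroup C'] [Module k C']
variable {Y' : Cx k 𝒰 Y0' Y1'} {P' : Resolved k 𝒰 P1' P0' M'} {ρC' : Representation k G C'}

/-- Push a raw hyper-1-cocycle along a morphism of two-term complexes. -/
def hz1Map (a : Cx.Hom Y Y') (ξ : HZ1 Y) : HZ1 Y' where
  c := ⇑a.φ0 ∘ ξ.c
  e := a.φ1 ξ.e
  lev := ξ.lev.comp _
  hc g h := by
    have h1 := congrFun (comp_dOne Y.ρ0 Y'.ρ0 a.φ0 a.comm0 ξ.c) (g, h)
    rw [← h1, Function.comp_apply, ξ.hc, map_zero]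
  he g := by
    rw [Function.comp_apply, ← a.commf, ξ.he, dZero_apply, dZero_apply, map_sub, a.comm1]

lemma cls_hz1Map (a : Cx.Hom Y Y') (ξ : HZ1 Y) :
    (hz1Map a ξ).cls h𝒰 = a.mapℍ1 h𝒰 (ξ.cls h𝒰) := rfl

/-- Push a lift along a morphism of resolved modules. -/
def lift1Map (b : Resolved.Hom P' P) (L : Lift1 P') : Lift1 P where
  xt := ⇑b.φ0 ∘ L.xt
  y' := ⇑b.φ1 ∘ L.y'
  lev := L.lev.comp _
  hy g h := by
    have h1 := congrFun (comp_dOne P'.ρ0 P.ρ0 b.φ0 b.comm0 L.xt) (g, h)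
    rw [Function.comp_apply, ← b.commι, L.hy, ← h1, Function.comp_apply]

lemma lifts_lift1Map (b : Resolved.Hom P' P) {L : Lift1 P'} {x : G → M'} (hL : L.Lifts x) :
    (lift1Map b L).Lifts (⇑b.φM ∘ x) := fun g => by
  show P.π (b.φ0 (L.xt g)) = b.φM (x g)
  rw [← b.commπ, hL g]

/-- A morphism of pairing data: covariant in the complex `Y` and in the coefficients `C`,
contravariant in the resolved module `P`. -/
structure PairingHom (B : Pairing Y P ρC) (B' : Pairing Y' P' ρC') where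
  a : Cx.Hom Y Y'
  b : Resolved.Hom P' P
  γ : C →ₗ[k] C'
  hγ : ∀ g c, γ (ρC g c) = ρC' g (γ c)
  h0 : ∀ y p', B'.β0 (a.φ0 y) p' = γ (B.β0 y (b.φ0 p'))
  h1 : ∀ y p', B'.β1 (a.φ1 y) p' = γ (B.β1 y (b.φ1 p'))

variable {B} {B' : Pairing Y' P' ρC'} (hC' : IsDiscrete 𝒰 ρC')

/-- Raw naturality of the `(1,1)` cochain. -/
lemma p11_natural (F : PairingHom B B') (ξ : HZ1 Y) (L : Lift1 P') :
    B'.p11 (hz1Map F.a ξ).c (hz1Map F.a ξ).e L.xt L.y' =
      ⇑F.γ ∘ B.p11 ξ.c ξ.e (lift1Map F.b L).xt (lift1Map F.b L).y' := by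
  funext q
  simp only [Pairing.p11, hz1Map, lift1Map, Function.comp_apply, map_add, F.h0, F.h1, F.b.comm0]

/-- **Naturality of the `(1,1)` pairing.** -/
theorem pair11_natural (F : PairingHom B B') (ξ : Y.ℍ1 h𝒰) (x' : Hlev1 h𝒰 P'.ρM P'.discM) :
    pair11 B' h𝒰 hC' (F.a.mapℍ1 h𝒰 ξ) x' =
      (lvlHom h𝒰 hC hC' F.γ F.hγ).mapH2
        (pair11 B h𝒰 hC ξ ((lvlHom h𝒰 P'.discM P.discM F.b.φM F.b.commM).mapH1 x')) := by
  obtain ⟨ξ', rfl⟩ := HZ1.cls_surjective h𝒰 ξ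
  obtain ⟨z', rfl⟩ := (lvl h𝒰 P'.ρM P'.discM).π1_surjective x'
  obtain ⟨L, hL⟩ := Lift1.exists_lift (P := P') (fn1_level h𝒰 z') (fn1_cocycle h𝒰 z')
  rw [← cls_hz1Map, pair11_mk B' h𝒰 hC' (hz1Map F.a ξ') z' L hL, Cpx.Hom.mapH1_π1,
    pair11_mk B h𝒰 hC ξ' _ (lift1Map F.b L) (lifts_lift1Map F.b hL)]
  unfold cls11 cl2
  rw [Cpx.Hom.mapH2_π2]
  congr 1
  apply Subtype.ext
  apply Subtype.ext
  exact p11_natural F ξ' L

end Natural

end Fermat.Agent.PT.PRO.ExtPairingB4
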