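/-
Program F (S55, Poitou–Tate), chapter PRO, row 362 (P3, TRANSPORT).  Owner: helper18.

`HyperColim18`: transport of FINITE-LEVEL statements about the pairing datum over the finite group
`G ⧸ V` (cochains on `G ⧸ V` with values in `V`-invariants) to the level-`V` raw-cochain fields
`TNl`, `TNr`, `INJ2` of `GlobalDuality20.Hyp` (cochains on `G`, right-`V`-invariant with `V`-fixed
values).

* `fixedSub V ρ`, `fixedRep V ρ : Representation k (G ⧸ V) (fixedSub V ρ)`, `fixedMap`, `fixedBilin`;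
* `infl₁`, `infl₂` (inflation of cochains), `desc₁`, `desc₂` (descent of level-`V` cochains), the
  dictionary with `dZero`, `dOne`, `nrm`;
* `Datum.descend D V hπ : Datum k (G ⧸ V) (Y0^V) (Y1^V) (F0^V) (F1^V) (A^V) (X^V)`;
* `FinTNl D̄`, `FinTNr D̄` (finite-group forms, no levels), `TNlAt D V`, `TNrAt D V`, `INJ2At ρ 𝒰 V`
  (= bodies of the fields of `Hyp`), `tnlAt_of_descend`, `tnrAt_of_descend`,
  `inj2At_of_h1Vanish`, `finTNl_iff_bot`, `finTNr_iff_bot`, and the assembly `hyp_of_descend`.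
-/
import Mathlib
import Fermat.Agent.PT.PRO.HyperLevel25
import Fermat.Agent.PT.PRO.Pairing20
import Fermat.Agent.PT.PRO.GlobalDuality20

set_option autoImplicit false

namespace Fermat.Agent.PT.PRO.HyperColim18

open Fermat.Agent.PT.PRO.HyperLevel25 Fermat.Agent.PT.PRO.Pairing20
  Fermat.Agent.PT.PRO.GlobalDuality20

variable {k : Type*} [CommRing k] {G : Type*} [Group G]

/-! ## Invariants of a normal subgroup as a module over the quotient -/

section Fixed

variable {Y : Type*} [AddCommGroup Y] [Module k Y]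

/-- The submodule of `V`-fixed vectors. -/
def fixedSub (V : Subgroup G) (ρ : Representation k G Y) : Submodule k Y where
  carrier := {y | FixedBy ρ V y}
  add_mem' := fun {a b} ha hb s hs => by
    have h1 : ρ s a = a := ha s hs
    have h2 : ρ s b = b := hb s hs
    rw [map_add, h1, h2]
  zero_mem' := fun s _ => map_zero _
  smul_mem' := fun r a ha s hs => by
    have h1 : ρ s a = a := ha s hs
    rw [map_smul, h1]

lemma mem_fixedSub {V : Subgroup G} {ρ : Representation k G Y} {y : Y} :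
    y ∈ fixedSub V ρ ↔ FixedBy ρ V y := Iff.rfl

lemma conj_mem_of_normal {V : Subgroup G} [hV : V.Normal] {s : G} (hs : s ∈ V) (g : G) :
    g⁻¹ * s * g ∈ V := by
  have := hV.conj_mem s hs g⁻¹
  simpa using this

/-- `G` preserves the `V`-fixed vectors (`V` normal). -/
lemma fixedBy_apply {V : Subgroup G} [V.Normal] (ρ : Representation k G Y) (g : G) {y : Y}
    (hy : FixedBy ρ V y) : FixedBy ρ V (ρ g y) := by
  intro s hs
  have h1 : s * g = g * (g⁻¹ * s * g) := by group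
  rw [← Module.End.mul_apply, ← map_mul, h1, map_mul, Module.End.mul_apply,
    hy _ (conj_mem_of_normal hs g)]

/-- The action of `G` on the `V`-fixed vectors. -/
def fixedRepG (V : Subgroup G) [V.Normal] (ρ : Representation k G Y) :
    Representation k G (fixedSub V ρ) where
  toFun g := (ρ g).restrict (fun _ hy => fixedBy_apply ρ g hy)
  map_one' := by ext y; simp
  map_mul' g h := by ext y; simp

/-- The action of `G ⧸ V` on the `V`-fixed vectors. -/
def fixedRep (V : Subgroup G) [V.Normal] (ρ : Representation k G Y) :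
    Representation k (G ⧸ V) (fixedSub V ρ) :=
  QuotientGroup.lift V (fixedRepG V ρ) (fun s hs => by
    rw [MonoidHom.mem_ker]
    ext y
    exact y.2 s hs)

@[simp] lemma fixedRep_mk (V : Subgroup G) [V.Normal] (ρ : Representation k G Y) (g : G)
    (y : fixedSub V ρ) : ((fixedRep V ρ (g : G ⧸ V) y : fixedSub V ρ) : Y) = ρ g (y : Y) := rfl


/-- An equivariant linear map restricts to the `V`-fixed vectors. -/
def fixedMap (V : Subgroup G) {Y' : Type*} [AddCommGroup Y'] [Module k Y']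
    (ρ : Representation k G Y) (ρ' : Representation k G Y') (φ : Y →ₗ[k] Y')
    (hφ : ∀ g y, φ (ρ g y) = ρ' g (φ y)) : fixedSub V ρ →ₗ[k] fixedSub V ρ' :=
  φ.restrict (fun y hy s hs => by
    have h1 : ρ s y = y := hy s hs
    rw [← hφ, h1])

@[simp] lemma coe_fixedMap (V : Subgroup G) {Y' : Type*} [AddCommGroup Y'] [Module k Y']
    (ρ : Representation k G Y) (ρ' : Representation k G Y') (φ : Y →ₗ[k] Y')
    (hφ : ∀ g y, φ (ρ g y) = ρ' g (φ y)) (y : fixedSub V ρ) :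
    ((fixedMap V ρ ρ' φ hφ y : fixedSub V ρ') : Y') = φ (y : Y) := rfl

lemma fixedMap_comm (V : Subgroup G) [V.Normal] {Y' : Type*} [AddCommGroup Y'] [Module k Y']
    (ρ : Representation k G Y) (ρ' : Representation k G Y') (φ : Y →ₗ[k] Y')
    (hφ : ∀ g y, φ (ρ g y) = ρ' g (φ y)) (q : G ⧸ V) (y : fixedSub V ρ) :
    fixedMap V ρ ρ' φ hφ (fixedRep V ρ q y) = fixedRep V ρ' q (fixedMap V ρ ρ' φ hφ y) := by
  induction q using QuotientGroup.induction_on with
  | H g => exact Subtype.ext (hφ g y)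

/-- An equivariant bilinear map restricts to the `V`-fixed vectors. -/
def fixedBilin (V : Subgroup G) {F X : Type*} [AddCommGroup F] [Module k F] [AddCommGroup X]
    [Module k X] (ρ : Representation k G Y) (ρF : Representation k G F)
    (ρX : Representation k G X) (β : Y →ₗ[k] F →ₗ[k] X)
    (hβ : ∀ g y x, β (ρ g y) (ρF g x) = ρX g (β y x)) :
    fixedSub V ρ →ₗ[k] fixedSub V ρF →ₗ[k] fixedSub V ρX :=
  LinearMap.mk₂ k (fun y x => ⟨β y x, fun s hs => by
      have h1 : ρ s y = y := y.2 s hs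
      have h2 : ρF s x = x := x.2 s hs
      rw [← hβ, h1, h2]⟩)
    (fun y y' x => Subtype.ext (by simp))
    (fun r y x => Subtype.ext (by simp))
    (fun y x x' => Subtype.ext (by simp))
    (fun r y x => Subtype.ext (by simp))

@[simp] lemma coe_fixedBilin (V : Subgroup G) {F X : Type*} [AddCommGroup F] [Module k F]
    [AddCommGroup X] [Module k X] (ρ : Representation k G Y) (ρF : Representation k G F)
    (ρX : Representation k G X) (β : Y →ₗ[k] F →ₗ[k] X)
    (hβ : ∀ g y x, β (ρ g y) (ρF g x) = ρX g (β y x)) (y : fixedSub V ρ) (x : fixedSub V ρF) :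
    ((fixedBilin V ρ ρF ρX β hβ y x : fixedSub V ρX) : X) = β (y : Y) (x : F) := rfl

/-! ### Inflation and descent of cochains -/

/-- Inflation of a 1-cochain on `G ⧸ V` with values in `V`-invariants. -/
def infl₁ {V : Subgroup G} {ρ : Representation k G Y} (c : G ⧸ V → fixedSub V ρ) : G → Y :=
  fun g => (c (g : G ⧸ V) : Y)

/-- Inflation of a 2-cochain. -/
def infl₂ {V : Subgroup G} {ρ : Representation k G Y}
    (φ : (G ⧸ V) × (G ⧸ V) → fixedSub V ρ) : G × G → Y :=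
  fun q => (φ ((q.1 : G ⧸ V), (q.2 : G ⧸ V)) : Y)

@[simp] lemma infl₁_apply {V : Subgroup G} {ρ : Representation k G Y}
    (c : G ⧸ V → fixedSub V ρ) (g : G) : infl₁ c g = (c (g : G ⧸ V) : Y) := rfl

@[simp] lemma infl₂_apply {V : Subgroup G} {ρ : Representation k G Y}
    (φ : (G ⧸ V) × (G ⧸ V) → fixedSub V ρ) (g h : G) :
    infl₂ φ (g, h) = (φ ((g : G ⧸ V), (h : G ⧸ V)) : Y) := rfl

lemma mk_mul_of_mem {V : Subgroup G} (g : G) {s : G} (hs : s ∈ V) :
    ((g * s : G) : G ⧸ V) = (g : G ⧸ V) := by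
  rw [QuotientGroup.eq]
  simpa using V.inv_mem hs

lemma isLevelAt₁_infl₁ {V : Subgroup G} {ρ : Representation k G Y}
    (c : G ⧸ V → fixedSub V ρ) : IsLevelAt₁ ρ V (infl₁ c) :=
  ⟨fun g s hs => by simp only [infl₁_apply, mk_mul_of_mem g hs], fun g => (c g).2⟩

lemma isLevelAt₂_infl₂ {V : Subgroup G} {ρ : Representation k G Y}
    (φ : (G ⧸ V) × (G ⧸ V) → fixedSub V ρ) : IsLevelAt₂ ρ V (infl₂ φ) :=
  ⟨fun g g' s s' hs hs' => by
    simp only [infl₂_apply, mk_mul_of_mem g hs, mk_mul_of_mem g' hs'], fun q => (φ _).2⟩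

lemma infl₁_injective {V : Subgroup G} {ρ : Representation k G Y} :
    Function.Injective (infl₁ (V := V) (ρ := ρ)) := by
  intro c c' h
  funext q
  induction q using QuotientGroup.induction_on with
  | H g => exact Subtype.ext (congrFun h g)

lemma infl₂_injective {V : Subgroup G} {ρ : Representation k G Y} :
    Function.Injective (infl₂ (V := V) (ρ := ρ)) := by
  intro c c' h
  funext ⟨q, q'⟩
  induction q using QuotientGroup.induction_on with
  | H g =>
    induction q' using QuotientGroup.induction_on with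
    | H g' => exact Subtype.ext (congrFun h (g, g'))

lemma out_eq_mul (V : Subgroup G) (g : G) : ∃ s ∈ V, ((g : G ⧸ V)).out = g * s := by
  obtain ⟨h, hh⟩ := QuotientGroup.mk_out_eq_mul V g
  exact ⟨h, h.2, hh⟩

/-- Descent of a level-`V` 1-cochain. -/
noncomputable def desc₁ {V : Subgroup G} {ρ : Representation k G Y} (c : G → Y)
    (hc : IsLevelAt₁ ρ V c) : G ⧸ V → fixedSub V ρ :=
  fun q => ⟨c q.out, hc.2 _⟩

/-- Descent of a level-`V` 2-cochain. -/
noncomputable def desc₂ {V : Subgroup G} {ρ : Representation k G Y} (φ : G × G → Y)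
    (hφ : IsLevelAt₂ ρ V φ) : (G ⧸ V) × (G ⧸ V) → fixedSub V ρ :=
  fun q => ⟨φ (q.1.out, q.2.out), hφ.2 _⟩

@[simp] lemma infl₁_desc₁ {V : Subgroup G} {ρ : Representation k G Y} (c : G → Y)
    (hc : IsLevelAt₁ ρ V c) : infl₁ (desc₁ c hc) = c := by
  funext g
  obtain ⟨s, hs, h⟩ := out_eq_mul V g
  simp only [infl₁_apply, desc₁, h, hc.1 g s hs]

@[simp] lemma infl₂_desc₂ {V : Subgroup G} {ρ : Representation k G Y} (φ : G × G → Y)
    (hφ : IsLevelAt₂ ρ V φ) : infl₂ (desc₂ φ hφ) = φ := by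
  funext ⟨g, g'⟩
  obtain ⟨s, hs, h⟩ := out_eq_mul V g
  obtain ⟨s', hs', h'⟩ := out_eq_mul V g'
  simp only [infl₂_apply, desc₂, h, h', hφ.1 g g' s s' hs hs']

/-- The fixed vector attached to a `V`-fixed element. -/
def toFixed {V : Subgroup G} {ρ : Representation k G Y} (y : Y) (hy : FixedBy ρ V y) :
    fixedSub V ρ := ⟨y, hy⟩

@[simp] lemma coe_toFixed {V : Subgroup G} {ρ : Representation k G Y} (y : Y)
    (hy : FixedBy ρ V y) : ((toFixed y hy : fixedSub V ρ) : Y) = y := rfl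

/-! ### Compatibility with the differentials and the norm -/

lemma infl₁_dZero (V : Subgroup G) [V.Normal] (ρ : Representation k G Y) (y : fixedSub V ρ) :
    infl₁ (dZero (fixedRep V ρ) y) = dZero ρ (y : Y) := by
  funext g
  simp only [infl₁_apply, dZero_apply, Submodule.coe_sub, fixedRep_mk]

lemma infl₂_dOne (V : Subgroup G) [V.Normal] (ρ : Representation k G Y)
    (c : G ⧸ V → fixedSub V ρ) : infl₂ (dOne (fixedRep V ρ) c) = dOne ρ (infl₁ c) := by
  funext ⟨g, h⟩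
  simp only [infl₂_apply, dOne_apply, Submodule.coe_add, Submodule.coe_sub, fixedRep_mk,
    infl₁_apply, QuotientGroup.mk_mul]

/-- The norm of `GlobalDuality20` is the sum over `G ⧸ V` of the quotient action. -/
lemma coe_finsum_fixedRep (V : Subgroup G) [V.Normal] (ρ : Representation k G Y)
    (e : fixedSub V ρ) :
    ((∑ᶠ q : G ⧸ V, fixedRep V ρ q e : fixedSub V ρ) : Y) = nrm ρ V (e : Y) := by
  have h1 := AddMonoidHom.map_finsum_of_injective (fixedSub V ρ).subtype.toAddMonoidHom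
    (fixedSub V ρ).subtype_injective (fun q : G ⧸ V => fixedRep V ρ q e)
  simp only [LinearMap.toAddMonoidHom_coe, Submodule.subtype_apply] at h1
  rw [h1, nrm]
  refine finsum_congr (fun q => ?_)
  conv_lhs => rw [← QuotientGroup.out_eq' q]
  rfl

end Fixed

/-! ## Descent of a pairing datum to `G ⧸ V` -/

variable {Y0 Y1 F0 F1 A X : Type*}
  [AddCommGroup Y0] [Module k Y0] [AddCommGroup Y1] [Module k Y1]
  [AddCommGroup F0] [Module k F0] [AddCommGroup F1] [Module k F1]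
  [AddCommGroup A] [Module k A] [AddCommGroup X] [Module k X]

/-- The datum of `V`-invariants over `G ⧸ V`.  The only hypothesis is that `π` stays surjective
on `V`-invariants (automatic if `V` acts trivially on `F₀`, see `descend_hπ_of_trivial`). -/
def descend (D : Datum k G Y0 Y1 F0 F1 A X) (V : Subgroup G) [V.Normal]
    (hπ : ∀ a, FixedBy D.ρA V a → ∃ x, FixedBy D.ρF0 V x ∧ D.π x = a) :
    Datum k (G ⧸ V) (fixedSub V D.ρY0) (fixedSub V D.ρY1) (fixedSub V D.ρF0) (fixedSub V D.ρF1)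
      (fixedSub V D.ρA) (fixedSub V D.ρX) where
  ρY0 := fixedRep V D.ρY0
  ρY1 := fixedRep V D.ρY1
  ρF0 := fixedRep V D.ρF0
  ρF1 := fixedRep V D.ρF1
  ρA := fixedRep V D.ρA
  ρX := fixedRep V D.ρX
  f := fixedMap V D.ρY0 D.ρY1 D.f D.f_comm
  f_comm := fixedMap_comm V D.ρY0 D.ρY1 D.f D.f_comm
  ι := fixedMap V D.ρF1 D.ρF0 D.ι D.ι_comm
  ι_comm := fixedMap_comm V D.ρF1 D.ρF0 D.ι D.ι_comm
  ι_inj := fun x x' h => Subtype.ext (D.ι_inj (congrArg Subtype.val h))
  π := fixedMap V D.ρF0 D.ρA D.π D.π_comm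
  π_comm := fixedMap_comm V D.ρF0 D.ρA D.π D.π_comm
  π_surj := fun a => by
    obtain ⟨x, hx, hxa⟩ := hπ a a.2
    exact ⟨⟨x, hx⟩, Subtype.ext hxa⟩
  exact := fun x => by
    constructor
    · intro h
      obtain ⟨z, hz⟩ := (D.exact (x : F0)).1 (congrArg Subtype.val h)
      refine ⟨⟨z, fun s hs => D.ι_inj ?_⟩, Subtype.ext hz⟩
      have h1 : D.ρF0 s x = x := x.2 s hs
      rw [D.ι_comm, hz, h1]
    · rintro ⟨z, rfl⟩
      exact Subtype.ext ((D.exact _).2 ⟨z, rfl⟩)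
  ev0 := fixedBilin V D.ρY0 D.ρF0 D.ρX D.ev0 D.ev0_comm
  ev1 := fixedBilin V D.ρY1 D.ρF1 D.ρX D.ev1 D.ev1_comm
  ev0_comm := fun q y x => by
    induction q using QuotientGroup.induction_on with
    | H g => exact Subtype.ext (D.ev0_comm g y x)
  ev1_comm := fun q y x => by
    induction q using QuotientGroup.induction_on with
    | H g => exact Subtype.ext (D.ev1_comm g y x)
  ev_compat := fun y x => Subtype.ext (D.ev_compat y x)

/-- If `V` acts trivially on `F₀`, then `π` is surjective on `V`-invariants. -/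
lemma descend_hπ_of_trivial (D : Datum k G Y0 Y1 F0 F1 A X) (V : Subgroup G)
    (h : ∀ s ∈ V, ∀ x, D.ρF0 s x = x) :
    ∀ a, FixedBy D.ρA V a → ∃ x, FixedBy D.ρF0 V x ∧ D.π x = a := by
  intro a _
  obtain ⟨x, hx⟩ := D.π_surj a
  exact ⟨x, fun s hs => h s hs x, hx⟩

section Dictionary

variable (D : Datum k G Y0 Y1 F0 F1 A X) (V : Subgroup G) [V.Normal]
  (hπ : ∀ a, FixedBy D.ρA V a → ∃ x, FixedBy D.ρF0 V x ∧ D.π x = a)

/-- The pairing of the descended datum inflates to the pairing of inflated cochains. -/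
lemma infl₂_pairFun (c : G ⧸ V → fixedSub V D.ρY0) (y : fixedSub V D.ρY1)
    (a' : G ⧸ V → fixedSub V D.ρF0) (b : (G ⧸ V) × (G ⧸ V) → fixedSub V D.ρF1) :
    infl₂ ((descend D V hπ).pairFun c y a' b) =
      D.pairFun (infl₁ c) (y : Y1) (infl₁ a') (infl₂ b) := by
  funext ⟨g, h⟩
  rfl

/-- Hyper-cocycles of the descended datum are the level-`V` hyper-cocycles. -/
lemma isHyperCocycle_descend_iff (c : G ⧸ V → fixedSub V D.ρY0) (y : fixedSub V D.ρY1) :
    (descend D V hπ).IsHyperCocycle c y ↔ D.IsHyperCocycle (infl₁ c) (y : Y1) := by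
  constructor
  · rintro ⟨h1, h2⟩
    refine ⟨?_, fun g => ?_⟩
    · have h3 : dOne (fixedRep V D.ρY0) c = 0 := h1
      rw [← infl₂_dOne, h3]
      rfl
    · exact congrArg Subtype.val (h2 (g : G ⧸ V))
  · rintro ⟨h1, h2⟩
    refine ⟨?_, fun q => ?_⟩
    · apply infl₂_injective
      have h3 : infl₂ (dOne (fixedRep V D.ρY0) c) = 0 := by rw [infl₂_dOne, h1]
      exact h3
    · induction q using QuotientGroup.induction_on with
      | H g => exact Subtype.ext (h2 g)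

/-- Lifted cocycles of the descended datum are the level-`V` lifted cocycles. -/
lemma isLift_descend_iff (a' : G ⧸ V → fixedSub V D.ρF0)
    (b : (G ⧸ V) × (G ⧸ V) → fixedSub V D.ρF1) :
    (descend D V hπ).IsLift a' b ↔ D.IsLift (infl₁ a') (infl₂ b) := by
  constructor
  · intro h q
    obtain ⟨g, g'⟩ := q
    have h1 := congrArg Subtype.val (h ((g : G ⧸ V), (g' : G ⧸ V)))
    have h2 := congrFun (infl₂_dOne V D.ρF0 a') (g, g')
    rw [← h2]
    exact h1
  · intro h q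
    obtain ⟨q, q'⟩ := q
    induction q using QuotientGroup.induction_on with
    | H g =>
      induction q' using QuotientGroup.induction_on with
      | H g' =>
        have h1 := h (g, g')
        have h2 := congrFun (infl₂_dOne V D.ρF0 a') (g, g')
        rw [← h2] at h1
        exact Subtype.ext h1

end Dictionary

/-! ## The finite-level statements and their transport -/

/-- Hyper Tate–Nakayama for a datum over a (finite) group `Q`, left kernel: a hyper-1-cocycle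
pairing to a coboundary with every lifted cocycle is a hyper-coboundary up to a norm. -/
def FinTNl {Q : Type*} [Group Q] (D : Datum k Q Y0 Y1 F0 F1 A X) : Prop :=
  ∀ (c : Q → Y0) (y : Y1), D.IsHyperCocycle c y →
    (∀ a' b, D.IsLift a' b → ∃ u, D.pairFun c y a' b = dOne D.ρX u) →
    ∃ (y₀ : Y0) (e : Y1), c = dZero D.ρY0 y₀ ∧ y = D.f y₀ + ∑ᶠ q : Q, D.ρY1 q e

/-- Hyper Tate–Nakayama for a datum over a (finite) group `Q`, right kernel. -/
def FinTNr {Q : Type*} [Group Q] (D : Datum k Q Y0 Y1 F0 F1 A X) : Prop :=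
  ∀ (a' : Q → F0) (b : Q × Q → F1), D.IsLift a' b →
    (∀ c y, D.IsHyperCocycle c y → ∃ u, D.pairFun c y a' b = dOne D.ρX u) →
    ∃ a₀ : A, ⇑D.π ∘ a' = dZero D.ρA a₀

/-- The body of the field `Hyp.TNl` for one subgroup `V`. -/
def TNlAt (D : Datum k G Y0 Y1 F0 F1 A X) (V : Subgroup G) : Prop :=
  ∀ (c : G → Y0) (y : Y1), IsHyperAt D V c y →
    (∀ a' b, IsLiftAt D V a' b → ∃ u, IsLevelAt₁ D.ρX V u ∧ D.pairFun c y a' b = dOne D.ρX u) →
    ∃ (y₀ : Y0) (e : Y1), FixedBy D.ρY1 V e ∧ c = dZero D.ρY0 y₀ ∧ y = D.f y₀ + nrm D.ρY1 V e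

/-- The body of the field `Hyp.TNr` for one subgroup `V`. -/
def TNrAt (D : Datum k G Y0 Y1 F0 F1 A X) (V : Subgroup G) : Prop :=
  ∀ (a' : G → F0) (b : G × G → F1), IsLiftAt D V a' b →
    (∀ c y, IsHyperAt D V c y → ∃ u, IsLevelAt₁ D.ρX V u ∧ D.pairFun c y a' b = dOne D.ρX u) →
    ∃ a₀ : A, ⇑D.π ∘ a' = dZero D.ρA a₀

/-- The body of the field `Hyp.INJ2` for one subgroup `V`. -/
def INJ2At (ρ : Representation k G X) (𝒰 : Set (Subgroup G)) (V : Subgroup G) : Prop :=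
  ∀ φ : G × G → X, IsLevelAt₂ ρ V φ →
    (∃ u, IsLevel₁ 𝒰 u ∧ φ = dOne ρ u) → ∃ u, IsLevelAt₁ ρ V u ∧ φ = dOne ρ u

/-- `H¹(V; X) = 0` in raw form: a level cochain on `G` whose restriction to `V` is a 1-cocycle
restricts to a coboundary on `V`. -/
def H1VanishAt (ρ : Representation k G X) (𝒰 : Set (Subgroup G)) (V : Subgroup G) : Prop :=
  ∀ u : G → X, IsLevel₁ 𝒰 u → (∀ s ∈ V, ∀ s' ∈ V, u (s * s') = ρ s (u s') + u s) →
    ∃ x : X, ∀ s ∈ V, u s = ρ s x - x

section Transport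

variable (D : Datum k G Y0 Y1 F0 F1 A X) (V : Subgroup G) [V.Normal]
  (hπ : ∀ a, FixedBy D.ρA V a → ∃ x, FixedBy D.ρF0 V x ∧ D.π x = a)

/-- **Transport of the left-kernel statement** from `G ⧸ V` to level `V`. -/
theorem tnlAt_of_descend (h : FinTNl (descend D V hπ)) : TNlAt D V := by
  intro c y hcy hpair
  obtain ⟨hcoc, hc, hy⟩ := hcy
  have hcoc' : (descend D V hπ).IsHyperCocycle (desc₁ c hc) (toFixed y hy) := by
    rw [isHyperCocycle_descend_iff, infl₁_desc₁]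
    exact hcoc
  obtain ⟨y₀, e, h1, h2⟩ := h (desc₁ c hc) (toFixed y hy) hcoc' (fun a' b hab => by
    rw [isLift_descend_iff] at hab
    obtain ⟨u, hu, hpu⟩ := hpair (infl₁ a') (infl₂ b)
      ⟨hab, isLevelAt₁_infl₁ a', isLevelAt₂_infl₂ b⟩
    refine ⟨desc₁ u hu, infl₂_injective ?_⟩
    have h3 : infl₂ (dOne (fixedRep V D.ρX) (desc₁ u hu)) = dOne D.ρX u := by
      rw [infl₂_dOne, infl₁_desc₁]
    have h4 : infl₂ (dOne (descend D V hπ).ρX (desc₁ u hu)) = dOne D.ρX u := h3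
    rw [h4, infl₂_pairFun, infl₁_desc₁]
    exact hpu)
  refine ⟨(y₀ : Y0), (e : Y1), e.2, ?_, ?_⟩
  · have h3 : desc₁ c hc = dZero (fixedRep V D.ρY0) y₀ := h1
    rw [← infl₁_dZero, ← h3, infl₁_desc₁]
  · have h3 : toFixed y hy = fixedMap V D.ρY0 D.ρY1 D.f D.f_comm y₀
        + ∑ᶠ q : G ⧸ V, fixedRep V D.ρY1 q e := h2
    have h4 := congrArg Subtype.val h3
    rw [Submodule.coe_add, coe_finsum_fixedRep] at h4
    exact h4

/-- **Transport of the right-kernel statement** from `G ⧸ V` to level `V`. -/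
theorem tnrAt_of_descend (h : FinTNr (descend D V hπ)) : TNrAt D V := by
  intro a' b hab hpair
  obtain ⟨hlift, ha, hb⟩ := hab
  have hlift' : (descend D V hπ).IsLift (desc₁ a' ha) (desc₂ b hb) := by
    rw [isLift_descend_iff, infl₁_desc₁, infl₂_desc₂]
    exact hlift
  obtain ⟨a₀, ha₀⟩ := h (desc₁ a' ha) (desc₂ b hb) hlift' (fun c y hcy => by
    rw [isHyperCocycle_descend_iff] at hcy
    obtain ⟨u, hu, hpu⟩ := hpair (infl₁ c) (y : Y1) ⟨hcy, isLevelAt₁_infl₁ c, y.2⟩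
    refine ⟨desc₁ u hu, infl₂_injective ?_⟩
    have h3 : infl₂ (dOne (fixedRep V D.ρX) (desc₁ u hu)) = dOne D.ρX u := by
      rw [infl₂_dOne, infl₁_desc₁]
    have h4 : infl₂ (dOne (descend D V hπ).ρX (desc₁ u hu)) = dOne D.ρX u := h3
    rw [h4, infl₂_pairFun, infl₁_desc₁, infl₂_desc₂]
    exact hpu)
  refine ⟨(a₀ : A), ?_⟩
  funext g
  have h1 := congrArg Subtype.val (congrFun ha₀ (g : G ⧸ V))
  have h2 : a' g = infl₁ (desc₁ a' ha) g := by rw [infl₁_desc₁]
  rw [Function.comp_apply, h2]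
  exact h1

end Transport

/-! ### Injectivity of inflation in degree 2 from `H¹(V; X) = 0` -/

/-- **Inflation–restriction in degree 2, by hand**: if `H¹(V; X) = 0` then a level-`V` 2-cochain
which is the coboundary of a level cochain is the coboundary of a level-`V` cochain. -/
theorem inj2At_of_h1Vanish (ρ : Representation k G X) (𝒰 : Set (Subgroup G)) (V : Subgroup G)
    [V.Normal] (h : H1VanishAt ρ 𝒰 V) : INJ2At ρ 𝒰 V := by
  rintro φ ⟨hφ1, hφ2⟩ ⟨u, ⟨U, hU, huU⟩, rfl⟩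
  -- `u 1` is the value at `(1, 1)`, hence `V`-fixed
  have hu1 : dOne ρ u (1, 1) = u 1 := by simp
  have hfix1 : FixedBy ρ V (u 1) := by
    have := hφ2 (1, 1)
    rwa [hu1] at this
  -- the restriction of `u - u 1` to `V` is a cocycle
  have hV11 : ∀ s ∈ V, ∀ s' ∈ V, dOne ρ u (s, s') = u 1 := fun s hs s' hs' => by
    have := hφ1 1 1 s s' hs hs'
    rw [one_mul, one_mul] at this
    rw [this, hu1]
  obtain ⟨x, hx⟩ := h (fun g => u g - u 1) ⟨U, hU, fun g s hs => by simp only [huU g s hs]⟩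
    (fun s hs s' hs' => by
      have h1 := hV11 s hs s' hs'
      rw [dOne_apply] at h1
      have h2 : u (s * s') = ρ s (u s') + u s - u 1 := by
        rw [← h1]; abel
      simp only [h2, map_sub, hfix1 s hs]
      abel)
  -- modify `u` by the coboundary of `x`
  have hd : dOne ρ (u - dZero ρ x) = dOne ρ u := by
    rw [map_sub, dOne_dZero, sub_zero]
  have hV : ∀ s ∈ V, (u - dZero ρ x) s = u 1 := fun s hs => by
    have := hx s hs
    simp only [Pi.sub_apply, dZero_apply]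
    rw [← this]; abel
  have h1' : (u - dZero ρ x) 1 = u 1 := hV 1 V.one_mem
  have hright : ∀ g s, s ∈ V → (u - dZero ρ x) (g * s) = (u - dZero ρ x) g := fun g s hs => by
    have e1 := hφ1 g 1 1 s V.one_mem hs
    rw [mul_one, one_mul, ← hd] at e1
    simp only [dOne_apply, mul_one, hV s hs, h1'] at e1
    have e2 : (u - dZero ρ x) (g * s) = (u - dZero ρ x) g := by
      have := sub_eq_zero.2 e1
      rw [← sub_eq_zero, ← neg_eq_zero, ← this]
      abel
    exact e2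
  refine ⟨u - dZero ρ x, ⟨hright, fun g s hs => ?_⟩, hd.symm⟩
  have e1 := hφ1 1 g s 1 hs V.one_mem
  rw [mul_one, one_mul, ← hd] at e1
  simp only [dOne_apply, one_mul, hV s hs, h1', map_one, Module.End.one_apply] at e1
  have e2 : s * g = g * (g⁻¹ * s * g) := by group
  have e3 : (u - dZero ρ x) (s * g) = (u - dZero ρ x) g := by
    rw [e2]; exact hright g _ (conj_mem_of_normal hs g)
  rw [e3] at e1
  have := sub_eq_zero.2 e1
  rw [← sub_eq_zero, ← this]
  abel

/-! ### The trivial subgroup: `FinTNl`, `FinTNr` are `TNlAt`, `TNrAt` at `⊥` -/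

section Bot

variable {Q : Type*} [Group Q] {Y : Type*} [AddCommGroup Y] [Module k Y]

lemma fixedBy_bot (ρ : Representation k Q Y) (y : Y) : FixedBy ρ ⊥ y := fun s hs => by
  rw [Subgroup.mem_bot.1 hs, map_one, Module.End.one_apply]

lemma isLevelAt₁_bot (ρ : Representation k Q Y) (c : Q → Y) : IsLevelAt₁ ρ ⊥ c :=
  ⟨fun g s hs => by rw [Subgroup.mem_bot.1 hs, mul_one], fun g => fixedBy_bot ρ _⟩

lemma isLevelAt₂_bot (ρ : Representation k Q Y) (φ : Q × Q → Y) : IsLevelAt₂ ρ ⊥ φ :=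
  ⟨fun g g' s s' hs hs' => by rw [Subgroup.mem_bot.1 hs, Subgroup.mem_bot.1 hs', mul_one, mul_one],
    fun q => fixedBy_bot ρ _⟩

lemma nrm_bot (ρ : Representation k Q Y) (e : Y) : nrm ρ ⊥ e = ∑ᶠ q : Q, ρ q e := by
  rw [nrm, ← finsum_comp_equiv (QuotientGroup.quotientBot (G := Q)).toEquiv]
  refine finsum_congr (fun q => ?_)
  have h1 : (QuotientGroup.quotientBot (G := Q)) q = q.out := by
    conv_lhs => rw [← QuotientGroup.out_eq' q]
    rfl
  simp only [MulEquiv.toEquiv_eq_coe, MulEquiv.coe_toEquiv, h1]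

variable (D : Datum k Q Y0 Y1 F0 F1 A X)

lemma isHyperAt_bot_iff (c : Q → Y0) (y : Y1) : IsHyperAt D ⊥ c y ↔ D.IsHyperCocycle c y :=
  ⟨fun h => h.1, fun h => ⟨h, isLevelAt₁_bot _ _, fixedBy_bot _ _⟩⟩

lemma isLiftAt_bot_iff (a' : Q → F0) (b : Q × Q → F1) : IsLiftAt D ⊥ a' b ↔ D.IsLift a' b :=
  ⟨fun h => h.1, fun h => ⟨h, isLevelAt₁_bot _ _, isLevelAt₂_bot _ _⟩⟩

theorem finTNl_iff_bot : FinTNl D ↔ TNlAt D ⊥ := by
  constructor
  · intro h c y hcy hpair
    obtain ⟨y₀, e, h1, h2⟩ := h c y hcy.1 (fun a' b hab => by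
      obtain ⟨u, -, hu⟩ := hpair a' b ((isLiftAt_bot_iff D a' b).2 hab)
      exact ⟨u, hu⟩)
    exact ⟨y₀, e, fixedBy_bot _ _, h1, by rw [nrm_bot]; exact h2⟩
  · intro h c y hcy hpair
    obtain ⟨y₀, e, -, h1, h2⟩ := h c y ((isHyperAt_bot_iff D c y).2 hcy) (fun a' b hab => by
      obtain ⟨u, hu⟩ := hpair a' b hab.1
      exact ⟨u, isLevelAt₁_bot _ _, hu⟩)
    exact ⟨y₀, e, h1, by rw [← nrm_bot]; exact h2⟩

theorem finTNr_iff_bot : FinTNr D ↔ TNrAt D ⊥ := by
  constructor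
  · intro h a' b hab hpair
    exact h a' b hab.1 (fun c y hcy => by
      obtain ⟨u, -, hu⟩ := hpair c y ((isHyperAt_bot_iff D c y).2 hcy)
      exact ⟨u, hu⟩)
  · intro h a' b hab hpair
    exact h a' b ((isLiftAt_bot_iff D a' b).2 hab) (fun c y hcy => by
      obtain ⟨u, hu⟩ := hpair c y hcy.1
      exact ⟨u, isLevelAt₁_bot _ _, hu⟩)

end Bot

/-! ### Assembly of `GlobalDuality20.Hyp` -/

/-- `Hyp` from its fields stated one subgroup at a time. -/
theorem hyp_of_at (D : Datum k G Y0 Y1 F0 F1 A X) {𝒰 ℱ : Set (Subgroup G)} {p : ℕ}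
    (hsub : ℱ ⊆ 𝒰) (hnormal : ∀ V ∈ ℱ, V.Normal) (hcof : ∀ U ∈ 𝒰, ∃ V ∈ ℱ, V ≤ U)
    (hTNl : ∀ V ∈ ℱ, TNlAt D V) (hTNr : ∀ V ∈ ℱ, TNrAt D V)
    (hINJ2 : ∀ V ∈ ℱ, INJ2At D.ρX 𝒰 V)
    (hRECN : ∀ U ∈ ℱ, ∃ V ∈ ℱ, V ≤ U ∧ ∀ e, FixedBy D.ρY1 V e →
      ∃ n' : Y1, (∀ g, D.ρY1 g n' = n') ∧ nrm D.ρY1 V e = (p : k) • n')
    (hHp : ∀ (c : G → Y0) (y : Y1), D.IsHyperCocycle c y → IsLevel₁ 𝒰 c →
      ∃ y₀ : Y0, (p : k) • c = dZero D.ρY0 y₀ ∧ (p : k) • y = D.f y₀) : Hyp D 𝒰 ℱ p :=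
  ⟨hsub, hnormal, hcof, hTNl, hTNr, hINJ2, hRECN, hHp⟩

/-- **Assembly**: `Hyp` from the finite-group statements for the descended data `D^V` over
`G ⧸ V` (`V ∈ ℱ`), the vanishing of `H¹(V; X)`, and the two remaining global inputs. -/
theorem hyp_of_descend (D : Datum k G Y0 Y1 F0 F1 A X) {𝒰 ℱ : Set (Subgroup G)} {p : ℕ}
    (hsub : ℱ ⊆ 𝒰) (hnormal : ∀ V ∈ ℱ, V.Normal) (hcof : ∀ U ∈ 𝒰, ∃ V ∈ ℱ, V ≤ U)
    (hπ : ∀ V ∈ ℱ, ∀ a, FixedBy D.ρA V a → ∃ x, FixedBy D.ρF0 V x ∧ D.π x = a)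
    (hTNl : ∀ V (hV : V ∈ ℱ), haveI := hnormal V hV; FinTNl (descend D V (hπ V hV)))
    (hTNr : ∀ V (hV : V ∈ ℱ), haveI := hnormal V hV; FinTNr (descend D V (hπ V hV)))
    (hH1 : ∀ V ∈ ℱ, H1VanishAt D.ρX 𝒰 V)
    (hRECN : ∀ U ∈ ℱ, ∃ V ∈ ℱ, V ≤ U ∧ ∀ e, FixedBy D.ρY1 V e →
      ∃ n' : Y1, (∀ g, D.ρY1 g n' = n') ∧ nrm D.ρY1 V e = (p : k) • n')
    (hHp : ∀ (c : G → Y0) (y : Y1), D.IsHyperCocycle c y → IsLevel₁ 𝒰 c →
      ∃ y₀ : Y0, (p : k) • c = dZero D.ρY0 y₀ ∧ (p : k) • y = D.f y₀) : Hyp D 𝒰 ℱ p :=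
  hyp_of_at D hsub hnormal hcof
    (fun V hV => by
      have := hnormal V hV
      exact tnlAt_of_descend D V (hπ V hV) (hTNl V hV))
    (fun V hV => by
      have := hnormal V hV
      exact tnrAt_of_descend D V (hπ V hV) (hTNr V hV))
    (fun V hV => by
      have := hnormal V hV
      exact inj2At_of_h1Vanish D.ρX 𝒰 V (hH1 V hV))
    hRECN hHp

end Fermat.Agent.PT.PRO.HyperColim18
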