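/-
Program F (S55, Poitou–Tate), chapter PRO, helper20.

`IndRes20`: resolutions `0 → P₁ → P₀ → M → 0` of `G`-modules, the pairing datum `K(P; C)`
(`Y^i = Hom(P_i, C)`, evaluation), and for a FINITE group `G` the *induced resolution*
`P₀' = Fun(G, P₀)` (diagonal action), `ε : P₀' → P₀` the sum, `P₁' = P₀' ×_{P₀} P₁`.
-/
import Mathlib
import Fermat.Agent.PT.PRO.HyperLevel25
import Fermat.Agent.PT.PRO.Pairing20

set_option autoImplicit false
set_option linter.unusedSectionVars false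

namespace Fermat.Agent.PT.PRO.IndRes20

open Fermat.Agent.PT.PRO.HyperLevel25 Fermat.Agent.PT.PRO.Pairing20

variable {k : Type*} [CommRing k] {G : Type*} [Group G]
variable {P1 P0 M C : Type*} [AddCommGroup P1] [Module k P1] [AddCommGroup P0] [Module k P0]
  [AddCommGroup M] [Module k M] [AddCommGroup C] [Module k C]

/-- A resolution `0 → P₁ --ι--> P₀ --π--> M → 0` of `G`-modules. -/
structure Res (k : Type*) [CommRing k] (G : Type*) [Group G] (P1 P0 M : Type*)
    [AddCommGroup P1] [Module k P1] [AddCommGroup P0] [Module k P0]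
    [AddCommGroup M] [Module k M] where
  ρ1 : Representation k G P1
  ρ0 : Representation k G P0
  ρM : Representation k G M
  ι : P1 →ₗ[k] P0
  ι_comm : ∀ g x, ι (ρ1 g x) = ρ0 g (ι x)
  ι_inj : Function.Injective ι
  π : P0 →ₗ[k] M
  π_comm : ∀ g x, π (ρ0 g x) = ρM g (π x)
  π_surj : Function.Surjective π
  exact : ∀ x, π x = 0 ↔ ∃ z, ι z = x

namespace Res

variable (R : Res k G P1 P0 M) (ρC : Representation k G C)

/-- The pairing datum `K(P; C) = [Hom(P₀, C) → Hom(P₁, C)]` with the evaluation pairings. -/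
def datum : Datum k G (P0 →ₗ[k] C) (P1 →ₗ[k] C) P0 P1 M C where
  ρY0 := Representation.linHom R.ρ0 ρC
  ρY1 := Representation.linHom R.ρ1 ρC
  ρF0 := R.ρ0
  ρF1 := R.ρ1
  ρA := R.ρM
  ρX := ρC
  f := LinearMap.lcomp k C R.ι
  f_comm g y := by
    ext x
    simp only [LinearMap.lcomp_apply', Representation.linHom_apply, LinearMap.comp_apply,
      R.ι_comm]
  ι := R.ι
  ι_comm := R.ι_comm
  ι_inj := R.ι_inj
  π := R.π
  π_comm := R.π_comm
  π_surj := R.π_surj
  exact := R.exact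
  ev0 := LinearMap.id
  ev1 := LinearMap.id
  ev0_comm g y x := by
    simp only [LinearMap.id_apply, Representation.linHom_apply, LinearMap.comp_apply,
      ← Module.End.mul_apply, ← map_mul, inv_mul_cancel, map_one, Module.End.one_apply]
  ev1_comm g y x := by
    simp only [LinearMap.id_apply, Representation.linHom_apply, LinearMap.comp_apply,
      ← Module.End.mul_apply, ← map_mul, inv_mul_cancel, map_one, Module.End.one_apply]
  ev_compat y x := rfl

@[simp] lemma datum_ev0 (y : P0 →ₗ[k] C) (x : P0) : (R.datum ρC).ev0 y x = y x := rfl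
@[simp] lemma datum_ev1 (y : P1 →ₗ[k] C) (x : P1) : (R.datum ρC).ev1 y x = y x := rfl
@[simp] lemma datum_f (y : P0 →ₗ[k] C) : (R.datum ρC).f y = y ∘ₗ R.ι := rfl
@[simp] lemma datum_ρY0 (g : G) (y : P0 →ₗ[k] C) :
    (R.datum ρC).ρY0 g y = ρC g ∘ₗ y ∘ₗ R.ρ0 g⁻¹ := rfl
@[simp] lemma datum_ρY1 (g : G) (y : P1 →ₗ[k] C) :
    (R.datum ρC).ρY1 g y = ρC g ∘ₗ y ∘ₗ R.ρ1 g⁻¹ := rfl
@[simp] lemma datum_ρF0 : (R.datum ρC).ρF0 = R.ρ0 := rfl
@[simp] lemma datum_ρF1 : (R.datum ρC).ρF1 = R.ρ1 := rfl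
@[simp] lemma datum_ρA : (R.datum ρC).ρA = R.ρM := rfl
@[simp] lemma datum_ρX : (R.datum ρC).ρX = ρC := rfl
@[simp] lemma datum_ι : (R.datum ρC).ι = R.ι := rfl
@[simp] lemma datum_π : (R.datum ρC).π = R.π := rfl

end Res

/-! ### The induced resolution (finite `G`) -/

section Ind

variable [Fintype G]

/-- The diagonal action on `Fun(G, P)`: `(g φ)(x) = g (φ (g⁻¹ x))`. -/
def diagRep {P : Type*} [AddCommGroup P] [Module k P] (ρ : Representation k G P) :
    Representation k G (G → P) where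
  toFun g :=
    { toFun := fun φ x => ρ g (φ (g⁻¹ * x))
      map_add' := fun φ ψ => by funext x; simp
      map_smul' := fun r φ => by funext x; simp }
  map_one' := by ext φ x; simp
  map_mul' g h := by
    ext φ x
    simp [mul_assoc]

@[simp] lemma diagRep_apply {P : Type*} [AddCommGroup P] [Module k P] (ρ : Representation k G P)
    (g : G) (φ : G → P) (x : G) : diagRep ρ g φ x = ρ g (φ (g⁻¹ * x)) := rfl

/-- The augmentation `ε φ = ∑ₓ φ x`. -/
def aug (P : Type*) [AddCommGroup P] [Module k P] : (G → P) →ₗ[k] P :=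
  ∑ x : G, LinearMap.proj x

lemma aug_apply {P : Type*} [AddCommGroup P] [Module k P] (φ : G → P) :
    aug (k := k) P φ = ∑ x : G, φ x := by
  simp [aug, LinearMap.sum_apply]

lemma aug_diagRep {P : Type*} [AddCommGroup P] [Module k P] (ρ : Representation k G P) (g : G)
    (φ : G → P) : aug (k := k) P (diagRep ρ g φ) = ρ g (aug (k := k) P φ) := by
  simp only [aug_apply, diagRep_apply, map_sum]
  exact Fintype.sum_equiv (Equiv.mulLeft g⁻¹) _ _ (fun x => rfl)

variable [DecidableEq G]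

/-- The (non-equivariant) section `p ↦ δ₁ p` of the augmentation. -/
def sec (P : Type*) [AddCommGroup P] [Module k P] : P →ₗ[k] (G → P) :=
  LinearMap.single k (fun _ : G => P) 1

@[simp] lemma aug_sec {P : Type*} [AddCommGroup P] [Module k P] (p : P) :
    aug (k := k) P (sec (k := k) (G := G) P p) = p := by
  simp [sec, aug_apply, Finset.sum_pi_single']

/-- `P₁' = P₀' ×_{P₀} P₁ = {(φ, z) | ε φ = ι z}`. -/
def indP1 (R : Res k G P1 P0 M) : Submodule k ((G → P0) × P1) :=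
  LinearMap.eqLocus ((aug (k := k) P0).comp (LinearMap.fst k (G → P0) P1))
    (R.ι.comp (LinearMap.snd k (G → P0) P1))

lemma mem_indP1 (R : Res k G P1 P0 M) (w : (G → P0) × P1) :
    w ∈ indP1 R ↔ aug (k := k) P0 w.1 = R.ι w.2 := Iff.rfl

/-- The action on `P₁'`. -/
def indρ1 (R : Res k G P1 P0 M) : Representation k G ↥(indP1 R) where
  toFun g := ((diagRep R.ρ0 g).prodMap (R.ρ1 g)).restrict (p := indP1 R) (q := indP1 R)
    (fun w hw => by
      rw [mem_indP1] at hw ⊢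
      simp only [LinearMap.prodMap_apply]
      rw [aug_diagRep, hw, R.ι_comm])
  map_one' := by
    ext w <;> simp
  map_mul' g h := by
    ext w <;> simp

@[simp] lemma indρ1_fst (R : Res k G P1 P0 M) (g : G) (w : ↥(indP1 R)) :
    ((indρ1 R g w : ↥(indP1 R)) : (G → P0) × P1).1 = diagRep R.ρ0 g w.1.1 := rfl

@[simp] lemma indρ1_snd (R : Res k G P1 P0 M) (g : G) (w : ↥(indP1 R)) :
    ((indρ1 R g w : ↥(indP1 R)) : (G → P0) × P1).2 = R.ρ1 g w.1.2 := rfl

/-- The induced resolution `0 → P₁' → Fun(G, P₀) → M → 0`. -/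
def ind (R : Res k G P1 P0 M) : Res k G ↥(indP1 R) (G → P0) M where
  ρ1 := indρ1 R
  ρ0 := diagRep R.ρ0
  ρM := R.ρM
  ι := (LinearMap.fst k (G → P0) P1).comp (indP1 R).subtype
  ι_comm g w := rfl
  ι_inj := by
    intro w w' h
    have h1 : w.1.1 = w'.1.1 := h
    have h2 : R.ι w.1.2 = R.ι w'.1.2 := by
      rw [← (mem_indP1 R _).1 w.2, ← (mem_indP1 R _).1 w'.2, h1]
    exact Subtype.ext (Prod.ext h1 (R.ι_inj h2))
  π := R.π.comp (aug (k := k) P0)
  π_comm g φ := by
    simp only [LinearMap.comp_apply, aug_diagRep, R.π_comm]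
  π_surj := by
    intro m
    obtain ⟨x, rfl⟩ := R.π_surj m
    exact ⟨sec (k := k) (G := G) P0 x, by rw [LinearMap.comp_apply, aug_sec]⟩
  exact φ := by
    simp only [LinearMap.comp_apply]
    rw [R.exact]
    constructor
    · rintro ⟨z, hz⟩
      exact ⟨⟨(φ, z), (mem_indP1 R _).2 hz.symm⟩, rfl⟩
    · rintro ⟨w, rfl⟩
      exact ⟨w.1.2, ((mem_indP1 R _).1 w.2).symm⟩

/-- The projection `P₁' → P₁`. -/
def proj1 (R : Res k G P1 P0 M) : ↥(indP1 R) →ₗ[k] P1 :=
  (LinearMap.snd k (G → P0) P1).comp (indP1 R).subtype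

@[simp] lemma proj1_apply (R : Res k G P1 P0 M) (w : ↥(indP1 R)) : proj1 R w = w.1.2 := rfl

lemma aug_ι_ind (R : Res k G P1 P0 M) (w : ↥(indP1 R)) :
    aug (k := k) P0 ((ind R).ι w) = R.ι (proj1 R w) := (mem_indP1 R _).1 w.2

lemma proj1_comm (R : Res k G P1 P0 M) (g : G) (w : ↥(indP1 R)) :
    proj1 R ((ind R).ρ1 g w) = R.ρ1 g (proj1 R w) := rfl

/-- The lift `z ↦ (δ₁ (ι z), z)` of `z ∈ P₁` to `P₁'`. -/
def lift1 (R : Res k G P1 P0 M) : P1 →ₗ[k] ↥(indP1 R) :=
  LinearMap.codRestrict (indP1 R) (((sec (k := k) (G := G) P0).comp R.ι).prod LinearMap.id)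
    (fun z => by
      rw [mem_indP1]
      show aug (k := k) P0 (sec (k := k) (G := G) P0 (R.ι z)) = R.ι z
      rw [aug_sec])

@[simp] lemma proj1_lift1 (R : Res k G P1 P0 M) (z : P1) : proj1 R (lift1 R z) = z := rfl

/-- The embedding `ker ε → P₁'`, `φ ↦ (φ - δ₁ (ε φ), 0)` (defined on all of `Fun(G, P₀)`). -/
def kerEmb (R : Res k G P1 P0 M) : (G → P0) →ₗ[k] ↥(indP1 R) :=
  LinearMap.codRestrict (indP1 R)
    ((LinearMap.id - (sec (k := k) (G := G) P0).comp (aug (k := k) P0)).prod 0)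
    (fun φ => by
      rw [mem_indP1]
      show aug (k := k) P0 (φ - sec (k := k) (G := G) P0 (aug (k := k) P0 φ)) = R.ι 0
      rw [map_sub, aug_sec, sub_self, map_zero])

lemma kerEmb_fst (R : Res k G P1 P0 M) (φ : G → P0) :
    (kerEmb R φ).1.1 = φ - sec (k := k) (G := G) P0 (aug (k := k) P0 φ) := rfl

lemma kerEmb_snd (R : Res k G P1 P0 M) (φ : G → P0) : (kerEmb R φ).1.2 = 0 := rfl

/-- Decomposition of `w ∈ P₁'`: `w = kerEmb w.1 + lift1 (proj1 w)`. -/
lemma eq_kerEmb_add_lift1 (R : Res k G P1 P0 M) (w : ↥(indP1 R)) :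
    w = kerEmb R w.1.1 + lift1 R (proj1 R w) := by
  apply Subtype.ext
  apply Prod.ext
  · show w.1.1 = (w.1.1 - sec (k := k) (G := G) P0 (aug (k := k) P0 w.1.1)) +
      sec (k := k) (G := G) P0 (R.ι w.1.2)
    rw [(mem_indP1 R _).1 w.2]
    abel
  · show w.1.2 = 0 + w.1.2
    rw [zero_add]

end Ind

end Fermat.Agent.PT.PRO.IndRes20
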