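/-
Program F (S55, Poitou–Tate), chapter PRO, helper20.

`IndResTransport20`: for a finite group `G`, transport of the finite-level hyper Tate–Nakayama
statements (`TNl`: left kernel of the pairing = norm classes, `TNr`: right kernel = 0) from the
INDUCED resolution `P' = ind P` (where they follow from the `(0,2)` Tate–Nakayama duality for the
`ℤ`-free module `P₁'` alone, because `Fun(G, P₀)` is cohomologically trivial) to the given
resolution `P`.  Everything at raw cochain level.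
-/
import Mathlib
import Fermat.Agent.PT.PRO.IndRes20

set_option autoImplicit false
set_option linter.unusedSectionVars false

namespace Fermat.Agent.PT.PRO.IndResTransport20

open Fermat.Agent.PT.PRO.HyperLevel25 Fermat.Agent.PT.PRO.Pairing20 Fermat.Agent.PT.PRO.IndRes20

variable {k : Type*} [CommRing k] {G : Type*} [Group G] [Fintype G] [DecidableEq G]
variable {P1 P0 M C : Type*} [AddCommGroup P1] [Module k P1] [AddCommGroup P0] [Module k P0]
  [AddCommGroup M] [Module k M] [AddCommGroup C] [Module k C]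

/-- Left kernel = norm classes (finite group, all cochains). -/
def TNlProp {Y0 Y1 F0 F1 A X : Type*}
    [AddCommGroup Y0] [Module k Y0] [AddCommGroup Y1] [Module k Y1]
    [AddCommGroup F0] [Module k F0] [AddCommGroup F1] [Module k F1]
    [AddCommGroup A] [Module k A] [AddCommGroup X] [Module k X]
    (D : Datum k G Y0 Y1 F0 F1 A X) : Prop :=
  ∀ (c : G → Y0) (y : Y1), D.IsHyperCocycle c y →
    (∀ a' b, D.IsLift a' b → ∃ u, D.pairFun c y a' b = dOne D.ρX u) →
    ∃ (y₀ : Y0) (e : Y1), c = dZero D.ρY0 y₀ ∧ y = D.f y₀ + ∑ g : G, D.ρY1 g e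

/-- Right kernel = 0 (finite group, all cochains). -/
def TNrProp {Y0 Y1 F0 F1 A X : Type*}
    [AddCommGroup Y0] [Module k Y0] [AddCommGroup Y1] [Module k Y1]
    [AddCommGroup F0] [Module k F0] [AddCommGroup F1] [Module k F1]
    [AddCommGroup A] [Module k A] [AddCommGroup X] [Module k X]
    (D : Datum k G Y0 Y1 F0 F1 A X) : Prop :=
  ∀ (a' : G → F0) (b : G × G → F1), D.IsLift a' b →
    (∀ c y, D.IsHyperCocycle c y → ∃ u, D.pairFun c y a' b = dOne D.ρX u) →
    ∃ a₀ : A, ⇑D.π ∘ a' = dZero D.ρA a₀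

variable (R : Res k G P1 P0 M) (ρC : Representation k G C)

/-- Pre-composition with an equivariant map commutes with the action on `Hom`. -/
lemma linHom_precomp {P P' : Type*} [AddCommGroup P] [Module k P] [AddCommGroup P'] [Module k P']
    (ρ : Representation k G P) (ρ' : Representation k G P') (α : P' →ₗ[k] P)
    (hα : ∀ g x, α (ρ' g x) = ρ g (α x)) (g : G) (φ : P →ₗ[k] C) :
    Representation.linHom ρ' ρC g (φ ∘ₗ α) = (Representation.linHom ρ ρC g φ) ∘ₗ α := by
  ext x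
  simp only [Representation.linHom_apply, LinearMap.comp_apply, hα]

lemma aug_comm (g : G) (φ : G → P0) :
    aug (k := k) P0 ((ind R).ρ0 g φ) = R.ρ0 g (aug (k := k) P0 φ) := aug_diagRep R.ρ0 g φ

/-! ### T1: forward transport of hyper-cocycles -/

/-- The pull-back of `(c, y)` to the induced resolution. -/
def pullC (c : G → (P0 →ₗ[k] C)) : G → ((G → P0) →ₗ[k] C) := fun g => c g ∘ₗ aug (k := k) P0

def pullY (y : P1 →ₗ[k] C) : ↥(indP1 R) →ₗ[k] C := y ∘ₗ proj1 R

lemma dZero_pull (y₀ : P0 →ₗ[k] C) :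
    dZero ((ind R).datum ρC).ρY0 (y₀ ∘ₗ aug (k := k) P0) = pullC (dZero (R.datum ρC).ρY0 y₀) := by
  funext g
  simp only [dZero_apply, pullC, Res.datum_ρY0, LinearMap.sub_comp]
  congr 1
  exact linHom_precomp ρC R.ρ0 (ind R).ρ0 (aug (k := k) P0) (aug_comm R) g y₀

lemma dOne_pullC (c : G → (P0 →ₗ[k] C)) :
    dOne ((ind R).datum ρC).ρY0 (pullC c) = fun q => dOne (R.datum ρC).ρY0 c q ∘ₗ aug (k := k) P0 := by
  funext q
  obtain ⟨g, h⟩ := q
  simp only [dOne_apply, pullC, LinearMap.add_comp, LinearMap.sub_comp]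
  congr 2
  exact linHom_precomp ρC R.ρ0 (ind R).ρ0 (aug (k := k) P0) (aug_comm R) g (c h)

lemma isHyperCocycle_pull {c : G → (P0 →ₗ[k] C)} {y : P1 →ₗ[k] C}
    (h : (R.datum ρC).IsHyperCocycle c y) :
    ((ind R).datum ρC).IsHyperCocycle (pullC c) (pullY R y) := by
  refine ⟨?_, fun g => ?_⟩
  · rw [dOne_pullC, h.1]
    funext q
    simp
  · have h2 := h.2 g
    simp only [Res.datum_f, Res.datum_ρY1] at h2 ⊢
    ext w
    have h3 := LinearMap.congr_fun h2 (proj1 R w)
    simp only [LinearMap.comp_apply, LinearMap.sub_apply] at h3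
    simp only [pullC, pullY, LinearMap.comp_apply, LinearMap.sub_apply]
    rw [aug_ι_ind, h3, proj1_comm]

/-- Compatibility of the pairings. -/
lemma pairFun_pull (c : G → (P0 →ₗ[k] C)) (y : P1 →ₗ[k] C) (a' : G → (G → P0))
    (b' : G × G → ↥(indP1 R)) :
    ((ind R).datum ρC).pairFun (pullC c) (pullY R y) a' b' =
      (R.datum ρC).pairFun c y (⇑(aug (k := k) P0) ∘ a') (⇑(proj1 R) ∘ b') := by
  funext q
  obtain ⟨g, h⟩ := q
  simp only [Datum.pairFun_apply, Res.datum_ev0, Res.datum_ev1, Res.datum_ρF0, pullC, pullY,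
    LinearMap.comp_apply, Function.comp_apply]
  rw [aug_comm]

/-! ### T2: transport of lifted cocycles -/

lemma isLift_push {a' : G → (G → P0)} {b' : G × G → ↥(indP1 R)}
    (h : ((ind R).datum ρC).IsLift a' b') :
    (R.datum ρC).IsLift (⇑(aug (k := k) P0) ∘ a') (⇑(proj1 R) ∘ b') := by
  intro q
  have h1 : ((ind R).ι (b' q)) = dOne (ind R).ρ0 a' q := h q
  have h2 := comp_dOne (ind R).ρ0 R.ρ0 (aug (k := k) P0) (aug_comm R) a'
  show R.ι (proj1 R (b' q)) = dOne R.ρ0 (⇑(aug (k := k) P0) ∘ a') q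
  rw [← aug_ι_ind, h1, ← h2]
  rfl

lemma exists_lift_ind {a' : G → P0} {b : G × G → P1} (h : (R.datum ρC).IsLift a' b) :
    ∃ (a'' : G → (G → P0)) (b'' : G × G → ↥(indP1 R)), ((ind R).datum ρC).IsLift a'' b'' ∧
      ⇑(aug (k := k) P0) ∘ a'' = a' ∧ ⇑(proj1 R) ∘ b'' = b := by
  have hb : ∀ q, R.ι (b q) = dOne R.ρ0 a' q := h
  let a'' : G → (G → P0) := fun g => sec (k := k) (G := G) P0 (a' g)
  have ha'' : ⇑(aug (k := k) P0) ∘ a'' = a' := by
    funext g
    simp only [Function.comp_apply, a'', aug_sec]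
  have h2 := comp_dOne (ind R).ρ0 R.ρ0 (aug (k := k) P0) (aug_comm R) a''
  refine ⟨a'', fun q => ⟨(dOne (ind R).ρ0 a'' q, b q), ?_⟩, ?_, ha'', ?_⟩
  · rw [mem_indP1]
    show aug (k := k) P0 (dOne (ind R).ρ0 a'' q) = R.ι (b q)
    have := congrFun h2 q
    simp only [Function.comp_apply] at this
    rw [this, ha'', hb]
  · intro q
    rfl
  · funext q
    rfl

/-! ### T3: every hyper-cocycle of the induced resolution is a pull-back up to a coboundary -/

lemma kerEmb_sec (p : P0) : kerEmb R (sec (k := k) (G := G) P0 p) = 0 := by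
  apply Subtype.ext
  apply Prod.ext
  · show sec (k := k) (G := G) P0 p - sec (k := k) (G := G) P0 (aug (k := k) P0 (sec (k := k) (G := G) P0 p)) = 0
    rw [aug_sec, sub_self]
  · rfl

lemma ι_kerEmb (φ : G → P0) :
    (ind R).ι (kerEmb R φ) = φ - sec (k := k) (G := G) P0 (aug (k := k) P0 φ) := rfl

lemma kerEmb_ι_kerEmb (φ : G → P0) : kerEmb R ((ind R).ι (kerEmb R φ)) = kerEmb R φ := by
  rw [ι_kerEmb, map_sub, kerEmb_sec, sub_zero]

lemma proj1_kerEmb (φ : G → P0) : proj1 R (kerEmb R φ) = 0 := rfl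

/-- A functional on `P₁'` killing `kerEmb` factors through `proj1`. -/
lemma eq_comp_proj1 {e : ↥(indP1 R) →ₗ[k] C} (he : ∀ φ, e (kerEmb R φ) = 0) :
    e = (e ∘ₗ lift1 R) ∘ₗ proj1 R := by
  ext w
  conv_lhs => rw [eq_kerEmb_add_lift1 R w]
  rw [map_add, he, zero_add]
  rfl

lemma aug_surjective : Function.Surjective (aug (k := k) (G := G) P0) :=
  fun x => ⟨sec (k := k) (G := G) P0 x, aug_sec x⟩

lemma proj1_surjective : Function.Surjective (proj1 R) := fun z => ⟨lift1 R z, rfl⟩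

lemma pullC_injective {c c₂ : G → (P0 →ₗ[k] C)} (h : pullC c = pullC c₂) : c = c₂ := by
  funext g
  ext x
  obtain ⟨φ, rfl⟩ := aug_surjective (k := k) (G := G) x
  exact LinearMap.congr_fun (congrFun h g) φ

lemma IsHyperCocycle.sub' {Y0 Y1 F0 F1 A X : Type*}
    [AddCommGroup Y0] [Module k Y0] [AddCommGroup Y1] [Module k Y1]
    [AddCommGroup F0] [Module k F0] [AddCommGroup F1] [Module k F1]
    [AddCommGroup A] [Module k A] [AddCommGroup X] [Module k X]
    (D : Datum k G Y0 Y1 F0 F1 A X) {c c' : G → Y0} {y y' : Y1} (h : D.IsHyperCocycle c y)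
    (h' : D.IsHyperCocycle c' y') : D.IsHyperCocycle (c - c') (y - y') := by
  refine ⟨by rw [map_sub, h.1, h'.1, sub_zero], fun g => ?_⟩
  rw [Pi.sub_apply, map_sub, map_sub, h.2, h'.2]; abel

theorem exists_pull {c' : G → ((G → P0) →ₗ[k] C)} {y' : ↥(indP1 R) →ₗ[k] C}
    (h : ((ind R).datum ρC).IsHyperCocycle c' y') :
    ∃ (c : G → (P0 →ₗ[k] C)) (y : P1 →ₗ[k] C) (y₀ : (G → P0) →ₗ[k] C),
      (R.datum ρC).IsHyperCocycle c y ∧
      c' = pullC c + dZero ((ind R).datum ρC).ρY0 y₀ ∧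
      y' = pullY R y + ((ind R).datum ρC).f y₀ := by
  set D' := (ind R).datum ρC with hD'
  set y₀ : (G → P0) →ₗ[k] C := y' ∘ₗ kerEmb R with hy₀
  set c'' : G → ((G → P0) →ₗ[k] C) := c' - dZero D'.ρY0 y₀ with hc''
  set y'' : ↥(indP1 R) →ₗ[k] C := y' - D'.f y₀ with hy''
  have hcoc : D'.IsHyperCocycle c'' y'' :=
    IsHyperCocycle.sub' D' h (D'.isHyperCocycle_bdry y₀)
  -- (k2)
  have k2 : ∀ φ, y'' (kerEmb R φ) = 0 := by
    intro φ
    simp only [hy'', hy₀, hD', LinearMap.sub_apply, Res.datum_f, LinearMap.comp_apply]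
    rw [kerEmb_ι_kerEmb, sub_self]
  have k4 : y'' = (y'' ∘ₗ lift1 R) ∘ₗ proj1 R := eq_comp_proj1 R k2
  have k3 : ∀ w, proj1 R w = 0 → y'' w = 0 := by
    intro w hw
    rw [k4, LinearMap.comp_apply, hw, map_zero]
  -- (k5)
  have k5 : ∀ g φ, c'' g φ = c'' g (sec (k := k) (G := G) P0 (aug (k := k) P0 φ)) := by
    intro g φ
    have h1 := LinearMap.congr_fun (hcoc.2 g) (kerEmb R φ)
    simp only [hD', Res.datum_f, Res.datum_ρY1, LinearMap.comp_apply, LinearMap.sub_apply] at h1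
    rw [k2, sub_zero, k3 _ (by rw [proj1_comm, proj1_kerEmb, map_zero]), map_zero, ι_kerEmb,
      map_sub, sub_eq_zero] at h1
    exact h1
  set c : G → (P0 →ₗ[k] C) := fun g => c'' g ∘ₗ sec (k := k) (G := G) P0 with hc
  set y : P1 →ₗ[k] C := y'' ∘ₗ lift1 R with hy
  have hpc : pullC c = c'' := by
    funext g
    refine LinearMap.ext fun φ => ?_
    simp only [pullC, hc, LinearMap.comp_apply]
    exact (k5 g φ).symm
  have hpy : pullY R y = y'' := k4.symm
  refine ⟨c, y, y₀, ⟨?_, fun g => ?_⟩, ?_, ?_⟩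
  · -- dOne c = 0
    have h1 := dOne_pullC R ρC c
    rw [hpc] at h1
    have h2 : dOne D'.ρY0 c'' = 0 := hcoc.1
    funext q
    ext x
    obtain ⟨φ, rfl⟩ := aug_surjective (k := k) (G := G) x
    have h3 := congrFun h1 q
    rw [h2] at h3
    have h4 := LinearMap.congr_fun h3 φ
    simp only [Pi.zero_apply, LinearMap.zero_apply, LinearMap.comp_apply] at h4
    simpa using h4.symm
  · -- f (c g) = g y - y
    ext z
    have h1 := LinearMap.congr_fun (hcoc.2 g) (lift1 R z)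
    simp only [hD', Res.datum_f, Res.datum_ρY1, LinearMap.comp_apply, LinearMap.sub_apply] at h1
    simp only [Res.datum_f, Res.datum_ρY1, LinearMap.comp_apply, LinearMap.sub_apply]
    rw [← hpc] at h1
    simp only [pullC, LinearMap.comp_apply] at h1
    rw [aug_ι_ind, proj1_lift1] at h1
    rw [h1, ← hpy]
    simp only [pullY, LinearMap.comp_apply, proj1_comm, proj1_lift1]
  · rw [hpc, hc'']; abel
  · rw [hpy, hy'']; abel

/-! ### The reductions -/

/-- **Right kernel**: it suffices to treat the induced resolution. -/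
theorem TNr_of_ind (h : TNrProp ((ind R).datum ρC)) : TNrProp (R.datum ρC) := by
  intro a' b hab hpair
  obtain ⟨a'', b'', hl, ha, hb⟩ := exists_lift_ind R ρC hab
  obtain ⟨a₀, ha₀⟩ := h a'' b'' hl (fun c' y' hcy' => by
    obtain ⟨c, y, y₀, hcy, hc', hy'⟩ := exists_pull R ρC hcy'
    obtain ⟨u, hu⟩ := hpair c y hcy
    refine ⟨u + fun g => ((ind R).datum ρC).ev0 y₀ (a'' g), ?_⟩
    rw [hc', hy', Datum.pairFun_add_left, pairFun_pull, ha, hb, hu,
      Datum.pairFun_bdry_left _ y₀ hl, map_add]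
    rfl)
  refine ⟨a₀, ?_⟩
  have ha₀' : ⇑((ind R).datum ρC).π ∘ a'' = dZero (R.datum ρC).ρA a₀ := ha₀
  rw [← ha₀', ← ha]
  rfl

lemma sum_linHom_precomp {P P' : Type*} [AddCommGroup P] [Module k P] [AddCommGroup P']
    [Module k P'] (ρ : Representation k G P) (ρ' : Representation k G P') (α : P' →ₗ[k] P)
    (hα : ∀ g x, α (ρ' g x) = ρ g (α x)) (φ : P →ₗ[k] C) :
    ∑ g : G, Representation.linHom ρ' ρC g (φ ∘ₗ α) =
      (∑ g : G, Representation.linHom ρ ρC g φ) ∘ₗ α := by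
  refine LinearMap.ext fun x => ?_
  simp only [LinearMap.sum_apply, LinearMap.comp_apply]
  refine Finset.sum_congr rfl (fun g _ => ?_)
  exact LinearMap.congr_fun (linHom_precomp ρC ρ ρ' α hα g φ) x

lemma smul_sum_rep {Y : Type*} [AddCommGroup Y] [Module k Y] (ρ : Representation k G Y) (g : G)
    (e : Y) : ρ g (∑ h : G, ρ h e) = ∑ h : G, ρ h e := by
  rw [map_sum]
  simp only [← Module.End.mul_apply, ← map_mul]
  exact Fintype.sum_equiv (Equiv.mulLeft g) _ _ (fun h => rfl)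

/-- **Left kernel**: it suffices to treat the induced resolution. -/
theorem TNl_of_ind (h : TNlProp ((ind R).datum ρC)) : TNlProp (R.datum ρC) := by
  intro c y hcy hpair
  set D' := (ind R).datum ρC with hD'
  obtain ⟨y₀', e', hc0, hy0⟩ := h (pullC c) (pullY R y) (isHyperCocycle_pull R ρC hcy)
    (fun a'' b'' hl => by
      obtain ⟨u, hu⟩ := hpair _ _ (isLift_push R ρC hl)
      exact ⟨u, by rw [pairFun_pull, hu]; rfl⟩)
  -- the return trip
  set et : (G → P0) →ₗ[k] C := e' ∘ₗ kerEmb R with het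
  set Net : (G → P0) →ₗ[k] C := ∑ g : G, D'.ρY0 g et with hNet
  set y₀'' : (G → P0) →ₗ[k] C := y₀' + Net with hy₀''
  set e'' : ↥(indP1 R) →ₗ[k] C := e' - et ∘ₗ (ind R).ι with he''
  have r1 : ∀ φ, e'' (kerEmb R φ) = 0 := by
    intro φ
    simp only [he'', het, LinearMap.sub_apply, LinearMap.comp_apply]
    rw [kerEmb_ι_kerEmb, sub_self]
  have r1' : e'' = (e'' ∘ₗ lift1 R) ∘ₗ proj1 R := eq_comp_proj1 R r1
  set e : P1 →ₗ[k] C := e'' ∘ₗ lift1 R with he
  have r2 : ∑ g : G, D'.ρY1 g e' = (∑ g : G, (R.datum ρC).ρY1 g e) ∘ₗ proj1 R + Net ∘ₗ (ind R).ι := by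
    have e1 : e' = e ∘ₗ proj1 R + et ∘ₗ (ind R).ι := by
      rw [← r1', he'']; abel
    conv_lhs => rw [e1]
    simp only [map_add, Finset.sum_add_distrib]
    congr 1
    · exact sum_linHom_precomp ρC R.ρ1 (ind R).ρ1 (proj1 R) (proj1_comm R) e
    · exact sum_linHom_precomp ρC (ind R).ρ0 (ind R).ρ1 (ind R).ι (ind R).ι_comm et
  -- y ∘ proj1 = y₀'' ∘ ι' + (N e) ∘ proj1
  have r3 : pullY R y = y₀'' ∘ₗ (ind R).ι + (∑ g : G, (R.datum ρC).ρY1 g e) ∘ₗ proj1 R := by
    rw [hy0, r2, hy₀'', LinearMap.add_comp]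
    simp only [hD', Res.datum_f]
    abel
  have r4 : ∀ φ, y₀'' φ = y₀'' (sec (k := k) (G := G) P0 (aug (k := k) P0 φ)) := by
    intro φ
    have h1 := LinearMap.congr_fun r3 (kerEmb R φ)
    simp only [pullY, LinearMap.comp_apply, LinearMap.add_apply, proj1_kerEmb, map_zero,
      add_zero, ι_kerEmb, map_sub] at h1
    exact (sub_eq_zero.1 h1.symm)
  set y₀ : P0 →ₗ[k] C := y₀'' ∘ₗ sec (k := k) (G := G) P0 with hy₀
  have r4' : y₀'' = y₀ ∘ₗ aug (k := k) P0 := LinearMap.ext fun φ => r4 φ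
  refine ⟨y₀, e, ?_, ?_⟩
  · -- c = d y₀
    apply pullC_injective
    rw [← dZero_pull, ← r4', hc0, hy₀'', map_add]
    have hinv : dZero D'.ρY0 Net = 0 := by
      funext g
      rw [dZero_apply, hNet, smul_sum_rep, sub_self]
      rfl
    rw [hinv, add_zero]
  · -- y = f y₀ + N e
    ext z
    have h1 := LinearMap.congr_fun r3 (lift1 R z)
    simp only [pullY, LinearMap.comp_apply, LinearMap.add_apply, proj1_lift1] at h1
    rw [h1, r4']
    simp only [LinearMap.comp_apply, LinearMap.add_apply, Res.datum_f, aug_ι_ind, proj1_lift1]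

end Fermat.Agent.PT.PRO.IndResTransport20
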