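/-
Program F (S55, Poitou–Tate), chapter PRO, row 362 (P3, TRANSPORT), part 2.  Owner: helper18.

`HyperColimP18`: the `p`-PRIMARY transport, producing the fields of `GlobalDuality20b.HypP`.

* `finTNl_iff_TNlProp`, `finTNr_iff_TNrProp`: `HyperColim18.FinTNl/FinTNr` are
  `IndResTransport20.TNlProp/TNrProp` (plain sums over a `Fintype`);
* `INJ2pAt ρ 𝒰 V p` (body of `HypP.INJ2p`), `INJ2pFin ρ N p` (the same over a finite group, all
  cochains), the dictionary `isLevelAt₁_map_iff`/`isLevelAt₂_map_iff` for `G ⧸ V'`, and the transport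
  `inj2pAt_of_fin`;
* `H1NoPTorsion ρ N p` (raw form of "`H¹(N; X)` has no `p`-torsion") and
  `inj2pFin_of_noPTorsion` (`p`-primary inflation–restriction in degree 2 by hand, `N` finite);
* the assembly `hypP_of_descend`.
-/
import Mathlib
import Fermat.Agent.PT.PRO.HyperColim18
import Fermat.Agent.PT.PRO.GlobalDuality20b
import Fermat.Agent.PT.PRO.IndResTransport20

set_option autoImplicit false

namespace Fermat.Agent.PT.PRO.HyperColimP18

open Fermat.Agent.PT.PRO.HyperLevel25 Fermat.Agent.PT.PRO.Pairing20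
  Fermat.Agent.PT.PRO.GlobalDuality20 Fermat.Agent.PT.PRO.GlobalDuality20b
  Fermat.Agent.PT.PRO.HyperColim18 Fermat.Agent.PT.PRO.IndResTransport20

variable {k : Type*} [CommRing k] {G : Type*} [Group G]

variable {Y0 Y1 F0 F1 A X : Type*}
  [AddCommGroup Y0] [Module k Y0] [AddCommGroup Y1] [Module k Y1]
  [AddCommGroup F0] [Module k F0] [AddCommGroup F1] [Module k F1]
  [AddCommGroup A] [Module k A] [AddCommGroup X] [Module k X]

/-! ### `FinTNl`, `FinTNr` versus `TNlProp`, `TNrProp` -/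

theorem finTNl_iff_TNlProp {Q : Type*} [Group Q] [Fintype Q] (D : Datum k Q Y0 Y1 F0 F1 A X) :
    FinTNl D ↔ TNlProp D := by
  unfold FinTNl TNlProp
  simp only [finsum_eq_sum_of_fintype]

theorem finTNr_iff_TNrProp {Q : Type*} [Group Q] [Fintype Q] (D : Datum k Q Y0 Y1 F0 F1 A X) :
    FinTNr D ↔ TNrProp D := Iff.rfl

/-! ### Level conditions on `G ⧸ V'` for the image of `V` -/

section LevelMap

variable {Y : Type*} [AddCommGroup Y] [Module k Y]
variable (V' : Subgroup G) [V'.Normal] (V : Subgroup G) (ρ : Representation k G Y)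

lemma isLevelAt₁_map_iff (c : G ⧸ V' → fixedSub V' ρ) :
    IsLevelAt₁ (fixedRep V' ρ) (V.map (QuotientGroup.mk' V')) c ↔ IsLevelAt₁ ρ V (infl₁ c) := by
  constructor
  · intro h
    refine ⟨fun g s hs => ?_, fun g s hs => ?_⟩
    · have h1 := h.1 (g : G ⧸ V') ((s : G ⧸ V')) (Subgroup.mem_map_of_mem _ hs)
      simp only [infl₁_apply, QuotientGroup.mk_mul, h1]
    · have h1 := h.2 (g : G ⧸ V') ((s : G ⧸ V')) (Subgroup.mem_map_of_mem _ hs)
      exact congrArg Subtype.val h1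
  · intro h
    refine ⟨fun q s hs => ?_, fun q s hs => ?_⟩
    · obtain ⟨t, ht, rfl⟩ := Subgroup.mem_map.1 hs
      induction q using QuotientGroup.induction_on with
      | H g => exact Subtype.ext (h.1 g t ht)
    · obtain ⟨t, ht, rfl⟩ := Subgroup.mem_map.1 hs
      induction q using QuotientGroup.induction_on with
      | H g => exact Subtype.ext (h.2 g t ht)

lemma isLevelAt₂_map_iff (φ : (G ⧸ V') × (G ⧸ V') → fixedSub V' ρ) :
    IsLevelAt₂ (fixedRep V' ρ) (V.map (QuotientGroup.mk' V')) φ ↔ IsLevelAt₂ ρ V (infl₂ φ) := by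
  constructor
  · intro h
    refine ⟨fun g g' s s' hs hs' => ?_, fun q s hs => ?_⟩
    · have h1 := h.1 (g : G ⧸ V') (g' : G ⧸ V') (s : G ⧸ V') (s' : G ⧸ V')
        (Subgroup.mem_map_of_mem _ hs) (Subgroup.mem_map_of_mem _ hs')
      simp only [infl₂_apply, QuotientGroup.mk_mul, h1]
    · obtain ⟨g, g'⟩ := q
      have h1 := h.2 ((g : G ⧸ V'), (g' : G ⧸ V')) ((s : G ⧸ V')) (Subgroup.mem_map_of_mem _ hs)
      exact congrArg Subtype.val h1
  · intro h
    refine ⟨fun q q' s s' hs hs' => ?_, fun q s hs => ?_⟩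
    · obtain ⟨t, ht, rfl⟩ := Subgroup.mem_map.1 hs
      obtain ⟨t', ht', rfl⟩ := Subgroup.mem_map.1 hs'
      induction q using QuotientGroup.induction_on with
      | H g =>
        induction q' using QuotientGroup.induction_on with
        | H g' => exact Subtype.ext (h.1 g g' t t' ht ht')
    · obtain ⟨t, ht, rfl⟩ := Subgroup.mem_map.1 hs
      obtain ⟨q, q'⟩ := q
      induction q using QuotientGroup.induction_on with
      | H g =>
        induction q' using QuotientGroup.induction_on with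
        | H g' => exact Subtype.ext (h.2 (g, g') t ht)

omit [V'.Normal] in
lemma infl₂_smul (r : k) (φ : (G ⧸ V') × (G ⧸ V') → fixedSub V' ρ) :
    infl₂ (r • φ) = r • infl₂ φ := rfl

end LevelMap

/-! ### `p`-primary injectivity of inflation in degree 2 -/

/-- The body of the field `HypP.INJ2p` for one subgroup `V`. -/
def INJ2pAt (ρ : Representation k G X) (𝒰 : Set (Subgroup G)) (V : Subgroup G) (p : ℕ) : Prop :=
  ∀ φ : G × G → X, IsLevelAt₂ ρ V φ →
    (∃ u, IsLevelAt₁ ρ V u ∧ (p : k) • φ = dOne ρ u) →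
    (∃ u, IsLevel₁ 𝒰 u ∧ φ = dOne ρ u) → ∃ u, IsLevelAt₁ ρ V u ∧ φ = dOne ρ u

/-- The same over a (finite) group, all cochains allowed: a level-`N` 2-cochain `φ` with `p φ` a
level-`N` coboundary and `φ` a coboundary is a level-`N` coboundary. -/
def INJ2pFin (ρ : Representation k G X) (N : Subgroup G) (p : ℕ) : Prop :=
  ∀ φ : G × G → X, IsLevelAt₂ ρ N φ →
    (∃ u, IsLevelAt₁ ρ N u ∧ (p : k) • φ = dOne ρ u) →
    (∃ u, φ = dOne ρ u) → ∃ u, IsLevelAt₁ ρ N u ∧ φ = dOne ρ u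

/-- **Transport of `INJ2p`** from the finite quotients `G ⧸ V'` (`V' ≤ V`) to level `V`. -/
theorem inj2pAt_of_fin {𝒰 : Set (Subgroup G)} (h𝒰 : IsLevelBasis 𝒰) (ρ : Representation k G X)
    (hρ : IsDiscrete 𝒰 ρ) (V : Subgroup G) (hV : V ∈ 𝒰) (p : ℕ)
    (h : ∀ V' ∈ 𝒰, ∀ _ : V'.Normal, V' ≤ V →
      INJ2pFin (fixedRep V' ρ) (V.map (QuotientGroup.mk' V')) p) :
    INJ2pAt ρ 𝒰 V p := by
  rintro φ hφ ⟨u₀, hu₀, hpu₀⟩ ⟨u, hu, hφu⟩
  obtain ⟨W, hW, -, hW1, hW2⟩ := h𝒰.exists_normal_fixing hρ hu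
  obtain ⟨W', hW', hW'le⟩ := h𝒰.inf W hW V hV
  obtain ⟨V', hV', hV'le, hV'n⟩ := h𝒰.normal W' hW'
  have hV'V : V' ≤ V := hV'le.trans (hW'le.trans inf_le_right)
  have hV'W : V' ≤ W := hV'le.trans (hW'le.trans inf_le_left)
  have huV' : IsLevelAt₁ ρ V' u :=
    ⟨fun g s hs => hW1 g s (hV'W hs), fun g s hs => hW2 g s (hV'W hs)⟩
  have hφV' : IsLevelAt₂ ρ V' φ := hφ.mono hV'V
  have hu₀V' : IsLevelAt₁ ρ V' u₀ := hu₀.mono hV'V
  have key := h V' hV' hV'n hV'V (desc₂ φ hφV')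
    ((isLevelAt₂_map_iff V' V ρ _).2 (by rw [infl₂_desc₂]; exact hφ))
    ⟨desc₁ u₀ hu₀V', (isLevelAt₁_map_iff V' V ρ _).2 (by rw [infl₁_desc₁]; exact hu₀), by
      apply infl₂_injective
      rw [infl₂_smul, infl₂_desc₂, infl₂_dOne, infl₁_desc₁, hpu₀]⟩
    ⟨desc₁ u huV', by
      apply infl₂_injective
      rw [infl₂_desc₂, infl₂_dOne, infl₁_desc₁, hφu]⟩
  obtain ⟨u', hu', hφu'⟩ := key
  refine ⟨infl₁ u', (isLevelAt₁_map_iff V' V ρ _).1 hu', ?_⟩
  rw [← infl₂_dOne, ← hφu', infl₂_desc₂]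

/-! ### `p`-primary inflation–restriction in degree 2, by hand -/

section ByHand

variable (ρ : Representation k G X) (N : Subgroup G)

/-- `v` restricts to a 1-cocycle on `N`. -/
def IsCocycleOn (v : G → X) : Prop := ∀ s ∈ N, ∀ s' ∈ N, v (s * s') = ρ s (v s') + v s

/-- `v` restricts to a 1-coboundary on `N`. -/
def IsCoboundaryOn (v : G → X) : Prop := ∃ x : X, ∀ s ∈ N, v s = ρ s x - x

/-- Raw form of "`H¹(N; X)` has no `p`-torsion". -/
def H1NoPTorsion (p : ℕ) : Prop :=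
  ∀ v : G → X, IsCocycleOn ρ N v → IsCoboundaryOn ρ N ((p : k) • v) → IsCoboundaryOn ρ N v

variable {ρ N}

lemma IsCocycleOn.smul {v : G → X} (h : IsCocycleOn ρ N v) (r : k) : IsCocycleOn ρ N (r • v) := by
  intro s hs s' hs'
  simp only [Pi.smul_apply, h s hs s' hs', smul_add, map_smul]

lemma IsCoboundaryOn.smul {v : G → X} (h : IsCoboundaryOn ρ N v) (r : k) :
    IsCoboundaryOn ρ N (r • v) := by
  obtain ⟨x, hx⟩ := h
  exact ⟨r • x, fun s hs => by simp only [Pi.smul_apply, hx s hs, smul_sub, map_smul]⟩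

/-- A cochain `u` whose coboundary is right-`N × N`-invariant and which is constant on `N` is of
level `N` (`N` normal). -/
lemma isLevelAt₁_of_dOne [N.Normal] {u : G → X}
    (hφ : ∀ g g' s s', s ∈ N → s' ∈ N → dOne ρ u (g * s, g' * s') = dOne ρ u (g, g'))
    (hN : ∀ s ∈ N, u s = u 1) : IsLevelAt₁ ρ N u := by
  have hright : ∀ g s, s ∈ N → u (g * s) = u g := fun g s hs => by
    have e1 := hφ g 1 1 s N.one_mem hs
    rw [mul_one, one_mul] at e1
    simp only [dOne_apply, mul_one, hN s hs] at e1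
    have := sub_eq_zero.2 e1
    rw [← sub_eq_zero, ← neg_eq_zero, ← this]
    abel
  refine ⟨hright, fun g s hs => ?_⟩
  have e1 := hφ 1 g s 1 hs N.one_mem
  rw [mul_one, one_mul] at e1
  simp only [dOne_apply, one_mul, hN s hs, map_one, Module.End.one_apply] at e1
  have e2 : s * g = g * (g⁻¹ * s * g) := by group
  have e3 : u (s * g) = u g := by
    rw [e2]; exact hright g _ (conj_mem_of_normal hs g)
  rw [e3] at e1
  have := sub_eq_zero.2 e1
  rw [← sub_eq_zero, ← this]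
  abel

/-- `H¹(N; X)` is killed by `#N`. -/
lemma IsCocycleOn.card_smul [Fintype N] {v : G → X} (h : IsCocycleOn ρ N v) :
    IsCoboundaryOn ρ N ((Fintype.card N : k) • v) := by
  refine ⟨-∑ t : N, v t, fun s hs => ?_⟩
  have h1 : ∑ t : N, v (s * t) = ∑ t : N, v t :=
    Fintype.sum_equiv (Equiv.mulLeft (⟨s, hs⟩ : N)) (fun t : N => v (s * t)) (fun t : N => v t)
      (fun t => rfl)
  have h2 : ∑ t : N, v (s * t) = ρ s (∑ t : N, v t) + (Fintype.card N : k) • v s := by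
    rw [map_sum, Nat.cast_smul_eq_nsmul, ← Finset.card_univ, ← Finset.sum_const,
      ← Finset.sum_add_distrib]
    exact Finset.sum_congr rfl (fun t _ => h s hs t t.2)
  rw [Pi.smul_apply, map_neg]
  rw [h1] at h2
  have : (Fintype.card N : k) • v s = ∑ t : N, v t - ρ s (∑ t : N, v t) := by
    rw [eq_sub_iff_add_eq, add_comm, ← h2]
  rw [this]
  abel

lemma H1NoPTorsion.pow {p : ℕ} (h : H1NoPTorsion ρ N p) (a : ℕ) {v : G → X}
    (hv : IsCocycleOn ρ N v) (hb : IsCoboundaryOn ρ N (((p : k) ^ a) • v)) :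
    IsCoboundaryOn ρ N v := by
  induction a with
  | zero => simpa using hb
  | succ a ih =>
    apply ih
    apply h _ (hv.smul _)
    rwa [smul_smul, ← pow_succ']

/-- **`p`-primary inflation–restriction in degree 2** for a finite normal subgroup `N`: if
`H¹(N; X)` has no `p`-torsion, then a level-`N` 2-cochain `φ` such that `p φ` is a level-`N`
coboundary and `φ` is a coboundary is a level-`N` coboundary. -/
theorem inj2pFin_of_noPTorsion [N.Normal] [Finite N] {p : ℕ} (hp : p.Prime)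
    (h : H1NoPTorsion ρ N p) : INJ2pFin ρ N p := by
  classical
  have : Fintype N := Fintype.ofFinite N
  rintro φ ⟨hφ1, hφ2⟩ ⟨u₀, hu₀, hpu₀⟩ ⟨u, rfl⟩
  -- `u 1` is `N`-fixed
  have hu1 : dOne ρ u (1, 1) = u 1 := by simp
  have hfix1 : FixedBy ρ N (u 1) := by
    have := hφ2 (1, 1)
    rwa [hu1] at this
  have hN11 : ∀ s ∈ N, ∀ s' ∈ N, dOne ρ u (s, s') = u 1 := fun s hs s' hs' => by
    have := hφ1 1 1 s s' hs hs'
    rw [one_mul, one_mul] at this
    rw [this, hu1]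
  -- `v = u - u 1` is a cocycle on `N`
  have hv : IsCocycleOn ρ N (fun g => u g - u 1) := fun s hs s' hs' => by
    have h1 := hN11 s hs s' hs'
    rw [dOne_apply] at h1
    have h2 : u (s * s') = ρ s (u s') + u s - u 1 := by
      rw [← h1]; abel
    simp only [h2, map_sub, hfix1 s hs]
    abel
  -- the global cocycle `w = p u - u₀`
  have hw : dOne ρ ((p : k) • u - u₀) = 0 := by
    rw [map_sub, map_smul, hpu₀, sub_self]
  have hwmul : ∀ g g', ((p : k) • u - u₀) (g * g') =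
      ρ g (((p : k) • u - u₀) g') + ((p : k) • u - u₀) g := fun g g' => by
    have := congrFun hw (g, g')
    rw [dOne_apply, Pi.zero_apply, sub_add_eq_add_sub, sub_eq_zero] at this
    exact this.symm
  have hw1 : ((p : k) • u - u₀) 1 = 0 := by
    have := hwmul 1 1
    rw [mul_one, map_one, Module.End.one_apply] at this
    exact left_eq_add.1 this
  have hwN : ∀ s ∈ N, ((p : k) • u - u₀) s = (p : k) • (u s - u 1) := fun s hs => by
    have h1 : u₀ s = u₀ 1 := by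
      have := hu₀.1 1 s hs
      rwa [one_mul] at this
    have h2 : (p : k) • u 1 = u₀ 1 := by
      have := hw1
      simp only [Pi.sub_apply, Pi.smul_apply] at this
      exact sub_eq_zero.1 this
    simp only [Pi.sub_apply, Pi.smul_apply, h1, smul_sub, h2]
  -- `#N = p ^ a * m` with `m` prime to `p`
  obtain ⟨a, m, hm, hcard⟩ := Nat.exists_eq_pow_mul_and_not_dvd
    (Fintype.card_ne_zero : Fintype.card N ≠ 0) p hp.ne_one
  have hcop : IsCoprime (m : ℤ) (p : ℤ) := by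
    rw [Int.isCoprime_iff_gcd_eq_one, Int.gcd_natCast_natCast, Nat.gcd_comm]
    exact (Nat.Prime.coprime_iff_not_dvd hp).2 hm
  obtain ⟨α, β, hαβ⟩ := hcop
  have hαβk : (α : k) * (m : k) + (β : k) * (p : k) = 1 := by
    have := congrArg (Int.cast : ℤ → k) hαβ
    simpa using this
  -- `m v` is a coboundary on `N`
  obtain ⟨x₂, hx₂⟩ : IsCoboundaryOn ρ N ((m : k) • fun g => u g - u 1) := by
    apply h.pow a (hv.smul _)
    have := hv.card_smul
    rwa [hcard, Nat.cast_mul, Nat.cast_pow, ← smul_smul] at this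
  -- the modified cochain
  have hd : dOne ρ (u - dZero ρ ((α : k) • x₂) - (β : k) • ((p : k) • u - u₀)) = dOne ρ u := by
    simp only [map_sub, map_smul, dOne_dZero, hw, smul_zero, sub_zero]
  have hN : ∀ s ∈ N, (u - dZero ρ ((α : k) • x₂) - (β : k) • ((p : k) • u - u₀)) s = u 1 :=
    fun s hs => by
    have h1 := hx₂ s hs
    simp only [Pi.smul_apply] at h1
    have h2 : u s - u 1 = (α : k) • ((m : k) • (u s - u 1)) + (β : k) • ((p : k) • (u s - u 1)) := by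
      rw [smul_smul, smul_smul, ← add_smul, hαβk, one_smul]
    have h3 : (u - dZero ρ ((α : k) • x₂) - (β : k) • ((p : k) • u - u₀)) s =
        u s - (ρ s ((α : k) • x₂) - (α : k) • x₂) - (β : k) • (((p : k) • u - u₀) s) := rfl
    rw [h3, hwN s hs, map_smul, ← smul_sub, ← h1, sub_sub, ← h2]
    abel
  have hN1 : (u - dZero ρ ((α : k) • x₂) - (β : k) • ((p : k) • u - u₀)) 1 = u 1 :=
    hN 1 N.one_mem
  refine ⟨_, isLevelAt₁_of_dOne (by rw [hd]; exact hφ1) (fun s hs => by rw [hN s hs, hN1]),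
    hd.symm⟩

end ByHand

/-! ### Assembly of `GlobalDuality20b.HypP` -/

/-- `INJ2p` at level `V` from "no `p`-torsion in `H¹(V/V'; X^{V'})`" for the normal `V' ≤ V` of
the basis. -/
theorem inj2pAt_of_noPTorsion {𝒰 : Set (Subgroup G)} (h𝒰 : IsLevelBasis 𝒰)
    (ρ : Representation k G X) (hρ : IsDiscrete 𝒰 ρ) (V : Subgroup G) [hVn : V.Normal]
    (hV : V ∈ 𝒰) {p : ℕ} (hp : p.Prime)
    (h : ∀ V' ∈ 𝒰, ∀ _ : V'.Normal, V' ≤ V →
      H1NoPTorsion (fixedRep V' ρ) (V.map (QuotientGroup.mk' V')) p) :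
    INJ2pAt ρ 𝒰 V p :=
  inj2pAt_of_fin h𝒰 ρ hρ V hV p (fun V' hV' hn hle => by
    have : V'.FiniteIndex := h𝒰.finiteIndex V' hV'
    have : (V.map (QuotientGroup.mk' V')).Normal :=
      hVn.map _ (QuotientGroup.mk'_surjective V')
    exact inj2pFin_of_noPTorsion hp (h V' hV' hn hle))

/-- `HypP` from its fields stated one subgroup at a time. -/
theorem hypP_of_at (D : Datum k G Y0 Y1 F0 F1 A X) {𝒰 ℱ : Set (Subgroup G)} {p : ℕ}
    (hsub : ℱ ⊆ 𝒰) (hnormal : ∀ V ∈ ℱ, V.Normal) (hcof : ∀ U ∈ 𝒰, ∃ V ∈ ℱ, V ≤ U)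
    (hTNl : ∀ V ∈ ℱ, TNlAt D V) (hTNr : ∀ V ∈ ℱ, TNrAt D V)
    (hINJ2p : ∀ V ∈ ℱ, INJ2pAt D.ρX 𝒰 V p)
    (hRECN : ∀ U ∈ ℱ, ∃ V ∈ ℱ, V ≤ U ∧ ∀ e, FixedBy D.ρY1 V e →
      ∃ n' : Y1, (∀ g, D.ρY1 g n' = n') ∧ nrm D.ρY1 V e = (p : k) • n')
    (hHpAt : ∀ V ∈ ℱ, ∀ (c : G → Y0) (y : Y1), IsHyperAt D V c y →
      ∃ y₀ : Y0, FixedBy D.ρY0 V y₀ ∧ (p : k) • c = dZero D.ρY0 y₀ ∧ (p : k) • y = D.f y₀) :
    HypP D 𝒰 ℱ p :=
  ⟨hsub, hnormal, hcof, hTNl, hTNr, hINJ2p, hRECN, hHpAt⟩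

/-- **Assembly**: `HypP` from the finite-group statements for the descended data `D^V` over
`G ⧸ V` (`V ∈ ℱ`), "no `p`-torsion in `H¹(V/V'; X^{V'})`", and the remaining inputs `RECN`,
`HpAt`.  (Use `finTNl_iff_TNlProp`, `finTNr_iff_TNrProp` to feed `IndResTransport20.TNlProp`.) -/
theorem hypP_of_descend (D : Datum k G Y0 Y1 F0 F1 A X) {𝒰 ℱ : Set (Subgroup G)} {p : ℕ}
    (h𝒰 : IsLevelBasis 𝒰) (hp : p.Prime) (hX : IsDiscrete 𝒰 D.ρX)
    (hsub : ℱ ⊆ 𝒰) (hnormal : ∀ V ∈ ℱ, V.Normal) (hcof : ∀ U ∈ 𝒰, ∃ V ∈ ℱ, V ≤ U)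
    (hπ : ∀ V ∈ ℱ, ∀ a, FixedBy D.ρA V a → ∃ x, FixedBy D.ρF0 V x ∧ D.π x = a)
    (hTNl : ∀ V (hV : V ∈ ℱ), haveI := hnormal V hV; FinTNl (descend D V (hπ V hV)))
    (hTNr : ∀ V (hV : V ∈ ℱ), haveI := hnormal V hV; FinTNr (descend D V (hπ V hV)))
    (hH1 : ∀ V ∈ ℱ, ∀ V' ∈ 𝒰, ∀ _ : V'.Normal, V' ≤ V →
      H1NoPTorsion (fixedRep V' D.ρX) (V.map (QuotientGroup.mk' V')) p)
    (hRECN : ∀ U ∈ ℱ, ∃ V ∈ ℱ, V ≤ U ∧ ∀ e, FixedBy D.ρY1 V e →
      ∃ n' : Y1, (∀ g, D.ρY1 g n' = n') ∧ nrm D.ρY1 V e = (p : k) • n')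
    (hHpAt : ∀ V ∈ ℱ, ∀ (c : G → Y0) (y : Y1), IsHyperAt D V c y →
      ∃ y₀ : Y0, FixedBy D.ρY0 V y₀ ∧ (p : k) • c = dZero D.ρY0 y₀ ∧ (p : k) • y = D.f y₀) :
    HypP D 𝒰 ℱ p :=
  hypP_of_at D hsub hnormal hcof
    (fun V hV => by
      have := hnormal V hV
      exact tnlAt_of_descend D V (hπ V hV) (hTNl V hV))
    (fun V hV => by
      have := hnormal V hV
      exact tnrAt_of_descend D V (hπ V hV) (hTNr V hV))
    (fun V hV => by
      have := hnormal V hV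
      exact inj2pAt_of_noPTorsion h𝒰 D.ρX hX V (hsub hV) hp (hH1 V hV))
    hRECN hHpAt

end Fermat.Agent.PT.PRO.HyperColimP18
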