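/-
Program F (S55, Poitou–Tate), chapter PRO, helper29: row 375 (PRO-P4) `HomCx`.

For `G`-modules `F₀, F₁, X` (plain `Representation k G _`, as in `HyperLevel25`) and an
equivariant map `ι : F₁ → F₀`, the two-term complex
  `Y_X = [Hom_k(F₀, X) --(· ∘ ι)--> Hom_k(F₁, X)]`
of `G`-modules (`G` acting by conjugation, `Representation.linHom`) as a `HyperLevel25.Cx`:

* `isDiscrete_linHom`  : `Hom_k(F, X)` is discrete if `F` is finitely generated and discrete and `X`
                          is discrete;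
* `homCx`              : the complex `Y_X`;
* `homCxMap`           : functoriality in `X`;
* `homCxMap_shortExact`: `0 → X' → X → X'' → 0` exact and `F₀, F₁` projective ⇒
                          `0 → Y_{X'} → Y_X → Y_{X''} → 0` is termwise short exact
                          (so `HyperLevel25.Cx.Hom.δ` and the four exactness statements apply);
* `smul_ℍ1_eq_zero`, `smul_ℍ2_eq_zero` : an equivariant `s : Y¹ → Y⁰` with `s f = a`, `f s = a`
                          makes `a` kill `ℍ¹`, `ℍ²` of any `Cx`;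
* `exists_homotopy`, `homotopy_equivariant` : `ι` injective, `a F₀ ⊆ ι F₁` ⇒ `h : F₀ → F₁`,
                          `ι h = a`, `h ι = a`, equivariant;
* `smul_ℍ1_homCx_eq_zero`, `smul_ℍ2_homCx_eq_zero` : hence `a` kills `ℍ^r(Y_X)`;
* `lcomp_surjective`   : `X` `a`-divisible, `F₁` projective ⇒ `f_X` surjective;
* `lcomp_injective`    : `a` injective on `X` ⇒ `f_X` injective (so bijective if uniquely divisible);
* `kerLcompEquiv`      : `ker f_X ≃ Hom(A, X)` for `A = coker ι`, equivariant;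
* `homDatum`           : the `Pairing20.Datum` with `ev = ` evaluation.
-/
import Mathlib
import Fermat.Agent.PT.PRO.HyperLevel25
import Fermat.Agent.PT.PRO.Pairing20

set_option autoImplicit false

namespace Fermat.Agent.PT.PRO.HomCx29

open Fermat.Agent.PT.PRO.HyperLevel25 Function

variable {k : Type*} [CommRing k] {G : Type*} [Group G]

/-! ### Discreteness of `Hom(F, X)` -/

section Discrete

variable {F X : Type*} [AddCommGroup F] [Module k F] [AddCommGroup X] [Module k X]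
variable {𝒰 : Set (Subgroup G)}

/-- `Hom_k(F, X)` with the conjugation action is discrete if `F` is finitely generated and
discrete and `X` is discrete. -/
theorem isDiscrete_linHom (h𝒰 : IsLevelBasis 𝒰) (ρF : Representation k G F)
    (ρX : Representation k G X) [Module.Finite k F] (hF : IsDiscrete 𝒰 ρF)
    (hX : IsDiscrete 𝒰 ρX) : IsDiscrete 𝒰 (Representation.linHom ρF ρX) := by
  intro φ
  obtain ⟨s, hs⟩ := (Module.finite_def (R := k) (M := F)).1 inferInstance
  choose U hU hUfix using hF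
  choose V hV hVfix using hX
  obtain ⟨W, hW, hWle⟩ := h𝒰.exists_le_of_finite
    (fun b : Bool × ↥s => if b.1 then U b.2.1 else V (φ b.2.1))
    (fun b => by
      rcases b with ⟨_ | _, x⟩
      · exact hV _
      · exact hU _)
  refine ⟨W, hW, fun g hg => ?_⟩
  apply LinearMap.ext_on hs
  intro x hx
  have h1 : g⁻¹ ∈ U x := by
    have := hWle (true, ⟨x, hx⟩) (W.inv_mem hg)
    simpa using this
  have h2 : g ∈ V (φ x) := by
    have := hWle (false, ⟨x, hx⟩) hg
    simpa using this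
  rw [Representation.linHom_apply]
  simp only [LinearMap.comp_apply]
  rw [hUfix x g⁻¹ h1, hVfix (φ x) g h2]

end Discrete

/-! ### The complex `Hom(F₀, X) → Hom(F₁, X)` -/

section Complex

variable {F0 F1 X : Type*} [AddCommGroup F0] [Module k F0] [AddCommGroup F1] [Module k F1]
  [AddCommGroup X] [Module k X]
variable {𝒰 : Set (Subgroup G)}

/-- The complex `Y_X = [Hom(F₀, X) → Hom(F₁, X)]`, `φ ↦ φ ∘ ι`. -/
def homCx (h𝒰 : IsLevelBasis 𝒰) (ρ0 : Representation k G F0) (ρ1 : Representation k G F1)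
    (ρX : Representation k G X) (ι : F1 →ₗ[k] F0) (hι : ∀ g x, ι (ρ1 g x) = ρ0 g (ι x))
    [Module.Finite k F0] [Module.Finite k F1] (h0 : IsDiscrete 𝒰 ρ0) (h1 : IsDiscrete 𝒰 ρ1)
    (hX : IsDiscrete 𝒰 ρX) : Cx k 𝒰 (F0 →ₗ[k] X) (F1 →ₗ[k] X) where
  ρ0 := Representation.linHom ρ0 ρX
  ρ1 := Representation.linHom ρ1 ρX
  f := LinearMap.lcomp k X ι
  comm g φ := by
    ext x
    simp only [LinearMap.lcomp_apply', Representation.linHom_apply, LinearMap.comp_apply, hι]
  disc0 := isDiscrete_linHom h𝒰 ρ0 ρX h0 hX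
  disc1 := isDiscrete_linHom h𝒰 ρ1 ρX h1 hX

variable (h𝒰 : IsLevelBasis 𝒰) (ρ0 : Representation k G F0) (ρ1 : Representation k G F1)
  (ρX : Representation k G X) (ι : F1 →ₗ[k] F0) (hι : ∀ g x, ι (ρ1 g x) = ρ0 g (ι x))
  [Module.Finite k F0] [Module.Finite k F1] (h0 : IsDiscrete 𝒰 ρ0) (h1 : IsDiscrete 𝒰 ρ1)
  (hX : IsDiscrete 𝒰 ρX)

@[simp] theorem homCx_ρ0 :
    (homCx h𝒰 ρ0 ρ1 ρX ι hι h0 h1 hX).ρ0 = Representation.linHom ρ0 ρX := rfl

@[simp] theorem homCx_ρ1 :
    (homCx h𝒰 ρ0 ρ1 ρX ι hι h0 h1 hX).ρ1 = Representation.linHom ρ1 ρX := rfl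

@[simp] theorem homCx_f_apply (φ : F0 →ₗ[k] X) :
    (homCx h𝒰 ρ0 ρ1 ρX ι hι h0 h1 hX).f φ = φ ∘ₗ ι := rfl

end Complex

/-! ### Functoriality and exactness in `X` -/

section Functorial

variable {F0 F1 X X' X'' : Type*} [AddCommGroup F0] [Module k F0] [AddCommGroup F1] [Module k F1]
  [AddCommGroup X] [Module k X] [AddCommGroup X'] [Module k X'] [AddCommGroup X''] [Module k X'']
variable {𝒰 : Set (Subgroup G)}
variable (h𝒰 : IsLevelBasis 𝒰) (ρ0 : Representation k G F0) (ρ1 : Representation k G F1)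
  (ι : F1 →ₗ[k] F0) (hι : ∀ g x, ι (ρ1 g x) = ρ0 g (ι x))
  [Module.Finite k F0] [Module.Finite k F1] (h0 : IsDiscrete 𝒰 ρ0) (h1 : IsDiscrete 𝒰 ρ1)
variable {ρX : Representation k G X} {ρX' : Representation k G X'}
  {ρX'' : Representation k G X''}
  (hX : IsDiscrete 𝒰 ρX) (hX' : IsDiscrete 𝒰 ρX') (hX'' : IsDiscrete 𝒰 ρX'')

/-- An equivariant map `α : X → X'` induces a morphism `Y_X → Y_{X'}`, `φ ↦ α ∘ φ`. -/
def homCxMap (α : X →ₗ[k] X') (hα : ∀ g x, α (ρX g x) = ρX' g (α x)) :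
    Cx.Hom (homCx h𝒰 ρ0 ρ1 ρX ι hι h0 h1 hX) (homCx h𝒰 ρ0 ρ1 ρX' ι hι h0 h1 hX') where
  φ0 := LinearMap.compRight k α
  φ1 := LinearMap.compRight k α
  comm0 g φ := by
    ext x
    simp only [LinearMap.compRight_apply, homCx_ρ0, Representation.linHom_apply,
      LinearMap.comp_apply, hα]
  comm1 g φ := by
    ext x
    simp only [LinearMap.compRight_apply, homCx_ρ1, Representation.linHom_apply,
      LinearMap.comp_apply, hα]
  commf φ := by
    ext x
    simp only [LinearMap.compRight_apply, homCx_f_apply, LinearMap.comp_apply]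

@[simp] theorem homCxMap_φ0_apply (α : X →ₗ[k] X') (hα : ∀ g x, α (ρX g x) = ρX' g (α x))
    (φ : F0 →ₗ[k] X) : (homCxMap h𝒰 ρ0 ρ1 ι hι h0 h1 hX hX' α hα).φ0 φ = α ∘ₗ φ := rfl

@[simp] theorem homCxMap_φ1_apply (α : X →ₗ[k] X') (hα : ∀ g x, α (ρX g x) = ρX' g (α x))
    (φ : F1 →ₗ[k] X) : (homCxMap h𝒰 ρ0 ρ1 ι hι h0 h1 hX hX' α hα).φ1 φ = α ∘ₗ φ := rfl

/-- Post-composition with an injective map is injective on `Hom(F, -)`. -/
theorem compRight_injective {F : Type*} [AddCommGroup F] [Module k F] (α : X' →ₗ[k] X)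
    (hα : Injective α) : Injective (LinearMap.compRight k (M := F) α) := by
  intro φ ψ h
  ext x
  apply hα
  exact LinearMap.congr_fun h x

/-- Post-composition with a surjective map is surjective on `Hom(F, -)` for projective `F`. -/
theorem compRight_surjective {F : Type*} [AddCommGroup F] [Module k F] [Module.Projective k F]
    (β : X →ₗ[k] X'') (hβ : Surjective β) : Surjective (LinearMap.compRight k (M := F) β) := by
  intro φ
  obtain ⟨ψ, hψ⟩ := Module.projective_lifting_property β φ hβ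
  exact ⟨ψ, hψ⟩

/-- `Hom(F, -)` is exact in the middle (no hypothesis on `F`) when the first map is injective. -/
theorem compRight_exact {F : Type*} [AddCommGroup F] [Module k F] (α : X' →ₗ[k] X)
    (β : X →ₗ[k] X'') (hα : Injective α) (hex : Function.Exact α β) :
    Function.Exact (LinearMap.compRight k (M := F) α) (LinearMap.compRight k (M := F) β) := by
  intro φ
  constructor
  · intro h
    have hmem : ∀ x, φ x ∈ LinearMap.range α := fun x =>
      (hex (φ x)).1 (LinearMap.congr_fun h x)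
    refine ⟨(LinearEquiv.ofInjective α hα).symm.toLinearMap ∘ₗ
      φ.codRestrict (LinearMap.range α) hmem, ?_⟩
    ext x
    simp only [LinearMap.compRight_apply, LinearMap.comp_apply, LinearEquiv.coe_coe]
    have := (LinearEquiv.ofInjective α hα).apply_symm_apply (φ.codRestrict _ hmem x)
    exact congrArg Subtype.val this
  · rintro ⟨ψ, rfl⟩
    ext x
    simp only [LinearMap.compRight_apply, LinearMap.comp_apply, LinearMap.zero_apply]
    exact (hex _).2 ⟨_, rfl⟩

/-- A short exact sequence `0 → X' → X → X'' → 0` of discrete modules induces a termwise short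
exact sequence `0 → Y_{X'} → Y_X → Y_{X''} → 0` if `F₀`, `F₁` are projective. -/
theorem homCxMap_shortExact [Module.Projective k F0] [Module.Projective k F1]
    (α : X' →ₗ[k] X) (hα : ∀ g x, α (ρX' g x) = ρX g (α x))
    (β : X →ₗ[k] X'') (hβ : ∀ g x, β (ρX g x) = ρX'' g (β x))
    (hinj : Injective α) (hsurj : Surjective β) (hex : Function.Exact α β) :
    Cx.Hom.ShortExact (homCxMap h𝒰 ρ0 ρ1 ι hι h0 h1 hX' hX α hα)
      (homCxMap h𝒰 ρ0 ρ1 ι hι h0 h1 hX hX'' β hβ) where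
  inj0 := compRight_injective α hinj
  inj1 := compRight_injective α hinj
  surj0 := compRight_surjective β hsurj
  surj1 := compRight_surjective β hsurj
  exact0 := compRight_exact α β hinj hex
  exact1 := compRight_exact α β hinj hex

end Functorial

/-! ### A null-homotopy kills hypercohomology -/

section Homotopy

variable {Y0 Y1 : Type*} [AddCommGroup Y0] [Module k Y0] [AddCommGroup Y1] [Module k Y1]
variable {𝒰 : Set (Subgroup G)} (Y : Cx k 𝒰 Y0 Y1) (h𝒰 : IsLevelBasis 𝒰)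

/-- If `s : Y¹ → Y⁰` is equivariant with `s ∘ f = a` and `f ∘ s = a`, then `a` kills `ℍ¹`. -/
theorem smul_ℍ1_eq_zero (a : k) (s : Y1 →ₗ[k] Y0) (hs : ∀ g y, s (Y.ρ1 g y) = Y.ρ0 g (s y))
    (h1 : ∀ y, s (Y.f y) = a • y) (h2 : ∀ y, Y.f (s y) = a • y) (x : Y.ℍ1 h𝒰) : a • x = 0 := by
  obtain ⟨z, rfl⟩ := (Y.tot h𝒰).π1_surjective x
  rw [← map_smul, Cpx.π1_eq_zero_iff]
  obtain ⟨-, hz⟩ := (Y.mem_Z1_iff h𝒰 z.1).1 z.2
  refine ⟨s z.1.1.2, ?_⟩
  apply Subtype.ext
  show Y.D0 (s z.1.1.2) = a • z.1.1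
  rw [Cx.D0_apply, ← comp_dZero Y.ρ1 Y.ρ0 s hs, ← hz, h2]
  refine Prod.ext ?_ rfl
  funext g
  simp only [Function.comp_apply, h1]
  rfl

/-- If `s : Y¹ → Y⁰` is equivariant with `s ∘ f = a` and `f ∘ s = a`, then `a` kills `ℍ²`. -/
theorem smul_ℍ2_eq_zero (a : k) (s : Y1 →ₗ[k] Y0) (hs : ∀ g y, s (Y.ρ1 g y) = Y.ρ0 g (s y))
    (h1 : ∀ y, s (Y.f y) = a • y) (h2 : ∀ y, Y.f (s y) = a • y) (x : Y.ℍ2 h𝒰) : a • x = 0 := by
  obtain ⟨z, rfl⟩ := (Y.tot h𝒰).π2_surjective x
  rw [← map_smul, Cpx.π2_eq_zero_iff]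
  obtain ⟨-, hz⟩ := (Y.mem_Z2_iff h𝒰 z.1).1 z.2
  have hlev : IsLevel₁ 𝒰 z.1.1.2 := ((mem_K2lev h𝒰 _).1 z.1.2).2
  refine ⟨⟨(⇑s ∘ z.1.1.2, 0), (mem_K1lev h𝒰 _).2 (hlev.comp s)⟩, ?_⟩
  apply Subtype.ext
  show Y.D1 (⇑s ∘ z.1.1.2, 0) = a • z.1.1
  rw [Cx.D1_apply]
  simp only [map_zero, sub_zero]
  rw [← comp_dOne Y.ρ1 Y.ρ0 s hs, ← hz]
  refine Prod.ext ?_ ?_
  · funext q
    simp only [Function.comp_apply, h1]
    rfl
  · funext g
    simp only [Function.comp_apply, h2]
    rfl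

end Homotopy

/-! ### The divisible case; `a` kills `ℍ^r(Y_X)` -/

section Divisible

variable {F0 F1 A X : Type*} [AddCommGroup F0] [Module k F0] [AddCommGroup F1] [Module k F1]
  [AddCommGroup A] [Module k A] [AddCommGroup X] [Module k X]

/-- If `a • F₀ ⊆ ι F₁` and `ι` is injective, there is `h : F₀ → F₁` with `ι ∘ h = a`. -/
theorem exists_homotopy (ι : F1 →ₗ[k] F0) (hinj : Injective ι) (a : k)
    (ha : ∀ x : F0, a • x ∈ LinearMap.range ι) :
    ∃ h : F0 →ₗ[k] F1, (∀ x, ι (h x) = a • x) ∧ ∀ y, h (ι y) = a • y := by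
  let h : F0 →ₗ[k] F1 := (LinearEquiv.ofInjective ι hinj).symm.toLinearMap ∘ₗ
    (LinearMap.lsmul k F0 a).codRestrict (LinearMap.range ι) ha
  have h1 : ∀ x, ι (h x) = a • x := by
    intro x
    have := (LinearEquiv.ofInjective ι hinj).apply_symm_apply
      ((LinearMap.lsmul k F0 a).codRestrict (LinearMap.range ι) ha x)
    exact congrArg Subtype.val this
  refine ⟨h, h1, fun y => hinj ?_⟩
  rw [h1, map_smul]

/-- The homotopy is automatically equivariant. -/
theorem homotopy_equivariant {ρ0 : Representation k G F0} {ρ1 : Representation k G F1}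
    (ι : F1 →ₗ[k] F0) (hι : ∀ g x, ι (ρ1 g x) = ρ0 g (ι x)) (hinj : Injective ι) (a : k)
    (h : F0 →ₗ[k] F1) (h1 : ∀ x, ι (h x) = a • x) (g : G) (x : F0) :
    h (ρ0 g x) = ρ1 g (h x) := by
  apply hinj
  rw [h1, hι, h1, map_smul]

/-- `X` `a`-divisible, `F₁` projective, `h ∘ ι = a` ⇒ restriction `Hom(F₀, X) → Hom(F₁, X)` is
surjective. -/
theorem lcomp_surjective [Module.Projective k F1] (ι : F1 →ₗ[k] F0) (a : k) (h : F0 →ₗ[k] F1)
    (h2 : ∀ y, h (ι y) = a • y) (hdiv : ∀ x : X, ∃ y : X, a • y = x) :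
    Surjective (LinearMap.lcomp k X ι) := by
  intro ψ
  obtain ⟨ψ', hψ'⟩ := Module.projective_lifting_property (LinearMap.lsmul k X a) ψ hdiv
  refine ⟨ψ' ∘ₗ h, ?_⟩
  ext y
  simp only [LinearMap.lcomp_apply', LinearMap.comp_apply, h2, map_smul]
  exact LinearMap.congr_fun hψ' y

/-- `a` injective on `X`, `ι ∘ h = a` ⇒ restriction `Hom(F₀, X) → Hom(F₁, X)` is injective. -/
theorem lcomp_injective (ι : F1 →ₗ[k] F0) (a : k) (h : F0 →ₗ[k] F1)
    (h1 : ∀ x, ι (h x) = a • x) (htf : ∀ x : X, a • x = 0 → x = 0) :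
    Injective (LinearMap.lcomp k X ι) := by
  rw [← LinearMap.ker_eq_bot, LinearMap.ker_eq_bot']
  intro φ hφ
  ext x
  apply htf
  rw [← map_smul, ← h1]
  exact LinearMap.congr_fun hφ (h x)

/-- The kernel of restriction `Hom(F₀, X) → Hom(F₁, X)` is `Hom(A, X)`, `A = coker ι`. -/
noncomputable def kerLcompEquiv (ι : F1 →ₗ[k] F0) (π : F0 →ₗ[k] A) (hπ : Surjective π)
    (hex : Function.Exact ι π) :
    (A →ₗ[k] X) ≃ₗ[k] ↥(LinearMap.ker (LinearMap.lcomp k X ι)) where
  toFun ν := ⟨ν ∘ₗ π, by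
    rw [LinearMap.mem_ker]
    ext y
    simp only [LinearMap.lcomp_apply', LinearMap.comp_apply, LinearMap.zero_apply]
    rw [(hex (ι y)).2 ⟨y, rfl⟩, map_zero]⟩
  map_add' ν ν' := by
    apply Subtype.ext
    exact LinearMap.add_comp _ _ _
  map_smul' c ν := by
    apply Subtype.ext
    exact LinearMap.smul_comp _ _ _
  invFun φ := (LinearMap.ker π).liftQ φ.1 (by
      intro x hx
      obtain ⟨y, rfl⟩ := (hex x).1 hx
      exact LinearMap.congr_fun φ.2 y) ∘ₗ (π.quotKerEquivOfSurjective hπ).symm.toLinearMap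
  left_inv ν := by
    ext a
    obtain ⟨x, rfl⟩ := hπ a
    simp only [LinearMap.comp_apply, LinearEquiv.coe_coe]
    have : (π.quotKerEquivOfSurjective hπ).symm (π x) = Submodule.Quotient.mk x := by
      rw [LinearEquiv.symm_apply_eq]
      rfl
    rw [this]
    rfl
  right_inv φ := by
    apply Subtype.ext
    ext x
    simp only [LinearMap.comp_apply, LinearEquiv.coe_coe]
    have : (π.quotKerEquivOfSurjective hπ).symm (π x) = Submodule.Quotient.mk x := by
      rw [LinearEquiv.symm_apply_eq]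
      rfl
    rw [this]
    rfl

@[simp] theorem coe_kerLcompEquiv_apply (ι : F1 →ₗ[k] F0) (π : F0 →ₗ[k] A) (hπ : Surjective π)
    (hex : Function.Exact ι π) (ν : A →ₗ[k] X) :
    ((kerLcompEquiv (X := X) ι π hπ hex ν : ↥(LinearMap.ker (LinearMap.lcomp k X ι))) :
      F0 →ₗ[k] X) = ν ∘ₗ π := rfl

/-- `kerLcompEquiv` is equivariant for the conjugation actions. -/
theorem kerLcompEquiv_equivariant {ρ0 : Representation k G F0} {ρA : Representation k G A}
    (ρX : Representation k G X) (ι : F1 →ₗ[k] F0) (π : F0 →ₗ[k] A) (hπ : Surjective π)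
    (hex : Function.Exact ι π) (hπc : ∀ g x, π (ρ0 g x) = ρA g (π x)) (g : G) (ν : A →ₗ[k] X) :
    ((kerLcompEquiv (X := X) ι π hπ hex (Representation.linHom ρA ρX g ν) :
      ↥(LinearMap.ker (LinearMap.lcomp k X ι))) : F0 →ₗ[k] X) =
      Representation.linHom ρ0 ρX g (kerLcompEquiv (X := X) ι π hπ hex ν).1 := by
  ext x
  simp only [coe_kerLcompEquiv_apply, Representation.linHom_apply, LinearMap.comp_apply, hπc]

variable {𝒰 : Set (Subgroup G)} (h𝒰 : IsLevelBasis 𝒰)
  (ρ0 : Representation k G F0) (ρ1 : Representation k G F1)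
  (ρX : Representation k G X) (ι : F1 →ₗ[k] F0) (hι : ∀ g x, ι (ρ1 g x) = ρ0 g (ι x))
  [Module.Finite k F0] [Module.Finite k F1] (h0 : IsDiscrete 𝒰 ρ0) (h1 : IsDiscrete 𝒰 ρ1)
  (hX : IsDiscrete 𝒰 ρX)

/-- `a` kills `ℍ¹(Y_X)` if `ι` is injective and `a F₀ ⊆ ι F₁`. -/
theorem smul_ℍ1_homCx_eq_zero (hinj : Injective ι) (a : k)
    (ha : ∀ x : F0, a • x ∈ LinearMap.range ι)
    (x : (homCx h𝒰 ρ0 ρ1 ρX ι hι h0 h1 hX).ℍ1 h𝒰) : a • x = 0 := by
  obtain ⟨h, e1, e2⟩ := exists_homotopy ι hinj a ha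
  have he := homotopy_equivariant ι hι hinj a h e1
  refine smul_ℍ1_eq_zero _ h𝒰 a (LinearMap.lcomp k X h) ?_ ?_ ?_ x
  · intro g ψ
    ext y
    simp only [LinearMap.lcomp_apply', homCx_ρ0, homCx_ρ1, Representation.linHom_apply,
      LinearMap.comp_apply, he]
  · intro φ
    ext y
    simp only [homCx_f_apply, LinearMap.lcomp_apply', LinearMap.comp_apply, e1, map_smul,
      LinearMap.smul_apply]
  · intro ψ
    ext y
    simp only [homCx_f_apply, LinearMap.lcomp_apply', LinearMap.comp_apply, e2, map_smul,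
      LinearMap.smul_apply]

/-- `a` kills `ℍ²(Y_X)` if `ι` is injective and `a F₀ ⊆ ι F₁`. -/
theorem smul_ℍ2_homCx_eq_zero (hinj : Injective ι) (a : k)
    (ha : ∀ x : F0, a • x ∈ LinearMap.range ι)
    (x : (homCx h𝒰 ρ0 ρ1 ρX ι hι h0 h1 hX).ℍ2 h𝒰) : a • x = 0 := by
  obtain ⟨h, e1, e2⟩ := exists_homotopy ι hinj a ha
  have he := homotopy_equivariant ι hι hinj a h e1
  refine smul_ℍ2_eq_zero _ h𝒰 a (LinearMap.lcomp k X h) ?_ ?_ ?_ x
  · intro g ψ
    ext y
    simp only [LinearMap.lcomp_apply', homCx_ρ0, homCx_ρ1, Representation.linHom_apply,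
      LinearMap.comp_apply, he]
  · intro φ
    ext y
    simp only [homCx_f_apply, LinearMap.lcomp_apply', LinearMap.comp_apply, e1, map_smul,
      LinearMap.smul_apply]
  · intro ψ
    ext y
    simp only [homCx_f_apply, LinearMap.lcomp_apply', LinearMap.comp_apply, e2, map_smul,
      LinearMap.smul_apply]

end Divisible

/-! ### The pairing datum -/

section Datum

variable {F0 F1 A X : Type*} [AddCommGroup F0] [Module k F0] [AddCommGroup F1] [Module k F1]
  [AddCommGroup A] [Module k A] [AddCommGroup X] [Module k X]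

/-- The `Pairing20.Datum` of a resolution `0 → F₁ → F₀ → A → 0` and a module `X`, with
`Y^i = Hom(F_i, X)` and `ev` = evaluation. -/
def homDatum (ρ0 : Representation k G F0) (ρ1 : Representation k G F1)
    (ρA : Representation k G A) (ρX : Representation k G X)
    (ι : F1 →ₗ[k] F0) (hι : ∀ g x, ι (ρ1 g x) = ρ0 g (ι x)) (hinj : Injective ι)
    (π : F0 →ₗ[k] A) (hπc : ∀ g x, π (ρ0 g x) = ρA g (π x)) (hπ : Surjective π)
    (hex : Function.Exact ι π) :
    Pairing20.Datum k G (F0 →ₗ[k] X) (F1 →ₗ[k] X) F0 F1 A X where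
  ρY0 := Representation.linHom ρ0 ρX
  ρY1 := Representation.linHom ρ1 ρX
  ρF0 := ρ0
  ρF1 := ρ1
  ρA := ρA
  ρX := ρX
  f := LinearMap.lcomp k X ι
  f_comm g φ := by
    ext x
    simp only [LinearMap.lcomp_apply', Representation.linHom_apply, LinearMap.comp_apply, hι]
  ι := ι
  ι_comm := hι
  ι_inj := hinj
  π := π
  π_comm := hπc
  π_surj := hπ
  exact x := by
    rw [hex x]
    rfl
  ev0 := LinearMap.id
  ev1 := LinearMap.id
  ev0_comm g y x := by
    simp only [LinearMap.id_apply, Representation.linHom_apply, LinearMap.comp_apply]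
    rw [← Module.End.mul_apply, ← map_mul, inv_mul_cancel, map_one, Module.End.one_apply]
  ev1_comm g y x := by
    simp only [LinearMap.id_apply, Representation.linHom_apply, LinearMap.comp_apply]
    rw [← Module.End.mul_apply, ← map_mul, inv_mul_cancel, map_one, Module.End.one_apply]
  ev_compat y x := rfl

end Datum

end Fermat.Agent.PT.PRO.HomCx29
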