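/-
Program F (S55, Poitou–Tate), chapter PRO, helper29: row 375 (PRO-P4), part 2: the canonical
resolution `0 → F₁ → k[A] → A → 0` of a `G`-module `A` (plain `Representation k G A`):

* `freeRep ρA`     : `F₀ = k[A] = (A →₀ k)`, `G` permuting the basis through `ρA`;
* `aug`            : `π : k[A] → A`, `∑ cᵢ [aᵢ] ↦ ∑ cᵢ aᵢ`, surjective, equivariant;
* `Rel`, `relRep`   : `F₁ = ker π` with the restricted action; `relIncl : F₁ → F₀` injective,
                      equivariant, `Function.Exact relIncl aug`;
* `smul_mem_relSub`: if `a • A = 0` then `a • F₀ ⊆ F₁`;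
* finiteness/freeness: `F₀` is free, finite if `A` is finite; over a PID `F₁` is finite free
                      (instances found by Mathlib);
* discreteness     : `isDiscrete_freeRep`, `isDiscrete_relRep` if `A` is discrete;
* `resCx`          : the complex `Y_X = [Hom(k[A], X) → Hom(F₁, X)]` (`HomCx29.homCx`) and
  `resDatum`       : the corresponding `Pairing20.Datum`.
-/
import Mathlib
import Fermat.Agent.PT.PRO.HyperLevel25
import Fermat.Agent.PT.PRO.Pairing20
import Fermat.Agent.PT.PRO.HomCx29

set_option autoImplicit false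

namespace Fermat.Agent.PT.PRO.FreeRes29

open Fermat.Agent.PT.PRO.HyperLevel25 Function

variable {k : Type*} [CommRing k] {G : Type*} [Group G]
variable {A : Type*} [AddCommGroup A] [Module k A]

/-! ### `k[A]` and the augmentation -/

/-- `k[A] = (A →₀ k)` with `G` permuting the basis vectors `[a]` through `ρA`. -/
noncomputable def freeRep (ρA : Representation k G A) : Representation k G (A →₀ k) where
  toFun g := Finsupp.lmapDomain k k (ρA g)
  map_one' := by
    rw [map_one]
    exact Finsupp.lmapDomain_id k k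
  map_mul' g h := by
    rw [map_mul]
    exact Finsupp.lmapDomain_comp k k (ρA h) (ρA g)

@[simp] theorem freeRep_single (ρA : Representation k G A) (g : G) (a : A) (c : k) :
    freeRep ρA g (Finsupp.single a c) = Finsupp.single (ρA g a) c := by
  show Finsupp.mapDomain (ρA g) (Finsupp.single a c) = _
  exact Finsupp.mapDomain_single

variable (k A) in
/-- The augmentation `π : k[A] → A`, `[a] ↦ a`. -/
noncomputable def aug : (A →₀ k) →ₗ[k] A := Finsupp.linearCombination k (id : A → A)

@[simp] theorem aug_single (a : A) (c : k) : aug k A (Finsupp.single a c) = c • a := by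
  rw [aug, Finsupp.linearCombination_single]
  rfl

theorem aug_surjective : Surjective (aug k A) :=
  Finsupp.linearCombination_id_surjective k A

theorem aug_freeRep (ρA : Representation k G A) (g : G) (x : A →₀ k) :
    aug k A (freeRep ρA g x) = ρA g (aug k A x) := by
  induction x using Finsupp.induction_linear with
  | zero => simp
  | add x y hx hy => rw [map_add, map_add, hx, hy, map_add, map_add]
  | single a c => rw [freeRep_single, aug_single, aug_single, map_smul]

/-! ### The module of relations `F₁ = ker π` -/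

variable (k A) in
/-- `ker (k[A] → A)` as a submodule. -/
noncomputable def relSub : Submodule k (A →₀ k) := LinearMap.ker (aug k A)

theorem mem_relSub_iff (x : A →₀ k) : x ∈ relSub k A ↔ aug k A x = 0 := LinearMap.mem_ker

theorem freeRep_mem_relSub (ρA : Representation k G A) (g : G) {x : A →₀ k}
    (hx : x ∈ relSub k A) : freeRep ρA g x ∈ relSub k A := by
  rw [mem_relSub_iff] at hx ⊢
  rw [aug_freeRep, hx, map_zero]

variable (k A) in
/-- `F₁ = ker (k[A] → A)` as a type of its own (so that instance search never has to look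
through the `Submodule` coercion). -/
def Rel : Type _ := ↥(relSub k A)

noncomputable instance : AddCommGroup (Rel k A) := Submodule.addCommGroup _

noncomputable instance : Module k (Rel k A) := Submodule.module _

variable (k A) in
/-- The inclusion `ι : F₁ → F₀`. -/
noncomputable def relIncl : Rel k A →ₗ[k] (A →₀ k) := (relSub k A).subtype

theorem relIncl_injective : Injective (relIncl k A) := Subtype.val_injective

theorem aug_relIncl (x : Rel k A) : aug k A (relIncl k A x) = 0 := (mem_relSub_iff _).1 x.2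

/-- Elements of `F₁` from elements of `k[A]` killed by `π`. -/
def Rel.mk (x : A →₀ k) (hx : aug k A x = 0) : Rel k A := ⟨x, (mem_relSub_iff x).2 hx⟩

@[simp] theorem relIncl_mk (x : A →₀ k) (hx : aug k A x = 0) :
    relIncl k A (Rel.mk x hx) = x := rfl

/-- The action of `G` on `F₁`. -/
noncomputable def relRep (ρA : Representation k G A) : Representation k G (Rel k A) where
  toFun g := (freeRep ρA g).restrict fun _ hx => freeRep_mem_relSub ρA g hx
  map_one' := by
    apply LinearMap.ext
    intro x
    apply relIncl_injective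
    show freeRep ρA 1 (relIncl k A x) = relIncl k A x
    rw [map_one, Module.End.one_apply]
  map_mul' g h := by
    apply LinearMap.ext
    intro x
    apply relIncl_injective
    show freeRep ρA (g * h) (relIncl k A x) = freeRep ρA g (freeRep ρA h (relIncl k A x))
    rw [map_mul, Module.End.mul_apply]

theorem relIncl_relRep (ρA : Representation k G A) (g : G) (x : Rel k A) :
    relIncl k A (relRep ρA g x) = freeRep ρA g (relIncl k A x) := rfl

theorem exact_relIncl_aug : Function.Exact (relIncl k A) (aug k A) := by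
  intro x
  constructor
  · intro hx
    exact ⟨Rel.mk x hx, rfl⟩
  · rintro ⟨y, rfl⟩
    exact aug_relIncl y

/-- If `a` kills `A` then `a • k[A] ⊆ F₁`. -/
theorem smul_mem_range_relIncl (a : k) (ha : ∀ x : A, a • x = 0) (x : A →₀ k) :
    a • x ∈ LinearMap.range (relIncl k A) :=
  ⟨Rel.mk (a • x) (by rw [map_smul, ha]), rfl⟩

noncomputable instance [Finite A] [IsNoetherianRing k] : Module.Finite k (Rel k A) :=
  inferInstanceAs (Module.Finite k ↥(relSub k A))

instance : Module.IsTorsionFree k (Rel k A) :=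
  Function.Injective.moduleIsTorsionFree (relIncl k A) relIncl_injective
    (fun r m => map_smul (relIncl k A) r m)

noncomputable instance [Finite A] [IsDomain k] [IsPrincipalIdealRing k] :
    Module.Free k (Rel k A) :=
  Module.free_of_finite_type_torsion_free'

/-! ### Discreteness -/

section Discrete

variable {𝒰 : Set (Subgroup G)}

/-- `k[A]` is discrete if `A` is. -/
theorem isDiscrete_freeRep (h𝒰 : IsLevelBasis 𝒰) {ρA : Representation k G A}
    (hA : IsDiscrete 𝒰 ρA) : IsDiscrete 𝒰 (freeRep ρA) := by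
  intro x
  induction x using Finsupp.induction_linear with
  | zero =>
    obtain ⟨U, hU⟩ := h𝒰.nonempty
    exact ⟨U, hU, fun s _ => map_zero _⟩
  | add x y hx hy =>
    obtain ⟨U, hU, hUx⟩ := hx
    obtain ⟨V, hV, hVy⟩ := hy
    obtain ⟨W, hW, hWle⟩ := h𝒰.inf U hU V hV
    exact ⟨W, hW, fun s hs => by rw [map_add, hUx s (hWle hs).1, hVy s (hWle hs).2]⟩
  | single a c =>
    obtain ⟨U, hU, hUa⟩ := hA a
    exact ⟨U, hU, fun s hs => by rw [freeRep_single, hUa s hs]⟩

/-- `F₁` is discrete if `A` is. -/
theorem isDiscrete_relRep (h𝒰 : IsLevelBasis 𝒰) {ρA : Representation k G A}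
    (hA : IsDiscrete 𝒰 ρA) : IsDiscrete 𝒰 (relRep ρA) := by
  intro x
  obtain ⟨U, hU, hUx⟩ := isDiscrete_freeRep h𝒰 hA (relIncl k A x)
  exact ⟨U, hU, fun s hs => relIncl_injective (hUx s hs)⟩

end Discrete

/-! ### The complex `Y_X` and the pairing datum of the canonical resolution -/

section Cx

variable {X : Type*} [AddCommGroup X] [Module k X] {𝒰 : Set (Subgroup G)}

/-- The complex `Y_X = [Hom(k[A], X) → Hom(F₁, X)]` of the canonical resolution of a finite
discrete module `A` (over a Noetherian ring `k`, e.g. `ℤ`). -/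
noncomputable def resCx [Finite A] [IsNoetherianRing k] (h𝒰 : IsLevelBasis 𝒰)
    (ρA : Representation k G A) (ρX : Representation k G X) (hA : IsDiscrete 𝒰 ρA)
    (hX : IsDiscrete 𝒰 ρX) : Cx k 𝒰 ((A →₀ k) →ₗ[k] X) (Rel k A →ₗ[k] X) :=
  HomCx29.homCx h𝒰 (freeRep ρA) (relRep ρA) ρX (relIncl k A) (relIncl_relRep ρA)
    (isDiscrete_freeRep h𝒰 hA) (isDiscrete_relRep h𝒰 hA) hX

/-- The pairing datum of the canonical resolution. -/
noncomputable def resDatum (ρA : Representation k G A) (ρX : Representation k G X) :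
    Pairing20.Datum k G ((A →₀ k) →ₗ[k] X) (Rel k A →ₗ[k] X) (A →₀ k) (Rel k A) A X :=
  HomCx29.homDatum (freeRep ρA) (relRep ρA) ρA ρX (relIncl k A) (relIncl_relRep ρA)
    relIncl_injective (aug k A) (aug_freeRep ρA) aug_surjective exact_relIncl_aug

/-- `a` kills `ℍ¹(Y_X)` if `a` kills `A`. -/
theorem smul_ℍ1_resCx_eq_zero [Finite A] [IsNoetherianRing k] (h𝒰 : IsLevelBasis 𝒰)
    (ρA : Representation k G A) (ρX : Representation k G X) (hA : IsDiscrete 𝒰 ρA)
    (hX : IsDiscrete 𝒰 ρX) (a : k) (ha : ∀ x : A, a • x = 0)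
    (x : (resCx h𝒰 ρA ρX hA hX).ℍ1 h𝒰) : a • x = 0 :=
  HomCx29.smul_ℍ1_homCx_eq_zero h𝒰 _ _ ρX _ _ _ _ hX relIncl_injective a
    (smul_mem_range_relIncl a ha) x

/-- `a` kills `ℍ²(Y_X)` if `a` kills `A`. -/
theorem smul_ℍ2_resCx_eq_zero [Finite A] [IsNoetherianRing k] (h𝒰 : IsLevelBasis 𝒰)
    (ρA : Representation k G A) (ρX : Representation k G X) (hA : IsDiscrete 𝒰 ρA)
    (hX : IsDiscrete 𝒰 ρX) (a : k) (ha : ∀ x : A, a • x = 0)
    (x : (resCx h𝒰 ρA ρX hA hX).ℍ2 h𝒰) : a • x = 0 :=
  HomCx29.smul_ℍ2_homCx_eq_zero h𝒰 _ _ ρX _ _ _ _ hX relIncl_injective a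
    (smul_mem_range_relIncl a ha) x

/-- `X` `a`-divisible and `a A = 0` ⇒ `Hom(k[A], X) → Hom(F₁, X)` is surjective (`k` a PID). -/
theorem lcomp_relIncl_surjective [Finite A] [IsDomain k] [IsPrincipalIdealRing k] (a : k)
    (ha : ∀ x : A, a • x = 0) (hdiv : ∀ x : X, ∃ y : X, a • y = x) :
    Surjective (LinearMap.lcomp k X (relIncl k A)) := by
  obtain ⟨h, -, e2⟩ := HomCx29.exists_homotopy (relIncl k A) relIncl_injective a
    (smul_mem_range_relIncl a ha)
  exact HomCx29.lcomp_surjective (relIncl k A) a h e2 hdiv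

/-- `a` injective on `X` and `a A = 0` ⇒ `Hom(k[A], X) → Hom(F₁, X)` is injective. -/
theorem lcomp_relIncl_injective (a : k) (ha : ∀ x : A, a • x = 0)
    (htf : ∀ x : X, a • x = 0 → x = 0) :
    Injective (LinearMap.lcomp k X (relIncl k A)) := by
  obtain ⟨h, e1, -⟩ := HomCx29.exists_homotopy (relIncl k A) relIncl_injective a
    (smul_mem_range_relIncl a ha)
  exact HomCx29.lcomp_injective (relIncl k A) a h e1 htf

/-- The kernel of `Hom(k[A], X) → Hom(F₁, X)` is `Hom(A, X)`. -/
noncomputable def kerEquiv :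
    (A →ₗ[k] X) ≃ₗ[k] ↥(LinearMap.ker (LinearMap.lcomp k X (relIncl k A))) :=
  HomCx29.kerLcompEquiv (relIncl k A) (aug k A) aug_surjective exact_relIncl_aug

@[simp] theorem coe_kerEquiv_apply (ν : A →ₗ[k] X) :
    ((kerEquiv (X := X) ν : ↥(LinearMap.ker (LinearMap.lcomp k X (relIncl k A)))) :
      (A →₀ k) →ₗ[k] X) = ν ∘ₗ aug k A := rfl

end Cx

/-! ### Sanity: over `ℤ` all finiteness/freeness instances are found -/

section Int

variable (B : Type*) [AddCommGroup B] [Finite B]

example : Module.Finite ℤ (B →₀ ℤ) := inferInstance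
example : Module.Free ℤ (B →₀ ℤ) := inferInstance
example : @Module.Finite ℤ (Rel ℤ B) _ _ (instModuleRel (k := ℤ) (A := B)) := inferInstance
example : @Module.Free ℤ (Rel ℤ B) _ _ (instModuleRel (k := ℤ) (A := B)) := inferInstance
example : @Module.Projective ℤ _ (Rel ℤ B) _ (instModuleRel (k := ℤ) (A := B)) := inferInstance

end Int

end Fermat.Agent.PT.PRO.FreeRes29
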