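/-
Program F (S55, Poitou–Tate), chapter PRO, helper29.

`HpAt29`: the field `HpAt` (and `Hp`) of `GlobalDuality20b.HypP` / `GlobalDuality20.Hyp` for the
pairing datum `K(P; C) = R.datum ρC` of a resolution `R : IndRes20.Res k G P1 P0 M` of a module
`M` killed by `p`:  `p · (c, y) = D⁰ (y ∘ h)` with `h : P₀ → P₁`, `ι h = p`, `h ι = p`
(`HomCx29.exists_homotopy`), and `y ∘ h` is `V`-fixed if `y` is.
-/
import Mathlib
import Fermat.Agent.PT.PRO.GlobalDuality20b
import Fermat.Agent.PT.PRO.IndRes20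
import Fermat.Agent.PT.PRO.HomCx29
import Fermat.Agent.PT.PRO.FreeRes29

set_option autoImplicit false

namespace Fermat.Agent.PT.PRO.HpAt29

open Fermat.Agent.PT.PRO.HyperLevel25 Fermat.Agent.PT.PRO.Pairing20
open Fermat.Agent.PT.PRO.GlobalDuality20 Fermat.Agent.PT.PRO.IndRes20

variable {k : Type*} [CommRing k] {G : Type*} [Group G]
variable {P1 P0 M C : Type*} [AddCommGroup P1] [Module k P1] [AddCommGroup P0] [Module k P0]
  [AddCommGroup M] [Module k M] [AddCommGroup C] [Module k C]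

/-- If `a` kills `M = P₀ / ι P₁` then `a • P₀ ⊆ ι P₁`. -/
theorem smul_mem_range_ι (R : Res k G P1 P0 M) (a : k) (ha : ∀ m : M, a • m = 0) (x : P0) :
    a • x ∈ LinearMap.range R.ι := by
  obtain ⟨z, hz⟩ := (R.exact (a • x)).1 (by rw [map_smul, ha])
  exact ⟨z, hz⟩

/-- The core computation: for a hyper-1-cocycle `(c, y)` of `K(P; C)` and `h : P₀ → P₁` with
`ι h = a`, `h ι = a`: `a • c = d⁰ (y ∘ h)` and `a • y = (y ∘ h) ∘ ι`. -/
theorem smul_eq_of_homotopy (R : Res k G P1 P0 M) (ρC : Representation k G C) (a : k)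
    (h : P0 →ₗ[k] P1) (h1 : ∀ x, R.ι (h x) = a • x) (h2 : ∀ z, h (R.ι z) = a • z)
    {c : G → (P0 →ₗ[k] C)} {y : P1 →ₗ[k] C} (hcy : (R.datum ρC).IsHyperCocycle c y) :
    a • c = dZero (R.datum ρC).ρY0 (y ∘ₗ h) ∧ a • y = (R.datum ρC).f (y ∘ₗ h) := by
  have he : ∀ g x, h (R.ρ0 g x) = R.ρ1 g (h x) :=
    HomCx29.homotopy_equivariant R.ι R.ι_comm R.ι_inj a h h1
  refine ⟨?_, ?_⟩
  · funext g
    have hg := hcy.2 g
    apply LinearMap.ext
    intro x
    have hx := LinearMap.congr_fun hg (h x)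
    simp only [Res.datum_f, LinearMap.comp_apply, h1, map_smul, LinearMap.sub_apply,
      Res.datum_ρY1] at hx
    simp only [Pi.smul_apply, LinearMap.smul_apply, dZero_apply, Res.datum_ρY0,
      LinearMap.sub_apply, LinearMap.comp_apply, he]
    exact hx
  · apply LinearMap.ext
    intro z
    simp only [Res.datum_f, LinearMap.comp_apply, h2, map_smul, LinearMap.smul_apply]

/-- `y ∘ h` is `V`-fixed if `y` is (`h` equivariant). -/
theorem fixedBy_comp_homotopy (R : Res k G P1 P0 M) (ρC : Representation k G C)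
    (h : P0 →ₗ[k] P1) (he : ∀ g x, h (R.ρ0 g x) = R.ρ1 g (h x)) {V : Subgroup G}
    {y : P1 →ₗ[k] C} (hy : FixedBy (R.datum ρC).ρY1 V y) :
    FixedBy (R.datum ρC).ρY0 V (y ∘ₗ h) := by
  intro s hs
  have := hy s hs
  apply LinearMap.ext
  intro x
  have hx := LinearMap.congr_fun this (h x)
  simp only [Res.datum_ρY1, LinearMap.comp_apply] at hx
  simp only [Res.datum_ρY0, LinearMap.comp_apply, he]
  exact hx

/-- **The field `HpAt` of `GlobalDuality20b.HypP`** for `K(P; C)`, `p M = 0`. -/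
theorem hpAt_datum (R : Res k G P1 P0 M) (ρC : Representation k G C) (p : ℕ)
    (hp : ∀ m : M, (p : k) • m = 0) (V : Subgroup G) (c : G → (P0 →ₗ[k] C)) (y : P1 →ₗ[k] C)
    (hcy : IsHyperAt (R.datum ρC) V c y) :
    ∃ y₀ : P0 →ₗ[k] C, FixedBy (R.datum ρC).ρY0 V y₀ ∧
      (p : k) • c = dZero (R.datum ρC).ρY0 y₀ ∧ (p : k) • y = (R.datum ρC).f y₀ := by
  obtain ⟨h, h1, h2⟩ := HomCx29.exists_homotopy R.ι R.ι_inj (p : k)
    (smul_mem_range_ι R (p : k) hp)
  have he := HomCx29.homotopy_equivariant R.ι R.ι_comm R.ι_inj (p : k) h h1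
  obtain ⟨e1, e2⟩ := smul_eq_of_homotopy R ρC (p : k) h h1 h2 hcy.1
  exact ⟨y ∘ₗ h, fixedBy_comp_homotopy R ρC h he hcy.2.2, e1, e2⟩

/-- **The field `Hp` of `GlobalDuality20.Hyp`** for `K(P; C)`, `p M = 0`. -/
theorem hp_datum (R : Res k G P1 P0 M) (ρC : Representation k G C) (p : ℕ)
    (hp : ∀ m : M, (p : k) • m = 0) (c : G → (P0 →ₗ[k] C)) (y : P1 →ₗ[k] C)
    (hcy : (R.datum ρC).IsHyperCocycle c y) :
    ∃ y₀ : P0 →ₗ[k] C, (p : k) • c = dZero (R.datum ρC).ρY0 y₀ ∧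
      (p : k) • y = (R.datum ρC).f y₀ := by
  obtain ⟨h, h1, h2⟩ := HomCx29.exists_homotopy R.ι R.ι_inj (p : k)
    (smul_mem_range_ι R (p : k) hp)
  exact ⟨y ∘ₗ h, smul_eq_of_homotopy R ρC (p : k) h h1 h2 hcy⟩

/-! ### The canonical resolution `0 → Rel → k[A] → A → 0` as an `IndRes20.Res` -/

section Canonical

variable {A : Type*} [AddCommGroup A] [Module k A]

/-- The canonical resolution of `A` (`FreeRes29`) as a `Res`. -/
noncomputable def freeRes (ρA : Representation k G A) :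
    Res k G (FreeRes29.Rel k A) (A →₀ k) A where
  ρ1 := FreeRes29.relRep ρA
  ρ0 := FreeRes29.freeRep ρA
  ρM := ρA
  ι := FreeRes29.relIncl k A
  ι_comm := FreeRes29.relIncl_relRep ρA
  ι_inj := FreeRes29.relIncl_injective
  π := FreeRes29.aug k A
  π_comm := FreeRes29.aug_freeRep ρA
  π_surj := FreeRes29.aug_surjective
  exact x := by
    rw [FreeRes29.exact_relIncl_aug x]
    rfl

/-- The datum of the canonical resolution is `FreeRes29.resDatum`. -/
theorem freeRes_datum (ρA : Representation k G A) (ρC : Representation k G C) :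
    (freeRes ρA).datum ρC = FreeRes29.resDatum ρA ρC := rfl

end Canonical

end Fermat.Agent.PT.PRO.HpAt29
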