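/-
Program F (S55, Poitou–Tate), chapter PRO, helper20.

`IndTN20`: hyper Tate–Nakayama (`TNlProp`, `TNrProp` of `IndResTransport20`) for the INDUCED
resolution of a finite group, from the `(0,2)` Tate–Nakayama duality (`TN02rProp`, `TN02lProp`,
raw cochain form) of the single module `P₁'`, using the cohomological triviality of
`Fun(G, N)` (diagonal action) and of `Hom(Fun(G, P₀), C)`, proved by explicit homotopies.
Consequently (`IndResTransport20`) the same for an arbitrary resolution.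
-/
import Mathlib
import Fermat.Agent.PT.PRO.IndResTransport20
import Fermat.Agent.PT.PRO.HomCx29

set_option autoImplicit false
set_option linter.unusedSectionVars false

namespace Fermat.Agent.PT.PRO.IndTN20

open Fermat.Agent.PT.PRO.HyperLevel25 Fermat.Agent.PT.PRO.Pairing20 Fermat.Agent.PT.PRO.IndRes20
open Fermat.Agent.PT.PRO.IndResTransport20

variable {k : Type*} [CommRing k] {G : Type*} [Group G] [Fintype G] [DecidableEq G]

/-! ### Acyclicity of `Fun(G, N)` with the diagonal action -/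

section Acyclic

variable {N : Type*} [AddCommGroup N] [Module k N] (ρ : Representation k G N)

/-- `H¹(G, Fun(G, N)) = 0`. -/
theorem fun_H1 (x : G → (G → N)) (hx : dOne (diagRep ρ) x = 0) :
    ∃ w : G → N, x = dZero (diagRep ρ) w := by
  refine ⟨fun t => - x t t, ?_⟩
  funext g t
  have h := congrFun (congrFun hx (g, g⁻¹ * t)) t
  simp only [dOne_apply, Pi.add_apply, Pi.sub_apply, Pi.zero_apply, diagRep_apply,
    mul_inv_cancel_left] at h
  simp only [dZero_apply, Pi.sub_apply, diagRep_apply, map_neg]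
  rw [← sub_eq_zero, ← h]
  abel

/-- `H²(G, Fun(G, N)) = 0`. -/
theorem fun_H2 (z : G × G → (G → N)) (hz : dTwo (diagRep ρ) z = 0) :
    ∃ t : G → (G → N), z = dOne (diagRep ρ) t := by
  refine ⟨fun g x => z (g, g⁻¹ * x) x, ?_⟩
  funext q x
  obtain ⟨g, h⟩ := q
  have h0 := congrFun (congrFun hz (g, h, h⁻¹ * g⁻¹ * x)) x
  simp only [dTwo_apply, Pi.add_apply, Pi.sub_apply, Pi.zero_apply, diagRep_apply] at h0
  simp only [dOne_apply, Pi.add_apply, Pi.sub_apply, diagRep_apply, mul_inv_rev]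
  have e1 : h * (h⁻¹ * g⁻¹ * x) = g⁻¹ * x := by group
  have e2 : h⁻¹ * (g⁻¹ * x) = h⁻¹ * g⁻¹ * x := by group
  rw [e1, sub_eq_zero] at h0
  rw [e2]
  exact h0.symm

variable {C : Type*} [AddCommGroup C] [Module k C] (ρC : Representation k G C)

/-- `δ_x p`, as a linear map in `p`. -/
abbrev dl (k : Type*) [CommRing k] {G : Type*} [DecidableEq G] {N : Type*} [AddCommGroup N]
    [Module k N] (x : G) : N →ₗ[k] (G → N) := LinearMap.single k (fun _ : G => N) x

lemma diagRep_dl (g x : G) (p : N) : diagRep ρ g (dl k x p) = dl k (g * x) (ρ g p) := by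
  funext t
  simp only [diagRep_apply, dl, LinearMap.single_apply]
  by_cases h : t = g * x
  · subst h
    simp
  · have h' : g⁻¹ * t ≠ x := fun e => h (by rw [← e]; group)
    simp [h, h']

lemma sum_dl (φ : G → N) : ∑ x : G, dl k x (φ x) = φ := by
  simp only [dl, LinearMap.single_apply]
  exact Finset.univ_sum_single φ

/-- The action on `Hom(Fun(G, N), C)`. -/
abbrev homFun : Representation k G ((G → N) →ₗ[k] C) := Representation.linHom (diagRep ρ) ρC

/-- `Ĥ⁰(G, Hom(Fun(G, N), C)) = 0`: every invariant is a norm. -/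
theorem homFun_H0 (y : (G → N) →ₗ[k] C) (hy : ∀ g, homFun ρ ρC g y = y) :
    ∃ e : (G → N) →ₗ[k] C, y = ∑ g : G, homFun ρ ρC g e := by
  refine ⟨y ∘ₗ dl k 1 ∘ₗ LinearMap.proj 1, ?_⟩
  refine LinearMap.ext fun φ => ?_
  rw [LinearMap.sum_apply]
  conv_lhs => rw [← sum_dl (k := k) φ, map_sum]
  refine Finset.sum_congr rfl (fun g _ => ?_)
  have h1 := LinearMap.congr_fun (hy g) (dl k g (φ g))
  simp only [Representation.linHom_apply, LinearMap.comp_apply] at h1
  rw [diagRep_dl, inv_mul_cancel] at h1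
  simp only [Representation.linHom_apply, LinearMap.comp_apply, LinearMap.proj_apply,
    diagRep_apply, inv_inv, mul_one]
  exact h1.symm

/-- `H¹(G, Hom(Fun(G, N), C)) = 0`. -/
theorem homFun_H1 (c : G → ((G → N) →ₗ[k] C)) (hc : dOne (homFun ρ ρC) c = 0) :
    ∃ y₀ : (G → N) →ₗ[k] C, c = dZero (homFun ρ ρC) y₀ := by
  refine ⟨- ∑ x : G, c x ∘ₗ dl k x ∘ₗ LinearMap.proj x, ?_⟩
  funext g
  refine LinearMap.ext fun φ => ?_
  have hcoc : ∀ x : G, c (g * x) = homFun ρ ρC g (c x) + c g := by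
    intro x
    have := congrFun hc (g, x)
    simp only [dOne_apply, Pi.zero_apply] at this
    rw [sub_add_eq_add_sub, sub_eq_zero] at this
    exact this.symm
  -- the key pointwise identity
  have key : ∀ x : G, ρC g (c x (dl k x (ρ g⁻¹ (φ (g * x))))) =
      c (g * x) (dl k (g * x) (φ (g * x))) - c g (dl k (g * x) (φ (g * x))) := by
    intro x
    rw [hcoc x, LinearMap.add_apply, add_sub_cancel_right]
    simp only [Representation.linHom_apply, LinearMap.comp_apply]
    rw [diagRep_dl, inv_mul_cancel_left]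
  simp only [dZero_apply, LinearMap.sub_apply, Representation.linHom_apply, LinearMap.comp_apply,
    LinearMap.neg_apply, LinearMap.sum_apply, LinearMap.proj_apply, diagRep_apply, inv_inv,
    map_neg, map_sum]
  rw [Finset.sum_congr rfl (fun x _ => key x), Finset.sum_sub_distrib]
  have r1 : ∑ x : G, c (g * x) (dl k (g * x) (φ (g * x))) = ∑ x : G, c x (dl k x (φ x)) :=
    Fintype.sum_equiv (Equiv.mulLeft g) _ _ (fun x => rfl)
  have r2 : ∑ x : G, c g (dl k (g * x) (φ (g * x))) = c g φ := by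
    rw [← map_sum]
    congr 1
    rw [← sum_dl (k := k) φ]
    exact Fintype.sum_equiv (Equiv.mulLeft g) _ _ (fun x => by simp)
  rw [r1, r2]
  abel

end Acyclic

/-! ### The `(0,2)` Tate–Nakayama statements for a single module, raw cochain form -/

section TN

variable {P1 P0 M C : Type*} [AddCommGroup P1] [Module k P1] [AddCommGroup P0] [Module k P0]
  [AddCommGroup M] [Module k M] [AddCommGroup C] [Module k C]

/-- `(0,2)` Tate–Nakayama, right kernel, for the module `(P, ρ)`: a 2-cocycle of `P`, killed by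
`p` in cohomology, which is sent to a coboundary by every `G`-homomorphism `P → C`, is a
coboundary. -/
def TN02rProp (ρ : Representation k G P1) (ρC : Representation k G C) (p : ℕ) : Prop :=
  ∀ z : G × G → P1, dTwo ρ z = 0 → (∃ t' : G → P1, (p : k) • z = dOne ρ t') →
    (∀ y : P1 →ₗ[k] C, (∀ g, Representation.linHom ρ ρC g y = y) →
      ∃ u : G → C, (fun q => y (z q)) = dOne ρC u) →
    ∃ t : G → P1, z = dOne ρ t

/-- `(0,2)` Tate–Nakayama, left kernel, for the module `(P, ρ)`: a `G`-homomorphism `P → C`,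
`p` times which is a norm, and which sends every 2-cocycle of `P` to a coboundary, is a norm. -/
def TN02lProp (ρ : Representation k G P1) (ρC : Representation k G C) (p : ℕ) : Prop :=
  ∀ y : P1 →ₗ[k] C, (∀ g, Representation.linHom ρ ρC g y = y) →
    (∃ e' : P1 →ₗ[k] C, (p : k) • y = ∑ g : G, Representation.linHom ρ ρC g e') →
    (∀ z : G × G → P1, dTwo ρ z = 0 → ∃ u : G → C, (fun q => y (z q)) = dOne ρC u) →
    ∃ e : P1 →ₗ[k] C, y = ∑ g : G, Representation.linHom ρ ρC g e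

variable (R : Res k G P1 P0 M) (ρC : Representation k G C) (p : ℕ)

/-- **Right kernel for a resolution with `H¹(G, P₀) = 0`.** -/
theorem TNr_of_acyclic (hpM : ∀ m : M, (p : k) • m = 0)
    (hA1 : ∀ x : G → P0, dOne R.ρ0 x = 0 → ∃ w : P0, x = dZero R.ρ0 w)
    (hTN : TN02rProp R.ρ1 ρC p) : TNrProp (R.datum ρC) := by
  intro a' b hab hpair
  set D := R.datum ρC with hD
  -- `b` is a 2-cocycle
  have hb2 : dTwo R.ρ1 b = 0 := by
    funext ⟨g, h, j⟩
    exact Datum.IsLift.dTwo_eq_zero D hab g h j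
  -- `p b` is a coboundary
  have hpb : ∃ t' : G → P1, (p : k) • b = dOne R.ρ1 t' := by
    have hex : ∀ g, ∃ z, R.ι z = (p : k) • a' g := fun g =>
      (R.exact _).1 (by rw [map_smul, hpM])
    choose t' ht' using hex
    refine ⟨t', funext fun q => R.ι_inj ?_⟩
    have h1 := D.isLift_ι t' q
    have h2 : (⇑D.ι ∘ t') = (p : k) • a' := funext fun g => ht' g
    rw [h2, map_smul] at h1
    rw [Pi.smul_apply, map_smul]
    have h3 : R.ι (b q) = dOne R.ρ0 a' q := hab q
    rw [h3]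
    exact h1.symm
  -- `y ∘ b` is a coboundary for every invariant `y`
  have hyb : ∀ y : P1 →ₗ[k] C, (∀ g, Representation.linHom R.ρ1 ρC g y = y) →
      ∃ u : G → C, (fun q => y (b q)) = dOne ρC u := by
    intro y hy
    obtain ⟨u, hu⟩ := hpair 0 y ⟨map_zero _, fun g => by
      rw [Pi.zero_apply, map_zero]; exact (sub_eq_zero.2 (hy g)).symm⟩
    refine ⟨u, ?_⟩
    have hρ : D.ρX = ρC := rfl
    rw [← hρ, ← hu]
    funext ⟨g, h⟩
    simp only [Datum.pairFun_apply, Pi.zero_apply, map_zero, LinearMap.zero_apply, zero_add,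
      hD, Res.datum_ev1]
  obtain ⟨t, ht⟩ := hTN b hb2 hpb hyb
  -- `a' - ι ∘ t` is a 1-cocycle of `P₀`
  have hcoc : dOne R.ρ0 (a' - ⇑R.ι ∘ t) = 0 := by
    funext q
    have h1 := D.isLift_ι t q
    have h3 : R.ι (b q) = dOne R.ρ0 a' q := hab q
    rw [map_sub, Pi.sub_apply, ← h3, ht, Pi.zero_apply, sub_eq_zero]
    exact h1
  obtain ⟨w, hw⟩ := hA1 _ hcoc
  refine ⟨R.π w, funext fun g => ?_⟩
  have h1 := congrFun hw g
  simp only [Pi.sub_apply, Function.comp_apply, dZero_apply] at h1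
  have h2 : a' g = R.ρ0 g w - w + R.ι (t g) := by rw [← h1]; abel
  show R.π (a' g) = R.ρM g (R.π w) - R.π w
  rw [h2, map_add, map_sub, R.π_comm, (R.exact _).2 ⟨_, rfl⟩, add_zero]

/-- **Left kernel for a resolution with `H²(G, P₀) = 0`, `Ĥ⁰(G, Hom(P₀, C)) = 0`,
`H¹(G, Hom(P₀, C)) = 0`.** -/
theorem TNl_of_acyclic (hpM : ∀ m : M, (p : k) • m = 0)
    (hA2 : ∀ z : G × G → P0, dTwo R.ρ0 z = 0 → ∃ t : G → P0, z = dOne R.ρ0 t)
    (hA3 : ∀ y : P0 →ₗ[k] C, (∀ g, Representation.linHom R.ρ0 ρC g y = y) →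
      ∃ e : P0 →ₗ[k] C, y = ∑ g : G, Representation.linHom R.ρ0 ρC g e)
    (hA4 : ∀ c : G → (P0 →ₗ[k] C), dOne (Representation.linHom R.ρ0 ρC) c = 0 →
      ∃ y₀ : P0 →ₗ[k] C, c = dZero (Representation.linHom R.ρ0 ρC) y₀)
    (hTN : TN02lProp R.ρ1 ρC p) : TNlProp (R.datum ρC) := by
  intro c y hcy hpair
  set D := R.datum ρC with hD
  obtain ⟨y₀, hy₀⟩ := hA4 c hcy.1
  set y₁ : P1 →ₗ[k] C := y - D.f y₀ with hy₁
  have hcy₁ : D.IsHyperCocycle (c - dZero D.ρY0 y₀) y₁ :=
    IsHyperCocycle.sub' D hcy (D.isHyperCocycle_bdry y₀)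
  have hc0 : c - dZero D.ρY0 y₀ = 0 := sub_eq_zero.2 hy₀
  rw [hc0] at hcy₁
  -- `y₁` is invariant
  have hinv : ∀ g, Representation.linHom R.ρ1 ρC g y₁ = y₁ := by
    intro g
    have := hcy₁.2 g
    rw [Pi.zero_apply, map_zero] at this
    exact (sub_eq_zero.1 this.symm)
  -- pairing of `(0, y₁)` with lifts
  have hpair₁ : ∀ a' b, D.IsLift a' b → ∃ u : G → C, (fun q => y₁ (b q)) = dOne ρC u := by
    intro a' b hab
    obtain ⟨u, hu⟩ := hpair a' b hab
    refine ⟨u - fun g => D.ev0 y₀ (a' g), ?_⟩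
    have h1 := D.pairFun_bdry_left y₀ hab
    rw [map_sub]
    have hρ : D.ρX = ρC := rfl
    rw [← hρ, ← hu, ← h1]
    have hy₀' : c = dZero D.ρY0 y₀ := hy₀
    funext ⟨g, h⟩
    simp only [Pi.sub_apply, Datum.pairFun_apply, hy₁, LinearMap.sub_apply, hy₀', hD,
      Res.datum_ev1, Res.datum_ev0]
    abel
  -- every 2-cocycle of `P₁` is the `b` of a lift
  have hz : ∀ z : G × G → P1, dTwo R.ρ1 z = 0 → ∃ u : G → C, (fun q => y₁ (z q)) = dOne ρC u := by
    intro z hz
    have hιz : dTwo R.ρ0 (⇑R.ι ∘ z) = 0 := by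
      rw [← comp_dTwo R.ρ1 R.ρ0 R.ι R.ι_comm, hz]
      funext q
      simp
    obtain ⟨a', ha'⟩ := hA2 _ hιz
    exact hpair₁ a' z (fun q => congrFun ha' q)
  -- `p y₁` is a norm
  have hp : ∃ e' : P1 →ₗ[k] C, (p : k) • y₁ = ∑ g : G, Representation.linHom R.ρ1 ρC g e' := by
    obtain ⟨h, h1, h2⟩ := HomCx29.exists_homotopy R.ι R.ι_inj (p : k)
      (fun x => (R.exact _).1 (by rw [map_smul, hpM]))
    have he := HomCx29.homotopy_equivariant (ρ0 := R.ρ0) (ρ1 := R.ρ1) R.ι R.ι_comm R.ι_inj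
      (p : k) h h1
    have hinv0 : ∀ g, Representation.linHom R.ρ0 ρC g (y₁ ∘ₗ h) = y₁ ∘ₗ h := by
      intro g
      rw [linHom_precomp ρC R.ρ1 R.ρ0 h he g y₁, hinv g]
    obtain ⟨e₀, he₀⟩ := hA3 _ hinv0
    refine ⟨e₀ ∘ₗ R.ι, ?_⟩
    rw [sum_linHom_precomp ρC R.ρ0 R.ρ1 R.ι R.ι_comm e₀, ← he₀]
    refine LinearMap.ext fun x => ?_
    simp only [LinearMap.smul_apply, LinearMap.comp_apply, h2, map_smul]
  obtain ⟨e, he⟩ := hTN y₁ hinv hp hz
  refine ⟨y₀, e, hy₀, ?_⟩
  have : y = D.f y₀ + y₁ := by rw [hy₁]; abel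
  rw [this, he]
  rfl

end TN

/-! ### The induced resolution, and the conclusion for an arbitrary resolution -/

section Main

variable {P1 P0 M C : Type*} [AddCommGroup P1] [Module k P1] [AddCommGroup P0] [Module k P0]
  [AddCommGroup M] [Module k M] [AddCommGroup C] [Module k C]
variable (R : Res k G P1 P0 M) (ρC : Representation k G C) (p : ℕ)

/-- Right kernel for the induced resolution. -/
theorem TNr_ind (hpM : ∀ m : M, (p : k) • m = 0) (hTN : TN02rProp (indρ1 R) ρC p) :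
    TNrProp ((ind R).datum ρC) :=
  TNr_of_acyclic (ind R) ρC p hpM (fun x hx => fun_H1 R.ρ0 x hx) hTN

/-- Left kernel for the induced resolution. -/
theorem TNl_ind (hpM : ∀ m : M, (p : k) • m = 0) (hTN : TN02lProp (indρ1 R) ρC p) :
    TNlProp ((ind R).datum ρC) :=
  TNl_of_acyclic (ind R) ρC p hpM (fun z hz => fun_H2 R.ρ0 z hz)
    (fun y hy => homFun_H0 R.ρ0 ρC y hy) (fun c hc => homFun_H1 R.ρ0 ρC c hc) hTN

/-- **Hyper Tate–Nakayama, right kernel**, for any resolution `0 → P₁ → P₀ → M → 0` of a module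
killed by `p` over a finite group, from the `(0,2)` statement for `P₁' = Fun(G, P₀) ×_{P₀} P₁`. -/
theorem TNr (hpM : ∀ m : M, (p : k) • m = 0) (hTN : TN02rProp (indρ1 R) ρC p) :
    TNrProp (R.datum ρC) :=
  TNr_of_ind R ρC (TNr_ind R ρC p hpM hTN)

/-- **Hyper Tate–Nakayama, left kernel.** -/
theorem TNl (hpM : ∀ m : M, (p : k) • m = 0) (hTN : TN02lProp (indρ1 R) ρC p) :
    TNlProp (R.datum ρC) :=
  TNl_of_ind R ρC (TNl_ind R ρC p hpM hTN)

end Main

end Fermat.Agent.PT.PRO.IndTN20
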