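/-
Program F (S55, Poitou–Tate), chapter PRO, row 362 (P3, TRANSPORT), part 3.  Owner: helper18.

`DescendRes18`:
* `DatumIso D D'`: isomorphisms of pairing data over the same group; `FinTNl`/`FinTNr` transport
  along them (`DatumIso.finTNl`, `DatumIso.finTNr`);
* `resQuot R V h0 : Res k (G ⧸ V) P1 P0 M` for `V` normal acting trivially on `P₀`;
* `descendIso`: `descend (R.datum ρC) V hπ ≅ (resQuot R V h0).datum (fixedRep V ρC)`;
* `tnlAt_datum_of_TNlProp`, `tnrAt_datum_of_TNrProp`: the level-`V` fields `TNl`, `TNr` of `HypP`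
  for `K(P; C)` from `IndResTransport20.TNlProp/TNrProp` of the quotient datum over `G ⧸ V`;
* `hypP_datum`: assembly of `GlobalDuality20b.HypP (R.datum ρC) 𝒰 ℱ p`.
-/
import Mathlib
import Fermat.Agent.PT.PRO.HyperColimP18
import Fermat.Agent.PT.PRO.IndRes20
import Fermat.Agent.PT.PRO.IndTN20
import Fermat.Agent.PT.PRO.HpAt29

set_option autoImplicit false

namespace Fermat.Agent.PT.PRO.DescendRes18

open Fermat.Agent.PT.PRO.HyperLevel25 Fermat.Agent.PT.PRO.Pairing20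
  Fermat.Agent.PT.PRO.GlobalDuality20 Fermat.Agent.PT.PRO.GlobalDuality20b
  Fermat.Agent.PT.PRO.HyperColim18 Fermat.Agent.PT.PRO.HyperColimP18
  Fermat.Agent.PT.PRO.IndResTransport20 Fermat.Agent.PT.PRO.IndRes20

variable {k : Type*} [CommRing k] {Q : Type*} [Group Q]

variable {Y0 Y1 F0 F1 A X : Type*}
  [AddCommGroup Y0] [Module k Y0] [AddCommGroup Y1] [Module k Y1]
  [AddCommGroup F0] [Module k F0] [AddCommGroup F1] [Module k F1]
  [AddCommGroup A] [Module k A] [AddCommGroup X] [Module k X]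
variable {Y0' Y1' F0' F1' A' X' : Type*}
  [AddCommGroup Y0'] [Module k Y0'] [AddCommGroup Y1'] [Module k Y1']
  [AddCommGroup F0'] [Module k F0'] [AddCommGroup F1'] [Module k F1']
  [AddCommGroup A'] [Module k A'] [AddCommGroup X'] [Module k X']

/-- An isomorphism of pairing data over the same group. -/
structure DatumIso (D : Datum k Q Y0 Y1 F0 F1 A X) (D' : Datum k Q Y0' Y1' F0' F1' A' X') where
  eY0 : Y0 ≃ₗ[k] Y0'
  eY1 : Y1 ≃ₗ[k] Y1'
  eF0 : F0 ≃ₗ[k] F0'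
  eF1 : F1 ≃ₗ[k] F1'
  eA : A ≃ₗ[k] A'
  eX : X ≃ₗ[k] X'
  ρY0_comm : ∀ g y, eY0 (D.ρY0 g y) = D'.ρY0 g (eY0 y)
  ρY1_comm : ∀ g y, eY1 (D.ρY1 g y) = D'.ρY1 g (eY1 y)
  ρF0_comm : ∀ g x, eF0 (D.ρF0 g x) = D'.ρF0 g (eF0 x)
  ρF1_comm : ∀ g x, eF1 (D.ρF1 g x) = D'.ρF1 g (eF1 x)
  ρA_comm : ∀ g a, eA (D.ρA g a) = D'.ρA g (eA a)
  ρX_comm : ∀ g x, eX (D.ρX g x) = D'.ρX g (eX x)
  f_comm : ∀ y, eY1 (D.f y) = D'.f (eY0 y)
  ι_comm : ∀ x, eF0 (D.ι x) = D'.ι (eF1 x)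
  π_comm : ∀ x, eA (D.π x) = D'.π (eF0 x)
  ev0_comm : ∀ y x, eX (D.ev0 y x) = D'.ev0 (eY0 y) (eF0 x)
  ev1_comm : ∀ y x, eX (D.ev1 y x) = D'.ev1 (eY1 y) (eF1 x)

namespace DatumIso

variable {D : Datum k Q Y0 Y1 F0 F1 A X} {D' : Datum k Q Y0' Y1' F0' F1' A' X'}
  (e : DatumIso D D')

lemma isHyperCocycle {c : Q → Y0} {y : Y1} (h : D.IsHyperCocycle c y) :
    D'.IsHyperCocycle (⇑e.eY0 ∘ c) (e.eY1 y) := by
  refine ⟨?_, fun g => ?_⟩
  · have := comp_dOne D.ρY0 D'.ρY0 e.eY0.toLinearMap e.ρY0_comm c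
    have h1 : ⇑e.eY0 ∘ dOne D.ρY0 c = dOne D'.ρY0 (⇑e.eY0 ∘ c) := this
    rw [← h1, h.1]
    funext q
    simp
  · rw [Function.comp_apply, ← e.f_comm, h.2 g, map_sub, e.ρY1_comm]

lemma isLift_symm {a'' : Q → F0'} {b'' : Q × Q → F1'} (h : D'.IsLift a'' b'') :
    D.IsLift (⇑e.eF0.symm ∘ a'') (⇑e.eF1.symm ∘ b'') := by
  intro q
  apply e.eF0.injective
  have h1 : ⇑e.eF0 ∘ dOne D.ρF0 (⇑e.eF0.symm ∘ a'') = dOne D'.ρF0 (⇑e.eF0 ∘ ⇑e.eF0.symm ∘ a'') :=
    comp_dOne D.ρF0 D'.ρF0 e.eF0.toLinearMap e.ρF0_comm _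
  have h2 : ⇑e.eF0 ∘ ⇑e.eF0.symm ∘ a'' = a'' := by
    funext g; simp
  rw [h2] at h1
  have h3 := congrFun h1 q
  rw [Function.comp_apply] at h3
  rw [h3, e.ι_comm, Function.comp_apply, LinearEquiv.apply_symm_apply]
  exact h q

lemma pairFun_symm (c : Q → Y0) (y : Y1) (a'' : Q → F0') (b'' : Q × Q → F1') :
    D'.pairFun (⇑e.eY0 ∘ c) (e.eY1 y) a'' b'' =
      ⇑e.eX ∘ D.pairFun c y (⇑e.eF0.symm ∘ a'') (⇑e.eF1.symm ∘ b'') := by
  funext ⟨g, h⟩
  simp only [Datum.pairFun_apply, Function.comp_apply, map_add, e.ev0_comm, e.ev1_comm,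
    e.ρF0_comm, LinearEquiv.apply_symm_apply]

/-- `FinTNl` transports along an isomorphism of data. -/
theorem finTNl (e : DatumIso D D') (h : FinTNl D') : FinTNl D := by
  intro c y hcy hpair
  obtain ⟨y₀', n', h1, h2⟩ := h (⇑e.eY0 ∘ c) (e.eY1 y) (e.isHyperCocycle hcy) (fun a'' b'' hab => by
    obtain ⟨u, hu⟩ := hpair _ _ (e.isLift_symm hab)
    refine ⟨⇑e.eX ∘ u, ?_⟩
    rw [e.pairFun_symm, hu]
    exact comp_dOne D.ρX D'.ρX e.eX.toLinearMap e.ρX_comm u)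
  refine ⟨e.eY0.symm y₀', e.eY1.symm n', ?_, ?_⟩
  · funext g
    apply e.eY0.injective
    have := congrFun h1 g
    rw [Function.comp_apply] at this
    rw [this, dZero_apply, dZero_apply, map_sub, e.ρY0_comm, LinearEquiv.apply_symm_apply]
  · apply e.eY1.injective
    rw [h2, map_add, e.f_comm, LinearEquiv.apply_symm_apply]
    congr 1
    have h3 := AddMonoidHom.map_finsum_of_injective e.eY1.toLinearMap.toAddMonoidHom
      e.eY1.injective (fun q : Q => D.ρY1 q (e.eY1.symm n'))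
    simp only [LinearMap.toAddMonoidHom_coe, LinearEquiv.coe_coe] at h3
    rw [h3]
    refine finsum_congr (fun q => ?_)
    rw [e.ρY1_comm, LinearEquiv.apply_symm_apply]

/-- `FinTNr` transports along an isomorphism of data. -/
theorem finTNr (e : DatumIso D D') (h : FinTNr D') : FinTNr D := by
  intro a' b hab hpair
  have hab' : D'.IsLift (⇑e.eF0 ∘ a') (⇑e.eF1 ∘ b) := by
    intro q
    have h1 : ⇑e.eF0 ∘ dOne D.ρF0 a' = dOne D'.ρF0 (⇑e.eF0 ∘ a') :=
      comp_dOne D.ρF0 D'.ρF0 e.eF0.toLinearMap e.ρF0_comm _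
    rw [← h1, Function.comp_apply, Function.comp_apply, ← e.ι_comm]
    exact congrArg e.eF0 (hab q)
  have hsymm0 : ⇑e.eF0.symm ∘ ⇑e.eF0 ∘ a' = a' := by funext g; simp
  have hsymm1 : ⇑e.eF1.symm ∘ ⇑e.eF1 ∘ b = b := by funext g; simp
  obtain ⟨a₀', ha₀'⟩ := h _ _ hab' (fun c' y' hcy' => by
    -- pull the hyper-cocycle back to `D`
    have hc : D.IsHyperCocycle (⇑e.eY0.symm ∘ c') (e.eY1.symm y') := by
      refine ⟨?_, fun g => ?_⟩
      · funext q
        apply e.eY0.injective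
        have h1 : ⇑e.eY0 ∘ dOne D.ρY0 (⇑e.eY0.symm ∘ c') =
            dOne D'.ρY0 (⇑e.eY0 ∘ ⇑e.eY0.symm ∘ c') :=
          comp_dOne D.ρY0 D'.ρY0 e.eY0.toLinearMap e.ρY0_comm _
        have h2 : ⇑e.eY0 ∘ ⇑e.eY0.symm ∘ c' = c' := by funext g; simp
        rw [h2, hcy'.1] at h1
        have h3 := congrFun h1 q
        rw [Function.comp_apply] at h3
        rw [h3]; simp
      · apply e.eY1.injective
        rw [e.f_comm, Function.comp_apply, LinearEquiv.apply_symm_apply, hcy'.2 g, map_sub,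
          e.ρY1_comm, LinearEquiv.apply_symm_apply]
    obtain ⟨u, hu⟩ := hpair _ _ hc
    refine ⟨⇑e.eX ∘ u, ?_⟩
    have h1 := e.pairFun_symm (⇑e.eY0.symm ∘ c') (e.eY1.symm y') (⇑e.eF0 ∘ a') (⇑e.eF1 ∘ b)
    have h2 : ⇑e.eY0 ∘ ⇑e.eY0.symm ∘ c' = c' := by funext g; simp
    rw [h2, LinearEquiv.apply_symm_apply, hsymm0, hsymm1, hu] at h1
    rw [h1]
    exact comp_dOne D.ρX D'.ρX e.eX.toLinearMap e.ρX_comm u)
  refine ⟨e.eA.symm a₀', ?_⟩
  funext g
  apply e.eA.injective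
  have h1 := congrFun ha₀' g
  simp only [Function.comp_apply, dZero_apply] at h1 ⊢
  rw [e.π_comm, h1, map_sub, e.ρA_comm, LinearEquiv.apply_symm_apply]

end DatumIso

/-! ### The quotient resolution and the comparison with the descended datum -/

section Quot

variable {G : Type*} [Group G] {P1 P0 M C : Type*} [AddCommGroup P1] [Module k P1]
  [AddCommGroup P0] [Module k P0] [AddCommGroup M] [Module k M] [AddCommGroup C] [Module k C]

/-- A representation on which `V` acts trivially, as a representation of `G ⧸ V`. -/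
def quotRep (V : Subgroup G) [V.Normal] {Y : Type*} [AddCommGroup Y] [Module k Y]
    (ρ : Representation k G Y) (h : ∀ s ∈ V, ∀ y, ρ s y = y) : Representation k (G ⧸ V) Y :=
  QuotientGroup.lift V ρ (fun s hs => by
    rw [MonoidHom.mem_ker]
    ext y
    exact h s hs y)

@[simp] lemma quotRep_mk (V : Subgroup G) [V.Normal] {Y : Type*} [AddCommGroup Y] [Module k Y]
    (ρ : Representation k G Y) (h : ∀ s ∈ V, ∀ y, ρ s y = y) (g : G) :
    quotRep V ρ h (g : G ⧸ V) = ρ g := rfl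

/-- If `V` acts trivially, every vector is `V`-fixed. -/
def fixedEquivOfTrivial (V : Subgroup G) {Y : Type*} [AddCommGroup Y] [Module k Y]
    (ρ : Representation k G Y) (h : ∀ s ∈ V, ∀ y, ρ s y = y) : fixedSub V ρ ≃ₗ[k] Y where
  toFun y := (y : Y)
  invFun y := ⟨y, fun s hs => h s hs y⟩
  map_add' _ _ := rfl
  map_smul' _ _ := rfl
  left_inv _ := rfl
  right_inv _ := rfl

/-- `Hom(P, C)^V = Hom(P, C^V)` when `V` acts trivially on `P`. -/
def homFixedEquiv (V : Subgroup G) {P : Type*} [AddCommGroup P] [Module k P]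
    (ρP : Representation k G P) (hP : ∀ s ∈ V, ∀ y, ρP s y = y) (ρC : Representation k G C) :
    fixedSub V (Representation.linHom ρP ρC) ≃ₗ[k] (P →ₗ[k] fixedSub V ρC) where
  toFun y := LinearMap.codRestrict (fixedSub V ρC) (y : P →ₗ[k] C) (fun x s hs => by
    have h1 : Representation.linHom ρP ρC s (y : P →ₗ[k] C) = (y : P →ₗ[k] C) := y.2 s hs
    have h2 := LinearMap.congr_fun h1 x
    simp only [Representation.linHom_apply, LinearMap.comp_apply] at h2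
    rwa [hP s⁻¹ (V.inv_mem hs)] at h2)
  invFun y' := ⟨(fixedSub V ρC).subtype ∘ₗ y', fun s hs => by
    ext x
    simp only [Representation.linHom_apply, LinearMap.comp_apply, Submodule.subtype_apply,
      hP s⁻¹ (V.inv_mem hs)]
    exact (y' x).2 s hs⟩
  map_add' _ _ := rfl
  map_smul' _ _ := rfl
  left_inv _ := rfl
  right_inv _ := rfl

section ResQuot

variable (R : Res k G P1 P0 M) (V : Subgroup G) (h0 : ∀ s ∈ V, ∀ x, R.ρ0 s x = x)

include h0 in
lemma res_trivial1 : ∀ s ∈ V, ∀ x, R.ρ1 s x = x := fun s hs x =>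
  R.ι_inj (by rw [R.ι_comm, h0 s hs])

include h0 in
lemma res_trivialM : ∀ s ∈ V, ∀ m, R.ρM s m = m := fun s hs m => by
  obtain ⟨x, rfl⟩ := R.π_surj m
  rw [← R.π_comm, h0 s hs]

/-- The resolution over `G ⧸ V` when `V` acts trivially on `P₀`. -/
def resQuot [V.Normal] : Res k (G ⧸ V) P1 P0 M where
  ρ1 := quotRep V R.ρ1 (res_trivial1 R V h0)
  ρ0 := quotRep V R.ρ0 h0
  ρM := quotRep V R.ρM (res_trivialM R V h0)
  ι := R.ι
  ι_comm := fun q x => by
    induction q using QuotientGroup.induction_on with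
    | H g => exact R.ι_comm g x
  ι_inj := R.ι_inj
  π := R.π
  π_comm := fun q x => by
    induction q using QuotientGroup.induction_on with
    | H g => exact R.π_comm g x
  π_surj := R.π_surj
  exact := R.exact

end ResQuot

variable (R : Res k G P1 P0 M) (ρC : Representation k G C) (V : Subgroup G) [V.Normal]
  (h0 : ∀ s ∈ V, ∀ x, R.ρ0 s x = x)

omit [V.Normal] in
include h0 in
/-- `π` is surjective on `V`-invariants for `K(P; C)` when `V` acts trivially on `P₀`. -/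
lemma hπ_datum : ∀ a, FixedBy (R.datum ρC).ρA V a →
    ∃ x, FixedBy (R.datum ρC).ρF0 V x ∧ (R.datum ρC).π x = a :=
  descend_hπ_of_trivial (R.datum ρC) V h0

/-- **The descended datum of `K(P; C)` is `K(P; C^V)` over `G ⧸ V`.** -/
def descendIso :
    DatumIso (descend (R.datum ρC) V (hπ_datum R ρC V h0))
      ((resQuot R V h0).datum (fixedRep V ρC)) where
  eY0 := homFixedEquiv V R.ρ0 h0 ρC
  eY1 := homFixedEquiv V R.ρ1 (res_trivial1 R V h0) ρC
  eF0 := fixedEquivOfTrivial V R.ρ0 h0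
  eF1 := fixedEquivOfTrivial V R.ρ1 (res_trivial1 R V h0)
  eA := fixedEquivOfTrivial V R.ρM (res_trivialM R V h0)
  eX := LinearEquiv.refl k _
  ρY0_comm := fun q y => by
    induction q using QuotientGroup.induction_on with
    | H g => rfl
  ρY1_comm := fun q y => by
    induction q using QuotientGroup.induction_on with
    | H g => rfl
  ρF0_comm := fun q y => by
    induction q using QuotientGroup.induction_on with
    | H g => rfl
  ρF1_comm := fun q y => by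
    induction q using QuotientGroup.induction_on with
    | H g => rfl
  ρA_comm := fun q y => by
    induction q using QuotientGroup.induction_on with
    | H g => rfl
  ρX_comm := fun q y => by
    induction q using QuotientGroup.induction_on with
    | H g => rfl
  f_comm := fun y => rfl
  ι_comm := fun x => rfl
  π_comm := fun x => rfl
  ev0_comm := fun y x => rfl
  ev1_comm := fun y x => rfl

/-- `FinTNl` of the descended datum of `K(P; C)` from `FinTNl` of `K(P; C^V)` over `G ⧸ V`. -/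
theorem finTNl_descend (h : FinTNl ((resQuot R V h0).datum (fixedRep V ρC))) :
    FinTNl (descend (R.datum ρC) V (hπ_datum R ρC V h0)) :=
  (descendIso R ρC V h0).finTNl h

/-- `FinTNr` of the descended datum of `K(P; C)` from `FinTNr` of `K(P; C^V)` over `G ⧸ V`. -/
theorem finTNr_descend (h : FinTNr ((resQuot R V h0).datum (fixedRep V ρC))) :
    FinTNr (descend (R.datum ρC) V (hπ_datum R ρC V h0)) :=
  (descendIso R ρC V h0).finTNr h

/-- **The field `TNl` of `HypP` at `V` for `K(P; C)`** from the finite-group statement for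
`K(P; C^V)` over `G ⧸ V`. -/
theorem tnlAt_datum (h : FinTNl ((resQuot R V h0).datum (fixedRep V ρC))) :
    TNlAt (R.datum ρC) V :=
  tnlAt_of_descend (R.datum ρC) V (hπ_datum R ρC V h0) (finTNl_descend R ρC V h0 h)

/-- **The field `TNr` of `HypP` at `V` for `K(P; C)`**. -/
theorem tnrAt_datum (h : FinTNr ((resQuot R V h0).datum (fixedRep V ρC))) :
    TNrAt (R.datum ρC) V :=
  tnrAt_of_descend (R.datum ρC) V (hπ_datum R ρC V h0) (finTNr_descend R ρC V h0 h)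

/-- The same from `IndResTransport20.TNlProp` (any `Fintype` instance on `G ⧸ V`). -/
theorem tnlAt_datum_of_TNlProp [Fintype (G ⧸ V)]
    (h : TNlProp ((resQuot R V h0).datum (fixedRep V ρC))) : TNlAt (R.datum ρC) V :=
  tnlAt_datum R ρC V h0 ((finTNl_iff_TNlProp _).2 h)

/-- The same from `IndResTransport20.TNrProp`. -/
theorem tnrAt_datum_of_TNrProp (h : TNrProp ((resQuot R V h0).datum (fixedRep V ρC))) :
    TNrAt (R.datum ρC) V :=
  tnrAt_datum R ρC V h0 h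

/-- **`TNl` at level `V` from the `(0,2)` Tate–Nakayama statement** (`IndTN20.TN02lProp`) for
the induced module `P₁'` of the quotient resolution over the finite group `G ⧸ V`. -/
theorem tnlAt_datum_of_TN02 [Fintype (G ⧸ V)] [DecidableEq (G ⧸ V)] (p : ℕ)
    (hpM : ∀ m : M, (p : k) • m = 0)
    (hTN : IndTN20.TN02lProp (indρ1 (resQuot R V h0)) (fixedRep V ρC) p) :
    TNlAt (R.datum ρC) V :=
  tnlAt_datum_of_TNlProp R ρC V h0 (IndTN20.TNl (resQuot R V h0) (fixedRep V ρC) p hpM hTN)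

/-- **`TNr` at level `V` from the `(0,2)` Tate–Nakayama statement** (`IndTN20.TN02rProp`). -/
theorem tnrAt_datum_of_TN02 [Fintype (G ⧸ V)] [DecidableEq (G ⧸ V)] (p : ℕ)
    (hpM : ∀ m : M, (p : k) • m = 0)
    (hTN : IndTN20.TN02rProp (indρ1 (resQuot R V h0)) (fixedRep V ρC) p) :
    TNrAt (R.datum ρC) V :=
  tnrAt_datum_of_TNrProp R ρC V h0 (IndTN20.TNr (resQuot R V h0) (fixedRep V ρC) p hpM hTN)

end Quot

/-! ### Assembly of `HypP` for `K(P; C)` -/

section Assembly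

variable {G : Type*} [Group G] {P1 P0 M C : Type*} [AddCommGroup P1] [Module k P1]
  [AddCommGroup P0] [Module k P0] [AddCommGroup M] [Module k M] [AddCommGroup C] [Module k C]

/-- **`HypP` for `K(P; C)`**: from the level-`V` statements `TNlAt`, `TNrAt` (see
`tnlAt_datum_of_TN02`, …), "no `p`-torsion in `H¹(V/V'; C^{V'})`" and `RECN`; the field `HpAt`
is `HpAt29.hpAt_datum`. -/
theorem hypP_datum (R : Res k G P1 P0 M) (ρC : Representation k G C) {𝒰 ℱ : Set (Subgroup G)}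
    {p : ℕ} (h𝒰 : IsLevelBasis 𝒰) (hp : p.Prime) (hpM : ∀ m : M, (p : k) • m = 0)
    (hC : IsDiscrete 𝒰 ρC)
    (hsub : ℱ ⊆ 𝒰) (hnormal : ∀ V ∈ ℱ, V.Normal) (hcof : ∀ U ∈ 𝒰, ∃ V ∈ ℱ, V ≤ U)
    (hTNl : ∀ V ∈ ℱ, TNlAt (R.datum ρC) V) (hTNr : ∀ V ∈ ℱ, TNrAt (R.datum ρC) V)
    (hH1 : ∀ V ∈ ℱ, ∀ V' ∈ 𝒰, ∀ _ : V'.Normal, V' ≤ V →
      H1NoPTorsion (fixedRep V' ρC) (V.map (QuotientGroup.mk' V')) p)
    (hRECN : ∀ U ∈ ℱ, ∃ V ∈ ℱ, V ≤ U ∧ ∀ e, FixedBy (R.datum ρC).ρY1 V e →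
      ∃ n' : P1 →ₗ[k] C, (∀ g, (R.datum ρC).ρY1 g n' = n') ∧
        nrm (R.datum ρC).ρY1 V e = (p : k) • n') :
    HypP (R.datum ρC) 𝒰 ℱ p :=
  hypP_of_at (R.datum ρC) hsub hnormal hcof hTNl hTNr
    (fun V hV => by
      have := hnormal V hV
      exact inj2pAt_of_noPTorsion h𝒰 ρC hC V (hsub hV) hp (hH1 V hV))
    hRECN
    (fun V _ c y hcy => HpAt29.hpAt_datum R ρC p hpM V c y hcy)

/-- **`HypP` for `K(P; C)`, from finite-group statements**: `ℱ` acts trivially on `P₀`, and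
`FinTNl`, `FinTNr` hold for `K(P; C^V)` over `G ⧸ V`. -/
theorem hypP_datum_of_fin (R : Res k G P1 P0 M) (ρC : Representation k G C)
    {𝒰 ℱ : Set (Subgroup G)} {p : ℕ} (h𝒰 : IsLevelBasis 𝒰) (hp : p.Prime)
    (hpM : ∀ m : M, (p : k) • m = 0) (hC : IsDiscrete 𝒰 ρC)
    (hsub : ℱ ⊆ 𝒰) (hnormal : ∀ V ∈ ℱ, V.Normal) (hcof : ∀ U ∈ 𝒰, ∃ V ∈ ℱ, V ≤ U)
    (h0 : ∀ V ∈ ℱ, ∀ s ∈ V, ∀ x, R.ρ0 s x = x)
    (hTNl : ∀ V (hV : V ∈ ℱ), haveI := hnormal V hV;
      FinTNl ((resQuot R V (h0 V hV)).datum (fixedRep V ρC)))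
    (hTNr : ∀ V (hV : V ∈ ℱ), haveI := hnormal V hV;
      FinTNr ((resQuot R V (h0 V hV)).datum (fixedRep V ρC)))
    (hH1 : ∀ V ∈ ℱ, ∀ V' ∈ 𝒰, ∀ _ : V'.Normal, V' ≤ V →
      H1NoPTorsion (fixedRep V' ρC) (V.map (QuotientGroup.mk' V')) p)
    (hRECN : ∀ U ∈ ℱ, ∃ V ∈ ℱ, V ≤ U ∧ ∀ e, FixedBy (R.datum ρC).ρY1 V e →
      ∃ n' : P1 →ₗ[k] C, (∀ g, (R.datum ρC).ρY1 g n' = n') ∧
        nrm (R.datum ρC).ρY1 V e = (p : k) • n') :
    HypP (R.datum ρC) 𝒰 ℱ p :=
  hypP_datum R ρC h𝒰 hp hpM hC hsub hnormal hcof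
    (fun V hV => by
      have := hnormal V hV
      exact tnlAt_datum R ρC V (h0 V hV) (hTNl V hV))
    (fun V hV => by
      have := hnormal V hV
      exact tnrAt_datum R ρC V (h0 V hV) (hTNr V hV))
    hH1 hRECN

end Assembly

end Fermat.Agent.PT.PRO.DescendRes18
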