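/-
Program F (S55, Poitou–Tate), chapter PRO, helper11 (row 389, "RECN11").

`NormTrans11`:
(a) generic norm transitivity for `ρ : Representation k G Y`, `V ≤ U ≤ G` of finite index and a
    `V`-fixed vector `e`:
      `GlobalDuality20.nrm ρ V e = nrm ρ U (relNrm ρ U V e)`,
    where `relNrm ρ U V e = ∑ r ∈ U/V, r̃ e` is the relative norm `N_{U/V}`;
(b) the field `RECN` of `GlobalDuality20b.HypP` for the datum `K(P; C) = R.datum ρC`, from
    * every member of `ℱ` has finite index and acts trivially on `P₁`, `P₁` free,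
    * (GEXnorm) for every `U ∈ ℱ` there is `V ∈ ℱ`, `V ≤ U`, with `N_{U/V} C^V ⊆ p C^U`.
-/
import Mathlib
import Fermat.Agent.PT.PRO.GlobalDuality20b
import Fermat.Agent.PT.PRO.IndRes20

set_option autoImplicit false

namespace Fermat.Agent.PT.PRO.NormTrans11

open Fermat.Agent.PT.PRO.HyperLevel25 Fermat.Agent.PT.PRO.Pairing20
open Fermat.Agent.PT.PRO.GlobalDuality20 Fermat.Agent.PT.PRO.IndRes20

variable {k : Type*} [CommRing k] {G : Type*} [Group G]

section Generic

variable {Y : Type*} [AddCommGroup Y] [Module k Y]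

/-- On a `V`-fixed vector, `ρ g e` depends only on the coset `g V`. -/
lemma apply_eq_of_mk_eq {ρ : Representation k G Y} {V : Subgroup G} {e : Y} (he : FixedBy ρ V e)
    {g h : G} (hgh : (g : G ⧸ V) = (h : G ⧸ V)) : ρ g e = ρ h e := by
  have h1 : g⁻¹ * h ∈ V := QuotientGroup.eq.1 hgh
  have h2 : ρ h e = ρ (g * (g⁻¹ * h)) e := by
    congr 2; group
  rw [h2, map_mul, Module.End.mul_apply, he _ h1]

/-- The norm as a sum over an arbitrary system of representatives. -/
lemma nrm_eq_sum {ρ : Representation k G Y} {V : Subgroup G} [Fintype (G ⧸ V)] {e : Y}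
    (he : FixedBy ρ V e) (f : G ⧸ V → G) (hf : ∀ q, (f q : G ⧸ V) = q) :
    nrm ρ V e = ∑ q : G ⧸ V, ρ (f q) e := by
  unfold nrm
  rw [finsum_eq_sum_of_fintype]
  refine Finset.sum_congr rfl (fun q _ => apply_eq_of_mk_eq he ?_)
  rw [hf q]
  exact QuotientGroup.out_eq' q

lemma nrm_eq_sum_out {ρ : Representation k G Y} {V : Subgroup G} [Fintype (G ⧸ V)] (e : Y) :
    nrm ρ V e = ∑ q : G ⧸ V, ρ (Quotient.out q) e := by
  unfold nrm
  rw [finsum_eq_sum_of_fintype]

/-- The norm of a `U`-fixed vector is `G`-fixed (`U` of finite index). -/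
theorem nrm_fixed {ρ : Representation k G Y} {U : Subgroup G} [U.FiniteIndex] {e : Y}
    (he : FixedBy ρ U e) (g : G) : ρ g (nrm ρ U e) = nrm ρ U e := by
  have : Fintype (G ⧸ U) := Fintype.ofFinite _
  rw [nrm_eq_sum_out, map_sum]
  have h1 : ∀ q : G ⧸ U, ρ g (ρ (Quotient.out q) e) = ρ (Quotient.out (g • q)) e := by
    intro q
    rw [← Module.End.mul_apply, ← map_mul]
    refine apply_eq_of_mk_eq he ?_
    rw [QuotientGroup.out_eq']
    conv_rhs => rw [← QuotientGroup.out_eq' q]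
    rfl
  simp only [h1]
  exact Fintype.sum_equiv (MulAction.toPerm g) _ _ (fun q => rfl)

lemma nrm_smul {ρ : Representation k G Y} {U : Subgroup G} [U.FiniteIndex] (r : k) (e : Y) :
    nrm ρ U (r • e) = r • nrm ρ U e := by
  have : Fintype (G ⧸ U) := Fintype.ofFinite _
  rw [nrm_eq_sum_out, nrm_eq_sum_out, Finset.smul_sum]
  simp only [map_smul]

/-- The relative norm `N_{U/V} e = ∑_{r ∈ U/V} r̃ e` (`V ≤ U`; meaningful for `V`-fixed `e`). -/
noncomputable def relNrm (ρ : Representation k G Y) (U V : Subgroup G) (e : Y) : Y :=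
  nrm (ρ.comp U.subtype) (V.subgroupOf U) e

lemma relNrm_def (ρ : Representation k G Y) (U V : Subgroup G) (e : Y) :
    relNrm ρ U V e = ∑ᶠ r : ↥U ⧸ V.subgroupOf U, ρ ((Quotient.out r : ↥U) : G) e := rfl

lemma fixedBy_comp_subtype {ρ : Representation k G Y} {U V : Subgroup G} {e : Y}
    (he : FixedBy ρ V e) : FixedBy (ρ.comp U.subtype) (V.subgroupOf U) e :=
  fun s hs => he (s : G) (Subgroup.mem_subgroupOf.1 hs)

/-- The relative norm as a sum over an arbitrary system of representatives. -/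
lemma relNrm_eq_sum {ρ : Representation k G Y} {U V : Subgroup G}
    [Fintype (↥U ⧸ V.subgroupOf U)] {e : Y} (he : FixedBy ρ V e)
    (f : ↥U ⧸ V.subgroupOf U → ↥U) (hf : ∀ q, (f q : ↥U ⧸ V.subgroupOf U) = q) :
    relNrm ρ U V e = ∑ r : ↥U ⧸ V.subgroupOf U, ρ (f r : G) e :=
  nrm_eq_sum (fixedBy_comp_subtype he) f hf

/-- The relative norm of a `V`-fixed vector is `U`-fixed. -/
theorem relNrm_fixed {ρ : Representation k G Y} {U V : Subgroup G} [V.FiniteIndex] {e : Y}
    (he : FixedBy ρ V e) : FixedBy ρ U (relNrm ρ U V e) := by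
  intro s hs
  have h := nrm_fixed (ρ := ρ.comp U.subtype) (fixedBy_comp_subtype he) (⟨s, hs⟩ : ↥U)
  exact h

/-- **Norm transitivity**: `N_{G/V} = N_{G/U} ∘ N_{U/V}` on `V`-fixed vectors. -/
theorem nrm_trans {ρ : Representation k G Y} {U V : Subgroup G} (hVU : V ≤ U) [V.FiniteIndex]
    {e : Y} (he : FixedBy ρ V e) : nrm ρ V e = nrm ρ U (relNrm ρ U V e) := by
  have : U.FiniteIndex := Subgroup.finiteIndex_of_le hVU
  have : Fintype (G ⧸ V) := Fintype.ofFinite _
  have : Fintype (G ⧸ U) := Fintype.ofFinite _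
  have : Fintype (↥U ⧸ V.subgroupOf U) := Fintype.ofFinite _
  have hrel : relNrm ρ U V e = ∑ r : ↥U ⧸ V.subgroupOf U, ρ ((Quotient.out r : ↥U) : G) e :=
    nrm_eq_sum_out (ρ := ρ.comp U.subtype) (V := V.subgroupOf U) e
  rw [nrm_eq_sum_out (V := U), hrel, nrm_eq_sum_out (V := V)]
  simp only [map_sum]
  rw [← Finset.sum_product']
  let E := Subgroup.quotientEquivProdOfLE hVU
  refine Fintype.sum_equiv E _ _ (fun x => ?_)
  show ρ (Quotient.out x) e = ρ (Quotient.out (E x).1) (ρ ((Quotient.out (E x).2 : ↥U) : G) e)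
  rw [← Module.End.mul_apply, ← map_mul]
  refine apply_eq_of_mk_eq he ?_
  rw [QuotientGroup.out_eq']
  have h1 : x = E.symm (E x) := (E.symm_apply_apply x).symm
  conv_lhs => rw [h1]
  rw [Subgroup.quotientEquivProdOfLE_symm_apply]
  conv_lhs => rw [← QuotientGroup.out_eq' (E x).2]
  rfl

end Generic

section RECN

variable {P1 P0 M C : Type*} [AddCommGroup P1] [Module k P1] [AddCommGroup P0] [Module k P0]
  [AddCommGroup M] [Module k M] [AddCommGroup C] [Module k C]

/-- If `U` acts trivially on `P₁`, a homomorphism `P₁ → C` is `U`-fixed iff its values are. -/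
lemma fixedBy_linHom_iff {ρ1 : Representation k G P1} {ρC : Representation k G C}
    {U : Subgroup G} (htriv : ∀ s ∈ U, ∀ x, ρ1 s x = x) (e : P1 →ₗ[k] C) :
    FixedBy (Representation.linHom ρ1 ρC) U e ↔ ∀ x, FixedBy ρC U (e x) := by
  constructor
  · intro h x s hs
    have h1 := LinearMap.congr_fun (h s hs) x
    simpa only [Representation.linHom_apply, LinearMap.comp_apply,
      htriv s⁻¹ (U.inv_mem hs) x] using h1
  · intro h s hs
    ext x
    simp only [Representation.linHom_apply, LinearMap.comp_apply, htriv s⁻¹ (U.inv_mem hs) x]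
    exact h x s hs

/-- If `U` acts trivially on `P₁`, the relative norm on `Hom(P₁, C)` is computed valuewise. -/
lemma relNrm_linHom_apply {ρ1 : Representation k G P1} {ρC : Representation k G C}
    {U V : Subgroup G} [V.FiniteIndex] (htriv : ∀ s ∈ U, ∀ x, ρ1 s x = x) (e : P1 →ₗ[k] C)
    (x : P1) : relNrm (Representation.linHom ρ1 ρC) U V e x = relNrm ρC U V (e x) := by
  have : Fintype (↥U ⧸ V.subgroupOf U) := Fintype.ofFinite _
  have h1 : relNrm (Representation.linHom ρ1 ρC) U V e =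
      ∑ r : ↥U ⧸ V.subgroupOf U,
        Representation.linHom ρ1 ρC ((Quotient.out r : ↥U) : G) e :=
    nrm_eq_sum_out (ρ := (Representation.linHom ρ1 ρC).comp U.subtype) (V := V.subgroupOf U) e
  have h2 : relNrm ρC U V (e x) =
      ∑ r : ↥U ⧸ V.subgroupOf U, ρC ((Quotient.out r : ↥U) : G) (e x) :=
    nrm_eq_sum_out (ρ := ρC.comp U.subtype) (V := V.subgroupOf U) (e x)
  rw [h1, h2, LinearMap.sum_apply]
  refine Finset.sum_congr rfl (fun r _ => ?_)
  simp only [Representation.linHom_apply, LinearMap.comp_apply]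
  rw [htriv _ (U.inv_mem (Quotient.out r : ↥U).2) x]

/-- **No universal norms modulo `p`, one step.**  If `U` (of finite index, `V ≤ U` of finite
index) acts trivially on the free module `P₁` and `N_{U/V} C^V ⊆ p C^U`, then the norm from `V`
of any `V`-fixed `e : P₁ → C` is `p` times a `G`-fixed homomorphism. -/
theorem exists_nrm_eq_smul {ρ1 : Representation k G P1} {ρC : Representation k G C}
    [Module.Free k P1] {U V : Subgroup G} (hVU : V ≤ U) [V.FiniteIndex] (p : ℕ)
    (htriv : ∀ s ∈ U, ∀ x, ρ1 s x = x)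
    (hgex : ∀ x, FixedBy ρC V x → ∃ x', FixedBy ρC U x' ∧ relNrm ρC U V x = (p : k) • x')
    (e : P1 →ₗ[k] C) (he : FixedBy (Representation.linHom ρ1 ρC) V e) :
    ∃ n' : P1 →ₗ[k] C, (∀ g, Representation.linHom ρ1 ρC g n' = n') ∧
      nrm (Representation.linHom ρ1 ρC) V e = (p : k) • n' := by
  have : U.FiniteIndex := Subgroup.finiteIndex_of_le hVU
  have hval : ∀ x, FixedBy ρC V (e x) :=
    (fixedBy_linHom_iff (fun s hs => htriv s (hVU hs)) e).1 he
  let b := Module.Free.chooseBasis k P1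
  choose x' hx'fix hx'eq using fun i => hgex (e (b i)) (hval (b i))
  let e' : P1 →ₗ[k] C := b.constr k x'
  have he'b : ∀ i, e' (b i) = x' i := fun i => b.constr_basis k x' i
  have he'fix : FixedBy (Representation.linHom ρ1 ρC) U e' := by
    rw [fixedBy_linHom_iff htriv]
    intro x s hs
    have h1 : (ρC s) ∘ₗ e' = e' := by
      refine b.ext (fun i => ?_)
      rw [LinearMap.comp_apply, he'b, hx'fix i s hs]
    exact LinearMap.congr_fun h1 x
  have hrel : relNrm (Representation.linHom ρ1 ρC) U V e = (p : k) • e' := by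
    refine b.ext (fun i => ?_)
    rw [relNrm_linHom_apply htriv, LinearMap.smul_apply, he'b, hx'eq]
  refine ⟨nrm (Representation.linHom ρ1 ρC) U e', fun g => nrm_fixed he'fix g, ?_⟩
  rw [nrm_trans hVU he, hrel, nrm_smul]

/-- **`HypP.RECN` for `K(P; C)`.**  Verbatim the field `RECN` of `GlobalDuality20b.HypP` for the
datum `R.datum ρC`, from: members of `ℱ` have finite index and act trivially on the free module
`P₁`, and (GEXnorm): every `U ∈ ℱ` contains some `V ∈ ℱ` with `N_{U/V} C^V ⊆ p C^U`. -/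
theorem recn (R : Res k G P1 P0 M) (ρC : Representation k G C) [Module.Free k P1]
    (ℱ : Set (Subgroup G)) (p : ℕ) (hfin : ∀ V ∈ ℱ, V.FiniteIndex)
    (htriv : ∀ U ∈ ℱ, ∀ s ∈ U, ∀ x, R.ρ1 s x = x)
    (hgex : ∀ U ∈ ℱ, ∃ V ∈ ℱ, V ≤ U ∧ ∀ x, FixedBy ρC V x →
      ∃ x', FixedBy ρC U x' ∧ relNrm ρC U V x = (p : k) • x') :
    ∀ U ∈ ℱ, ∃ V ∈ ℱ, V ≤ U ∧ ∀ e, FixedBy (R.datum ρC).ρY1 V e →
      ∃ n' : P1 →ₗ[k] C, (∀ g, (R.datum ρC).ρY1 g n' = n') ∧
        nrm (R.datum ρC).ρY1 V e = (p : k) • n' := by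
  intro U hU
  obtain ⟨V, hV, hVU, hg⟩ := hgex U hU
  have := hfin V hV
  exact ⟨V, hV, hVU, fun e he => exists_nrm_eq_smul hVU p (htriv U hU) hg e he⟩

end RECN

end Fermat.Agent.PT.PRO.NormTrans11
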