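/-
Program F (S55, Poitou–Tate), chapter PRO, helper12.

`RightKernel12`: the RIGHT-kernel half of the limit argument `GlobalDuality20b`, under the weaker
set of hypotheses `HypR` (= `HypP` without `TNl` and without `RECN`).

This is the form used for the LOCAL data `(Γ_q, 𝒰_q, ℚ̄_q^×)`: there the final assembly
(`AssemblyAdd25.card_ker_eq_of_nondegenerate`, hypothesis `hlamr`) needs only the triviality of the
right kernel of the local pairing, and `RECN` (a norm form of the local existence theorem) is not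
available.

* `HypR D 𝒰 ℱ p`, `HypP.toHypR`;
* `right_kernel_r` : `GlobalDuality20b.right_kernel` from `HypR`;
* `hypR_of_at`, `hypR_of_descend`, `hypR_datum`, `hypR_datum_of_fin` : assembly of `HypR`
  (copies of `HyperColimP18.hypP_of_descend`, `DescendRes18.hypP_datum(_of_fin)` without the
  hypotheses `hTNl`, `hRECN`);
* `pair11_right_kernel_r` : `ExtPairingB4.pair11_right_kernel` from `HypR`.
-/
import Mathlib
import Fermat.Agent.PT.PRO.GlobalDuality20b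
import Fermat.Agent.PT.PRO.DescendRes18
import Fermat.Agent.PT.PRO.ExtPairingB4

set_option autoImplicit false

namespace Fermat.Agent.PT.PRO.RightKernel12

open Fermat.Agent.PT.PRO.HyperLevel25 Fermat.Agent.PT.PRO.Pairing20
  Fermat.Agent.PT.PRO.GlobalDuality20 Fermat.Agent.PT.PRO.GlobalDuality20b
  Fermat.Agent.PT.PRO.HyperColim18 Fermat.Agent.PT.PRO.HyperColimP18
  Fermat.Agent.PT.PRO.IndResTransport20 Fermat.Agent.PT.PRO.IndRes20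
  Fermat.Agent.PT.PRO.DescendRes18

section Abstract

variable {k : Type*} [CommRing k] {G : Type*} [Group G]
variable {Y0 Y1 F0 F1 A X : Type*}
  [AddCommGroup Y0] [Module k Y0] [AddCommGroup Y1] [Module k Y1]
  [AddCommGroup F0] [Module k F0] [AddCommGroup F1] [Module k F1]
  [AddCommGroup A] [Module k A] [AddCommGroup X] [Module k X]

variable (D : Datum k G Y0 Y1 F0 F1 A X)

/-- The finite-level hypotheses needed for the RIGHT kernel only: `HypP` without `TNl`, `RECN`. -/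
structure HypR (𝒰 : Set (Subgroup G)) (ℱ : Set (Subgroup G)) (p : ℕ) : Prop where
  sub : ℱ ⊆ 𝒰
  normal : ∀ V ∈ ℱ, V.Normal
  cofinal : ∀ U ∈ 𝒰, ∃ V ∈ ℱ, V ≤ U
  /-- hyper Tate–Nakayama at level `V`, right kernel = 0 -/
  TNr : ∀ V ∈ ℱ, ∀ (a' : G → F0) (b : G × G → F1), IsLiftAt D V a' b →
    (∀ c y, IsHyperAt D V c y → ∃ u, IsLevelAt₁ D.ρX V u ∧ D.pairFun c y a' b = dOne D.ρX u) →
    ∃ a₀ : A, ⇑D.π ∘ a' = dZero D.ρA a₀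
  /-- inflation `H²(G/V, X^V)[p] → H²(𝒰; X)` is injective -/
  INJ2p : ∀ V ∈ ℱ, ∀ φ : G × G → X, IsLevelAt₂ D.ρX V φ →
    (∃ u, IsLevelAt₁ D.ρX V u ∧ (p : k) • φ = dOne D.ρX u) →
    (∃ u, IsLevel₁ 𝒰 u ∧ φ = dOne D.ρX u) → ∃ u, IsLevelAt₁ D.ρX V u ∧ φ = dOne D.ρX u
  /-- `p` kills the level-`V` hyper-1-cocycle classes, at level `V` -/
  HpAt : ∀ V ∈ ℱ, ∀ (c : G → Y0) (y : Y1), IsHyperAt D V c y →
    ∃ y₀ : Y0, FixedBy D.ρY0 V y₀ ∧ (p : k) • c = dZero D.ρY0 y₀ ∧ (p : k) • y = D.f y₀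

variable {D} {𝒰 ℱ : Set (Subgroup G)} {p : ℕ}

/-- `HypP` implies `HypR`. -/
theorem _root_.Fermat.Agent.PT.PRO.GlobalDuality20b.HypP.toHypR (H : HypP D 𝒰 ℱ p) :
    HypR D 𝒰 ℱ p :=
  ⟨H.sub, H.normal, H.cofinal, H.TNr, H.INJ2p, H.HpAt⟩

/-- `p` times the pairing of level-`V` data is a level-`V` coboundary. -/
lemma HypR.smul_pairFun (H : HypR D 𝒰 ℱ p) {V : Subgroup G} (hV : V ∈ ℱ) {c : G → Y0} {y : Y1}
    (hcy : IsHyperAt D V c y) {a' : G → F0} {b : G × G → F1} (hab : IsLiftAt D V a' b) :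
    ∃ u, IsLevelAt₁ D.ρX V u ∧ (p : k) • D.pairFun c y a' b = dOne D.ρX u := by
  obtain ⟨y₀, hy₀, h1, h2⟩ := H.HpAt V hV c y hcy
  refine ⟨fun g => D.ev0 y₀ (a' g),
    ⟨fun g s hs => by show D.ev0 y₀ (a' (g * s)) = D.ev0 y₀ (a' g); rw [hab.2.1.1 g s hs],
      fun g s hs => ?_⟩, ?_⟩
  · show D.ρX s (D.ev0 y₀ (a' g)) = D.ev0 y₀ (a' g)
    rw [← D.ev0_comm, hy₀ s hs, hab.2.1.2 g s hs]
  · rw [← D.pairFun_smul_left, h1, h2, D.pairFun_bdry_left y₀ hab.1]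

lemma HypR.exists_levelAt₁ (h𝒰 : IsLevelBasis 𝒰) (H : HypR D 𝒰 ℱ p) {Y : Type*} [AddCommGroup Y]
    [Module k Y] {ρ : Representation k G Y} (hρ : IsDiscrete 𝒰 ρ) {c : G → Y}
    (hc : IsLevel₁ 𝒰 c) (U : Subgroup G) (hU : U ∈ 𝒰) :
    ∃ V ∈ ℱ, V ≤ U ∧ IsLevelAt₁ ρ V c := by
  obtain ⟨W, hW, -, h1, h2⟩ := h𝒰.exists_normal_fixing hρ hc
  obtain ⟨W', hW', hle⟩ := h𝒰.inf W hW U hU
  obtain ⟨V, hV, hVle⟩ := H.cofinal W' hW'
  exact ⟨V, hV, hVle.trans (hle.trans inf_le_right),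
    ⟨fun g s hs => h1 g s ((hVle.trans (hle.trans inf_le_left)) hs),
     fun g s hs => h2 g s ((hVle.trans (hle.trans inf_le_left)) hs)⟩⟩

/-- **Right kernel** from the right-only hypotheses `HypR`. -/
theorem right_kernel_r (h𝒰 : IsLevelBasis 𝒰) (H : HypR D 𝒰 ℱ p) (hF0 : IsDiscrete 𝒰 D.ρF0)
    {a' : G → F0} {b : G × G → F1} (hab : D.IsLift a' b) (ha : IsLevel₁ 𝒰 a')
    (hpair : ∀ c y, D.IsHyperCocycle c y → IsLevel₁ 𝒰 c →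
      ∃ u, IsLevel₁ 𝒰 u ∧ D.pairFun c y a' b = dOne D.ρX u) :
    ∃ a₀ : A, ⇑D.π ∘ a' = dZero D.ρA a₀ := by
  obtain ⟨U, hU⟩ := h𝒰.nonempty
  obtain ⟨V, hV, -, haV⟩ := H.exists_levelAt₁ h𝒰 hF0 ha U hU
  have hVn := H.normal V hV
  have habV : IsLiftAt D V a' b := ⟨hab, haV, isLevelAt₂_of_isLift hVn hab haV⟩
  exact H.TNr V hV a' b habV (fun c y hcy => by
    obtain ⟨u, hu, hpu⟩ := hpair c y hcy.1 ⟨V, H.sub hV, hcy.2.1.1⟩
    exact H.INJ2p V hV _ (isLevelAt₂_pairFun D hVn hcy habV) (H.smul_pairFun hV hcy habV)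
      ⟨u, hu, hpu⟩)

/-- `HypR` from its fields stated one subgroup at a time. -/
theorem hypR_of_at (D : Datum k G Y0 Y1 F0 F1 A X) {𝒰 ℱ : Set (Subgroup G)} {p : ℕ}
    (hsub : ℱ ⊆ 𝒰) (hnormal : ∀ V ∈ ℱ, V.Normal) (hcof : ∀ U ∈ 𝒰, ∃ V ∈ ℱ, V ≤ U)
    (hTNr : ∀ V ∈ ℱ, TNrAt D V)
    (hINJ2p : ∀ V ∈ ℱ, INJ2pAt D.ρX 𝒰 V p)
    (hHpAt : ∀ V ∈ ℱ, ∀ (c : G → Y0) (y : Y1), IsHyperAt D V c y →
      ∃ y₀ : Y0, FixedBy D.ρY0 V y₀ ∧ (p : k) • c = dZero D.ρY0 y₀ ∧ (p : k) • y = D.f y₀) :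
    HypR D 𝒰 ℱ p :=
  ⟨hsub, hnormal, hcof, hTNr, hINJ2p, hHpAt⟩

/-- **Assembly**: `HypR` from the finite-group statements `FinTNr` for the descended data `D^V`
over `G ⧸ V` (`V ∈ ℱ`), "no `p`-torsion in `H¹(V/V'; X^{V'})`", and `HpAt`. -/
theorem hypR_of_descend (D : Datum k G Y0 Y1 F0 F1 A X) {𝒰 ℱ : Set (Subgroup G)} {p : ℕ}
    (h𝒰 : IsLevelBasis 𝒰) (hp : p.Prime) (hX : IsDiscrete 𝒰 D.ρX)
    (hsub : ℱ ⊆ 𝒰) (hnormal : ∀ V ∈ ℱ, V.Normal) (hcof : ∀ U ∈ 𝒰, ∃ V ∈ ℱ, V ≤ U)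
    (hπ : ∀ V ∈ ℱ, ∀ a, FixedBy D.ρA V a → ∃ x, FixedBy D.ρF0 V x ∧ D.π x = a)
    (hTNr : ∀ V (hV : V ∈ ℱ), haveI := hnormal V hV; FinTNr (descend D V (hπ V hV)))
    (hH1 : ∀ V ∈ ℱ, ∀ V' ∈ 𝒰, ∀ _ : V'.Normal, V' ≤ V →
      H1NoPTorsion (fixedRep V' D.ρX) (V.map (QuotientGroup.mk' V')) p)
    (hHpAt : ∀ V ∈ ℱ, ∀ (c : G → Y0) (y : Y1), IsHyperAt D V c y →
      ∃ y₀ : Y0, FixedBy D.ρY0 V y₀ ∧ (p : k) • c = dZero D.ρY0 y₀ ∧ (p : k) • y = D.f y₀) :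
    HypR D 𝒰 ℱ p :=
  hypR_of_at D hsub hnormal hcof
    (fun V hV => by
      have := hnormal V hV
      exact tnrAt_of_descend D V (hπ V hV) (hTNr V hV))
    (fun V hV => by
      have := hnormal V hV
      exact inj2pAt_of_noPTorsion h𝒰 D.ρX hX V (hsub hV) hp (hH1 V hV))
    hHpAt

end Abstract

/-! ### Assembly of `HypR` for `K(P; C)` -/

section Assembly

variable {k : Type*} [CommRing k]
variable {G : Type*} [Group G] {P1 P0 M C : Type*} [AddCommGroup P1] [Module k P1]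
  [AddCommGroup P0] [Module k P0] [AddCommGroup M] [Module k M] [AddCommGroup C] [Module k C]

/-- **`HypR` for `K(P; C)`**: from the level-`V` statements `TNrAt` (see
`DescendRes18.tnrAt_datum_of_TN02`, …) and "no `p`-torsion in `H¹(V/V'; C^{V'})`"; the field
`HpAt` is `HpAt29.hpAt_datum`. -/
theorem hypR_datum (R : Res k G P1 P0 M) (ρC : Representation k G C) {𝒰 ℱ : Set (Subgroup G)}
    {p : ℕ} (h𝒰 : IsLevelBasis 𝒰) (hp : p.Prime) (hpM : ∀ m : M, (p : k) • m = 0)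
    (hC : IsDiscrete 𝒰 ρC)
    (hsub : ℱ ⊆ 𝒰) (hnormal : ∀ V ∈ ℱ, V.Normal) (hcof : ∀ U ∈ 𝒰, ∃ V ∈ ℱ, V ≤ U)
    (hTNr : ∀ V ∈ ℱ, TNrAt (R.datum ρC) V)
    (hH1 : ∀ V ∈ ℱ, ∀ V' ∈ 𝒰, ∀ _ : V'.Normal, V' ≤ V →
      H1NoPTorsion (fixedRep V' ρC) (V.map (QuotientGroup.mk' V')) p) :
    HypR (R.datum ρC) 𝒰 ℱ p :=
  hypR_of_at (R.datum ρC) hsub hnormal hcof hTNr
    (fun V hV => by
      have := hnormal V hV
      exact inj2pAt_of_noPTorsion h𝒰 ρC hC V (hsub hV) hp (hH1 V hV))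
    (fun V _ c y hcy => HpAt29.hpAt_datum R ρC p hpM V c y hcy)

/-- **`HypR` for `K(P; C)`, from finite-group statements**: `ℱ` acts trivially on `P₀`, and
`FinTNr` holds for `K(P; C^V)` over `G ⧸ V`. -/
theorem hypR_datum_of_fin (R : Res k G P1 P0 M) (ρC : Representation k G C)
    {𝒰 ℱ : Set (Subgroup G)} {p : ℕ} (h𝒰 : IsLevelBasis 𝒰) (hp : p.Prime)
    (hpM : ∀ m : M, (p : k) • m = 0) (hC : IsDiscrete 𝒰 ρC)
    (hsub : ℱ ⊆ 𝒰) (hnormal : ∀ V ∈ ℱ, V.Normal) (hcof : ∀ U ∈ 𝒰, ∃ V ∈ ℱ, V ≤ U)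
    (h0 : ∀ V ∈ ℱ, ∀ s ∈ V, ∀ x, R.ρ0 s x = x)
    (hTNr : ∀ V (hV : V ∈ ℱ), haveI := hnormal V hV;
      FinTNr ((resQuot R V (h0 V hV)).datum (fixedRep V ρC)))
    (hH1 : ∀ V ∈ ℱ, ∀ V' ∈ 𝒰, ∀ _ : V'.Normal, V' ≤ V →
      H1NoPTorsion (fixedRep V' ρC) (V.map (QuotientGroup.mk' V')) p) :
    HypR (R.datum ρC) 𝒰 ℱ p :=
  hypR_datum R ρC h𝒰 hp hpM hC hsub hnormal hcof
    (fun V hV => by
      have := hnormal V hV
      exact tnrAt_datum R ρC V (h0 V hV) (hTNr V hV))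
    hH1

/-- **`HypR` for `K(P; C)`, directly from the raw `TN02rProp`** of the quotient resolutions. -/
theorem hypR_datum_of_TN02 (R : Res k G P1 P0 M) (ρC : Representation k G C)
    {𝒰 ℱ : Set (Subgroup G)} {p : ℕ} (h𝒰 : IsLevelBasis 𝒰) (hp : p.Prime)
    (hpM : ∀ m : M, (p : k) • m = 0) (hC : IsDiscrete 𝒰 ρC)
    (hsub : ℱ ⊆ 𝒰) (hnormal : ∀ V ∈ ℱ, V.Normal) (hcof : ∀ U ∈ 𝒰, ∃ V ∈ ℱ, V ≤ U)
    (hfin : ∀ V ∈ ℱ, V.FiniteIndex)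
    (h0 : ∀ V ∈ ℱ, ∀ s ∈ V, ∀ x, R.ρ0 s x = x)
    (hTN : ∀ V (hV : V ∈ ℱ), haveI := hnormal V hV;
      ∀ (_ : Fintype (G ⧸ V)) (_ : DecidableEq (G ⧸ V)),
        IndTN20.TN02rProp (indρ1 (resQuot R V (h0 V hV))) (fixedRep V ρC) p)
    (hH1 : ∀ V ∈ ℱ, ∀ V' ∈ 𝒰, ∀ _ : V'.Normal, V' ≤ V →
      H1NoPTorsion (fixedRep V' ρC) (V.map (QuotientGroup.mk' V')) p) :
    HypR (R.datum ρC) 𝒰 ℱ p :=
  hypR_datum R ρC h𝒰 hp hpM hC hsub hnormal hcof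
    (fun V hV => by
      have := hnormal V hV
      have := hfin V hV
      classical
      let _ : Fintype (G ⧸ V) := Fintype.ofFinite _
      exact tnrAt_datum_of_TN02 R ρC V (h0 V hV) p hpM (hTN V hV _ _))
    hH1

end Assembly

/-! ### The packaged form on `pair11` -/

section Packaged

open Function Fermat.Agent.PT.PRO.Resolved4 Fermat.Agent.PT.PRO.ExtPairing4
  Fermat.Agent.PT.PRO.ExtPairingB4

variable {k G : Type*} [CommRing k] [Group G] {𝒰 : Set (Subgroup G)}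
variable {Y0 Y1 P1 P0 M C : Type*}
  [AddCommGroup Y0] [Module k Y0] [AddCommGroup Y1] [Module k Y1]
  [AddCommGroup P1] [Module k P1] [AddCommGroup P0] [Module k P0]
  [AddCommGroup M] [Module k M] [AddCommGroup C] [Module k C]
variable {Y : Cx k 𝒰 Y0 Y1} {P : Resolved k 𝒰 P1 P0 M} {ρC : Representation k G C}
  (B : Pairing Y P ρC) (h𝒰 : IsLevelBasis 𝒰) (hC : IsDiscrete 𝒰 ρC)

/-- **Right kernel**, right-only hypotheses: under `HypR`, a class of `H¹(M)` pairing to zero with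
all of `ℍ¹(Y)` is zero. -/
theorem pair11_right_kernel_r {ℱ : Set (Subgroup G)} {p : ℕ}
    (H : HypR (toDatum B) 𝒰 ℱ p) (x : Hlev1 h𝒰 P.ρM P.discM)
    (h : ∀ ξ, pair11 B h𝒰 hC ξ x = 0) : x = 0 := by
  obtain ⟨x', hl, hc, rfl⟩ := cl1_surjective (h𝒰 := h𝒰) (ρC := P.ρM) (hC := P.discM) x
  obtain ⟨L, hL⟩ := Lift1.exists_lift (P := P) hl hc
  have hab : (toDatum B).IsLift L.xt L.y' := fun q => L.hy q.1 q.2
  obtain ⟨a₀, ha₀⟩ := right_kernel_r (D := toDatum B) h𝒰 H P.disc0 hab L.lev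
    (fun c y hcy hcl => by
      let ξ' : HZ1 Y := ⟨c, y, hcl, fun g h => congrFun hcy.1 (g, h), fun g => hcy.2 g⟩
      obtain ⟨u, hu, hdu⟩ := (pair11_eq_zero_iff B h𝒰 hC ξ' x' hl hc L hL).1 (h _)
      exact ⟨u, hu, hdu.symm⟩)
  have ha₀' : ⇑P.π ∘ L.xt = dZero P.ρM a₀ := ha₀
  rw [cl1_eq_zero_iff]
  refine ⟨a₀, ?_⟩
  rw [← ha₀']
  funext g
  exact hL g

end Packaged

end Fermat.Agent.PT.PRO.RightKernel12
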