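/-
Program F (S55, Poitou–Tate), chapter PRO.  Owner: helper18.

`HypPFund18`: **`GlobalDuality20b.HypP` for `K(P; C)` from fundamental classes at the finite
levels** (`k = ℤ`).  For a resolution `R : Res ℤ G P₁ P₀ M` (`P_i` finite free, `p M = 0`), a
discrete `G`-module `C`, a level basis `𝒰` and a cofinal family `ℱ` of normal members acting
trivially on `P₀`:

  fundamental classes at `p` on every `(G ⧸ V, C^V)` (`V ∈ 𝒰` normal)  +  (GEXnorm)
    ⟹  `HypP (R.datum ρC) 𝒰 ℱ p`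

(`TNl`, `TNr` from `TN02Final3.tn02l_raw/tn02r_raw` through `IndTN20` and `DescendRes18`; `INJ2p`
from `FundRaw18.hH1_of_h1`; `RECN` from `NormTrans11.recn`; `HpAt` from `HpAt29`).  Also the
right-only version for `RightKernel12.HypR` (local data: no `RECN`, no `TNl`).

THE `ℤ`-MODULE DIAMOND.  At `k = ℤ` the derived modules `P₀ →ₗ[ℤ] C`, `↥(fixedSub V ρC)`, … carry
their structural `Module ℤ` instances (built from the given instances on `P₀`, `C`), while type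
class search finds `AddCommGroup.toIntModule`; so a statement like `HypP (R.datum ρC) 𝒰 ℱ p`
cannot even be elaborated at `k = ℤ`.  We therefore wrap the statements in generic-`k` definitions
(`TNlAtDatum`, `TNrAtDatum`, `HypPDatum`, `HypRDatum`) whose arguments only involve the base
modules; they unfold (by `Iff.rfl`/`id`) to the generic statements with the structural instances.
-/
import Mathlib
import Fermat.Agent.PT.PRO.DescendRes18
import Fermat.Agent.PT.PRO.FundRaw18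
import Fermat.Agent.PT.PRO.NormTrans11
import Fermat.Agent.PT.PRO.RightKernel12
import Fermat.Agent.PT.FG.TN02Final3

set_option autoImplicit false

namespace Fermat.Agent.PT.PRO.HypPFund18

open Fermat.Agent.PT.PRO.HyperLevel25 Fermat.Agent.PT.PRO.Pairing20
  Fermat.Agent.PT.PRO.GlobalDuality20 Fermat.Agent.PT.PRO.GlobalDuality20b
  Fermat.Agent.PT.PRO.HyperColim18 Fermat.Agent.PT.PRO.HyperColimP18
  Fermat.Agent.PT.PRO.IndRes20 Fermat.Agent.PT.PRO.DescendRes18 Fermat.Agent.PT.PRO.FundRaw18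
  Fermat.Agent.PT.PRO.RightKernel12 Fermat.Agent.PT.PRO.NormTrans11
  Fermat.Agent.PT.FG.Interface8

open CategoryTheory groupCohomology

/-! ### Generic-`k` wrappers -/

section Wrappers

variable {k : Type*} [CommRing k] {G : Type*} [Group G] {P1 P0 M C : Type*}
  [AddCommGroup P1] [Module k P1] [AddCommGroup P0] [Module k P0] [AddCommGroup M] [Module k M]
  [AddCommGroup C] [Module k C]

/-- `TNlAt (R.datum ρC) V`, as a statement about `R`, `ρC` (base modules only). -/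
def TNlAtDatum (R : Res k G P1 P0 M) (ρC : Representation k G C) (V : Subgroup G) : Prop :=
  TNlAt (R.datum ρC) V

/-- `TNrAt (R.datum ρC) V`, as a statement about `R`, `ρC`. -/
def TNrAtDatum (R : Res k G P1 P0 M) (ρC : Representation k G C) (V : Subgroup G) : Prop :=
  TNrAt (R.datum ρC) V

/-- `HypP (R.datum ρC) 𝒰 ℱ p`, as a statement about `R`, `ρC`. -/
def HypPDatum (R : Res k G P1 P0 M) (ρC : Representation k G C) (𝒰 ℱ : Set (Subgroup G))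
    (p : ℕ) : Prop :=
  HypP (R.datum ρC) 𝒰 ℱ p

/-- `HypR (R.datum ρC) 𝒰 ℱ p`, as a statement about `R`, `ρC`. -/
def HypRDatum (R : Res k G P1 P0 M) (ρC : Representation k G C) (𝒰 ℱ : Set (Subgroup G))
    (p : ℕ) : Prop :=
  HypR (R.datum ρC) 𝒰 ℱ p

lemma HypPDatum.hypP {R : Res k G P1 P0 M} {ρC : Representation k G C} {𝒰 ℱ : Set (Subgroup G)}
    {p : ℕ} (h : HypPDatum R ρC 𝒰 ℱ p) : HypP (R.datum ρC) 𝒰 ℱ p := h

lemma HypRDatum.hypR {R : Res k G P1 P0 M} {ρC : Representation k G C} {𝒰 ℱ : Set (Subgroup G)}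
    {p : ℕ} (h : HypRDatum R ρC 𝒰 ℱ p) : HypR (R.datum ρC) 𝒰 ℱ p := h

lemma HypPDatum.hypRDatum {R : Res k G P1 P0 M} {ρC : Representation k G C}
    {𝒰 ℱ : Set (Subgroup G)} {p : ℕ} (h : HypPDatum R ρC 𝒰 ℱ p) : HypRDatum R ρC 𝒰 ℱ p :=
  HypP.toHypR h

/-- (GEXnorm): every `U ∈ ℱ` contains a `V ∈ ℱ` with `N_{U/V} C^V ⊆ p C^U`. -/
def GexNorm (ρC : Representation k G C) (ℱ : Set (Subgroup G)) (p : ℕ) : Prop :=
  ∀ U ∈ ℱ, ∃ V ∈ ℱ, V ≤ U ∧ ∀ x, FixedBy ρC V x →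
    ∃ x', FixedBy ρC U x' ∧ relNrm ρC U V x = (p : k) • x'

/-- `HypP` for `K(P; C)` from the level statements (generic `k`; wrapper form of
`DescendRes18.hypP_datum` + `NormTrans11.recn`). -/
theorem hypPDatum_of_at (R : Res k G P1 P0 M) (ρC : Representation k G C) [Module.Free k P1]
    {𝒰 ℱ : Set (Subgroup G)} {p : ℕ} (h𝒰 : IsLevelBasis 𝒰) (hp : p.Prime)
    (hpM : ∀ m : M, (p : k) • m = 0) (hC : IsDiscrete 𝒰 ρC)
    (hsub : ℱ ⊆ 𝒰) (hnormal : ∀ V ∈ ℱ, V.Normal) (hcof : ∀ U ∈ 𝒰, ∃ V ∈ ℱ, V ≤ U)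
    (h0 : ∀ V ∈ ℱ, ∀ s ∈ V, ∀ x, R.ρ0 s x = x)
    (hTNl : ∀ V ∈ ℱ, TNlAtDatum R ρC V) (hTNr : ∀ V ∈ ℱ, TNrAtDatum R ρC V)
    (hH1 : ∀ V ∈ ℱ, ∀ V' ∈ 𝒰, ∀ _ : V'.Normal, V' ≤ V →
      H1NoPTorsion (fixedRep V' ρC) (V.map (QuotientGroup.mk' V')) p)
    (hgex : GexNorm ρC ℱ p) : HypPDatum R ρC 𝒰 ℱ p :=
  hypP_datum R ρC h𝒰 hp hpM hC hsub hnormal hcof hTNl hTNr hH1
    (recn R ρC ℱ p (fun V hV => h𝒰.finiteIndex V (hsub hV))
      (fun U hU => res_trivial1 R U (h0 U hU)) hgex)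

/-- `HypR` for `K(P; C)` from the level statements (generic `k`). -/
theorem hypRDatum_of_at (R : Res k G P1 P0 M) (ρC : Representation k G C)
    {𝒰 ℱ : Set (Subgroup G)} {p : ℕ} (h𝒰 : IsLevelBasis 𝒰) (hp : p.Prime)
    (hpM : ∀ m : M, (p : k) • m = 0) (hC : IsDiscrete 𝒰 ρC)
    (hsub : ℱ ⊆ 𝒰) (hnormal : ∀ V ∈ ℱ, V.Normal) (hcof : ∀ U ∈ 𝒰, ∃ V ∈ ℱ, V ≤ U)
    (hTNr : ∀ V ∈ ℱ, TNrAtDatum R ρC V)
    (hH1 : ∀ V ∈ ℱ, ∀ V' ∈ 𝒰, ∀ _ : V'.Normal, V' ≤ V →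
      H1NoPTorsion (fixedRep V' ρC) (V.map (QuotientGroup.mk' V')) p) :
    HypRDatum R ρC 𝒰 ℱ p :=
  hypR_datum R ρC h𝒰 hp hpM hC hsub hnormal hcof hTNr hH1

/-- `P₁' = Fun(Q, P₀) ×_{P₀} P₁` is finite free over a PID when `P₀`, `P₁` are. -/
lemma free_finite_indP1 [IsDomain k] [IsPrincipalIdealRing k] [Fintype G]
    [Module.Free k P0] [Module.Finite k P0] [Module.Free k P1] [Module.Finite k P1]
    (R : Res k G P1 P0 M) :
    Module.Free k ↥(indP1 R) ∧ Module.Finite k ↥(indP1 R) := ⟨inferInstance, inferInstance⟩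

end Wrappers

/-! ### `k = ℤ`: the level statements from fundamental classes -/

section Int

variable {G : Type} [Group G] {P1 P0 M C : Type} [AddCommGroup P1] [Module ℤ P1]
  [AddCommGroup P0] [Module ℤ P0] [AddCommGroup M] [Module ℤ M] [AddCommGroup C] [Module ℤ C]
  [Module.Free ℤ P0] [Module.Finite ℤ P0] [Module.Free ℤ P1] [Module.Finite ℤ P1]

/-- **`TNl` at level `V`** for `K(P; C)` from a fundamental class on `(G ⧸ V, C^V)`. -/
theorem tnlAtDatum_of_isFundClass (R : Res ℤ G P1 P0 M) (ρC : Representation ℤ G C)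
    (V : Subgroup G) [V.Normal] [V.FiniteIndex] (h0 : ∀ s ∈ V, ∀ x, R.ρ0 s x = x) {p : ℕ}
    [Fact p.Prime] (hpM : ∀ m : M, p • m = 0) (u : H2 (fixedObj V ρC))
    (hu : IsFundClass p (fixedObj V ρC) u) : TNlAtDatum R ρC V := by
  classical
  have : Fintype (G ⧸ V) := Fintype.ofFinite _
  obtain ⟨hfree, hfin⟩ := free_finite_indP1 (resQuot R V h0)
  exact tnlAt_datum_of_TN02 R ρC V h0 p
    (fun m => (Nat.cast_smul_eq_nsmul ℤ p m).trans (hpM m))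
    (@Fermat.Agent.PT.FG.TN02Final3.tn02l_raw (G ⧸ V) _ ↥(indP1 (resQuot R V h0))
      ↥(fixedSub V ρC) _ (Submodule.module _) _ (Submodule.module _)
      (indρ1 (resQuot R V h0)) (fixedRep V ρC) _ p _ hfree hfin u hu)

/-- **`TNr` at level `V`** for `K(P; C)` from a fundamental class on `(G ⧸ V, C^V)`. -/
theorem tnrAtDatum_of_isFundClass (R : Res ℤ G P1 P0 M) (ρC : Representation ℤ G C)
    (V : Subgroup G) [V.Normal] [V.FiniteIndex] (h0 : ∀ s ∈ V, ∀ x, R.ρ0 s x = x) {p : ℕ}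
    [Fact p.Prime] (hpM : ∀ m : M, p • m = 0) (u : H2 (fixedObj V ρC))
    (hu : IsFundClass p (fixedObj V ρC) u) : TNrAtDatum R ρC V := by
  classical
  have : Fintype (G ⧸ V) := Fintype.ofFinite _
  obtain ⟨hfree, hfin⟩ := free_finite_indP1 (resQuot R V h0)
  exact tnrAt_datum_of_TN02 R ρC V h0 p
    (fun m => (Nat.cast_smul_eq_nsmul ℤ p m).trans (hpM m))
    (@Fermat.Agent.PT.FG.TN02Final3.tn02r_raw (G ⧸ V) _ ↥(indP1 (resQuot R V h0))
      ↥(fixedSub V ρC) _ (Submodule.module _) _ (Submodule.module _)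
      (indρ1 (resQuot R V h0)) (fixedRep V ρC) _ p _ hfree hfin u hu)

/-- **`HypP` for `K(P; C)` from fundamental classes at the finite levels** (global datum). -/
theorem hypPDatum_of_isFundClass (R : Res ℤ G P1 P0 M) (ρC : Representation ℤ G C)
    {𝒰 ℱ : Set (Subgroup G)} {p : ℕ} [Fact p.Prime] (h𝒰 : IsLevelBasis 𝒰)
    (hpM : ∀ m : M, p • m = 0) (hC : IsDiscrete 𝒰 ρC)
    (hsub : ℱ ⊆ 𝒰) (hnormal : ∀ V ∈ ℱ, V.Normal) (hcof : ∀ U ∈ 𝒰, ∃ V ∈ ℱ, V ≤ U)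
    (h0 : ∀ V ∈ ℱ, ∀ s ∈ V, ∀ x, R.ρ0 s x = x)
    (hfund : ∀ V ∈ 𝒰, ∀ hn : V.Normal, haveI := hn;
      ∃ u : H2 (fixedObj V ρC), IsFundClass p (fixedObj V ρC) u)
    (hgex : GexNorm ρC ℱ p) : HypPDatum R ρC 𝒰 ℱ p :=
  hypPDatum_of_at R ρC h𝒰 Fact.out (fun m => (Nat.cast_smul_eq_nsmul ℤ p m).trans (hpM m)) hC
    hsub hnormal hcof h0
    (fun V hV => by
      have := hnormal V hV
      have := h𝒰.finiteIndex V (hsub hV)
      obtain ⟨u, hu⟩ := hfund V (hsub hV) (hnormal V hV)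
      exact tnlAtDatum_of_isFundClass R ρC V (h0 V hV) hpM u hu)
    (fun V hV => by
      have := hnormal V hV
      have := h𝒰.finiteIndex V (hsub hV)
      obtain ⟨u, hu⟩ := hfund V (hsub hV) (hnormal V hV)
      exact tnrAtDatum_of_isFundClass R ρC V (h0 V hV) hpM u hu)
    (fun V _ => hH1_of_h1 ρC h𝒰 (fun V' hV' hn => by
      obtain ⟨u, hu⟩ := hfund V' hV' hn
      exact hu.h1) V)
    hgex

/-- **`HypR` for `K(P; C)` from fundamental classes at the finite levels** (local data: no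
`RECN`/GEXnorm needed). -/
theorem hypRDatum_of_isFundClass (R : Res ℤ G P1 P0 M) (ρC : Representation ℤ G C)
    {𝒰 ℱ : Set (Subgroup G)} {p : ℕ} [Fact p.Prime] (h𝒰 : IsLevelBasis 𝒰)
    (hpM : ∀ m : M, p • m = 0) (hC : IsDiscrete 𝒰 ρC)
    (hsub : ℱ ⊆ 𝒰) (hnormal : ∀ V ∈ ℱ, V.Normal) (hcof : ∀ U ∈ 𝒰, ∃ V ∈ ℱ, V ≤ U)
    (h0 : ∀ V ∈ ℱ, ∀ s ∈ V, ∀ x, R.ρ0 s x = x)
    (hfund : ∀ V ∈ 𝒰, ∀ hn : V.Normal, haveI := hn;
      ∃ u : H2 (fixedObj V ρC), IsFundClass p (fixedObj V ρC) u) :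
    HypRDatum R ρC 𝒰 ℱ p :=
  hypRDatum_of_at R ρC h𝒰 Fact.out (fun m => (Nat.cast_smul_eq_nsmul ℤ p m).trans (hpM m)) hC
    hsub hnormal hcof
    (fun V hV => by
      have := hnormal V hV
      have := h𝒰.finiteIndex V (hsub hV)
      obtain ⟨u, hu⟩ := hfund V (hsub hV) (hnormal V hV)
      exact tnrAtDatum_of_isFundClass R ρC V (h0 V hV) hpM u hu)
    (fun V _ => hH1_of_h1 ρC h𝒰 (fun V' hV' hn => by
      obtain ⟨u, hu⟩ := hfund V' hV' hn
      exact hu.h1) V)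

end Int

end Fermat.Agent.PT.PRO.HypPFund18
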