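/-
Program F (S55, Poitou–Tate), chapter PRO, helper25.

`HyperCompare25`: comparison theorems for the level hypercohomology of `HyperLevel25`.

* `Cx.ofRep ρ hρ` : the two-term complex `[N → 0]` of a discrete module `N`; its `ℍ^r` is the plain
  level cohomology `H^r(G, N)`.
* `bijective_mapℍ1_of_surjective`, `bijective_mapℍ2_of_surjective` : if `ι : [N → 0] → [Y⁰ -f→ Y¹]`
  identifies `N` with `ker f` and `f` is SURJECTIVE, then `ℍ^r(N) → ℍ^r(Y)` is bijective, `r = 1, 2`.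
  (For `Y^i = Hom(P_i, X)` with `X` `p`-divisible this is `Ext^r_G(A, X) = H^r(G, Hom(A, X))`.)
-/
import Fermat.Agent.PT.PRO.HyperLevel25

set_option autoImplicit false

namespace Fermat.Agent.PT.PRO.HyperCompare25

open Function Fermat.Agent.PT.PRO.HyperLevel25

variable {k G : Type*} [CommRing k] [Group G] {𝒰 : Set (Subgroup G)}

lemma isLevel₂_sub (h𝒰 : IsLevelBasis 𝒰) {X : Type*} [Sub X]
    {f f' : G × G → X} (hf : IsLevel₂ 𝒰 f) (hf' : IsLevel₂ 𝒰 f') : IsLevel₂ 𝒰 (f - f') := by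
  obtain ⟨U, hU, h⟩ := hf
  obtain ⟨U', hU', h'⟩ := hf'
  obtain ⟨W, hW, hWle⟩ := h𝒰.inf U hU U' hU'
  refine ⟨W, hW, fun g g' s s' hs hs' => ?_⟩
  simp only [Pi.sub_apply]
  rw [h g g' s s' (hWle hs).1 (hWle hs').1, h' g g' s s' (hWle hs).2 (hWle hs').2]

/-- The trivial representation on a module (used on `PUnit`). -/
def trivRep (k G : Type*) [CommRing k] [Group G] (Y : Type*) [AddCommGroup Y] [Module k Y] :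
    Representation k G Y := 1

/-- The two-term complex `[N → 0]` attached to a discrete module `N`. -/
def ofRep {N : Type*} [AddCommGroup N] [Module k N] (ρ : Representation k G N)
    (hρ : IsDiscrete 𝒰 ρ) (h𝒰 : IsLevelBasis 𝒰) : Cx k 𝒰 N PUnit.{1} where
  ρ0 := ρ
  ρ1 := trivRep k G PUnit.{1}
  f := 0
  comm _ _ := rfl
  disc0 := hρ
  disc1 _ := by
    obtain ⟨U, hU⟩ := h𝒰.nonempty
    exact ⟨U, hU, fun _ _ => rfl⟩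

section Compare

variable {A0 A1 B0 B1 : Type*}
  [AddCommGroup A0] [Module k A0] [AddCommGroup A1] [Module k A1]
  [AddCommGroup B0] [Module k B0] [AddCommGroup B1] [Module k B1]
  {A : Cx k 𝒰 A0 A1} {B : Cx k 𝒰 B0 B1}

/-- Hypotheses of the comparison: `A = [N → 0]`, `N = ker (f : B⁰ → B¹)`, `f` surjective. -/
structure IsKernelOfSurjective (ι : Cx.Hom A B) : Prop where
  sub : ∀ x : A1, x = 0
  inj : Injective ι.φ0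
  ker : ∀ b, B.f b = 0 → ∃ a, ι.φ0 a = b
  surj : Surjective B.f

variable {ι : Cx.Hom A B}

/-- Pointwise factorisation of a cochain killed by `f` through `ι`. -/
lemma IsKernelOfSurjective.exists_factor (h : IsKernelOfSurjective ι) {X : Type*} (c : X → B0)
    (hc : ⇑B.f ∘ c = 0) : ∃ τ : B0 → A0, ⇑ι.φ0 ∘ (τ ∘ c) = c := by
  classical
  refine ⟨fun n => if h : ∃ m, ι.φ0 m = n then h.choose else 0, ?_⟩
  funext x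
  have hx : B.f (c x) = 0 := congrFun hc x
  have hex' : ∃ m, ι.φ0 m = c x := h.ker _ hx
  simp only [Function.comp_apply, dif_pos hex']
  exact hex'.choose_spec

lemma IsKernelOfSurjective.fun_eq (h : IsKernelOfSurjective ι) {X : Type*} (u v : X → A1) :
    u = v := by
  funext x; rw [h.sub (u x), h.sub (v x)]

theorem surjective_mapℍ1 (h : IsKernelOfSurjective ι) (h𝒰 : IsLevelBasis 𝒰) :
    Surjective (ι.mapℍ1 h𝒰) := by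
  intro cls
  obtain ⟨z, rfl⟩ := (B.tot h𝒰).π1_surjective cls
  obtain ⟨hz1, hz2⟩ := (B.mem_Z1_iff h𝒰 z.1).1 z.2
  set c : G → B0 := z.1.1.1 with hc
  set e : B1 := z.1.1.2 with he
  have hclev : IsLevel₁ 𝒰 c := z.1.2
  obtain ⟨et, het⟩ := h.surj e
  -- the corrected cochain
  have hc₁lev : IsLevel₁ 𝒰 (c - dZero B.ρ0 et) :=
    h𝒰.isLevel₁_sub hclev (isLevel₁_dZero B.disc0 et)
  have hfc₁ : ⇑B.f ∘ (c - dZero B.ρ0 et) = 0 := by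
    have h1 : ⇑B.f ∘ (c - dZero B.ρ0 et) = ⇑B.f ∘ c - ⇑B.f ∘ dZero B.ρ0 et := by
      funext g; simp only [Function.comp_apply, Pi.sub_apply, map_sub]
    rw [h1, comp_dZero B.ρ0 B.ρ1 B.f B.comm, het, hz2, sub_self]
  obtain ⟨τ, hτ⟩ := h.exists_factor _ hfc₁
  set a : G → A0 := τ ∘ (c - dZero B.ρ0 et) with ha
  have halev : IsLevel₁ 𝒰 a := hc₁lev.comp τ
  have hda : dOne A.ρ0 a = 0 := by
    have : ⇑ι.φ0 ∘ dOne A.ρ0 a = ⇑ι.φ0 ∘ (0 : G × G → A0) := by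
      rw [comp_dOne A.ρ0 B.ρ0 ι.φ0 ι.comm0, hτ, map_sub, hz1, dOne_dZero, sub_zero]
      funext p; simp only [Function.comp_apply, Pi.zero_apply, map_zero]
    exact h.inj.comp_left this
  let x : K1lev k h𝒰 A0 A1 := ⟨(a, 0), halev⟩
  have hx : x ∈ (A.tot h𝒰).Z1 := (A.mem_Z1_iff h𝒰 x).2 ⟨hda, h.fun_eq _ _⟩
  refine ⟨(A.tot h𝒰).π1 ⟨x, hx⟩, ?_⟩
  show (ι.tot h𝒰).mapH1 _ = _
  rw [Cpx.Hom.mapH1_π1, Cpx.π1_eq_iff]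
  refine ⟨-et, ?_⟩
  apply Subtype.ext
  show B.D0 (-et) = ι.map1 (a, 0) - z.1.1
  rw [Cx.Hom.map1_apply, Cx.D0_apply]
  have hz : z.1.1 = (c, e) := rfl
  rw [hz]
  refine Prod.ext ?_ ?_
  · show dZero B.ρ0 (-et) = ⇑ι.φ0 ∘ a - c
    rw [hτ, map_neg]; abel
  · show B.f (-et) = ι.φ1 0 - e
    rw [map_neg, het, map_zero, zero_sub]

theorem injective_mapℍ1 (h : IsKernelOfSurjective ι) (h𝒰 : IsLevelBasis 𝒰) :
    Injective (ι.mapℍ1 h𝒰) := by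
  rw [injective_iff_map_eq_zero]
  intro cls hcls
  obtain ⟨z, rfl⟩ := (A.tot h𝒰).π1_surjective cls
  change (ι.tot h𝒰).mapH1 _ = 0 at hcls
  rw [Cpx.Hom.mapH1_π1, Cpx.π1_eq_zero_iff] at hcls
  obtain ⟨y, hy⟩ := hcls
  have hy' : B.D0 y = ι.map1 z.1.1 := congrArg Subtype.val hy
  rw [Cx.D0_apply, Cx.Hom.map1_apply, Prod.mk.injEq] at hy'
  obtain ⟨hy1, hy2⟩ := hy'
  have hfy : B.f y = 0 := by rw [hy2, h.sub z.1.1.2, map_zero]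
  obtain ⟨y', rfl⟩ := h.ker y hfy
  rw [Cpx.π1_eq_zero_iff]
  refine ⟨y', ?_⟩
  apply Subtype.ext
  show A.D0 y' = z.1.1
  rw [Cx.D0_apply]
  refine Prod.ext ?_ (by rw [h.sub (A.f y'), h.sub z.1.1.2])
  apply h.inj.comp_left
  show ⇑ι.φ0 ∘ dZero A.ρ0 y' = ⇑ι.φ0 ∘ z.1.1.1
  rw [comp_dZero A.ρ0 B.ρ0 ι.φ0 ι.comm0, hy1]

theorem surjective_mapℍ2 (h : IsKernelOfSurjective ι) (h𝒰 : IsLevelBasis 𝒰) :
    Surjective (ι.mapℍ2 h𝒰) := by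
  intro cls
  obtain ⟨z, rfl⟩ := (B.tot h𝒰).π2_surjective cls
  obtain ⟨hz1, hz2⟩ := (B.mem_Z2_iff h𝒰 z.1).1 z.2
  set c : G × G → B0 := z.1.1.1 with hc
  set e : G → B1 := z.1.1.2 with he
  have hclev : IsLevel₂ 𝒰 c := z.1.2.1
  have helev : IsLevel₁ 𝒰 e := z.1.2.2
  set et : G → B0 := Function.surjInv h.surj ∘ e with het
  have hetlev : IsLevel₁ 𝒰 et := helev.comp _
  have hfet : ⇑B.f ∘ et = e := by
    funext g; exact Function.surjInv_eq h.surj (e g)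
  have hc₁lev : IsLevel₂ 𝒰 (c - dOne B.ρ0 et) :=
    isLevel₂_sub h𝒰 hclev (h𝒰.isLevel₂_dOne B.disc0 hetlev)
  have hfc₁ : ⇑B.f ∘ (c - dOne B.ρ0 et) = 0 := by
    have h1 : ⇑B.f ∘ (c - dOne B.ρ0 et) = ⇑B.f ∘ c - ⇑B.f ∘ dOne B.ρ0 et := by
      funext g; simp only [Function.comp_apply, Pi.sub_apply, map_sub]
    rw [h1, comp_dOne B.ρ0 B.ρ1 B.f B.comm, hfet, hz2, sub_self]
  obtain ⟨τ, hτ⟩ := h.exists_factor _ hfc₁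
  set a : G × G → A0 := τ ∘ (c - dOne B.ρ0 et) with ha
  have halev : IsLevel₂ 𝒰 a := hc₁lev.comp τ
  have hda : dTwo A.ρ0 a = 0 := by
    have : ⇑ι.φ0 ∘ dTwo A.ρ0 a = ⇑ι.φ0 ∘ (0 : G × G × G → A0) := by
      rw [comp_dTwo A.ρ0 B.ρ0 ι.φ0 ι.comm0, hτ, map_sub, hz1, dTwo_dOne, sub_zero]
      funext p; simp only [Function.comp_apply, Pi.zero_apply, map_zero]
    exact h.inj.comp_left this
  let x : K2lev k h𝒰 A0 A1 := ⟨(a, 0), halev, h𝒰.isLevel₁_const 0⟩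
  have hx : x ∈ (A.tot h𝒰).Z2 := (A.mem_Z2_iff h𝒰 x).2 ⟨hda, h.fun_eq _ _⟩
  refine ⟨(A.tot h𝒰).π2 ⟨x, hx⟩, ?_⟩
  show (ι.tot h𝒰).mapH2 _ = _
  rw [Cpx.Hom.mapH2_π2, Cpx.π2_eq_iff]
  let w : K1lev k h𝒰 B0 B1 := ⟨(-et, 0), hetlev.comp (fun b => -b)⟩
  refine ⟨w, ?_⟩
  apply Subtype.ext
  show B.D1 (-et, 0) = ι.map2 (a, 0) - z.1.1
  rw [Cx.Hom.map2_apply, Cx.D1_apply]
  have hz : z.1.1 = (c, e) := rfl
  rw [hz]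
  refine Prod.ext ?_ ?_
  · show dOne B.ρ0 (-et) = ⇑ι.φ0 ∘ a - c
    rw [hτ, map_neg]; abel
  · show ⇑B.f ∘ (-et) - dZero B.ρ1 0 = ⇑ι.φ1 ∘ (0 : G → A1) - e
    rw [map_zero, sub_zero]
    funext g
    simp only [Function.comp_apply, Pi.neg_apply, Pi.sub_apply, Pi.zero_apply, map_neg, map_zero,
      zero_sub, neg_inj]
    exact congrFun hfet g

theorem injective_mapℍ2 (h : IsKernelOfSurjective ι) (h𝒰 : IsLevelBasis 𝒰) :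
    Injective (ι.mapℍ2 h𝒰) := by
  rw [injective_iff_map_eq_zero]
  intro cls hcls
  obtain ⟨z, rfl⟩ := (A.tot h𝒰).π2_surjective cls
  change (ι.tot h𝒰).mapH2 _ = 0 at hcls
  rw [Cpx.Hom.mapH2_π2, Cpx.π2_eq_zero_iff] at hcls
  obtain ⟨w, hw⟩ := hcls
  have hw' : B.D1 w.1 = ι.map2 z.1.1 := congrArg Subtype.val hw
  rw [Cx.D1_apply, Cx.Hom.map2_apply, Prod.mk.injEq] at hw'
  obtain ⟨hw1, hw2⟩ := hw'
  set b : G → B0 := w.1.1 with hb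
  set v : B1 := w.1.2 with hv
  have hblev : IsLevel₁ 𝒰 b := w.2
  obtain ⟨vt, hvt⟩ := h.surj v
  have hu0 : ⇑ι.φ1 ∘ z.1.1.2 = 0 := by
    funext g
    simp only [Function.comp_apply, Pi.zero_apply, h.sub (z.1.1.2 g), map_zero]
  have hb₁lev : IsLevel₁ 𝒰 (b - dZero B.ρ0 vt) :=
    h𝒰.isLevel₁_sub hblev (isLevel₁_dZero B.disc0 vt)
  have hfb₁ : ⇑B.f ∘ (b - dZero B.ρ0 vt) = 0 := by
    have h1 : ⇑B.f ∘ (b - dZero B.ρ0 vt) = ⇑B.f ∘ b - ⇑B.f ∘ dZero B.ρ0 vt := by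
      funext g; simp only [Function.comp_apply, Pi.sub_apply, map_sub]
    rw [h1, comp_dZero B.ρ0 B.ρ1 B.f B.comm, hvt, hw2, hu0]
  obtain ⟨τ, hτ⟩ := h.exists_factor _ hfb₁
  set a₁ : G → A0 := τ ∘ (b - dZero B.ρ0 vt) with ha₁
  have ha₁lev : IsLevel₁ 𝒰 a₁ := hb₁lev.comp τ
  rw [Cpx.π2_eq_zero_iff]
  let x : K1lev k h𝒰 A0 A1 := ⟨(a₁, 0), ha₁lev⟩
  refine ⟨x, ?_⟩
  apply Subtype.ext
  show A.D1 (a₁, 0) = z.1.1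
  rw [Cx.D1_apply]
  refine Prod.ext ?_ (h.fun_eq _ _)
  apply h.inj.comp_left
  show ⇑ι.φ0 ∘ dOne A.ρ0 a₁ = ⇑ι.φ0 ∘ z.1.1.1
  rw [comp_dOne A.ρ0 B.ρ0 ι.φ0 ι.comm0, hτ, map_sub, dOne_dZero, sub_zero, hw1]

theorem bijective_mapℍ1 (h : IsKernelOfSurjective ι) (h𝒰 : IsLevelBasis 𝒰) :
    Bijective (ι.mapℍ1 h𝒰) := ⟨injective_mapℍ1 h h𝒰, surjective_mapℍ1 h h𝒰⟩

theorem bijective_mapℍ2 (h : IsKernelOfSurjective ι) (h𝒰 : IsLevelBasis 𝒰) :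
    Bijective (ι.mapℍ2 h𝒰) := ⟨injective_mapℍ2 h h𝒰, surjective_mapℍ2 h h𝒰⟩

end Compare

/-! ## Termwise isomorphisms of four-term complexes -/

section AbstractIso

variable {X0 X1 X2 X3 Y0 Y1 Y2 Y3 : Type*}
  [AddCommGroup X0] [Module k X0] [AddCommGroup X1] [Module k X1]
  [AddCommGroup X2] [Module k X2] [AddCommGroup X3] [Module k X3]
  [AddCommGroup Y0] [Module k Y0] [AddCommGroup Y1] [Module k Y1]
  [AddCommGroup Y2] [Module k Y2] [AddCommGroup Y3] [Module k Y3]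
  {C : Cpx k X0 X1 X2 X3} {D : Cpx k Y0 Y1 Y2 Y3} (φ : Cpx.Hom C D)

theorem cpx_bijective_mapH1 (h0 : Surjective φ.m0) (h1 : Bijective φ.m1) (h2 : Injective φ.m2) :
    Bijective φ.mapH1 := by
  constructor
  · rw [injective_iff_map_eq_zero]
    intro cls hcls
    obtain ⟨z, rfl⟩ := C.π1_surjective cls
    rw [Cpx.Hom.mapH1_π1, Cpx.π1_eq_zero_iff] at hcls
    obtain ⟨y', hy'⟩ := hcls
    obtain ⟨y, rfl⟩ := h0 y'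
    rw [Cpx.π1_eq_zero_iff]
    refine ⟨y, h1.1 ?_⟩
    rw [φ.c0, hy']; rfl
  · intro cls
    obtain ⟨w, rfl⟩ := D.π1_surjective cls
    obtain ⟨z, hz⟩ := h1.2 w.1
    have hzmem : z ∈ C.Z1 := by
      rw [LinearMap.mem_ker]
      apply h2
      rw [φ.c1, hz, map_zero]
      exact w.2
    refine ⟨C.π1 ⟨z, hzmem⟩, ?_⟩
    rw [Cpx.Hom.mapH1_π1]
    congr 1
    exact Subtype.ext hz

theorem cpx_bijective_mapH2 (h1 : Surjective φ.m1) (h2 : Bijective φ.m2) (h3 : Injective φ.m3) :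
    Bijective φ.mapH2 := by
  constructor
  · rw [injective_iff_map_eq_zero]
    intro cls hcls
    obtain ⟨z, rfl⟩ := C.π2_surjective cls
    rw [Cpx.Hom.mapH2_π2, Cpx.π2_eq_zero_iff] at hcls
    obtain ⟨x', hx'⟩ := hcls
    obtain ⟨x, rfl⟩ := h1 x'
    rw [Cpx.π2_eq_zero_iff]
    refine ⟨x, h2.1 ?_⟩
    rw [φ.c1, hx']; rfl
  · intro cls
    obtain ⟨w, rfl⟩ := D.π2_surjective cls
    obtain ⟨z, hz⟩ := h2.2 w.1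
    have hzmem : z ∈ C.Z2 := by
      rw [LinearMap.mem_ker]
      apply h3
      rw [φ.c2, hz, map_zero]
      exact w.2
    refine ⟨C.π2 ⟨z, hzmem⟩, ?_⟩
    rw [Cpx.Hom.mapH2_π2]
    congr 1
    exact Subtype.ext hz

/-- Descend a linear map on 1-cocycles killing coboundaries to `H¹`. -/
def descH1 (C : Cpx k X0 X1 X2 X3) {N : Type*} [AddCommGroup N] [Module k N] (g : C.Z1 →ₗ[k] N)
    (hg : ∀ z ∈ C.B1, g z = 0) : C.H1 →ₗ[k] N :=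
  C.B1.liftQ g (fun z hz => LinearMap.mem_ker.2 (hg z hz))

@[simp] lemma descH1_π1 (C : Cpx k X0 X1 X2 X3) {N : Type*} [AddCommGroup N] [Module k N]
    (g : C.Z1 →ₗ[k] N) (hg : ∀ z ∈ C.B1, g z = 0) (z : C.Z1) :
    descH1 C g hg (C.π1 z) = g z := rfl

/-- Descend a linear map on 2-cocycles killing coboundaries to `H²`. -/
def descH2 (C : Cpx k X0 X1 X2 X3) {N : Type*} [AddCommGroup N] [Module k N] (g : C.Z2 →ₗ[k] N)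
    (hg : ∀ z ∈ C.B2, g z = 0) : C.H2 →ₗ[k] N :=
  C.B2.liftQ g (fun z hz => LinearMap.mem_ker.2 (hg z hz))

@[simp] lemma descH2_π2 (C : Cpx k X0 X1 X2 X3) {N : Type*} [AddCommGroup N] [Module k N]
    (g : C.Z2 →ₗ[k] N) (hg : ∀ z ∈ C.B2, g z = 0) (z : C.Z2) :
    descH2 C g hg (C.π2 z) = g z := rfl

end AbstractIso

/-! ## Plain level cohomology of a discrete module, and the cone sequence -/

section Plain

variable {Y : Type*} [AddCommGroup Y] [Module k Y]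

/-- The level cochain complex `Y → C¹_lev(Y) → C²_lev(Y) → C³(Y)` of a discrete module. -/
def plainCpx (h𝒰 : IsLevelBasis 𝒰) (ρ : Representation k G Y) (hρ : IsDiscrete 𝒰 ρ) :
    Cpx k Y (lev₁ k h𝒰 Y) (lev₂ k h𝒰 Y) (G × G × G → Y) where
  d0 := (dZero ρ).codRestrict (lev₁ k h𝒰 Y) (fun y => isLevel₁_dZero hρ y)
  d1 := (dOne ρ).restrict (fun _ hc => h𝒰.isLevel₂_dOne hρ hc)
  d2 := (dTwo ρ).comp (lev₂ k h𝒰 Y).subtype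
  d1_d0 y := Subtype.ext (dOne_dZero ρ y)
  d2_d1 c := dTwo_dOne ρ c.1

/-- Plain level cohomology `H¹(G, Y)`. -/
abbrev Hp1 (h𝒰 : IsLevelBasis 𝒰) (ρ : Representation k G Y) (hρ : IsDiscrete 𝒰 ρ) : Type _ :=
  (plainCpx h𝒰 ρ hρ).H1

/-- Plain level cohomology `H²(G, Y)`. -/
abbrev Hp2 (h𝒰 : IsLevelBasis 𝒰) (ρ : Representation k G Y) (hρ : IsDiscrete 𝒰 ρ) : Type _ :=
  (plainCpx h𝒰 ρ hρ).H2

lemma mem_plain_Z1_iff (h𝒰 : IsLevelBasis 𝒰) (ρ : Representation k G Y) (hρ : IsDiscrete 𝒰 ρ)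
    (c : lev₁ k h𝒰 Y) : c ∈ (plainCpx h𝒰 ρ hρ).Z1 ↔ dOne ρ c.1 = 0 := by
  rw [LinearMap.mem_ker, Subtype.ext_iff]; rfl

lemma mem_plain_Z2_iff (h𝒰 : IsLevelBasis 𝒰) (ρ : Representation k G Y) (hρ : IsDiscrete 𝒰 ρ)
    (c : lev₂ k h𝒰 Y) : c ∈ (plainCpx h𝒰 ρ hρ).Z2 ↔ dTwo ρ c.1 = 0 := by
  rw [LinearMap.mem_ker]; rfl

variable {Y' : Type*} [AddCommGroup Y'] [Module k Y']

/-- The morphism of plain complexes induced by an equivariant map. -/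
def plainHom (h𝒰 : IsLevelBasis 𝒰) {ρ : Representation k G Y} (hρ : IsDiscrete 𝒰 ρ)
    {ρ' : Representation k G Y'} (hρ' : IsDiscrete 𝒰 ρ') (f : Y →ₗ[k] Y')
    (hf : ∀ g y, f (ρ g y) = ρ' g (f y)) :
    Cpx.Hom (plainCpx h𝒰 ρ hρ) (plainCpx h𝒰 ρ' hρ') where
  m0 := f
  m1 := (f.compLeft G).restrict (fun _ hc => IsLevel₁.comp hc _)
  m2 := (f.compLeft (G × G)).restrict (fun _ hc => IsLevel₂.comp hc _)
  m3 := f.compLeft (G × G × G)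
  c0 y := Subtype.ext (comp_dZero ρ ρ' f hf y)
  c1 c := Subtype.ext (comp_dOne ρ ρ' f hf c.1)
  c2 c := comp_dTwo ρ ρ' f hf c.1

end Plain

section Cone

variable {Y0 Y1 : Type*} [AddCommGroup Y0] [Module k Y0] [AddCommGroup Y1] [Module k Y1]
variable (Y : Cx k 𝒰 Y0 Y1) (h𝒰 : IsLevelBasis 𝒰)

/-- The projection `Tot(Y) → C_lev(Y⁰)`. -/
def prHom : Cpx.Hom (Y.tot h𝒰) (plainCpx h𝒰 Y.ρ0 Y.disc0) where
  m0 := LinearMap.id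
  m1 := (LinearMap.fst k (G → Y0) Y1).restrict (fun _ hx => hx)
  m2 := (LinearMap.fst k (G × G → Y0) (G → Y1)).restrict (fun _ hx => hx.1)
  m3 := LinearMap.fst k (G × G × G → Y0) (G × G → Y1)
  c0 _ := rfl
  c1 _ := rfl
  c2 _ := rfl

/-- `ℍ¹(Y) → H¹(Y⁰)`. -/
def pr1 : Y.ℍ1 h𝒰 →ₗ[k] Hp1 h𝒰 Y.ρ0 Y.disc0 := (prHom Y h𝒰).mapH1

/-- `ℍ²(Y) → H²(Y⁰)`. -/
def pr2 : Y.ℍ2 h𝒰 →ₗ[k] Hp2 h𝒰 Y.ρ0 Y.disc0 := (prHom Y h𝒰).mapH2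

/-- `f_* : H¹(Y⁰) → H¹(Y¹)`. -/
def fstar1 : Hp1 h𝒰 Y.ρ0 Y.disc0 →ₗ[k] Hp1 h𝒰 Y.ρ1 Y.disc1 :=
  (plainHom h𝒰 Y.disc0 Y.disc1 Y.f Y.comm).mapH1

/-- `f_* : H²(Y⁰) → H²(Y¹)`. -/
def fstar2 : Hp2 h𝒰 Y.ρ0 Y.disc0 →ₗ[k] Hp2 h𝒰 Y.ρ1 Y.disc1 :=
  (plainHom h𝒰 Y.disc0 Y.disc1 Y.f Y.comm).mapH2

/-- The hyper-2-cocycle `(0, e)` attached to a level 1-cocycle `e` of `Y¹`. -/
def j2Z : (plainCpx h𝒰 Y.ρ1 Y.disc1).Z1 →ₗ[k] (Y.tot h𝒰).Z2 where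
  toFun e := ⟨⟨(0, e.1.1), h𝒰.isLevel₂_const 0, e.1.2⟩, by
    rw [Cx.mem_Z2_iff]
    refine ⟨map_zero _, ?_⟩
    have := (mem_plain_Z1_iff h𝒰 Y.ρ1 Y.disc1 e.1).1 e.2
    rw [this]
    funext p
    simp only [Function.comp_apply, Pi.zero_apply, map_zero]⟩
  map_add' _ _ := by
    apply Subtype.ext; apply Subtype.ext
    refine Prod.ext ?_ rfl
    show (0 : G × G → Y0) = 0 + 0
    rw [add_zero]
  map_smul' r _ := by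
    apply Subtype.ext; apply Subtype.ext
    refine Prod.ext ?_ rfl
    show (0 : G × G → Y0) = r • 0
    rw [smul_zero]

lemma coe_j2Z (e : (plainCpx h𝒰 Y.ρ1 Y.disc1).Z1) :
    ((j2Z Y h𝒰 e : (Y.tot h𝒰).Z2) : K2lev k h𝒰 Y0 Y1).1 = (0, e.1.1) := rfl

lemma coe_tot_d1 (x : K1lev k h𝒰 Y0 Y1) : ((Y.tot h𝒰).d1 x).1 = Y.D1 x.1 := rfl

lemma coe_tot_d0 (y : Y0) : ((Y.tot h𝒰).d0 y).1 = Y.D0 y := rfl

lemma j2Z_mem_ker (e : (plainCpx h𝒰 Y.ρ1 Y.disc1).Z1) (he : e ∈ (plainCpx h𝒰 Y.ρ1 Y.disc1).B1) :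
    (Y.tot h𝒰).π2 (j2Z Y h𝒰 e) = 0 := by
  rw [Cpx.π2_eq_zero_iff]
  obtain ⟨y, hy⟩ := ((plainCpx h𝒰 Y.ρ1 Y.disc1).mem_B1_iff e).1 he
  have hy' : dZero Y.ρ1 y = e.1.1 := congrArg Subtype.val hy
  refine ⟨⟨(0, -y), h𝒰.isLevel₁_const 0⟩, ?_⟩
  apply Subtype.ext
  rw [coe_tot_d1, coe_j2Z, Cx.D1_apply]
  refine Prod.ext (map_zero _) ?_
  show ⇑Y.f ∘ (0 : G → Y0) - dZero Y.ρ1 (-y) = e.1.1
  rw [map_neg, hy']
  funext g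
  simp only [Function.comp_apply, Pi.zero_apply, map_zero, Pi.sub_apply, Pi.neg_apply, zero_sub,
    neg_neg]

/-- `j : H¹(Y¹) → ℍ²(Y)`, `[e] ↦ [(0, e)]`. -/
def j2 : Hp1 h𝒰 Y.ρ1 Y.disc1 →ₗ[k] Y.ℍ2 h𝒰 :=
  descH1 (plainCpx h𝒰 Y.ρ1 Y.disc1) ((Y.tot h𝒰).π2.comp (j2Z Y h𝒰))
    (fun e he => j2Z_mem_ker Y h𝒰 e he)

lemma j2_π1 (e : (plainCpx h𝒰 Y.ρ1 Y.disc1).Z1) :
    j2 Y h𝒰 ((plainCpx h𝒰 Y.ρ1 Y.disc1).π1 e) = (Y.tot h𝒰).π2 (j2Z Y h𝒰 e) := rfl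

/-- Exactness of `H¹(Y⁰) → H¹(Y¹) → ℍ²(Y)`. -/
theorem exact_fstar1_j2 : Function.Exact (fstar1 Y h𝒰) (j2 Y h𝒰) := by
  intro cls
  obtain ⟨e, rfl⟩ := (plainCpx h𝒰 Y.ρ1 Y.disc1).π1_surjective cls
  rw [j2_π1, Cpx.π2_eq_zero_iff]
  constructor
  · rintro ⟨x, hx⟩
    have hx' : Y.D1 x.1 = (0, e.1.1) := congrArg Subtype.val hx
    rw [Cx.D1_apply, Prod.mk.injEq] at hx'
    obtain ⟨hx1, hx2⟩ := hx'
    let b : lev₁ k h𝒰 Y0 := ⟨x.1.1, x.2⟩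
    have hb : b ∈ (plainCpx h𝒰 Y.ρ0 Y.disc0).Z1 :=
      (mem_plain_Z1_iff h𝒰 Y.ρ0 Y.disc0 b).2 hx1
    refine ⟨(plainCpx h𝒰 Y.ρ0 Y.disc0).π1 ⟨b, hb⟩, ?_⟩
    show (plainHom h𝒰 Y.disc0 Y.disc1 Y.f Y.comm).mapH1 _ = _
    rw [Cpx.Hom.mapH1_π1, Cpx.π1_eq_iff]
    refine ⟨x.1.2, ?_⟩
    apply Subtype.ext
    show dZero Y.ρ1 x.1.2 = ⇑Y.f ∘ x.1.1 - e.1.1
    rw [← hx2]; abel
  · rintro ⟨cls0, hcls0⟩
    obtain ⟨b, rfl⟩ := (plainCpx h𝒰 Y.ρ0 Y.disc0).π1_surjective cls0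
    change (plainHom h𝒰 Y.disc0 Y.disc1 Y.f Y.comm).mapH1 _ = _ at hcls0
    rw [Cpx.Hom.mapH1_π1, Cpx.π1_eq_iff] at hcls0
    obtain ⟨y, hy⟩ := hcls0
    have hy' : dZero Y.ρ1 y = ⇑Y.f ∘ b.1.1 - e.1.1 := congrArg Subtype.val hy
    refine ⟨⟨(b.1.1, y), b.1.2⟩, ?_⟩
    apply Subtype.ext
    show Y.D1 (b.1.1, y) = (0, e.1.1)
    rw [Cx.D1_apply]
    refine Prod.ext ((mem_plain_Z1_iff h𝒰 Y.ρ0 Y.disc0 b.1).1 b.2) ?_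
    show ⇑Y.f ∘ b.1.1 - dZero Y.ρ1 y = e.1.1
    rw [hy']; abel

/-- Exactness of `H¹(Y¹) → ℍ²(Y) → H²(Y⁰)`. -/
theorem exact_j2_pr2 : Function.Exact (j2 Y h𝒰) (pr2 Y h𝒰) := by
  intro cls
  obtain ⟨z, rfl⟩ := (Y.tot h𝒰).π2_surjective cls
  show (prHom Y h𝒰).mapH2 _ = 0 ↔ _
  rw [Cpx.Hom.mapH2_π2, Cpx.π2_eq_zero_iff]
  obtain ⟨hz1, hz2⟩ := (Y.mem_Z2_iff h𝒰 z.1).1 z.2
  constructor
  · rintro ⟨b, hb⟩
    have hb' : dOne Y.ρ0 b.1 = z.1.1.1 := congrArg Subtype.val hb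
    -- z - D¹(b, 0) = (0, e - f ∘ b)
    have helev : IsLevel₁ 𝒰 (z.1.1.2 - ⇑Y.f ∘ b.1) :=
      h𝒰.isLevel₁_sub z.1.2.2 (IsLevel₁.comp b.2 _)
    let e' : lev₁ k h𝒰 Y1 := ⟨z.1.1.2 - ⇑Y.f ∘ b.1, helev⟩
    have he' : e' ∈ (plainCpx h𝒰 Y.ρ1 Y.disc1).Z1 := by
      rw [mem_plain_Z1_iff]
      show dOne Y.ρ1 (z.1.1.2 - ⇑Y.f ∘ b.1) = 0
      rw [map_sub, ← hz2, ← comp_dOne Y.ρ0 Y.ρ1 Y.f Y.comm, hb', sub_self]
    refine ⟨(plainCpx h𝒰 Y.ρ1 Y.disc1).π1 ⟨e', he'⟩, ?_⟩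
    rw [j2_π1, Cpx.π2_eq_iff]
    refine ⟨⟨(-b.1, 0), IsLevel₁.comp b.2 (fun y => -y)⟩, ?_⟩
    apply Subtype.ext
    show Y.D1 (-b.1, 0) = (0, z.1.1.2 - ⇑Y.f ∘ b.1) - z.1.1
    rw [Cx.D1_apply]
    refine Prod.ext ?_ ?_
    · show dOne Y.ρ0 (-b.1) = 0 - z.1.1.1
      rw [map_neg, hb', zero_sub]
    · show ⇑Y.f ∘ (-b.1) - dZero Y.ρ1 0 = (z.1.1.2 - ⇑Y.f ∘ b.1) - z.1.1.2
      rw [map_zero, sub_zero]
      funext g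
      simp only [Function.comp_apply, Pi.neg_apply, Pi.sub_apply, map_neg]
      abel
  · rintro ⟨cls1, hcls1⟩
    obtain ⟨e, rfl⟩ := (plainCpx h𝒰 Y.ρ1 Y.disc1).π1_surjective cls1
    rw [j2_π1, Cpx.π2_eq_iff] at hcls1
    obtain ⟨x, hx⟩ := hcls1
    have hx' : Y.D1 x.1 = (0, e.1.1) - z.1.1 := congrArg Subtype.val hx
    rw [Cx.D1_apply] at hx'
    have hx1 : dOne Y.ρ0 x.1.1 = 0 - z.1.1.1 := congrArg Prod.fst hx'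
    refine ⟨⟨-x.1.1, IsLevel₁.comp x.2 (fun y => -y)⟩, ?_⟩
    apply Subtype.ext
    show dOne Y.ρ0 (-x.1.1) = z.1.1.1
    rw [map_neg, hx1, zero_sub, neg_neg]

/-- Exactness of `ℍ²(Y) → H²(Y⁰) → H²(Y¹)`. -/
theorem exact_pr2_fstar2 : Function.Exact (pr2 Y h𝒰) (fstar2 Y h𝒰) := by
  intro cls
  obtain ⟨c, rfl⟩ := (plainCpx h𝒰 Y.ρ0 Y.disc0).π2_surjective cls
  show (plainHom h𝒰 Y.disc0 Y.disc1 Y.f Y.comm).mapH2 _ = 0 ↔ _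
  rw [Cpx.Hom.mapH2_π2, Cpx.π2_eq_zero_iff]
  have hc := (mem_plain_Z2_iff h𝒰 Y.ρ0 Y.disc0 c.1).1 c.2
  constructor
  · rintro ⟨e, he⟩
    have he' : dOne Y.ρ1 e.1 = ⇑Y.f ∘ c.1.1 := congrArg Subtype.val he
    let x : K2lev k h𝒰 Y0 Y1 := ⟨(c.1.1, e.1), c.1.2, e.2⟩
    have hx : x ∈ (Y.tot h𝒰).Z2 := (Y.mem_Z2_iff h𝒰 x).2 ⟨hc, he'.symm⟩
    refine ⟨(Y.tot h𝒰).π2 ⟨x, hx⟩, ?_⟩
    show (prHom Y h𝒰).mapH2 _ = _
    rw [Cpx.Hom.mapH2_π2]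
    rfl
  · rintro ⟨cls2, hcls2⟩
    obtain ⟨z, rfl⟩ := (Y.tot h𝒰).π2_surjective cls2
    change (prHom Y h𝒰).mapH2 _ = _ at hcls2
    rw [Cpx.Hom.mapH2_π2, Cpx.π2_eq_iff] at hcls2
    obtain ⟨b, hb⟩ := hcls2
    have hb' : dOne Y.ρ0 b.1 = z.1.1.1 - c.1.1 := congrArg Subtype.val hb
    obtain ⟨hz1, hz2⟩ := (Y.mem_Z2_iff h𝒰 z.1).1 z.2
    -- f ∘ c = f ∘ z₁ - f ∘ d b = d (e - f ∘ b)
    have helev : IsLevel₁ 𝒰 (z.1.1.2 - ⇑Y.f ∘ b.1) :=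
      h𝒰.isLevel₁_sub z.1.2.2 (IsLevel₁.comp b.2 _)
    refine ⟨⟨z.1.1.2 - ⇑Y.f ∘ b.1, helev⟩, ?_⟩
    apply Subtype.ext
    show dOne Y.ρ1 (z.1.1.2 - ⇑Y.f ∘ b.1) = ⇑Y.f ∘ c.1.1
    rw [map_sub, ← hz2, ← comp_dOne Y.ρ0 Y.ρ1 Y.f Y.comm, hb']
    funext p
    simp only [Function.comp_apply, Pi.sub_apply, map_sub]
    abel

/-- Exactness of `ℍ¹(Y) → H¹(Y⁰) → H¹(Y¹)`. -/
theorem exact_pr1_fstar1 : Function.Exact (pr1 Y h𝒰) (fstar1 Y h𝒰) := by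
  intro cls
  obtain ⟨c, rfl⟩ := (plainCpx h𝒰 Y.ρ0 Y.disc0).π1_surjective cls
  show (plainHom h𝒰 Y.disc0 Y.disc1 Y.f Y.comm).mapH1 _ = 0 ↔ _
  rw [Cpx.Hom.mapH1_π1, Cpx.π1_eq_zero_iff]
  have hc := (mem_plain_Z1_iff h𝒰 Y.ρ0 Y.disc0 c.1).1 c.2
  constructor
  · rintro ⟨e, he⟩
    have he' : dZero Y.ρ1 e = ⇑Y.f ∘ c.1.1 := congrArg Subtype.val he
    let x : K1lev k h𝒰 Y0 Y1 := ⟨(c.1.1, e), c.1.2⟩
    have hx : x ∈ (Y.tot h𝒰).Z1 := (Y.mem_Z1_iff h𝒰 x).2 ⟨hc, he'.symm⟩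
    refine ⟨(Y.tot h𝒰).π1 ⟨x, hx⟩, ?_⟩
    show (prHom Y h𝒰).mapH1 _ = _
    rw [Cpx.Hom.mapH1_π1]
    rfl
  · rintro ⟨cls2, hcls2⟩
    obtain ⟨z, rfl⟩ := (Y.tot h𝒰).π1_surjective cls2
    change (prHom Y h𝒰).mapH1 _ = _ at hcls2
    rw [Cpx.Hom.mapH1_π1, Cpx.π1_eq_iff] at hcls2
    obtain ⟨y, hy⟩ := hcls2
    have hy' : dZero Y.ρ0 y = z.1.1.1 - c.1.1 := congrArg Subtype.val hy
    obtain ⟨hz1, hz2⟩ := (Y.mem_Z1_iff h𝒰 z.1).1 z.2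
    refine ⟨z.1.1.2 - Y.f y, ?_⟩
    apply Subtype.ext
    show dZero Y.ρ1 (z.1.1.2 - Y.f y) = ⇑Y.f ∘ c.1.1
    rw [map_sub, ← hz2, ← comp_dZero Y.ρ0 Y.ρ1 Y.f Y.comm, hy']
    funext p
    simp only [Function.comp_apply, Pi.sub_apply, map_sub]
    abel

/-- The hyper-1-cocycle `(0, v)` attached to an invariant `v ∈ (Y¹)^G`. -/
noncomputable def j1Z : Y.ρ1.invariants →ₗ[k] (Y.tot h𝒰).Z1 where
  toFun v := ⟨⟨(0, v.1), h𝒰.isLevel₁_const 0⟩, by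
    rw [Cx.mem_Z1_iff]
    refine ⟨map_zero _, ?_⟩
    funext g
    have := (Representation.mem_invariants Y.ρ1 v.1).1 v.2 g
    simp only [Function.comp_apply, Pi.zero_apply, map_zero, dZero_apply, this, sub_self]⟩
  map_add' _ _ := by
    apply Subtype.ext; apply Subtype.ext
    refine Prod.ext ?_ rfl
    show (0 : G → Y0) = 0 + 0
    rw [add_zero]
  map_smul' r _ := by
    apply Subtype.ext; apply Subtype.ext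
    refine Prod.ext ?_ rfl
    show (0 : G → Y0) = r • 0
    rw [smul_zero]

/-- `j : H⁰(Y¹) → ℍ¹(Y)`, `v ↦ [(0, v)]`. -/
noncomputable def j1 : Y.ρ1.invariants →ₗ[k] Y.ℍ1 h𝒰 := (Y.tot h𝒰).π1.comp (j1Z Y h𝒰)

lemma coe_j1Z (v : Y.ρ1.invariants) :
    ((j1Z Y h𝒰 v : (Y.tot h𝒰).Z1) : K1lev k h𝒰 Y0 Y1).1 = (0, v.1) := rfl

/-- Exactness at `H⁰(Y¹)`: `j v = 0` iff `v = f y` with `y ∈ (Y⁰)^G`. -/
theorem j1_eq_zero_iff (v : Y.ρ1.invariants) :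
    j1 Y h𝒰 v = 0 ↔ ∃ y ∈ Y.ρ0.invariants, Y.f y = v.1 := by
  rw [j1, LinearMap.comp_apply, Cpx.π1_eq_zero_iff]
  constructor
  · rintro ⟨y, hy⟩
    have hy' : Y.D0 y = (0, v.1) := congrArg Subtype.val hy
    rw [Cx.D0_apply, Prod.mk.injEq] at hy'
    refine ⟨y, (Representation.mem_invariants Y.ρ0 y).2 (fun g => ?_), hy'.2⟩
    have := congrFun hy'.1 g
    rw [dZero_apply, Pi.zero_apply, sub_eq_zero] at this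
    exact this
  · rintro ⟨y, hy, hyv⟩
    refine ⟨y, ?_⟩
    apply Subtype.ext
    rw [coe_tot_d0, coe_j1Z, Cx.D0_apply]
    refine Prod.ext ?_ hyv
    funext g
    show dZero Y.ρ0 y g = (0 : G → Y0) g
    rw [dZero_apply, (Representation.mem_invariants Y.ρ0 y).1 hy g, sub_self]; rfl

/-- Exactness of `H⁰(Y¹) → ℍ¹(Y) → H¹(Y⁰)`. -/
theorem exact_j1_pr1 : Function.Exact (j1 Y h𝒰) (pr1 Y h𝒰) := by
  intro cls
  obtain ⟨z, rfl⟩ := (Y.tot h𝒰).π1_surjective cls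
  show (prHom Y h𝒰).mapH1 _ = 0 ↔ _
  rw [Cpx.Hom.mapH1_π1, Cpx.π1_eq_zero_iff]
  obtain ⟨hz1, hz2⟩ := (Y.mem_Z1_iff h𝒰 z.1).1 z.2
  constructor
  · rintro ⟨y, hy⟩
    have hy' : dZero Y.ρ0 y = z.1.1.1 := congrArg Subtype.val hy
    -- z - D⁰ y = (0, e - f y)
    have hinv : z.1.1.2 - Y.f y ∈ Y.ρ1.invariants := by
      rw [Representation.mem_invariants]
      intro g
      have h1 : dZero Y.ρ1 (z.1.1.2 - Y.f y) = 0 := by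
        rw [map_sub, ← hz2, ← comp_dZero Y.ρ0 Y.ρ1 Y.f Y.comm, hy', sub_self]
      have := congrFun h1 g
      rw [dZero_apply, Pi.zero_apply, sub_eq_zero] at this
      exact this
    refine ⟨⟨z.1.1.2 - Y.f y, hinv⟩, ?_⟩
    rw [j1, LinearMap.comp_apply, Cpx.π1_eq_iff]
    refine ⟨-y, ?_⟩
    apply Subtype.ext
    show Y.D0 (-y) = (0, z.1.1.2 - Y.f y) - z.1.1
    rw [Cx.D0_apply]
    refine Prod.ext ?_ ?_
    · show dZero Y.ρ0 (-y) = 0 - z.1.1.1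
      rw [map_neg, hy', zero_sub]
    · show Y.f (-y) = (z.1.1.2 - Y.f y) - z.1.1.2
      rw [map_neg]; abel
  · rintro ⟨v, hv⟩
    rw [j1, LinearMap.comp_apply, Cpx.π1_eq_iff] at hv
    obtain ⟨y, hy⟩ := hv
    have hy0 : Y.D0 y = (0, v.1) - z.1.1 := congrArg Subtype.val hy
    rw [Cx.D0_apply] at hy0
    have hy1 : dZero Y.ρ0 y = 0 - z.1.1.1 := congrArg Prod.fst hy0
    refine ⟨-y, ?_⟩
    apply Subtype.ext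
    show dZero Y.ρ0 (-y) = z.1.1.1
    rw [map_neg, hy1, zero_sub, neg_neg]

end Cone

/-! ## `ℍ^r([N → 0]) = H^r(N)`, and `H^r(ker f) = ℍ^r(Y)` for surjective `f` -/

section KernelCompare

variable {A0 A1 : Type*} [AddCommGroup A0] [Module k A0] [AddCommGroup A1] [Module k A1]

/-- If `A¹ = 0` then `ℍ¹(A) → H¹(A⁰)` is bijective. -/
theorem bijective_pr1_of_subsingleton (A : Cx k 𝒰 A0 A1) (h𝒰 : IsLevelBasis 𝒰)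
    (hsub : ∀ x : A1, x = 0) : Bijective (pr1 A h𝒰) := by
  refine cpx_bijective_mapH1 (prHom A h𝒰) surjective_id ⟨?_, ?_⟩ ?_
  · rintro ⟨⟨c, e⟩, hx⟩ ⟨⟨c', e'⟩, hx'⟩ hxx
    have h1 : c = c' := congrArg Subtype.val hxx
    apply Subtype.ext
    exact Prod.ext h1 (by rw [hsub e, hsub e'])
  · rintro ⟨c, hc⟩
    exact ⟨⟨(c, 0), hc⟩, rfl⟩
  · rintro ⟨⟨c, e⟩, hx⟩ ⟨⟨c', e'⟩, hx'⟩ hxx
    have h1 : c = c' := congrArg Subtype.val hxx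
    apply Subtype.ext
    refine Prod.ext h1 ?_
    funext g
    show e g = e' g
    rw [hsub (e g), hsub (e' g)]

/-- If `A¹ = 0` then `ℍ²(A) → H²(A⁰)` is bijective. -/
theorem bijective_pr2_of_subsingleton (A : Cx k 𝒰 A0 A1) (h𝒰 : IsLevelBasis 𝒰)
    (hsub : ∀ x : A1, x = 0) : Bijective (pr2 A h𝒰) := by
  refine cpx_bijective_mapH2 (prHom A h𝒰) ?_ ⟨?_, ?_⟩ ?_
  · rintro ⟨c, hc⟩
    exact ⟨⟨(c, 0), hc⟩, rfl⟩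
  · rintro ⟨⟨c, e⟩, hx⟩ ⟨⟨c', e'⟩, hx'⟩ hxx
    have h1 : c = c' := congrArg Subtype.val hxx
    apply Subtype.ext
    refine Prod.ext h1 ?_
    funext g
    show e g = e' g
    rw [hsub (e g), hsub (e' g)]
  · rintro ⟨c, hc⟩
    exact ⟨⟨(c, 0), hc, h𝒰.isLevel₁_const 0⟩, rfl⟩
  · rintro ⟨c, e⟩ ⟨c', e'⟩ hxx
    have h1 : c = c' := hxx
    refine Prod.ext h1 ?_
    funext g
    show e g = e' g
    rw [hsub (e g), hsub (e' g)]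

variable {N Y0 Y1 : Type*} [AddCommGroup N] [Module k N]
  [AddCommGroup Y0] [Module k Y0] [AddCommGroup Y1] [Module k Y1]
variable (Y : Cx k 𝒰 Y0 Y1) (h𝒰 : IsLevelBasis 𝒰) {ρN : Representation k G N}
  (hN : IsDiscrete 𝒰 ρN) (ι0 : N →ₗ[k] Y0) (hι : ∀ g n, ι0 (ρN g n) = Y.ρ0 g (ι0 n))
  (hfι : ∀ n, Y.f (ι0 n) = 0)

/-- The morphism `[N → 0] → [Y⁰ → Y¹]` given by an equivariant `ι : N → Y⁰` with `f ∘ ι = 0`. -/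
def kerHom : Cx.Hom (ofRep ρN hN h𝒰) Y where
  φ0 := ι0
  φ1 := 0
  comm0 := hι
  comm1 _ _ := by simp only [LinearMap.zero_apply, map_zero]
  commf n := by rw [LinearMap.zero_apply, hfι]

/-- The chain map `C_lev(N) → Tot(Y)`, `c ↦ (ι ∘ c, 0)`. -/
def inclHom : Cpx.Hom (plainCpx h𝒰 ρN hN) (Y.tot h𝒰) where
  m0 := ι0
  m1 := LinearMap.codRestrict (K1lev k h𝒰 Y0 Y1)
    (((ι0.compLeft G).prod 0).comp (lev₁ k h𝒰 N).subtype) (fun c => IsLevel₁.comp c.2 _)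
  m2 := LinearMap.codRestrict (K2lev k h𝒰 Y0 Y1)
    (((ι0.compLeft (G × G)).prod 0).comp (lev₂ k h𝒰 N).subtype)
    (fun c => ⟨IsLevel₂.comp c.2 _, h𝒰.isLevel₁_const 0⟩)
  m3 := (ι0.compLeft (G × G × G)).prod 0
  c0 n := by
    apply Subtype.ext
    show ((⇑ι0 ∘ dZero ρN n, (0 : Y1)) : (G → Y0) × Y1) = Y.D0 (ι0 n)
    rw [Cx.D0_apply, comp_dZero ρN Y.ρ0 ι0 hι, hfι]
  c1 c := by
    apply Subtype.ext
    show ((⇑ι0 ∘ dOne ρN c.1, (0 : G → Y1)) : (G × G → Y0) × (G → Y1)) = Y.D1 (⇑ι0 ∘ c.1, 0)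
    rw [Cx.D1_apply, comp_dOne ρN Y.ρ0 ι0 hι]
    refine Prod.ext rfl ?_
    funext g
    simp only [Function.comp_apply, Pi.zero_apply, Pi.sub_apply, hfι, map_zero, sub_zero]
  c2 c := by
    show ((⇑ι0 ∘ dTwo ρN c.1, (0 : G × G → Y1)) : (G × G × G → Y0) × (G × G → Y1)) =
      Y.D2 (⇑ι0 ∘ c.1, 0)
    rw [Cx.D2_apply, comp_dTwo ρN Y.ρ0 ι0 hι]
    refine Prod.ext rfl ?_
    funext g
    simp only [Function.comp_apply, Pi.zero_apply, Pi.sub_apply, hfι, map_zero, sub_zero]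

/-- `H¹(N) → ℍ¹(Y)`, `[c] ↦ [(ι ∘ c, 0)]`. -/
def incl1 : Hp1 h𝒰 ρN hN →ₗ[k] Y.ℍ1 h𝒰 := (inclHom Y h𝒰 hN ι0 hι hfι).mapH1

/-- `H²(N) → ℍ²(Y)`, `[c] ↦ [(ι ∘ c, 0)]`. -/
def incl2 : Hp2 h𝒰 ρN hN →ₗ[k] Y.ℍ2 h𝒰 := (inclHom Y h𝒰 hN ι0 hι hfι).mapH2

lemma incl1_comp_pr1 (x : (ofRep ρN hN h𝒰).ℍ1 h𝒰) :
    incl1 Y h𝒰 hN ι0 hι hfι (pr1 (ofRep ρN hN h𝒰) h𝒰 x) =
      (kerHom Y h𝒰 hN ι0 hι hfι).mapℍ1 h𝒰 x := by
  obtain ⟨z, rfl⟩ := ((ofRep ρN hN h𝒰).tot h𝒰).π1_surjective x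
  rfl

lemma incl2_comp_pr2 (x : (ofRep ρN hN h𝒰).ℍ2 h𝒰) :
    incl2 Y h𝒰 hN ι0 hι hfι (pr2 (ofRep ρN hN h𝒰) h𝒰 x) =
      (kerHom Y h𝒰 hN ι0 hι hfι).mapℍ2 h𝒰 x := by
  obtain ⟨z, rfl⟩ := ((ofRep ρN hN h𝒰).tot h𝒰).π2_surjective x
  rfl

lemma isKernelOfSurjective_kerHom (hinj : Injective ι0) (hker : ∀ b, Y.f b = 0 → ∃ n, ι0 n = b)
    (hsurj : Surjective Y.f) : IsKernelOfSurjective (kerHom Y h𝒰 hN ι0 hι hfι) :=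
  ⟨fun _ => rfl, hinj, hker, hsurj⟩

/-- **Divisible case, degree 1**: if `f : Y⁰ → Y¹` is surjective with kernel `N`, then
`H¹(G, N) → ℍ¹(G, Y)` is bijective. -/
theorem bijective_incl1 (hinj : Injective ι0) (hker : ∀ b, Y.f b = 0 → ∃ n, ι0 n = b)
    (hsurj : Surjective Y.f) : Bijective (incl1 Y h𝒰 hN ι0 hι hfι) := by
  have h1 := bijective_mapℍ1 (isKernelOfSurjective_kerHom Y h𝒰 hN ι0 hι hfι hinj hker hsurj) h𝒰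
  have h2 := bijective_pr1_of_subsingleton (ofRep ρN hN h𝒰) h𝒰 (fun _ => rfl)
  have h3 : ⇑(incl1 Y h𝒰 hN ι0 hι hfι) ∘ ⇑(pr1 (ofRep ρN hN h𝒰) h𝒰) =
      ⇑((kerHom Y h𝒰 hN ι0 hι hfι).mapℍ1 h𝒰) := funext (incl1_comp_pr1 Y h𝒰 hN ι0 hι hfι)
  rw [← h3] at h1
  exact (Function.Bijective.of_comp_iff _ h2).1 h1

/-- **Divisible case, degree 2**: if `f : Y⁰ → Y¹` is surjective with kernel `N`, then
`H²(G, N) → ℍ²(G, Y)` is bijective. -/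
theorem bijective_incl2 (hinj : Injective ι0) (hker : ∀ b, Y.f b = 0 → ∃ n, ι0 n = b)
    (hsurj : Surjective Y.f) : Bijective (incl2 Y h𝒰 hN ι0 hι hfι) := by
  have h1 := bijective_mapℍ2 (isKernelOfSurjective_kerHom Y h𝒰 hN ι0 hι hfι hinj hker hsurj) h𝒰
  have h2 := bijective_pr2_of_subsingleton (ofRep ρN hN h𝒰) h𝒰 (fun _ => rfl)
  have h3 : ⇑(incl2 Y h𝒰 hN ι0 hι hfι) ∘ ⇑(pr2 (ofRep ρN hN h𝒰) h𝒰) =
      ⇑((kerHom Y h𝒰 hN ι0 hι hfι).mapℍ2 h𝒰) := funext (incl2_comp_pr2 Y h𝒰 hN ι0 hι hfι)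
  rw [← h3] at h1
  exact (Function.Bijective.of_comp_iff _ h2).1 h1

end KernelCompare

/-! ## The uniquely divisible case: `f` bijective ⟹ `ℍ¹ = ℍ² = 0` -/

section Acyclic

variable {Y0 Y1 : Type*} [AddCommGroup Y0] [Module k Y0] [AddCommGroup Y1] [Module k Y1]
variable (Y : Cx k 𝒰 Y0 Y1) (h𝒰 : IsLevelBasis 𝒰)

lemma isDiscrete_trivRep_punit (h𝒰 : IsLevelBasis 𝒰) :
    IsDiscrete 𝒰 (trivRep k G PUnit.{1}) := fun _ => by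
  obtain ⟨U, hU⟩ := h𝒰.nonempty
  exact ⟨U, hU, fun _ _ => rfl⟩

theorem subsingleton_ℍ1_of_bijective (hf : Bijective Y.f) : Subsingleton (Y.ℍ1 h𝒰) := by
  have hb := bijective_incl1 Y h𝒰 (isDiscrete_trivRep_punit h𝒰) (0 : PUnit.{1} →ₗ[k] Y0)
    (fun _ _ => by simp only [LinearMap.zero_apply, map_zero])
    (fun _ => by simp only [LinearMap.zero_apply, map_zero])
    (fun a b _ => Subsingleton.elim a b)
    (fun b hb => ⟨0, by rw [LinearMap.zero_apply]; exact (hf.1 (hb.trans (map_zero _).symm)).symm⟩)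
    hf.2
  have : Subsingleton (Hp1 h𝒰 (trivRep k G PUnit.{1}) (isDiscrete_trivRep_punit h𝒰)) := by
    refine ⟨fun a b => ?_⟩
    obtain ⟨a, rfl⟩ := (plainCpx h𝒰 (trivRep k G PUnit.{1}) (isDiscrete_trivRep_punit h𝒰)).π1_surjective a
    obtain ⟨b, rfl⟩ := (plainCpx h𝒰 (trivRep k G PUnit.{1}) (isDiscrete_trivRep_punit h𝒰)).π1_surjective b
    congr 1
    exact Subtype.ext (Subtype.ext (funext fun _ => rfl))
  exact hb.2.subsingleton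

theorem subsingleton_ℍ2_of_bijective (hf : Bijective Y.f) : Subsingleton (Y.ℍ2 h𝒰) := by
  have hb := bijective_incl2 Y h𝒰 (isDiscrete_trivRep_punit h𝒰) (0 : PUnit.{1} →ₗ[k] Y0)
    (fun _ _ => by simp only [LinearMap.zero_apply, map_zero])
    (fun _ => by simp only [LinearMap.zero_apply, map_zero])
    (fun a b _ => Subsingleton.elim a b)
    (fun b hb => ⟨0, by rw [LinearMap.zero_apply]; exact (hf.1 (hb.trans (map_zero _).symm)).symm⟩)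
    hf.2
  have : Subsingleton (Hp2 h𝒰 (trivRep k G PUnit.{1}) (isDiscrete_trivRep_punit h𝒰)) := by
    refine ⟨fun a b => ?_⟩
    obtain ⟨a, rfl⟩ := (plainCpx h𝒰 (trivRep k G PUnit.{1}) (isDiscrete_trivRep_punit h𝒰)).π2_surjective a
    obtain ⟨b, rfl⟩ := (plainCpx h𝒰 (trivRep k G PUnit.{1}) (isDiscrete_trivRep_punit h𝒰)).π2_surjective b
    congr 1
    exact Subtype.ext (Subtype.ext (funext fun _ => rfl))
  exact hb.2.subsingleton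

end Acyclic

end Fermat.Agent.PT.PRO.HyperCompare25
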