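/-
Program F (S55, Poitou–Tate), chapter PRO, helper25.

`HyperRes25`: change of group for the level hypercohomology of `HyperLevel25`.

* `IsLevelHom f 𝒰' 𝒰` : the group hom `f : G' →* G` is continuous for the level bases.
* `Cx.PHom f Y Y'` : morphism from a `G`-complex `Y` to a `G'`-complex `Y'` over `f`
  (restriction `G' ≤ G`, inflation `G → G ⧸ U`, localisation `Γ_q → Γ` are all instances);
  `PHom.tot`, `PHom.ppℍ1`, `PHom.ppℍ2` : the induced maps `ℍ^r(G; Y) → ℍ^r(G'; Y')`.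
* `Cx.comap f hf Y` : the same complex with the action restricted along `f`; `resPHom`.
* composition, compatibility with `Cx.Hom.mapℍ`, naturality of the connecting map `δ` and of the
  cone sequence maps `pr`, `j`, `f_*`.
-/
import Fermat.Agent.PT.PRO.HyperCompare25

set_option autoImplicit false

namespace Fermat.Agent.PT.PRO.HyperRes25

open Function Fermat.Agent.PT.PRO.HyperLevel25 Fermat.Agent.PT.PRO.HyperCompare25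

/-! ## Naturality of the abstract connecting map -/

section AbstractNat

variable {k : Type*} [CommRing k]
variable {X0 X1 X2 X3 Y0 Y1 Y2 Y3 Z0 Z1 Z2 Z3 : Type*}
  [AddCommGroup X0] [Module k X0] [AddCommGroup X1] [Module k X1]
  [AddCommGroup X2] [Module k X2] [AddCommGroup X3] [Module k X3]
  [AddCommGroup Y0] [Module k Y0] [AddCommGroup Y1] [Module k Y1]
  [AddCommGroup Y2] [Module k Y2] [AddCommGroup Y3] [Module k Y3]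
  [AddCommGroup Z0] [Module k Z0] [AddCommGroup Z1] [Module k Z1]
  [AddCommGroup Z2] [Module k Z2] [AddCommGroup Z3] [Module k Z3]
variable {X0' X1' X2' X3' Y0' Y1' Y2' Y3' Z0' Z1' Z2' Z3' : Type*}
  [AddCommGroup X0'] [Module k X0'] [AddCommGroup X1'] [Module k X1']
  [AddCommGroup X2'] [Module k X2'] [AddCommGroup X3'] [Module k X3']
  [AddCommGroup Y0'] [Module k Y0'] [AddCommGroup Y1'] [Module k Y1']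
  [AddCommGroup Y2'] [Module k Y2'] [AddCommGroup Y3'] [Module k Y3']
  [AddCommGroup Z0'] [Module k Z0'] [AddCommGroup Z1'] [Module k Z1']
  [AddCommGroup Z2'] [Module k Z2'] [AddCommGroup Z3'] [Module k Z3']
variable {C' : Cpx k X0 X1 X2 X3} {C : Cpx k Y0 Y1 Y2 Y3} {C'' : Cpx k Z0 Z1 Z2 Z3}
  {D' : Cpx k X0' X1' X2' X3'} {D : Cpx k Y0' Y1' Y2' Y3'} {D'' : Cpx k Z0' Z1' Z2' Z3'}
  {φ : Cpx.Hom C' C} {ψ : Cpx.Hom C C''} {φ' : Cpx.Hom D' D} {ψ' : Cpx.Hom D D''}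

/-- The connecting map is natural with respect to morphisms of short exact sequences. -/
theorem cpx_δ_natural (h : Cpx.ShortExact φ ψ) (h' : Cpx.ShortExact φ' ψ')
    (a' : Cpx.Hom C' D') (a : Cpx.Hom C D) (a'' : Cpx.Hom C'' D'')
    (hφ2 : ∀ x, a.m2 (φ.m2 x) = φ'.m2 (a'.m2 x)) (hψ1 : ∀ x, a''.m1 (ψ.m1 x) = ψ'.m1 (a.m1 x))
    (x : C''.H1) : Cpx.δ h' (a''.mapH1 x) = a'.mapH2 (Cpx.δ h x) := by
  obtain ⟨z, rfl⟩ := C''.π1_surjective x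
  obtain ⟨z', hr⟩ := Cpx.Rel.exists_of_mem h z
  rw [Cpx.δ_π1 h z z' hr, Cpx.Hom.mapH1_π1, Cpx.Hom.mapH2_π2]
  refine Cpx.δ_π1 h' _ _ ?_
  obtain ⟨x, hx1, hx2⟩ := hr
  refine ⟨a.m1 x, ?_, ?_⟩
  · rw [← hψ1, hx1]; rfl
  · rw [← a.c1, hx2, hφ2]; rfl

end AbstractNat

/-! ## Continuous group homomorphisms and precomposition of cochains -/

section Precomp

variable {k G G' : Type*} [CommRing k] [Group G] [Group G']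

/-- `f : G' →* G` is continuous for the level bases `𝒰'`, `𝒰`. -/
def IsLevelHom (f : G' →* G) (𝒰' : Set (Subgroup G')) (𝒰 : Set (Subgroup G)) : Prop :=
  ∀ U ∈ 𝒰, ∃ V ∈ 𝒰', V ≤ U.comap f

variable {f : G' →* G} {𝒰' : Set (Subgroup G')} {𝒰 : Set (Subgroup G)}

lemma IsLevelHom.isLevel₁ (hf : IsLevelHom f 𝒰' 𝒰) {X : Type*} {c : G → X} (hc : IsLevel₁ 𝒰 c) :
    IsLevel₁ 𝒰' (c ∘ f) := by
  obtain ⟨U, hU, h⟩ := hc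
  obtain ⟨V, hV, hVU⟩ := hf U hU
  refine ⟨V, hV, fun g s hs => ?_⟩
  simp only [Function.comp_apply, map_mul]
  exact h (f g) (f s) (hVU hs)

lemma IsLevelHom.isLevel₂ (hf : IsLevelHom f 𝒰' 𝒰) {X : Type*} {c : G × G → X}
    (hc : IsLevel₂ 𝒰 c) : IsLevel₂ 𝒰' (c ∘ Prod.map f f) := by
  obtain ⟨U, hU, h⟩ := hc
  obtain ⟨V, hV, hVU⟩ := hf U hU
  refine ⟨V, hV, fun g g' s s' hs hs' => ?_⟩
  simp only [Function.comp_apply, Prod.map_apply, map_mul]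
  exact h (f g) (f g') (f s) (f s') (hVU hs) (hVU hs')

lemma isLevelHom_id (𝒰 : Set (Subgroup G)) : IsLevelHom (MonoidHom.id G) 𝒰 𝒰 :=
  fun U hU => ⟨U, hU, le_of_eq (Subgroup.comap_id U).symm⟩

lemma IsLevelHom.comp {G'' : Type*} [Group G''] {f' : G'' →* G'} {𝒰'' : Set (Subgroup G'')}
    (hf : IsLevelHom f 𝒰' 𝒰) (hf' : IsLevelHom f' 𝒰'' 𝒰') : IsLevelHom (f.comp f') 𝒰'' 𝒰 := by
  intro U hU
  obtain ⟨V, hV, hVU⟩ := hf U hU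
  obtain ⟨W, hW, hWV⟩ := hf' V hV
  exact ⟨W, hW, fun s hs => hVU (hWV hs)⟩

/-- A discrete module stays discrete after restriction along a continuous group hom. -/
lemma IsLevelHom.isDiscrete (hf : IsLevelHom f 𝒰' 𝒰) {Y : Type*} [AddCommGroup Y] [Module k Y]
    {ρ : Representation k G Y} (hρ : IsDiscrete 𝒰 ρ) : IsDiscrete 𝒰' (ρ.comp f) := by
  intro y
  obtain ⟨U, hU, h⟩ := hρ y
  obtain ⟨V, hV, hVU⟩ := hf U hU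
  exact ⟨V, hV, fun s hs => h (f s) (hVU hs)⟩

variable {Y Y' : Type*} [AddCommGroup Y] [Module k Y] [AddCommGroup Y'] [Module k Y']
  (ρ : Representation k G Y) (ρ' : Representation k G' Y') (φ : Y →ₗ[k] Y')
  (hφ : ∀ g y, φ (ρ (f g) y) = ρ' g (φ y))

include hφ in
lemma dZero_precomp (y : Y) : dZero ρ' (φ y) = ⇑φ ∘ dZero ρ y ∘ ⇑f := by
  funext g
  simp only [Function.comp_apply, dZero_apply, map_sub, hφ]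

include hφ in
lemma dOne_precomp (c : G → Y) :
    dOne ρ' (⇑φ ∘ c ∘ ⇑f) = ⇑φ ∘ dOne ρ c ∘ Prod.map ⇑f ⇑f := by
  funext ⟨g, h⟩
  simp only [Function.comp_apply, dOne_apply, Prod.map_apply, map_sub, map_add, hφ, map_mul]

include hφ in
lemma dTwo_precomp (c : G × G → Y) :
    dTwo ρ' (⇑φ ∘ c ∘ Prod.map ⇑f ⇑f) = ⇑φ ∘ dTwo ρ c ∘ Prod.map ⇑f (Prod.map ⇑f ⇑f) := by
  funext ⟨g, h, j⟩
  simp only [Function.comp_apply, dTwo_apply, Prod.map_apply, map_sub, map_add, hφ, map_mul]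

end Precomp

/-! ## Morphisms of two-term complexes over a group homomorphism -/

section PHom

variable {k G G' : Type*} [CommRing k] [Group G] [Group G']
variable {𝒰 : Set (Subgroup G)} {𝒰' : Set (Subgroup G')}
variable {Y0 Y1 Y0' Y1' : Type*}
  [AddCommGroup Y0] [Module k Y0] [AddCommGroup Y1] [Module k Y1]
  [AddCommGroup Y0'] [Module k Y0'] [AddCommGroup Y1'] [Module k Y1']

/-- A morphism from the `G`-complex `Y` to the `G'`-complex `Y'` over `f : G' →* G`. -/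
structure PHom (f : G' →* G) (Y : Cx k 𝒰 Y0 Y1) (Y' : Cx k 𝒰' Y0' Y1') where
  φ0 : Y0 →ₗ[k] Y0'
  φ1 : Y1 →ₗ[k] Y1'
  comm0 : ∀ g y, φ0 (Y.ρ0 (f g) y) = Y'.ρ0 g (φ0 y)
  comm1 : ∀ g y, φ1 (Y.ρ1 (f g) y) = Y'.ρ1 g (φ1 y)
  commf : ∀ y, φ1 (Y.f y) = Y'.f (φ0 y)

namespace PHom

variable {f : G' →* G} {Y : Cx k 𝒰 Y0 Y1} {Y' : Cx k 𝒰' Y0' Y1'} (a : PHom f Y Y')

/-- The map on total 1-cochains: `(c, e) ↦ (φ⁰ ∘ c ∘ f, φ¹ e)`. -/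
def map1 : (G → Y0) × Y1 →ₗ[k] (G' → Y0') × Y1' :=
  ((a.φ0.compLeft G').comp (LinearMap.funLeft k Y0 ⇑f)).prodMap a.φ1

/-- The map on total 2-cochains. -/
def map2 : (G × G → Y0) × (G → Y1) →ₗ[k] (G' × G' → Y0') × (G' → Y1') :=
  ((a.φ0.compLeft (G' × G')).comp (LinearMap.funLeft k Y0 (Prod.map ⇑f ⇑f))).prodMap
    ((a.φ1.compLeft G').comp (LinearMap.funLeft k Y1 ⇑f))

/-- The map on total 3-cochains. -/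
def map3 : (G × G × G → Y0) × (G × G → Y1) →ₗ[k] (G' × G' × G' → Y0') × (G' × G' → Y1') :=
  ((a.φ0.compLeft (G' × G' × G')).comp
      (LinearMap.funLeft k Y0 (Prod.map ⇑f (Prod.map ⇑f ⇑f)))).prodMap
    ((a.φ1.compLeft (G' × G')).comp (LinearMap.funLeft k Y1 (Prod.map ⇑f ⇑f)))

lemma map1_apply (x : (G → Y0) × Y1) : a.map1 x = (⇑a.φ0 ∘ x.1 ∘ ⇑f, a.φ1 x.2) := rfl

lemma map2_apply (x : (G × G → Y0) × (G → Y1)) :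
    a.map2 x = (⇑a.φ0 ∘ x.1 ∘ Prod.map ⇑f ⇑f, ⇑a.φ1 ∘ x.2 ∘ ⇑f) := rfl

lemma map3_apply (x : (G × G × G → Y0) × (G × G → Y1)) :
    a.map3 x = (⇑a.φ0 ∘ x.1 ∘ Prod.map ⇑f (Prod.map ⇑f ⇑f), ⇑a.φ1 ∘ x.2 ∘ Prod.map ⇑f ⇑f) := rfl

lemma map1_D0 (y : Y0) : a.map1 (Y.D0 y) = Y'.D0 (a.φ0 y) := by
  rw [Cx.D0_apply, Cx.D0_apply, map1_apply]
  refine Prod.ext (dZero_precomp Y.ρ0 Y'.ρ0 a.φ0 a.comm0 y).symm (a.commf y)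

lemma map2_D1 (x : (G → Y0) × Y1) : a.map2 (Y.D1 x) = Y'.D1 (a.map1 x) := by
  rw [Cx.D1_apply, Cx.D1_apply, map2_apply, map1_apply]
  refine Prod.ext (dOne_precomp Y.ρ0 Y'.ρ0 a.φ0 a.comm0 x.1).symm ?_
  funext g
  simp only [Function.comp_apply, Pi.sub_apply, map_sub, dZero_apply, a.commf, a.comm1]

lemma map3_D2 (x : (G × G → Y0) × (G → Y1)) : a.map3 (Y.D2 x) = Y'.D2 (a.map2 x) := by
  rw [Cx.D2_apply, Cx.D2_apply, map3_apply, map2_apply]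
  refine Prod.ext (dTwo_precomp Y.ρ0 Y'.ρ0 a.φ0 a.comm0 x.1).symm ?_
  funext ⟨g, h⟩
  simp only [Function.comp_apply, Pi.sub_apply, map_sub, map_add, dOne_apply, Prod.map_apply,
    a.commf, a.comm1, map_mul]

variable (hf : IsLevelHom f 𝒰' 𝒰) (h𝒰 : IsLevelBasis 𝒰) (h𝒰' : IsLevelBasis 𝒰')

include hf in
lemma map1_mem (x : (G → Y0) × Y1) (hx : x ∈ K1lev k h𝒰 Y0 Y1) :
    a.map1 x ∈ K1lev k h𝒰' Y0' Y1' :=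
  (mem_K1lev h𝒰' _).2 ((hf.isLevel₁ ((mem_K1lev h𝒰 _).1 hx)).comp _)

include hf in
lemma map2_mem (x : (G × G → Y0) × (G → Y1)) (hx : x ∈ K2lev k h𝒰 Y0 Y1) :
    a.map2 x ∈ K2lev k h𝒰' Y0' Y1' :=
  (mem_K2lev h𝒰' _).2 ⟨(hf.isLevel₂ ((mem_K2lev h𝒰 _).1 hx).1).comp _,
    (hf.isLevel₁ ((mem_K2lev h𝒰 _).1 hx).2).comp _⟩

/-- The induced morphism of level total complexes. -/
def tot : Cpx.Hom (Y.tot h𝒰) (Y'.tot h𝒰') where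
  m0 := a.φ0
  m1 := a.map1.restrict (a.map1_mem hf h𝒰 h𝒰')
  m2 := a.map2.restrict (a.map2_mem hf h𝒰 h𝒰')
  m3 := a.map3
  c0 y := Subtype.ext (a.map1_D0 y)
  c1 x := Subtype.ext (a.map2_D1 x)
  c2 x := a.map3_D2 x

/-- The induced map `ℍ¹(G; Y) → ℍ¹(G'; Y')`. -/
def ppℍ1 : Y.ℍ1 h𝒰 →ₗ[k] Y'.ℍ1 h𝒰' := (a.tot hf h𝒰 h𝒰').mapH1

/-- The induced map `ℍ²(G; Y) → ℍ²(G'; Y')`. -/
def ppℍ2 : Y.ℍ2 h𝒰 →ₗ[k] Y'.ℍ2 h𝒰' := (a.tot hf h𝒰 h𝒰').mapH2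

lemma ppℍ1_π1 (z : (Y.tot h𝒰).Z1) :
    a.ppℍ1 hf h𝒰 h𝒰' ((Y.tot h𝒰).π1 z) = (Y'.tot h𝒰').π1 ((a.tot hf h𝒰 h𝒰').mapZ1 z) := rfl

lemma ppℍ2_π2 (z : (Y.tot h𝒰).Z2) :
    a.ppℍ2 hf h𝒰 h𝒰' ((Y.tot h𝒰).π2 z) = (Y'.tot h𝒰').π2 ((a.tot hf h𝒰 h𝒰').mapZ2 z) := rfl

end PHom

/-- A morphism of `G`-complexes is a morphism over the identity of `G`. -/
def PHom.ofHom {A0 A1 B0 B1 : Type*} [AddCommGroup A0] [Module k A0] [AddCommGroup A1]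
    [Module k A1] [AddCommGroup B0] [Module k B0] [AddCommGroup B1] [Module k B1]
    {A : Cx k 𝒰 A0 A1} {B : Cx k 𝒰 B0 B1} (φ : Cx.Hom A B) : PHom (MonoidHom.id G) A B where
  φ0 := φ.φ0
  φ1 := φ.φ1
  comm0 := φ.comm0
  comm1 := φ.comm1
  commf := φ.commf

lemma PHom.ppℍ1_ofHom {A0 A1 B0 B1 : Type*} [AddCommGroup A0] [Module k A0] [AddCommGroup A1]
    [Module k A1] [AddCommGroup B0] [Module k B0] [AddCommGroup B1] [Module k B1]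
    {A : Cx k 𝒰 A0 A1} {B : Cx k 𝒰 B0 B1} (φ : Cx.Hom A B) (h𝒰 : IsLevelBasis 𝒰)
    (x : A.ℍ1 h𝒰) : (PHom.ofHom φ).ppℍ1 (isLevelHom_id 𝒰) h𝒰 h𝒰 x = φ.mapℍ1 h𝒰 x := by
  obtain ⟨z, rfl⟩ := (A.tot h𝒰).π1_surjective x
  rfl

lemma PHom.ppℍ2_ofHom {A0 A1 B0 B1 : Type*} [AddCommGroup A0] [Module k A0] [AddCommGroup A1]
    [Module k A1] [AddCommGroup B0] [Module k B0] [AddCommGroup B1] [Module k B1]
    {A : Cx k 𝒰 A0 A1} {B : Cx k 𝒰 B0 B1} (φ : Cx.Hom A B) (h𝒰 : IsLevelBasis 𝒰)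
    (x : A.ℍ2 h𝒰) : (PHom.ofHom φ).ppℍ2 (isLevelHom_id 𝒰) h𝒰 h𝒰 x = φ.mapℍ2 h𝒰 x := by
  obtain ⟨z, rfl⟩ := (A.tot h𝒰).π2_surjective x
  rfl

/-- Composition of morphisms over group homomorphisms. -/
def PHom.comp {G'' : Type*} [Group G''] {𝒰'' : Set (Subgroup G'')} {Y0'' Y1'' : Type*}
    [AddCommGroup Y0''] [Module k Y0''] [AddCommGroup Y1''] [Module k Y1'']
    {f : G' →* G} {f' : G'' →* G'} {Y : Cx k 𝒰 Y0 Y1} {Y' : Cx k 𝒰' Y0' Y1'}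
    {Y'' : Cx k 𝒰'' Y0'' Y1''} (b : PHom f' Y' Y'') (a : PHom f Y Y') :
    PHom (f.comp f') Y Y'' where
  φ0 := b.φ0.comp a.φ0
  φ1 := b.φ1.comp a.φ1
  comm0 g y := by
    rw [LinearMap.comp_apply, LinearMap.comp_apply, MonoidHom.comp_apply, a.comm0, b.comm0]
  comm1 g y := by
    rw [LinearMap.comp_apply, LinearMap.comp_apply, MonoidHom.comp_apply, a.comm1, b.comm1]
  commf y := by
    rw [LinearMap.comp_apply, LinearMap.comp_apply, a.commf, b.commf]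

lemma PHom.ppℍ1_comp {G'' : Type*} [Group G''] {𝒰'' : Set (Subgroup G'')} {Y0'' Y1'' : Type*}
    [AddCommGroup Y0''] [Module k Y0''] [AddCommGroup Y1''] [Module k Y1'']
    {f : G' →* G} {f' : G'' →* G'} {Y : Cx k 𝒰 Y0 Y1} {Y' : Cx k 𝒰' Y0' Y1'}
    {Y'' : Cx k 𝒰'' Y0'' Y1''} (b : PHom f' Y' Y'') (a : PHom f Y Y')
    (hf : IsLevelHom f 𝒰' 𝒰) (hf' : IsLevelHom f' 𝒰'' 𝒰') (h𝒰 : IsLevelBasis 𝒰)
    (h𝒰' : IsLevelBasis 𝒰') (h𝒰'' : IsLevelBasis 𝒰'') (x : Y.ℍ1 h𝒰) :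
    (b.comp a).ppℍ1 (hf.comp hf') h𝒰 h𝒰'' x = b.ppℍ1 hf' h𝒰' h𝒰'' (a.ppℍ1 hf h𝒰 h𝒰' x) := by
  obtain ⟨z, rfl⟩ := (Y.tot h𝒰).π1_surjective x
  rfl

lemma PHom.ppℍ2_comp {G'' : Type*} [Group G''] {𝒰'' : Set (Subgroup G'')} {Y0'' Y1'' : Type*}
    [AddCommGroup Y0''] [Module k Y0''] [AddCommGroup Y1''] [Module k Y1'']
    {f : G' →* G} {f' : G'' →* G'} {Y : Cx k 𝒰 Y0 Y1} {Y' : Cx k 𝒰' Y0' Y1'}
    {Y'' : Cx k 𝒰'' Y0'' Y1''} (b : PHom f' Y' Y'') (a : PHom f Y Y')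
    (hf : IsLevelHom f 𝒰' 𝒰) (hf' : IsLevelHom f' 𝒰'' 𝒰') (h𝒰 : IsLevelBasis 𝒰)
    (h𝒰' : IsLevelBasis 𝒰') (h𝒰'' : IsLevelBasis 𝒰'') (x : Y.ℍ2 h𝒰) :
    (b.comp a).ppℍ2 (hf.comp hf') h𝒰 h𝒰'' x = b.ppℍ2 hf' h𝒰' h𝒰'' (a.ppℍ2 hf h𝒰 h𝒰' x) := by
  obtain ⟨z, rfl⟩ := (Y.tot h𝒰).π2_surjective x
  rfl

/-- The complex `Y` with the action restricted along `f : G' →* G`. -/
def comap (f : G' →* G) (hf : IsLevelHom f 𝒰' 𝒰) (Y : Cx k 𝒰 Y0 Y1) : Cx k 𝒰' Y0 Y1 where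
  ρ0 := Y.ρ0.comp f
  ρ1 := Y.ρ1.comp f
  f := Y.f
  comm g y := Y.comm (f g) y
  disc0 := hf.isDiscrete Y.disc0
  disc1 := hf.isDiscrete Y.disc1

/-- The tautological morphism `Y → comap f Y` over `f` (restriction / inflation). -/
def resPHom (f : G' →* G) (hf : IsLevelHom f 𝒰' 𝒰) (Y : Cx k 𝒰 Y0 Y1) :
    PHom f Y (comap f hf Y) where
  φ0 := LinearMap.id
  φ1 := LinearMap.id
  comm0 _ _ := rfl
  comm1 _ _ := rfl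
  commf _ := rfl

/-- Restriction `ℍ¹(G; Y) → ℍ¹(G'; Y|_{G'})` along `f : G' →* G`. -/
def res1 (f : G' →* G) (hf : IsLevelHom f 𝒰' 𝒰) (Y : Cx k 𝒰 Y0 Y1) (h𝒰 : IsLevelBasis 𝒰)
    (h𝒰' : IsLevelBasis 𝒰') : Y.ℍ1 h𝒰 →ₗ[k] (comap f hf Y).ℍ1 h𝒰' :=
  (resPHom f hf Y).ppℍ1 hf h𝒰 h𝒰'

/-- Restriction `ℍ²(G; Y) → ℍ²(G'; Y|_{G'})` along `f : G' →* G`. -/
def res2 (f : G' →* G) (hf : IsLevelHom f 𝒰' 𝒰) (Y : Cx k 𝒰 Y0 Y1) (h𝒰 : IsLevelBasis 𝒰)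
    (h𝒰' : IsLevelBasis 𝒰') : Y.ℍ2 h𝒰 →ₗ[k] (comap f hf Y).ℍ2 h𝒰' :=
  (resPHom f hf Y).ppℍ2 hf h𝒰 h𝒰'

/-! ### Compatibility with coefficient maps, naturality of `δ` -/

section Squares

variable {Z0 Z1 Z0' Z1' : Type*}
  [AddCommGroup Z0] [Module k Z0] [AddCommGroup Z1] [Module k Z1]
  [AddCommGroup Z0'] [Module k Z0'] [AddCommGroup Z1'] [Module k Z1']
variable {f : G' →* G} {Y : Cx k 𝒰 Y0 Y1} {Y' : Cx k 𝒰' Y0' Y1'}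
  {Z : Cx k 𝒰 Z0 Z1} {Z' : Cx k 𝒰' Z0' Z1'}

/-- Commuting square: coefficient maps versus change of group, on `ℍ¹`. -/
lemma PHom.ppℍ1_mapℍ1 (a : PHom f Y Y') (b : PHom f Z Z') (φ : Cx.Hom Y Z) (φ' : Cx.Hom Y' Z')
    (h0 : ∀ y, b.φ0 (φ.φ0 y) = φ'.φ0 (a.φ0 y)) (h1 : ∀ y, b.φ1 (φ.φ1 y) = φ'.φ1 (a.φ1 y))
    (hf : IsLevelHom f 𝒰' 𝒰) (h𝒰 : IsLevelBasis 𝒰) (h𝒰' : IsLevelBasis 𝒰') (x : Y.ℍ1 h𝒰) :
    b.ppℍ1 hf h𝒰 h𝒰' (φ.mapℍ1 h𝒰 x) = φ'.mapℍ1 h𝒰' (a.ppℍ1 hf h𝒰 h𝒰' x) := by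
  obtain ⟨z, rfl⟩ := (Y.tot h𝒰).π1_surjective x
  show (Z'.tot h𝒰').π1 _ = (Z'.tot h𝒰').π1 _
  congr 1
  apply Subtype.ext; apply Subtype.ext
  show b.map1 (φ.map1 z.1.1) = φ'.map1 (a.map1 z.1.1)
  rw [PHom.map1_apply, PHom.map1_apply, Cx.Hom.map1_apply, Cx.Hom.map1_apply]
  refine Prod.ext ?_ (h1 _)
  funext g
  exact h0 _

/-- Commuting square: coefficient maps versus change of group, on `ℍ²`. -/
lemma PHom.ppℍ2_mapℍ2 (a : PHom f Y Y') (b : PHom f Z Z') (φ : Cx.Hom Y Z) (φ' : Cx.Hom Y' Z')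
    (h0 : ∀ y, b.φ0 (φ.φ0 y) = φ'.φ0 (a.φ0 y)) (h1 : ∀ y, b.φ1 (φ.φ1 y) = φ'.φ1 (a.φ1 y))
    (hf : IsLevelHom f 𝒰' 𝒰) (h𝒰 : IsLevelBasis 𝒰) (h𝒰' : IsLevelBasis 𝒰') (x : Y.ℍ2 h𝒰) :
    b.ppℍ2 hf h𝒰 h𝒰' (φ.mapℍ2 h𝒰 x) = φ'.mapℍ2 h𝒰' (a.ppℍ2 hf h𝒰 h𝒰' x) := by
  obtain ⟨z, rfl⟩ := (Y.tot h𝒰).π2_surjective x
  show (Z'.tot h𝒰').π2 _ = (Z'.tot h𝒰').π2 _
  congr 1
  apply Subtype.ext; apply Subtype.ext
  show b.map2 (φ.map2 z.1.1) = φ'.map2 (a.map2 z.1.1)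
  rw [PHom.map2_apply, PHom.map2_apply, Cx.Hom.map2_apply, Cx.Hom.map2_apply]
  refine Prod.ext ?_ ?_
  · funext g
    exact h0 _
  · funext g
    exact h1 _

variable {W0 W1 W0' W1' : Type*}
  [AddCommGroup W0] [Module k W0] [AddCommGroup W1] [Module k W1]
  [AddCommGroup W0'] [Module k W0'] [AddCommGroup W1'] [Module k W1']
  {W : Cx k 𝒰 W0 W1} {W' : Cx k 𝒰' W0' W1'}

/-- Naturality of the connecting map `δ : ℍ¹(W) → ℍ²(Y)` of `0 → Y → Z → W → 0` with respect to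
a morphism of short exact sequences over a group homomorphism. -/
theorem δ_natural {φ : Cx.Hom Y Z} {ψ : Cx.Hom Z W} {φ' : Cx.Hom Y' Z'} {ψ' : Cx.Hom Z' W'}
    (h : Cx.Hom.ShortExact φ ψ) (h' : Cx.Hom.ShortExact φ' ψ')
    (a : PHom f Y Y') (b : PHom f Z Z') (c : PHom f W W')
    (hab0 : ∀ y, b.φ0 (φ.φ0 y) = φ'.φ0 (a.φ0 y)) (hab1 : ∀ y, b.φ1 (φ.φ1 y) = φ'.φ1 (a.φ1 y))
    (hbc0 : ∀ y, c.φ0 (ψ.φ0 y) = ψ'.φ0 (b.φ0 y)) (hbc1 : ∀ y, c.φ1 (ψ.φ1 y) = ψ'.φ1 (b.φ1 y))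
    (hf : IsLevelHom f 𝒰' 𝒰) (h𝒰 : IsLevelBasis 𝒰) (h𝒰' : IsLevelBasis 𝒰') (x : W.ℍ1 h𝒰) :
    Cx.Hom.δ h' h𝒰' (c.ppℍ1 hf h𝒰 h𝒰' x) = a.ppℍ2 hf h𝒰 h𝒰' (Cx.Hom.δ h h𝒰 x) := by
  refine cpx_δ_natural (h.tot h𝒰) (h'.tot h𝒰') (a.tot hf h𝒰 h𝒰') (b.tot hf h𝒰 h𝒰')
    (c.tot hf h𝒰 h𝒰') ?_ ?_ x
  · intro z
    apply Subtype.ext
    show b.map2 (φ.map2 z.1) = φ'.map2 (a.map2 z.1)
    rw [PHom.map2_apply, PHom.map2_apply, Cx.Hom.map2_apply, Cx.Hom.map2_apply]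
    refine Prod.ext ?_ ?_
    · funext g
      exact hab0 _
    · funext g
      exact hab1 _
  · intro z
    apply Subtype.ext
    show c.map1 (ψ.map1 z.1) = ψ'.map1 (b.map1 z.1)
    rw [PHom.map1_apply, PHom.map1_apply, Cx.Hom.map1_apply, Cx.Hom.map1_apply]
    refine Prod.ext ?_ (hbc1 _)
    funext g
    exact hbc0 _

end Squares

/-! ### Plain level cohomology: change of group, and naturality of the cone sequence -/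

section PlainNat

variable {f : G' →* G} {V V' : Type*} [AddCommGroup V] [Module k V] [AddCommGroup V'] [Module k V']

/-- Change of group for the plain level complex. -/
def plainPHom (hf : IsLevelHom f 𝒰' 𝒰) (h𝒰 : IsLevelBasis 𝒰) (h𝒰' : IsLevelBasis 𝒰')
    {ρ : Representation k G V} (hρ : IsDiscrete 𝒰 ρ) {ρ' : Representation k G' V'}
    (hρ' : IsDiscrete 𝒰' ρ') (φ : V →ₗ[k] V') (hφ : ∀ g y, φ (ρ (f g) y) = ρ' g (φ y)) :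
    Cpx.Hom (plainCpx h𝒰 ρ hρ) (plainCpx h𝒰' ρ' hρ') where
  m0 := φ
  m1 := ((φ.compLeft G').comp (LinearMap.funLeft k V ⇑f)).restrict
    (fun _ hc => (hf.isLevel₁ hc).comp _)
  m2 := ((φ.compLeft (G' × G')).comp (LinearMap.funLeft k V (Prod.map ⇑f ⇑f))).restrict
    (fun _ hc => (hf.isLevel₂ hc).comp _)
  m3 := (φ.compLeft (G' × G' × G')).comp (LinearMap.funLeft k V (Prod.map ⇑f (Prod.map ⇑f ⇑f)))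
  c0 y := Subtype.ext (dZero_precomp ρ ρ' φ hφ y).symm
  c1 c := Subtype.ext (dOne_precomp ρ ρ' φ hφ c.1).symm
  c2 c := (dTwo_precomp ρ ρ' φ hφ c.1).symm

variable {Y : Cx k 𝒰 Y0 Y1} {Y' : Cx k 𝒰' Y0' Y1'} (a : PHom f Y Y')
  (hf : IsLevelHom f 𝒰' 𝒰) (h𝒰 : IsLevelBasis 𝒰) (h𝒰' : IsLevelBasis 𝒰')

/-- `H¹(G; Y⁰) → H¹(G'; Y'⁰)` induced by a morphism over `f`. -/
def PHom.ppHp1₀ : Hp1 h𝒰 Y.ρ0 Y.disc0 →ₗ[k] Hp1 h𝒰' Y'.ρ0 Y'.disc0 :=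
  (plainPHom hf h𝒰 h𝒰' Y.disc0 Y'.disc0 a.φ0 a.comm0).mapH1

/-- `H²(G; Y⁰) → H²(G'; Y'⁰)` induced by a morphism over `f`. -/
def PHom.ppHp2₀ : Hp2 h𝒰 Y.ρ0 Y.disc0 →ₗ[k] Hp2 h𝒰' Y'.ρ0 Y'.disc0 :=
  (plainPHom hf h𝒰 h𝒰' Y.disc0 Y'.disc0 a.φ0 a.comm0).mapH2

/-- `H¹(G; Y¹) → H¹(G'; Y'¹)` induced by a morphism over `f`. -/
def PHom.ppHp1₁ : Hp1 h𝒰 Y.ρ1 Y.disc1 →ₗ[k] Hp1 h𝒰' Y'.ρ1 Y'.disc1 :=
  (plainPHom hf h𝒰 h𝒰' Y.disc1 Y'.disc1 a.φ1 a.comm1).mapH1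

/-- `H²(G; Y¹) → H²(G'; Y'¹)` induced by a morphism over `f`. -/
def PHom.ppHp2₁ : Hp2 h𝒰 Y.ρ1 Y.disc1 →ₗ[k] Hp2 h𝒰' Y'.ρ1 Y'.disc1 :=
  (plainPHom hf h𝒰 h𝒰' Y.disc1 Y'.disc1 a.φ1 a.comm1).mapH2

lemma PHom.pr1_natural (x : Y.ℍ1 h𝒰) :
    pr1 Y' h𝒰' (a.ppℍ1 hf h𝒰 h𝒰' x) = a.ppHp1₀ hf h𝒰 h𝒰' (pr1 Y h𝒰 x) := by
  obtain ⟨z, rfl⟩ := (Y.tot h𝒰).π1_surjective x
  rfl

lemma PHom.pr2_natural (x : Y.ℍ2 h𝒰) :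
    pr2 Y' h𝒰' (a.ppℍ2 hf h𝒰 h𝒰' x) = a.ppHp2₀ hf h𝒰 h𝒰' (pr2 Y h𝒰 x) := by
  obtain ⟨z, rfl⟩ := (Y.tot h𝒰).π2_surjective x
  rfl

lemma PHom.fstar1_natural (x : Hp1 h𝒰 Y.ρ0 Y.disc0) :
    fstar1 Y' h𝒰' (a.ppHp1₀ hf h𝒰 h𝒰' x) = a.ppHp1₁ hf h𝒰 h𝒰' (fstar1 Y h𝒰 x) := by
  obtain ⟨z, rfl⟩ := (plainCpx h𝒰 Y.ρ0 Y.disc0).π1_surjective x
  show (plainCpx h𝒰' Y'.ρ1 Y'.disc1).π1 _ = (plainCpx h𝒰' Y'.ρ1 Y'.disc1).π1 _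
  congr 1
  apply Subtype.ext; apply Subtype.ext
  funext g
  exact (a.commf _).symm

lemma PHom.fstar2_natural (x : Hp2 h𝒰 Y.ρ0 Y.disc0) :
    fstar2 Y' h𝒰' (a.ppHp2₀ hf h𝒰 h𝒰' x) = a.ppHp2₁ hf h𝒰 h𝒰' (fstar2 Y h𝒰 x) := by
  obtain ⟨z, rfl⟩ := (plainCpx h𝒰 Y.ρ0 Y.disc0).π2_surjective x
  show (plainCpx h𝒰' Y'.ρ1 Y'.disc1).π2 _ = (plainCpx h𝒰' Y'.ρ1 Y'.disc1).π2 _
  congr 1
  apply Subtype.ext; apply Subtype.ext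
  funext g
  exact (a.commf _).symm

lemma PHom.j2_natural (x : Hp1 h𝒰 Y.ρ1 Y.disc1) :
    j2 Y' h𝒰' (a.ppHp1₁ hf h𝒰 h𝒰' x) = a.ppℍ2 hf h𝒰 h𝒰' (j2 Y h𝒰 x) := by
  obtain ⟨z, rfl⟩ := (plainCpx h𝒰 Y.ρ1 Y.disc1).π1_surjective x
  show (Y'.tot h𝒰').π2 _ = (Y'.tot h𝒰').π2 _
  congr 1
  apply Subtype.ext; apply Subtype.ext
  show ((0 : G' × G' → Y0'), ⇑a.φ1 ∘ z.1.1 ∘ ⇑f) = a.map2 (0, z.1.1)
  rw [PHom.map2_apply]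
  refine Prod.ext ?_ rfl
  funext g
  simp only [Function.comp_apply, Pi.zero_apply, map_zero]

/-- The map on invariants induced by a morphism over `f`. -/
noncomputable def PHom.invMap : Y.ρ1.invariants →ₗ[k] Y'.ρ1.invariants :=
  a.φ1.restrict (fun v hv => by
    rw [Representation.mem_invariants] at hv ⊢
    intro g
    rw [← a.comm1, hv])

lemma PHom.j1_natural (v : Y.ρ1.invariants) :
    j1 Y' h𝒰' (a.invMap v) = a.ppℍ1 hf h𝒰 h𝒰' (j1 Y h𝒰 v) := by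
  show (Y'.tot h𝒰').π1 _ = (Y'.tot h𝒰').π1 _
  congr 1
  apply Subtype.ext; apply Subtype.ext
  show ((0 : G' → Y0'), a.φ1 v.1) = a.map1 (0, v.1)
  rw [PHom.map1_apply]
  refine Prod.ext ?_ rfl
  funext g
  simp only [Function.comp_apply, Pi.zero_apply, map_zero]

end PlainNat

/-! ### Naturality of the divisible-case comparison `H^r(N) → ℍ^r(Y)` -/

section InclNat

variable {f : G' →* G} {N N' : Type*} [AddCommGroup N] [Module k N] [AddCommGroup N'] [Module k N']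
variable {Y : Cx k 𝒰 Y0 Y1} {Y' : Cx k 𝒰' Y0' Y1'} (a : PHom f Y Y')
  (hf : IsLevelHom f 𝒰' 𝒰) (h𝒰 : IsLevelBasis 𝒰) (h𝒰' : IsLevelBasis 𝒰')
  {ρN : Representation k G N} (hN : IsDiscrete 𝒰 ρN) (ι0 : N →ₗ[k] Y0)
  (hι : ∀ g n, ι0 (ρN g n) = Y.ρ0 g (ι0 n)) (hfι : ∀ n, Y.f (ι0 n) = 0)
  {ρN' : Representation k G' N'} (hN' : IsDiscrete 𝒰' ρN') (ι0' : N' →ₗ[k] Y0')
  (hι' : ∀ g n, ι0' (ρN' g n) = Y'.ρ0 g (ι0' n)) (hfι' : ∀ n, Y'.f (ι0' n) = 0)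
  (ν : N →ₗ[k] N') (hν : ∀ g n, ν (ρN (f g) n) = ρN' g (ν n))
  (hνι : ∀ n, ι0' (ν n) = a.φ0 (ι0 n))

include hνι in
lemma incl1_natural (x : Hp1 h𝒰 ρN hN) :
    incl1 Y' h𝒰' hN' ι0' hι' hfι' ((plainPHom hf h𝒰 h𝒰' hN hN' ν hν).mapH1 x) =
      a.ppℍ1 hf h𝒰 h𝒰' (incl1 Y h𝒰 hN ι0 hι hfι x) := by
  obtain ⟨z, rfl⟩ := (plainCpx h𝒰 ρN hN).π1_surjective x
  show (Y'.tot h𝒰').π1 _ = (Y'.tot h𝒰').π1 _
  congr 1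
  apply Subtype.ext; apply Subtype.ext
  show ((⇑ι0' ∘ (⇑ν ∘ z.1.1 ∘ ⇑f), (0 : Y1')) : (G' → Y0') × Y1') = a.map1 (⇑ι0 ∘ z.1.1, 0)
  rw [PHom.map1_apply]
  refine Prod.ext ?_ (map_zero _).symm
  funext g
  exact hνι _

include hνι in
lemma incl2_natural (x : Hp2 h𝒰 ρN hN) :
    incl2 Y' h𝒰' hN' ι0' hι' hfι' ((plainPHom hf h𝒰 h𝒰' hN hN' ν hν).mapH2 x) =
      a.ppℍ2 hf h𝒰 h𝒰' (incl2 Y h𝒰 hN ι0 hι hfι x) := by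
  obtain ⟨z, rfl⟩ := (plainCpx h𝒰 ρN hN).π2_surjective x
  show (Y'.tot h𝒰').π2 _ = (Y'.tot h𝒰').π2 _
  congr 1
  apply Subtype.ext; apply Subtype.ext
  show ((⇑ι0' ∘ (⇑ν ∘ z.1.1 ∘ Prod.map ⇑f ⇑f), (0 : G' → Y1')) :
    (G' × G' → Y0') × (G' → Y1')) = a.map2 (⇑ι0 ∘ z.1.1, 0)
  rw [PHom.map2_apply]
  refine Prod.ext ?_ ?_
  · funext g
    exact hνι _
  · funext g
    simp only [Function.comp_apply, Pi.zero_apply, map_zero]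

end InclNat


end PHom

end Fermat.Agent.PT.PRO.HyperRes25
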