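/-
Program F (S55, Poitou–Tate), chapter PRO, helper29.

`PerfectPairing29` (pure algebra, Mathlib only): from "trivial kernels" of a biadditive pairing
`B : E → H → T` of abelian groups killed by `p`, with `T[p]` embedded in `ℤ/p` by `τ`, to the
duality statements consumed by the final assembly (`Assembly25`):

* `card_addMonoidHom_zmod`      : `#Hom(H, ℤ/p) = #H` for a finite group `H` killed by `p`;
* `surjective_of_right_kernel`  : right kernel trivial, `H` finite
                                   ⇒ `E → Hom(H, ℤ/p)`, `e ↦ τ ∘ B e`, is SURJECTIVE  (local duality);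
* `injective_of_left_kernel`    : left kernel trivial ⇒ `E → Hom(H, ℤ/p)` is INJECTIVE;
* `bijective_of_nondegenerate`  : both kernels trivial, `H` finite ⇒ BIJECTIVE       (global duality);
* `card_eq_of_nondegenerate`    : then `E` is finite and `#E = #H`.
-/
import Mathlib

set_option autoImplicit false
set_option linter.style.haveILetI false

namespace Fermat.Agent.PT.PRO.PerfectPairing29

open Module

variable {p : ℕ} [Fact p.Prime]

section Card

variable {H : Type*} [AddCommGroup H]

/-- `#Hom(H, ℤ/p) = #H` for a finite abelian group `H` killed by `p`. -/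
theorem card_addMonoidHom_zmod [Finite H] (hH : ∀ x : H, p • x = 0) :
    Nat.card (H →+ ZMod p) = Nat.card H := by
  letI : Module (ZMod p) H := AddCommGroup.zmodModule (n := p) hH
  haveI : Module.Finite (ZMod p) H := Module.Finite.of_finite
  have e : Module.Dual (ZMod p) H ≃ₗ[ZMod p] H :=
    LinearEquiv.ofFinrankEq _ _ Subspace.dual_finrank_eq
  have e' : (H →+ ZMod p) ≃ Module.Dual (ZMod p) H :=
    { toFun := fun f => f.toZModLinearMap p
      invFun := fun g => g.toAddMonoidHom
      left_inv := fun f => rfl
      right_inv := fun g => rfl }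
  exact (Nat.card_congr e').trans (Nat.card_congr e.toEquiv)

theorem finite_addMonoidHom_zmod [Finite H] : Finite (H →+ ZMod p) :=
  Finite.of_injective (fun f : H →+ ZMod p => (f : H → ZMod p)) DFunLike.coe_injective

end Card

section Pairing

variable {E H T : Type*} [AddCommGroup E] [AddCommGroup H] [AddCommGroup T]

/-- The map `E → Hom(H, ℤ/p)`, `e ↦ τ ∘ B e`. -/
def toDual (B : E →+ H →+ T) (τ : T →+ ZMod p) : E →+ (H →+ ZMod p) :=
  (AddMonoidHom.compHom τ).comp B

@[simp] theorem toDual_apply (B : E →+ H →+ T) (τ : T →+ ZMod p) (e : E) (x : H) :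
    toDual B τ e x = τ (B e x) := rfl

/-- The flipped map `H → Hom(E, ℤ/p)`. -/
def toDualFlip (B : E →+ H →+ T) (τ : T →+ ZMod p) : H →+ (E →+ ZMod p) :=
  toDual B.flip τ

@[simp] theorem toDualFlip_apply (B : E →+ H →+ T) (τ : T →+ ZMod p) (x : H) (e : E) :
    toDualFlip B τ x e = τ (B e x) := rfl

/-- `τ` is injective on `T[p]`. -/
def InjOnTorsion (τ : T →+ ZMod p) : Prop := ∀ t : T, p • t = 0 → τ t = 0 → t = 0

theorem injective_of_left_kernel (B : E →+ H →+ T) (τ : T →+ ZMod p) (hτ : InjOnTorsion τ)
    (hH : ∀ x : H, p • x = 0) (hl : ∀ e, (∀ x, B e x = 0) → e = 0) :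
    Function.Injective (toDual B τ) := by
  rw [injective_iff_map_eq_zero]
  intro e he
  refine hl e fun x => hτ _ ?_ ?_
  · rw [← map_nsmul, hH, map_zero]
  · exact DFunLike.congr_fun he x

theorem injective_flip_of_right_kernel (B : E →+ H →+ T) (τ : T →+ ZMod p)
    (hτ : InjOnTorsion τ) (hH : ∀ x : H, p • x = 0) (hr : ∀ x, (∀ e, B e x = 0) → x = 0) :
    Function.Injective (toDualFlip B τ) := by
  rw [injective_iff_map_eq_zero]
  intro x hx
  refine hr x fun e => hτ _ ?_ ?_
  · rw [← map_nsmul, hH, map_zero]
  · exact DFunLike.congr_fun hx e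

/-- **Local duality, surjective form.** If the right kernel of `B` is trivial and `H` is finite
and killed by `p`, then `E → Hom(H, ℤ/p)` is surjective. -/
theorem surjective_of_right_kernel [Finite H] (B : E →+ H →+ T) (τ : T →+ ZMod p)
    (hτ : InjOnTorsion τ) (hH : ∀ x : H, p • x = 0) (hr : ∀ x, (∀ e, B e x = 0) → x = 0) :
    Function.Surjective (toDual B τ) := by
  letI : Module (ZMod p) H := AddCommGroup.zmodModule (n := p) hH
  haveI : Module.Finite (ZMod p) H := Module.Finite.of_finite
  -- the image, as a subspace of the dual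
  let W : Submodule (ZMod p) (Module.Dual (ZMod p) H) :=
    { carrier := Set.range fun e => (toDual B τ e).toZModLinearMap p
      add_mem' := by
        rintro _ _ ⟨e, rfl⟩ ⟨e', rfl⟩
        refine ⟨e + e', ?_⟩
        apply LinearMap.ext
        intro x
        change τ (B (e + e') x) = τ (B e x) + τ (B e' x)
        rw [map_add, AddMonoidHom.add_apply, map_add]
      zero_mem' := by
        refine ⟨0, ?_⟩
        apply LinearMap.ext
        intro x
        change τ (B 0 x) = 0
        rw [map_zero, AddMonoidHom.zero_apply, map_zero]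
      smul_mem' := by
        rintro c _ ⟨e, rfl⟩
        refine ⟨c.val • e, ?_⟩
        apply LinearMap.ext
        intro x
        change τ (B (c.val • e) x) = c • τ (B e x)
        rw [map_nsmul, AddMonoidHom.coe_smul, Pi.smul_apply, map_nsmul, nsmul_eq_mul,
          ZMod.natCast_zmod_val, smul_eq_mul] }
  have hW : W.dualCoannihilator = ⊥ := by
    rw [eq_bot_iff]
    intro x hx
    rw [Submodule.mem_dualCoannihilator] at hx
    rw [Submodule.mem_bot]
    refine hr x fun e => hτ _ ?_ ?_
    · rw [← map_nsmul, hH, map_zero]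
    · exact hx _ ⟨e, rfl⟩
  have hWtop : W = ⊤ := by
    rw [← Subspace.dualCoannihilator_dualAnnihilator_eq (W := W), hW,
      Submodule.dualAnnihilator_bot]
  intro ψ
  have : ψ.toZModLinearMap p ∈ W := by rw [hWtop]; exact Submodule.mem_top
  obtain ⟨e, he⟩ := this
  exact ⟨e, AddMonoidHom.toZModLinearMap_injective p he⟩

/-- **Global duality.** If both kernels of `B` are trivial, `H` is finite and `E`, `H` are killed
by `p`, then `E → Hom(H, ℤ/p)` is bijective. -/
theorem bijective_of_nondegenerate [Finite H] (B : E →+ H →+ T) (τ : T →+ ZMod p)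
    (hτ : InjOnTorsion τ) (hH : ∀ x : H, p • x = 0)
    (hl : ∀ e, (∀ x, B e x = 0) → e = 0) (hr : ∀ x, (∀ e, B e x = 0) → x = 0) :
    Function.Bijective (toDual B τ) :=
  ⟨injective_of_left_kernel B τ hτ hH hl, surjective_of_right_kernel B τ hτ hH hr⟩

/-- In the situation of `bijective_of_nondegenerate`, `E` is finite with `#E = #H`. -/
theorem card_eq_of_nondegenerate [Finite H] (B : E →+ H →+ T) (τ : T →+ ZMod p)
    (hτ : InjOnTorsion τ) (hH : ∀ x : H, p • x = 0)
    (hl : ∀ e, (∀ x, B e x = 0) → e = 0) (hr : ∀ x, (∀ e, B e x = 0) → x = 0) :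
    Finite E ∧ Nat.card E = Nat.card H := by
  have hb := bijective_of_nondegenerate B τ hτ hH hl hr
  haveI : Finite (H →+ ZMod p) := finite_addMonoidHom_zmod
  have hfin : Finite E := Finite.of_injective _ hb.1
  exact ⟨hfin, (Nat.card_congr (Equiv.ofBijective _ hb)).trans (card_addMonoidHom_zmod hH)⟩

/-- A `ℤ`-bilinear map as a biadditive map (adapter for `ExtPairing4.pair11` with `k = ℤ`). -/
def ofLinear {R : Type*} [CommRing R] [Module R E] [Module R H] [Module R T]
    (B : E →ₗ[R] H →ₗ[R] T) : E →+ H →+ T where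
  toFun e := (B e).toAddMonoidHom
  map_zero' := by
    ext x
    simp
  map_add' e e' := by
    ext x
    simp

@[simp] theorem ofLinear_apply {R : Type*} [CommRing R] [Module R E] [Module R H] [Module R T]
    (B : E →ₗ[R] H →ₗ[R] T) (e : E) (x : H) : ofLinear B e x = B e x := rfl

end Pairing

end Fermat.Agent.PT.PRO.PerfectPairing29
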