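/-
Program F (S55, Poitou–Tate), chapter PRO, helper29.

`DualityAdapter29`: from the finite-level hypotheses `GlobalDuality20b.HypP` (via helper4's packaged
kernel statements `ExtPairingB4.pair11_left_kernel / pair11_right_kernel`) and an invariant map
`inv : H²_lev(C) →+ ℤ/p` injective on `p`-torsion, to the duality maps consumed by the final
assembly:

* `alpha` : `ℍ¹(Y) →+ Hom(H¹_lev(M), ℤ/p)`, `ξ ↦ inv ∘ pair11 ξ`;
* `alpha_bijective`  : bijective under `HypP` when `H¹_lev(M)` is finite and killed by `p`  (global);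
* `alpha_surjective` : surjective as soon as the right kernel is trivial                     (local);
* `alpha_surjective_on` : without finiteness of `H¹_lev(M)`: onto the dual of every finite subgroup;
* `card_ℍ1_eq`       : `ℍ¹(Y)` is finite of the same cardinality as `H¹_lev(M)`;
* `nsmul_Hlev1_eq_zero` : `p M = 0 ⇒ p H¹_lev(M) = 0`.
-/
import Mathlib
import Fermat.Agent.PT.PRO.ExtPairingB4
import Fermat.Agent.PT.PRO.PerfectPairing29

set_option autoImplicit false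

namespace Fermat.Agent.PT.PRO.DualityAdapter29

open Function Fermat.Agent.PT.PRO.HyperLevel25 Fermat.Agent.PT.PRO.Resolved4
  Fermat.Agent.PT.PRO.ExtPairing4 Fermat.Agent.PT.PRO.ExtPairingB4
  Fermat.Agent.PT.PRO.PerfectPairing29

variable {k G : Type*} [CommRing k] [Group G] {𝒰 : Set (Subgroup G)}
variable {Y0 Y1 P1 P0 M C : Type*}
  [AddCommGroup Y0] [Module k Y0] [AddCommGroup Y1] [Module k Y1]
  [AddCommGroup P1] [Module k P1] [AddCommGroup P0] [Module k P0]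
  [AddCommGroup M] [Module k M] [AddCommGroup C] [Module k C]

/-- `n M = 0 ⇒ n H¹_lev(M) = 0`. -/
theorem nsmul_Hlev1_eq_zero (h𝒰 : IsLevelBasis 𝒰) (ρ : Representation k G M)
    (hρ : IsDiscrete 𝒰 ρ) (n : ℕ) (hM : ∀ m : M, n • m = 0) (x : Hlev1 h𝒰 ρ hρ) : n • x = 0 := by
  obtain ⟨z, rfl⟩ := (lvl h𝒰 ρ hρ).π1_surjective x
  rw [← map_nsmul]
  have : n • z = 0 := by
    apply Subtype.ext
    apply Subtype.ext
    funext g
    exact hM _
  rw [this, map_zero]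

variable {Y : Cx k 𝒰 Y0 Y1} {P : Resolved k 𝒰 P1 P0 M} {ρC : Representation k G C}
variable (B : Pairing Y P ρC) (h𝒰 : IsLevelBasis 𝒰) (hC : IsDiscrete 𝒰 ρC)
variable {p : ℕ} [Fact p.Prime]

/-- The duality map `α : ℍ¹(Y) →+ Hom(H¹_lev(M), ℤ/p)`, `ξ ↦ inv ∘ pair11 ξ`. -/
noncomputable def alpha (inv : Hlev2 h𝒰 ρC hC →+ ZMod p) :
    Y.ℍ1 h𝒰 →+ (Hlev1 h𝒰 P.ρM P.discM →+ ZMod p) :=
  toDual (ofLinear (pair11 B h𝒰 hC)) inv

@[simp] theorem alpha_apply (inv : Hlev2 h𝒰 ρC hC →+ ZMod p) (ξ : Y.ℍ1 h𝒰)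
    (x : Hlev1 h𝒰 P.ρM P.discM) : alpha B h𝒰 hC inv ξ x = inv (pair11 B h𝒰 hC ξ x) := rfl

/-- **Local duality (surjective form).** -/
theorem alpha_surjective [Finite (Hlev1 h𝒰 P.ρM P.discM)] (hpM : ∀ m : M, p • m = 0)
    (inv : Hlev2 h𝒰 ρC hC →+ ZMod p) (hinv : InjOnTorsion inv)
    (hr : ∀ x : Hlev1 h𝒰 P.ρM P.discM, (∀ ξ, pair11 B h𝒰 hC ξ x = 0) → x = 0) :
    Surjective (alpha B h𝒰 hC inv) :=
  surjective_of_right_kernel (ofLinear (pair11 B h𝒰 hC)) inv hinv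
    (nsmul_Hlev1_eq_zero h𝒰 P.ρM P.discM p hpM) hr

/-- **Global duality.** -/
theorem alpha_bijective {ℱ : Set (Subgroup G)}
    (H : GlobalDuality20b.HypP (toDatum B) 𝒰 ℱ p) [Finite (Hlev1 h𝒰 P.ρM P.discM)]
    (hpM : ∀ m : M, p • m = 0) (inv : Hlev2 h𝒰 ρC hC →+ ZMod p) (hinv : InjOnTorsion inv) :
    Bijective (alpha B h𝒰 hC inv) :=
  bijective_of_nondegenerate (ofLinear (pair11 B h𝒰 hC)) inv hinv
    (nsmul_Hlev1_eq_zero h𝒰 P.ρM P.discM p hpM)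
    (fun ξ h => pair11_left_kernel B h𝒰 hC H ξ h)
    (fun x h => pair11_right_kernel B h𝒰 hC H x h)

/-- Under `HypP`, `ℍ¹(Y)` is finite of the same cardinality as `H¹_lev(M)`. -/
theorem card_ℍ1_eq {ℱ : Set (Subgroup G)}
    (H : GlobalDuality20b.HypP (toDatum B) 𝒰 ℱ p) [Finite (Hlev1 h𝒰 P.ρM P.discM)]
    (hpM : ∀ m : M, p • m = 0) (inv : Hlev2 h𝒰 ρC hC →+ ZMod p) (hinv : InjOnTorsion inv) :
    Finite (Y.ℍ1 h𝒰) ∧ Nat.card (Y.ℍ1 h𝒰) = Nat.card (Hlev1 h𝒰 P.ρM P.discM) :=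
  card_eq_of_nondegenerate (ofLinear (pair11 B h𝒰 hC)) inv hinv
    (nsmul_Hlev1_eq_zero h𝒰 P.ρM P.discM p hpM)
    (fun ξ h => pair11_left_kernel B h𝒰 hC H ξ h)
    (fun x h => pair11_right_kernel B h𝒰 hC H x h)

/-- Local duality without finiteness of `H¹_lev(M)`: `α` is onto the dual of every finite
subgroup. -/
theorem alpha_surjective_on (hpM : ∀ m : M, p • m = 0)
    (inv : Hlev2 h𝒰 ρC hC →+ ZMod p) (hinv : InjOnTorsion inv)
    (hr : ∀ x : Hlev1 h𝒰 P.ρM P.discM, (∀ ξ, pair11 B h𝒰 hC ξ x = 0) → x = 0)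
    (S : AddSubgroup (Hlev1 h𝒰 P.ρM P.discM)) [Finite S] (ψ : S →+ ZMod p) :
    ∃ ξ : Y.ℍ1 h𝒰, ∀ x : S, alpha B h𝒰 hC inv ξ x = ψ x := by
  let B' : Y.ℍ1 h𝒰 →+ S →+ Hlev2 h𝒰 ρC hC :=
    (AddMonoidHom.compHom' S.subtype).comp (ofLinear (pair11 B h𝒰 hC))
  have hS : ∀ x : S, p • x = 0 := fun x =>
    Subtype.ext (nsmul_Hlev1_eq_zero h𝒰 P.ρM P.discM p hpM x.1)
  have hr' : ∀ x : S, (∀ ξ, B' ξ x = 0) → x = 0 := fun x hx =>
    Subtype.ext (hr x.1 hx)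
  obtain ⟨ξ, hξ⟩ := surjective_of_right_kernel B' inv hinv hS hr' ψ
  exact ⟨ξ, fun x => DFunLike.congr_fun hξ x⟩

end Fermat.Agent.PT.PRO.DualityAdapter29
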