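/-
Program F (S55, Poitou–Tate), chapter PRO, helper20.

`Setup20`: glue between the two presentations of a resolution `0 → P₁ → P₀ → M → 0`
(`IndRes20.Res`, raw: consumed by the finite-level theorems `IndTN20`, `DescendRes18`, `HpAt29`,
`NormTrans11`; and `Resolved4.Resolved`, with discreteness: consumed by `ExtPairing4.pair11`):

* `Res.toResolved R h0 : Resolved k 𝒰 P1 P0 M`;
* `toDatum_evalPairing` : the raw datum of the evaluation pairing of `K(P; C)` IS `R.datum ρC`
  (by `rfl`), so `GlobalDuality20b.HypP (R.datum ρC) 𝒰 ℱ p` feeds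
  `ExtPairingB4.pair11_left_kernel / pair11_right_kernel` and `DualityAdapter29.alpha_bijective`
  directly;
* `alpha_bijective_of_hypP`, `right_kernel_of_hypR` : the two duality statements in the exact form
  used by the final assembly.
-/
import Mathlib
import Fermat.Agent.PT.PRO.IndRes20
import Fermat.Agent.PT.PRO.ExtPairingB4
import Fermat.Agent.PT.PRO.DualityAdapter29
import Fermat.Agent.PT.PRO.RightKernel12

set_option autoImplicit false

namespace Fermat.Agent.PT.PRO.Setup20

open Fermat.Agent.PT.PRO.HyperLevel25 Fermat.Agent.PT.PRO.Pairing20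
open Fermat.Agent.PT.PRO.Resolved4 Fermat.Agent.PT.PRO.ExtPairing4
open Fermat.Agent.PT.PRO.ExtPairingB4 Fermat.Agent.PT.PRO.IndRes20

variable {k G : Type*} [CommRing k] [Group G] {𝒰 : Set (Subgroup G)}
variable {P1 P0 M C : Type*} [AddCommGroup P1] [Module k P1] [AddCommGroup P0] [Module k P0]
  [AddCommGroup M] [Module k M] [AddCommGroup C] [Module k C]

/-- A raw resolution with discrete `P₀` is a resolved module in the sense of `Resolved4`. -/
def toResolved (R : Res k G P1 P0 M) (h0 : IsDiscrete 𝒰 R.ρ0) : Resolved k 𝒰 P1 P0 M where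
  ρ1 := R.ρ1
  ρ0 := R.ρ0
  ρM := R.ρM
  ι := R.ι
  π := R.π
  ι_comm := R.ι_comm
  π_comm := R.π_comm
  ι_inj := R.ι_inj
  π_surj := R.π_surj
  exact := fun x => by
    rw [R.exact x]
    rfl
  disc0 := h0

variable (R : Res k G P1 P0 M) (h0 : IsDiscrete 𝒰 R.ρ0) [Module.Finite k P0] [Module.Finite k P1]
  (h𝒰 : IsLevelBasis 𝒰) (ρC : Representation k G C) (hC : IsDiscrete 𝒰 ρC)

/-- The raw datum of the evaluation pairing of `K(P; C)` is `R.datum ρC`. -/
theorem toDatum_evalPairing :
    toDatum (evalPairing (toResolved R h0) h𝒰 ρC hC) = R.datum ρC := rfl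

end Fermat.Agent.PT.PRO.Setup20
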