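/-
Program F (S55, Poitou–Tate), chapter PRO, helper20.

`Objects20`: the generic constructions on `K(P; X) = [Hom(P₀, X) → Hom(P₁, X)]` used by the final
assembly, for a RAW resolution `R : IndRes20.Res k G P1 P0 M` with discrete `P₀`:

* `KX R h0 h𝒰 ρX hX` : the complex `K(P; X)` (`= Resolved.K` of `Setup20.toResolved`,
  `= HomCx29.homCx` by `rfl`);
* `KXmap α hα` : functoriality in the coefficients, `pairHom α hα` : the corresponding morphism of
  pairing data, and `pair11_KXmap` : naturality of `pair11` in the coefficients;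
* `Res.comap R f` : restriction of the resolution along `f : G' →* G`;
* `KXPHom f hf ε hε` : change of group and coefficients `K(P; X) → K(P|_{G'}; W)` over `f`
  (e.g. `Γ_q → Γ`, `ε = ` evaluation `I_{S,q} → ℚ̄_qˣ`);
* `resM f hf` : the restriction `H¹_lev(G; M) → H¹_lev(G'; M)` and `resX f hf ε hε` :
  `H²_lev(G; X) → H²_lev(G'; W)` as maps of `Resolved4.lvl` complexes.
-/
import Mathlib
import Fermat.Agent.PT.PRO.Setup20
import Fermat.Agent.PT.PRO.HyperRes25
import Fermat.Agent.PT.PRO.HomCx29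

set_option autoImplicit false

namespace Fermat.Agent.PT.PRO.Objects20

open Fermat.Agent.PT.PRO.HyperLevel25 Fermat.Agent.PT.PRO.Pairing20
open Fermat.Agent.PT.PRO.Resolved4 Fermat.Agent.PT.PRO.ExtPairing4
open Fermat.Agent.PT.PRO.ExtPairingB4 Fermat.Agent.PT.PRO.IndRes20
open Fermat.Agent.PT.PRO.HyperRes25 Fermat.Agent.PT.PRO.Setup20

variable {k G G' : Type*} [CommRing k] [Group G] [Group G']
  {𝒰 : Set (Subgroup G)} {𝒰' : Set (Subgroup G')}
variable {P1 P0 M X X' W : Type*} [AddCommGroup P1] [Module k P1] [AddCommGroup P0] [Module k P0]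
  [AddCommGroup M] [Module k M] [AddCommGroup X] [Module k X] [AddCommGroup X'] [Module k X']
  [AddCommGroup W] [Module k W]

section KX

variable (R : Res k G P1 P0 M) (h0 : IsDiscrete 𝒰 R.ρ0) [Module.Finite k P0] [Module.Finite k P1]
  (h𝒰 : IsLevelBasis 𝒰)

/-- `K(P; X)`. -/
abbrev KX (ρX : Representation k G X) (hX : IsDiscrete 𝒰 ρX) :
    Cx k 𝒰 (P0 →ₗ[k] X) (P1 →ₗ[k] X) :=
  (toResolved R h0).K h𝒰 ρX hX

/-- The evaluation pairing of `K(P; X)`. -/
abbrev evP (ρX : Representation k G X) (hX : IsDiscrete 𝒰 ρX) :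
    Pairing (KX R h0 h𝒰 ρX hX) (toResolved R h0) ρX :=
  evalPairing (toResolved R h0) h𝒰 ρX hX

variable {ρX : Representation k G X} (hX : IsDiscrete 𝒰 ρX)
  {ρX' : Representation k G X'} (hX' : IsDiscrete 𝒰 ρX')

/-- Functoriality of `K(P; X)` in `X`. -/
def KXmap (α : X →ₗ[k] X') (hα : ∀ g x, α (ρX g x) = ρX' g (α x)) :
    Cx.Hom (KX R h0 h𝒰 ρX hX) (KX R h0 h𝒰 ρX' hX') where
  φ0 := LinearMap.compRight k α
  φ1 := LinearMap.compRight k α
  comm0 g φ := by
    ext x
    simp only [LinearMap.compRight_apply, Resolved.K, Representation.linHom_apply,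
      LinearMap.comp_apply, hα]
  comm1 g φ := by
    ext x
    simp only [LinearMap.compRight_apply, Resolved.K, Representation.linHom_apply,
      LinearMap.comp_apply, hα]
  commf φ := by
    ext x
    rfl

/-- The identity morphism of a resolved module. -/
def resolvedId (P : Resolved k 𝒰 P1 P0 M) : Resolved.Hom P P where
  φ1 := LinearMap.id
  φ0 := LinearMap.id
  φM := LinearMap.id
  comm1 _ _ := rfl
  comm0 _ _ := rfl
  commι _ := rfl
  commπ _ := rfl

/-- The morphism of pairing data induced by a coefficient map. -/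
def pairHom (α : X →ₗ[k] X') (hα : ∀ g x, α (ρX g x) = ρX' g (α x)) :
    PairingHom (evP R h0 h𝒰 ρX hX) (evP R h0 h𝒰 ρX' hX') where
  a := KXmap R h0 h𝒰 hX hX' α hα
  b := resolvedId (toResolved R h0)
  γ := α
  hγ := hα
  h0 _ _ := rfl
  h1 _ _ := rfl

/-- **Naturality of `pair11` in the coefficients.** -/
theorem pair11_KXmap (α : X →ₗ[k] X') (hα : ∀ g x, α (ρX g x) = ρX' g (α x))
    (ξ : (KX R h0 h𝒰 ρX hX).ℍ1 h𝒰)
    (x : Hlev1 h𝒰 (toResolved R h0).ρM (toResolved R h0).discM) :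
    pair11 (evP R h0 h𝒰 ρX' hX') h𝒰 hX' ((KXmap R h0 h𝒰 hX hX' α hα).mapℍ1 h𝒰 ξ) x =
      (lvlHom h𝒰 hX hX' α hα).mapH2 (pair11 (evP R h0 h𝒰 ρX hX) h𝒰 hX ξ x) := by
  have h := pair11_natural h𝒰 hX hX' (pairHom R h0 h𝒰 hX hX' α hα) ξ x
  have hx : (lvlHom h𝒰 (toResolved R h0).discM (toResolved R h0).discM
      (pairHom R h0 h𝒰 hX hX' α hα).b.φM (pairHom R h0 h𝒰 hX hX' α hα).b.commM).mapH1 x = x := by
    obtain ⟨z, rfl⟩ := (lvl h𝒰 (toResolved R h0).ρM (toResolved R h0).discM).π1_surjective x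
    rfl
  rw [hx] at h
  exact h

end KX

section Comap

/-- Restriction of a raw resolution along `f : G' →* G`. -/
def _root_.Fermat.Agent.PT.PRO.IndRes20.Res.comap (R : Res k G P1 P0 M) (f : G' →* G) :
    Res k G' P1 P0 M where
  ρ1 := R.ρ1.comp f
  ρ0 := R.ρ0.comp f
  ρM := R.ρM.comp f
  ι := R.ι
  ι_comm g x := R.ι_comm (f g) x
  ι_inj := R.ι_inj
  π := R.π
  π_comm g x := R.π_comm (f g) x
  π_surj := R.π_surj
  exact := R.exact

variable (R : Res k G P1 P0 M) (h0 : IsDiscrete 𝒰 R.ρ0) [Module.Finite k P0] [Module.Finite k P1]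
  (h𝒰 : IsLevelBasis 𝒰) (h𝒰' : IsLevelBasis 𝒰')
  (f : G' →* G) (hf : IsLevelHom f 𝒰' 𝒰)

omit [Module.Finite k P0] [Module.Finite k P1] in
include h0 hf in
lemma comap_disc0 : IsDiscrete 𝒰' (R.comap f).ρ0 := IsLevelHom.isDiscrete hf h0

variable {ρX : Representation k G X} (hX : IsDiscrete 𝒰 ρX)
  {ρW : Representation k G' W} (hW : IsDiscrete 𝒰' ρW)

/-- Change of group and coefficients `K(P; X) → K(P|_{G'}; W)` over `f`. -/
def KXPHom (ε : X →ₗ[k] W) (hε : ∀ g x, ε (ρX (f g) x) = ρW g (ε x)) :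
    PHom f (KX R h0 h𝒰 ρX hX) (KX (R.comap f) (comap_disc0 R h0 f hf) h𝒰' ρW hW) where
  φ0 := LinearMap.compRight k ε
  φ1 := LinearMap.compRight k ε
  comm0 g φ := by
    ext x
    simp only [LinearMap.compRight_apply, Resolved.K, Representation.linHom_apply,
      LinearMap.comp_apply, hε]
    show ρW g (ε (φ (R.ρ0 (f g)⁻¹ x))) = ρW g (ε (φ (R.ρ0 (f g⁻¹) x)))
    rw [map_inv f g]
  comm1 g φ := by
    ext x
    simp only [LinearMap.compRight_apply, Resolved.K, Representation.linHom_apply,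
      LinearMap.comp_apply, hε]
    show ρW g (ε (φ (R.ρ1 (f g)⁻¹ x))) = ρW g (ε (φ (R.ρ1 (f g⁻¹) x)))
    rw [map_inv f g]
  commf φ := by
    ext x
    rfl

end Comap

end Fermat.Agent.PT.PRO.Objects20
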