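/-
Program F (S55, Poitou–Tate), chapter PRO, helper4.

`PairP4`: the duality maps with the invariant defined ONLY on the `p`-torsion of `H²_lev(C)`.

WHY: an additive `inv : H²_lev(C) →+ ℤ/p` injective on `p`-torsion does NOT exist in general
(`H²(G_S, C_S)` contains `ℤ/p²`, and `ℤ/p` is not an injective `ℤ`-module); what exists
(`InvP4.exists_inv`) is an injective `τ : H²_lev(C)[p] →+ ℤ/p`.  Since `p M = 0`, the pairing
`pair11` takes values in `H²_lev(C)[p]`; this file corestricts it and redoes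
`DualityAdapter29` in that shape.

* `corestrictP`  : a biadditive `B : E → H → T` with `p H = 0` as `E →+ H →+ T[p]`;
* `pair11P`      : `ℍ¹(Y) →+ H¹_lev(M) →+ H²_lev(C)[p]` (`coe_pair11P` : rfl);
* `alphaP τ`     : `ℍ¹(Y) →+ Hom(H¹_lev(M), ℤ/p)`, `ξ ↦ τ ∘ pair11P ξ`;
* `alphaP_eq_zero_iff`, `alphaP_injective`, `alphaP_right_kernel`, `alphaP_bijective`,
  `alphaP_surjective`, `card_ℍ1_eq_P`.
-/
import Mathlib
import Fermat.Agent.PT.PRO.InvP4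
import Fermat.Agent.PT.PRO.DualityAdapter29

set_option autoImplicit false

namespace Fermat.Agent.PT.PRO.PairP4

open Function Fermat.Agent.PT.PRO.HyperLevel25 Fermat.Agent.PT.PRO.Resolved4
  Fermat.Agent.PT.PRO.ExtPairing4 Fermat.Agent.PT.PRO.ExtPairingB4
  Fermat.Agent.PT.PRO.PerfectPairing29 Fermat.Agent.PT.PRO.InvP4
  Fermat.Agent.PT.PRO.DualityAdapter29

section Abstract

variable {E H T : Type*} [AddCommGroup E] [AddCommGroup H] [AddCommGroup T]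

/-- Corestriction of a biadditive map to the `p`-torsion of the target, when the second variable
is killed by `p`. -/
def corestrictP (p : ℕ) (B : E →+ H →+ T) (hH : ∀ x : H, p • x = 0) : E →+ H →+ pTor p T where
  toFun e := (B e).codRestrict (pTor p T) (fun x => by
    show p • B e x = 0
    rw [← map_nsmul, hH, map_zero])
  map_zero' := by
    ext x
    simp
  map_add' e e' := by
    ext x
    simp

@[simp] lemma coe_corestrictP (p : ℕ) (B : E →+ H →+ T) (hH : ∀ x : H, p • x = 0) (e : E)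
    (x : H) : ((corestrictP p B hH e x : pTor p T) : T) = B e x := rfl

lemma corestrictP_eq_zero_iff (p : ℕ) (B : E →+ H →+ T) (hH : ∀ x : H, p • x = 0) (e : E)
    (x : H) : corestrictP p B hH e x = 0 ↔ B e x = 0 := by
  rw [Subtype.ext_iff, coe_corestrictP, AddSubgroup.coe_zero]

/-- An injective map out of `T[p]` is injective on torsion in the sense of `PerfectPairing29`. -/
lemma injOnTorsion_of_injective {p : ℕ} [Fact p.Prime] (τ : pTor p T →+ ZMod p)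
    (hτ : Injective τ) : InjOnTorsion τ := fun t _ ht => hτ (by rw [ht, map_zero])

end Abstract

variable {k G : Type*} [CommRing k] [Group G] {𝒰 : Set (Subgroup G)}
variable {Y0 Y1 P1 P0 M C : Type*}
  [AddCommGroup Y0] [Module k Y0] [AddCommGroup Y1] [Module k Y1]
  [AddCommGroup P1] [Module k P1] [AddCommGroup P0] [Module k P0]
  [AddCommGroup M] [Module k M] [AddCommGroup C] [Module k C]
variable {Y : Cx k 𝒰 Y0 Y1} {P : Resolved k 𝒰 P1 P0 M} {ρC : Representation k G C}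
variable (B : Pairing Y P ρC) (h𝒰 : IsLevelBasis 𝒰) (hC : IsDiscrete 𝒰 ρC)
variable {p : ℕ}

/-- The pairing `pair11` with values in the `p`-torsion of `H²_lev(C)` (`p M = 0`). -/
noncomputable def pair11P (hpM : ∀ m : M, p • m = 0) :
    Y.ℍ1 h𝒰 →+ Hlev1 h𝒰 P.ρM P.discM →+ pTor p (Hlev2 h𝒰 ρC hC) :=
  corestrictP p (ofLinear (pair11 B h𝒰 hC)) (nsmul_Hlev1_eq_zero h𝒰 P.ρM P.discM p hpM)

@[simp] lemma coe_pair11P (hpM : ∀ m : M, p • m = 0) (ξ : Y.ℍ1 h𝒰)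
    (x : Hlev1 h𝒰 P.ρM P.discM) :
    ((pair11P B h𝒰 hC hpM ξ x : pTor p (Hlev2 h𝒰 ρC hC)) : Hlev2 h𝒰 ρC hC) =
      pair11 B h𝒰 hC ξ x := rfl

lemma pair11P_eq_zero_iff (hpM : ∀ m : M, p • m = 0) (ξ : Y.ℍ1 h𝒰)
    (x : Hlev1 h𝒰 P.ρM P.discM) :
    pair11P B h𝒰 hC hpM ξ x = 0 ↔ pair11 B h𝒰 hC ξ x = 0 := by
  rw [Subtype.ext_iff, coe_pair11P, AddSubgroup.coe_zero]

variable [Fact p.Prime]

/-- The duality map `α : ℍ¹(Y) →+ Hom(H¹_lev(M), ℤ/p)`, `ξ ↦ τ ∘ pair11P ξ`. -/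
noncomputable def alphaP (hpM : ∀ m : M, p • m = 0)
    (τ : pTor p (Hlev2 h𝒰 ρC hC) →+ ZMod p) :
    Y.ℍ1 h𝒰 →+ (Hlev1 h𝒰 P.ρM P.discM →+ ZMod p) :=
  toDual (pair11P B h𝒰 hC hpM) τ

@[simp] theorem alphaP_apply (hpM : ∀ m : M, p • m = 0)
    (τ : pTor p (Hlev2 h𝒰 ρC hC) →+ ZMod p) (ξ : Y.ℍ1 h𝒰) (x : Hlev1 h𝒰 P.ρM P.discM) :
    alphaP B h𝒰 hC hpM τ ξ x = τ (pair11P B h𝒰 hC hpM ξ x) := rfl

/-- With `τ` injective, `α ξ x = 0` iff the pairing of the classes vanishes. -/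
theorem alphaP_eq_zero_iff (hpM : ∀ m : M, p • m = 0)
    (τ : pTor p (Hlev2 h𝒰 ρC hC) →+ ZMod p) (hτ : Injective τ) (ξ : Y.ℍ1 h𝒰)
    (x : Hlev1 h𝒰 P.ρM P.discM) :
    alphaP B h𝒰 hC hpM τ ξ x = 0 ↔ pair11 B h𝒰 hC ξ x = 0 := by
  rw [alphaP_apply, ← pair11P_eq_zero_iff B h𝒰 hC hpM]
  constructor
  · intro h
    exact hτ (by rw [h, map_zero])
  · intro h
    rw [h, map_zero]

/-- Left kernel: `α` is injective as soon as the left kernel of `pair11` is trivial. -/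
theorem alphaP_injective (hpM : ∀ m : M, p • m = 0)
    (τ : pTor p (Hlev2 h𝒰 ρC hC) →+ ZMod p) (hτ : Injective τ)
    (hl : ∀ ξ : Y.ℍ1 h𝒰, (∀ x, pair11 B h𝒰 hC ξ x = 0) → ξ = 0) :
    Injective (alphaP B h𝒰 hC hpM τ) :=
  injective_of_left_kernel (pair11P B h𝒰 hC hpM) τ (injOnTorsion_of_injective τ hτ)
    (nsmul_Hlev1_eq_zero h𝒰 P.ρM P.discM p hpM)
    (fun ξ h => hl ξ fun x => (pair11P_eq_zero_iff B h𝒰 hC hpM ξ x).1 (h x))

/-- Right kernel: if `α ξ x = 0` for all `ξ` then `x = 0`, as soon as the right kernel of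
`pair11` is trivial. -/
theorem alphaP_right_kernel (hpM : ∀ m : M, p • m = 0)
    (τ : pTor p (Hlev2 h𝒰 ρC hC) →+ ZMod p) (hτ : Injective τ)
    (hr : ∀ x : Hlev1 h𝒰 P.ρM P.discM, (∀ ξ, pair11 B h𝒰 hC ξ x = 0) → x = 0)
    (x : Hlev1 h𝒰 P.ρM P.discM) (h : ∀ ξ, alphaP B h𝒰 hC hpM τ ξ x = 0) : x = 0 :=
  hr x fun ξ => (alphaP_eq_zero_iff B h𝒰 hC hpM τ hτ ξ x).1 (h ξ)

/-- **Local duality (surjective form).** -/
theorem alphaP_surjective [Finite (Hlev1 h𝒰 P.ρM P.discM)] (hpM : ∀ m : M, p • m = 0)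
    (τ : pTor p (Hlev2 h𝒰 ρC hC) →+ ZMod p) (hτ : Injective τ)
    (hr : ∀ x : Hlev1 h𝒰 P.ρM P.discM, (∀ ξ, pair11 B h𝒰 hC ξ x = 0) → x = 0) :
    Surjective (alphaP B h𝒰 hC hpM τ) :=
  surjective_of_right_kernel (pair11P B h𝒰 hC hpM) τ (injOnTorsion_of_injective τ hτ)
    (nsmul_Hlev1_eq_zero h𝒰 P.ρM P.discM p hpM)
    (fun x h => hr x fun ξ => (pair11P_eq_zero_iff B h𝒰 hC hpM ξ x).1 (h ξ))

/-- **Global duality.** -/
theorem alphaP_bijective {ℱ : Set (Subgroup G)}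
    (H : GlobalDuality20b.HypP (toDatum B) 𝒰 ℱ p) [Finite (Hlev1 h𝒰 P.ρM P.discM)]
    (hpM : ∀ m : M, p • m = 0) (τ : pTor p (Hlev2 h𝒰 ρC hC) →+ ZMod p) (hτ : Injective τ) :
    Bijective (alphaP B h𝒰 hC hpM τ) :=
  ⟨alphaP_injective B h𝒰 hC hpM τ hτ (fun ξ h => pair11_left_kernel B h𝒰 hC H ξ h),
    alphaP_surjective B h𝒰 hC hpM τ hτ (fun x h => pair11_right_kernel B h𝒰 hC H x h)⟩

/-- Under `HypP`, `ℍ¹(Y)` is finite of the same cardinality as `H¹_lev(M)`. -/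
theorem card_ℍ1_eq_P {ℱ : Set (Subgroup G)}
    (H : GlobalDuality20b.HypP (toDatum B) 𝒰 ℱ p) [Finite (Hlev1 h𝒰 P.ρM P.discM)]
    (hpM : ∀ m : M, p • m = 0) (τ : pTor p (Hlev2 h𝒰 ρC hC) →+ ZMod p) (hτ : Injective τ) :
    Finite (Y.ℍ1 h𝒰) ∧ Nat.card (Y.ℍ1 h𝒰) = Nat.card (Hlev1 h𝒰 P.ρM P.discM) :=
  card_eq_of_nondegenerate (pair11P B h𝒰 hC hpM) τ (injOnTorsion_of_injective τ hτ)
    (nsmul_Hlev1_eq_zero h𝒰 P.ρM P.discM p hpM)
    (fun ξ h => pair11_left_kernel B h𝒰 hC H ξ fun x =>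
      (pair11P_eq_zero_iff B h𝒰 hC hpM ξ x).1 (h x))
    (fun x h => pair11_right_kernel B h𝒰 hC H x fun ξ =>
      (pair11P_eq_zero_iff B h𝒰 hC hpM ξ x).1 (h ξ))

end Fermat.Agent.PT.PRO.PairP4
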