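/-
Program F (S55, Poitou–Tate), chapter PRO, helper18.

`InvFund18`: the invariant map `τ : H²_lev(G; C)[p] →+ ℤ/p` (injective) and the global duality map
`α = τ ∘ pair11` FROM FUNDAMENTAL CLASSES AT THE FINITE LEVELS, at `k = ℤ` — the companion of
`HypPFund18` (same hypothesis `hfund`), instantiating `InvP4.exists_inv` and `PairP4.alphaP_*`.

* generic `k` (all compound statements live here, so that at `k = ℤ` the module instances on
  `↥(fixedSub V ρC)` are the submodule ones): `finRankLeOne_of_h2pRankLeOne`,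
  `FinRankLeOneAt ρC V p := InvP4.FinRankLeOne (fixedRep V ρC) p`, `normalLevels 𝒰`,
  `exists_inv_of_at`;
* `k = ℤ`: `finRankLeOneAt_of_isFundClass`, `exists_inv_of_isFundClass`;
* the package for the final assembly: `exists_alphaP_of_isFundClass`
  (`∃ τ` injective with `alphaP τ` injective and with trivial right kernel, and
  `alphaP τ ξ x = 0 ↔ pair11 ξ x = 0`).
-/
import Mathlib
import Fermat.Agent.PT.PRO.HypPFund18
import Fermat.Agent.PT.PRO.InvP4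
import Fermat.Agent.PT.PRO.PairP4
import Fermat.Agent.PT.PRO.Objects20

set_option autoImplicit false
set_option linter.style.haveILetI false
set_option linter.unusedSectionVars false

namespace Fermat.Agent.PT.PRO.InvFund18

open Fermat.Agent.PT.PRO.HyperLevel25 Fermat.Agent.PT.PRO.Resolved4
  Fermat.Agent.PT.PRO.GlobalDuality20 Fermat.Agent.PT.PRO.HyperColim18
  Fermat.Agent.PT.PRO.HyperColimP18 Fermat.Agent.PT.PRO.FundRaw18
  Fermat.Agent.PT.PRO.InvP4 Fermat.Agent.PT.PRO.IndRes20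
  Fermat.Agent.PT.PRO.HypPFund18 Fermat.Agent.PT.FG.Interface8
open groupCohomology

/-! ## Generic `k` -/

section Generic

variable {k : Type} [CommRing k] {G : Type} [Group G] {C : Type} [AddCommGroup C] [Module k C]

/-- The `(p : k)`/`(a : k)`-form of "`H²[p]` has rank `≤ 1`" (`FundRaw18`) gives the
`nsmul`/`zsmul`-form (`InvP4`). -/
lemma finRankLeOne_of_h2pRankLeOne {Q : Type*} [Group Q] {X : Type*} [AddCommGroup X]
    [Module k X] (ρ : Representation k Q X) (p : ℕ) (h : H2pRankLeOne ρ p) :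
    FinRankLeOne ρ p := by
  rintro φ ψ hφ hψ ⟨v, hv⟩ ⟨w, hw⟩
  obtain ⟨a, b, hab, u, hu⟩ := h φ ψ hφ hψ
    ⟨v, by rw [Nat.cast_smul_eq_nsmul, hv]⟩ ⟨w, by rw [Nat.cast_smul_eq_nsmul, hw]⟩
  exact ⟨a, b, hab, u, by rw [← hu, Int.cast_smul_eq_zsmul, Int.cast_smul_eq_zsmul]⟩

/-- "`H²(G ⧸ V; C^V)[p]` has rank `≤ 1`" (raw form of `InvP4`), as a statement about the base
module `C` only. -/
def FinRankLeOneAt (ρC : Representation k G C) (V : Subgroup G) [V.Normal] (p : ℕ) : Prop :=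
  FinRankLeOne (fixedRep V ρC) p

lemma finRankLeOneAt_of_h2pRankLeOne (ρC : Representation k G C) (V : Subgroup G) [V.Normal]
    (p : ℕ) (h : H2pRankLeOne (fixedRep V ρC) p) : FinRankLeOneAt ρC V p :=
  finRankLeOne_of_h2pRankLeOne _ p h

/-- The normal members of a level basis. -/
def normalLevels (𝒰 : Set (Subgroup G)) : Set (Subgroup G) := {V | V ∈ 𝒰 ∧ V.Normal}

lemma normalLevels_sub (𝒰 : Set (Subgroup G)) : normalLevels 𝒰 ⊆ 𝒰 := fun _ h => h.1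

lemma normalLevels_normal (𝒰 : Set (Subgroup G)) : ∀ V ∈ normalLevels 𝒰, V.Normal :=
  fun _ h => h.2

lemma normalLevels_cofinal {𝒰 : Set (Subgroup G)} (h𝒰 : IsLevelBasis 𝒰) :
    ∀ U ∈ 𝒰, ∃ V ∈ normalLevels 𝒰, V ≤ U := fun U hU => by
  obtain ⟨W, hW, hWU, hn⟩ := h𝒰.normal U hU
  exact ⟨W, ⟨hW, hn⟩, hWU⟩

/-- **The invariant map from the finite levels** (generic `k`). -/
theorem exists_inv_of_at (ρC : Representation k G C) {𝒰 ℱ : Set (Subgroup G)}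
    (h𝒰 : IsLevelBasis 𝒰) (hC : IsDiscrete 𝒰 ρC) (p : ℕ) [Fact p.Prime]
    (hsub : ℱ ⊆ 𝒰) (hnormal : ∀ V ∈ ℱ, V.Normal) (hcof : ∀ U ∈ 𝒰, ∃ V ∈ ℱ, V ≤ U)
    (hfin : ∀ V (hV : V ∈ ℱ), haveI := hnormal V hV; FinRankLeOneAt ρC V p) :
    ∃ τ : pTor p (Hlev2 h𝒰 ρC hC) →+ ZMod p, Function.Injective τ :=
  exists_inv h𝒰 ρC hC p hsub hnormal hcof hfin

end Generic

/-! ## `k = ℤ`: from fundamental classes -/

section Int

variable {G : Type} [Group G] {C : Type} [AddCommGroup C] [Module ℤ C]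

/-- One level: a fundamental class of `(G ⧸ V, C^V)` gives rank `≤ 1` of `H²(G ⧸ V; C^V)[p]`. -/
theorem finRankLeOneAt_of_isFundClass (ρC : Representation ℤ G C) (V : Subgroup G) [V.Normal]
    [Finite (G ⧸ V)] {p : ℕ} [Fact p.Prime] (u : H2 (fixedObj V ρC))
    (hu : IsFundClass p (fixedObj V ρC) u) : FinRankLeOneAt ρC V p :=
  finRankLeOneAt_of_h2pRankLeOne ρC V p (h2pRankLeOne_of_isFundClass' hu)

/-- **The invariant map `τ : H²_lev(G; C)[p] ↪ ℤ/p` from fundamental classes at the finite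
levels.** -/
theorem exists_inv_of_isFundClass (ρC : Representation ℤ G C) {𝒰 : Set (Subgroup G)}
    {p : ℕ} [Fact p.Prime] (h𝒰 : IsLevelBasis 𝒰) (hC : IsDiscrete 𝒰 ρC)
    (hfund : ∀ V ∈ 𝒰, ∀ hn : V.Normal, haveI := hn;
      ∃ u : H2 (fixedObj V ρC), IsFundClass p (fixedObj V ρC) u) :
    ∃ τ : pTor p (Hlev2 h𝒰 ρC hC) →+ ZMod p, Function.Injective τ :=
  exists_inv_of_at ρC h𝒰 hC p (normalLevels_sub 𝒰) (normalLevels_normal 𝒰)
    (normalLevels_cofinal h𝒰) (fun V hV => by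
      have := hV.2
      have := h𝒰.finiteIndex V hV.1
      obtain ⟨u, hu⟩ := hfund V hV.1 hV.2
      exact finRankLeOneAt_of_isFundClass ρC V u hu)

end Int

/-! ## The package for the final assembly: `τ`, `α = τ ∘ pair11` -/

section PackageGeneric

open Fermat.Agent.PT.PRO.Setup20 Fermat.Agent.PT.PRO.Objects20 Fermat.Agent.PT.PRO.ExtPairing4
  Fermat.Agent.PT.PRO.ExtPairingB4 Fermat.Agent.PT.PRO.PairP4

variable {k : Type} [CommRing k] {G : Type} [Group G] {P1 P0 M C : Type}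
  [AddCommGroup P1] [Module k P1] [AddCommGroup P0] [Module k P0] [AddCommGroup M] [Module k M]
  [AddCommGroup C] [Module k C] [Module.Finite k P0] [Module.Finite k P1]

/-- **The duality package** for `K(P; C)` (generic `k`, base modules only): an injective
`τ : H²_lev(C)[p] →+ ℤ/p` such that `α := τ ∘ pair11 : ℍ¹(K(P; C)) →+ Hom(H¹_lev(M), ℤ/p)` is
injective, has trivial right kernel, and vanishes exactly where `pair11` does.  These are the
hypotheses `(hαl)`, `(hαr)` of `AssemblyAnn20.finrank_ker_eq_of_annihilator`, plus the rewriting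
rule used for `(hK)`. -/
def AlphaPackage (R : Res k G P1 P0 M) {𝒰 : Set (Subgroup G)} (h0 : IsDiscrete 𝒰 R.ρ0)
    (h𝒰 : IsLevelBasis 𝒰) (ρC : Representation k G C) (hC : IsDiscrete 𝒰 ρC) (p : ℕ)
    [Fact p.Prime] (hpM : ∀ m : M, p • m = 0) : Prop :=
  ∃ τ : pTor p (Hlev2 h𝒰 ρC hC) →+ ZMod p, Function.Injective τ ∧
    Function.Injective (alphaP (evP R h0 h𝒰 ρC hC) h𝒰 hC hpM τ) ∧
    (∀ x : Hlev1 h𝒰 (toResolved R h0).ρM (toResolved R h0).discM,
      (∀ ξ, alphaP (evP R h0 h𝒰 ρC hC) h𝒰 hC hpM τ ξ x = 0) → x = 0) ∧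
    ∀ (ξ : (KX R h0 h𝒰 ρC hC).ℍ1 h𝒰)
      (x : Hlev1 h𝒰 (toResolved R h0).ρM (toResolved R h0).discM),
      alphaP (evP R h0 h𝒰 ρC hC) h𝒰 hC hpM τ ξ x = 0 ↔
        pair11 (evP R h0 h𝒰 ρC hC) h𝒰 hC ξ x = 0

/-- The package from `HypP` and an invariant map (generic `k`). -/
theorem alphaPackage_of_hypP (R : Res k G P1 P0 M) {𝒰 ℱ : Set (Subgroup G)}
    (h0 : IsDiscrete 𝒰 R.ρ0) (h𝒰 : IsLevelBasis 𝒰) (ρC : Representation k G C)
    (hC : IsDiscrete 𝒰 ρC) (p : ℕ) [Fact p.Prime] (hpM : ∀ m : M, p • m = 0)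
    (H : HypPDatum R ρC 𝒰 ℱ p)
    (hτ : ∃ τ : pTor p (Hlev2 h𝒰 ρC hC) →+ ZMod p, Function.Injective τ) :
    AlphaPackage R h0 h𝒰 ρC hC p hpM := by
  obtain ⟨τ, hτ⟩ := hτ
  have H' : GlobalDuality20b.HypP (toDatum (evP R h0 h𝒰 ρC hC)) 𝒰 ℱ p := H.hypP
  exact ⟨τ, hτ,
    alphaP_injective _ h𝒰 hC hpM τ hτ (fun ξ h => pair11_left_kernel _ h𝒰 hC H' ξ h),
    fun x h => alphaP_right_kernel _ h𝒰 hC hpM τ hτ
      (fun x h => pair11_right_kernel _ h𝒰 hC H' x h) x h,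
    fun ξ x => alphaP_eq_zero_iff _ h𝒰 hC hpM τ hτ ξ x⟩

end PackageGeneric

section PackageInt

variable {G : Type} [Group G] {P1 P0 M C : Type}
  [AddCommGroup P1] [Module ℤ P1] [AddCommGroup P0] [Module ℤ P0] [AddCommGroup M] [Module ℤ M]
  [AddCommGroup C] [Module ℤ C]
  [Module.Free ℤ P0] [Module.Finite ℤ P0] [Module.Free ℤ P1] [Module.Finite ℤ P1]

/-- **The duality package for the global datum from fundamental classes + (GEXnorm)**
(`k = ℤ`). -/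
theorem alphaPackage_of_isFundClass (R : Res ℤ G P1 P0 M) (ρC : Representation ℤ G C)
    {𝒰 ℱ : Set (Subgroup G)} {p : ℕ} [Fact p.Prime] (h𝒰 : IsLevelBasis 𝒰)
    (h0 : IsDiscrete 𝒰 R.ρ0) (hpM : ∀ m : M, p • m = 0) (hC : IsDiscrete 𝒰 ρC)
    (hsub : ℱ ⊆ 𝒰) (hnormal : ∀ V ∈ ℱ, V.Normal) (hcof : ∀ U ∈ 𝒰, ∃ V ∈ ℱ, V ≤ U)
    (htriv : ∀ V ∈ ℱ, ∀ s ∈ V, ∀ x, R.ρ0 s x = x)
    (hfund : ∀ V ∈ 𝒰, ∀ hn : V.Normal, haveI := hn;
      ∃ u : H2 (fixedObj V ρC), IsFundClass p (fixedObj V ρC) u)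
    (hgex : GexNorm ρC ℱ p) : AlphaPackage R h0 h𝒰 ρC hC p hpM :=
  alphaPackage_of_hypP R h0 h𝒰 ρC hC p hpM
    (hypPDatum_of_isFundClass R ρC h𝒰 hpM hC hsub hnormal hcof htriv hfund hgex)
    (exists_inv_of_isFundClass ρC h𝒰 hC hfund)

end PackageInt

end Fermat.Agent.PT.PRO.InvFund18
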