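/-
Program F (S55, Poitou–Tate), chapter PRO, helper8.

`GlobalHypP8`: the hypotheses `HypP` / `HypR` of the limit duality argument for `K(P; C)`, for THE
canonical cofinal family

  `trivFam R 𝒰 = {V ∈ 𝒰 | V normal, V acts trivially on P₀}`

of a resolution `R : 0 → P₁ → P₀ → M → 0` with `P₀` discrete and finitely generated:

* `trivFam_sub / _normal / _triv0 / _of_le / _cofinal` (generic `k`): the family is contained in
  `𝒰`, consists of normal subgroups acting trivially on `P₀`, is downward closed among normal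
  members of `𝒰`, and is cofinal in `𝒰`;
* `gexNorm_trivFam` : (GEXnorm) on the normal members of `𝒰` gives (GEXnorm) on `trivFam R 𝒰`
  (the `hgex` hypothesis of `NormTrans11.recn`), also from `ℕ`-scalar forms (`gexNorm_of_nat`,
  `gexNormLevel_of_nat`), which are insensitive to the `ℤ`-module diamond;
* `hypPDatum_trivFam` (`k = ℤ`): fundamental classes at `p` on `(G ⧸ V, C^V)` for `V ∈ trivFam R 𝒰`
  + (GEXnorm)  ⟹  `HypP (R.datum ρC) 𝒰 (trivFam R 𝒰) p`;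
* `hypRDatum_trivFam` (`k = ℤ`): the right-only version `HypR` (local data), no (GEXnorm);
* `_level` variants taking the hypotheses on all normal members of `𝒰`.

Everything is glue on top of helper18's `HypPFund18` (which in turn assembles `DescendRes18`,
`IndTN20`, `FundRaw18`, `NormTrans11`, `HpAt29` and FG's `TN02Final3`).
-/
import Mathlib
import Fermat.Agent.PT.PRO.HypPFund18

set_option autoImplicit false

namespace Fermat.Agent.PT.PRO.GlobalHypP8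

open Fermat.Agent.PT.PRO.HyperLevel25 Fermat.Agent.PT.PRO.Pairing20
  Fermat.Agent.PT.PRO.GlobalDuality20 Fermat.Agent.PT.PRO.GlobalDuality20b
  Fermat.Agent.PT.PRO.HyperColim18 Fermat.Agent.PT.PRO.HyperColimP18
  Fermat.Agent.PT.PRO.IndRes20 Fermat.Agent.PT.PRO.DescendRes18 Fermat.Agent.PT.PRO.FundRaw18
  Fermat.Agent.PT.PRO.RightKernel12 Fermat.Agent.PT.PRO.NormTrans11
  Fermat.Agent.PT.PRO.HypPFund18
  Fermat.Agent.PT.FG.Interface8

open CategoryTheory groupCohomology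

/-! ### The canonical cofinal family (generic `k`) -/

section Generic

variable {k : Type*} [CommRing k] {G : Type*} [Group G] {P1 P0 M C : Type*}
  [AddCommGroup P1] [Module k P1] [AddCommGroup P0] [Module k P0] [AddCommGroup M] [Module k M]
  [AddCommGroup C] [Module k C]

/-- The normal members of `𝒰` acting trivially on `P₀`. -/
def trivFam (R : Res k G P1 P0 M) (𝒰 : Set (Subgroup G)) : Set (Subgroup G) :=
  {V | V ∈ 𝒰 ∧ V.Normal ∧ ∀ s ∈ V, ∀ x, R.ρ0 s x = x}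

variable (R : Res k G P1 P0 M) (𝒰 : Set (Subgroup G))

theorem mem_trivFam_iff (V : Subgroup G) :
    V ∈ trivFam R 𝒰 ↔ V ∈ 𝒰 ∧ V.Normal ∧ ∀ s ∈ V, ∀ x, R.ρ0 s x = x := Iff.rfl

theorem trivFam_sub : trivFam R 𝒰 ⊆ 𝒰 := fun _ hV => hV.1

theorem trivFam_normal : ∀ V ∈ trivFam R 𝒰, V.Normal := fun _ hV => hV.2.1

theorem trivFam_triv0 : ∀ V ∈ trivFam R 𝒰, ∀ s ∈ V, ∀ x, R.ρ0 s x = x := fun _ hV => hV.2.2

theorem trivFam_triv1 : ∀ V ∈ trivFam R 𝒰, ∀ s ∈ V, ∀ x, R.ρ1 s x = x :=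
  fun V hV => res_trivial1 R V hV.2.2

variable {R 𝒰}

/-- The family is downward closed among the normal members of `𝒰`. -/
theorem trivFam_of_le {V V' : Subgroup G} (hV : V ∈ trivFam R 𝒰) (hV' : V' ∈ 𝒰)
    (hn : V'.Normal) (hle : V' ≤ V) : V' ∈ trivFam R 𝒰 :=
  ⟨hV', hn, fun s hs x => hV.2.2 s (hle hs) x⟩

variable (R)

/-- **Cofinality**: if `P₀` is discrete and finitely generated, every member of the level basis
contains a normal member acting trivially on `P₀`. -/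
theorem trivFam_cofinal (h𝒰 : IsLevelBasis 𝒰) (h0 : IsDiscrete 𝒰 R.ρ0) [Module.Finite k P0] :
    ∀ U ∈ 𝒰, ∃ V ∈ trivFam R 𝒰, V ≤ U := by
  classical
  intro U hU
  obtain ⟨S, hS⟩ := (Module.Finite.fg_top : (⊤ : Submodule k P0).FG)
  choose W hW hWfix using h0
  obtain ⟨W₁, hW₁, hW₁le⟩ := h𝒰.exists_le_of_finite (fun s : S => W (s : P0)) (fun s => hW _)
  obtain ⟨W₂, hW₂, hW₂le⟩ := h𝒰.inf W₁ hW₁ U hU
  obtain ⟨V, hV, hVle, hVn⟩ := h𝒰.normal W₂ hW₂
  refine ⟨V, ⟨hV, hVn, fun s hs x => ?_⟩, hVle.trans (hW₂le.trans inf_le_right)⟩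
  have hx : x ∈ Submodule.span k (S : Set P0) := by
    rw [hS]
    trivial
  induction hx using Submodule.span_induction with
  | mem y hy =>
    exact hWfix y s (hW₁le ⟨y, hy⟩ ((hVle.trans (hW₂le.trans inf_le_left)) hs))
  | zero => exact map_zero _
  | add y z _ _ hy hz => rw [map_add, hy, hz]
  | smul r y _ hy => rw [map_smul, hy]

/-! ### (GEXnorm) in several shapes -/

/-- (GEXnorm) on the normal members of the level basis: every normal `U ∈ 𝒰` contains a normal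
`V ∈ 𝒰` with `N_{U/V} C^V ⊆ p C^U`. -/
def GexNormLevel (ρC : Representation k G C) (𝒰 : Set (Subgroup G)) (p : ℕ) : Prop :=
  ∀ U ∈ 𝒰, U.Normal → ∃ V ∈ 𝒰, V.Normal ∧ V ≤ U ∧ ∀ x, FixedBy ρC V x →
    ∃ x', FixedBy ρC U x' ∧ relNrm ρC U V x = (p : k) • x'

/-- (GEXnorm) on a family `ℱ`, with `ℕ`-scalar multiplication (instance-independent form). -/
def GexNormNat (ρC : Representation k G C) (ℱ : Set (Subgroup G)) (p : ℕ) : Prop :=
  ∀ U ∈ ℱ, ∃ V ∈ ℱ, V ≤ U ∧ ∀ x, FixedBy ρC V x →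
    ∃ x', FixedBy ρC U x' ∧ relNrm ρC U V x = p • x'

/-- (GEXnorm) on the normal members of the level basis, with `ℕ`-scalar multiplication. -/
def GexNormLevelNat (ρC : Representation k G C) (𝒰 : Set (Subgroup G)) (p : ℕ) : Prop :=
  ∀ U ∈ 𝒰, U.Normal → ∃ V ∈ 𝒰, V.Normal ∧ V ≤ U ∧ ∀ x, FixedBy ρC V x →
    ∃ x', FixedBy ρC U x' ∧ relNrm ρC U V x = p • x'

variable {R}

theorem gexNorm_of_nat {ρC : Representation k G C} {ℱ : Set (Subgroup G)} {p : ℕ}
    (h : GexNormNat ρC ℱ p) : GexNorm ρC ℱ p := by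
  intro U hU
  obtain ⟨V, hV, hVU, hx⟩ := h U hU
  refine ⟨V, hV, hVU, fun x hxV => ?_⟩
  obtain ⟨x', hx', he⟩ := hx x hxV
  exact ⟨x', hx', he.trans (Nat.cast_smul_eq_nsmul k p x').symm⟩

theorem gexNormLevel_of_nat {ρC : Representation k G C} {𝒰 : Set (Subgroup G)} {p : ℕ}
    (h : GexNormLevelNat ρC 𝒰 p) : GexNormLevel ρC 𝒰 p := by
  intro U hU hUn
  obtain ⟨V, hV, hVn, hVU, hx⟩ := h U hU hUn
  refine ⟨V, hV, hVn, hVU, fun x hxV => ?_⟩
  obtain ⟨x', hx', he⟩ := hx x hxV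
  exact ⟨x', hx', he.trans (Nat.cast_smul_eq_nsmul k p x').symm⟩

variable (R)

/-- (GEXnorm) on the normal members of `𝒰` gives (GEXnorm) on `trivFam R 𝒰` (the `hgex`
hypothesis of `NormTrans11.recn` for this family): the family is downward closed. -/
theorem gexNorm_trivFam {ρC : Representation k G C} {𝒰 : Set (Subgroup G)} {p : ℕ}
    (h : GexNormLevel ρC 𝒰 p) : GexNorm ρC (trivFam R 𝒰) p := by
  intro U hU
  obtain ⟨V, hV, hVn, hVU, hx⟩ := h U hU.1 hU.2.1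
  exact ⟨V, trivFam_of_le hU hV hVn hVU, hVU, hx⟩

/-- The field `RECN` of `HypP` for `K(P; C)` and the family `trivFam R 𝒰`, from (GEXnorm). -/
theorem recn_trivFam [Module.Free k P1] {ρC : Representation k G C} {𝒰 : Set (Subgroup G)}
    {p : ℕ} (h𝒰 : IsLevelBasis 𝒰) (hgex : GexNorm ρC (trivFam R 𝒰) p) :
    ∀ U ∈ trivFam R 𝒰, ∃ V ∈ trivFam R 𝒰, V ≤ U ∧ ∀ e, FixedBy (R.datum ρC).ρY1 V e →
      ∃ n' : P1 →ₗ[k] C, (∀ g, (R.datum ρC).ρY1 g n' = n') ∧
        nrm (R.datum ρC).ρY1 V e = (p : k) • n' :=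
  recn R ρC (trivFam R 𝒰) p (fun V hV => h𝒰.finiteIndex V hV.1) (trivFam_triv1 R 𝒰) hgex

/-- The "no `p`-torsion in `H¹(V/V'; C^{V'})`" input (`hH1`) of `DescendRes18.hypP_datum` and
`RightKernel12.hypR_datum`, as a statement about `ρC` (generic `k`, see the `ℤ`-module diamond
warning in `HypPFund18`). -/
def H1NoPTorsionFam (ρC : Representation k G C) (𝒰 ℱ : Set (Subgroup G)) (p : ℕ) : Prop :=
  ∀ V ∈ ℱ, ∀ V' ∈ 𝒰, ∀ _ : V'.Normal, V' ≤ V →
    H1NoPTorsion (fixedRep V' ρC) (V.map (QuotientGroup.mk' V')) p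

end Generic

/-! ### `k = ℤ`: `HypP` and `HypR` from fundamental classes -/

section Int

variable {G : Type} [Group G] {P1 P0 M C : Type} [AddCommGroup P1] [Module ℤ P1]
  [AddCommGroup P0] [Module ℤ P0] [AddCommGroup M] [Module ℤ M] [AddCommGroup C] [Module ℤ C]
  [Module.Free ℤ P0] [Module.Finite ℤ P0] [Module.Free ℤ P1] [Module.Finite ℤ P1]

/-- Fundamental classes at `p` on `(G ⧸ V, C^V)` for all `V` of a family `ℱ` of normal
subgroups (hypothesis (G1) of the global duality). -/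
def FundOn (ρC : Representation ℤ G C) (ℱ : Set (Subgroup G)) (p : ℕ) : Prop :=
  ∀ V ∈ ℱ, ∀ hn : V.Normal, haveI := hn;
    ∃ u : H2 (fixedObj V ρC), IsFundClass p (fixedObj V ρC) u

theorem FundOn.mono {ρC : Representation ℤ G C} {ℱ ℱ' : Set (Subgroup G)} {p : ℕ}
    (h : FundOn ρC ℱ p) (hsub : ℱ' ⊆ ℱ) : FundOn ρC ℱ' p :=
  fun V hV hn => h V (hsub hV) hn

variable (R : Res ℤ G P1 P0 M) (ρC : Representation ℤ G C) {𝒰 : Set (Subgroup G)} {p : ℕ}
  [Fact p.Prime]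

omit [Module.Free ℤ P0] [Module.Finite ℤ P0] [Module.Free ℤ P1] [Module.Finite ℤ P1] in
/-- The "no `p`-torsion in `H¹(V/V'; C^{V'})`" input of `HypP`/`HypR` for `trivFam R 𝒰`, from
fundamental classes on the members of the family only. -/
theorem hH1_trivFam (h𝒰 : IsLevelBasis 𝒰) (hfund : FundOn ρC (trivFam R 𝒰) p) :
    H1NoPTorsionFam ρC 𝒰 (trivFam R 𝒰) p := by
  intro V hV V' hV' hn hle
  have hV'F : V' ∈ trivFam R 𝒰 := trivFam_of_le hV hV' hn hle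
  obtain ⟨u, hu⟩ := hfund V' hV'F hn
  have : V'.FiniteIndex := h𝒰.finiteIndex V' hV'
  exact h1NoPTorsion_of_h1 (fixedObj V' ρC) hu.h1 _

/-- **`HypP` for `K(P; C)` and the canonical family** (global datum): `P₀`, `P₁` finite free over
`ℤ`, `p M = 0`, `C` and `P₀` discrete, fundamental classes at `p` on `(G ⧸ V, C^V)` for the
normal `V ∈ 𝒰` acting trivially on `P₀`, and (GEXnorm) on that family. -/
theorem hypPDatum_trivFam (h𝒰 : IsLevelBasis 𝒰) (hpM : ∀ m : M, p • m = 0)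
    (hC : IsDiscrete 𝒰 ρC) (hdisc0 : IsDiscrete 𝒰 R.ρ0)
    (hfund : FundOn ρC (trivFam R 𝒰) p) (hgex : GexNorm ρC (trivFam R 𝒰) p) :
    HypPDatum R ρC 𝒰 (trivFam R 𝒰) p :=
  hypPDatum_of_at R ρC h𝒰 Fact.out (fun m => (Nat.cast_smul_eq_nsmul ℤ p m).trans (hpM m)) hC
    (trivFam_sub R 𝒰) (trivFam_normal R 𝒰) (trivFam_cofinal R h𝒰 hdisc0) (trivFam_triv0 R 𝒰)
    (fun V hV => by
      have := trivFam_normal R 𝒰 V hV
      have := h𝒰.finiteIndex V hV.1
      obtain ⟨u, hu⟩ := hfund V hV hV.2.1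
      exact tnlAtDatum_of_isFundClass R ρC V (trivFam_triv0 R 𝒰 V hV) hpM u hu)
    (fun V hV => by
      have := trivFam_normal R 𝒰 V hV
      have := h𝒰.finiteIndex V hV.1
      obtain ⟨u, hu⟩ := hfund V hV hV.2.1
      exact tnrAtDatum_of_isFundClass R ρC V (trivFam_triv0 R 𝒰 V hV) hpM u hu)
    (hH1_trivFam R ρC h𝒰 hfund) hgex

/-- **`HypR` for `K(P; C)` and the canonical family** (local data: no (GEXnorm)). -/
theorem hypRDatum_trivFam (h𝒰 : IsLevelBasis 𝒰) (hpM : ∀ m : M, p • m = 0)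
    (hC : IsDiscrete 𝒰 ρC) (hdisc0 : IsDiscrete 𝒰 R.ρ0)
    (hfund : FundOn ρC (trivFam R 𝒰) p) :
    HypRDatum R ρC 𝒰 (trivFam R 𝒰) p :=
  hypRDatum_of_at R ρC h𝒰 Fact.out (fun m => (Nat.cast_smul_eq_nsmul ℤ p m).trans (hpM m)) hC
    (trivFam_sub R 𝒰) (trivFam_normal R 𝒰) (trivFam_cofinal R h𝒰 hdisc0)
    (fun V hV => by
      have := trivFam_normal R 𝒰 V hV
      have := h𝒰.finiteIndex V hV.1
      obtain ⟨u, hu⟩ := hfund V hV hV.2.1
      exact tnrAtDatum_of_isFundClass R ρC V (trivFam_triv0 R 𝒰 V hV) hpM u hu)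
    (hH1_trivFam R ρC h𝒰 hfund)

/-- `HypP`, hypotheses on all normal members of the level basis. -/
theorem hypPDatum_level (h𝒰 : IsLevelBasis 𝒰) (hpM : ∀ m : M, p • m = 0)
    (hC : IsDiscrete 𝒰 ρC) (hdisc0 : IsDiscrete 𝒰 R.ρ0)
    (hfund : FundOn ρC 𝒰 p) (hgex : GexNormLevel ρC 𝒰 p) :
    HypPDatum R ρC 𝒰 (trivFam R 𝒰) p :=
  hypPDatum_trivFam R ρC h𝒰 hpM hC hdisc0 (hfund.mono (trivFam_sub R 𝒰)) (gexNorm_trivFam R hgex)

/-- `HypR`, hypotheses on all normal members of the level basis. -/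
theorem hypRDatum_level (h𝒰 : IsLevelBasis 𝒰) (hpM : ∀ m : M, p • m = 0)
    (hC : IsDiscrete 𝒰 ρC) (hdisc0 : IsDiscrete 𝒰 R.ρ0) (hfund : FundOn ρC 𝒰 p) :
    HypRDatum R ρC 𝒰 (trivFam R 𝒰) p :=
  hypRDatum_trivFam R ρC h𝒰 hpM hC hdisc0 (hfund.mono (trivFam_sub R 𝒰))

end Int

end Fermat.Agent.PT.PRO.GlobalHypP8
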