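/-
Program F (S55, Poitou–Tate), chapter PRO, helper28.

Continuous ("level") cohomology in degrees 1 and 2 of an abstract group `G` equipped with a basis
`𝓤` of open subgroups (finite index, directed, containing normal cores), with coefficients in a
discrete `G`-module, in EXACTLY the cochain model of the prelude
(`Def_GroupCohomology_ContinuousH2`, `…ContinuousUnramified`): a cochain is *level* if it is
invariant under right translation by some `U ∈ 𝓤` in each variable.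

Main results, for a short exact sequence `0 → A --φ--> B --ψ--> C → 0` of discrete modules:
the connecting map `δ : H¹(C) → H²(A)` and the exactness of
`H¹(A) → H¹(B) → H¹(C) → H²(A) → H²(B) → H²(C)`,
both at cochain level (no quotient types) and as `k`-linear maps.
-/
import Mathlib

set_option autoImplicit false
set_option linter.unusedSectionVars false
set_option linter.style.haveILetI false

universe u

open CategoryTheory groupCohomology

namespace Fermat.Agent.PT.PRO.LevelCoh28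

variable {k G : Type u} [CommRing k] [Group G]

/-! ### Level bases and level functions -/

/-- A basis of open subgroups: nonempty, directed, every member contains a normal member, and all
members have finite index. -/
structure IsLevelBasis (𝓤 : Set (Subgroup G)) : Prop where
  nonempty : 𝓤.Nonempty
  directed : ∀ U ∈ 𝓤, ∀ V ∈ 𝓤, ∃ W ∈ 𝓤, W ≤ U ⊓ V
  normalCore : ∀ U ∈ 𝓤, ∃ V ∈ 𝓤, V ≤ U ∧ V.Normal
  finiteIndex : ∀ U ∈ 𝓤, U.FiniteIndex

/-- `f` is invariant under right translation by the subgroup `U`. -/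
def InvOn₁ (U : Subgroup G) {X : Type*} (f : G → X) : Prop :=
  ∀ g, ∀ s ∈ U, f (g * s) = f g

/-- `f` is invariant under right translation by `U` in both variables. -/
def InvOn₂ (U : Subgroup G) {X : Type*} (f : G × G → X) : Prop :=
  ∀ g g', ∀ s ∈ U, ∀ s' ∈ U, f (g * s, g' * s') = f (g, g')

/-- A level 1-cochain. -/
def IsLevel₁ (𝓤 : Set (Subgroup G)) {X : Type*} (f : G → X) : Prop :=
  ∃ U ∈ 𝓤, InvOn₁ U f

/-- A level 2-cochain. -/
def IsLevel₂ (𝓤 : Set (Subgroup G)) {X : Type*} (f : G × G → X) : Prop :=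
  ∃ U ∈ 𝓤, InvOn₂ U f

theorem InvOn₁.mono {U V : Subgroup G} (h : V ≤ U) {X : Type*} {f : G → X} (hf : InvOn₁ U f) :
    InvOn₁ V f := fun g s hs => hf g s (h hs)

theorem InvOn₂.mono {U V : Subgroup G} (h : V ≤ U) {X : Type*} {f : G × G → X}
    (hf : InvOn₂ U f) : InvOn₂ V f := fun g g' s hs s' hs' => hf g g' s (h hs) s' (h hs')

theorem InvOn₁.comp {U : Subgroup G} {X Y : Type*} {f : G → X} (hf : InvOn₁ U f) (φ : X → Y) :
    InvOn₁ U (φ ∘ f) := fun g s hs => by simp only [Function.comp_apply, hf g s hs]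

theorem InvOn₂.comp {U : Subgroup G} {X Y : Type*} {f : G × G → X} (hf : InvOn₂ U f)
    (φ : X → Y) : InvOn₂ U (φ ∘ f) :=
  fun g g' s hs s' hs' => by simp only [Function.comp_apply, hf g g' s hs s' hs']

variable {𝓤 : Set (Subgroup G)}

theorem IsLevel₁.comp {X Y : Type*} {f : G → X} (hf : IsLevel₁ 𝓤 f) (φ : X → Y) :
    IsLevel₁ 𝓤 (φ ∘ f) := by
  obtain ⟨U, hU, h⟩ := hf
  exact ⟨U, hU, h.comp φ⟩

theorem IsLevel₂.comp {X Y : Type*} {f : G × G → X} (hf : IsLevel₂ 𝓤 f) (φ : X → Y) :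
    IsLevel₂ 𝓤 (φ ∘ f) := by
  obtain ⟨U, hU, h⟩ := hf
  exact ⟨U, hU, h.comp φ⟩

theorem isLevel₁_const (h𝓤 : IsLevelBasis 𝓤) {X : Type*} (x : X) :
    IsLevel₁ 𝓤 (fun _ : G => x) := by
  obtain ⟨U, hU⟩ := h𝓤.nonempty
  exact ⟨U, hU, fun _ _ _ => rfl⟩

theorem isLevel₂_const (h𝓤 : IsLevelBasis 𝓤) {X : Type*} (x : X) :
    IsLevel₂ 𝓤 (fun _ : G × G => x) := by
  obtain ⟨U, hU⟩ := h𝓤.nonempty
  exact ⟨U, hU, fun _ _ _ _ _ _ => rfl⟩

/-- Two level 1-cochains are invariant under a common normal member of the basis. -/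
theorem IsLevel₁.exists_common (h𝓤 : IsLevelBasis 𝓤) {X Y : Type*} {f : G → X} {f' : G → Y}
    (hf : IsLevel₁ 𝓤 f) (hf' : IsLevel₁ 𝓤 f') :
    ∃ W ∈ 𝓤, W.Normal ∧ InvOn₁ W f ∧ InvOn₁ W f' := by
  obtain ⟨U, hU, h⟩ := hf
  obtain ⟨V, hV, h'⟩ := hf'
  obtain ⟨W, hW, hWle⟩ := h𝓤.directed U hU V hV
  obtain ⟨W', hW', hW'le, hn⟩ := h𝓤.normalCore W hW
  exact ⟨W', hW', hn, h.mono (hW'le.trans (hWle.trans inf_le_left)),
    h'.mono (hW'le.trans (hWle.trans inf_le_right))⟩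

theorem IsLevel₂.exists_common (h𝓤 : IsLevelBasis 𝓤) {X Y : Type*} {f : G × G → X}
    {f' : G × G → Y} (hf : IsLevel₂ 𝓤 f) (hf' : IsLevel₂ 𝓤 f') :
    ∃ W ∈ 𝓤, W.Normal ∧ InvOn₂ W f ∧ InvOn₂ W f' := by
  obtain ⟨U, hU, h⟩ := hf
  obtain ⟨V, hV, h'⟩ := hf'
  obtain ⟨W, hW, hWle⟩ := h𝓤.directed U hU V hV
  obtain ⟨W', hW', hW'le, hn⟩ := h𝓤.normalCore W hW
  exact ⟨W', hW', hn, h.mono (hW'le.trans (hWle.trans inf_le_left)),
    h'.mono (hW'le.trans (hWle.trans inf_le_right))⟩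

theorem IsLevel₁.add (h𝓤 : IsLevelBasis 𝓤) {X : Type*} [Add X] {f f' : G → X}
    (hf : IsLevel₁ 𝓤 f) (hf' : IsLevel₁ 𝓤 f') : IsLevel₁ 𝓤 (f + f') := by
  obtain ⟨W, hW, -, h, h'⟩ := hf.exists_common h𝓤 hf'
  exact ⟨W, hW, fun g s hs => by simp only [Pi.add_apply, h g s hs, h' g s hs]⟩

theorem IsLevel₂.add (h𝓤 : IsLevelBasis 𝓤) {X : Type*} [Add X] {f f' : G × G → X}
    (hf : IsLevel₂ 𝓤 f) (hf' : IsLevel₂ 𝓤 f') : IsLevel₂ 𝓤 (f + f') := by
  obtain ⟨W, hW, -, h, h'⟩ := hf.exists_common h𝓤 hf'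
  exact ⟨W, hW, fun g g' s hs s' hs' => by
    simp only [Pi.add_apply, h g g' s hs s' hs', h' g g' s hs s' hs']⟩

theorem IsLevel₁.sub (h𝓤 : IsLevelBasis 𝓤) {X : Type*} [Sub X] {f f' : G → X}
    (hf : IsLevel₁ 𝓤 f) (hf' : IsLevel₁ 𝓤 f') : IsLevel₁ 𝓤 (f - f') := by
  obtain ⟨W, hW, -, h, h'⟩ := hf.exists_common h𝓤 hf'
  exact ⟨W, hW, fun g s hs => by simp only [Pi.sub_apply, h g s hs, h' g s hs]⟩

theorem IsLevel₂.sub (h𝓤 : IsLevelBasis 𝓤) {X : Type*} [Sub X] {f f' : G × G → X}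
    (hf : IsLevel₂ 𝓤 f) (hf' : IsLevel₂ 𝓤 f') : IsLevel₂ 𝓤 (f - f') := by
  obtain ⟨W, hW, -, h, h'⟩ := hf.exists_common h𝓤 hf'
  exact ⟨W, hW, fun g g' s hs s' hs' => by
    simp only [Pi.sub_apply, h g g' s hs s' hs', h' g g' s hs s' hs']⟩

/-- A level function takes finitely many values. -/
theorem IsLevel₁.finite_range (h𝓤 : IsLevelBasis 𝓤) {X : Type*} {f : G → X}
    (hf : IsLevel₁ 𝓤 f) : (Set.range f).Finite := by
  obtain ⟨U, hU, h⟩ := hf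
  haveI := h𝓤.finiteIndex U hU
  haveI : Finite (G ⧸ U) := Subgroup.finite_quotient_of_finiteIndex
  let f' : G ⧸ U → X := Quotient.lift f (by
    intro a b hab
    have hab' : a⁻¹ * b ∈ U := QuotientGroup.leftRel_apply.mp hab
    have := h a (a⁻¹ * b) hab'
    rw [mul_inv_cancel_left] at this
    exact this.symm)
  have : Set.range f ⊆ Set.range f' := by
    rintro _ ⟨g, rfl⟩
    exact ⟨QuotientGroup.mk g, rfl⟩
  exact (Set.finite_range f').subset this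

/-! ### Discrete modules -/

/-- Every vector is fixed by some member of the basis. -/
def IsDiscrete (𝓤 : Set (Subgroup G)) (A : Rep.{u} k G) : Prop :=
  ∀ a : A, ∃ U ∈ 𝓤, ∀ s ∈ U, A.ρ s a = a

/-- A finite set of vectors of a discrete module is fixed by a normal member of the basis. -/
theorem IsDiscrete.exists_fixing (h𝓤 : IsLevelBasis 𝓤) {A : Rep.{u} k G} (hA : IsDiscrete 𝓤 A)
    {T : Set A} (hT : T.Finite) :
    ∃ U ∈ 𝓤, U.Normal ∧ ∀ s ∈ U, ∀ a ∈ T, A.ρ s a = a := by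
  induction T, hT using Set.Finite.induction_on with
  | empty =>
    obtain ⟨U, hU⟩ := h𝓤.nonempty
    obtain ⟨V, hV, -, hn⟩ := h𝓤.normalCore U hU
    exact ⟨V, hV, hn, fun _ _ _ h => absurd h (Set.notMem_empty _)⟩
  | @insert a T _ _ ih =>
    obtain ⟨U, hU, -, h⟩ := ih
    obtain ⟨V, hV, h'⟩ := hA a
    obtain ⟨W, hW, hWle⟩ := h𝓤.directed U hU V hV
    obtain ⟨W', hW', hW'le, hn⟩ := h𝓤.normalCore W hW
    refine ⟨W', hW', hn, fun s hs b hb => ?_⟩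
    rcases hb with rfl | hb
    · exact h' s ((hW'le.trans (hWle.trans inf_le_right)) hs)
    · exact h s ((hW'le.trans (hWle.trans inf_le_left)) hs) b hb

/-- A level cochain with values in a discrete module: a common normal open subgroup fixes all its
values and leaves it invariant. -/
theorem IsLevel₁.exists_normal_fixing (h𝓤 : IsLevelBasis 𝓤) {A : Rep.{u} k G}
    (hA : IsDiscrete 𝓤 A) {f : G → A} (hf : IsLevel₁ 𝓤 f) :
    ∃ U ∈ 𝓤, U.Normal ∧ InvOn₁ U f ∧ ∀ s ∈ U, ∀ g, A.ρ s (f g) = f g := by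
  obtain ⟨V, hV, hn, hfix⟩ := hA.exists_fixing h𝓤 (hf.finite_range h𝓤)
  obtain ⟨U, hU, hinv⟩ := hf
  obtain ⟨W, hW, hWle⟩ := h𝓤.directed U hU V hV
  obtain ⟨W', hW', hW'le, hn'⟩ := h𝓤.normalCore W hW
  exact ⟨W', hW', hn', hinv.mono (hW'le.trans (hWle.trans inf_le_left)),
    fun s hs g => hfix s ((hW'le.trans (hWle.trans inf_le_right)) hs) _ ⟨g, rfl⟩⟩

/-- The coboundary of a vector of a discrete module is a level cochain. -/
theorem isLevel₁_d₀₁ {A : Rep.{u} k G} (hA : IsDiscrete 𝓤 A) (a : A) :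
    IsLevel₁ 𝓤 ((d₀₁ A).hom a) := by
  obtain ⟨U, hU, h⟩ := hA a
  refine ⟨U, hU, fun g s hs => ?_⟩
  rw [d₀₁_hom_apply, d₀₁_hom_apply, map_mul, Module.End.mul_apply, h s hs]

/-- The coboundary of a level 1-cochain with values in a discrete module is a level 2-cochain. -/
theorem isLevel₂_d₁₂ (h𝓤 : IsLevelBasis 𝓤) {A : Rep.{u} k G} (hA : IsDiscrete 𝓤 A) {f : G → A}
    (hf : IsLevel₁ 𝓤 f) : IsLevel₂ 𝓤 ((d₁₂ A).hom f) := by
  obtain ⟨U, hU, hn, hinv, hfix⟩ := hf.exists_normal_fixing h𝓤 hA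
  refine ⟨U, hU, fun g g' s hs s' hs' => ?_⟩
  simp only [d₁₂_hom_apply]
  have h1 : g * s * (g' * s') = g * g' * (g'⁻¹ * s * g' * s') := by group
  have h2 : g'⁻¹ * s * g' * s' ∈ U := by
    refine U.mul_mem ?_ hs'
    have := hn.conj_mem s hs g'⁻¹
    simpa using this
  rw [h1, hinv (g * g') _ h2, hinv g s hs, hinv g' s' hs', map_mul, Module.End.mul_apply,
    hfix s hs]

/-! ### Level cochains, cocycles, cohomology -/

/-- A bundled basis of open subgroups. -/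
structure LevelBasis (G : Type u) [Group G] where
  /-- the open subgroups of the basis -/
  sets : Set (Subgroup G)
  isBasis : IsLevelBasis sets

variable (𝓑 : LevelBasis G) (A : Rep.{u} k G)

/-- Level 1-cochains. -/
def levelCochains₁ : Submodule k (G → A) where
  carrier := {f | IsLevel₁ 𝓑.sets f}
  add_mem' hf hf' := hf.add 𝓑.isBasis hf'
  zero_mem' := isLevel₁_const 𝓑.isBasis (0 : A)
  smul_mem' c _ hf := hf.comp (c • ·)

/-- Level 2-cochains. -/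
def levelCochains₂ : Submodule k (G × G → A) where
  carrier := {f | IsLevel₂ 𝓑.sets f}
  add_mem' hf hf' := hf.add 𝓑.isBasis hf'
  zero_mem' := isLevel₂_const 𝓑.isBasis (0 : A)
  smul_mem' c _ hf := hf.comp (c • ·)

theorem mem_levelCochains₁_iff (f : G → A) : f ∈ levelCochains₁ 𝓑 A ↔ IsLevel₁ 𝓑.sets f := Iff.rfl

theorem mem_levelCochains₂_iff (f : G × G → A) :
    f ∈ levelCochains₂ 𝓑 A ↔ IsLevel₂ 𝓑.sets f := Iff.rfl

/-- Level 1-cocycles. -/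
def Z1 : Submodule k (G → A) := cocycles₁ A ⊓ levelCochains₁ 𝓑 A

/-- Level 2-cocycles. -/
def Z2 : Submodule k (G × G → A) := cocycles₂ A ⊓ levelCochains₂ 𝓑 A

/-- Level 2-coboundaries: coboundaries of level 1-cochains. -/
def B2 : Submodule k (G × G → A) := (levelCochains₁ 𝓑 A).map (d₁₂ A).hom

theorem mem_Z1_iff (f : G → A) : f ∈ Z1 𝓑 A ↔ f ∈ cocycles₁ A ∧ IsLevel₁ 𝓑.sets f := Iff.rfl

theorem mem_Z2_iff (f : G × G → A) : f ∈ Z2 𝓑 A ↔ f ∈ cocycles₂ A ∧ IsLevel₂ 𝓑.sets f :=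
  Iff.rfl

theorem d₁₂_eq_zero_of_mem_Z1 {f : G → A} (hf : f ∈ Z1 𝓑 A) : (d₁₂ A).hom f = 0 := by
  have : f ∈ cocycles₁ A := hf.1
  rwa [cocycles₁, LinearMap.mem_ker] at this

theorem mem_Z1_of {f : G → A} (h : (d₁₂ A).hom f = 0) (hl : IsLevel₁ 𝓑.sets f) :
    f ∈ Z1 𝓑 A := by
  have : f ∈ cocycles₁ A := by
    rw [cocycles₁, LinearMap.mem_ker]
    exact h
  exact ⟨this, hl⟩

theorem d₂₃_eq_zero_of_mem_Z2 {f : G × G → A} (hf : f ∈ Z2 𝓑 A) : (d₂₃ A).hom f = 0 := by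
  have : f ∈ cocycles₂ A := hf.1
  rwa [cocycles₂, LinearMap.mem_ker] at this

theorem mem_Z2_of {f : G × G → A} (h : (d₂₃ A).hom f = 0) (hl : IsLevel₂ 𝓑.sets f) :
    f ∈ Z2 𝓑 A := by
  have : f ∈ cocycles₂ A := by
    rw [cocycles₂, LinearMap.mem_ker]
    exact h
  exact ⟨this, hl⟩

theorem mem_B2_iff (f : G × G → A) :
    f ∈ B2 𝓑 A ↔ ∃ x : G → A, IsLevel₁ 𝓑.sets x ∧ (d₁₂ A).hom x = f := by
  simp only [B2, Submodule.mem_map, mem_levelCochains₁_iff]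

/-- `H¹` of level cochains: level cocycles modulo coboundaries. -/
abbrev H1 : Type u := ↥(Z1 𝓑 A) ⧸ (coboundaries₁ A).comap (Z1 𝓑 A).subtype

/-- `H²` of level cochains: level cocycles modulo coboundaries of level cochains (the shape of the
prelude's `continuousH2`). -/
abbrev H2 : Type u := ↥(Z2 𝓑 A) ⧸ (B2 𝓑 A).comap (Z2 𝓑 A).subtype

/-- The class of a level 1-cocycle. -/
abbrev H1mk : ↥(Z1 𝓑 A) →ₗ[k] H1 𝓑 A := Submodule.mkQ _

/-- The class of a level 2-cocycle. -/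
abbrev H2mk : ↥(Z2 𝓑 A) →ₗ[k] H2 𝓑 A := Submodule.mkQ _

theorem H1mk_eq_zero_iff (c : ↥(Z1 𝓑 A)) : H1mk 𝓑 A c = 0 ↔ (c : G → A) ∈ coboundaries₁ A := by
  simp [Submodule.Quotient.mk_eq_zero, Submodule.mem_comap]

theorem H2mk_eq_zero_iff (c : ↥(Z2 𝓑 A)) : H2mk 𝓑 A c = 0 ↔ (c : G × G → A) ∈ B2 𝓑 A := by
  simp [Submodule.Quotient.mk_eq_zero, Submodule.mem_comap]

theorem H1mk_surjective : Function.Surjective (H1mk 𝓑 A) := Submodule.mkQ_surjective _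

theorem H2mk_surjective : Function.Surjective (H2mk 𝓑 A) := Submodule.mkQ_surjective _

variable {𝓑 A}

theorem B2_le_Z2 (hA : IsDiscrete 𝓑.sets A) : B2 𝓑 A ≤ Z2 𝓑 A := by
  rintro f hf
  obtain ⟨x, hx, rfl⟩ := (mem_B2_iff 𝓑 A f).1 hf
  exact ⟨d₁₂_apply_mem_cocycles₂ x, isLevel₂_d₁₂ 𝓑.isBasis hA hx⟩

theorem coboundaries₁_le_Z1 (hA : IsDiscrete 𝓑.sets A) : coboundaries₁ A ≤ Z1 𝓑 A := by
  rintro f ⟨a, rfl⟩
  exact ⟨d₀₁_apply_mem_cocycles₁ a, isLevel₁_d₀₁ hA a⟩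

/-! ### Functoriality -/

section Functoriality

variable {B : Rep.{u} k G} (φ : A →ₗ[k] B) (hφ : ∀ g a, φ (A.ρ g a) = B.ρ g (φ a))

include hφ

theorem d₀₁_comp (a : A) : (d₀₁ B).hom (φ a) = φ ∘ (d₀₁ A).hom a := by
  funext g
  simp only [d₀₁_hom_apply, Function.comp_apply, map_sub, hφ]

theorem d₁₂_comp (f : G → A) : (d₁₂ B).hom (φ ∘ f) = φ ∘ (d₁₂ A).hom f := by
  funext g
  simp only [d₁₂_hom_apply, Function.comp_apply, map_sub, map_add, hφ]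

theorem d₂₃_comp (f : G × G → A) : (d₂₃ B).hom (φ ∘ f) = φ ∘ (d₂₃ A).hom f := by
  funext g
  simp only [d₂₃_hom_apply, Function.comp_apply, map_sub, map_add, hφ]

theorem comp_mem_cocycles₁ {f : G → A} (hf : f ∈ cocycles₁ A) : φ ∘ f ∈ cocycles₁ B := by
  rw [cocycles₁, LinearMap.mem_ker] at hf ⊢
  rw [d₁₂_comp φ hφ, hf]
  funext g
  exact map_zero φ

theorem comp_mem_cocycles₂ {f : G × G → A} (hf : f ∈ cocycles₂ A) : φ ∘ f ∈ cocycles₂ B := by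
  rw [cocycles₂, LinearMap.mem_ker] at hf ⊢
  rw [d₂₃_comp φ hφ, hf]
  funext g
  exact map_zero φ

theorem comp_mem_coboundaries₁ {f : G → A} (hf : f ∈ coboundaries₁ A) :
    φ ∘ f ∈ coboundaries₁ B := by
  obtain ⟨a, rfl⟩ := hf
  exact ⟨φ a, d₀₁_comp φ hφ a⟩

theorem comp_mem_Z1 {f : G → A} (hf : f ∈ Z1 𝓑 A) : φ ∘ f ∈ Z1 𝓑 B :=
  ⟨comp_mem_cocycles₁ φ hφ hf.1, hf.2.comp φ⟩

theorem comp_mem_Z2 {f : G × G → A} (hf : f ∈ Z2 𝓑 A) : φ ∘ f ∈ Z2 𝓑 B :=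
  ⟨comp_mem_cocycles₂ φ hφ hf.1, hf.2.comp φ⟩

theorem comp_mem_B2 {f : G × G → A} (hf : f ∈ B2 𝓑 A) : φ ∘ f ∈ B2 𝓑 B := by
  obtain ⟨x, hx, rfl⟩ := (mem_B2_iff 𝓑 A f).1 hf
  exact (mem_B2_iff 𝓑 B _).2 ⟨φ ∘ x, hx.comp φ, d₁₂_comp φ hφ x⟩

/-- The map on level 1-cocycles induced by an equivariant linear map. -/
def mapZ1 : ↥(Z1 𝓑 A) →ₗ[k] ↥(Z1 𝓑 B) where
  toFun c := ⟨φ ∘ (c : G → A), comp_mem_Z1 φ hφ c.2⟩
  map_add' c c' := by
    apply Subtype.ext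
    funext g
    simp
  map_smul' r c := by
    apply Subtype.ext
    funext g
    simp

/-- The map on level 2-cocycles induced by an equivariant linear map. -/
def mapZ2 : ↥(Z2 𝓑 A) →ₗ[k] ↥(Z2 𝓑 B) where
  toFun c := ⟨φ ∘ (c : G × G → A), comp_mem_Z2 φ hφ c.2⟩
  map_add' c c' := by
    apply Subtype.ext
    funext g
    simp
  map_smul' r c := by
    apply Subtype.ext
    funext g
    simp

/-- The map on `H¹` induced by an equivariant linear map. -/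
def mapH1 : H1 𝓑 A →ₗ[k] H1 𝓑 B :=
  Submodule.mapQ _ _ (mapZ1 (𝓑 := 𝓑) φ hφ) (fun c hc => by
    simp only [Submodule.mem_comap, Submodule.subtype_apply] at hc ⊢
    exact comp_mem_coboundaries₁ φ hφ hc)

/-- The map on `H²` induced by an equivariant linear map. -/
def mapH2 : H2 𝓑 A →ₗ[k] H2 𝓑 B :=
  Submodule.mapQ _ _ (mapZ2 (𝓑 := 𝓑) φ hφ) (fun c hc => by
    simp only [Submodule.mem_comap, Submodule.subtype_apply] at hc ⊢
    exact comp_mem_B2 φ hφ hc)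

@[simp]
theorem mapH1_mk (c : ↥(Z1 𝓑 A)) :
    mapH1 (𝓑 := 𝓑) φ hφ (H1mk 𝓑 A c) = H1mk 𝓑 B (mapZ1 φ hφ c) := rfl

@[simp]
theorem mapH2_mk (c : ↥(Z2 𝓑 A)) :
    mapH2 (𝓑 := 𝓑) φ hφ (H2mk 𝓑 A c) = H2mk 𝓑 B (mapZ2 φ hφ c) := rfl

end Functoriality

/-! ### The connecting map `δ : H¹(C) → H²(A)` -/

section Connecting

variable {B C : Rep.{u} k G} (φ : A →ₗ[k] B) (hφ : ∀ g a, φ (A.ρ g a) = B.ρ g (φ a))
  (ψ : B →ₗ[k] C) (hψ : ∀ g b, ψ (B.ρ g b) = C.ρ g (ψ b))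
  (hinj : Function.Injective φ) (hsurj : Function.Surjective ψ)
  (hex : ∀ b, ψ b = 0 ↔ ∃ a, φ a = b)

open Classical in
/-- A set-theoretic retraction of `φ`. -/
noncomputable def pre (b : B) : A := if h : ∃ a, φ a = b then h.choose else 0

theorem φ_pre_of_exists {b : B} (h : ∃ a, φ a = b) : φ (pre φ b) = b := by
  rw [pre, dif_pos h]
  exact h.choose_spec

include hex in
theorem φ_pre {b : B} (h : ψ b = 0) : φ (pre φ b) = b := φ_pre_of_exists φ ((hex b).1 h)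

include hex in
theorem ψ_φ (a : A) : ψ (φ a) = 0 := (hex _).2 ⟨a, rfl⟩

include hinj in
/-- A cochain whose image under the injection `φ` is level is level. -/
theorem isLevel₁_of_comp {f : G → A} (h : IsLevel₁ 𝓑.sets (φ ∘ f)) : IsLevel₁ 𝓑.sets f := by
  obtain ⟨U, hU, h⟩ := h
  exact ⟨U, hU, fun g s hs => hinj (h g s hs)⟩

include hinj in
theorem isLevel₂_of_comp {f : G × G → A} (h : IsLevel₂ 𝓑.sets (φ ∘ f)) :
    IsLevel₂ 𝓑.sets f := by
  obtain ⟨U, hU, h⟩ := h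
  exact ⟨U, hU, fun g g' s hs s' hs' => hinj (h g g' s hs s' hs')⟩

include hφ hinj in
/-- **(K1)** If `φ ∘ α = d b` with `b` a level cochain of the discrete module `B`, then `α` is a
level 2-cocycle. -/
theorem mem_Z2_of_comp_eq_d₁₂ (hB : IsDiscrete 𝓑.sets B) {b : G → B}
    (hb : IsLevel₁ 𝓑.sets b) {α : G × G → A} (hα : φ ∘ α = (d₁₂ B).hom b) : α ∈ Z2 𝓑 A := by
  have hc : α ∈ cocycles₂ A := by
    rw [cocycles₂, LinearMap.mem_ker]
    have h1 : φ ∘ (d₂₃ A).hom α = 0 := by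
      rw [← d₂₃_comp φ hφ, hα]
      have := d₁₂_apply_mem_cocycles₂ b
      rwa [cocycles₂, LinearMap.mem_ker] at this
    funext x
    apply hinj
    have := congrFun h1 x
    simp only [Function.comp_apply] at this
    rw [this]
    exact (map_zero φ).symm
  exact ⟨hc, isLevel₂_of_comp (𝓑 := 𝓑) φ hinj (hα ▸ isLevel₂_d₁₂ 𝓑.isBasis hB hb)⟩

include hφ hinj hex in
/-- **(K2)** The class of `α` only depends on `ψ ∘ b`. -/
theorem sub_mem_B2_of_comp_eq {b b' : G → B} (hb : IsLevel₁ 𝓑.sets b)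
    (hb' : IsLevel₁ 𝓑.sets b') (hbb' : ψ ∘ b = ψ ∘ b') {α α' : G × G → A}
    (hα : φ ∘ α = (d₁₂ B).hom b) (hα' : φ ∘ α' = (d₁₂ B).hom b') : α - α' ∈ B2 𝓑 A := by
  have h0 : ∀ g, ψ ((b - b') g) = 0 := fun g => by
    have := congrFun hbb' g
    simp only [Function.comp_apply] at this
    simp [this]
  have h1 : φ ∘ (pre φ ∘ (b - b')) = b - b' := by
    funext g
    exact φ_pre φ ψ hex (h0 g)
  refine (mem_B2_iff 𝓑 A _).2 ⟨pre φ ∘ (b - b'), (hb.sub 𝓑.isBasis hb').comp _, ?_⟩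
  funext x
  apply hinj
  have h2 := congrFun (d₁₂_comp φ hφ (pre φ ∘ (b - b'))) x
  rw [h1] at h2
  simp only [Function.comp_apply] at h2
  rw [← h2, map_sub (d₁₂ B).hom]
  have h3 := congrFun hα x
  have h4 := congrFun hα' x
  simp only [Function.comp_apply] at h3 h4
  simp only [Pi.sub_apply, map_sub, h3, h4]

/-- The cochain representing `δ c`. -/
noncomputable def deltaFun (c : G → C) : G × G → A :=
  pre φ ∘ (d₁₂ B).hom (Function.surjInv hsurj ∘ c)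

theorem ψ_comp_surjInv (c : G → C) : ψ ∘ (Function.surjInv hsurj ∘ c) = c := by
  funext g
  exact Function.surjInv_eq hsurj (c g)

include hψ hex in
theorem φ_comp_deltaFun {c : G → C} (hc : c ∈ cocycles₁ C) :
    φ ∘ deltaFun φ ψ hsurj c = (d₁₂ B).hom (Function.surjInv hsurj ∘ c) := by
  funext x
  refine φ_pre φ ψ hex ?_
  have h1 := congrFun (d₁₂_comp ψ hψ (Function.surjInv hsurj ∘ c)) x
  rw [ψ_comp_surjInv] at h1
  simp only [Function.comp_apply] at h1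
  rw [← h1]
  rw [cocycles₁, LinearMap.mem_ker] at hc
  rw [hc]
  rfl

include hφ hψ hinj hex in
theorem deltaFun_mem_Z2 (hB : IsDiscrete 𝓑.sets B) {c : G → C} (hc : c ∈ Z1 𝓑 C) :
    deltaFun φ ψ hsurj c ∈ Z2 𝓑 A :=
  mem_Z2_of_comp_eq_d₁₂ φ hφ hinj hB (hc.2.comp _) (φ_comp_deltaFun φ ψ hψ hsurj hex hc.1)

end Connecting

/-! ### `δ` as a linear map and the exact sequence -/

section Exact

variable {B C : Rep.{u} k G} (φ : A →ₗ[k] B) (hφ : ∀ g a, φ (A.ρ g a) = B.ρ g (φ a))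
  (ψ : B →ₗ[k] C) (hψ : ∀ g b, ψ (B.ρ g b) = C.ρ g (ψ b))
  (hinj : Function.Injective φ) (hsurj : Function.Surjective ψ)
  (hex : ∀ b, ψ b = 0 ↔ ∃ a, φ a = b) (hB : IsDiscrete 𝓑.sets B)

include hφ hψ hinj hex hB in
/-- **Characterisation of `δ`**: for ANY level lift `b` of the cocycle `c` and any `α` with
`φ ∘ α = d b`, the class of `α` is the class of `deltaFun c`. -/
theorem deltaFun_sub_mem_B2 {c : G → C} (hc : c ∈ Z1 𝓑 C) {b : G → B} (hb : IsLevel₁ 𝓑.sets b)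
    (hbc : ψ ∘ b = c) {α : G × G → A} (hα : φ ∘ α = (d₁₂ B).hom b) :
    deltaFun φ ψ hsurj c - α ∈ B2 𝓑 A :=
  sub_mem_B2_of_comp_eq φ hφ ψ hinj hex (hc.2.comp _) hb
    ((ψ_comp_surjInv ψ hsurj c).trans hbc.symm) (φ_comp_deltaFun φ ψ hψ hsurj hex hc.1) hα

/-- `δ` on level cocycles. -/
noncomputable def deltaZ : ↥(Z1 𝓑 C) →ₗ[k] H2 𝓑 A where
  toFun c := H2mk 𝓑 A ⟨deltaFun φ ψ hsurj (c : G → C),
    deltaFun_mem_Z2 φ hφ ψ hψ hinj hsurj hex hB c.2⟩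
  map_add' c c' := by
    rw [← map_add, ← sub_eq_zero, ← map_sub, H2mk_eq_zero_iff]
    have h1 : φ ∘ (deltaFun φ ψ hsurj (c : G → C) + deltaFun φ ψ hsurj (c' : G → C)) =
        (d₁₂ B).hom (Function.surjInv hsurj ∘ (c : G → C) +
          Function.surjInv hsurj ∘ (c' : G → C)) := by
      rw [map_add, ← φ_comp_deltaFun φ ψ hψ hsurj hex c.2.1,
        ← φ_comp_deltaFun φ ψ hψ hsurj hex c'.2.1]
      funext x
      simp
    have h2 : ψ ∘ (Function.surjInv hsurj ∘ (c : G → C) +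
        Function.surjInv hsurj ∘ (c' : G → C)) = ((c + c' : ↥(Z1 𝓑 C)) : G → C) := by
      funext g
      simp [Function.surjInv_eq hsurj]
    exact deltaFun_sub_mem_B2 φ hφ ψ hψ hinj hsurj hex hB (c + c').2
      ((c.2.2.comp _).add 𝓑.isBasis (c'.2.2.comp _)) h2 h1
  map_smul' r c := by
    rw [RingHom.id_apply, ← map_smul, ← sub_eq_zero, ← map_sub, H2mk_eq_zero_iff]
    have h1 : φ ∘ (r • deltaFun φ ψ hsurj (c : G → C)) =
        (d₁₂ B).hom (r • (Function.surjInv hsurj ∘ (c : G → C))) := by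
      rw [map_smul, ← φ_comp_deltaFun φ ψ hψ hsurj hex c.2.1]
      funext x
      simp
    have h2 : ψ ∘ (r • (Function.surjInv hsurj ∘ (c : G → C))) =
        ((r • c : ↥(Z1 𝓑 C)) : G → C) := by
      funext g
      simp [Function.surjInv_eq hsurj]
    have h3 : IsLevel₁ 𝓑.sets (r • (Function.surjInv hsurj ∘ (c : G → C))) :=
      (levelCochains₁ 𝓑 B).smul_mem r
        ((mem_levelCochains₁_iff 𝓑 B _).2 (c.2.2.comp (Function.surjInv hsurj)))
    exact deltaFun_sub_mem_B2 φ hφ ψ hψ hinj hsurj hex hB (r • c).2 h3 h2 h1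

include hφ hψ hinj hex hB in
/-- **Characterisation of `δ`** on classes. -/
theorem deltaZ_eq (c : ↥(Z1 𝓑 C)) {b : G → B} (hb : IsLevel₁ 𝓑.sets b)
    (hbc : ψ ∘ b = (c : G → C)) (α : ↥(Z2 𝓑 A)) (hα : φ ∘ (α : G × G → A) = (d₁₂ B).hom b) :
    deltaZ φ hφ ψ hψ hinj hsurj hex hB c = H2mk 𝓑 A α := by
  show H2mk 𝓑 A _ = H2mk 𝓑 A α
  rw [← sub_eq_zero, ← map_sub, H2mk_eq_zero_iff]
  exact deltaFun_sub_mem_B2 φ hφ ψ hψ hinj hsurj hex hB c.2 hb hbc hα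

/-- The connecting map `δ : H¹(C) → H²(A)`. -/
noncomputable def delta : H1 𝓑 C →ₗ[k] H2 𝓑 A :=
  Submodule.liftQ _ (deltaZ φ hφ ψ hψ hinj hsurj hex hB) (by
    intro c hc
    rw [Submodule.mem_comap, Submodule.subtype_apply] at hc
    obtain ⟨x, hx⟩ := hc
    rw [LinearMap.mem_ker]
    have hb : IsLevel₁ 𝓑.sets ((d₀₁ B).hom (Function.surjInv hsurj x)) := isLevel₁_d₀₁ hB _
    have hbc : ψ ∘ (d₀₁ B).hom (Function.surjInv hsurj x) = (c : G → C) := by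
      rw [← d₀₁_comp ψ hψ, Function.surjInv_eq hsurj]
      exact hx
    have hα : φ ∘ ((0 : ↥(Z2 𝓑 A)) : G × G → A) =
        (d₁₂ B).hom ((d₀₁ B).hom (Function.surjInv hsurj x)) := by
      have := d₀₁_apply_mem_cocycles₁ (Function.surjInv hsurj x)
      rw [cocycles₁, LinearMap.mem_ker] at this
      rw [this]
      funext y
      exact map_zero φ
    rw [deltaZ_eq φ hφ ψ hψ hinj hsurj hex hB c hb hbc 0 hα, map_zero])

@[simp]
theorem delta_mk (c : ↥(Z1 𝓑 C)) :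
    delta φ hφ ψ hψ hinj hsurj hex hB (H1mk 𝓑 C c) = deltaZ φ hφ ψ hψ hinj hsurj hex hB c := rfl

end Exact

/-! ### Exactness -/

section Exactness

variable {B C : Rep.{u} k G} (φ : A →ₗ[k] B) (hφ : ∀ g a, φ (A.ρ g a) = B.ρ g (φ a))
  (ψ : B →ₗ[k] C) (hψ : ∀ g b, ψ (B.ρ g b) = C.ρ g (ψ b))
  (hinj : Function.Injective φ) (hsurj : Function.Surjective ψ)
  (hex : ∀ b, ψ b = 0 ↔ ∃ a, φ a = b) (hB : IsDiscrete 𝓑.sets B)

include hex in
theorem ψ_comp_φ_comp {X : Type*} (f : X → A) : ψ ∘ (φ ∘ f) = 0 := by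
  funext x
  exact ψ_φ φ ψ hex (f x)

include hφ hψ hinj hex hB in
/-- **Exactness at `H¹(C)`**: `ker δ = range H¹(ψ)`. -/
theorem ker_delta :
    LinearMap.ker (delta φ hφ ψ hψ hinj hsurj hex hB) =
      LinearMap.range (mapH1 (𝓑 := 𝓑) ψ hψ) := by
  ext x
  obtain ⟨c, rfl⟩ := H1mk_surjective 𝓑 C x
  rw [LinearMap.mem_ker, delta_mk, LinearMap.mem_range]
  constructor
  · intro h
    -- `deltaFun c = d a'` with `a'` level; correct the lift
    have h' : H2mk 𝓑 A ⟨deltaFun φ ψ hsurj (c : G → C),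
        deltaFun_mem_Z2 φ hφ ψ hψ hinj hsurj hex hB c.2⟩ = 0 := h
    rw [H2mk_eq_zero_iff] at h'
    obtain ⟨a', ha', hda'⟩ := (mem_B2_iff 𝓑 A _).1 h'
    set b : G → B := Function.surjInv hsurj ∘ (c : G → C) - φ ∘ a' with hb
    have hblev : IsLevel₁ 𝓑.sets b := (c.2.2.comp _).sub 𝓑.isBasis (ha'.comp _)
    have hψb : ψ ∘ b = (c : G → C) := by
      funext g
      simp [hb, Function.surjInv_eq hsurj, ψ_φ φ ψ hex]
    have hbcoc : (d₁₂ B).hom b = 0 := by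
      rw [hb, map_sub, d₁₂_comp φ hφ, hda',
        ← φ_comp_deltaFun φ ψ hψ hsurj hex c.2.1, sub_self]
    refine ⟨H1mk 𝓑 B ⟨b, mem_Z1_of 𝓑 B hbcoc hblev⟩, ?_⟩
    rw [mapH1_mk]
    congr 1
    exact Subtype.ext hψb
  · rintro ⟨y, hy⟩
    obtain ⟨b, rfl⟩ := H1mk_surjective 𝓑 B y
    rw [mapH1_mk] at hy
    -- `c` and `ψ ∘ b` differ by a coboundary, and `δ` kills both
    have h1 : deltaZ φ hφ ψ hψ hinj hsurj hex hB (mapZ1 ψ hψ b) = 0 := by
      have hα : φ ∘ ((0 : ↥(Z2 𝓑 A)) : G × G → A) = (d₁₂ B).hom (b : G → B) := by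
        rw [d₁₂_eq_zero_of_mem_Z1 𝓑 B b.2]
        funext y
        exact map_zero φ
      rw [deltaZ_eq φ hφ ψ hψ hinj hsurj hex hB (mapZ1 ψ hψ b) b.2.2 rfl 0 hα, map_zero]
    rw [← delta_mk, hy, delta_mk] at h1
    exact h1

include hφ hψ hinj hex hB in
/-- **Exactness at `H²(A)`**: `ker H²(φ) = range δ`. -/
theorem ker_mapH2 :
    LinearMap.ker (mapH2 (𝓑 := 𝓑) φ hφ) =
      LinearMap.range (delta φ hφ ψ hψ hinj hsurj hex hB) := by
  ext x
  obtain ⟨α, rfl⟩ := H2mk_surjective 𝓑 A x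
  rw [LinearMap.mem_ker, mapH2_mk, H2mk_eq_zero_iff, LinearMap.mem_range]
  constructor
  · intro h
    obtain ⟨b, hb, hdb⟩ := (mem_B2_iff 𝓑 B _).1 h
    have hdb' : φ ∘ (α : G × G → A) = (d₁₂ B).hom b := hdb.symm
    have hc : ψ ∘ b ∈ Z1 𝓑 C := by
      refine mem_Z1_of 𝓑 C ?_ (hb.comp _)
      rw [d₁₂_comp ψ hψ, ← hdb', ψ_comp_φ_comp φ ψ hex]
    refine ⟨H1mk 𝓑 C ⟨ψ ∘ b, hc⟩, ?_⟩
    rw [delta_mk]
    exact deltaZ_eq φ hφ ψ hψ hinj hsurj hex hB ⟨ψ ∘ b, hc⟩ hb rfl α hdb'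
  · rintro ⟨y, hy⟩
    obtain ⟨c, rfl⟩ := H1mk_surjective 𝓑 C y
    rw [delta_mk] at hy
    have hy' : H2mk 𝓑 A ⟨deltaFun φ ψ hsurj (c : G → C),
        deltaFun_mem_Z2 φ hφ ψ hψ hinj hsurj hex hB c.2⟩ = H2mk 𝓑 A α := hy
    rw [← sub_eq_zero, ← map_sub, H2mk_eq_zero_iff] at hy'
    have h1 : (mapZ2 φ hφ α : G × G → B) =
        φ ∘ deltaFun φ ψ hsurj (c : G → C) -
          φ ∘ (deltaFun φ ψ hsurj (c : G → C) - (α : G × G → A)) := by
      funext x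
      simp [mapZ2]
    rw [h1]
    refine (B2 𝓑 B).sub_mem ?_ (comp_mem_B2 φ hφ hy')
    rw [φ_comp_deltaFun φ ψ hψ hsurj hex c.2.1]
    exact (mem_B2_iff 𝓑 B _).2 ⟨_, c.2.2.comp _, rfl⟩

include hφ hψ hinj hsurj hex hB in
/-- **Exactness at `H¹(B)`**: `ker H¹(ψ) = range H¹(φ)`. -/
theorem ker_mapH1 :
    LinearMap.ker (mapH1 (𝓑 := 𝓑) ψ hψ) = LinearMap.range (mapH1 (𝓑 := 𝓑) φ hφ) := by
  ext x
  obtain ⟨b, rfl⟩ := H1mk_surjective 𝓑 B x
  rw [LinearMap.mem_ker, mapH1_mk, H1mk_eq_zero_iff, LinearMap.mem_range]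
  constructor
  · rintro ⟨z, hz⟩
    -- subtract the coboundary of a lift of `z`
    set y : B := Function.surjInv hsurj z with hy
    set b' : G → B := (b : G → B) - (d₀₁ B).hom y with hb'
    have hb'lev : IsLevel₁ 𝓑.sets b' := b.2.2.sub 𝓑.isBasis (isLevel₁_d₀₁ hB y)
    have hb'coc : (d₁₂ B).hom b' = 0 := by
      rw [hb', map_sub, d₁₂_eq_zero_of_mem_Z1 𝓑 B b.2]
      have := d₀₁_apply_mem_cocycles₁ y
      rw [cocycles₁, LinearMap.mem_ker] at this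
      rw [this, sub_zero]
    have hψb' : ∀ g, ψ (b' g) = 0 := by
      intro g
      have h1 := congrFun hz g
      have h2 := congrFun (d₀₁_comp ψ hψ y) g
      simp only [Function.comp_apply] at h2
      rw [hy, Function.surjInv_eq hsurj] at h2
      simp only [hb', Pi.sub_apply, map_sub]
      rw [← h2, h1]
      simp [mapZ1]
    set a : G → A := pre φ ∘ b' with ha
    have hφa : φ ∘ a = b' := by
      funext g
      exact φ_pre φ ψ hex (hψb' g)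
    have halev : IsLevel₁ 𝓑.sets a := hb'lev.comp _
    have hacoc : (d₁₂ A).hom a = 0 := by
      funext x
      apply hinj
      have := congrFun (d₁₂_comp φ hφ a) x
      rw [hφa, hb'coc] at this
      simp only [Function.comp_apply] at this
      rw [← this]
      exact (map_zero φ).symm
    refine ⟨H1mk 𝓑 A ⟨a, mem_Z1_of 𝓑 A hacoc halev⟩, ?_⟩
    rw [mapH1_mk, ← sub_eq_zero, ← map_sub, H1mk_eq_zero_iff]
    refine ⟨-y, ?_⟩
    funext g
    have := congrFun hφa g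
    simp only [Function.comp_apply] at this
    simp only [mapZ1, LinearMap.coe_mk, AddHom.coe_mk, AddSubgroupClass.coe_sub,
      Pi.sub_apply, Function.comp_apply, this, hb', d₀₁_hom_apply, map_neg]
    abel
  · rintro ⟨y, hy⟩
    obtain ⟨a, rfl⟩ := H1mk_surjective 𝓑 A y
    rw [mapH1_mk] at hy
    have h1 : mapH1 (𝓑 := 𝓑) ψ hψ (H1mk 𝓑 B (mapZ1 φ hφ a)) = 0 := by
      rw [mapH1_mk, H1mk_eq_zero_iff]
      refine ⟨0, ?_⟩
      funext g
      simp [mapZ1, ψ_φ φ ψ hex]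
    rw [hy, mapH1_mk, H1mk_eq_zero_iff] at h1
    exact h1

include hφ hψ hinj hsurj hex hB in
/-- **Exactness at `H²(B)`**: `ker H²(ψ) = range H²(φ)`. -/
theorem ker_mapH2' :
    LinearMap.ker (mapH2 (𝓑 := 𝓑) ψ hψ) = LinearMap.range (mapH2 (𝓑 := 𝓑) φ hφ) := by
  ext x
  obtain ⟨β, rfl⟩ := H2mk_surjective 𝓑 B x
  rw [LinearMap.mem_ker, mapH2_mk, H2mk_eq_zero_iff, LinearMap.mem_range]
  constructor
  · intro h
    obtain ⟨c', hc', hdc'⟩ := (mem_B2_iff 𝓑 C _).1 h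
    set b' : G → B := Function.surjInv hsurj ∘ c' with hb'
    have hb'lev : IsLevel₁ 𝓑.sets b' := hc'.comp _
    set β' : G × G → B := (β : G × G → B) - (d₁₂ B).hom b' with hβ'
    have hβ'lev : IsLevel₂ 𝓑.sets β' := β.2.2.sub 𝓑.isBasis (isLevel₂_d₁₂ 𝓑.isBasis hB hb'lev)
    have hβ'coc : (d₂₃ B).hom β' = 0 := by
      rw [hβ', map_sub, d₂₃_eq_zero_of_mem_Z2 𝓑 B β.2]
      have := d₁₂_apply_mem_cocycles₂ b'
      rw [cocycles₂, LinearMap.mem_ker] at this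
      rw [this, sub_zero]
    have hψβ' : ∀ x, ψ (β' x) = 0 := by
      intro x
      have h1 := congrFun hdc' x
      have h2 := congrFun (d₁₂_comp ψ hψ b') x
      rw [hb', ψ_comp_surjInv] at h2
      simp only [Function.comp_apply] at h2
      simp only [hβ', Pi.sub_apply, map_sub]
      rw [← h2, h1]
      simp [mapZ2]
    set α : G × G → A := pre φ ∘ β' with hα
    have hφα : φ ∘ α = β' := by
      funext x
      exact φ_pre φ ψ hex (hψβ' x)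
    have hαlev : IsLevel₂ 𝓑.sets α := hβ'lev.comp _
    have hαcoc : (d₂₃ A).hom α = 0 := by
      funext x
      apply hinj
      have := congrFun (d₂₃_comp φ hφ α) x
      rw [hφα, hβ'coc] at this
      simp only [Function.comp_apply] at this
      rw [← this]
      exact (map_zero φ).symm
    refine ⟨H2mk 𝓑 A ⟨α, mem_Z2_of 𝓑 A hαcoc hαlev⟩, ?_⟩
    rw [mapH2_mk, ← sub_eq_zero, ← map_sub, H2mk_eq_zero_iff]
    refine (mem_B2_iff 𝓑 B _).2 ⟨-b', ?_, ?_⟩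
    · exact (levelCochains₁ 𝓑 B).neg_mem hb'lev
    · rw [map_neg]
      funext x
      have := congrFun hφα x
      simp only [Function.comp_apply] at this
      simp [mapZ2, this, hβ']
  · rintro ⟨y, hy⟩
    obtain ⟨α, rfl⟩ := H2mk_surjective 𝓑 A y
    rw [mapH2_mk] at hy
    have h1 : mapH2 (𝓑 := 𝓑) ψ hψ (H2mk 𝓑 B (mapZ2 φ hφ α)) = 0 := by
      rw [mapH2_mk, H2mk_eq_zero_iff]
      refine (mem_B2_iff 𝓑 C _).2 ⟨0, (levelCochains₁ 𝓑 C).zero_mem, ?_⟩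
      rw [map_zero]
      funext x
      simp only [mapZ2, LinearMap.coe_mk, AddHom.coe_mk, Function.comp_apply, ψ_φ φ ψ hex]
      rfl
    rw [hy, mapH2_mk, H2mk_eq_zero_iff] at h1
    exact h1

end Exactness

end Fermat.Agent.PT.PRO.LevelCoh28
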