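/-
Program F (S55), chapter PRO, helper13.

Dictionary between the two vocabularies for level cochains: `LevelCoh28` (helper28; `Rep k G`,
bundled `LevelBasis`) and `HyperLevel25` (helper25; plain `Representation k G W`).  The notions
`IsLevelBasis`, `IsLevel₁`, `IsLevel₂`, `IsDiscrete` agree (the first, second and fourth even
definitionally up to the order of binders), and `dZero/dOne/dTwo` are Mathlib's `d₀₁/d₁₂/d₂₃`.
-/
import Mathlib
import Fermat.Agent.PT.PRO.HyperLevel25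
import Fermat.Agent.PT.PRO.LevelCoh28

set_option autoImplicit false

universe u

namespace Fermat.Agent.PT.PRO.LevelCompare13

open Fermat.Agent.PT.PRO

section Sets

variable {G : Type*} [Group G] {𝒰 : Set (Subgroup G)}

theorem isLevelBasis_iff : LevelCoh28.IsLevelBasis 𝒰 ↔ HyperLevel25.IsLevelBasis 𝒰 :=
  ⟨fun h => ⟨h.nonempty, h.directed, h.normalCore, h.finiteIndex⟩,
    fun h => ⟨h.nonempty, h.inf, h.normal, h.finiteIndex⟩⟩

theorem isLevel₁_iff {X : Type*} (f : G → X) :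
    LevelCoh28.IsLevel₁ 𝒰 f ↔ HyperLevel25.IsLevel₁ 𝒰 f := Iff.rfl

theorem isLevel₂_iff {X : Type*} (f : G × G → X) :
    LevelCoh28.IsLevel₂ 𝒰 f ↔ HyperLevel25.IsLevel₂ 𝒰 f :=
  ⟨fun ⟨U, hU, h⟩ => ⟨U, hU, fun g g' s s' hs hs' => h g g' s hs s' hs'⟩,
    fun ⟨U, hU, h⟩ => ⟨U, hU, fun g g' s hs s' hs' => h g g' s s' hs hs'⟩⟩

end Sets

section Rep

variable {k G : Type u} [CommRing k] [Group G] {𝒰 : Set (Subgroup G)} (A : Rep.{u} k G)

theorem isDiscrete_iff : LevelCoh28.IsDiscrete 𝒰 A ↔ HyperLevel25.IsDiscrete 𝒰 A.ρ := Iff.rfl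

theorem dZero_eq (a : A) : HyperLevel25.dZero A.ρ a = (groupCohomology.d₀₁ A).hom a := by
  funext g
  rw [HyperLevel25.dZero_apply, groupCohomology.d₀₁_hom_apply]

theorem dOne_eq (c : G → A) : HyperLevel25.dOne A.ρ c = (groupCohomology.d₁₂ A).hom c := by
  funext ⟨g, h⟩
  rw [HyperLevel25.dOne_apply, groupCohomology.d₁₂_hom_apply]

theorem dTwo_eq (c : G × G → A) : HyperLevel25.dTwo A.ρ c = (groupCohomology.d₂₃ A).hom c := by
  funext ⟨g, h, j⟩
  rw [HyperLevel25.dTwo_apply, groupCohomology.d₂₃_hom_apply]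

theorem mem_cocycles₁_iff (c : G → A) :
    c ∈ groupCohomology.cocycles₁ A ↔ HyperLevel25.dOne A.ρ c = 0 := by
  rw [dOne_eq, groupCohomology.cocycles₁, LinearMap.mem_ker]

theorem mem_cocycles₂_iff (c : G × G → A) :
    c ∈ groupCohomology.cocycles₂ A ↔ HyperLevel25.dTwo A.ρ c = 0 := by
  rw [dTwo_eq, groupCohomology.cocycles₂, LinearMap.mem_ker]

theorem mem_coboundaries₁_iff (c : G → A) :
    c ∈ groupCohomology.coboundaries₁ A ↔ ∃ a : A, HyperLevel25.dZero A.ρ a = c := by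
  constructor
  · rintro ⟨a, rfl⟩
    exact ⟨a, dZero_eq A a⟩
  · rintro ⟨a, rfl⟩
    exact ⟨a, (dZero_eq A a).symm⟩

end Rep

end Fermat.Agent.PT.PRO.LevelCompare13
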