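/-
PROGRAM F (S55), chapter PRO.  helper9.
**Finiteness of the global level `H¹`** in the `Resolved4.Hlev1` form consumed by the final assembly
(helper20, plan v4): for a finite-dimensional `𝔽_p`-representation `A` of `Γ = Gal(ℚ̄/ℚ)` trivialised
by `Gal(ℚ̄/F₀)`, `F₀ ⊇ μ_p` finite and unramified outside `S`, and ANY representation
`ρ : Representation k Γ Y` (e.g. `k = ℤ`, the `ℤ`-restriction of `A`) with an injective equivariant
additive map `e : Y →+ A`, discrete for `levelS S`:  `Hlev1 (levelS S) ρ` is finite.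
Even the set of level 1-cocycles is finite (`finite_Z1`).
Input: helper15's `H1FiniteCoh15.exists_field_forall_cocycle`.
-/
import Mathlib
import Fermat.Agent.PT.GLOB.H1FiniteCoh15
import Fermat.Agent.PT.GLUE.Objects21
import Fermat.Agent.PT.PRO.Resolved4
import Fermat.Agent.PT.PRO.LevelCompare13

set_option autoImplicit false
set_option linter.unusedSectionVars false
set_option linter.style.haveILetI false

namespace Fermat.Agent.PT.PRO.FinH1_9

open groupCohomology Function
open Fermat.Agent.PT.PRO Fermat.Agent.PT.GLUE.Objects21 Fermat.Agent.PT.GLOB.H1FiniteCoh15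

local notation "Qbar" => AlgebraicClosure ℚ
local notation "Γ" => (AlgebraicClosure ℚ ≃ₐ[ℚ] AlgebraicClosure ℚ)

/-- `levelS S` as a level basis in the sense of `HyperLevel25`. -/
theorem isLevelBasis_levelS (S : Finset Nat.Primes) : HyperLevel25.IsLevelBasis (levelS S).sets :=
  LevelCompare13.isLevelBasis_iff.1 (levelS S).isBasis

section Main

variable {p : ℕ} [hp : Fact p.Prime] (S : Finset Nat.Primes) (A : Rep (ZMod p) Γ)
  [FiniteDimensional (ZMod p) A]
variable {k : Type*} [CommRing k] {Y : Type*} [AddCommGroup Y] [Module k Y]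
  (ρ : Representation k Γ Y) (hρ : HyperLevel25.IsDiscrete (levelS S).sets ρ)
  (e : Y →+ A) (he_inj : Injective e) (he : ∀ g y, e (ρ g y) = A.ρ g (e y))

include he in
/-- The image under `e` of a level 1-cocycle of `ρ` is a level-constant-`S` 1-cocycle of `A`. -/
theorem comp_mem_cocycles₁ (c : Γ → Y) (hc : HyperLevel25.dOne ρ c = 0) :
    (fun g => e (c g)) ∈ cocycles₁ A := by
  rw [mem_cocycles₁_iff]
  intro g h
  have h1 := congrFun hc (g, h)
  rw [HyperLevel25.dOne_apply, Pi.zero_apply] at h1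
  have h2 : c (g * h) = ρ g (c h) + c g := by
    rw [sub_add_eq_add_sub, sub_eq_zero] at h1
    exact h1.symm
  show e (c (g * h)) = A.ρ g (e (c h)) + e (c g)
  rw [h2, map_add, he]

include he_inj he in
/-- **The level 1-cocycles of `ρ` form a finite set.** -/
theorem finite_Z1 (F₀ : IntermediateField ℚ Qbar) [FiniteDimensional ℚ F₀]
    (hF₀ : F₀.IsUnramifiedOutside S) {ζ : Qbar} (hζ : IsPrimitiveRoot ζ p) (hζF : ζ ∈ F₀)
    (htriv : ∀ s ∈ F₀.fixingSubgroup, ∀ a : A, A.ρ s a = a) :
    Finite (Resolved4.lvl (isLevelBasis_levelS S) ρ hρ).Z1 := by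
  obtain ⟨F₁, -, hfin, hF₁⟩ := exists_field_forall_cocycle S A F₀ hF₀ hζ hζF htriv
  haveI := hfin
  haveI := finiteIndex_fixingSubgroup F₁
  haveI : Finite A := Module.finite_of_finite (ZMod p)
  have hfin1 := finite_setOf_level (X := A) F₁.fixingSubgroup
  haveI : Finite {f : Γ → A | ∀ g, ∀ s ∈ F₁.fixingSubgroup, f (g * s) = f g} := hfin1.to_subtype
  -- the injection `c ↦ e ∘ c`
  let Φ : (Resolved4.lvl (isLevelBasis_levelS S) ρ hρ).Z1 →
      {f : Γ → A | ∀ g, ∀ s ∈ F₁.fixingSubgroup, f (g * s) = f g} := fun c =>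
    ⟨fun g => e ((c : HyperLevel25.lev₁ k (isLevelBasis_levelS S) Y).1 g), by
      have hc := (Resolved4.mem_lvl_Z1_iff (isLevelBasis_levelS S) ρ hρ c.1).1 c.2
      have hlev : HyperLevel25.IsLevel₁ (levelS S).sets
          (fun g => e ((c : HyperLevel25.lev₁ k (isLevelBasis_levelS S) Y).1 g)) := by
        obtain ⟨U, hU, hUc⟩ := (c : HyperLevel25.lev₁ k (isLevelBasis_levelS S) Y).2
        exact ⟨U, hU, fun g s hs => congrArg e (hUc g s hs)⟩
      exact hF₁ ⟨_, comp_mem_cocycles₁ A ρ e he _ hc⟩ ((isLevel₁_levelS_iff S _).1 hlev)⟩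
  refine Finite.of_injective Φ ?_
  intro c c' h
  apply Subtype.ext
  apply Subtype.ext
  funext g
  have := congrFun (congrArg Subtype.val h) g
  exact he_inj this

include he_inj he in
/-- **Finiteness of the global level `H¹`** (`Resolved4.Hlev1`). -/
theorem finite_Hlev1 (F₀ : IntermediateField ℚ Qbar) [FiniteDimensional ℚ F₀]
    (hF₀ : F₀.IsUnramifiedOutside S) {ζ : Qbar} (hζ : IsPrimitiveRoot ζ p) (hζF : ζ ∈ F₀)
    (htriv : ∀ s ∈ F₀.fixingSubgroup, ∀ a : A, A.ρ s a = a) :
    Finite (Resolved4.Hlev1 (isLevelBasis_levelS S) ρ hρ) := by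
  haveI := finite_Z1 S A ρ hρ e he_inj he F₀ hF₀ hζ hζF htriv
  exact Finite.of_surjective _ (Resolved4.lvl (isLevelBasis_levelS S) ρ hρ).π1_surjective

end Main

end Fermat.Agent.PT.PRO.FinH1_9
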