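/-
Program F (S55, Poitou–Tate), chapter PRO, helper20.

`IntRep20`: the underlying `ℤ`-linear representation `intRep A : Representation ℤ G A` of a
`Rep k G` (any commutative ring `k`, e.g. `ZMod p`): the bridge between the coefficient
conventions of BR/`LevelCoh28` (`Rep (ZMod p) Γ`) and of PRO's `ℤ`-linear machinery
(`HyperLevel25`, `Resolved4`, `FreeRes29`, `k = ℤ`).  Same underlying functions, so cochains,
levels, discreteness, cocycles and coboundaries are literally the same.
-/
import Mathlib
import Fermat.Agent.PT.PRO.HyperLevel25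
import Fermat.Agent.PT.PRO.LevelCoh28

set_option autoImplicit false

universe u

namespace Fermat.Agent.PT.PRO.IntRep20

open Fermat.Agent.PT.PRO

variable {k : Type u} [CommRing k] {G : Type u} [Group G]

/-- The underlying `ℤ`-linear representation of `A : Rep k G`. -/
def intRep (A : Rep.{u} k G) : Representation ℤ G A where
  toFun g := (A.ρ g).toAddMonoidHom.toIntLinearMap
  map_one' := by
    ext a
    simp
  map_mul' g h := by
    ext a
    simp

@[simp] lemma intRep_apply (A : Rep.{u} k G) (g : G) (a : A) : intRep A g a = A.ρ g a := rfl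

/-- Discreteness is the same notion. -/
lemma isDiscrete_intRep_iff (𝒰 : Set (Subgroup G)) (A : Rep.{u} k G) :
    HyperLevel25.IsDiscrete 𝒰 (intRep A) ↔ LevelCoh28.IsDiscrete 𝒰 A := Iff.rfl

lemma dZero_intRep (A : Rep.{u} k G) (a : A) (g : G) :
    HyperLevel25.dZero (intRep A) a g = A.ρ g a - a := rfl

lemma dOne_intRep (A : Rep.{u} k G) (c : G → A) (g h : G) :
    HyperLevel25.dOne (intRep A) c (g, h) = A.ρ g (c h) - c (g * h) + c g := rfl

lemma dTwo_intRep (A : Rep.{u} k G) (c : G × G → A) (g h j : G) :
    HyperLevel25.dTwo (intRep A) c (g, h, j) =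
      A.ρ g (c (h, j)) - c (g * h, j) + c (g, h * j) - c (g, h) := rfl

/-- If `n` kills `k` then `n` kills every `Rep k G`. -/
lemma natCast_smul_eq_zero (A : Rep.{u} k G) (n : ℕ) (hn : (n : k) = 0) (a : A) :
    (n : ℤ) • a = 0 := by
  have h : (n : k) • a = 0 := by rw [hn, zero_smul]
  rw [Nat.cast_smul_eq_nsmul] at h
  rw [natCast_zsmul]
  exact h

end Fermat.Agent.PT.PRO.IntRep20
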