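/-
PROGRAM F (S55), chapter PRO.  helper9.
`FinH1_9.finite_Hlev1` specialised to helper20's common `ℤ`-restriction `IntRep20.intRep A`:
the global level `H¹(Γ, levelS S; intRep A)` (`Resolved4.Hlev1`) is finite.
-/
import Mathlib
import Fermat.Agent.PT.PRO.FinH1_9
import Fermat.Agent.PT.PRO.IntRep20

set_option autoImplicit false
set_option linter.unusedSectionVars false

namespace Fermat.Agent.PT.PRO.FinH1Int9

open Fermat.Agent.PT.PRO Fermat.Agent.PT.GLUE.Objects21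

local notation "Qbar" => AlgebraicClosure ℚ
local notation "Γ" => (AlgebraicClosure ℚ ≃ₐ[ℚ] AlgebraicClosure ℚ)

variable {p : ℕ} [hp : Fact p.Prime] (S : Finset Nat.Primes) (A : Rep.{0} (ZMod p) Γ)
  [FiniteDimensional (ZMod p) A]

/-- **Finiteness of `H¹(Γ, levelS S; intRep A)`.** -/
theorem finite_Hlev1_intRep (hA : HyperLevel25.IsDiscrete (levelS S).sets (IntRep20.intRep A))
    (F₀ : IntermediateField ℚ Qbar) [FiniteDimensional ℚ F₀]
    (hF₀ : F₀.IsUnramifiedOutside S) {ζ : Qbar} (hζ : IsPrimitiveRoot ζ p) (hζF : ζ ∈ F₀)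
    (htriv : ∀ s ∈ F₀.fixingSubgroup, ∀ a : A, A.ρ s a = a) :
    Finite (Resolved4.Hlev1 (FinH1_9.isLevelBasis_levelS S) (IntRep20.intRep A) hA) :=
  FinH1_9.finite_Hlev1 S A (IntRep20.intRep A) hA (AddMonoidHom.id A) (fun _ _ h => h)
    (fun _ _ => rfl) F₀ hF₀ hζ hζF htriv

/-- The same for an arbitrary proof of `IsLevelBasis`. -/
theorem finite_Hlev1_intRep' (h𝒰 : HyperLevel25.IsLevelBasis (levelS S).sets)
    (hA : HyperLevel25.IsDiscrete (levelS S).sets (IntRep20.intRep A))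
    (F₀ : IntermediateField ℚ Qbar) [FiniteDimensional ℚ F₀]
    (hF₀ : F₀.IsUnramifiedOutside S) {ζ : Qbar} (hζ : IsPrimitiveRoot ζ p) (hζF : ζ ∈ F₀)
    (htriv : ∀ s ∈ F₀.fixingSubgroup, ∀ a : A, A.ρ s a = a) :
    Finite (Resolved4.Hlev1 h𝒰 (IntRep20.intRep A) hA) :=
  finite_Hlev1_intRep S A hA F₀ hF₀ hζ hζF htriv

/-- `intRep A` is discrete for `levelS S` as soon as `A` is trivialised by `Gal(ℚ̄/F₀)`, `F₀`
unramified outside `S`. -/
theorem isDiscrete_intRep_of_triv (F₀ : IntermediateField ℚ Qbar)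
    (hF₀ : F₀.IsUnramifiedOutside S)
    (htriv : ∀ s ∈ F₀.fixingSubgroup, ∀ a : A, A.ρ s a = a) :
    HyperLevel25.IsDiscrete (levelS S).sets (IntRep20.intRep A) :=
  fun a => ⟨F₀.fixingSubgroup, ⟨F₀, hF₀, rfl⟩, fun s hs => htriv s hs a⟩

end Fermat.Agent.PT.PRO.FinH1Int9
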