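/-
PROGRAM F (S55), chapter PRO.  helper9.
From the hypotheses of S55 (`M` finite-dimensional, smooth, unramified outside `S ∋ p`):
* `exists_F0`: a finite extension `F₀/ℚ`, unramified outside `S`, containing `ζ_p`, whose absolute
  Galois group acts trivially on `M` and on `M.dualTwist (cycloChar p)`;
* `finite_Hlev1_dualTwist`, `finite_Hlev1_self`: the global level `H¹(Γ, levelS S; -)`
  (`Resolved4.Hlev1`, coefficients `IntRep20.intRep`) of `A = M.dualTwist χ` and of `M` are finite;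
* `isDiscrete_intRep_dualTwist`, `isDiscrete_intRep_self`: discreteness for `levelS S`.
-/
import Mathlib
import Fermat.Agent.PT.PRO.FinH1Int9
import Fermat.Agent.PT.BR.DualTwist7

set_option autoImplicit false
set_option linter.unusedSectionVars false
set_option linter.style.haveILetI false

namespace Fermat.Agent.PT.PRO.FinH1S55_9

open CategoryTheory groupCohomology ExtCitation
open Fermat.Agent.PT.PRO Fermat.Agent.PT.GLUE.Objects21 Fermat.Agent.PT.BR.DualTwist7
open Fermat.Agent.S14.Fields (zeta zeta_spec Kz zeta_mem_Kz)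

local notation "Qbar" => AlgebraicClosure ℚ
local notation "Γ" => (AlgebraicClosure ℚ ≃ₐ[ℚ] AlgebraicClosure ℚ)

variable {p : ℕ} [Fact p.Prime] (S : Finset Nat.Primes) (hpS : pPrime p ∈ S)
  (M : Rep.{0} (ZMod p) Γ) [FiniteDimensional (ZMod p) M]
  (hsm : ∀ m : M, ∃ F : IntermediateField ℚ Qbar, FiniteDimensional ℚ F ∧
    ∀ s ∈ F.fixingSubgroup, M.ρ s m = m)
  (hMur : ∀ q : Nat.Primes, q ∉ S → ∀ A : ValuationSubring Qbar,
    A.LiesOverPrime (q : ℕ) → ∀ g ∈ A.inertiaSubgroupIn ℚ, M.ρ g = 1)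

include hpS hsm hMur in
/-- A common trivialising field of `M` and `M.dualTwist χ`, unramified outside `S`, containing
`ζ_p`. -/
theorem exists_F0 :
    ∃ F₀ : IntermediateField ℚ Qbar, F₀.IsUnramifiedOutside S ∧ zeta p ∈ F₀ ∧
      (∀ s ∈ F₀.fixingSubgroup, M.ρ s = 1) ∧
      (∀ s ∈ F₀.fixingSubgroup, (M.dualTwist (cycloChar p)).ρ s = 1) := by
  obtain ⟨F, hF, hFM⟩ := exists_splitting_field M S hsm hMur
  refine ⟨F ⊔ Kz p, hF.sup (isUnramifiedOutside_Kz p hpS), ?_, ?_, ?_⟩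
  · exact (le_sup_right : Kz p ≤ F ⊔ Kz p) (zeta_mem_Kz p)
  · intro s hs
    exact (hFM s).1 (IntermediateField.fixingSubgroup_antitone le_sup_left hs)
  · intro s hs
    exact dualTwist_ρ_eq_one M
      ((hFM s).1 (IntermediateField.fixingSubgroup_antitone le_sup_left hs))
      (cycloChar_eq_one_of_mem_fixingSubgroup_Kz p
        (IntermediateField.fixingSubgroup_antitone le_sup_right hs))

include hpS hsm hMur in
theorem isDiscrete_intRep_self :
    HyperLevel25.IsDiscrete (levelS S).sets (IntRep20.intRep M) := by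
  obtain ⟨F₀, hF₀, -, h1, -⟩ := exists_F0 S hpS M hsm hMur
  exact FinH1Int9.isDiscrete_intRep_of_triv S M F₀ hF₀ (fun s hs a => by rw [h1 s hs]; rfl)

include hpS hsm hMur in
theorem isDiscrete_intRep_dualTwist :
    HyperLevel25.IsDiscrete (levelS S).sets (IntRep20.intRep (M.dualTwist (cycloChar p))) := by
  obtain ⟨F₀, hF₀, -, -, h2⟩ := exists_F0 S hpS M hsm hMur
  exact FinH1Int9.isDiscrete_intRep_of_triv S _ F₀ hF₀ (fun s hs a => by rw [h2 s hs]; rfl)

include hpS hsm hMur in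
/-- **`H¹(Γ, levelS S; M.dualTwist χ)` is finite.** -/
theorem finite_Hlev1_dualTwist (h𝒰 : HyperLevel25.IsLevelBasis (levelS S).sets)
    (hA : HyperLevel25.IsDiscrete (levelS S).sets (IntRep20.intRep (M.dualTwist (cycloChar p)))) :
    Finite (Resolved4.Hlev1 h𝒰 (IntRep20.intRep (M.dualTwist (cycloChar p))) hA) := by
  obtain ⟨F₀, hF₀, hζ, -, h2⟩ := exists_F0 S hpS M hsm hMur
  haveI := hF₀.1
  haveI : FiniteDimensional (ZMod p) (M.dualTwist (cycloChar p)) :=
    inferInstanceAs (FiniteDimensional (ZMod p) (Module.Dual (ZMod p) M))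
  exact FinH1Int9.finite_Hlev1_intRep' S _ h𝒰 hA F₀ hF₀ (zeta_spec p) hζ
    (fun s hs a => by rw [h2 s hs]; rfl)

include hpS hsm hMur in
/-- **`H¹(Γ, levelS S; M)` is finite.** -/
theorem finite_Hlev1_self (h𝒰 : HyperLevel25.IsLevelBasis (levelS S).sets)
    (hA : HyperLevel25.IsDiscrete (levelS S).sets (IntRep20.intRep M)) :
    Finite (Resolved4.Hlev1 h𝒰 (IntRep20.intRep M) hA) := by
  obtain ⟨F₀, hF₀, hζ, h1, -⟩ := exists_F0 S hpS M hsm hMur
  haveI := hF₀.1
  exact FinH1Int9.finite_Hlev1_intRep' S M h𝒰 hA F₀ hF₀ (zeta_spec p) hζ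
    (fun s hs a => by rw [h1 s hs]; rfl)

end Fermat.Agent.PT.PRO.FinH1S55_9
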