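/-
Program F (S55), chapter PRO, row 377 (InfLevel), helper13.

Inflation for level cohomology along a "closed normal subgroup", at RAW COCHAIN level, in the
vocabulary of `HyperLevel25` (plain `Representation k G W`, `dZero`, `dOne`, `dTwo`, `IsLevel₁`).

`G` a group with two level bases `𝒰' ⊆ 𝒰` ("`𝒰'` = the open subgroups containing `N`"), `N` a normal
subgroup contained in all members of `𝒰'` such that every `V ⊔ N`, `V ∈ 𝒰`, contains a member of
`𝒰'` (`IsInfData`); `ι : W' → W` the inclusion of the `N`-invariants of a `𝒰`-discrete `G`-module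
`W` (`IsInvIncl`) with `H¹(N, W) = 0` for level cocycles (`H90`, "Hilbert 90").  Then

  `H¹(𝒰'; W') → H¹(𝒰; W)` is bijective and `H²(𝒰'; W') → H²(𝒰; W)` is injective,

and the same for the hypercohomology of a two-term complex `Y⁰ → Y¹` with `N`-invariants
`Y'⁰ → Y'¹`, if `H90` holds for `Y⁰`:

  `ℍ¹(𝒰'; Y'•) → ℍ¹(𝒰; Y•)` is bijective and `ℍ²(𝒰'; Y'•) → ℍ²(𝒰; Y•)` is injective.

Application: `G = Γ_q`, `𝒰` = all open subgroups, `𝒰'` = the levels of `D_q(ℚ_S/ℚ)`,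
`N = Gal(ℚ̄_q/(ℚ_S)_q)`, `W = ℚ̄_qˣ`, `Y^i = Hom(P_i, W)`.
-/
import Mathlib
import Fermat.Agent.PT.PRO.HyperLevel25

set_option autoImplicit false

namespace Fermat.Agent.PT.PRO.InfLevel13

open Function
open Fermat.Agent.PT.PRO.HyperLevel25

variable {k G : Type*} [CommRing k] [Group G]

/-! ### The right stabiliser of a function -/

/-- The subgroup of `s` with `f (g * s) = f g` for all `g`. -/
def rightStab {X : Type*} (f : G → X) : Subgroup G where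
  carrier := {s | ∀ g, f (g * s) = f g}
  mul_mem' {a b} ha hb g := by rw [← mul_assoc, hb, ha]
  one_mem' g := by rw [mul_one]
  inv_mem' {a} ha g := by
    have := ha (g * a⁻¹)
    rw [inv_mul_cancel_right] at this
    exact this.symm

theorem mem_rightStab {X : Type*} (f : G → X) (s : G) :
    s ∈ rightStab f ↔ ∀ g, f (g * s) = f g := Iff.rfl

/-! ### The data on the group -/

/-- `𝒰'` is coarser than `𝒰`, all its members contain `N`, and it is cofinal among the `V ⊔ N`. -/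
structure IsInfData (𝒰 𝒰' : Set (Subgroup G)) (N : Subgroup G) : Prop where
  le : ∀ V' ∈ 𝒰', ∃ V ∈ 𝒰, V ≤ V'
  N_le : ∀ V' ∈ 𝒰', N ≤ V'
  cpt : ∀ V ∈ 𝒰, ∃ V' ∈ 𝒰', V' ≤ V ⊔ N

variable {𝒰 𝒰' : Set (Subgroup G)} {N : Subgroup G}

theorem IsInfData.isLevel₁ (h : IsInfData 𝒰 𝒰' N) {X : Type*} {f : G → X}
    (hf : IsLevel₁ 𝒰' f) : IsLevel₁ 𝒰 f := by
  obtain ⟨V', hV', hinv⟩ := hf
  obtain ⟨V, hV, hle⟩ := h.le V' hV'
  exact ⟨V, hV, fun g s hs => hinv g s (hle hs)⟩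

theorem IsInfData.isLevel₂ (h : IsInfData 𝒰 𝒰' N) {X : Type*} {f : G × G → X}
    (hf : IsLevel₂ 𝒰' f) : IsLevel₂ 𝒰 f := by
  obtain ⟨V', hV', hinv⟩ := hf
  obtain ⟨V, hV, hle⟩ := h.le V' hV'
  exact ⟨V, hV, fun g g' s s' hs hs' => hinv g g' s s' (hle hs) (hle hs')⟩

/-- A `𝒰'`-level cochain is right-`N`-invariant. -/
theorem IsInfData.map_mul_right (h : IsInfData 𝒰 𝒰' N) {X : Type*} {f : G → X}
    (hf : IsLevel₁ 𝒰' f) (g : G) {n : G} (hn : n ∈ N) : f (g * n) = f g := by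
  obtain ⟨V', hV', hinv⟩ := hf
  exact hinv g n (h.N_le V' hV' hn)

/-- A `𝒰'`-level 2-cochain is right-`N`-invariant in both variables. -/
theorem IsInfData.map_mul_right₂ (h : IsInfData 𝒰 𝒰' N) {X : Type*} {f : G × G → X}
    (hf : IsLevel₂ 𝒰' f) (g g' : G) {n n' : G} (hn : n ∈ N) (hn' : n' ∈ N) :
    f (g * n, g' * n') = f (g, g') := by
  obtain ⟨V', hV', hinv⟩ := hf
  exact hinv g g' n n' (h.N_le V' hV' hn) (h.N_le V' hV' hn')

/-- A `𝒰`-level cochain which is right-`N`-invariant is `𝒰'`-level. -/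
theorem IsInfData.isLevel₁_of_forall (h : IsInfData 𝒰 𝒰' N) {X : Type*} {f : G → X}
    (hf : IsLevel₁ 𝒰 f) (hN : ∀ g, ∀ n ∈ N, f (g * n) = f g) : IsLevel₁ 𝒰' f := by
  obtain ⟨V, hV, hinv⟩ := hf
  obtain ⟨V', hV', hle⟩ := h.cpt V hV
  have hsup : V ⊔ N ≤ rightStab f :=
    sup_le (fun s hs g => hinv g s hs) (fun n hn g => hN g n hn)
  exact ⟨V', hV', fun g s hs => hsup (hle hs) g⟩

/-- Levelness can be tested after composing with an injection. -/
theorem isLevel₁_of_comp {X Y : Type*} {φ : X → Y} (hφ : Injective φ) {f : G → X}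
    (h : IsLevel₁ 𝒰 (φ ∘ f)) : IsLevel₁ 𝒰 f := by
  obtain ⟨U, hU, hinv⟩ := h
  exact ⟨U, hU, fun g s hs => hφ (hinv g s hs)⟩

/-! ### The data on the modules -/

variable {W W' : Type*} [AddCommGroup W] [Module k W] [AddCommGroup W'] [Module k W']

/-- `ι : W' → W` identifies `W'` with the `N`-invariants of `W`, equivariantly for `G`. -/
structure IsInvIncl (N : Subgroup G) (ρ' : Representation k G W') (ρ : Representation k G W)
    (ι : W' →ₗ[k] W) : Prop where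
  comm : ∀ g a, ι (ρ' g a) = ρ g (ι a)
  inj : Injective ι
  fixed : ∀ n ∈ N, ∀ a, ρ n (ι a) = ι a
  surj : ∀ w, (∀ n ∈ N, ρ n w = w) → ∃ a, ι a = w

/-- "Hilbert 90" for `(N, W)`: a `𝒰`-level cochain `G → W` whose restriction to `N` is a
1-cocycle is a coboundary on `N`. -/
def H90 (𝒰 : Set (Subgroup G)) (N : Subgroup G) (ρ : Representation k G W) : Prop :=
  ∀ c : G → W, IsLevel₁ 𝒰 c →
    (∀ n ∈ N, ∀ n' ∈ N, c (n * n') = ρ n (c n') + c n) →
    ∃ w : W, ∀ n ∈ N, c n = ρ n w - w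

variable {ρ : Representation k G W} {ρ' : Representation k G W'} {ι : W' →ₗ[k] W}

/-- A family of `N`-fixed vectors factors through `ι`. -/
theorem IsInvIncl.exists_factor (hι : IsInvIncl N ρ' ρ ι) {X : Type*} (c : X → W)
    (hc : ∀ x, ∀ n ∈ N, ρ n (c x) = c x) : ∃ c' : X → W', ⇑ι ∘ c' = c := by
  choose c' hc' using fun x => hι.surj (c x) (hc x)
  exact ⟨c', funext hc'⟩

theorem dOne_eq_zero_iff (ρ : Representation k G W) (c : G → W) :
    dOne ρ c = 0 ↔ ∀ g h, c (g * h) = ρ g (c h) + c g := by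
  constructor
  · intro h g g'
    have := congrFun h (g, g')
    simp only [dOne_apply, Pi.zero_apply] at this
    rw [sub_add_eq_add_sub, sub_eq_zero] at this
    exact this.symm
  · intro h
    funext ⟨g, g'⟩
    simp only [dOne_apply, Pi.zero_apply, h g g']
    abel

theorem map_one_of_dOne_eq_zero {c : G → W} (hc : dOne ρ c = 0) : c 1 = 0 := by
  have := (dOne_eq_zero_iff ρ c).1 hc 1 1
  simpa using this

/-- A 2-cocycle satisfies `c (1, h) = c (1, 1)`. -/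
theorem map_one_fst_of_dTwo_eq_zero {c : G × G → W} (hc : dTwo ρ c = 0) (h : G) :
    c (1, h) = c (1, 1) := by
  have := congrFun hc (1, 1, h)
  simp only [dTwo_apply, Pi.zero_apply, map_one, Module.End.one_apply, one_mul] at this
  rw [sub_add_cancel, sub_eq_zero] at this
  exact this

/-- A 2-cocycle satisfies `c (g, 1) = g • c (1, 1)`. -/
theorem map_one_snd_of_dTwo_eq_zero {c : G × G → W} (hc : dTwo ρ c = 0) (g : G) :
    c (g, 1) = ρ g (c (1, 1)) := by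
  have := congrFun hc (g, 1, 1)
  simp only [dTwo_apply, Pi.zero_apply, mul_one] at this
  rw [sub_add_cancel, sub_eq_zero] at this
  exact this.symm

/-- The key computation: if `b ≡ z` on `N`, `d b (g, n) = g z` and `d b (n, g) = z` for `n ∈ N`,
then `b` is right-`N`-invariant with `N`-fixed values. -/
theorem invariant_of_dOne [N.Normal] {b : G → W} {z : W} (hz : ∀ n ∈ N, b n = z)
    (h1 : ∀ g, ∀ n ∈ N, dOne ρ b (g, n) = ρ g z) (h2 : ∀ g, ∀ n ∈ N, dOne ρ b (n, g) = z) :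
    (∀ g, ∀ n ∈ N, b (g * n) = b g) ∧ (∀ g, ∀ n ∈ N, ρ n (b g) = b g) := by
  have hinv : ∀ g, ∀ n ∈ N, b (g * n) = b g := by
    intro g n hn
    have := h1 g n hn
    rw [dOne_apply, hz n hn] at this
    have h' : b g - b (g * n) = 0 := by
      rw [← sub_eq_zero] at this
      rw [← this]; abel
    exact (sub_eq_zero.1 h').symm
  refine ⟨hinv, fun g n hn => ?_⟩
  have := h2 g n hn
  rw [dOne_apply, hz n hn] at this
  have h' : ρ n (b g) = b (n * g) := by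
    have h'' : ρ n (b g) - b (n * g) = 0 := by
      rw [← sub_eq_zero] at this
      rw [← this]; abel
    exact sub_eq_zero.1 h''
  have hconj : n * g = g * (g⁻¹ * n * g) := by group
  have hmem : g⁻¹ * n * g ∈ N := by
    have := (inferInstance : N.Normal).conj_mem n hn g⁻¹
    simpa using this
  rw [h', hconj, hinv g _ hmem]

/-! ### `H¹`: injectivity -/

/-- **Inflation is injective on `H¹`** (raw form): if `ι ∘ c' = d w` for a right-`N`-invariant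
cochain `c'` with `c' 1 = 0`, then `w = ι a` and `c' = d a`. -/
theorem inf₁_injective_raw (hι : IsInvIncl N ρ' ρ ι) {c' : G → W'}
    (hN : ∀ g, ∀ n ∈ N, c' (g * n) = c' g) (h1 : c' 1 = 0) {w : W}
    (hw : ⇑ι ∘ c' = dZero ρ w) : ∃ a, ι a = w ∧ c' = dZero ρ' a := by
  have hfix : ∀ n ∈ N, ρ n w = w := by
    intro n hn
    have := congrFun hw n
    simp only [comp_apply, dZero_apply] at this
    have h0 : c' n = 0 := by
      have := hN 1 n hn
      rwa [one_mul, h1] at this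
    rw [h0, map_zero] at this
    exact (sub_eq_zero.1 this.symm)
  obtain ⟨a, ha⟩ := hι.surj w hfix
  refine ⟨a, ha, funext fun g => hι.inj ?_⟩
  have := congrFun hw g
  simp only [comp_apply, dZero_apply] at this
  rw [this, dZero_apply, map_sub, hι.comm, ha]

/-! ### `H¹`: surjectivity -/

/-- **Inflation is surjective on `H¹`** (raw form). -/
theorem inf₁_surjective_raw [N.Normal] (h : IsInfData 𝒰 𝒰' N) (h𝒰 : IsLevelBasis 𝒰)
    (hι : IsInvIncl N ρ' ρ ι) (hρ : IsDiscrete 𝒰 ρ) (h90 : H90 𝒰 N ρ) {c : G → W}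
    (hc : IsLevel₁ 𝒰 c) (hd : dOne ρ c = 0) :
    ∃ (c' : G → W') (w : W), IsLevel₁ 𝒰' c' ∧ dOne ρ' c' = 0 ∧ c = ⇑ι ∘ c' + dZero ρ w := by
  have hmul := (dOne_eq_zero_iff ρ c).1 hd
  obtain ⟨w, hw⟩ := h90 c hc (fun n _ n' _ => hmul n n')
  have hd3 : dOne ρ (c - dZero ρ w) = 0 := by rw [map_sub, hd, dOne_dZero, sub_zero]
  have hz : ∀ n ∈ N, (c - dZero ρ w) n = 0 := by
    intro n hn
    rw [Pi.sub_apply, dZero_apply, hw n hn, sub_self]
  obtain ⟨hinv, hfix⟩ := invariant_of_dOne (ρ := ρ) hz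
    (fun g n _ => by rw [hd3, Pi.zero_apply, map_zero]) (fun g n _ => by rw [hd3, Pi.zero_apply])
  obtain ⟨c', hc'⟩ := hι.exists_factor _ hfix
  have hlev : IsLevel₁ 𝒰 (c - dZero ρ w) := h𝒰.isLevel₁_sub hc (isLevel₁_dZero hρ w)
  refine ⟨c', w, isLevel₁_of_comp hι.inj ?_, ?_, ?_⟩
  · rw [hc']
    exact h.isLevel₁_of_forall hlev hinv
  · have := comp_dOne ρ' ρ ι hι.comm c'
    rw [hc', hd3] at this
    funext q
    apply hι.inj
    rw [Pi.zero_apply, map_zero]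
    exact congrFun this q
  · rw [hc', sub_add_cancel]

/-! ### `H²`: injectivity -/

/-- **Inflation is injective on `H²`** (raw form): a `𝒰'`-level 2-cocycle of `W'` which becomes the
coboundary of a `𝒰`-level cochain `b` of `W` is the coboundary of a `𝒰'`-level cochain `b'` of `W'`;
moreover `ι ∘ b' = b - d w` for some `w`. -/
theorem inf₂_injective_raw [N.Normal] (h : IsInfData 𝒰 𝒰' N) (h𝒰 : IsLevelBasis 𝒰)
    (hι : IsInvIncl N ρ' ρ ι) (hρ : IsDiscrete 𝒰 ρ) (h90 : H90 𝒰 N ρ) {c' : G × G → W'}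
    (hc' : IsLevel₂ 𝒰' c') (hd : dTwo ρ' c' = 0) {b : G → W} (hb : IsLevel₁ 𝒰 b)
    (hbc : dOne ρ b = ⇑ι ∘ c') :
    ∃ (b' : G → W') (w : W), IsLevel₁ 𝒰' b' ∧ dOne ρ' b' = c' ∧ ⇑ι ∘ b' = b - dZero ρ w := by
  -- invariance of `c'`
  have hc1 : ∀ g, ∀ n ∈ N, c' (g, n) = ρ' g (c' (1, 1)) := by
    intro g n hn
    have := h.map_mul_right₂ hc' g 1 N.one_mem hn
    rw [mul_one, one_mul] at this
    rw [this, map_one_snd_of_dTwo_eq_zero hd]
  have hc2 : ∀ g, ∀ n ∈ N, c' (n, g) = c' (1, 1) := by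
    intro g n hn
    have := h.map_mul_right₂ hc' 1 g hn N.one_mem
    rw [mul_one, one_mul] at this
    rw [this, map_one_fst_of_dTwo_eq_zero hd]
  set z : W := ι (c' (1, 1)) with hz
  have hzfix : ∀ n ∈ N, ρ n z = z := fun n hn => hι.fixed n hn _
  -- `b - z` is a cocycle on `N`
  have hb1 : IsLevel₁ 𝒰 (fun g => b g - z) :=
    h𝒰.isLevel₁_sub hb (h𝒰.isLevel₁_const z)
  obtain ⟨w, hw⟩ := h90 (fun g => b g - z) hb1 (by
    intro n hn n' hn'
    have := congrFun hbc (n, n')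
    rw [dOne_apply, comp_apply, hc2 n' n hn, ← hz] at this
    rw [map_sub, hzfix n hn]
    have h' : b (n * n') = ρ n (b n') + b n - z := by
      rw [eq_comm, ← sub_eq_zero]
      rw [← sub_eq_zero] at this
      rw [← this]; abel
    rw [h']; abel)
  -- `b₃ = b - d w`
  have hd3 : dOne ρ (b - dZero ρ w) = ⇑ι ∘ c' := by rw [map_sub, hbc, dOne_dZero, sub_zero]
  have hz3 : ∀ n ∈ N, (b - dZero ρ w) n = z := by
    intro n hn
    have := hw n hn
    rw [Pi.sub_apply, dZero_apply, ← this]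
    abel
  obtain ⟨hinv, hfix⟩ := invariant_of_dOne (ρ := ρ) hz3
    (fun g n hn => by rw [hd3, comp_apply, hc1 g n hn, hι.comm])
    (fun g n hn => by rw [hd3, comp_apply, hc2 g n hn])
  obtain ⟨b', hb'⟩ := hι.exists_factor _ hfix
  have hlev : IsLevel₁ 𝒰 (b - dZero ρ w) := h𝒰.isLevel₁_sub hb (isLevel₁_dZero hρ w)
  refine ⟨b', w, isLevel₁_of_comp hι.inj ?_, ?_, hb'⟩
  · rw [hb']
    exact h.isLevel₁_of_forall hlev hinv
  · have := comp_dOne ρ' ρ ι hι.comm b'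
    rw [hb', hd3] at this
    funext q
    apply hι.inj
    exact congrFun this q

/-! ### Hypercohomology of a two-term complex -/

section Hyper

variable {Y0 Y1 Y0' Y1' : Type*} [AddCommGroup Y0] [Module k Y0] [AddCommGroup Y1] [Module k Y1]
  [AddCommGroup Y0'] [Module k Y0'] [AddCommGroup Y1'] [Module k Y1']

/-- `Y'⁰ → Y'¹` is the complex of `N`-invariants of `Y⁰ → Y¹`. -/
structure IsInvInclCx (N : Subgroup G) (Y' : Cx k 𝒰' Y0' Y1') (Y : Cx k 𝒰 Y0 Y1)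
    (ι0 : Y0' →ₗ[k] Y0) (ι1 : Y1' →ₗ[k] Y1) : Prop where
  incl0 : IsInvIncl N Y'.ρ0 Y.ρ0 ι0
  incl1 : IsInvIncl N Y'.ρ1 Y.ρ1 ι1
  commf : ∀ y, ι1 (Y'.f y) = Y.f (ι0 y)

variable {Y : Cx k 𝒰 Y0 Y1} {Y' : Cx k 𝒰' Y0' Y1'} {ι0 : Y0' →ₗ[k] Y0} {ι1 : Y1' →ₗ[k] Y1}

/-- **Inflation is injective on `ℍ¹`** (raw form). -/
theorem hyper₁_injective_raw (hι : IsInvInclCx N Y' Y ι0 ι1) {c' : G → Y0'} {e' : Y1'}
    (hN : ∀ g, ∀ n ∈ N, c' (g * n) = c' g) (h1 : c' 1 = 0) {y : Y0}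
    (hy : ⇑ι0 ∘ c' = dZero Y.ρ0 y) (hy' : ι1 e' = Y.f y) :
    ∃ y', ι0 y' = y ∧ c' = dZero Y'.ρ0 y' ∧ e' = Y'.f y' := by
  obtain ⟨a, ha, hca⟩ := inf₁_injective_raw hι.incl0 hN h1 hy
  refine ⟨a, ha, hca, hι.incl1.inj ?_⟩
  rw [hy', hι.commf, ha]

/-- **Inflation is surjective on `ℍ¹`** (raw form): every `𝒰`-level hyper-1-cocycle `(c, e)` of `Y`
is, up to the hyper-coboundary of some `y`, the image of a `𝒰'`-level hyper-1-cocycle of `Y'`. -/
theorem hyper₁_surjective_raw [N.Normal] (h : IsInfData 𝒰 𝒰' N) (h𝒰 : IsLevelBasis 𝒰)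
    (hι : IsInvInclCx N Y' Y ι0 ι1) (h90 : H90 𝒰 N Y.ρ0) {c : G → Y0} {e : Y1}
    (hc : IsLevel₁ 𝒰 c) (hd : dOne Y.ρ0 c = 0) (hce : ⇑Y.f ∘ c = dZero Y.ρ1 e) :
    ∃ (c' : G → Y0') (e' : Y1') (y : Y0), IsLevel₁ 𝒰' c' ∧ dOne Y'.ρ0 c' = 0 ∧
      ⇑Y'.f ∘ c' = dZero Y'.ρ1 e' ∧ c = ⇑ι0 ∘ c' + dZero Y.ρ0 y ∧ e = ι1 e' + Y.f y := by
  obtain ⟨c', w, hc', hd', hcw⟩ := inf₁_surjective_raw h h𝒰 hι.incl0 Y.disc0 h90 hc hd
  have hc'N : ∀ n ∈ N, c' n = 0 := by
    intro n hn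
    have := h.map_mul_right hc' 1 hn
    rwa [one_mul, map_one_of_dOne_eq_zero hd'] at this
  -- `Y.f ∘ ι0 ∘ c' = d (e - f w)`
  have key : ∀ g, Y.f (ι0 (c' g)) = dZero Y.ρ1 (e - Y.f w) g := by
    intro g
    have h1 := congrFun hce g
    have h2 := congrFun hcw g
    simp only [comp_apply, Pi.add_apply, dZero_apply] at h1 h2
    rw [h2, map_add, map_sub, Y.comm] at h1
    rw [dZero_apply, map_sub, ← sub_eq_zero]
    rw [← sub_eq_zero] at h1
    rw [← h1]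
    abel
  have hfix : ∀ n ∈ N, Y.ρ1 n (e - Y.f w) = e - Y.f w := by
    intro n hn
    have := key n
    rw [hc'N n hn, map_zero, map_zero, dZero_apply] at this
    exact sub_eq_zero.1 this.symm
  obtain ⟨e', he'⟩ := hι.incl1.surj _ hfix
  refine ⟨c', e', w, hc', hd', ?_, hcw, ?_⟩
  · funext g
    apply hι.incl1.inj
    rw [comp_apply, hι.commf, key g, ← he', dZero_apply, dZero_apply, map_sub, hι.incl1.comm]
  · rw [he', sub_add_cancel]

/-- **Inflation is injective on `ℍ²`** (raw form): a `𝒰'`-level hyper-2-cocycle `(c', e')` of `Y'`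
which becomes the hyper-coboundary of a `𝒰`-level `(b, x)` is the hyper-coboundary of a `𝒰'`-level
`(b', x')`. -/
theorem hyper₂_injective_raw [N.Normal] (h : IsInfData 𝒰 𝒰' N) (h𝒰 : IsLevelBasis 𝒰)
    (hι : IsInvInclCx N Y' Y ι0 ι1) (h90 : H90 𝒰 N Y.ρ0) {c' : G × G → Y0'} {e' : G → Y1'}
    (hc' : IsLevel₂ 𝒰' c') (he' : IsLevel₁ 𝒰' e') (hd : dTwo Y'.ρ0 c' = 0)
    {b : G → Y0} {x : Y1} (hb : IsLevel₁ 𝒰 b) (hbc : dOne Y.ρ0 b = ⇑ι0 ∘ c')
    (hbe : ⇑Y.f ∘ b - dZero Y.ρ1 x = ⇑ι1 ∘ e') :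
    ∃ (b' : G → Y0') (x' : Y1'), IsLevel₁ 𝒰' b' ∧ dOne Y'.ρ0 b' = c' ∧
      ⇑Y'.f ∘ b' - dZero Y'.ρ1 x' = e' := by
  obtain ⟨b', w, hb', hdb', hbw⟩ := inf₂_injective_raw h h𝒰 hι.incl0 Y.disc0 h90 hc' hd hb hbc
  -- `u = f' ∘ b' - e'` satisfies `ι1 ∘ u = d (x - f w)`
  have key : ⇑ι1 ∘ (⇑Y'.f ∘ b' - e') = dZero Y.ρ1 (x - Y.f w) := by
    funext g
    have h1 := congrFun hbe g
    have h2 := congrFun hbw g
    simp only [comp_apply, Pi.sub_apply, dZero_apply] at h1 h2 ⊢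
    rw [map_sub, hι.commf, h2, ← h1, map_sub, map_sub, map_sub, Y.comm]
    abel
  have hN : ∀ g, ∀ n ∈ N, (⇑Y'.f ∘ b' - e') (g * n) = (⇑Y'.f ∘ b' - e') g := by
    intro g n hn
    simp only [Pi.sub_apply, comp_apply, h.map_mul_right hb' g hn, h.map_mul_right he' g hn]
  have h1 : (⇑Y'.f ∘ b' - e') 1 = 0 := by
    apply hι.incl1.inj
    have := congrFun key 1
    rw [comp_apply, dZero_apply, map_one, Module.End.one_apply, sub_self] at this
    rw [this, map_zero]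
  obtain ⟨x', -, hx'⟩ := inf₁_injective_raw hι.incl1 hN h1 key
  refine ⟨b', x', hb', hdb', ?_⟩
  rw [← hx']
  abel

end Hyper

end Fermat.Agent.PT.PRO.InfLevel13
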