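/-
Program F (S55, Poitou–Tate), chapter PRO, helper28.

Change of group for the level cohomology of `LevelCoh28`: for a group homomorphism `f : G →* H`
which is continuous for the level bases (`IsLevelHom`), an `H`-module `A`, a `G`-module `B` and a
`k`-linear map `φ : A → B` with `φ (f g • a) = g • φ a` (the shape of the prelude
`continuousH2Map`), the "pull–push" maps `H^i(H, A) → H^i(G, B)` (`i = 1, 2`): restriction,
inflation, localisation maps are all of this form.  Functoriality, and naturality of the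
connecting map `δ` of `LevelCoh28`.
-/
import Mathlib
import Fermat.Agent.PT.PRO.LevelCoh28

set_option autoImplicit false
set_option linter.unusedSectionVars false
set_option linter.style.haveILetI false

universe u

open CategoryTheory groupCohomology

namespace Fermat.Agent.PT.PRO.LevelCohRes28

open Fermat.Agent.PT.PRO.LevelCoh28

variable {k G H : Type u} [CommRing k] [Group G] [Group H]

/-! ### Continuity of a homomorphism for level bases -/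

/-- `f : G →* H` is continuous for the bases of open subgroups `𝓤G`, `𝓤H`. -/
def IsLevelHom (f : G →* H) (𝓤G : Set (Subgroup G)) (𝓤H : Set (Subgroup H)) : Prop :=
  ∀ U ∈ 𝓤H, ∃ V ∈ 𝓤G, V ≤ U.comap f

theorem isLevelHom_id (𝓤 : Set (Subgroup G)) : IsLevelHom (MonoidHom.id G) 𝓤 𝓤 :=
  fun U hU => ⟨U, hU, le_of_eq (Subgroup.comap_id U).symm⟩

theorem IsLevelHom.comp {K : Type u} [Group K] {f : G →* H} {f' : K →* G}
    {𝓤K : Set (Subgroup K)} {𝓤G : Set (Subgroup G)} {𝓤H : Set (Subgroup H)}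
    (hf : IsLevelHom f 𝓤G 𝓤H) (hf' : IsLevelHom f' 𝓤K 𝓤G) :
    IsLevelHom (f.comp f') 𝓤K 𝓤H := by
  intro U hU
  obtain ⟨V, hV, hVU⟩ := hf U hU
  obtain ⟨W, hW, hWV⟩ := hf' V hV
  refine ⟨W, hW, fun w hw => ?_⟩
  have h1 : f' w ∈ V := hWV hw
  have h2 : f (f' w) ∈ U := hVU h1
  exact h2

section precomp

variable {f : G →* H} {𝓤G : Set (Subgroup G)} {𝓤H : Set (Subgroup H)}
  (hf : IsLevelHom f 𝓤G 𝓤H)

include hf

theorem isLevel₁_precomp {X : Type*} {x : H → X} (hx : IsLevel₁ 𝓤H x) :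
    IsLevel₁ 𝓤G (x ∘ f) := by
  obtain ⟨U, hU, h⟩ := hx
  obtain ⟨V, hV, hVU⟩ := hf U hU
  refine ⟨V, hV, fun g s hs => ?_⟩
  simp only [Function.comp_apply, map_mul]
  exact h (f g) (f s) (hVU hs)

theorem isLevel₂_precomp {X : Type*} {x : H × H → X} (hx : IsLevel₂ 𝓤H x) :
    IsLevel₂ 𝓤G (x ∘ Prod.map f f) := by
  obtain ⟨U, hU, h⟩ := hx
  obtain ⟨V, hV, hVU⟩ := hf U hU
  refine ⟨V, hV, fun g g' s hs s' hs' => ?_⟩
  simp only [Function.comp_apply, Prod.map_apply, map_mul]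
  exact h (f g) (f g') (f s) (hVU hs) (f s') (hVU hs')

/-- The pull-back of a discrete module along a continuous homomorphism is discrete (stated for a
`G`-module `B` receiving an `f`-equivariant surjection from a discrete `H`-module). -/
theorem isDiscrete_of_surjective {A : Rep.{u} k H} {B : Rep.{u} k G} (φ : A →ₗ[k] B)
    (hφ : ∀ (g : G) (a : A), φ (A.ρ (f g) a) = B.ρ g (φ a)) (hsurj : Function.Surjective φ)
    (hA : IsDiscrete 𝓤H A) : IsDiscrete 𝓤G B := by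
  intro b
  obtain ⟨a, rfl⟩ := hsurj b
  obtain ⟨U, hU, h⟩ := hA a
  obtain ⟨V, hV, hVU⟩ := hf U hU
  exact ⟨V, hV, fun s hs => by rw [← hφ, h (f s) (hVU hs)]⟩

end precomp

/-! ### Pull–push of cochains -/

section PullPush

variable (f : G →* H) {A : Rep.{u} k H} {B : Rep.{u} k G} (φ : A →ₗ[k] B)

/-- `x ↦ φ ∘ x ∘ f` on 1-cochains. -/
def pp₁ : (H → A) →ₗ[k] (G → B) where
  toFun x := φ ∘ x ∘ f
  map_add' x y := by ext; simp
  map_smul' c x := by ext; simp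

/-- `x ↦ φ ∘ x ∘ (f × f)` on 2-cochains. -/
def pp₂ : (H × H → A) →ₗ[k] (G × G → B) where
  toFun x := φ ∘ x ∘ Prod.map f f
  map_add' x y := by ext; simp
  map_smul' c x := by ext; simp

@[simp] theorem pp₁_apply (x : H → A) (g : G) : pp₁ f φ x g = φ (x (f g)) := rfl

@[simp] theorem pp₂_apply (x : H × H → A) (g : G × G) :
    pp₂ f φ x g = φ (x (f g.1, f g.2)) := rfl

variable (hφ : ∀ (g : G) (a : A), φ (A.ρ (f g) a) = B.ρ g (φ a))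

include hφ

theorem pp₁_d₀₁ (a : A) : pp₁ f φ ((d₀₁ A).hom a) = (d₀₁ B).hom (φ a) := by
  ext g
  simp [d₀₁_hom_apply, map_sub, hφ]

theorem pp₂_d₁₂ (x : H → A) : pp₂ f φ ((d₁₂ A).hom x) = (d₁₂ B).hom (pp₁ f φ x) := by
  ext ⟨g, g'⟩
  simp [d₁₂_hom_apply, map_add, map_sub, hφ, map_mul]

theorem pp₁_mem_cocycles₁ {x : H → A} (hx : x ∈ cocycles₁ A) : pp₁ f φ x ∈ cocycles₁ B := by
  rw [mem_cocycles₁_iff] at hx ⊢
  intro g h
  simp only [pp₁_apply, map_mul, hx, map_add, hφ]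

theorem pp₂_mem_cocycles₂ {x : H × H → A} (hx : x ∈ cocycles₂ A) :
    pp₂ f φ x ∈ cocycles₂ B := by
  rw [mem_cocycles₂_iff] at hx ⊢
  intro g h j
  simp only [pp₂_apply, map_mul, ← map_add, hx, ← hφ]

theorem pp₁_mem_coboundaries₁ {x : H → A} (hx : x ∈ coboundaries₁ A) :
    pp₁ f φ x ∈ coboundaries₁ B := by
  obtain ⟨a, rfl⟩ := hx
  exact ⟨φ a, (pp₁_d₀₁ f φ hφ a).symm⟩

variable {𝓑G : LevelBasis G} {𝓑H : LevelBasis H} (hf : IsLevelHom f 𝓑G.sets 𝓑H.sets)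

include hf

theorem pp₁_mem_levelCochains₁ {x : H → A} (hx : x ∈ levelCochains₁ 𝓑H A) :
    pp₁ f φ x ∈ levelCochains₁ 𝓑G B :=
  ((isLevel₁_precomp hf hx).comp φ :)

theorem pp₂_mem_levelCochains₂ {x : H × H → A} (hx : x ∈ levelCochains₂ 𝓑H A) :
    pp₂ f φ x ∈ levelCochains₂ 𝓑G B :=
  ((isLevel₂_precomp hf hx).comp φ :)

theorem pp₁_mem_Z1 {x : H → A} (hx : x ∈ Z1 𝓑H A) : pp₁ f φ x ∈ Z1 𝓑G B :=
  ⟨pp₁_mem_cocycles₁ f φ hφ hx.1, pp₁_mem_levelCochains₁ f φ hφ hf hx.2⟩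

theorem pp₂_mem_Z2 {x : H × H → A} (hx : x ∈ Z2 𝓑H A) : pp₂ f φ x ∈ Z2 𝓑G B :=
  ⟨pp₂_mem_cocycles₂ f φ hφ hx.1, pp₂_mem_levelCochains₂ f φ hφ hf hx.2⟩

theorem pp₂_mem_B2 {x : H × H → A} (hx : x ∈ B2 𝓑H A) : pp₂ f φ x ∈ B2 𝓑G B := by
  obtain ⟨y, hy, rfl⟩ := (mem_B2_iff 𝓑H A x).1 hx
  exact (mem_B2_iff 𝓑G B _).2
    ⟨pp₁ f φ y, (isLevel₁_precomp hf hy).comp φ, (pp₂_d₁₂ f φ hφ y).symm⟩

/-- Pull–push on level 1-cocycles. -/
def ppZ1 : ↥(Z1 𝓑H A) →ₗ[k] ↥(Z1 𝓑G B) :=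
  (pp₁ f φ).restrict fun _ hx => pp₁_mem_Z1 f φ hφ hf hx

/-- Pull–push on level 2-cocycles. -/
def ppZ2 : ↥(Z2 𝓑H A) →ₗ[k] ↥(Z2 𝓑G B) :=
  (pp₂ f φ).restrict fun _ hx => pp₂_mem_Z2 f φ hφ hf hx

@[simp] theorem coe_ppZ1 (x : ↥(Z1 𝓑H A)) :
    (ppZ1 f φ hφ hf x : G → B) = pp₁ f φ (x : H → A) := rfl

@[simp] theorem coe_ppZ2 (x : ↥(Z2 𝓑H A)) :
    (ppZ2 f φ hφ hf x : G × G → B) = pp₂ f φ (x : H × H → A) := rfl

/-- Pull–push `H¹(H, A) → H¹(G, B)`. -/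
def ppH1 : H1 𝓑H A →ₗ[k] H1 𝓑G B :=
  Submodule.mapQ _ _ (ppZ1 f φ hφ hf) fun _ hx => pp₁_mem_coboundaries₁ f φ hφ hx

/-- Pull–push `H²(H, A) → H²(G, B)`. -/
def ppH2 : H2 𝓑H A →ₗ[k] H2 𝓑G B :=
  Submodule.mapQ _ _ (ppZ2 f φ hφ hf) fun _ hx => pp₂_mem_B2 f φ hφ hf hx

@[simp] theorem ppH1_mk (x : ↥(Z1 𝓑H A)) :
    ppH1 f φ hφ hf (H1mk 𝓑H A x) = H1mk 𝓑G B (ppZ1 f φ hφ hf x) := rfl

@[simp] theorem ppH2_mk (x : ↥(Z2 𝓑H A)) :
    ppH2 f φ hφ hf (H2mk 𝓑H A x) = H2mk 𝓑G B (ppZ2 f φ hφ hf x) := rfl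

end PullPush

/-! ### Functoriality -/

section Comp

variable {K : Type u} [Group K] (f : G →* H) (f' : K →* G)
  {A : Rep.{u} k H} {B : Rep.{u} k G} {C : Rep.{u} k K}
  (φ : A →ₗ[k] B) (hφ : ∀ (g : G) (a : A), φ (A.ρ (f g) a) = B.ρ g (φ a))
  (φ' : B →ₗ[k] C) (hφ' : ∀ (x : K) (b : B), φ' (B.ρ (f' x) b) = C.ρ x (φ' b))
  {𝓑K : LevelBasis K} {𝓑G : LevelBasis G} {𝓑H : LevelBasis H}
  (hf : IsLevelHom f 𝓑G.sets 𝓑H.sets) (hf' : IsLevelHom f' 𝓑K.sets 𝓑G.sets)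

include hφ hφ' in
theorem comp_equivariant (x : K) (a : A) :
    (φ' ∘ₗ φ) (A.ρ ((f.comp f') x) a) = C.ρ x ((φ' ∘ₗ φ) a) := by
  simp only [LinearMap.comp_apply, MonoidHom.comp_apply, hφ, hφ']

theorem ppH1_comp :
    ppH1 (f.comp f') (φ' ∘ₗ φ) (comp_equivariant f f' φ hφ φ' hφ') (hf.comp hf') =
      ppH1 f' φ' hφ' hf' ∘ₗ ppH1 f φ hφ hf := by
  ext x
  rfl

theorem ppH2_comp :
    ppH2 (f.comp f') (φ' ∘ₗ φ) (comp_equivariant f f' φ hφ φ' hφ') (hf.comp hf') =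
      ppH2 f' φ' hφ' hf' ∘ₗ ppH2 f φ hφ hf := by
  ext x
  rfl

end Comp

section Id

variable {A B : Rep.{u} k G} (φ : A →ₗ[k] B) (hφ : ∀ g a, φ (A.ρ g a) = B.ρ g (φ a))
  (𝓑 : LevelBasis G)

/-- For `f = id` the pull–push map is the coefficient map `mapH1` of `LevelCoh28`. -/
theorem ppH1_id :
    ppH1 (MonoidHom.id G) φ hφ (isLevelHom_id 𝓑.sets) = mapH1 (𝓑 := 𝓑) φ hφ := by
  ext x
  rfl

theorem ppH2_id :
    ppH2 (MonoidHom.id G) φ hφ (isLevelHom_id 𝓑.sets) = mapH2 (𝓑 := 𝓑) φ hφ := by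
  ext x
  rfl

end Id

/-! ### Naturality of the coefficient maps -/

section Square

variable (f : G →* H) {𝓑G : LevelBasis G} {𝓑H : LevelBasis H}
  (hf : IsLevelHom f 𝓑G.sets 𝓑H.sets)
  {A B : Rep.{u} k H} (φ : A →ₗ[k] B) (hφ : ∀ g a, φ (A.ρ g a) = B.ρ g (φ a))
  {A' B' : Rep.{u} k G} (φ' : A' →ₗ[k] B') (hφ' : ∀ g a, φ' (A'.ρ g a) = B'.ρ g (φ' a))
  (a : A →ₗ[k] A') (ha : ∀ (g : G) (x : A), a (A.ρ (f g) x) = A'.ρ g (a x))
  (b : B →ₗ[k] B') (hb : ∀ (g : G) (x : B), b (B.ρ (f g) x) = B'.ρ g (b x))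
  (hab : ∀ x, b (φ x) = φ' (a x))

include hab in
theorem ppH1_mapH1 (x : H1 𝓑H A) :
    ppH1 f b hb hf (mapH1 φ hφ x) = mapH1 φ' hφ' (ppH1 f a ha hf x) := by
  obtain ⟨z, rfl⟩ := H1mk_surjective 𝓑H A x
  rw [mapH1_mk, ppH1_mk, ppH1_mk, mapH1_mk]
  congr 1
  ext g
  exact hab _

include hab in
theorem ppH2_mapH2 (x : H2 𝓑H A) :
    ppH2 f b hb hf (mapH2 φ hφ x) = mapH2 φ' hφ' (ppH2 f a ha hf x) := by
  obtain ⟨z, rfl⟩ := H2mk_surjective 𝓑H A x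
  rw [mapH2_mk, ppH2_mk, ppH2_mk, mapH2_mk]
  congr 1
  ext g
  exact hab _

end Square

/-! ### Naturality of the connecting map

A morphism of short exact sequences, from `0 → A → B → C → 0` over `H` to
`0 → A' → B' → C' → 0` over `G`, given by `f`-equivariant maps `a, b, c`. -/

section Natural

variable (f : G →* H) {𝓑G : LevelBasis G} {𝓑H : LevelBasis H}
  (hf : IsLevelHom f 𝓑G.sets 𝓑H.sets)
  {A B C : Rep.{u} k H} (φ : A →ₗ[k] B) (hφ : ∀ g a, φ (A.ρ g a) = B.ρ g (φ a))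
  (ψ : B →ₗ[k] C) (hψ : ∀ g b, ψ (B.ρ g b) = C.ρ g (ψ b))
  (hinj : Function.Injective φ) (hsurj : Function.Surjective ψ)
  (hex : ∀ b, ψ b = 0 ↔ ∃ a, φ a = b) (hB : IsDiscrete 𝓑H.sets B)
  {A' B' C' : Rep.{u} k G} (φ' : A' →ₗ[k] B') (hφ' : ∀ g a, φ' (A'.ρ g a) = B'.ρ g (φ' a))
  (ψ' : B' →ₗ[k] C') (hψ' : ∀ g b, ψ' (B'.ρ g b) = C'.ρ g (ψ' b))
  (hinj' : Function.Injective φ') (hsurj' : Function.Surjective ψ')
  (hex' : ∀ b, ψ' b = 0 ↔ ∃ a, φ' a = b) (hB' : IsDiscrete 𝓑G.sets B')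
  (a : A →ₗ[k] A') (ha : ∀ (g : G) (x : A), a (A.ρ (f g) x) = A'.ρ g (a x))
  (b : B →ₗ[k] B') (hb : ∀ (g : G) (x : B), b (B.ρ (f g) x) = B'.ρ g (b x))
  (c : C →ₗ[k] C') (hc : ∀ (g : G) (x : C), c (C.ρ (f g) x) = C'.ρ g (c x))
  (hab : ∀ x, b (φ x) = φ' (a x)) (hbc : ∀ x, c (ψ x) = ψ' (b x))

include hab hbc hb in
/-- **Naturality of `δ`**: `δ' ∘ H¹(c) = H²(a) ∘ δ`. -/
theorem delta_natural (x : H1 𝓑H C) :
    delta φ' hφ' ψ' hψ' hinj' hsurj' hex' hB' (ppH1 f c hc hf x) =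
      ppH2 f a ha hf (delta φ hφ ψ hψ hinj hsurj hex hB x) := by
  obtain ⟨z, rfl⟩ := H1mk_surjective 𝓑H C x
  rw [ppH1_mk, delta_mk, delta_mk]
  -- the canonical lift of `z` and its `δ`-cochain
  set β : H → B := Function.surjInv hsurj ∘ (z : H → C) with hβ
  have hβl : IsLevel₁ 𝓑H.sets β := z.2.2.comp _
  have hβz : ψ ∘ β = (z : H → C) := ψ_comp_surjInv ψ hsurj _
  have hα := φ_comp_deltaFun φ ψ hψ hsurj hex z.2.1
  have hαZ := deltaFun_mem_Z2 φ hφ ψ hψ hinj hsurj hex hB z.2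
  show _ = ppH2 f a ha hf (H2mk 𝓑H A ⟨deltaFun φ ψ hsurj (z : H → C), hαZ⟩)
  rw [ppH2_mk]
  refine deltaZ_eq φ' hφ' ψ' hψ' hinj' hsurj' hex' hB' _ (b := pp₁ f b β)
    ((isLevel₁_precomp hf hβl).comp b) ?_ _ ?_
  · funext g
    have := congrFun hβz (f g)
    simp only [Function.comp_apply] at this
    simp only [Function.comp_apply, pp₁_apply, coe_ppZ1, ← hbc, this]
  · rw [coe_ppZ2, ← pp₂_d₁₂ f b hb, ← hα]
    funext g
    simp only [Function.comp_apply, pp₂_apply, hab]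

end Natural

/-! ### The connecting map `δ⁰ : C^G → H¹(A)` and exactness at `C^G` and `H¹(A)` -/

section Delta0

variable {𝓑 : LevelBasis G} {A B C : Rep.{u} k G}
  (φ : A →ₗ[k] B) (hφ : ∀ g a, φ (A.ρ g a) = B.ρ g (φ a))
  (ψ : B →ₗ[k] C) (hψ : ∀ g b, ψ (B.ρ g b) = C.ρ g (ψ b))
  (hinj : Function.Injective φ) (hsurj : Function.Surjective ψ)
  (hex : ∀ b, ψ b = 0 ↔ ∃ a, φ a = b) (hB : IsDiscrete 𝓑.sets B)

include hφ hinj hB in
/-- If `φ ∘ α = d b` for a vector `b` of the discrete module `B`, then `α` is a level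
1-cocycle. -/
theorem mem_Z1_of_comp_eq_d₀₁ {b : B} {α : G → A} (hα : φ ∘ α = (d₀₁ B).hom b) :
    α ∈ Z1 𝓑 A := by
  refine mem_Z1_of 𝓑 A ?_ (isLevel₁_of_comp (𝓑 := 𝓑) φ hinj (hα ▸ isLevel₁_d₀₁ hB b))
  have h1 : φ ∘ (d₁₂ A).hom α = 0 := by
    rw [← d₁₂_comp φ hφ, hα]
    have := d₀₁_apply_mem_cocycles₁ b
    rwa [cocycles₁, LinearMap.mem_ker] at this
  funext x
  apply hinj
  have := congrFun h1 x
  simp only [Function.comp_apply] at this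
  rw [this]
  exact (map_zero φ).symm

include hφ hinj hex in
/-- The class of `α` only depends on `ψ b`. -/
theorem sub_mem_coboundaries₁_of_eq {b b' : B} (hbb' : ψ b = ψ b') {α α' : G → A}
    (hα : φ ∘ α = (d₀₁ B).hom b) (hα' : φ ∘ α' = (d₀₁ B).hom b') :
    α - α' ∈ coboundaries₁ A := by
  obtain ⟨a₀, ha₀⟩ := (hex (b - b')).1 (by rw [map_sub, hbb', sub_self])
  refine ⟨a₀, ?_⟩
  funext g
  apply hinj
  have h1 := congrFun (d₀₁_comp φ hφ a₀) g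
  have h2 := congrFun hα g
  have h3 := congrFun hα' g
  simp only [Function.comp_apply] at h1 h2 h3
  rw [← h1, ha₀, map_sub (d₀₁ B).hom]
  simp only [Pi.sub_apply, map_sub, h2, h3]

/-- The cochain representing `δ⁰ c`. -/
noncomputable def delta0Fun (c : C) : G → A :=
  pre φ ∘ (d₀₁ B).hom (Function.surjInv hsurj c)

include hψ hex in
theorem φ_comp_delta0Fun {c : C} (hc : c ∈ C.ρ.invariants) :
    φ ∘ delta0Fun φ ψ hsurj c = (d₀₁ B).hom (Function.surjInv hsurj c) := by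
  funext g
  refine φ_pre φ ψ hex ?_
  have h1 := congrFun (d₀₁_comp ψ hψ (Function.surjInv hsurj c)) g
  rw [Function.surjInv_eq hsurj] at h1
  simp only [Function.comp_apply] at h1
  rw [← h1, d₀₁_hom_apply, hc g, sub_self]

include hφ hψ hinj hex hB in
theorem delta0Fun_mem_Z1 {c : C} (hc : c ∈ C.ρ.invariants) :
    delta0Fun φ ψ hsurj c ∈ Z1 𝓑 A :=
  mem_Z1_of_comp_eq_d₀₁ φ hφ hinj hB (φ_comp_delta0Fun φ ψ hψ hsurj hex hc)

include hφ hψ hinj hex in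
theorem delta0Fun_sub_mem {c : C} (hc : c ∈ C.ρ.invariants) {b : B} (hbc : ψ b = c)
    {α : G → A} (hα : φ ∘ α = (d₀₁ B).hom b) :
    delta0Fun φ ψ hsurj c - α ∈ coboundaries₁ A :=
  sub_mem_coboundaries₁_of_eq φ hφ ψ hinj hex ((Function.surjInv_eq hsurj c).trans hbc.symm)
    (φ_comp_delta0Fun φ ψ hψ hsurj hex hc) hα

/-- The connecting map `δ⁰ : C^G → H¹(A)`. -/
noncomputable def delta0 : ↥C.ρ.invariants →ₗ[k] H1 𝓑 A where
  toFun c := H1mk 𝓑 A ⟨delta0Fun φ ψ hsurj (c : C),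
    delta0Fun_mem_Z1 φ hφ ψ hψ hinj hsurj hex hB c.2⟩
  map_add' c c' := by
    rw [← map_add, ← sub_eq_zero, ← map_sub, H1mk_eq_zero_iff]
    have h1 : φ ∘ (delta0Fun φ ψ hsurj (c : C) + delta0Fun φ ψ hsurj (c' : C)) =
        (d₀₁ B).hom (Function.surjInv hsurj (c : C) + Function.surjInv hsurj (c' : C)) := by
      rw [map_add, ← φ_comp_delta0Fun φ ψ hψ hsurj hex c.2,
        ← φ_comp_delta0Fun φ ψ hψ hsurj hex c'.2]
      funext x
      simp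
    have h2 : ψ (Function.surjInv hsurj (c : C) + Function.surjInv hsurj (c' : C)) =
        ((c + c' : ↥C.ρ.invariants) : C) := by
      simp [Function.surjInv_eq hsurj]
    exact delta0Fun_sub_mem φ hφ ψ hψ hinj hsurj hex (c + c').2 h2 h1
  map_smul' r c := by
    rw [RingHom.id_apply, ← map_smul, ← sub_eq_zero, ← map_sub, H1mk_eq_zero_iff]
    have h1 : φ ∘ (r • delta0Fun φ ψ hsurj (c : C)) =
        (d₀₁ B).hom (r • Function.surjInv hsurj (c : C)) := by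
      rw [map_smul, ← φ_comp_delta0Fun φ ψ hψ hsurj hex c.2]
      funext x
      simp
    have h2 : ψ (r • Function.surjInv hsurj (c : C)) = ((r • c : ↥C.ρ.invariants) : C) := by
      simp [Function.surjInv_eq hsurj]
    exact delta0Fun_sub_mem φ hφ ψ hψ hinj hsurj hex (r • c).2 h2 h1

include hφ hψ hinj hex hB in
/-- **Characterisation of `δ⁰`**: for ANY lift `b` of the invariant `c` and any `α` with
`φ ∘ α = d b`, `δ⁰ c` is the class of `α`. -/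
theorem delta0_eq (c : ↥C.ρ.invariants) {b : B} (hbc : ψ b = (c : C)) (α : ↥(Z1 𝓑 A))
    (hα : φ ∘ (α : G → A) = (d₀₁ B).hom b) :
    delta0 φ hφ ψ hψ hinj hsurj hex hB c = H1mk 𝓑 A α := by
  show H1mk 𝓑 A _ = H1mk 𝓑 A α
  rw [← sub_eq_zero, ← map_sub, H1mk_eq_zero_iff]
  exact delta0Fun_sub_mem φ hφ ψ hψ hinj hsurj hex c.2 hbc hα

include hφ hψ hinj hex hB in
/-- Exactness at `C^G`: `δ⁰ c = 0` iff `c` lifts to an invariant of `B`. -/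
theorem delta0_eq_zero_iff (c : ↥C.ρ.invariants) :
    delta0 φ hφ ψ hψ hinj hsurj hex hB c = 0 ↔ ∃ b ∈ B.ρ.invariants, ψ b = (c : C) := by
  constructor
  · intro h
    have h' : H1mk 𝓑 A ⟨delta0Fun φ ψ hsurj (c : C),
        delta0Fun_mem_Z1 φ hφ ψ hψ hinj hsurj hex hB c.2⟩ = 0 := h
    rw [H1mk_eq_zero_iff] at h'
    obtain ⟨a₀, ha₀⟩ := h'
    refine ⟨Function.surjInv hsurj (c : C) - φ a₀, fun g => ?_, ?_⟩
    · have h1 := congrFun (φ_comp_delta0Fun φ ψ hψ hsurj hex c.2) g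
      have h2 := congrFun (d₀₁_comp φ hφ a₀) g
      have h3 := congrFun ha₀ g
      simp only [Function.comp_apply] at h1 h2
      simp only [] at h3
      rw [← h3, ← h2, d₀₁_hom_apply, d₀₁_hom_apply] at h1
      rw [map_sub]
      have : B.ρ g (φ a₀) - φ a₀ =
          B.ρ g (Function.surjInv hsurj (c : C)) - Function.surjInv hsurj (c : C) := h1
      rw [sub_eq_sub_iff_sub_eq_sub]
      exact this.symm
    · rw [map_sub, Function.surjInv_eq hsurj, ψ_φ φ ψ hex, sub_zero]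
  · rintro ⟨b, hb, hbc⟩
    have hα : φ ∘ ((0 : ↥(Z1 𝓑 A)) : G → A) = (d₀₁ B).hom b := by
      funext g
      rw [d₀₁_hom_apply, hb g, sub_self]
      exact map_zero φ
    rw [delta0_eq φ hφ ψ hψ hinj hsurj hex hB c hbc 0 hα, map_zero]

include hφ hψ hinj hex hB in
/-- Exactness at `H¹(A)`: `ker (H¹(A) → H¹(B)) = range δ⁰`. -/
theorem ker_mapH1_eq_range_delta0 :
    LinearMap.ker (mapH1 (𝓑 := 𝓑) φ hφ) =
      LinearMap.range (delta0 φ hφ ψ hψ hinj hsurj hex hB) := by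
  ext x
  obtain ⟨z, rfl⟩ := H1mk_surjective 𝓑 A x
  rw [LinearMap.mem_ker, LinearMap.mem_range, mapH1_mk, H1mk_eq_zero_iff]
  constructor
  · rintro ⟨b, hb⟩
    have hb' : φ ∘ (z : G → A) = (d₀₁ B).hom b := hb.symm
    have hc : ψ b ∈ C.ρ.invariants := fun g => by
      have h1 := congrFun (d₀₁_comp ψ hψ b) g
      have h2 := congrFun hb' g
      simp only [Function.comp_apply] at h1 h2
      rw [d₀₁_hom_apply] at h1
      rw [← sub_eq_zero, h1, ← h2, ψ_φ φ ψ hex]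
    exact ⟨⟨ψ b, hc⟩, delta0_eq φ hφ ψ hψ hinj hsurj hex hB ⟨ψ b, hc⟩ rfl z hb'⟩
  · rintro ⟨c, hc⟩
    have h1 := delta0_eq φ hφ ψ hψ hinj hsurj hex hB c (Function.surjInv_eq hsurj (c : C))
      ⟨delta0Fun φ ψ hsurj (c : C), delta0Fun_mem_Z1 φ hφ ψ hψ hinj hsurj hex hB c.2⟩
      (φ_comp_delta0Fun φ ψ hψ hsurj hex c.2)
    rw [h1, ← sub_eq_zero, ← map_sub, H1mk_eq_zero_iff] at hc
    obtain ⟨a₀, ha₀⟩ := hc
    refine ⟨Function.surjInv hsurj (c : C) - φ a₀, ?_⟩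
    rw [map_sub (d₀₁ B).hom, ← φ_comp_delta0Fun φ ψ hψ hsurj hex c.2, d₀₁_comp φ hφ, ha₀]
    funext g
    simp
    rfl

end Delta0

end Fermat.Agent.PT.PRO.LevelCohRes28
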