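/-
Program F (S55), chapter PRO, row 377 (InfLevel), helper13.

Inflation for level cohomology in the vocabulary of `LevelCoh28` (`Rep k G`, bundled `LevelBasis`):
for inflation data `IsInfData 𝓑.sets 𝓑'.sets N` and `ι : W' → W` the inclusion of the
`N`-invariants (`IsInvIncl`; e.g. `W' = W.toInvariants N`, `isInvIncl_toInvariants`),

  `inf1 : H1 𝓑' W' →ₗ H1 𝓑 W` is bijective and `inf2 : H2 𝓑' W' →ₗ H2 𝓑 W` is injective

if `N` is normal, `W` is `𝓑`-discrete and Hilbert 90 (`InfLevel13.H90`) holds for `(N, W)`.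
Both maps are `LevelCohRes28.ppH1/ppH2` along `MonoidHom.id G` and `ι`.
-/
import Mathlib
import Fermat.Agent.PT.PRO.LevelCoh28
import Fermat.Agent.PT.PRO.LevelCohRes28
import Fermat.Agent.PT.PRO.LevelCompare13
import Fermat.Agent.PT.PRO.InfLevel13

set_option autoImplicit false

universe u

open CategoryTheory groupCohomology

namespace Fermat.Agent.PT.PRO.InfLevelRep13

open Function
open Fermat.Agent.PT.PRO
open Fermat.Agent.PT.PRO.LevelCoh28 Fermat.Agent.PT.PRO.LevelCohRes28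
open Fermat.Agent.PT.PRO.InfLevel13

variable {k G : Type u} [CommRing k] [Group G]

/-- The `N`-invariants of a representation, with their inclusion, are an instance of
`IsInvIncl`. -/
theorem isInvIncl_toInvariants (W : Rep.{u} k G) (N : Subgroup G) [N.Normal] :
    IsInvIncl N (W.toInvariants N).ρ W.ρ
      (Representation.invariants (W.ρ.comp N.subtype)).subtype where
  comm _ _ := rfl
  inj := Subtype.val_injective
  fixed n hn a := a.2 ⟨n, hn⟩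
  surj w hw := ⟨⟨w, fun n => hw n.1 n.2⟩, rfl⟩

variable {𝓑 𝓑' : LevelBasis G} {N : Subgroup G} {W W' : Rep.{u} k G} {ι : W' →ₗ[k] W}

theorem isLevelHom_of_isInfData (hd : IsInfData 𝓑.sets 𝓑'.sets N) :
    IsLevelHom (MonoidHom.id G) 𝓑.sets 𝓑'.sets := by
  intro V' hV'
  obtain ⟨V, hV, hle⟩ := hd.le V' hV'
  exact ⟨V, hV, by rwa [Subgroup.comap_id]⟩

/-- Inflation on `H¹`. -/
def inf1 (hd : IsInfData 𝓑.sets 𝓑'.sets N) (hι : IsInvIncl N W'.ρ W.ρ ι) :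
    H1 𝓑' W' →ₗ[k] H1 𝓑 W :=
  ppH1 (MonoidHom.id G) ι (fun g a => hι.comm g a) (isLevelHom_of_isInfData hd)

/-- Inflation on `H²`. -/
def inf2 (hd : IsInfData 𝓑.sets 𝓑'.sets N) (hι : IsInvIncl N W'.ρ W.ρ ι) :
    H2 𝓑' W' →ₗ[k] H2 𝓑 W :=
  ppH2 (MonoidHom.id G) ι (fun g a => hι.comm g a) (isLevelHom_of_isInfData hd)

variable (hd : IsInfData 𝓑.sets 𝓑'.sets N) (hι : IsInvIncl N W'.ρ W.ρ ι)

theorem pp₁_id (c : G → W') : pp₁ (MonoidHom.id G) ι c = ⇑ι ∘ c := rfl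

theorem pp₂_id (c : G × G → W') : pp₂ (MonoidHom.id G) ι c = ⇑ι ∘ c := by
  funext ⟨g, h⟩
  rfl

theorem inf1_mk (c : ↥(Z1 𝓑' W')) :
    inf1 hd hι (H1mk 𝓑' W' c) =
      H1mk 𝓑 W (ppZ1 (MonoidHom.id G) ι (fun g a => hι.comm g a) (isLevelHom_of_isInfData hd) c) :=
  rfl

theorem inf2_mk (c : ↥(Z2 𝓑' W')) :
    inf2 hd hι (H2mk 𝓑' W' c) =
      H2mk 𝓑 W (ppZ2 (MonoidHom.id G) ι (fun g a => hι.comm g a) (isLevelHom_of_isInfData hd) c) :=
  rfl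

/-- **Inflation is injective on `H¹`.** -/
theorem inf1_injective : Injective (inf1 hd hι) := by
  rw [← LinearMap.ker_eq_bot, LinearMap.ker_eq_bot']
  intro x hx
  obtain ⟨c, rfl⟩ := H1mk_surjective 𝓑' W' x
  rw [inf1_mk, H1mk_eq_zero_iff, coe_ppZ1, pp₁_id, LevelCompare13.mem_coboundaries₁_iff] at hx
  obtain ⟨w, hw⟩ := hx
  have hc2 : HyperLevel25.IsLevel₁ 𝓑'.sets (c : G → W') := c.2.2
  have hc1 : HyperLevel25.dOne W'.ρ (c : G → W') = 0 :=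
    (LevelCompare13.mem_cocycles₁_iff W' _).1 c.2.1
  obtain ⟨a, -, ha⟩ := inf₁_injective_raw hι (fun g n hn => hd.map_mul_right hc2 g hn)
    (map_one_of_dOne_eq_zero hc1) hw.symm
  rw [H1mk_eq_zero_iff, LevelCompare13.mem_coboundaries₁_iff]
  exact ⟨a, ha.symm⟩

/-- **Inflation is surjective on `H¹`.** -/
theorem inf1_surjective [N.Normal] (hW : IsDiscrete 𝓑.sets W) (h90 : H90 𝓑.sets N W.ρ) :
    Surjective (inf1 hd hι) := by
  intro x
  obtain ⟨c, rfl⟩ := H1mk_surjective 𝓑 W x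
  have hc2 : HyperLevel25.IsLevel₁ 𝓑.sets (c : G → W) := c.2.2
  have hc1 : HyperLevel25.dOne W.ρ (c : G → W) = 0 :=
    (LevelCompare13.mem_cocycles₁_iff W _).1 c.2.1
  obtain ⟨c', w, hc'lev, hc'd, hcw⟩ := inf₁_surjective_raw hd
    (LevelCompare13.isLevelBasis_iff.1 𝓑.isBasis) hι hW h90 hc2 hc1
  have hc'Z : c' ∈ Z1 𝓑' W' := ⟨(LevelCompare13.mem_cocycles₁_iff W' _).2 hc'd, hc'lev⟩
  refine ⟨H1mk 𝓑' W' ⟨c', hc'Z⟩, ?_⟩
  rw [inf1_mk, ← sub_eq_zero, ← map_sub, H1mk_eq_zero_iff, LevelCompare13.mem_coboundaries₁_iff]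
  refine ⟨-w, ?_⟩
  rw [map_neg]
  show -(HyperLevel25.dZero W.ρ w) = ⇑ι ∘ c' - (c : G → W)
  rw [hcw]
  abel

theorem inf1_bijective [N.Normal] (hW : IsDiscrete 𝓑.sets W) (h90 : H90 𝓑.sets N W.ρ) :
    Bijective (inf1 hd hι) :=
  ⟨inf1_injective hd hι, inf1_surjective hd hι hW h90⟩

/-- **Inflation is injective on `H²`.** -/
theorem inf2_injective [N.Normal] (hW : IsDiscrete 𝓑.sets W) (h90 : H90 𝓑.sets N W.ρ) :
    Injective (inf2 hd hι) := by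
  rw [← LinearMap.ker_eq_bot, LinearMap.ker_eq_bot']
  intro x hx
  obtain ⟨c, rfl⟩ := H2mk_surjective 𝓑' W' x
  rw [inf2_mk, H2mk_eq_zero_iff, coe_ppZ2, pp₂_id, mem_B2_iff] at hx
  obtain ⟨b, hb, hbc⟩ := hx
  have hc2 : HyperLevel25.IsLevel₂ 𝓑'.sets (c : G × G → W') :=
    (LevelCompare13.isLevel₂_iff _).1 c.2.2
  have hc1 : HyperLevel25.dTwo W'.ρ (c : G × G → W') = 0 :=
    (LevelCompare13.mem_cocycles₂_iff W' _).1 c.2.1
  obtain ⟨b', -, hb'lev, hb'd, -⟩ := inf₂_injective_raw hd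
    (LevelCompare13.isLevelBasis_iff.1 𝓑.isBasis) hι hW h90 hc2 hc1 hb
    ((LevelCompare13.dOne_eq W b).trans hbc)
  rw [H2mk_eq_zero_iff, mem_B2_iff]
  exact ⟨b', hb'lev, (LevelCompare13.dOne_eq W' b').symm.trans hb'd⟩

end Fermat.Agent.PT.PRO.InfLevelRep13
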