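/-
Program F (S55, Poitou–Tate), chapter PRO, helper28.  Row (PRO-P4a), part 1.

Smooth coinduction for the level cohomology of `LevelCoh28`: for `i : H →* G`, a basis `𝓑G` of open
subgroups of `G` and an `H`-module `X`,
`scoind i 𝓑G X = {f : G → X | f (i h * g) = h • f g, f right-invariant under some U ∈ 𝓑G}`
with `(g • f) x = f (x * g)`.  It is a discrete `G`-module, `ev f = f 1` is `i`-equivariant,
`scoind` is an exact functor (on discrete modules, when the basis of `H` is induced from `G`),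
and the module `smoothFun 𝓑 M` of all smooth functions `G → M` is acyclic in degrees `1, 2`.
-/
import Mathlib
import Fermat.Agent.PT.PRO.LevelCoh28
import Fermat.Agent.PT.PRO.LevelCohRes28

set_option autoImplicit false
set_option linter.unusedSectionVars false
set_option linter.style.haveILetI false

universe u

open CategoryTheory groupCohomology

namespace Fermat.Agent.PT.PRO.SmoothCoind28

open Fermat.Agent.PT.PRO.LevelCoh28 Fermat.Agent.PT.PRO.LevelCohRes28

variable {k G H : Type u} [CommRing k] [Group G] [Group H]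

/-! ### The smooth coinduced module -/

section Def

variable (i : H →* G) (𝓑G : LevelBasis G) (X : Rep.{u} k H)

/-- The underlying submodule of the smooth coinduced module. -/
def scoindV : Submodule k (G → X) where
  carrier := {f | (∀ h g, f (i h * g) = X.ρ h (f g)) ∧ IsLevel₁ 𝓑G.sets f}
  add_mem' := fun {f f'} hf hf' =>
    ⟨fun h g => by simp only [Pi.add_apply, hf.1, hf'.1, map_add], hf.2.add 𝓑G.isBasis hf'.2⟩
  zero_mem' := ⟨fun h g => by simp, isLevel₁_const 𝓑G.isBasis (0 : X)⟩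
  smul_mem' := fun c f hf =>
    ⟨fun h g => by simp only [Pi.smul_apply, hf.1, map_smul], hf.2.comp (c • ·)⟩

theorem mem_scoindV_iff (f : G → X) :
    f ∈ scoindV i 𝓑G X ↔ (∀ h g, f (i h * g) = X.ρ h (f g)) ∧ IsLevel₁ 𝓑G.sets f := Iff.rfl

/-- Right translation preserves level functions. -/
theorem isLevel₁_rightTranslate {Y : Type*} {f : G → Y} (hf : IsLevel₁ 𝓑G.sets f) (g : G) :
    IsLevel₁ 𝓑G.sets (fun x => f (x * g)) := by
  obtain ⟨U, hU, h⟩ := hf
  obtain ⟨V, hV, hVU, hn⟩ := 𝓑G.isBasis.normalCore U hU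
  refine ⟨V, hV, fun x s hs => ?_⟩
  have h1 : x * s * g = x * g * (g⁻¹ * s * g) := by group
  have h2 : g⁻¹ * s * g ∈ U := hVU (by simpa using hn.conj_mem s hs g⁻¹)
  show f (x * s * g) = f (x * g)
  rw [h1, h (x * g) _ h2]

/-- The action of `G` on the smooth coinduced module by right translation. -/
def scoindρ : Representation k G (scoindV i 𝓑G X) where
  toFun g := (LinearMap.funLeft k X (· * g)).restrict fun f hf =>
    ⟨fun h x => by
      show f (i h * x * g) = X.ρ h (f (x * g))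
      rw [mul_assoc, hf.1], isLevel₁_rightTranslate 𝓑G hf.2 g⟩
  map_one' := by
    ext f x
    simp
  map_mul' g g' := by
    ext f x
    simp [mul_assoc]

/-- The smooth coinduced module `Coind^sm_{H → G} X`. -/
noncomputable def scoind : Rep.{u} k G := Rep.of (scoindρ i 𝓑G X)

@[simp] theorem scoind_ρ_apply (g : G) (f : scoind i 𝓑G X) (x : G) :
    ((scoind i 𝓑G X).ρ g f).1 x = f.1 (x * g) := rfl

theorem scoind_equivariant (f : scoind i 𝓑G X) (h : H) (g : G) :
    f.1 (i h * g) = X.ρ h (f.1 g) := f.2.1 h g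

theorem scoind_isLevel (f : scoind i 𝓑G X) : IsLevel₁ 𝓑G.sets f.1 := f.2.2

/-- The smooth coinduced module is discrete. -/
theorem isDiscrete_scoind : IsDiscrete 𝓑G.sets (scoind i 𝓑G X) := by
  intro f
  obtain ⟨U, hU, h⟩ := f.2.2
  refine ⟨U, hU, fun s hs => Subtype.ext (funext fun x => ?_)⟩
  exact h x s hs

/-- Evaluation at `1`. -/
def ev : scoind i 𝓑G X →ₗ[k] X where
  toFun f := f.1 1
  map_add' _ _ := rfl
  map_smul' _ _ := rfl

@[simp] theorem ev_apply (f : scoind i 𝓑G X) : ev i 𝓑G X f = f.1 1 := rfl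

theorem ev_equivariant (h : H) (f : scoind i 𝓑G X) :
    ev i 𝓑G X ((scoind i 𝓑G X).ρ (i h) f) = X.ρ h (ev i 𝓑G X f) := by
  show f.1 (1 * i h) = X.ρ h (f.1 1)
  rw [one_mul, ← mul_one (i h), f.2.1]

end Def

/-! ### Functoriality in the coefficients -/

section Functor

variable (i : H →* G) (𝓑G : LevelBasis G) {X Y Z : Rep.{u} k H} (φ : X →ₗ[k] Y)
  (hφ : ∀ h x, φ (X.ρ h x) = Y.ρ h (φ x))

/-- `f ↦ φ ∘ f`. -/
def scoindMap : scoind i 𝓑G X →ₗ[k] scoind i 𝓑G Y where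
  toFun f := ⟨φ ∘ f.1, fun h g => by
    show φ (f.1 (i h * g)) = Y.ρ h (φ (f.1 g))
    rw [f.2.1, hφ], f.2.2.comp φ⟩
  map_add' f f' := Subtype.ext (funext fun x => map_add φ _ _)
  map_smul' c f := Subtype.ext (funext fun x => map_smul φ _ _)

@[simp] theorem scoindMap_apply (f : scoind i 𝓑G X) (x : G) :
    (scoindMap i 𝓑G φ hφ f).1 x = φ (f.1 x) := rfl

theorem scoindMap_equivariant (g : G) (f : scoind i 𝓑G X) :
    scoindMap i 𝓑G φ hφ ((scoind i 𝓑G X).ρ g f) =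
      (scoind i 𝓑G Y).ρ g (scoindMap i 𝓑G φ hφ f) := rfl

theorem ev_scoindMap (f : scoind i 𝓑G X) :
    ev i 𝓑G Y (scoindMap i 𝓑G φ hφ f) = φ (ev i 𝓑G X f) := rfl

theorem scoindMap_injective (hinj : Function.Injective φ) :
    Function.Injective (scoindMap i 𝓑G φ hφ) := by
  intro f f' h
  refine Subtype.ext (funext fun x => hinj ?_)
  exact congrFun (congrArg Subtype.val h) x

/-- Exactness in the middle. -/
theorem scoindMap_exact (hinj : Function.Injective φ) (ψ : Y →ₗ[k] Z)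
    (hψ : ∀ h y, ψ (Y.ρ h y) = Z.ρ h (ψ y)) (hex : ∀ b, ψ b = 0 ↔ ∃ a, φ a = b)
    (f : scoind i 𝓑G Y) :
    scoindMap i 𝓑G ψ hψ f = 0 ↔ ∃ f', scoindMap i 𝓑G φ hφ f' = f := by
  constructor
  · intro h
    have h0 : ∀ x, ψ (f.1 x) = 0 := fun x => congrFun (congrArg Subtype.val h) x
    have h1 : ∀ x, φ (pre φ (f.1 x)) = f.1 x := fun x => φ_pre φ ψ hex (h0 x)
    refine ⟨⟨pre φ ∘ f.1, fun h g => hinj ?_, ?_⟩, Subtype.ext (funext h1)⟩
    · show φ (pre φ (f.1 (i h * g))) = φ (X.ρ h (pre φ (f.1 g)))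
      rw [h1, hφ, h1, f.2.1]
    · obtain ⟨U, hU, hinv⟩ := f.2.2
      exact ⟨U, hU, fun g s hs => by
        show pre φ (f.1 (g * s)) = pre φ (f.1 g)
        rw [hinv g s hs]⟩
  · rintro ⟨f', rfl⟩
    refine Subtype.ext (funext fun x => ?_)
    exact (hex _).2 ⟨f'.1 x, rfl⟩

end Functor

/-! ### Double coset decompositions -/

section Decomp

variable (i : H →* G) (U : Subgroup G) [hn : U.Normal]

/-- The double coset relation `g' ∈ i(H) g U`. -/
def dcSetoid : Setoid G where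
  r g g' := ∃ h : H, ∃ u ∈ U, g' = i h * g * u
  iseqv :=
    ⟨fun g => ⟨1, 1, U.one_mem, by simp⟩,
      fun {g g'} ⟨h, u, hu, e⟩ => ⟨h⁻¹, u⁻¹, U.inv_mem hu, by rw [e, map_inv]; group⟩,
      fun {g g' g''} ⟨h, u, hu, e⟩ ⟨h', u', hu', e'⟩ =>
        ⟨h' * h, u * u', U.mul_mem hu hu', by rw [e', e, map_mul]; group⟩⟩

/-- A choice of double coset representatives `τ g` and of `η g ∈ H` with
`g ∈ i (η g) * τ g * U`. -/
theorem exists_decomp : ∃ (η : G → H) (τ : G → G),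
    (∀ g, ∃ u ∈ U, g = i (η g) * τ g * u) ∧ ∀ h g u, u ∈ U → τ (i h * g * u) = τ g := by
  let s := dcSetoid i U
  let τ : G → G := fun g => (Quotient.mk s g).out
  have h1 : ∀ g, ∃ h : H, ∃ u ∈ U, g = i h * τ g * u := fun g =>
    (Quotient.mk_out (s := s) g : s.r (τ g) g)
  choose η hη using h1
  refine ⟨η, τ, hη, fun h g u hu => ?_⟩
  have : Quotient.mk s (i h * g * u) = Quotient.mk s g :=
    Quotient.sound (s.iseqv.symm ⟨h, u, hu, rfl⟩)
  show (Quotient.mk s (i h * g * u)).out = (Quotient.mk s g).out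
  rw [this]

include hn in
/-- The `H`-components of a double coset decomposition are equivariant modulo `i⁻¹ U`. -/
theorem decomp_equivariant {η : G → H} {τ : G → G}
    (h1 : ∀ g, ∃ u ∈ U, g = i (η g) * τ g * u) (h2 : ∀ h g u, u ∈ U → τ (i h * g * u) = τ g)
    (h : H) (g u : G) (hu : u ∈ U) :
    (η (i h * g * u))⁻¹ * h * η g ∈ U.comap i := by
  obtain ⟨a, ha, ea⟩ := h1 (i h * g * u)
  obtain ⟨b, hb, eb⟩ := h1 g
  rw [h2 h g u hu] at ea
  rw [Subgroup.mem_comap, map_mul, map_mul, map_inv]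
  have key : (i (η (i h * g * u)))⁻¹ * i h * i (η g) =
      τ g * (a * u⁻¹ * b⁻¹) * (τ g)⁻¹ := by
    generalize i (η (i h * g * u)) = y at ea ⊢
    generalize i (η g) = x at eb ⊢
    generalize τ g = t at ea eb ⊢
    subst eb
    have e1 : i h = y * t * a * u⁻¹ * (x * t * b)⁻¹ := by
      rw [← ea]
      group
    rw [e1]
    group
  rw [key]
  exact hn.conj_mem _ (U.mul_mem (U.mul_mem ha (U.inv_mem hu)) (U.inv_mem hb)) _

end Decomp

/-! ### Smooth coinduction preserves surjections of discrete modules -/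

section Surjective

variable (i : H →* G) (𝓑G : LevelBasis G) (𝓑H : LevelBasis H)
  (hind : ∀ V ∈ 𝓑H.sets, ∃ U ∈ 𝓑G.sets, U.comap i ≤ V)
  {Y Z : Rep.{u} k H} (ψ : Y →ₗ[k] Z) (hψ : ∀ h y, ψ (Y.ρ h y) = Z.ρ h (ψ y))

include hind in
/-- **Lifting smooth equivariant functions**: for every `f'' ∈ Coind Z` and every set-theoretic
section `lam` of `ψ` on the (finitely many) values of `f''`, there is `f ∈ Coind Y` above `f''`.
Here `Y` is discrete and the basis of `H` is induced from that of `G`. -/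
theorem scoindMap_surjective (hY : IsDiscrete 𝓑H.sets Y) (hsurj : Function.Surjective ψ) :
    Function.Surjective (scoindMap i 𝓑G ψ hψ) := by
  intro f''
  set lam : Z → Y := Function.surjInv hsurj with hlam
  have hfin : (lam '' Set.range f''.1).Finite := (f''.2.2.finite_range 𝓑G.isBasis).image _
  obtain ⟨V, hV, hVn, hVfix⟩ := hY.exists_fixing 𝓑H.isBasis hfin
  obtain ⟨U₀, hU₀, hinv⟩ := f''.2.2
  obtain ⟨U₁, hU₁, hU₁V⟩ := hind V hV
  obtain ⟨W, hW, hWle⟩ := 𝓑G.isBasis.directed U₀ hU₀ U₁ hU₁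
  obtain ⟨U', hU', hU'W, hn⟩ := 𝓑G.isBasis.normalCore W hW
  haveI := hn
  have hU'U₀ : U' ≤ U₀ := hU'W.trans (hWle.trans inf_le_left)
  have hU'V : U'.comap i ≤ V := fun x hx => hU₁V (hU'W.trans (hWle.trans inf_le_right) hx)
  obtain ⟨η, τ, h1, h2⟩ := exists_decomp i U'
  have hτ1 : ∀ h g, τ (i h * g) = τ g := fun h g => by
    have := h2 h g 1 U'.one_mem
    rwa [mul_one] at this
  have hτ2 : ∀ g u, u ∈ U' → τ (g * u) = τ g := fun g u hu => by
    have := h2 1 g u hu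
    rwa [map_one, one_mul] at this
  -- the key computation: `η` is equivariant modulo `V`, and `V` fixes the lifted values
  have key : ∀ h g u, u ∈ U' →
      Y.ρ (η (i h * g * u)) (lam (f''.1 (τ g))) = Y.ρ h (Y.ρ (η g) (lam (f''.1 (τ g)))) := by
    intro h g u hu
    have hv : (η (i h * g * u))⁻¹ * h * η g ∈ V := hU'V (decomp_equivariant i U' h1 h2 h g u hu)
    have hfixv := hVfix _ hv (lam (f''.1 (τ g))) ⟨_, ⟨τ g, rfl⟩, rfl⟩
    have e : h * η g = η (i h * g * u) * ((η (i h * g * u))⁻¹ * h * η g) := by group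
    rw [← Module.End.mul_apply, ← map_mul, e, map_mul, Module.End.mul_apply, hfixv]
  let f : G → Y := fun g => Y.ρ (η g) (lam (f''.1 (τ g)))
  have hf1 : ∀ h g, f (i h * g) = Y.ρ h (f g) := fun h g => by
    have := key h g 1 U'.one_mem
    simp only [mul_one] at this
    show Y.ρ (η (i h * g)) (lam (f''.1 (τ (i h * g)))) = _
    rw [hτ1, this]
  have hf2 : IsLevel₁ 𝓑G.sets f := ⟨U', hU', fun g u hu => by
    have := key 1 g u hu
    simp only [map_one, one_mul, Module.End.one_apply] at this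
    show Y.ρ (η (g * u)) (lam (f''.1 (τ (g * u)))) = _
    rw [hτ2 g u hu, this]⟩
  refine ⟨⟨f, hf1, hf2⟩, Subtype.ext (funext fun g => ?_)⟩
  show ψ (Y.ρ (η g) (lam (f''.1 (τ g)))) = f''.1 g
  obtain ⟨u, hu, e⟩ := h1 g
  rw [hψ, hlam, Function.surjInv_eq hsurj, ← f''.2.1]
  conv_rhs => rw [e]
  exact (hinv _ u (hU'U₀ hu)).symm

end Surjective

/-! ### Invariants: `(Coind X)^G = X^H` -/

section Invariants

variable (i : H →* G) (𝓑G : LevelBasis G) (X : Rep.{u} k H)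

theorem ev_mem_invariants {f : scoind i 𝓑G X} (hf : f ∈ (scoind i 𝓑G X).ρ.invariants) :
    ev i 𝓑G X f ∈ X.ρ.invariants := fun h => by
  rw [← ev_equivariant, hf (i h)]

/-- The constant function with an invariant value. -/
def constFun (x : X) (hx : x ∈ X.ρ.invariants) : scoind i 𝓑G X :=
  ⟨fun _ => x, fun h _ => (hx h).symm, isLevel₁_const 𝓑G.isBasis x⟩

@[simp] theorem ev_constFun (x : X) (hx : x ∈ X.ρ.invariants) :
    ev i 𝓑G X (constFun i 𝓑G X x hx) = x := rfl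

theorem constFun_mem_invariants (x : X) (hx : x ∈ X.ρ.invariants) :
    constFun i 𝓑G X x hx ∈ (scoind i 𝓑G X).ρ.invariants := fun _ => rfl

theorem eq_constFun_of_mem_invariants {f : scoind i 𝓑G X}
    (hf : f ∈ (scoind i 𝓑G X).ρ.invariants) :
    f = constFun i 𝓑G X (ev i 𝓑G X f) (ev_mem_invariants i 𝓑G X hf) := by
  refine Subtype.ext (funext fun x => ?_)
  have := congrFun (congrArg Subtype.val (hf x)) 1
  rw [scoind_ρ_apply, one_mul] at this
  exact this

end Invariants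

/-! ### Smooth functions: the coinduced module from the trivial group -/

section SmoothFun

variable (𝓑 : LevelBasis G) (M : Type u) [AddCommGroup M] [Module k M]

/-- Smooth (level) functions `G → M`. -/
def smoothV : Submodule k (G → M) where
  carrier := {f | IsLevel₁ 𝓑.sets f}
  add_mem' hf hf' := hf.add 𝓑.isBasis hf'
  zero_mem' := isLevel₁_const 𝓑.isBasis (0 : M)
  smul_mem' c _ hf := hf.comp (c • ·)

/-- `G` acts on smooth functions by right translation. -/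
def smoothρ : Representation k G (smoothV (k := k) 𝓑 M) where
  toFun g := (LinearMap.funLeft k M (· * g)).restrict fun f hf =>
    isLevel₁_rightTranslate 𝓑 hf g
  map_one' := by
    ext f x
    simp
  map_mul' g g' := by
    ext f x
    simp [mul_assoc]

/-- The `G`-module of smooth functions `G → M`. -/
noncomputable def smoothFun : Rep.{u} k G := Rep.of (smoothρ (k := k) 𝓑 M)

@[simp] theorem smoothFun_ρ_apply (g : G) (f : smoothFun (k := k) 𝓑 M) (x : G) :
    ((smoothFun (k := k) 𝓑 M).ρ g f).1 x = f.1 (x * g) := rfl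

theorem isDiscrete_smoothFun : IsDiscrete 𝓑.sets (smoothFun (k := k) 𝓑 M) := by
  intro f
  obtain ⟨U, hU, h⟩ := f.2
  exact ⟨U, hU, fun s hs => Subtype.ext (funext fun x => h x s hs)⟩

/-- **`smoothFun` is acyclic in degree 1.** -/
theorem smoothFun_acyclic₁ {c : G → smoothFun (k := k) 𝓑 M}
    (hc : c ∈ Z1 𝓑 (smoothFun (k := k) 𝓑 M)) : c ∈ coboundaries₁ (smoothFun (k := k) 𝓑 M) := by
  obtain ⟨U, hU, hinv⟩ := hc.2
  have hcoc := (mem_cocycles₁_iff c).1 hc.1
  refine ⟨⟨fun x => (c x).1 1, U, hU, fun x s hs => by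
    show (c (x * s)).1 1 = (c x).1 1
    rw [hinv x s hs]⟩, ?_⟩
  funext g
  refine Subtype.ext (funext fun x => ?_)
  rw [d₀₁_hom_apply]
  show (c (x * g)).1 1 - (c x).1 1 = (c g).1 x
  rw [hcoc x g]
  show ((smoothFun (k := k) 𝓑 M).ρ x (c g)).1 1 + (c x).1 1 - (c x).1 1 = (c g).1 x
  rw [smoothFun_ρ_apply, one_mul, add_sub_cancel_right]

/-- **`smoothFun` is acyclic in degree 2.** -/
theorem smoothFun_acyclic₂ {c : G × G → smoothFun (k := k) 𝓑 M}
    (hc : c ∈ Z2 𝓑 (smoothFun (k := k) 𝓑 M)) : c ∈ B2 𝓑 (smoothFun (k := k) 𝓑 M) := by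
  obtain ⟨U, hU, hinv⟩ := hc.2
  have hcoc := (mem_cocycles₂_iff c).1 hc.1
  have hinv1 : ∀ x g, ∀ s ∈ U, c (x * s, g) = c (x, g) := fun x g s hs => by
    have := hinv x g s hs 1 U.one_mem
    rwa [mul_one] at this
  have hinv2 : ∀ x g, ∀ s ∈ U, c (x, g * s) = c (x, g) := fun x g s hs => by
    have := hinv x g 1 U.one_mem s hs
    rwa [mul_one] at this
  let b : G → smoothFun (k := k) 𝓑 M := fun g =>
    ⟨fun x => (c (x, g)).1 1, U, hU, fun x s hs => by
      show (c (x * s, g)).1 1 = (c (x, g)).1 1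
      rw [hinv1 x g s hs]⟩
  refine (mem_B2_iff 𝓑 _ _).2 ⟨b, ⟨U, hU, fun g s hs => Subtype.ext (funext fun x => ?_)⟩, ?_⟩
  · show (c (x, g * s)).1 1 = (c (x, g)).1 1
    rw [hinv2 x g s hs]
  · funext ⟨g₁, g₂⟩
    refine Subtype.ext (funext fun x => ?_)
    rw [d₁₂_hom_apply]
    show (c (x * g₁, g₂)).1 1 - (c (x, g₁ * g₂)).1 1 + (c (x, g₁)).1 1 = (c (g₁, g₂)).1 x
    have h := congrArg (fun m : smoothFun (k := k) 𝓑 M => m.1 1) (hcoc x g₁ g₂)
    have h' : (c (x * g₁, g₂)).1 1 + (c (x, g₁)).1 1 =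
        (c (g₁, g₂)).1 x + (c (x, g₁ * g₂)).1 1 := by
      have e : ((smoothFun (k := k) 𝓑 M).ρ x (c (g₁, g₂))).1 1 = (c (g₁, g₂)).1 x := by
        rw [smoothFun_ρ_apply, one_mul]
      rw [← e]
      exact h
    rw [sub_add_eq_add_sub, h', add_sub_cancel_right]

end SmoothFun

/-! ### The embedding of a discrete module into smooth functions -/

section Embedding

variable (𝓑 : LevelBasis G) (X : Rep.{u} k G) (hX : IsDiscrete 𝓑.sets X)

/-- `x ↦ (g ↦ g • x)`, an equivariant embedding of a discrete module into an acyclic one. -/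
def emb : X →ₗ[k] smoothFun (k := k) 𝓑 X where
  toFun x := ⟨fun g => X.ρ g x, by
    obtain ⟨U, hU, h⟩ := hX x
    exact ⟨U, hU, fun g s hs => by
      show X.ρ (g * s) x = X.ρ g x
      rw [map_mul, Module.End.mul_apply, h s hs]⟩⟩
  map_add' x y := Subtype.ext (funext fun g => map_add _ _ _)
  map_smul' c x := Subtype.ext (funext fun g => map_smul _ _ _)

@[simp] theorem emb_apply (x : X) (g : G) : (emb 𝓑 X hX x).1 g = X.ρ g x := rfl

theorem emb_equivariant (g : G) (x : X) :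
    emb 𝓑 X hX (X.ρ g x) = (smoothFun (k := k) 𝓑 X).ρ g (emb 𝓑 X hX x) := by
  refine Subtype.ext (funext fun y => ?_)
  show X.ρ y (X.ρ g x) = X.ρ (y * g) x
  rw [map_mul, Module.End.mul_apply]

theorem emb_injective : Function.Injective (emb 𝓑 X hX) := by
  intro x y h
  have := congrFun (congrArg Subtype.val h) 1
  simpa using this

end Embedding

/-! ### `Coind (smoothFun 𝓑H M) ≅ smoothFun 𝓑G M`, hence acyclic -/

section CoindSmooth

variable (i : H →* G) (𝓑G : LevelBasis G) (𝓑H : LevelBasis H)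
  (hcont : IsLevelHom i 𝓑H.sets 𝓑G.sets) (M : Type u) [AddCommGroup M] [Module k M]

/-- `f ↦ (g ↦ f g 1)`. -/
def coindSmooth : scoind i 𝓑G (smoothFun (k := k) 𝓑H M) →ₗ[k] smoothFun (k := k) 𝓑G M where
  toFun f := ⟨fun g => (f.1 g).1 1, by
    obtain ⟨U, hU, h⟩ := f.2.2
    exact ⟨U, hU, fun g s hs => by
      show (f.1 (g * s)).1 1 = (f.1 g).1 1
      rw [h g s hs]⟩⟩
  map_add' _ _ := rfl
  map_smul' _ _ := rfl

@[simp] theorem coindSmooth_apply (f : scoind i 𝓑G (smoothFun (k := k) 𝓑H M)) (g : G) :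
    (coindSmooth i 𝓑G 𝓑H M f).1 g = (f.1 g).1 1 := rfl

theorem coindSmooth_equivariant (g : G) (f : scoind i 𝓑G (smoothFun (k := k) 𝓑H M)) :
    coindSmooth i 𝓑G 𝓑H M ((scoind i 𝓑G (smoothFun (k := k) 𝓑H M)).ρ g f) =
      (smoothFun (k := k) 𝓑G M).ρ g (coindSmooth i 𝓑G 𝓑H M f) := rfl

/-- The values of `f ∈ Coind (smoothFun M)` are determined by `coindSmooth f`. -/
theorem coindSmooth_apply_mul (f : scoind i 𝓑G (smoothFun (k := k) 𝓑H M)) (g : G) (y : H) :
    (coindSmooth i 𝓑G 𝓑H M f).1 (i y * g) = (f.1 g).1 y := by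
  show (f.1 (i y * g)).1 1 = (f.1 g).1 y
  rw [f.2.1, smoothFun_ρ_apply, one_mul]

theorem coindSmooth_injective : Function.Injective (coindSmooth (k := k) i 𝓑G 𝓑H M) := by
  intro f f' h
  refine Subtype.ext (funext fun g => Subtype.ext (funext fun y => ?_))
  rw [← coindSmooth_apply_mul, ← coindSmooth_apply_mul, h]

include hcont in
theorem coindSmooth_surjective : Function.Surjective (coindSmooth (k := k) i 𝓑G 𝓑H M) := by
  intro m
  obtain ⟨U₀, hU₀, hinv₀⟩ := m.2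
  obtain ⟨U, hU, hUU₀, hn⟩ := 𝓑G.isBasis.normalCore U₀ hU₀
  have hinv : InvOn₁ U m.1 := hinv₀.mono hUU₀
  obtain ⟨V, hV, hVU⟩ := hcont U hU
  have hval : ∀ g, IsLevel₁ 𝓑H.sets (fun y => m.1 (i y * g)) := fun g =>
    ⟨V, hV, fun y v hv => by
      have h1 : i (y * v) * g = i y * g * (g⁻¹ * i v * g) := by rw [map_mul]; group
      have h2 : g⁻¹ * i v * g ∈ U := by simpa using hn.conj_mem (i v) (hVU hv) g⁻¹
      show m.1 (i (y * v) * g) = m.1 (i y * g)
      rw [h1, hinv _ _ h2]⟩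
  refine ⟨⟨fun g => ⟨fun y => m.1 (i y * g), hval g⟩, ?_, ?_⟩, ?_⟩
  · intro h g
    refine Subtype.ext (funext fun y => ?_)
    show m.1 (i y * (i h * g)) = m.1 (i (y * h) * g)
    rw [map_mul, mul_assoc]
  · refine ⟨U, hU, fun g s hs => Subtype.ext (funext fun y => ?_)⟩
    show m.1 (i y * (g * s)) = m.1 (i y * g)
    rw [← mul_assoc, hinv _ s hs]
  · refine Subtype.ext (funext fun g => ?_)
    show m.1 (i 1 * g) = m.1 g
    rw [map_one, one_mul]

end CoindSmooth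

/-! ### Transport of acyclicity along an equivariant linear bijection -/

section Transport

variable {𝓑 : LevelBasis G} {A B : Rep.{u} k G} (Φ : A →ₗ[k] B)
  (hΦ : ∀ g a, Φ (A.ρ g a) = B.ρ g (Φ a)) (hbij : Function.Bijective Φ)

include hΦ hbij in
theorem acyclic₁_of_bijective (hB : ∀ c : G → B, c ∈ Z1 𝓑 B → c ∈ coboundaries₁ B)
    {c : G → A} (hc : c ∈ Z1 𝓑 A) : c ∈ coboundaries₁ A := by
  obtain ⟨b, hb⟩ := hB (Φ ∘ c) (comp_mem_Z1 Φ hΦ hc)
  obtain ⟨a, rfl⟩ := hbij.2 b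
  refine ⟨a, ?_⟩
  funext g
  apply hbij.1
  have h1 := congrFun (d₀₁_comp Φ hΦ a) g
  have h2 := congrFun hb g
  simp only [Function.comp_apply] at h1 h2
  rw [← h1, h2]

include hΦ hbij in
theorem acyclic₂_of_bijective (hB : ∀ c : G × G → B, c ∈ Z2 𝓑 B → c ∈ B2 𝓑 B)
    {c : G × G → A} (hc : c ∈ Z2 𝓑 A) : c ∈ B2 𝓑 A := by
  obtain ⟨b, hbl, hb⟩ := (mem_B2_iff 𝓑 B _).1 (hB (Φ ∘ c) (comp_mem_Z2 Φ hΦ hc))
  choose r hr using hbij.2
  have hrb : Φ ∘ (r ∘ b) = b := funext fun g => hr (b g)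
  refine (mem_B2_iff 𝓑 A _).2 ⟨r ∘ b, isLevel₁_of_comp (𝓑 := 𝓑) Φ hbij.1 (hrb.symm ▸ hbl), ?_⟩
  funext x
  apply hbij.1
  have h1 := congrFun (d₁₂_comp Φ hΦ (r ∘ b)) x
  have h2 := congrFun hb x
  rw [hrb] at h1
  simp only [Function.comp_apply] at h1 h2
  rw [← h1, h2]

end Transport

section CoindSmoothAcyclic

variable (i : H →* G) (𝓑G : LevelBasis G) (𝓑H : LevelBasis H)
  (hcont : IsLevelHom i 𝓑H.sets 𝓑G.sets) (M : Type u) [AddCommGroup M] [Module k M]

include hcont in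
/-- `Coind (smoothFun M)` is acyclic in degree 1. -/
theorem scoind_smoothFun_acyclic₁ {c : G → scoind (k := k) i 𝓑G (smoothFun (k := k) 𝓑H M)}
    (hc : c ∈ Z1 𝓑G (scoind (k := k) i 𝓑G (smoothFun (k := k) 𝓑H M))) :
    c ∈ coboundaries₁ (scoind (k := k) i 𝓑G (smoothFun (k := k) 𝓑H M)) :=
  acyclic₁_of_bijective (A := scoind (k := k) i 𝓑G (smoothFun (k := k) 𝓑H M))
    (B := smoothFun (k := k) 𝓑G M)
    (coindSmooth (k := k) i 𝓑G 𝓑H M) (coindSmooth_equivariant i 𝓑G 𝓑H M)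
    ⟨coindSmooth_injective (k := k) i 𝓑G 𝓑H M, coindSmooth_surjective (k := k) i 𝓑G 𝓑H hcont M⟩
    (fun _ h => smoothFun_acyclic₁ 𝓑G M h) hc

include hcont in
/-- `Coind (smoothFun M)` is acyclic in degree 2. -/
theorem scoind_smoothFun_acyclic₂ {c : G × G → scoind (k := k) i 𝓑G (smoothFun (k := k) 𝓑H M)}
    (hc : c ∈ Z2 𝓑G (scoind (k := k) i 𝓑G (smoothFun (k := k) 𝓑H M))) :
    c ∈ B2 𝓑G (scoind (k := k) i 𝓑G (smoothFun (k := k) 𝓑H M)) :=
  acyclic₂_of_bijective (A := scoind (k := k) i 𝓑G (smoothFun (k := k) 𝓑H M))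
    (B := smoothFun (k := k) 𝓑G M)
    (coindSmooth (k := k) i 𝓑G 𝓑H M) (coindSmooth_equivariant i 𝓑G 𝓑H M)
    ⟨coindSmooth_injective (k := k) i 𝓑G 𝓑H M, coindSmooth_surjective (k := k) i 𝓑G 𝓑H hcont M⟩
    (fun _ h => smoothFun_acyclic₂ 𝓑G M h) hc

end CoindSmoothAcyclic

end Fermat.Agent.PT.PRO.SmoothCoind28
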