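/-
Program F (S55, Poitou–Tate), chapter PRO, helper28.  Row (PRO-P4a), part 2.

Shapiro's lemma for the level cohomology of `LevelCoh28` in degrees `1, 2`:
for `i : H →* G` continuous for the level bases, the basis of `H` being induced from that of `G`,
and a discrete `H`-module `X`, the maps
`sh_n = (ev ∘ - ∘ i) : Hⁿ(𝓑G; Coind^sm X) → Hⁿ(𝓑H; X)` are bijective (`n = 1, 2`).

Proof by effaceability (dimension shifting): `X ↪ F := smoothFun X`, `Coind F` and `F` acyclic,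
`Coind` exact, naturality of `δ⁰`, `δ¹`.  The dimension-shifting steps are stated abstractly
(`ppH1_surjective_of`, `ppH1_injective_of`, `ppH2_surjective_of`, `ppH2_injective_of`) for a
morphism of short exact sequences over a group homomorphism.
-/
import Mathlib
import Fermat.Agent.PT.PRO.LevelCoh28
import Fermat.Agent.PT.PRO.LevelCohRes28
import Fermat.Agent.PT.PRO.SmoothCoind28

set_option autoImplicit false
set_option linter.unusedSectionVars false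
set_option linter.style.haveILetI false

universe u

open CategoryTheory groupCohomology

namespace Fermat.Agent.PT.PRO.ShapiroLevel28

open Fermat.Agent.PT.PRO.LevelCoh28 Fermat.Agent.PT.PRO.LevelCohRes28
  Fermat.Agent.PT.PRO.SmoothCoind28

variable {k G H : Type u} [CommRing k] [Group G] [Group H]

/-! ### Dimension shifting for a morphism of short exact sequences -/

section DimShift

variable (f : G →* H) {𝓑G : LevelBasis G} {𝓑H : LevelBasis H}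
  (hf : IsLevelHom f 𝓑G.sets 𝓑H.sets)
  {A B C : Rep.{u} k H} (φ : A →ₗ[k] B) (hφ : ∀ g a, φ (A.ρ g a) = B.ρ g (φ a))
  (ψ : B →ₗ[k] C) (hψ : ∀ g b, ψ (B.ρ g b) = C.ρ g (ψ b))
  (hinj : Function.Injective φ) (hsurj : Function.Surjective ψ)
  (hex : ∀ b, ψ b = 0 ↔ ∃ a, φ a = b) (hB : IsDiscrete 𝓑H.sets B)
  {A' B' C' : Rep.{u} k G} (φ' : A' →ₗ[k] B') (hφ' : ∀ g a, φ' (A'.ρ g a) = B'.ρ g (φ' a))
  (ψ' : B' →ₗ[k] C') (hψ' : ∀ g b, ψ' (B'.ρ g b) = C'.ρ g (ψ' b))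
  (hinj' : Function.Injective φ') (hsurj' : Function.Surjective ψ')
  (hex' : ∀ b, ψ' b = 0 ↔ ∃ a, φ' a = b) (hB' : IsDiscrete 𝓑G.sets B')
  (a : A →ₗ[k] A') (ha : ∀ (g : G) (x : A), a (A.ρ (f g) x) = A'.ρ g (a x))
  (b : B →ₗ[k] B') (hb : ∀ (g : G) (x : B), b (B.ρ (f g) x) = B'.ρ g (b x))
  (c : C →ₗ[k] C') (hc : ∀ (g : G) (x : C), c (C.ρ (f g) x) = C'.ρ g (c x))
  (hab : ∀ x, b (φ x) = φ' (a x)) (hbc : ∀ x, c (ψ x) = ψ' (b x))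

include hc in
theorem map_mem_invariants {x : C} (hx : x ∈ C.ρ.invariants) : c x ∈ C'.ρ.invariants :=
  fun g => by rw [← hc, hx (f g)]

include hab hbc hb in
/-- **Naturality of `δ⁰`.** -/
theorem delta0_natural (x : ↥C.ρ.invariants) :
    delta0 φ' hφ' ψ' hψ' hinj' hsurj' hex' hB' ⟨c x, map_mem_invariants f c hc x.2⟩ =
      ppH1 f a ha hf (delta0 φ hφ ψ hψ hinj hsurj hex hB x) := by
  have hα := φ_comp_delta0Fun φ ψ hψ hsurj hex x.2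
  have hαZ := delta0Fun_mem_Z1 (𝓑 := 𝓑H) φ hφ ψ hψ hinj hsurj hex hB x.2
  have h1 : delta0 φ hφ ψ hψ hinj hsurj hex hB x =
      H1mk 𝓑H A ⟨delta0Fun φ ψ hsurj (x : C), hαZ⟩ := rfl
  rw [h1, ppH1_mk]
  refine delta0_eq φ' hφ' ψ' hψ' hinj' hsurj' hex' hB' _
    (b := b (Function.surjInv hsurj (x : C))) ?_ _ ?_
  · rw [← hbc, Function.surjInv_eq hsurj]
  · rw [coe_ppZ1, ← pp₁_d₀₁ f b hb, ← hα]
    funext g
    simp only [Function.comp_apply, pp₁_apply, hab]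

include hφ hψ hinj hsurj hex hB hφ' hψ' hinj' hsurj' hex' hB' hab hbc hb hc in
/-- Degree 1, surjectivity: `H¹(B') = 0` and `C^H → C'^G` onto ⟹ `H¹(A) → H¹(A')` onto. -/
theorem ppH1_surjective_of
    (hB'1 : ∀ z : G → B', z ∈ Z1 𝓑G B' → z ∈ coboundaries₁ B')
    (hC : ∀ y ∈ C'.ρ.invariants, ∃ x ∈ C.ρ.invariants, c x = y) :
    Function.Surjective (ppH1 f a ha hf) := by
  intro y
  have hy : y ∈ LinearMap.ker (mapH1 (𝓑 := 𝓑G) φ' hφ') := by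
    obtain ⟨z, rfl⟩ := H1mk_surjective 𝓑G A' y
    rw [LinearMap.mem_ker, mapH1_mk, H1mk_eq_zero_iff]
    exact hB'1 _ (mapZ1 φ' hφ' z).2
  rw [ker_mapH1_eq_range_delta0 φ' hφ' ψ' hψ' hinj' hsurj' hex' hB'] at hy
  obtain ⟨q, rfl⟩ := hy
  obtain ⟨x, hx, hxq⟩ := hC q.1 q.2
  refine ⟨delta0 φ hφ ψ hψ hinj hsurj hex hB ⟨x, hx⟩, ?_⟩
  rw [← delta0_natural f hf φ hφ ψ hψ hinj hsurj hex hB φ' hφ' ψ' hψ' hinj' hsurj' hex' hB'
    a ha b hb c hc hab hbc ⟨x, hx⟩]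
  congr 1
  exact Subtype.ext hxq

include hφ hψ hinj hsurj hex hB hφ' hψ' hinj' hsurj' hex' hB' hab hbc hb hc in
/-- Degree 1, injectivity: `H¹(B) = 0` and invariants of `C` whose image lifts to `B'^G` lift to
`B^H` ⟹ `H¹(A) → H¹(A')` injective. -/
theorem ppH1_injective_of
    (hB1 : ∀ z : H → B, z ∈ Z1 𝓑H B → z ∈ coboundaries₁ B)
    (hC : ∀ x ∈ C.ρ.invariants, (∃ y ∈ B'.ρ.invariants, ψ' y = c x) →
      ∃ y ∈ B.ρ.invariants, ψ y = x) :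
    Function.Injective (ppH1 f a ha hf) := by
  rw [← LinearMap.ker_eq_bot, LinearMap.ker_eq_bot']
  intro x hx
  have hx' : x ∈ LinearMap.ker (mapH1 (𝓑 := 𝓑H) φ hφ) := by
    obtain ⟨z, rfl⟩ := H1mk_surjective 𝓑H A x
    rw [LinearMap.mem_ker, mapH1_mk, H1mk_eq_zero_iff]
    exact hB1 _ (mapZ1 φ hφ z).2
  rw [ker_mapH1_eq_range_delta0 φ hφ ψ hψ hinj hsurj hex hB] at hx'
  obtain ⟨q, rfl⟩ := hx'
  rw [← delta0_natural f hf φ hφ ψ hψ hinj hsurj hex hB φ' hφ' ψ' hψ' hinj' hsurj' hex' hB'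
    a ha b hb c hc hab hbc q, delta0_eq_zero_iff] at hx
  rw [delta0_eq_zero_iff]
  exact hC q.1 q.2 hx

include hφ hψ hinj hsurj hex hB hφ' hψ' hinj' hsurj' hex' hB' hab hbc hb in
/-- Degree 2, surjectivity: `H²(B') = 0` and `H¹(C) → H¹(C')` onto ⟹ `H²(A) → H²(A')` onto. -/
theorem ppH2_surjective_of
    (hB'2 : ∀ z : G × G → B', z ∈ Z2 𝓑G B' → z ∈ B2 𝓑G B')
    (hC : Function.Surjective (ppH1 f c hc hf)) :
    Function.Surjective (ppH2 f a ha hf) := by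
  intro y
  have hy : y ∈ LinearMap.ker (mapH2 (𝓑 := 𝓑G) φ' hφ') := by
    obtain ⟨z, rfl⟩ := H2mk_surjective 𝓑G A' y
    rw [LinearMap.mem_ker, mapH2_mk, H2mk_eq_zero_iff]
    exact hB'2 _ (mapZ2 φ' hφ' z).2
  rw [ker_mapH2 φ' hφ' ψ' hψ' hinj' hsurj' hex' hB'] at hy
  obtain ⟨w, rfl⟩ := hy
  obtain ⟨x, rfl⟩ := hC w
  exact ⟨delta φ hφ ψ hψ hinj hsurj hex hB x,
    (delta_natural f hf φ hφ ψ hψ hinj hsurj hex hB φ' hφ' ψ' hψ' hinj' hsurj' hex' hB'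
      a ha b hb c hc hab hbc x).symm⟩

include hφ hψ hinj hsurj hex hB hφ' hψ' hinj' hsurj' hex' hB' hab hbc hb in
/-- Degree 2, injectivity: `H²(B) = 0`, `H¹(B') = 0` and `H¹(C) → H¹(C')` injective ⟹
`H²(A) → H²(A')` injective. -/
theorem ppH2_injective_of
    (hB2 : ∀ z : H × H → B, z ∈ Z2 𝓑H B → z ∈ B2 𝓑H B)
    (hB'1 : ∀ z : G → B', z ∈ Z1 𝓑G B' → z ∈ coboundaries₁ B')
    (hC : Function.Injective (ppH1 f c hc hf)) :
    Function.Injective (ppH2 f a ha hf) := by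
  rw [← LinearMap.ker_eq_bot, LinearMap.ker_eq_bot']
  intro x hx
  have hx' : x ∈ LinearMap.ker (mapH2 (𝓑 := 𝓑H) φ hφ) := by
    obtain ⟨z, rfl⟩ := H2mk_surjective 𝓑H A x
    rw [LinearMap.mem_ker, mapH2_mk, H2mk_eq_zero_iff]
    exact hB2 _ (mapZ2 φ hφ z).2
  rw [ker_mapH2 φ hφ ψ hψ hinj hsurj hex hB] at hx'
  obtain ⟨w, rfl⟩ := hx'
  rw [← delta_natural f hf φ hφ ψ hψ hinj hsurj hex hB φ' hφ' ψ' hψ' hinj' hsurj' hex' hB'
    a ha b hb c hc hab hbc w] at hx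
  have h1 : ppH1 f c hc hf w ∈ LinearMap.ker (delta φ' hφ' ψ' hψ' hinj' hsurj' hex' hB') := hx
  rw [ker_delta φ' hφ' ψ' hψ' hinj' hsurj' hex' hB'] at h1
  obtain ⟨v, hv⟩ := h1
  have hv0 : v = 0 := by
    obtain ⟨z, rfl⟩ := H1mk_surjective 𝓑G B' v
    exact (H1mk_eq_zero_iff 𝓑G B' z).2 (hB'1 _ z.2)
  rw [hv0, map_zero] at hv
  have hw : w = 0 := hC (by rw [← hv, map_zero])
  rw [hw, map_zero]

end DimShift

/-! ### The effacing short exact sequence `0 → X → smoothFun X → Q → 0` -/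

section Efface

variable (𝓑H : LevelBasis H) (X : Rep.{u} k H) (hX : IsDiscrete 𝓑H.sets X)

/-- The image of `X` in `smoothFun X`. -/
noncomputable def embRange : Submodule k (smoothFun (k := k) 𝓑H X) := LinearMap.range (emb 𝓑H X hX)

theorem embRange_stable (h : H) :
    embRange 𝓑H X hX ≤ (embRange 𝓑H X hX).comap ((smoothFun (k := k) 𝓑H X).ρ h) := by
  rintro _ ⟨x, rfl⟩
  exact ⟨X.ρ h x, emb_equivariant 𝓑H X hX h x⟩

/-- The quotient `smoothFun X / X`. -/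
noncomputable def effQ : Rep.{u} k H :=
  Rep.quotient (smoothFun (k := k) 𝓑H X) (embRange 𝓑H X hX) (embRange_stable 𝓑H X hX)

/-- The projection `smoothFun X → smoothFun X / X`. -/
noncomputable def effψ : smoothFun (k := k) 𝓑H X →ₗ[k] effQ 𝓑H X hX :=
  (embRange 𝓑H X hX).mkQ

theorem effψ_equivariant (h : H) (b : smoothFun (k := k) 𝓑H X) :
    effψ 𝓑H X hX ((smoothFun (k := k) 𝓑H X).ρ h b) = (effQ 𝓑H X hX).ρ h (effψ 𝓑H X hX b) := rfl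

theorem effψ_surjective : Function.Surjective (effψ 𝓑H X hX) := Submodule.mkQ_surjective _

theorem eff_exact (b : smoothFun (k := k) 𝓑H X) :
    effψ 𝓑H X hX b = 0 ↔ ∃ a, emb 𝓑H X hX a = b := by
  show (embRange 𝓑H X hX).mkQ b = 0 ↔ _
  rw [Submodule.mkQ_apply, Submodule.Quotient.mk_eq_zero]
  rfl

theorem isDiscrete_effQ : IsDiscrete 𝓑H.sets (effQ 𝓑H X hX) :=
  isDiscrete_of_surjective (isLevelHom_id 𝓑H.sets) (effψ 𝓑H X hX)
    (effψ_equivariant 𝓑H X hX) (effψ_surjective 𝓑H X hX) (isDiscrete_smoothFun 𝓑H X)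

end Efface

/-! ### Shapiro's lemma -/

section Shapiro

variable (i : H →* G) (𝓑G : LevelBasis G) (𝓑H : LevelBasis H)
  (hcont : IsLevelHom i 𝓑H.sets 𝓑G.sets)
  (hind : ∀ V ∈ 𝓑H.sets, ∃ U ∈ 𝓑G.sets, U.comap i ≤ V)
  (X : Rep.{u} k H)

/-- The Shapiro map `H¹(𝓑G; Coind X) → H¹(𝓑H; X)`. -/
noncomputable def sh1 : H1 𝓑G (scoind (k := k) i 𝓑G X) →ₗ[k] H1 𝓑H X :=
  ppH1 i (ev i 𝓑G X) (ev_equivariant i 𝓑G X) hcont

/-- The Shapiro map `H²(𝓑G; Coind X) → H²(𝓑H; X)`. -/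
noncomputable def sh2 : H2 𝓑G (scoind (k := k) i 𝓑G X) →ₗ[k] H2 𝓑H X :=
  ppH2 i (ev i 𝓑G X) (ev_equivariant i 𝓑G X) hcont

variable (hX : IsDiscrete 𝓑H.sets X)

include hind hX in
theorem sh1_surjective : Function.Surjective (sh1 i 𝓑G 𝓑H hcont X) := by
  refine ppH1_surjective_of i hcont
    (scoindMap i 𝓑G (emb 𝓑H X hX) (emb_equivariant 𝓑H X hX))
    (scoindMap_equivariant i 𝓑G _ _)
    (scoindMap i 𝓑G (effψ 𝓑H X hX) (effψ_equivariant 𝓑H X hX))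
    (scoindMap_equivariant i 𝓑G _ _)
    (scoindMap_injective i 𝓑G _ _ (emb_injective 𝓑H X hX))
    (scoindMap_surjective i 𝓑G 𝓑H hind _ _ (isDiscrete_smoothFun 𝓑H X) (effψ_surjective 𝓑H X hX))
    (scoindMap_exact i 𝓑G _ _ (emb_injective 𝓑H X hX) _ _ (eff_exact 𝓑H X hX))
    (isDiscrete_scoind i 𝓑G _)
    (emb 𝓑H X hX) (emb_equivariant 𝓑H X hX) (effψ 𝓑H X hX) (effψ_equivariant 𝓑H X hX)
    (emb_injective 𝓑H X hX) (effψ_surjective 𝓑H X hX) (eff_exact 𝓑H X hX)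
    (isDiscrete_smoothFun 𝓑H X)
    (ev i 𝓑G X) (ev_equivariant i 𝓑G X) (ev i 𝓑G _) (ev_equivariant i 𝓑G _)
    (ev i 𝓑G _) (ev_equivariant i 𝓑G _) (fun _ => rfl) (fun _ => rfl)
    (fun _ h => smoothFun_acyclic₁ 𝓑H X h) ?_
  intro q hq
  exact ⟨constFun i 𝓑G _ q hq, constFun_mem_invariants i 𝓑G _ q hq, rfl⟩

include hind hX in
theorem sh1_injective : Function.Injective (sh1 i 𝓑G 𝓑H hcont X) := by
  refine ppH1_injective_of i hcont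
    (scoindMap i 𝓑G (emb 𝓑H X hX) (emb_equivariant 𝓑H X hX))
    (scoindMap_equivariant i 𝓑G _ _)
    (scoindMap i 𝓑G (effψ 𝓑H X hX) (effψ_equivariant 𝓑H X hX))
    (scoindMap_equivariant i 𝓑G _ _)
    (scoindMap_injective i 𝓑G _ _ (emb_injective 𝓑H X hX))
    (scoindMap_surjective i 𝓑G 𝓑H hind _ _ (isDiscrete_smoothFun 𝓑H X) (effψ_surjective 𝓑H X hX))
    (scoindMap_exact i 𝓑G _ _ (emb_injective 𝓑H X hX) _ _ (eff_exact 𝓑H X hX))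
    (isDiscrete_scoind i 𝓑G _)
    (emb 𝓑H X hX) (emb_equivariant 𝓑H X hX) (effψ 𝓑H X hX) (effψ_equivariant 𝓑H X hX)
    (emb_injective 𝓑H X hX) (effψ_surjective 𝓑H X hX) (eff_exact 𝓑H X hX)
    (isDiscrete_smoothFun 𝓑H X)
    (ev i 𝓑G X) (ev_equivariant i 𝓑G X) (ev i 𝓑G _) (ev_equivariant i 𝓑G _)
    (ev i 𝓑G _) (ev_equivariant i 𝓑G _) (fun _ => rfl) (fun _ => rfl)
    (fun _ h => scoind_smoothFun_acyclic₁ i 𝓑G 𝓑H hcont X h) ?_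
  rintro x hx ⟨y, hy, hyx⟩
  -- `x` is the constant function with value `ev x = ψ y`
  refine ⟨constFun i 𝓑G _ y hy, constFun_mem_invariants i 𝓑G _ y hy, ?_⟩
  rw [eq_constFun_of_mem_invariants i 𝓑G _ hx]
  refine Subtype.ext (funext fun g => ?_)
  exact hyx

include hind hX in
/-- **Shapiro's lemma in degree 1.** -/
theorem sh1_bijective : Function.Bijective (sh1 i 𝓑G 𝓑H hcont X) :=
  ⟨sh1_injective i 𝓑G 𝓑H hcont hind X hX, sh1_surjective i 𝓑G 𝓑H hcont hind X hX⟩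

include hind hX in
theorem sh2_surjective : Function.Surjective (sh2 i 𝓑G 𝓑H hcont X) := by
  refine ppH2_surjective_of i hcont
    (scoindMap i 𝓑G (emb 𝓑H X hX) (emb_equivariant 𝓑H X hX))
    (scoindMap_equivariant i 𝓑G _ _)
    (scoindMap i 𝓑G (effψ 𝓑H X hX) (effψ_equivariant 𝓑H X hX))
    (scoindMap_equivariant i 𝓑G _ _)
    (scoindMap_injective i 𝓑G _ _ (emb_injective 𝓑H X hX))
    (scoindMap_surjective i 𝓑G 𝓑H hind _ _ (isDiscrete_smoothFun 𝓑H X) (effψ_surjective 𝓑H X hX))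
    (scoindMap_exact i 𝓑G _ _ (emb_injective 𝓑H X hX) _ _ (eff_exact 𝓑H X hX))
    (isDiscrete_scoind i 𝓑G _)
    (emb 𝓑H X hX) (emb_equivariant 𝓑H X hX) (effψ 𝓑H X hX) (effψ_equivariant 𝓑H X hX)
    (emb_injective 𝓑H X hX) (effψ_surjective 𝓑H X hX) (eff_exact 𝓑H X hX)
    (isDiscrete_smoothFun 𝓑H X)
    (ev i 𝓑G X) (ev_equivariant i 𝓑G X) (ev i 𝓑G _) (ev_equivariant i 𝓑G _)
    (ev i 𝓑G _) (ev_equivariant i 𝓑G _) (fun _ => rfl) (fun _ => rfl)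
    (fun _ h => smoothFun_acyclic₂ 𝓑H X h)
    (sh1_surjective i 𝓑G 𝓑H hcont hind (effQ 𝓑H X hX) (isDiscrete_effQ 𝓑H X hX))

include hind hX in
theorem sh2_injective : Function.Injective (sh2 i 𝓑G 𝓑H hcont X) := by
  refine ppH2_injective_of i hcont
    (scoindMap i 𝓑G (emb 𝓑H X hX) (emb_equivariant 𝓑H X hX))
    (scoindMap_equivariant i 𝓑G _ _)
    (scoindMap i 𝓑G (effψ 𝓑H X hX) (effψ_equivariant 𝓑H X hX))
    (scoindMap_equivariant i 𝓑G _ _)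
    (scoindMap_injective i 𝓑G _ _ (emb_injective 𝓑H X hX))
    (scoindMap_surjective i 𝓑G 𝓑H hind _ _ (isDiscrete_smoothFun 𝓑H X) (effψ_surjective 𝓑H X hX))
    (scoindMap_exact i 𝓑G _ _ (emb_injective 𝓑H X hX) _ _ (eff_exact 𝓑H X hX))
    (isDiscrete_scoind i 𝓑G _)
    (emb 𝓑H X hX) (emb_equivariant 𝓑H X hX) (effψ 𝓑H X hX) (effψ_equivariant 𝓑H X hX)
    (emb_injective 𝓑H X hX) (effψ_surjective 𝓑H X hX) (eff_exact 𝓑H X hX)
    (isDiscrete_smoothFun 𝓑H X)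
    (ev i 𝓑G X) (ev_equivariant i 𝓑G X) (ev i 𝓑G _) (ev_equivariant i 𝓑G _)
    (ev i 𝓑G _) (ev_equivariant i 𝓑G _) (fun _ => rfl) (fun _ => rfl)
    (fun _ h => scoind_smoothFun_acyclic₂ i 𝓑G 𝓑H hcont X h)
    (fun _ h => smoothFun_acyclic₁ 𝓑H X h)
    (sh1_injective i 𝓑G 𝓑H hcont hind (effQ 𝓑H X hX) (isDiscrete_effQ 𝓑H X hX))

include hind hX in
/-- **Shapiro's lemma in degree 2.** -/
theorem sh2_bijective : Function.Bijective (sh2 i 𝓑G 𝓑H hcont X) :=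
  ⟨sh2_injective i 𝓑G 𝓑H hcont hind X hX, sh2_surjective i 𝓑G 𝓑H hcont hind X hX⟩

/-- Shapiro's isomorphism in degree 1. -/
noncomputable def sh1Equiv (hX : IsDiscrete 𝓑H.sets X) :
    H1 𝓑G (scoind (k := k) i 𝓑G X) ≃ₗ[k] H1 𝓑H X :=
  LinearEquiv.ofBijective _ (sh1_bijective i 𝓑G 𝓑H hcont hind X hX)

/-- Shapiro's isomorphism in degree 2. -/
noncomputable def sh2Equiv (hX : IsDiscrete 𝓑H.sets X) :
    H2 𝓑G (scoind (k := k) i 𝓑G X) ≃ₗ[k] H2 𝓑H X :=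
  LinearEquiv.ofBijective _ (sh2_bijective i 𝓑G 𝓑H hcont hind X hX)

@[simp] theorem sh1_mk (c : ↥(Z1 𝓑G (scoind (k := k) i 𝓑G X))) :
    sh1 i 𝓑G 𝓑H hcont X (H1mk 𝓑G _ c) =
      H1mk 𝓑H X (ppZ1 i (ev i 𝓑G X) (ev_equivariant i 𝓑G X) hcont c) := rfl

@[simp] theorem sh2_mk (c : ↥(Z2 𝓑G (scoind (k := k) i 𝓑G X))) :
    sh2 i 𝓑G 𝓑H hcont X (H2mk 𝓑G _ c) =
      H2mk 𝓑H X (ppZ2 i (ev i 𝓑G X) (ev_equivariant i 𝓑G X) hcont c) := rfl

/-- Naturality of the Shapiro map in the coefficients, degree 1. -/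
theorem sh1_natural {Y : Rep.{u} k H} (φ : X →ₗ[k] Y) (hφ : ∀ h x, φ (X.ρ h x) = Y.ρ h (φ x))
    (x : H1 𝓑G (scoind (k := k) i 𝓑G X)) :
    sh1 i 𝓑G 𝓑H hcont Y
        (mapH1 (scoindMap i 𝓑G φ hφ) (scoindMap_equivariant i 𝓑G φ hφ) x) =
      mapH1 φ hφ (sh1 i 𝓑G 𝓑H hcont X x) :=
  ppH1_mapH1 i hcont (scoindMap i 𝓑G φ hφ) (scoindMap_equivariant i 𝓑G φ hφ) φ hφ
    (ev i 𝓑G X) (ev_equivariant i 𝓑G X) (ev i 𝓑G Y) (ev_equivariant i 𝓑G Y) (fun _ => rfl) x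

/-- Naturality of the Shapiro map in the coefficients, degree 2. -/
theorem sh2_natural {Y : Rep.{u} k H} (φ : X →ₗ[k] Y) (hφ : ∀ h x, φ (X.ρ h x) = Y.ρ h (φ x))
    (x : H2 𝓑G (scoind (k := k) i 𝓑G X)) :
    sh2 i 𝓑G 𝓑H hcont Y
        (mapH2 (scoindMap i 𝓑G φ hφ) (scoindMap_equivariant i 𝓑G φ hφ) x) =
      mapH2 φ hφ (sh2 i 𝓑G 𝓑H hcont X x) :=
  ppH2_mapH2 i hcont (scoindMap i 𝓑G φ hφ) (scoindMap_equivariant i 𝓑G φ hφ) φ hφ
    (ev i 𝓑G X) (ev_equivariant i 𝓑G X) (ev i 𝓑G Y) (ev_equivariant i 𝓑G Y) (fun _ => rfl) x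

end Shapiro

end Fermat.Agent.PT.PRO.ShapiroLevel28
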