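/-
Program F (S55), chapter PRO, helper13.

Dictionary between the level cohomology groups of `LevelCoh28` (`H1 𝓑 A`, `H2 𝓑 A` for
`A : Rep k₁ G`) and of `Resolved4` (`Hlev1 h𝒰 ρ hρ`, `Hlev2 h𝒰 ρ hρ` for a plain
`ρ : Representation k₂ G Y`), as ADDITIVE isomorphisms, allowing a change of the ring of scalars
(`k₁ = ZMod p` for the prelude objects, `k₂ = ℤ` in chapter PRO): for an additive equivariant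
isomorphism `e : A ≃+ Y`,

  `H1AddEquiv : H1 𝓑 A ≃+ Hlev1 h𝒰 ρ hρ`,   `H2AddEquiv : H2 𝓑 A ≃+ Hlev2 h𝒰 ρ hρ`,

both given by `c ↦ e ∘ c` on cocycles (`H1AddEquiv_mk`, `H2AddEquiv_mk`).
-/
import Mathlib
import Fermat.Agent.PT.PRO.HyperLevel25
import Fermat.Agent.PT.PRO.Resolved4
import Fermat.Agent.PT.PRO.LevelCoh28
import Fermat.Agent.PT.PRO.LevelCompare13

set_option autoImplicit false

universe u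

open CategoryTheory groupCohomology

namespace Fermat.Agent.PT.PRO.LevelDict13

open Function
open Fermat.Agent.PT.PRO
open Fermat.Agent.PT.PRO.LevelCoh28

variable {k₁ G : Type u} [CommRing k₁] [Group G] (𝓑 : LevelBasis G) (A : Rep.{u} k₁ G)
variable {k₂ : Type*} [CommRing k₂] {Y : Type*} [AddCommGroup Y] [Module k₂ Y]
  (ρ : Representation k₂ G Y)

section Raw

variable {A} {ρ}
variable {F : Type*} [FunLike F A Y] [AddMonoidHomClass F A Y] (e : F)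
  (he : ∀ g a, e (A.ρ g a) = ρ g (e a))

include he

theorem dZero_comp (a : A) : HyperLevel25.dZero ρ (e a) = ⇑e ∘ (d₀₁ A).hom a := by
  funext g
  simp only [HyperLevel25.dZero_apply, comp_apply, d₀₁_hom_apply, map_sub, he]

theorem dOne_comp (c : G → A) : HyperLevel25.dOne ρ (⇑e ∘ c) = ⇑e ∘ (d₁₂ A).hom c := by
  funext ⟨g, h⟩
  simp only [HyperLevel25.dOne_apply, comp_apply, d₁₂_hom_apply, map_sub, map_add, he]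

theorem dTwo_comp (c : G × G → A) : HyperLevel25.dTwo ρ (⇑e ∘ c) = ⇑e ∘ (d₂₃ A).hom c := by
  funext ⟨g, h, j⟩
  simp only [HyperLevel25.dTwo_apply, comp_apply, d₂₃_hom_apply, map_sub, map_add, he]

end Raw

variable (e : A ≃+ Y) (he : ∀ g a, e (A.ρ g a) = ρ g (e a))
  (h𝒰 : HyperLevel25.IsLevelBasis 𝓑.sets) (hρ : HyperLevel25.IsDiscrete 𝓑.sets ρ)

include he in
theorem symm_equivariant (g : G) (y : Y) : e.symm (ρ g y) = A.ρ g (e.symm y) := by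
  apply e.injective
  rw [he, e.apply_symm_apply, e.apply_symm_apply]

/-! ### Degree 1 -/

/-- `c ↦ e ∘ c` on level 1-cocycles. -/
def toZ1 : ↥(Z1 𝓑 A) →+ ↥(Resolved4.lvl h𝒰 ρ hρ).Z1 where
  toFun c := Resolved4.mkZ1 h𝒰 ρ hρ (⇑e ∘ (c : G → A)) (c.2.2.comp e) (by
    rw [dOne_comp e he, d₁₂_eq_zero_of_mem_Z1 𝓑 A c.2]
    funext q
    exact map_zero e)
  map_zero' := Subtype.ext (Subtype.ext (funext fun _ => map_zero e))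
  map_add' _ _ := Subtype.ext (Subtype.ext (funext fun _ => map_add e _ _))

theorem comp_symm_comp {X : Type*} (z : X → Y) : ⇑e ∘ (⇑e.symm ∘ z) = z := by
  funext x
  exact e.apply_symm_apply _

theorem symm_comp_comp {X : Type*} (c : X → A) : ⇑e.symm ∘ (⇑e ∘ c) = c := by
  funext x
  exact e.symm_apply_apply _

/-- `z ↦ e⁻¹ ∘ z` on level 1-cocycles. -/
def fromZ1 : ↥(Resolved4.lvl h𝒰 ρ hρ).Z1 →+ ↥(Z1 𝓑 A) where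
  toFun z := ⟨⇑e.symm ∘ ((z : HyperLevel25.lev₁ k₂ h𝒰 Y) : G → Y), by
    refine mem_Z1_of 𝓑 A ?_ (HyperLevel25.IsLevel₁.comp z.1.2 e.symm)
    have h0 := (Resolved4.mem_lvl_Z1_iff h𝒰 ρ hρ z.1).1 z.2
    have h1 := dOne_comp e he (⇑e.symm ∘ ((z : HyperLevel25.lev₁ k₂ h𝒰 Y) : G → Y))
    rw [comp_symm_comp, h0] at h1
    funext q
    apply e.injective
    rw [Pi.zero_apply, map_zero]
    exact (congrFun h1 q).symm⟩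
  map_zero' := Subtype.ext (funext fun _ => map_zero e.symm)
  map_add' _ _ := Subtype.ext (funext fun _ => map_add e.symm _ _)

@[simp] theorem coe_toZ1 (c : ↥(Z1 𝓑 A)) :
    (((toZ1 𝓑 A ρ e he h𝒰 hρ c : (Resolved4.lvl h𝒰 ρ hρ).Z1) : HyperLevel25.lev₁ k₂ h𝒰 Y) : G → Y) =
      ⇑e ∘ (c : G → A) := rfl

@[simp] theorem coe_fromZ1 (z : ↥(Resolved4.lvl h𝒰 ρ hρ).Z1) :
    ((fromZ1 𝓑 A ρ e he h𝒰 hρ z : ↥(Z1 𝓑 A)) : G → A) =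
      ⇑e.symm ∘ ((z : HyperLevel25.lev₁ k₂ h𝒰 Y) : G → Y) := rfl

theorem toZ1_mem_ker (c : ↥(Z1 𝓑 A))
    (hc : c ∈ ((coboundaries₁ A).comap (Z1 𝓑 A).subtype).toAddSubgroup) :
    (Resolved4.lvl h𝒰 ρ hρ).π1 (toZ1 𝓑 A ρ e he h𝒰 hρ c) = 0 := by
  obtain ⟨a, ha⟩ : (c : G → A) ∈ coboundaries₁ A := hc
  rw [Resolved4.π1_lvl_eq_zero_iff]
  exact ⟨e a, by rw [dZero_comp e he, coe_toZ1, ← ha]⟩

theorem fromZ1_mem_ker (z : ↥(Resolved4.lvl h𝒰 ρ hρ).Z1)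
    (hz : z ∈ (Resolved4.lvl h𝒰 ρ hρ).B1.toAddSubgroup) :
    H1mk 𝓑 A (fromZ1 𝓑 A ρ e he h𝒰 hρ z) = 0 := by
  obtain ⟨y, hy⟩ := ((Resolved4.lvl h𝒰 ρ hρ).mem_B1_iff z).1 hz
  rw [H1mk_eq_zero_iff]
  refine ⟨e.symm y, ?_⟩
  have h1 := dZero_comp e he (e.symm y)
  rw [e.apply_symm_apply] at h1
  have h2 : HyperLevel25.dZero ρ y = ((z : HyperLevel25.lev₁ k₂ h𝒰 Y) : G → Y) :=
    congrArg Subtype.val hy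
  rw [coe_fromZ1, ← h2, h1, symm_comp_comp]

/-- The map `H1 𝓑 A → Hlev1`. -/
noncomputable def H1Hom : H1 𝓑 A →+ Resolved4.Hlev1 h𝒰 ρ hρ :=
  QuotientAddGroup.lift ((coboundaries₁ A).comap (Z1 𝓑 A).subtype).toAddSubgroup
    ((Resolved4.lvl h𝒰 ρ hρ).π1.toAddMonoidHom.comp (toZ1 𝓑 A ρ e he h𝒰 hρ))
    (fun c hc => toZ1_mem_ker 𝓑 A ρ e he h𝒰 hρ c hc)

theorem H1Hom_mk (c : ↥(Z1 𝓑 A)) :
    H1Hom 𝓑 A ρ e he h𝒰 hρ (H1mk 𝓑 A c) =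
      (Resolved4.lvl h𝒰 ρ hρ).π1 (toZ1 𝓑 A ρ e he h𝒰 hρ c) := rfl

theorem toZ1_fromZ1 (z : ↥(Resolved4.lvl h𝒰 ρ hρ).Z1) :
    toZ1 𝓑 A ρ e he h𝒰 hρ (fromZ1 𝓑 A ρ e he h𝒰 hρ z) = z :=
  Subtype.ext (Subtype.ext (comp_symm_comp A e _))

theorem fromZ1_toZ1 (c : ↥(Z1 𝓑 A)) :
    fromZ1 𝓑 A ρ e he h𝒰 hρ (toZ1 𝓑 A ρ e he h𝒰 hρ c) = c :=
  Subtype.ext (symm_comp_comp A e _)

theorem H1Hom_bijective : Bijective (H1Hom 𝓑 A ρ e he h𝒰 hρ) := by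
  constructor
  · rw [injective_iff_map_eq_zero]
    intro x hx
    obtain ⟨c, rfl⟩ := H1mk_surjective 𝓑 A x
    rw [H1Hom_mk] at hx
    have := fromZ1_mem_ker 𝓑 A ρ e he h𝒰 hρ _
      ((Submodule.Quotient.mk_eq_zero _).1 hx)
    rwa [fromZ1_toZ1] at this
  · intro x
    obtain ⟨z, rfl⟩ := (Resolved4.lvl h𝒰 ρ hρ).π1_surjective x
    exact ⟨H1mk 𝓑 A (fromZ1 𝓑 A ρ e he h𝒰 hρ z), by rw [H1Hom_mk, toZ1_fromZ1]⟩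

/-- **Dictionary in degree 1.** -/
noncomputable def H1AddEquiv : H1 𝓑 A ≃+ Resolved4.Hlev1 h𝒰 ρ hρ :=
  AddEquiv.ofBijective (H1Hom 𝓑 A ρ e he h𝒰 hρ) (H1Hom_bijective 𝓑 A ρ e he h𝒰 hρ)

theorem H1AddEquiv_mk (c : ↥(Z1 𝓑 A)) :
    H1AddEquiv 𝓑 A ρ e he h𝒰 hρ (H1mk 𝓑 A c) =
      (Resolved4.lvl h𝒰 ρ hρ).π1 (toZ1 𝓑 A ρ e he h𝒰 hρ c) := rfl

theorem H1AddEquiv_symm_π1 (z : ↥(Resolved4.lvl h𝒰 ρ hρ).Z1) :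
    (H1AddEquiv 𝓑 A ρ e he h𝒰 hρ).symm ((Resolved4.lvl h𝒰 ρ hρ).π1 z) =
      H1mk 𝓑 A (fromZ1 𝓑 A ρ e he h𝒰 hρ z) := by
  rw [AddEquiv.symm_apply_eq, H1AddEquiv_mk, toZ1_fromZ1]

/-! ### Degree 2 -/

/-- `c ↦ e ∘ c` on level 2-cocycles. -/
def toZ2 : ↥(Z2 𝓑 A) →+ ↥(Resolved4.lvl h𝒰 ρ hρ).Z2 where
  toFun c := Resolved4.mkZ2 h𝒰 ρ hρ (⇑e ∘ (c : G × G → A))
    ((LevelCompare13.isLevel₂_iff _).1 (c.2.2.comp e)) (by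
    rw [dTwo_comp e he, d₂₃_eq_zero_of_mem_Z2 𝓑 A c.2]
    funext q
    exact map_zero e)
  map_zero' := Subtype.ext (Subtype.ext (funext fun _ => map_zero e))
  map_add' _ _ := Subtype.ext (Subtype.ext (funext fun _ => map_add e _ _))

/-- `z ↦ e⁻¹ ∘ z` on level 2-cocycles. -/
def fromZ2 : ↥(Resolved4.lvl h𝒰 ρ hρ).Z2 →+ ↥(Z2 𝓑 A) where
  toFun z := ⟨⇑e.symm ∘ ((z : HyperLevel25.lev₂ k₂ h𝒰 Y) : G × G → Y), by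
    refine mem_Z2_of 𝓑 A ?_
      ((LevelCompare13.isLevel₂_iff _).2 (HyperLevel25.IsLevel₂.comp z.1.2 e.symm))
    have h0 := (Resolved4.mem_lvl_Z2_iff h𝒰 ρ hρ z.1).1 z.2
    have h1 := dTwo_comp e he (⇑e.symm ∘ ((z : HyperLevel25.lev₂ k₂ h𝒰 Y) : G × G → Y))
    rw [comp_symm_comp, h0] at h1
    funext q
    apply e.injective
    rw [Pi.zero_apply, map_zero]
    exact (congrFun h1 q).symm⟩
  map_zero' := Subtype.ext (funext fun _ => map_zero e.symm)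
  map_add' _ _ := Subtype.ext (funext fun _ => map_add e.symm _ _)

@[simp] theorem coe_toZ2 (c : ↥(Z2 𝓑 A)) :
    (((toZ2 𝓑 A ρ e he h𝒰 hρ c : (Resolved4.lvl h𝒰 ρ hρ).Z2) : HyperLevel25.lev₂ k₂ h𝒰 Y) :
      G × G → Y) = ⇑e ∘ (c : G × G → A) := rfl

@[simp] theorem coe_fromZ2 (z : ↥(Resolved4.lvl h𝒰 ρ hρ).Z2) :
    ((fromZ2 𝓑 A ρ e he h𝒰 hρ z : ↥(Z2 𝓑 A)) : G × G → A) =
      ⇑e.symm ∘ ((z : HyperLevel25.lev₂ k₂ h𝒰 Y) : G × G → Y) := rfl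

theorem toZ2_fromZ2 (z : ↥(Resolved4.lvl h𝒰 ρ hρ).Z2) :
    toZ2 𝓑 A ρ e he h𝒰 hρ (fromZ2 𝓑 A ρ e he h𝒰 hρ z) = z :=
  Subtype.ext (Subtype.ext (comp_symm_comp A e _))

theorem fromZ2_toZ2 (c : ↥(Z2 𝓑 A)) :
    fromZ2 𝓑 A ρ e he h𝒰 hρ (toZ2 𝓑 A ρ e he h𝒰 hρ c) = c :=
  Subtype.ext (symm_comp_comp A e _)

theorem toZ2_mem_ker (c : ↥(Z2 𝓑 A))
    (hc : c ∈ ((B2 𝓑 A).comap (Z2 𝓑 A).subtype).toAddSubgroup) :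
    (Resolved4.lvl h𝒰 ρ hρ).π2 (toZ2 𝓑 A ρ e he h𝒰 hρ c) = 0 := by
  obtain ⟨x, hx, hxc⟩ := (mem_B2_iff 𝓑 A _).1 (show (c : G × G → A) ∈ B2 𝓑 A from hc)
  rw [Resolved4.π2_lvl_eq_zero_iff]
  exact ⟨⇑e ∘ x, hx.comp e, by rw [dOne_comp e he, coe_toZ2, ← hxc]⟩

theorem fromZ2_mem_ker (z : ↥(Resolved4.lvl h𝒰 ρ hρ).Z2)
    (hz : (Resolved4.lvl h𝒰 ρ hρ).π2 z = 0) :
    H2mk 𝓑 A (fromZ2 𝓑 A ρ e he h𝒰 hρ z) = 0 := by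
  obtain ⟨b, hb, hbz⟩ := (Resolved4.π2_lvl_eq_zero_iff h𝒰 ρ hρ z).1 hz
  rw [H2mk_eq_zero_iff, mem_B2_iff]
  refine ⟨⇑e.symm ∘ b, HyperLevel25.IsLevel₁.comp hb e.symm, ?_⟩
  have h1 := dOne_comp e he (⇑e.symm ∘ b)
  rw [comp_symm_comp, hbz] at h1
  rw [coe_fromZ2, h1, symm_comp_comp]

/-- The map `H2 𝓑 A → Hlev2`. -/
noncomputable def H2Hom : H2 𝓑 A →+ Resolved4.Hlev2 h𝒰 ρ hρ :=
  QuotientAddGroup.lift ((B2 𝓑 A).comap (Z2 𝓑 A).subtype).toAddSubgroup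
    ((Resolved4.lvl h𝒰 ρ hρ).π2.toAddMonoidHom.comp (toZ2 𝓑 A ρ e he h𝒰 hρ))
    (fun c hc => toZ2_mem_ker 𝓑 A ρ e he h𝒰 hρ c hc)

theorem H2Hom_mk (c : ↥(Z2 𝓑 A)) :
    H2Hom 𝓑 A ρ e he h𝒰 hρ (H2mk 𝓑 A c) =
      (Resolved4.lvl h𝒰 ρ hρ).π2 (toZ2 𝓑 A ρ e he h𝒰 hρ c) := rfl

theorem H2Hom_bijective : Bijective (H2Hom 𝓑 A ρ e he h𝒰 hρ) := by
  constructor
  · rw [injective_iff_map_eq_zero]
    intro x hx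
    obtain ⟨c, rfl⟩ := H2mk_surjective 𝓑 A x
    rw [H2Hom_mk] at hx
    have := fromZ2_mem_ker 𝓑 A ρ e he h𝒰 hρ _ hx
    rwa [fromZ2_toZ2] at this
  · intro x
    obtain ⟨z, rfl⟩ := (Resolved4.lvl h𝒰 ρ hρ).π2_surjective x
    exact ⟨H2mk 𝓑 A (fromZ2 𝓑 A ρ e he h𝒰 hρ z), by rw [H2Hom_mk, toZ2_fromZ2]⟩

/-- **Dictionary in degree 2.** -/
noncomputable def H2AddEquiv : H2 𝓑 A ≃+ Resolved4.Hlev2 h𝒰 ρ hρ :=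
  AddEquiv.ofBijective (H2Hom 𝓑 A ρ e he h𝒰 hρ) (H2Hom_bijective 𝓑 A ρ e he h𝒰 hρ)

theorem H2AddEquiv_mk (c : ↥(Z2 𝓑 A)) :
    H2AddEquiv 𝓑 A ρ e he h𝒰 hρ (H2mk 𝓑 A c) =
      (Resolved4.lvl h𝒰 ρ hρ).π2 (toZ2 𝓑 A ρ e he h𝒰 hρ c) := rfl

theorem H2AddEquiv_symm_π2 (z : ↥(Resolved4.lvl h𝒰 ρ hρ).Z2) :
    (H2AddEquiv 𝓑 A ρ e he h𝒰 hρ).symm ((Resolved4.lvl h𝒰 ρ hρ).π2 z) =
      H2mk 𝓑 A (fromZ2 𝓑 A ρ e he h𝒰 hρ z) := by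
  rw [AddEquiv.symm_apply_eq, H2AddEquiv_mk, toZ2_fromZ2]

end Fermat.Agent.PT.PRO.LevelDict13
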