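/-
Program F (S55, Poitou–Tate), chapter PRO, leaf (N2) (helper1).

`PairingRes1`: naturality of the `(1,1)` pairing `pair11 : ℍ¹(Y) × H¹(M) → H²(C)` of `ExtPairing4`
for a CHANGE OF GROUP `f : G' →* G` (restriction to an open subgroup, localisation `Γ_q → Γ`, ...).

* `lvlPHom` : the morphism of plain level complexes `lvl ρ → lvl ρ'` over `f` induced by a linear
  map `φ` with `φ (ρ (f g) y) = ρ' g (φ y)`; `resH1`, `resH2` the induced maps on level `H¹`, `H²`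
  (`[x] ↦ [φ ∘ x ∘ f]`, `[c] ↦ [φ ∘ c ∘ (f × f)]`);
* `ResolvedPHom f P P'` : a morphism of resolved modules over `f` (covariant);
* `PairingPHom hf B B'` : a morphism of pairing data over `f` (`a : PHom f Y Y'`, `b : P → P'`,
  `γ : C → C'`, all over `f`, with `β' (a y) (b p) = γ (β y p)`);
* `p11_res` (raw cochains) and
  `pair11_res : pair11 B' (a.ppℍ1 ξ) (resH1 bM x) = resH2 γ (pair11 B ξ x)`.
-/
import Mathlib
import Fermat.Agent.PT.PRO.HyperLevel25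
import Fermat.Agent.PT.PRO.HyperRes25
import Fermat.Agent.PT.PRO.Resolved4
import Fermat.Agent.PT.PRO.ExtPairing4
import Fermat.Agent.PT.PRO.ExtPairingB4

set_option autoImplicit false

namespace Fermat.Agent.PT.PRO.PairingRes1

open Function Fermat.Agent.PT.PRO.HyperLevel25 Fermat.Agent.PT.PRO.HyperRes25
  Fermat.Agent.PT.PRO.Resolved4 Fermat.Agent.PT.PRO.ExtPairing4

variable {k G G' : Type*} [CommRing k] [Group G] [Group G']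
variable {𝒰 : Set (Subgroup G)} {𝒰' : Set (Subgroup G')}

/-! ## Change of group for the plain level complex `lvl` -/

section Lvl

variable {f : G' →* G} {V V' : Type*} [AddCommGroup V] [Module k V] [AddCommGroup V'] [Module k V']

/-- Change of group for the level complex `Resolved4.lvl`: `c ↦ φ ∘ c ∘ f`. -/
def lvlPHom (hf : IsLevelHom f 𝒰' 𝒰) (h𝒰 : IsLevelBasis 𝒰) (h𝒰' : IsLevelBasis 𝒰')
    {ρ : Representation k G V} (hρ : IsDiscrete 𝒰 ρ) {ρ' : Representation k G' V'}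
    (hρ' : IsDiscrete 𝒰' ρ') (φ : V →ₗ[k] V') (hφ : ∀ g y, φ (ρ (f g) y) = ρ' g (φ y)) :
    Cpx.Hom (lvl h𝒰 ρ hρ) (lvl h𝒰' ρ' hρ') where
  m0 := φ
  m1 := ((φ.compLeft G').comp (LinearMap.funLeft k V ⇑f)).restrict
    (p := lev₁ k h𝒰 V) (q := lev₁ k h𝒰' V') (fun _ hc => (hf.isLevel₁ hc).comp _)
  m2 := ((φ.compLeft (G' × G')).comp (LinearMap.funLeft k V (Prod.map ⇑f ⇑f))).restrict
    (p := lev₂ k h𝒰 V) (q := lev₂ k h𝒰' V') (fun _ hc => (hf.isLevel₂ hc).comp _)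
  m3 := (φ.compLeft (G' × G' × G')).comp (LinearMap.funLeft k V (Prod.map ⇑f (Prod.map ⇑f ⇑f)))
  c0 y := Subtype.ext (dZero_precomp ρ ρ' φ hφ y).symm
  c1 c := Subtype.ext (dOne_precomp ρ ρ' φ hφ c.1).symm
  c2 c := (dTwo_precomp ρ ρ' φ hφ c.1).symm

variable (hf : IsLevelHom f 𝒰' 𝒰) (h𝒰 : IsLevelBasis 𝒰) (h𝒰' : IsLevelBasis 𝒰')
  {ρ : Representation k G V} (hρ : IsDiscrete 𝒰 ρ) {ρ' : Representation k G' V'}
  (hρ' : IsDiscrete 𝒰' ρ') (φ : V →ₗ[k] V') (hφ : ∀ g y, φ (ρ (f g) y) = ρ' g (φ y))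

/-- Change of group on level `H¹`: `[x] ↦ [φ ∘ x ∘ f]`. -/
def resH1 : Hlev1 h𝒰 ρ hρ →ₗ[k] Hlev1 h𝒰' ρ' hρ' := (lvlPHom hf h𝒰 h𝒰' hρ hρ' φ hφ).mapH1

/-- Change of group on level `H²`: `[c] ↦ [φ ∘ c ∘ (f × f)]`. -/
def resH2 : Hlev2 h𝒰 ρ hρ →ₗ[k] Hlev2 h𝒰' ρ' hρ' := (lvlPHom hf h𝒰 h𝒰' hρ hρ' φ hφ).mapH2

lemma resH1_cl1 (x : G → V) (hl : IsLevel₁ 𝒰 x) (hc : dOne ρ x = 0) :
    resH1 hf h𝒰 h𝒰' hρ hρ' φ hφ (cl1 h𝒰 ρ hρ x hl hc) =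
      cl1 h𝒰' ρ' hρ' (⇑φ ∘ x ∘ ⇑f) ((hf.isLevel₁ hl).comp _)
        (by rw [dOne_precomp ρ ρ' φ hφ, hc]; funext q; simp) := rfl

lemma resH2_cl2 (c : G × G → V) (hl : IsLevel₂ 𝒰 c) (hc : dTwo ρ c = 0) :
    resH2 hf h𝒰 h𝒰' hρ hρ' φ hφ (cl2 h𝒰 ρ hρ c hl hc) =
      cl2 h𝒰' ρ' hρ' (⇑φ ∘ c ∘ Prod.map ⇑f ⇑f) ((hf.isLevel₂ hl).comp _)
        (by rw [dTwo_precomp ρ ρ' φ hφ, hc]; funext q; simp) := rfl

end Lvl

/-! ## Morphisms of resolved modules and of pairing data over a group homomorphism -/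

section Res

variable {Y0 Y1 P1 P0 M C : Type*}
  [AddCommGroup Y0] [Module k Y0] [AddCommGroup Y1] [Module k Y1]
  [AddCommGroup P1] [Module k P1] [AddCommGroup P0] [Module k P0]
  [AddCommGroup M] [Module k M] [AddCommGroup C] [Module k C]
variable {Y0' Y1' P1' P0' M' C' : Type*}
  [AddCommGroup Y0'] [Module k Y0'] [AddCommGroup Y1'] [Module k Y1']
  [AddCommGroup P1'] [Module k P1'] [AddCommGroup P0'] [Module k P0']
  [AddCommGroup M'] [Module k M'] [AddCommGroup C'] [Module k C']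

/-- The restriction of a resolved module along a continuous group homomorphism. -/
def comapResolved (f : G' →* G) (hf : IsLevelHom f 𝒰' 𝒰) (P : Resolved k 𝒰 P1 P0 M) :
    Resolved k 𝒰' P1 P0 M where
  ρ1 := P.ρ1.comp f
  ρ0 := P.ρ0.comp f
  ρM := P.ρM.comp f
  ι := P.ι
  π := P.π
  ι_comm g x := P.ι_comm (f g) x
  π_comm g x := P.π_comm (f g) x
  ι_inj := P.ι_inj
  π_surj := P.π_surj
  exact := P.exact
  disc0 := hf.isDiscrete P.disc0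

/-- A morphism of resolved modules over `f : G' →* G` (covariant: from the `G`-object `P` to the
`G'`-object `P'`). -/
structure ResolvedPHom (f : G' →* G) (P : Resolved k 𝒰 P1 P0 M) (P' : Resolved k 𝒰' P1' P0' M')
    where
  φ1 : P1 →ₗ[k] P1'
  φ0 : P0 →ₗ[k] P0'
  φM : M →ₗ[k] M'
  comm0 : ∀ g x, φ0 (P.ρ0 (f g) x) = P'.ρ0 g (φ0 x)
  commι : ∀ x, φ0 (P.ι x) = P'.ι (φ1 x)
  commπ : ∀ x, φM (P.π x) = P'.π (φ0 x)

namespace ResolvedPHom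

variable {f : G' →* G} {P : Resolved k 𝒰 P1 P0 M} {P' : Resolved k 𝒰' P1' P0' M'}
  (b : ResolvedPHom f P P')

lemma comm1 (g : G') (x : P1) : b.φ1 (P.ρ1 (f g) x) = P'.ρ1 g (b.φ1 x) := by
  apply P'.ι_inj
  rw [← b.commι, P.ι_comm, b.comm0, P'.ι_comm, b.commι]

lemma commM (g : G') (m : M) : b.φM (P.ρM (f g) m) = P'.ρM g (b.φM m) := by
  obtain ⟨x, rfl⟩ := P.π_surj m
  rw [← P.π_comm, b.commπ, b.comm0, P'.π_comm, b.commπ]

/-- The restriction of a resolved module along `f`, as a morphism over `f` (identity maps). -/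
def ofComap (f : G' →* G) (hf : IsLevelHom f 𝒰' 𝒰) (P : Resolved k 𝒰 P1 P0 M) :
    ResolvedPHom f P (comapResolved f hf P) where
  φ1 := LinearMap.id
  φ0 := LinearMap.id
  φM := LinearMap.id
  comm0 _ _ := rfl
  commι _ := rfl
  commπ _ := rfl

end ResolvedPHom

variable {f : G' →* G} {Y : Cx k 𝒰 Y0 Y1} {P : Resolved k 𝒰 P1 P0 M} {ρC : Representation k G C}
variable {Y' : Cx k 𝒰' Y0' Y1'} {P' : Resolved k 𝒰' P1' P0' M'} {ρC' : Representation k G' C'}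

/-- Push a raw hyper-1-cocycle along a morphism of two-term complexes over `f`. -/
def hz1Res (hf : IsLevelHom f 𝒰' 𝒰) (a : PHom f Y Y') (ξ : HZ1 Y) : HZ1 Y' where
  c := ⇑a.φ0 ∘ ξ.c ∘ ⇑f
  e := a.φ1 ξ.e
  lev := (hf.isLevel₁ ξ.lev).comp _
  hc g h := by
    have h1 := congrFun (dOne_precomp Y.ρ0 Y'.ρ0 a.φ0 a.comm0 ξ.c) (g, h)
    rw [h1, Function.comp_apply, Function.comp_apply, Prod.map_apply, ξ.hc, map_zero]
  he g := by
    rw [Function.comp_apply, Function.comp_apply, ← a.commf, ξ.he, dZero_apply, dZero_apply,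
      map_sub, a.comm1]

lemma cls_hz1Res (hf : IsLevelHom f 𝒰' 𝒰) (h𝒰 : IsLevelBasis 𝒰) (h𝒰' : IsLevelBasis 𝒰')
    (a : PHom f Y Y') (ξ : HZ1 Y) :
    (hz1Res hf a ξ).cls h𝒰' = a.ppℍ1 hf h𝒰 h𝒰' (ξ.cls h𝒰) := rfl

/-- Push a lift along a morphism of resolved modules over `f`. -/
def lift1Res (hf : IsLevelHom f 𝒰' 𝒰) (b : ResolvedPHom f P P') (L : Lift1 P) : Lift1 P' where
  xt := ⇑b.φ0 ∘ L.xt ∘ ⇑f
  y' := ⇑b.φ1 ∘ L.y' ∘ Prod.map ⇑f ⇑f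
  lev := (hf.isLevel₁ L.lev).comp _
  hy g h := by
    have h1 := congrFun (dOne_precomp P.ρ0 P'.ρ0 b.φ0 b.comm0 L.xt) (g, h)
    rw [h1, Function.comp_apply, Function.comp_apply, Function.comp_apply, Function.comp_apply,
      Prod.map_apply, ← b.commι, L.hy]

lemma lifts_lift1Res (hf : IsLevelHom f 𝒰' 𝒰) (b : ResolvedPHom f P P') {L : Lift1 P} {x : G → M}
    (hL : L.Lifts x) : (lift1Res hf b L).Lifts (⇑b.φM ∘ x ∘ ⇑f) := fun g => by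
  show P'.π (b.φ0 (L.xt (f g))) = b.φM (x (f g))
  rw [← b.commπ, hL (f g)]

/-- A morphism of pairing data over `f : G' →* G`: everything is covariant (restriction). -/
structure PairingPHom (f : G' →* G) (B : Pairing Y P ρC) (B' : Pairing Y' P' ρC') where
  a : PHom f Y Y'
  b : ResolvedPHom f P P'
  γ : C →ₗ[k] C'
  hγ : ∀ g c, γ (ρC (f g) c) = ρC' g (γ c)
  h0 : ∀ y p, B'.β0 (a.φ0 y) (b.φ0 p) = γ (B.β0 y p)
  h1 : ∀ y p, B'.β1 (a.φ1 y) (b.φ1 p) = γ (B.β1 y p)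

variable {B : Pairing Y P ρC} {B' : Pairing Y' P' ρC'}

/-- Raw naturality of the `(1,1)` cochain for a change of group. -/
lemma p11_res (hf : IsLevelHom f 𝒰' 𝒰) (F : PairingPHom f B B') (ξ : HZ1 Y) (L : Lift1 P) :
    B'.p11 (hz1Res hf F.a ξ).c (hz1Res hf F.a ξ).e (lift1Res hf F.b L).xt (lift1Res hf F.b L).y' =
      ⇑F.γ ∘ B.p11 ξ.c ξ.e L.xt L.y' ∘ Prod.map ⇑f ⇑f := by
  funext ⟨g, h⟩
  show B'.β0 (F.a.φ0 (ξ.c (f g))) (P'.ρ0 g (F.b.φ0 (L.xt (f h))))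
      + B'.β1 (F.a.φ1 ξ.e) (F.b.φ1 (L.y' (f g, f h)))
    = F.γ (B.β0 (ξ.c (f g)) (P.ρ0 (f g) (L.xt (f h))) + B.β1 ξ.e (L.y' (f g, f h)))
  rw [map_add, ← F.h0, ← F.h1, F.b.comm0]

variable (hf : IsLevelHom f 𝒰' 𝒰) (h𝒰 : IsLevelBasis 𝒰) (h𝒰' : IsLevelBasis 𝒰')
  (hC : IsDiscrete 𝒰 ρC) (hC' : IsDiscrete 𝒰' ρC')

/-- **(N2) Naturality of the `(1,1)` pairing for a change of group.** -/
theorem pair11_res (F : PairingPHom f B B') (ξ : Y.ℍ1 h𝒰) (x : Hlev1 h𝒰 P.ρM P.discM) :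
    pair11 B' h𝒰' hC' (F.a.ppℍ1 hf h𝒰 h𝒰' ξ)
        (resH1 hf h𝒰 h𝒰' P.discM P'.discM F.b.φM F.b.commM x) =
      resH2 hf h𝒰 h𝒰' hC hC' F.γ F.hγ (pair11 B h𝒰 hC ξ x) := by
  obtain ⟨ξ', rfl⟩ := HZ1.cls_surjective h𝒰 ξ
  obtain ⟨z, rfl⟩ := (lvl h𝒰 P.ρM P.discM).π1_surjective x
  obtain ⟨L, hL⟩ := Lift1.exists_lift (P := P) (fn1_level h𝒰 z) (fn1_cocycle h𝒰 z)
  rw [← cls_hz1Res hf h𝒰 h𝒰', pair11_mk B h𝒰 hC ξ' z L hL]
  unfold resH1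
  rw [Cpx.Hom.mapH1_π1,
    pair11_mk B' h𝒰' hC' (hz1Res hf F.a ξ') _ (lift1Res hf F.b L) (lifts_lift1Res hf F.b hL)]
  unfold cls11 cl2 resH2
  rw [Cpx.Hom.mapH2_π2]
  congr 1
  apply Subtype.ext
  apply Subtype.ext
  exact p11_res hf F ξ' L

/-! ## The instance used by the local–global comparison: `K(P; C) → K(P|_{G'}; C')` -/

section Eval

variable [Module.Finite k P0] [Module.Finite k P1]

/-- Post-composition with `γ : C → C'` (over `f`) as a morphism `K(P; C) → K(P|_{G'}; C')` over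
`f`. -/
def KPHom (P : Resolved k 𝒰 P1 P0 M) (γ : C →ₗ[k] C') (hγ : ∀ g c, γ (ρC (f g) c) = ρC' g (γ c)) :
    PHom f (P.K h𝒰 ρC hC) ((comapResolved f hf P).K h𝒰' ρC' hC') where
  φ0 := LinearMap.compRight k γ
  φ1 := LinearMap.compRight k γ
  comm0 g y := by
    ext x
    show γ (ρC (f g) (y (P.ρ0 (f g)⁻¹ x))) = ρC' g (γ (y (P.ρ0 (f g⁻¹) x)))
    rw [hγ, map_inv f g]
  comm1 g y := by
    ext x
    show γ (ρC (f g) (y (P.ρ1 (f g)⁻¹ x))) = ρC' g (γ (y (P.ρ1 (f g⁻¹) x)))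
    rw [hγ, map_inv f g]
  commf _ := rfl

/-- The morphism of evaluation pairings `K(P; C) × P → C` to `K(P|_{G'}; C') × P|_{G'} → C'`. -/
def evalPairingPHom (P : Resolved k 𝒰 P1 P0 M) (γ : C →ₗ[k] C')
    (hγ : ∀ g c, γ (ρC (f g) c) = ρC' g (γ c)) :
    PairingPHom f (ExtPairingB4.evalPairing P h𝒰 ρC hC)
      (ExtPairingB4.evalPairing (comapResolved f hf P) h𝒰' ρC' hC') where
  a := KPHom hf h𝒰 h𝒰' hC hC' P γ hγ
  b := ResolvedPHom.ofComap f hf P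
  γ := γ
  hγ := hγ
  h0 _ _ := rfl
  h1 _ _ := rfl

/-- **(N2)** for the evaluation pairing: with `Λ¹ := (KPHom γ).ppℍ1`, `res := resH1 id`,
`Λ² := resH2 γ`:  `⟨Λ¹ ξ, res x⟩ = Λ² ⟨ξ, x⟩`. -/
theorem pair11_res_eval (P : Resolved k 𝒰 P1 P0 M) (γ : C →ₗ[k] C')
    (hγ : ∀ g c, γ (ρC (f g) c) = ρC' g (γ c))
    (ξ : (P.K h𝒰 ρC hC).ℍ1 h𝒰) (x : Hlev1 h𝒰 P.ρM P.discM) :
    pair11 (ExtPairingB4.evalPairing (comapResolved f hf P) h𝒰' ρC' hC') h𝒰' hC'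
        ((KPHom hf h𝒰 h𝒰' hC hC' P γ hγ).ppℍ1 hf h𝒰 h𝒰' ξ)
        (resH1 hf h𝒰 h𝒰' P.discM (comapResolved f hf P).discM LinearMap.id (fun _ _ => rfl) x) =
      resH2 hf h𝒰 h𝒰' hC hC' γ hγ
        (pair11 (ExtPairingB4.evalPairing P h𝒰 ρC hC) h𝒰 hC ξ x) :=
  pair11_res hf h𝒰 h𝒰' hC hC' (evalPairingPHom hf h𝒰 h𝒰' hC hC' P γ hγ) ξ x

end Eval

end Res

end Fermat.Agent.PT.PRO.PairingRes1
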