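/-
Program F (S55, Poitou–Tate), chapter PRO, leaf (N2), corollary on helper20's common objects
(helper1).

For a raw resolution `R : IndRes20.Res k G P1 P0 M` with discrete `P₀`, a continuous group
homomorphism `f : G' →* G` and a coefficient map `ε : X → W` over `f`:

* `resM`  : `H¹_lev(G; M) → H¹_lev(G'; M)`, `[x] ↦ [x ∘ f]`;
* `resX`  : `H²_lev(G; X) → H²_lev(G'; W)`, `[φ] ↦ [ε ∘ φ ∘ (f × f)]`;
* `pair11_KXPHom` : `⟨Λ¹ ξ, resM x⟩ = resX ⟨ξ, x⟩` with `Λ¹ = (Objects20.KXPHom ..).ppℍ1`.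
-/
import Mathlib
import Fermat.Agent.PT.PRO.PairingRes1
import Fermat.Agent.PT.PRO.Objects20

set_option autoImplicit false

namespace Fermat.Agent.PT.PRO.PairingResObj1

open Fermat.Agent.PT.PRO.HyperLevel25 Fermat.Agent.PT.PRO.Resolved4
  Fermat.Agent.PT.PRO.ExtPairing4 Fermat.Agent.PT.PRO.ExtPairingB4 Fermat.Agent.PT.PRO.IndRes20
  Fermat.Agent.PT.PRO.HyperRes25 Fermat.Agent.PT.PRO.Setup20 Fermat.Agent.PT.PRO.Objects20
  Fermat.Agent.PT.PRO.PairingRes1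

variable {k G G' : Type*} [CommRing k] [Group G] [Group G']
  {𝒰 : Set (Subgroup G)} {𝒰' : Set (Subgroup G')}
variable {P1 P0 M X W : Type*} [AddCommGroup P1] [Module k P1] [AddCommGroup P0] [Module k P0]
  [AddCommGroup M] [Module k M] [AddCommGroup X] [Module k X] [AddCommGroup W] [Module k W]

variable (R : Res k G P1 P0 M) (h0 : IsDiscrete 𝒰 R.ρ0)
  (h𝒰 : IsLevelBasis 𝒰) (h𝒰' : IsLevelBasis 𝒰') (f : G' →* G) (hf : IsLevelHom f 𝒰' 𝒰)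

/-- The two restrictions of a raw resolution agree (definitionally). -/
lemma toResolved_comap :
    toResolved (R.comap f) (comap_disc0 R h0 f hf) = comapResolved f hf (toResolved R h0) := rfl

/-- Restriction `H¹_lev(G; M) → H¹_lev(G'; M)`, `[x] ↦ [x ∘ f]`. -/
def resM :
    Hlev1 h𝒰 (toResolved R h0).ρM (toResolved R h0).discM →ₗ[k]
      Hlev1 h𝒰' (toResolved (R.comap f) (comap_disc0 R h0 f hf)).ρM
        (toResolved (R.comap f) (comap_disc0 R h0 f hf)).discM :=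
  resH1 hf h𝒰 h𝒰' (toResolved R h0).discM
    (toResolved (R.comap f) (comap_disc0 R h0 f hf)).discM LinearMap.id (fun _ _ => rfl)

lemma resM_cl1 (x : G → M) (hl : IsLevel₁ 𝒰 x) (hc : dOne R.ρM x = 0) :
    resM R h0 h𝒰 h𝒰' f hf (cl1 h𝒰 (toResolved R h0).ρM (toResolved R h0).discM x hl hc) =
      cl1 h𝒰' (toResolved (R.comap f) (comap_disc0 R h0 f hf)).ρM
        (toResolved (R.comap f) (comap_disc0 R h0 f hf)).discM (x ∘ ⇑f) (hf.isLevel₁ hl)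
        (by
          have := dOne_precomp R.ρM (R.ρM.comp f) LinearMap.id (fun _ _ => rfl) x
          simp only [LinearMap.id_coe, Function.id_comp] at this
          rw [show dOne (toResolved (R.comap f) (comap_disc0 R h0 f hf)).ρM (x ∘ ⇑f)
            = dOne (R.ρM.comp f) (x ∘ ⇑f) from rfl, this, hc]
          rfl) := rfl

variable {ρX : Representation k G X} (hX : IsDiscrete 𝒰 ρX)
  {ρW : Representation k G' W} (hW : IsDiscrete 𝒰' ρW)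

/-- Restriction with coefficient map `H²_lev(G; X) → H²_lev(G'; W)`, `[φ] ↦ [ε ∘ φ ∘ (f × f)]`. -/
def resX (ε : X →ₗ[k] W) (hε : ∀ g x, ε (ρX (f g) x) = ρW g (ε x)) :
    Hlev2 h𝒰 ρX hX →ₗ[k] Hlev2 h𝒰' ρW hW :=
  resH2 hf h𝒰 h𝒰' hX hW ε hε

lemma resX_cl2 (ε : X →ₗ[k] W) (hε : ∀ g x, ε (ρX (f g) x) = ρW g (ε x))
    (c : G × G → X) (hl : IsLevel₂ 𝒰 c) (hc : dTwo ρX c = 0) :
    resX h𝒰 h𝒰' f hf hX hW ε hε (cl2 h𝒰 ρX hX c hl hc) =
      cl2 h𝒰' ρW hW (⇑ε ∘ c ∘ Prod.map ⇑f ⇑f) ((hf.isLevel₂ hl).comp _)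
        (by rw [dTwo_precomp ρX ρW ε hε, hc]; funext q; simp) := rfl

variable [Module.Finite k P0] [Module.Finite k P1]

/-- **(N2) on the common objects**: `⟨Λ¹ ξ, resM x⟩ = resX ⟨ξ, x⟩` for
`Λ¹ = (KXPHom R h0 h𝒰 h𝒰' f hf hX hW ε hε).ppℍ1`. -/
theorem pair11_KXPHom (ε : X →ₗ[k] W) (hε : ∀ g x, ε (ρX (f g) x) = ρW g (ε x))
    (ξ : (KX R h0 h𝒰 ρX hX).ℍ1 h𝒰)
    (x : Hlev1 h𝒰 (toResolved R h0).ρM (toResolved R h0).discM) :
    pair11 (evP (R.comap f) (comap_disc0 R h0 f hf) h𝒰' ρW hW) h𝒰' hW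
        ((KXPHom R h0 h𝒰 h𝒰' f hf hX hW ε hε).ppℍ1 hf h𝒰 h𝒰' ξ) (resM R h0 h𝒰 h𝒰' f hf x) =
      resX h𝒰 h𝒰' f hf hX hW ε hε (pair11 (evP R h0 h𝒰 ρX hX) h𝒰 hX ξ x) :=
  pair11_res_eval hf h𝒰 h𝒰' hX hW (toResolved R h0) ε hε ξ x

end Fermat.Agent.PT.PRO.PairingResObj1
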