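/-
Program F (S55), chapter PRO, row 377 (InfLevel), helper13.

The inflation maps on level hypercohomology as `k`-linear maps (vocabulary of `HyperLevel25`):
for `Y'• = (Y•)^N` (`IsInvInclCx`) and inflation data `IsInfData 𝒰 𝒰' N`,

  `infℍ1 : ℍ¹(𝒰'; Y'•) →ₗ ℍ¹(𝒰; Y•)` is bijective and `infℍ2 : ℍ²(𝒰'; Y'•) →ₗ ℍ²(𝒰; Y•)` is
  injective, if `N` is normal and Hilbert 90 (`H90`) holds for `Y⁰`.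
-/
import Mathlib
import Fermat.Agent.PT.PRO.HyperLevel25
import Fermat.Agent.PT.PRO.InfLevel13

set_option autoImplicit false

namespace Fermat.Agent.PT.PRO.InfLevelMap13

open Function
open Fermat.Agent.PT.PRO.HyperLevel25 Fermat.Agent.PT.PRO.InfLevel13

variable {k G : Type*} [CommRing k] [Group G] {𝒰 𝒰' : Set (Subgroup G)} {N : Subgroup G}
variable {Y0 Y1 Y0' Y1' : Type*} [AddCommGroup Y0] [Module k Y0] [AddCommGroup Y1] [Module k Y1]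
  [AddCommGroup Y0'] [Module k Y0'] [AddCommGroup Y1'] [Module k Y1']

section Maps

variable (G) (ι0 : Y0' →ₗ[k] Y0) (ι1 : Y1' →ₗ[k] Y1)

/-- The map on total 1-cochains. -/
def map1 : (G → Y0') × Y1' →ₗ[k] (G → Y0) × Y1 := (ι0.compLeft G).prodMap ι1

/-- The map on total 2-cochains. -/
def map2 : (G × G → Y0') × (G → Y1') →ₗ[k] (G × G → Y0) × (G → Y1) :=
  (ι0.compLeft (G × G)).prodMap (ι1.compLeft G)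

/-- The map on total 3-cochains. -/
def map3 : (G × G × G → Y0') × (G × G → Y1') →ₗ[k] (G × G × G → Y0) × (G × G → Y1) :=
  (ι0.compLeft (G × G × G)).prodMap (ι1.compLeft (G × G))

omit [Group G] in
lemma map1_apply (x : (G → Y0') × Y1') : map1 G ι0 ι1 x = (⇑ι0 ∘ x.1, ι1 x.2) := rfl
omit [Group G] in
lemma map2_apply (x : (G × G → Y0') × (G → Y1')) :
    map2 G ι0 ι1 x = (⇑ι0 ∘ x.1, ⇑ι1 ∘ x.2) := rfl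
omit [Group G] in
lemma map3_apply (x : (G × G × G → Y0') × (G × G → Y1')) :
    map3 G ι0 ι1 x = (⇑ι0 ∘ x.1, ⇑ι1 ∘ x.2) := rfl

end Maps

variable {Y : Cx k 𝒰 Y0 Y1} {Y' : Cx k 𝒰' Y0' Y1'} {ι0 : Y0' →ₗ[k] Y0} {ι1 : Y1' →ₗ[k] Y1}

lemma map1_D0 (hι : IsInvInclCx N Y' Y ι0 ι1) (y : Y0') :
    map1 G ι0 ι1 (Y'.D0 y) = Y.D0 (ι0 y) := by
  rw [Cx.D0_apply, Cx.D0_apply, map1_apply]
  simp only [comp_dZero Y'.ρ0 Y.ρ0 ι0 hι.incl0.comm, hι.commf]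

lemma map2_D1 (hι : IsInvInclCx N Y' Y ι0 ι1) (x : (G → Y0') × Y1') :
    map2 G ι0 ι1 (Y'.D1 x) = Y.D1 (map1 G ι0 ι1 x) := by
  rw [Cx.D1_apply, Cx.D1_apply, map2_apply, map1_apply]
  refine Prod.ext (comp_dOne Y'.ρ0 Y.ρ0 ι0 hι.incl0.comm _) ?_
  funext g
  simp only [Function.comp_apply, Pi.sub_apply, map_sub, dZero_apply, hι.commf, hι.incl1.comm]

lemma map3_D2 (hι : IsInvInclCx N Y' Y ι0 ι1) (x : (G × G → Y0') × (G → Y1')) :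
    map3 G ι0 ι1 (Y'.D2 x) = Y.D2 (map2 G ι0 ι1 x) := by
  rw [Cx.D2_apply, Cx.D2_apply, map3_apply, map2_apply]
  refine Prod.ext (comp_dTwo Y'.ρ0 Y.ρ0 ι0 hι.incl0.comm _) ?_
  funext ⟨g, h⟩
  simp only [Function.comp_apply, Pi.sub_apply, map_sub, map_add, dOne_apply, hι.commf,
    hι.incl1.comm]

lemma map1_mem (hd : IsInfData 𝒰 𝒰' N) (h𝒰 : IsLevelBasis 𝒰) (h𝒰' : IsLevelBasis 𝒰')
    (x : (G → Y0') × Y1') (hx : x ∈ K1lev k h𝒰' Y0' Y1') :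
    map1 G ι0 ι1 x ∈ K1lev k h𝒰 Y0 Y1 :=
  (mem_K1lev h𝒰 _).2 (hd.isLevel₁ (((mem_K1lev h𝒰' _).1 hx).comp _))

lemma map2_mem (hd : IsInfData 𝒰 𝒰' N) (h𝒰 : IsLevelBasis 𝒰) (h𝒰' : IsLevelBasis 𝒰')
    (x : (G × G → Y0') × (G → Y1')) (hx : x ∈ K2lev k h𝒰' Y0' Y1') :
    map2 G ι0 ι1 x ∈ K2lev k h𝒰 Y0 Y1 :=
  (mem_K2lev h𝒰 _).2 ⟨hd.isLevel₂ (((mem_K2lev h𝒰' _).1 hx).1.comp _),
    hd.isLevel₁ (((mem_K2lev h𝒰' _).1 hx).2.comp _)⟩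

/-- The inflation morphism of level total complexes. -/
def infHom (hd : IsInfData 𝒰 𝒰' N) (hι : IsInvInclCx N Y' Y ι0 ι1) (h𝒰 : IsLevelBasis 𝒰)
    (h𝒰' : IsLevelBasis 𝒰') : Cpx.Hom (Y'.tot h𝒰') (Y.tot h𝒰) where
  m0 := ι0
  m1 := (map1 G ι0 ι1).restrict (map1_mem hd h𝒰 h𝒰')
  m2 := (map2 G ι0 ι1).restrict (map2_mem hd h𝒰 h𝒰')
  m3 := map3 G ι0 ι1
  c0 y := Subtype.ext (map1_D0 hι y)
  c1 x := Subtype.ext (map2_D1 hι x)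
  c2 x := map3_D2 hι x

/-- Inflation on `ℍ¹`. -/
def infℍ1 (hd : IsInfData 𝒰 𝒰' N) (hι : IsInvInclCx N Y' Y ι0 ι1) (h𝒰 : IsLevelBasis 𝒰)
    (h𝒰' : IsLevelBasis 𝒰') : Y'.ℍ1 h𝒰' →ₗ[k] Y.ℍ1 h𝒰 := (infHom hd hι h𝒰 h𝒰').mapH1

/-- Inflation on `ℍ²`. -/
def infℍ2 (hd : IsInfData 𝒰 𝒰' N) (hι : IsInvInclCx N Y' Y ι0 ι1) (h𝒰 : IsLevelBasis 𝒰)
    (h𝒰' : IsLevelBasis 𝒰') : Y'.ℍ2 h𝒰' →ₗ[k] Y.ℍ2 h𝒰 := (infHom hd hι h𝒰 h𝒰').mapH2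

variable (hd : IsInfData 𝒰 𝒰' N) (hι : IsInvInclCx N Y' Y ι0 ι1) (h𝒰 : IsLevelBasis 𝒰)
  (h𝒰' : IsLevelBasis 𝒰')

theorem infℍ1_π1 (z : (Y'.tot h𝒰').Z1) :
    infℍ1 hd hι h𝒰 h𝒰' ((Y'.tot h𝒰').π1 z) = (Y.tot h𝒰).π1 ((infHom hd hι h𝒰 h𝒰').mapZ1 z) := rfl

theorem infℍ2_π2 (z : (Y'.tot h𝒰').Z2) :
    infℍ2 hd hι h𝒰 h𝒰' ((Y'.tot h𝒰').π2 z) = (Y.tot h𝒰).π2 ((infHom hd hι h𝒰 h𝒰').mapZ2 z) := rfl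

/-- **Inflation is injective on `ℍ¹`.** -/
theorem infℍ1_injective : Injective (infℍ1 hd hι h𝒰 h𝒰') := by
  rw [← LinearMap.ker_eq_bot, LinearMap.ker_eq_bot']
  intro x hx
  obtain ⟨z, rfl⟩ := (Y'.tot h𝒰').π1_surjective x
  rw [infℍ1_π1, Cpx.π1_eq_zero_iff] at hx
  obtain ⟨y, hy⟩ := hx
  obtain ⟨⟨⟨c', e'⟩, hlev⟩, hz⟩ := z
  have hz' : dOne Y'.ρ0 c' = 0 ∧ ⇑Y'.f ∘ c' = dZero Y'.ρ1 e' := (Y'.mem_Z1_iff h𝒰' _).1 hz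
  have hlev' : IsLevel₁ 𝒰' c' := hlev
  have hy' : (Y.D0 y : (G → Y0) × Y1) = (⇑ι0 ∘ c', ι1 e') := congrArg Subtype.val hy
  rw [Cx.D0_apply, Prod.mk.injEq] at hy'
  obtain ⟨y', -, hc', he'⟩ := hyper₁_injective_raw hι
    (fun g n hn => hd.map_mul_right hlev' g hn) (map_one_of_dOne_eq_zero hz'.1) hy'.1.symm
    hy'.2.symm
  rw [Cpx.π1_eq_zero_iff]
  refine ⟨y', Subtype.ext ?_⟩
  show Y'.D0 y' = (c', e')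
  rw [Cx.D0_apply, hc', he']

/-- **Inflation is surjective on `ℍ¹`.** -/
theorem infℍ1_surjective [N.Normal] (h90 : H90 𝒰 N Y.ρ0) :
    Surjective (infℍ1 hd hι h𝒰 h𝒰') := by
  intro x
  obtain ⟨z, rfl⟩ := (Y.tot h𝒰).π1_surjective x
  obtain ⟨⟨⟨c, e⟩, hlev⟩, hz⟩ := z
  have hz' : dOne Y.ρ0 c = 0 ∧ ⇑Y.f ∘ c = dZero Y.ρ1 e := (Y.mem_Z1_iff h𝒰 _).1 hz
  have hlev' : IsLevel₁ 𝒰 c := hlev
  obtain ⟨c', e', y, hc', hd', hce', hc, he⟩ :=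
    hyper₁_surjective_raw hd h𝒰 hι h90 hlev' hz'.1 hz'.2
  let x' : K1lev k h𝒰' Y0' Y1' := ⟨(c', e'), hc'⟩
  have hx' : x' ∈ (Y'.tot h𝒰').Z1 := (Y'.mem_Z1_iff h𝒰' x').2 ⟨hd', hce'⟩
  refine ⟨(Y'.tot h𝒰').π1 ⟨x', hx'⟩, ?_⟩
  rw [infℍ1_π1, Cpx.π1_eq_iff]
  refine ⟨-y, Subtype.ext ?_⟩
  show Y.D0 (-y) = (⇑ι0 ∘ c', ι1 e') - (c, e)
  rw [Cx.D0_apply, hc, he, map_neg, map_neg]
  ext <;> simp

theorem infℍ1_bijective [N.Normal] (h90 : H90 𝒰 N Y.ρ0) :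
    Bijective (infℍ1 hd hι h𝒰 h𝒰') :=
  ⟨infℍ1_injective hd hι h𝒰 h𝒰', infℍ1_surjective hd hι h𝒰 h𝒰' h90⟩

/-- **Inflation is injective on `ℍ²`.** -/
theorem infℍ2_injective [N.Normal] (h90 : H90 𝒰 N Y.ρ0) :
    Injective (infℍ2 hd hι h𝒰 h𝒰') := by
  rw [← LinearMap.ker_eq_bot, LinearMap.ker_eq_bot']
  intro x hx
  obtain ⟨z, rfl⟩ := (Y'.tot h𝒰').π2_surjective x
  rw [infℍ2_π2, Cpx.π2_eq_zero_iff] at hx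
  obtain ⟨⟨⟨b, x₁⟩, hb⟩, hbx⟩ := hx
  obtain ⟨⟨⟨c', e'⟩, hlev⟩, hz⟩ := z
  have hz' : dTwo Y'.ρ0 c' = 0 ∧ ⇑Y'.f ∘ c' = dOne Y'.ρ1 e' := (Y'.mem_Z2_iff h𝒰' _).1 hz
  have hlev' : IsLevel₂ 𝒰' c' ∧ IsLevel₁ 𝒰' e' := hlev
  have hb' : IsLevel₁ 𝒰 b := hb
  have hbx' : (Y.D1 (b, x₁) : (G × G → Y0) × (G → Y1)) = (⇑ι0 ∘ c', ⇑ι1 ∘ e') :=
    congrArg Subtype.val hbx
  have hD1 : Y.D1 (b, x₁) = (dOne Y.ρ0 b, ⇑Y.f ∘ b - dZero Y.ρ1 x₁) := Cx.D1_apply Y (b, x₁)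
  rw [hD1, Prod.mk.injEq] at hbx'
  obtain ⟨b', x', hb'lev, hdb', hbe'⟩ := hyper₂_injective_raw hd h𝒰 hι h90 hlev'.1 hlev'.2
    hz'.1 hb' hbx'.1 hbx'.2
  rw [Cpx.π2_eq_zero_iff]
  refine ⟨⟨(b', x'), hb'lev⟩, Subtype.ext ?_⟩
  show Y'.D1 (b', x') = (c', e')
  have hD1' : Y'.D1 (b', x') = (dOne Y'.ρ0 b', ⇑Y'.f ∘ b' - dZero Y'.ρ1 x') :=
    Cx.D1_apply Y' (b', x')
  rw [hD1', hdb', hbe']

end Fermat.Agent.PT.PRO.InfLevelMap13
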