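/-
Program F (S55), chapter PRO, helper13.

Composition of a change-of-group morphism `b : PHom f Y Z'` (e.g. hyper-Shapiro) with an
inflation `Z' = Z^N → Z` (`InfLevelMap13.infℍ^r`): if `a : PHom f Y Z` has `a.φ_j = ι_j ∘ b.φ_j`
then `a.ppℍ^r = infℍ^r ∘ b.ppℍ^r`; hence

* `ppℍ1_surjective_of_inf` / `ppℍ1_bijective_of_inf` : `a.ppℍ1` is surjective / bijective if
  `b.ppℍ1` is (Hilbert 90 for `Z⁰`);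
* `ppℍ2_injective_of_inf` : `a.ppℍ2` is injective if `b.ppℍ2` is.
-/
import Mathlib
import Fermat.Agent.PT.PRO.HyperRes25
import Fermat.Agent.PT.PRO.InfLevelMap13

set_option autoImplicit false

namespace Fermat.Agent.PT.PRO.InfCompose13

open Function
open Fermat.Agent.PT.PRO.HyperLevel25 Fermat.Agent.PT.PRO.HyperRes25
open Fermat.Agent.PT.PRO.InfLevel13 Fermat.Agent.PT.PRO.InfLevelMap13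

variable {k G H : Type*} [CommRing k] [Group G] [Group H]
variable {𝒰G : Set (Subgroup G)} {𝒰 𝒰' : Set (Subgroup H)} {N : Subgroup H}
variable {Y0 Y1 Z0 Z1 Z0' Z1' : Type*}
  [AddCommGroup Y0] [Module k Y0] [AddCommGroup Y1] [Module k Y1]
  [AddCommGroup Z0] [Module k Z0] [AddCommGroup Z1] [Module k Z1]
  [AddCommGroup Z0'] [Module k Z0'] [AddCommGroup Z1'] [Module k Z1']
variable {f : H →* G} {Y : Cx k 𝒰G Y0 Y1} {Z : Cx k 𝒰 Z0 Z1} {Z' : Cx k 𝒰' Z0' Z1'}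
  {ι0 : Z0' →ₗ[k] Z0} {ι1 : Z1' →ₗ[k] Z1}
variable (a : PHom f Y Z) (b : PHom f Y Z')
  (h0 : ∀ y, a.φ0 y = ι0 (b.φ0 y)) (h1 : ∀ y, a.φ1 y = ι1 (b.φ1 y))
  (hfa : IsLevelHom f 𝒰 𝒰G) (hfb : IsLevelHom f 𝒰' 𝒰G)
  (h𝒰G : IsLevelBasis 𝒰G) (h𝒰 : IsLevelBasis 𝒰) (h𝒰' : IsLevelBasis 𝒰')
  (hd : IsInfData 𝒰 𝒰' N) (hι : IsInvInclCx N Z' Z ι0 ι1)

include h0 h1 in
/-- `a.ppℍ1 = infℍ1 ∘ b.ppℍ1`. -/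
theorem ppℍ1_eq_inf (x : Y.ℍ1 h𝒰G) :
    a.ppℍ1 hfa h𝒰G h𝒰 x = infℍ1 hd hι h𝒰 h𝒰' (b.ppℍ1 hfb h𝒰G h𝒰' x) := by
  obtain ⟨z, rfl⟩ := (Y.tot h𝒰G).π1_surjective x
  rw [PHom.ppℍ1_π1, PHom.ppℍ1_π1, infℍ1_π1]
  congr 1
  apply Subtype.ext
  apply Subtype.ext
  refine Prod.ext ?_ ?_
  · funext g
    exact h0 _
  · exact h1 _

include h0 h1 in
/-- `a.ppℍ2 = infℍ2 ∘ b.ppℍ2`. -/
theorem ppℍ2_eq_inf (x : Y.ℍ2 h𝒰G) :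
    a.ppℍ2 hfa h𝒰G h𝒰 x = infℍ2 hd hι h𝒰 h𝒰' (b.ppℍ2 hfb h𝒰G h𝒰' x) := by
  obtain ⟨z, rfl⟩ := (Y.tot h𝒰G).π2_surjective x
  rw [PHom.ppℍ2_π2, PHom.ppℍ2_π2, infℍ2_π2]
  congr 1
  apply Subtype.ext
  apply Subtype.ext
  refine Prod.ext ?_ ?_
  · funext g
    exact h0 _
  · funext g
    exact h1 _

include h0 h1 hd hι in
theorem ppℍ1_injective_of_inf (hb : Injective (b.ppℍ1 hfb h𝒰G h𝒰')) :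
    Injective (a.ppℍ1 hfa h𝒰G h𝒰) := by
  intro x x' hxx'
  rw [ppℍ1_eq_inf a b h0 h1 hfa hfb h𝒰G h𝒰 h𝒰' hd hι,
    ppℍ1_eq_inf a b h0 h1 hfa hfb h𝒰G h𝒰 h𝒰' hd hι] at hxx'
  exact hb (infℍ1_injective hd hι h𝒰 h𝒰' hxx')

include h0 h1 hd hι in
theorem ppℍ1_surjective_of_inf [N.Normal] (h90 : H90 𝒰 N Z.ρ0)
    (hb : Surjective (b.ppℍ1 hfb h𝒰G h𝒰')) : Surjective (a.ppℍ1 hfa h𝒰G h𝒰) := by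
  intro z
  obtain ⟨z', rfl⟩ := infℍ1_surjective hd hι h𝒰 h𝒰' h90 z
  obtain ⟨x, rfl⟩ := hb z'
  exact ⟨x, ppℍ1_eq_inf a b h0 h1 hfa hfb h𝒰G h𝒰 h𝒰' hd hι x⟩

include h0 h1 hd hι in
theorem ppℍ1_bijective_of_inf [N.Normal] (h90 : H90 𝒰 N Z.ρ0)
    (hb : Bijective (b.ppℍ1 hfb h𝒰G h𝒰')) : Bijective (a.ppℍ1 hfa h𝒰G h𝒰) :=
  ⟨ppℍ1_injective_of_inf a b h0 h1 hfa hfb h𝒰G h𝒰 h𝒰' hd hι hb.1,
    ppℍ1_surjective_of_inf a b h0 h1 hfa hfb h𝒰G h𝒰 h𝒰' hd hι h90 hb.2⟩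

include h0 h1 hd hι in
theorem ppℍ2_injective_of_inf [N.Normal] (h90 : H90 𝒰 N Z.ρ0)
    (hb : Injective (b.ppℍ2 hfb h𝒰G h𝒰')) : Injective (a.ppℍ2 hfa h𝒰G h𝒰) := by
  intro x x' hxx'
  rw [ppℍ2_eq_inf a b h0 h1 hfa hfb h𝒰G h𝒰 h𝒰' hd hι,
    ppℍ2_eq_inf a b h0 h1 hfa hfb h𝒰G h𝒰 h𝒰' hd hι] at hxx'
  exact hb (infℍ2_injective hd hι h𝒰 h𝒰' h90 hxx')

end Fermat.Agent.PT.PRO.InfCompose13
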