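/-
Program F (S55), chapter PRO, row 377 (InfLevel), helper13.

Inflation for the hypercohomology of `K(P; W) = [Hom(P₀, W) → Hom(P₁, W)]` (helper4's `Resolved4`):
the hypotheses of `InfLevel13.hyper₁_injective_raw / hyper₁_surjective_raw / hyper₂_injective_raw`
for `Y = K(P; W)`, `Y' = K(P; W')` follow from the corresponding facts for `W' → W`:

* `H90.linHom`: Hilbert 90 for `Hom(P, W)` from Hilbert 90 for `W`, if `P` is free and `N` acts
  trivially on `P`;
* `IsInvIncl.linHom`: `Hom(P, W') → Hom(P, W)` is the inclusion of the `N`-invariants;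
* `refineResolved`: a resolved module for the coarse basis `𝒰'` is one for the fine basis `𝒰`;
* `isInvInclCx_K`: `K(P; W') → K(P; W)` is the inclusion of the `N`-invariants.
-/
import Mathlib
import Fermat.Agent.PT.PRO.HyperLevel25
import Fermat.Agent.PT.PRO.Resolved4
import Fermat.Agent.PT.PRO.InfLevel13

set_option autoImplicit false

namespace Fermat.Agent.PT.PRO.InfLevelHom13

open Function
open Fermat.Agent.PT.PRO.HyperLevel25 Fermat.Agent.PT.PRO.Resolved4
open Fermat.Agent.PT.PRO.InfLevel13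

variable {k G : Type*} [CommRing k] [Group G] {𝒰 𝒰' : Set (Subgroup G)} {N : Subgroup G}
variable {W W' P : Type*} [AddCommGroup W] [Module k W] [AddCommGroup W'] [Module k W']
  [AddCommGroup P] [Module k P]
variable {ρ : Representation k G W} {ρ' : Representation k G W'} {ι : W' →ₗ[k] W}
  {ρP : Representation k G P}

/-- If `N` acts trivially on `P`, it acts on `Hom(P, W)` through `W`. -/
theorem linHom_apply_of_trivial (hP : ∀ n ∈ N, ρP n = 1) {n : G} (hn : n ∈ N) (φ : P →ₗ[k] W) :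
    Representation.linHom ρP ρ n φ = (ρ n).comp φ := by
  rw [Representation.linHom_apply, hP n⁻¹ (N.inv_mem hn)]
  rfl

/-- A discrete module for a basis all of whose members contain `N` has trivial `N`-action. -/
theorem eq_one_of_isDiscrete (hN : ∀ V' ∈ 𝒰', N ≤ V') (hP : IsDiscrete 𝒰' ρP) :
    ∀ n ∈ N, ρP n = 1 := by
  intro n hn
  ext x
  obtain ⟨V', hV', hfix⟩ := hP x
  rw [hfix n (hN V' hV' hn), Module.End.one_apply]

/-- **Hilbert 90 for `Hom(P, W)`**, `P` free with trivial `N`-action. -/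
theorem H90.linHom [Module.Free k P] (h : H90 𝒰 N ρ) (hP : ∀ n ∈ N, ρP n = 1) :
    H90 𝒰 N (Representation.linHom ρP ρ) := by
  intro c hc hcoc
  let b := Module.Free.chooseBasis k P
  have key : ∀ x : P, ∃ w : W, ∀ n ∈ N, c n x = ρ n w - w := by
    intro x
    refine h (fun g => c g x) (hc.comp (fun φ : P →ₗ[k] W => φ x)) ?_
    intro n hn n' hn'
    have := congrArg (fun φ : P →ₗ[k] W => φ x) (hcoc n hn n' hn')
    simp only [LinearMap.add_apply, linHom_apply_of_trivial hP hn, LinearMap.comp_apply] at this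
    exact this
  choose w hw using fun i => key (b i)
  refine ⟨b.constr k w, fun n hn => ?_⟩
  apply b.ext
  intro i
  rw [LinearMap.sub_apply, linHom_apply_of_trivial hP hn, LinearMap.comp_apply,
    Module.Basis.constr_basis, hw i n hn]

/-- `Hom(P, W') → Hom(P, W)` is the inclusion of the `N`-invariants, if `N` acts trivially on
`P`. -/
theorem IsInvIncl.linHom (hι : IsInvIncl N ρ' ρ ι) (hP : ∀ n ∈ N, ρP n = 1) :
    IsInvIncl N (Representation.linHom ρP ρ') (Representation.linHom ρP ρ)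
      (LinearMap.compRight k ι) where
  comm g φ := by
    ext x
    simp only [LinearMap.compRight_apply, Representation.linHom_apply, LinearMap.comp_apply,
      hι.comm]
  inj φ ψ h := by
    ext x
    exact hι.inj (LinearMap.congr_fun h x)
  fixed n hn φ := by
    rw [linHom_apply_of_trivial hP hn]
    ext x
    exact hι.fixed n hn (φ x)
  surj ψ hψ := by
    have hfix : ∀ x, ∀ n ∈ N, ρ n (ψ x) = ψ x := by
      intro x n hn
      have := LinearMap.congr_fun (hψ n hn) x
      rwa [linHom_apply_of_trivial hP hn] at this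
    have hrange : ∀ x, ψ x ∈ LinearMap.range ι := fun x => hι.surj _ (hfix x)
    let e := LinearEquiv.ofInjective ι hι.inj
    refine ⟨e.symm.toLinearMap.comp (ψ.codRestrict (LinearMap.range ι) hrange), ?_⟩
    ext x
    have := e.apply_symm_apply (ψ.codRestrict (LinearMap.range ι) hrange x)
    exact congrArg Subtype.val this

/-! ### Resolved modules -/

section Resolved

variable {P1 P0 M : Type*} [AddCommGroup P1] [Module k P1] [AddCommGroup P0] [Module k P0]
  [AddCommGroup M] [Module k M]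

/-- Discreteness for a coarse basis implies discreteness for a finer one. -/
theorem isDiscrete_of_le (hle : ∀ V' ∈ 𝒰', ∃ V ∈ 𝒰, V ≤ V') (hP : IsDiscrete 𝒰' ρP) :
    IsDiscrete 𝒰 ρP := by
  intro x
  obtain ⟨V', hV', hfix⟩ := hP x
  obtain ⟨V, hV, hVV'⟩ := hle V' hV'
  exact ⟨V, hV, fun s hs => hfix s (hVV' hs)⟩

/-- A resolved module for the coarse basis `𝒰'` is a resolved module for the fine basis `𝒰`. -/
def refineResolved (R : Resolved k 𝒰' P1 P0 M) (hle : ∀ V' ∈ 𝒰', ∃ V ∈ 𝒰, V ≤ V') :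
    Resolved k 𝒰 P1 P0 M where
  ρ1 := R.ρ1
  ρ0 := R.ρ0
  ρM := R.ρM
  ι := R.ι
  π := R.π
  ι_comm := R.ι_comm
  π_comm := R.π_comm
  ι_inj := R.ι_inj
  π_surj := R.π_surj
  exact := R.exact
  disc0 := isDiscrete_of_le hle R.disc0

variable [Module.Finite k P0] [Module.Finite k P1]

/-- **`K(P; W') → K(P; W)` is the inclusion of the `N`-invariants.** -/
theorem isInvInclCx_K (hd : IsInfData 𝒰 𝒰' N) (h𝒰 : IsLevelBasis 𝒰) (h𝒰' : IsLevelBasis 𝒰')
    (R : Resolved k 𝒰' P1 P0 M) (hι : IsInvIncl N ρ' ρ ι)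
    (hρ : IsDiscrete 𝒰 ρ) (hρ' : IsDiscrete 𝒰' ρ') :
    IsInvInclCx N (R.K h𝒰' ρ' hρ') ((refineResolved R hd.le).K h𝒰 ρ hρ)
      (LinearMap.compRight k ι) (LinearMap.compRight k ι) where
  incl0 := IsInvIncl.linHom hι (eq_one_of_isDiscrete hd.N_le R.disc0)
  incl1 := IsInvIncl.linHom hι (eq_one_of_isDiscrete hd.N_le R.disc1)
  commf y := by
    ext x
    rfl

/-- Hilbert 90 for the degree-0 term of `K(P; W)`. -/
theorem h90_K [Module.Free k P0] (hd : IsInfData 𝒰 𝒰' N) (h𝒰 : IsLevelBasis 𝒰)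
    (R : Resolved k 𝒰' P1 P0 M) (hρ : IsDiscrete 𝒰 ρ) (h90 : H90 𝒰 N ρ) :
    H90 𝒰 N ((refineResolved R hd.le).K h𝒰 ρ hρ).ρ0 :=
  H90.linHom h90 (eq_one_of_isDiscrete hd.N_le R.disc0)

end Resolved

end Fermat.Agent.PT.PRO.InfLevelHom13
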