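/-
Program F (S55, Poitou–Tate), chapter PRO, helper25.

`AssemblyAdd25`: the ADDITIVE version of `Assembly25.finrank_ker_eq_of_duality`.
All objects are plain abelian groups, duals are `(· →+ ZMod p)`, no `Module (ZMod p)` instance
appears in the statements, and the conclusion is an equality of cardinalities.

  P1 --a--> E1 --b--> H2 --c--> P2   exact at E1 and H2,      loc : H1 --> Q1,
  α : E1 → Hom(H1, 𝔽_p),  lam : P1 → Hom(Q1, 𝔽_p),  α (a x) = lam x ∘ loc,  H1 finite killed by p,
  ⟹  ker c is finite and #ker c = #ker loc,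
under any of the following hypotheses on `α`, `lam`:
* `card_ker_eq_of_duality`      : `α` bijective, `lam` surjective;
* `card_ker_eq_of_duality_weak` : `α` bijective, every character of `Q1` agrees on `range loc`
                                   with some `lam x`;
* `card_ker_eq_of_nondegenerate`: the pairing `E1 × H1 → 𝔽_p` has trivial left and right kernels,
                                   and the pairing `P1 × range loc → 𝔽_p` has trivial right kernel
                                   (the shape produced by `GlobalDuality20b.left_kernel/right_kernel`).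
No hypothesis on `P1, H2, P2, Q1` (they need not be finite nor killed by `p`).
-/
import Mathlib

set_option autoImplicit false

namespace Fermat.Agent.PT.PRO.AssemblyAdd25

open Function Module

variable (p : ℕ) [Fact p.Prime]

section Nondegenerate

variable {E H : Type*} [AddCommGroup E] [AddCommGroup H]

/-- Auxiliary form with a `ZMod p`-module structure on `H`. -/
theorem surjective_of_nondegenerate_aux [Finite H] [Module (ZMod p) H]
    (α : E →+ (H →+ ZMod p)) (hα : ∀ x : H, (∀ e, α e x = 0) → x = 0) : Surjective α := by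
  have : Module.Finite (ZMod p) H := Module.Finite.of_finite
  -- the image of α, as a subspace of the dual
  let S : Submodule (ZMod p) (Dual (ZMod p) H) :=
    { carrier := {φ | ∃ e, (α e).toZModLinearMap p = φ}
      add_mem' := by
        rintro _ _ ⟨e, rfl⟩ ⟨e', rfl⟩
        refine ⟨e + e', ?_⟩
        apply LinearMap.ext
        intro x
        show (α (e + e')) x = (α e) x + (α e') x
        rw [map_add]; rfl
      zero_mem' := ⟨0, by
        apply LinearMap.ext
        intro x
        show (α 0) x = 0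
        rw [map_zero]; rfl⟩
      smul_mem' := by
        rintro r _ ⟨e, rfl⟩
        refine ⟨r.val • e, ?_⟩
        apply LinearMap.ext
        intro x
        show (α (r.val • e)) x = r • (α e) x
        rw [map_nsmul, AddMonoidHom.nsmul_apply, nsmul_eq_mul, ZMod.natCast_zmod_val,
          smul_eq_mul] }
  have hco : S.dualCoannihilator = ⊥ := by
    rw [eq_bot_iff]
    intro x hx
    rw [Submodule.mem_dualCoannihilator] at hx
    rw [Submodule.mem_bot]
    exact hα x (fun e => hx _ ⟨e, rfl⟩)
  have hS : S = ⊤ := by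
    have h1 := Subspace.dualCoannihilator_dualAnnihilator_eq (W := S)
    rw [hco, Submodule.dualAnnihilator_bot] at h1
    exact h1.symm
  intro ψ
  have hmem : ψ.toZModLinearMap p ∈ S := by rw [hS]; trivial
  obtain ⟨e, he⟩ := hmem
  refine ⟨e, ?_⟩
  apply AddMonoidHom.ext
  intro x
  exact LinearMap.congr_fun he x

/-- An additive family of characters of a finite elementary abelian `p`-group with trivial common
kernel contains every character. -/
theorem surjective_of_nondegenerate [Finite H] (hH : ∀ x : H, p • x = 0)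
    (α : E →+ (H →+ ZMod p)) (hα : ∀ x : H, (∀ e, α e x = 0) → x = 0) : Surjective α := by
  let _ : Module (ZMod p) H := AddCommGroup.zmodModule hH
  exact surjective_of_nondegenerate_aux p α hα

end Nondegenerate

section Core

variable {E1 H2 H1 Q1 : Type*} [AddCommGroup E1] [AddCommGroup H2] [AddCommGroup H1]
  [AddCommGroup Q1]

/-- Auxiliary form of the core counting statement with `ZMod p`-module structures. -/
theorem card_range_eq_card_ker_aux [Finite H1] [Module (ZMod p) H1] [Module (ZMod p) Q1]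
    (b : E1 →+ H2) (loc : H1 →+ Q1)
    (α : E1 →+ (H1 →+ ZMod p)) (hα : Bijective α)
    (hker : ∀ e : E1, b e = 0 ↔ ∃ ψ : Q1 →+ ZMod p, α e = ψ.comp loc) :
    Finite b.range ∧ Nat.card b.range = Nat.card loc.ker := by
  have : Module.Finite (ZMod p) H1 := Module.Finite.of_finite
  set L : H1 →ₗ[ZMod p] Q1 := loc.toZModLinearMap p with hL
  -- the linearised duality map
  let αL : E1 → Dual (ZMod p) H1 := fun e => (α e).toZModLinearMap p
  have hαL : Bijective αL := by
    have h1 : Bijective (fun φ : H1 →+ ZMod p => φ.toZModLinearMap p) :=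
      ⟨AddMonoidHom.toZModLinearMap_injective p, fun g => ⟨g.toAddMonoidHom, rfl⟩⟩
    exact h1.comp hα
  set T : Submodule (ZMod p) (Dual (ZMod p) H1) :=
    LinearMap.range (LinearMap.dualMap L : Dual (ZMod p) Q1 →ₗ[ZMod p] Dual (ZMod p) H1) with hT
  have hclaim : ∀ e : E1, b e = 0 ↔ αL e ∈ T := by
    intro e
    rw [hker e]
    constructor
    · rintro ⟨ψ, hψ⟩
      refine ⟨ψ.toZModLinearMap p, ?_⟩
      apply LinearMap.ext
      intro x
      show ψ (loc x) = (α e) x
      rw [hψ]; rfl
    · rintro ⟨ψ', hψ'⟩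
      refine ⟨ψ'.toAddMonoidHom, ?_⟩
      apply AddMonoidHom.ext
      intro x
      have := LinearMap.congr_fun hψ' x
      exact this.symm
  have : Finite (Dual (ZMod p) H1) := Module.finite_of_finite (ZMod p)
  have : Finite E1 := Finite.of_injective αL hαL.1
  -- cardinalities
  have hcardE : Nat.card E1 = Nat.card (Dual (ZMod p) H1) := Nat.card_eq_of_bijective αL hαL
  have hcardK : Nat.card b.ker = Nat.card T := by
    refine Nat.card_eq_of_bijective (fun e : b.ker => (⟨αL e.1, (hclaim e.1).1 e.2⟩ : T)) ⟨?_, ?_⟩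
    · intro e e' hee
      apply Subtype.ext
      exact hαL.1 (congrArg Subtype.val hee)
    · rintro ⟨t, ht⟩
      obtain ⟨e, rfl⟩ := hαL.2 t
      exact ⟨⟨e, (hclaim e).2 ht⟩, rfl⟩
  have hlag : Nat.card E1 = Nat.card b.range * Nat.card b.ker := by
    rw [AddSubgroup.card_eq_card_quotient_mul_card_addSubgroup b.ker]
    congr 1
    exact Nat.card_congr (QuotientAddGroup.quotientKerEquivRange b).toEquiv
  have hfin : Finite b.range :=
    Finite.of_surjective (fun e : E1 => (⟨b e, ⟨e, rfl⟩⟩ : b.range))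
      (by rintro ⟨_, e, rfl⟩; exact ⟨e, rfl⟩)
  refine ⟨hfin, ?_⟩
  -- dimensions
  have hD : Nat.card (Dual (ZMod p) H1) = p ^ finrank (ZMod p) H1 := by
    rw [Module.natCard_eq_pow_finrank (K := ZMod p), Nat.card_zmod, Subspace.dual_finrank_eq]
  have hTc : Nat.card T = p ^ finrank (ZMod p) (LinearMap.range L) := by
    rw [Module.natCard_eq_pow_finrank (K := ZMod p), Nat.card_zmod, hT,
      LinearMap.finrank_range_dualMap_eq_finrank_range]
  have hKc : Nat.card (LinearMap.ker L) = p ^ finrank (ZMod p) (LinearMap.ker L) := by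
    rw [Module.natCard_eq_pow_finrank (K := ZMod p), Nat.card_zmod]
  have hrn := LinearMap.finrank_range_add_finrank_ker L
  have hkerL : Nat.card loc.ker = Nat.card (LinearMap.ker L) := rfl
  rw [hkerL, hKc]
  have hp : 0 < p ^ finrank (ZMod p) (LinearMap.range L) :=
    pow_pos (Fact.out : p.Prime).pos _
  apply Nat.eq_of_mul_eq_mul_right hp
  rw [← pow_add, add_comm, hrn, ← hTc, ← hcardK, ← hlag, hcardE, hD]

/-- Core counting statement, with the image of `a` described through `α`. -/
theorem card_range_eq_card_ker [Finite H1] (hH1 : ∀ x : H1, p • x = 0)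
    (hQ1 : ∀ x : Q1, p • x = 0) (b : E1 →+ H2) (loc : H1 →+ Q1)
    (α : E1 →+ (H1 →+ ZMod p)) (hα : Bijective α)
    (hker : ∀ e : E1, b e = 0 ↔ ∃ ψ : Q1 →+ ZMod p, α e = ψ.comp loc) :
    Finite b.range ∧ Nat.card b.range = Nat.card loc.ker := by
  let _ : Module (ZMod p) H1 := AddCommGroup.zmodModule hH1
  let _ : Module (ZMod p) Q1 := AddCommGroup.zmodModule hQ1
  exact card_range_eq_card_ker_aux p b loc α hα hker

end Core

section Main

variable {P1 E1 H2 P2 H1 Q1 : Type*} [AddCommGroup P1] [AddCommGroup E1] [AddCommGroup H2]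
  [AddCommGroup P2] [AddCommGroup H1] [AddCommGroup Q1]

/-- **Final assembly, additive form, weak hypothesis on `lam`**: every character of `Q1` agrees
on the image of `loc` with some `lam x`.  Exactness is stated elementwise. -/
theorem card_ker_eq_of_duality_weak [Finite H1] (hH1 : ∀ x : H1, p • x = 0)
    (a : P1 →+ E1) (b : E1 →+ H2) (c : H2 →+ P2)
    (hab : ∀ e : E1, b e = 0 ↔ ∃ x, a x = e) (hbc : ∀ h : H2, c h = 0 ↔ ∃ e, b e = h)
    (loc : H1 →+ Q1) (α : E1 →+ (H1 →+ ZMod p)) (hα : Bijective α)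
    (lam : P1 →+ (Q1 →+ ZMod p))
    (hlam : ∀ ψ : loc.range →+ ZMod p, ∃ x, ∀ h : H1, lam x (loc h) = ψ ⟨loc h, ⟨h, rfl⟩⟩)
    (hcomp : ∀ x, α (a x) = (lam x).comp loc) :
    Finite c.ker ∧ Nat.card c.ker = Nat.card loc.ker := by
  -- replace `Q1` by the image of `loc`
  have hW : ∀ w : loc.range, p • w = 0 := by
    rintro ⟨_, h, rfl⟩
    apply Subtype.ext
    show p • loc h = 0
    rw [← map_nsmul, hH1, map_zero]
  have hker : ∀ e : E1, b e = 0 ↔ ∃ ψ : loc.range →+ ZMod p, α e = ψ.comp loc.rangeRestrict := by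
    intro e
    rw [hab e]
    constructor
    · rintro ⟨x, rfl⟩
      refine ⟨(lam x).comp loc.range.subtype, ?_⟩
      rw [hcomp x]
      rfl
    · rintro ⟨ψ, hψ⟩
      obtain ⟨x, hx⟩ := hlam ψ
      refine ⟨x, hα.1 ?_⟩
      rw [hcomp x, hψ]
      apply AddMonoidHom.ext
      intro h
      exact hx h
  obtain ⟨hfin, hcard⟩ :=
    card_range_eq_card_ker p hH1 hW b loc.rangeRestrict α hα hker
  have hrange : c.ker = b.range := by
    ext h
    rw [AddMonoidHom.mem_ker, AddMonoidHom.mem_range]
    exact hbc h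
  have hkk : Nat.card loc.rangeRestrict.ker = Nat.card loc.ker := by
    refine Nat.card_congr (Equiv.subtypeEquivRight (fun h => ?_))
    rw [AddMonoidHom.mem_ker, AddMonoidHom.mem_ker, Subtype.ext_iff]
    rfl
  rw [hrange, ← hkk]
  exact ⟨hfin, hcard⟩

/-- **Final assembly, additive form**: `α` bijective, `lam` surjective. -/
theorem card_ker_eq_of_duality [Finite H1] (hH1 : ∀ x : H1, p • x = 0)
    (hQ1 : ∀ x : Q1, p • x = 0) (a : P1 →+ E1) (b : E1 →+ H2) (c : H2 →+ P2)
    (hab : ∀ e : E1, b e = 0 ↔ ∃ x, a x = e) (hbc : ∀ h : H2, c h = 0 ↔ ∃ e, b e = h)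
    (loc : H1 →+ Q1) (α : E1 →+ (H1 →+ ZMod p)) (hα : Bijective α)
    (lam : P1 →+ (Q1 →+ ZMod p)) (hlam : Surjective lam)
    (hcomp : ∀ x, α (a x) = (lam x).comp loc) :
    Finite c.ker ∧ Nat.card c.ker = Nat.card loc.ker := by
  have hker : ∀ e : E1, b e = 0 ↔ ∃ ψ : Q1 →+ ZMod p, α e = ψ.comp loc := by
    intro e
    rw [hab e]
    constructor
    · rintro ⟨x, rfl⟩
      exact ⟨lam x, hcomp x⟩
    · rintro ⟨ψ, hψ⟩
      obtain ⟨x, rfl⟩ := hlam ψ
      exact ⟨x, hα.1 ((hcomp x).trans hψ.symm)⟩
  obtain ⟨hfin, hcard⟩ := card_range_eq_card_ker p hH1 hQ1 b loc α hα hker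
  have hrange : c.ker = b.range := by
    ext h
    rw [AddMonoidHom.mem_ker, AddMonoidHom.mem_range]
    exact hbc h
  rw [hrange]
  exact ⟨hfin, hcard⟩

/-- Same with exactness as equalities of subgroups. -/
theorem card_ker_eq_of_duality' [Finite H1] (hH1 : ∀ x : H1, p • x = 0)
    (hQ1 : ∀ x : Q1, p • x = 0) (a : P1 →+ E1) (b : E1 →+ H2) (c : H2 →+ P2)
    (hab : a.range = b.ker) (hbc : b.range = c.ker)
    (loc : H1 →+ Q1) (α : E1 →+ (H1 →+ ZMod p)) (hα : Bijective α)
    (lam : P1 →+ (Q1 →+ ZMod p)) (hlam : Surjective lam)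
    (hcomp : ∀ x, α (a x) = (lam x).comp loc) :
    Finite c.ker ∧ Nat.card c.ker = Nat.card loc.ker := by
  refine card_ker_eq_of_duality p hH1 hQ1 a b c (fun e => ?_) (fun h => ?_) loc α hα lam hlam hcomp
  · rw [← AddMonoidHom.mem_ker, ← hab, AddMonoidHom.mem_range]
  · rw [← AddMonoidHom.mem_ker, ← hbc, AddMonoidHom.mem_range]

/-- **Final assembly, pairing form**: the global pairing `E1 × H1 → 𝔽_p` has trivial left kernel
(`hαl`) and trivial right kernel (`hαr`); the local pairing `P1 × Q1 → 𝔽_p` has trivial right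
kernel on the image of `loc` (`hlamr`).  No hypothesis on `P1, H2, P2, Q1`. -/
theorem card_ker_eq_of_nondegenerate [Finite H1] (hH1 : ∀ x : H1, p • x = 0)
    (a : P1 →+ E1) (b : E1 →+ H2) (c : H2 →+ P2)
    (hab : ∀ e : E1, b e = 0 ↔ ∃ x, a x = e) (hbc : ∀ h : H2, c h = 0 ↔ ∃ e, b e = h)
    (loc : H1 →+ Q1) (α : E1 →+ (H1 →+ ZMod p)) (hαl : Injective α)
    (hαr : ∀ x : H1, (∀ e, α e x = 0) → x = 0)
    (lam : P1 →+ (Q1 →+ ZMod p)) (hlamr : ∀ x : H1, (∀ y, lam y (loc x) = 0) → loc x = 0)
    (hcomp : ∀ x, α (a x) = (lam x).comp loc) :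
    Finite c.ker ∧ Nat.card c.ker = Nat.card loc.ker := by
  have hα : Bijective α := ⟨hαl, surjective_of_nondegenerate p hH1 α hαr⟩
  refine card_ker_eq_of_duality_weak p hH1 a b c hab hbc loc α hα lam ?_ hcomp
  -- the restricted local pairing `P1 × range loc → 𝔽_p`
  have hW : ∀ w : loc.range, p • w = 0 := by
    rintro ⟨_, h, rfl⟩
    apply Subtype.ext
    show p • loc h = 0
    rw [← map_nsmul, hH1, map_zero]
  have : Finite loc.range :=
    Finite.of_surjective (fun h : H1 => (⟨loc h, ⟨h, rfl⟩⟩ : loc.range))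
      (by rintro ⟨_, h, rfl⟩; exact ⟨h, rfl⟩)
  let lamW : P1 →+ (loc.range →+ ZMod p) :=
    { toFun := fun x => (lam x).comp loc.range.subtype
      map_zero' := by rw [map_zero]; rfl
      map_add' := fun x y => by rw [map_add]; rfl }
  have hsurj : Surjective lamW := by
    refine surjective_of_nondegenerate p hW lamW ?_
    rintro ⟨_, h, rfl⟩ hw
    apply Subtype.ext
    exact hlamr h (fun y => hw y)
  intro ψ
  obtain ⟨x, hx⟩ := hsurj ψ
  refine ⟨x, fun h => ?_⟩
  rw [← hx]
  rfl

end Main

end Fermat.Agent.PT.PRO.AssemblyAdd25
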