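/-
Program F (S55, Poitou–Tate), chapter PRO, helper20.

`AssemblyAnn20`: the final counting argument in ANNIHILATOR form (built on `AssemblyAdd25`).
No local pairing appears: the only local input is that the subgroup `K = ker(loc) ⊆ H¹` is exactly
the annihilator of the image of `P¹ → E¹` under the global pairing.

* `card_ker_eq_of_annihilator` : `#ker c = #K`;
* `finrank_eq_of_card_eq` : equal (finite) cardinality ⇒ equal `𝔽_p`-dimension;
* `finrank_ker_eq_of_annihilator` : the `ZMod p`-linear conclusion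
  `finrank (ker c) = finrank (ker loc)` + finite-dimensionality, in the shape of
  `ShaBridge13.s55_of_level`.
-/
import Mathlib
import Fermat.Agent.PT.PRO.AssemblyAdd25

set_option autoImplicit false

namespace Fermat.Agent.PT.PRO.AssemblyAnn20

open Function Fermat.Agent.PT.PRO.AssemblyAdd25

variable (p : ℕ) [Fact p.Prime]
variable {P1 E1 H2 P2 H1 : Type*} [AddCommGroup P1] [AddCommGroup E1] [AddCommGroup H2]
  [AddCommGroup P2] [AddCommGroup H1]

/-- **Final assembly, annihilator form.**  `P¹ -a→ E¹ -b→ H² -c→ P²` exact at `E¹` and `H²`; the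
pairing `α : E¹ × H¹ → 𝔽_p` has trivial left and right kernels, `H¹` finite and killed by `p`;
`K ⊆ H¹` is the annihilator of `a(P¹)`.  Then `#ker c = #K`. -/
theorem card_ker_eq_of_annihilator [Finite H1] (hH1 : ∀ x : H1, p • x = 0)
    (a : P1 →+ E1) (b : E1 →+ H2) (c : H2 →+ P2)
    (hab : ∀ e : E1, b e = 0 ↔ ∃ x, a x = e) (hbc : ∀ h : H2, c h = 0 ↔ ∃ e, b e = h)
    (K : AddSubgroup H1) (α : E1 →+ (H1 →+ ZMod p)) (hαl : Injective α)
    (hαr : ∀ x : H1, (∀ e, α e x = 0) → x = 0)
    (hK : ∀ h : H1, h ∈ K ↔ ∀ y : P1, α (a y) h = 0) :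
    Finite c.ker ∧ Nat.card c.ker = Nat.card K := by
  have hle : ∀ y : P1, K ≤ (α (a y)).ker := fun y h hh => (hK h).1 hh y
  let lam : P1 →+ ((H1 ⧸ K) →+ ZMod p) :=
    { toFun := fun y => QuotientAddGroup.lift K (α (a y)) (hle y)
      map_zero' := by
        ext x
        simp
      map_add' := fun y y' => by
        ext x
        simp }
  have h := card_ker_eq_of_nondegenerate p hH1 a b c hab hbc (QuotientAddGroup.mk' K) α hαl hαr
    lam (fun x hx => by
      have : x ∈ K := (hK x).2 (fun y => hx y)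
      exact (QuotientAddGroup.eq_zero_iff x).2 this)
    (fun x => by
      ext h
      rfl)
  rw [QuotientAddGroup.ker_mk'] at h
  exact h

/-- Two finite `𝔽_p`-vector spaces of the same cardinality have the same dimension. -/
theorem finrank_eq_of_card_eq {V W : Type*} [AddCommGroup V] [Module (ZMod p) V]
    [AddCommGroup W] [Module (ZMod p) W] [Finite V] [Finite W] (h : Nat.card V = Nat.card W) :
    Module.finrank (ZMod p) V = Module.finrank (ZMod p) W := by
  have hV := Module.natCard_eq_pow_finrank (K := ZMod p) (V := V)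
  have hW := Module.natCard_eq_pow_finrank (K := ZMod p) (V := W)
  rw [hV, hW, Nat.card_zmod] at h
  exact Nat.pow_right_injective (Fact.out : p.Prime).two_le h

/-- **Final assembly, linear conclusion.**  `H¹`, `H²` are `𝔽_p`-vector spaces, `c` and `loc` are
linear; `E¹`, `P¹` are just abelian groups. -/
theorem finrank_ker_eq_of_annihilator {P2' Q1 : Type*} [AddCommGroup P2'] [Module (ZMod p) P2']
    [AddCommGroup Q1] [Module (ZMod p) Q1] [Module (ZMod p) H1] [Module (ZMod p) H2] [Finite H1]
    (a : P1 →+ E1) (b : E1 →+ H2) (c : H2 →ₗ[ZMod p] P2') (loc : H1 →ₗ[ZMod p] Q1)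
    (hab : ∀ e : E1, b e = 0 ↔ ∃ x, a x = e) (hbc : ∀ h : H2, c h = 0 ↔ ∃ e, b e = h)
    (α : E1 →+ (H1 →+ ZMod p)) (hαl : Injective α)
    (hαr : ∀ x : H1, (∀ e, α e x = 0) → x = 0)
    (hK : ∀ h : H1, loc h = 0 ↔ ∀ y : P1, α (a y) h = 0) :
    FiniteDimensional (ZMod p) ↥(LinearMap.ker loc) ∧
      FiniteDimensional (ZMod p) ↥(LinearMap.ker c) ∧
      Module.finrank (ZMod p) ↥(LinearMap.ker loc) = Module.finrank (ZMod p) ↥(LinearMap.ker c) := by
  have hH1 : ∀ x : H1, p • x = 0 := fun x => by
    have : (p : ZMod p) • x = 0 := by rw [ZMod.natCast_self, zero_smul]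
    rwa [Nat.cast_smul_eq_nsmul] at this
  obtain ⟨hfin, hcard⟩ := card_ker_eq_of_annihilator p hH1 a b c.toAddMonoidHom hab hbc
    loc.toAddMonoidHom.ker α hαl hαr (fun h => by
      rw [AddMonoidHom.mem_ker]
      exact hK h)
  have hfinc : Finite ↥(LinearMap.ker c) := hfin
  have hfinl : Finite ↥(LinearMap.ker loc) := inferInstance
  refine ⟨Module.Finite.of_finite, Module.Finite.of_finite, ?_⟩
  exact (finrank_eq_of_card_eq p hcard).symm

end Fermat.Agent.PT.PRO.AssemblyAnn20
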