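/-
Program F (S55, Poitou–Tate), chapter PRO, helper20.

`HK20`: hypothesis `hK` of `AssemblyAnn20` for the honest pairings `pair11` (plan v4):
for a resolved module `P → A` over `(G, 𝒰)`, coefficient modules `I` (`= I_S`), `C` (`= C_S`),
`Iq q` (`= I_{S,q}`) over `G` and `W q` (`= ℚ̄_qˣ`) over the local groups `Gq q`,

  `(∀ q, res_q h = 0)  ↔  ∀ y ∈ ℍ¹(K(P; I)), ⟨t_* y, h⟩_C = 0`,

from naturality of `pair11` (`ExtPairingB4.pair11_natural`, `PairingRes1.pair11_res_eval`) and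
the inputs (P2), (S1), (S2), (LG), (RK).  (The chase is that of `LocalGlobal20.forall_res_eq_zero_iff`, done by hand here for elaboration speed.)
-/
import Mathlib
import Fermat.Agent.PT.PRO.PairingRes1
import Fermat.Agent.PT.PRO.DualityAdapter29

set_option autoImplicit false

namespace Fermat.Agent.PT.PRO.HK20

open Function
open Fermat.Agent.PT.PRO.HyperLevel25 Fermat.Agent.PT.PRO.Resolved4
open Fermat.Agent.PT.PRO.ExtPairing4 Fermat.Agent.PT.PRO.ExtPairingB4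
open Fermat.Agent.PT.PRO.HyperRes25 Fermat.Agent.PT.PRO.PairingRes1
open Fermat.Agent.PT.PRO.PerfectPairing29

variable {k G : Type*} [CommRing k] [Group G] {𝒰 : Set (Subgroup G)}
variable {P1 P0 A : Type*} [AddCommGroup P1] [Module k P1] [AddCommGroup P0] [Module k P0]
  [AddCommGroup A] [Module k A]

section Coef

variable {X X' : Type*} [AddCommGroup X] [Module k X] [AddCommGroup X'] [Module k X']
variable (P : Resolved k 𝒰 P1 P0 A) [Module.Finite k P0] [Module.Finite k P1]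
  (h𝒰 : IsLevelBasis 𝒰)
  {ρX : Representation k G X} (hX : IsDiscrete 𝒰 ρX)
  {ρX' : Representation k G X'} (hX' : IsDiscrete 𝒰 ρX')

/-- Functoriality of `K(P; X)` in `X`. -/
def coefHom (α : X →ₗ[k] X') (hα : ∀ g x, α (ρX g x) = ρX' g (α x)) :
    Cx.Hom (P.K h𝒰 ρX hX) (P.K h𝒰 ρX' hX') where
  φ0 := LinearMap.compRight k α
  φ1 := LinearMap.compRight k α
  comm0 g φ := by
    ext x
    simp only [LinearMap.compRight_apply, Resolved.K, Representation.linHom_apply,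
      LinearMap.comp_apply, hα]
  comm1 g φ := by
    ext x
    simp only [LinearMap.compRight_apply, Resolved.K, Representation.linHom_apply,
      LinearMap.comp_apply, hα]
  commf φ := by
    ext x
    rfl

/-- The identity morphism of a resolved module. -/
def idHom : Resolved.Hom P P where
  φ1 := LinearMap.id
  φ0 := LinearMap.id
  φM := LinearMap.id
  comm1 _ _ := rfl
  comm0 _ _ := rfl
  commι _ := rfl
  commπ _ := rfl

/-- The morphism of pairing data induced by a coefficient map. -/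
def coefPairingHom (α : X →ₗ[k] X') (hα : ∀ g x, α (ρX g x) = ρX' g (α x)) :
    PairingHom (evalPairing P h𝒰 ρX hX) (evalPairing P h𝒰 ρX' hX') where
  a := coefHom P h𝒰 hX hX' α hα
  b := idHom P
  γ := α
  hγ := hα
  h0 _ _ := rfl
  h1 _ _ := rfl

/-- **Naturality of `pair11` in the coefficients.** -/
theorem pair11_coefHom (α : X →ₗ[k] X') (hα : ∀ g x, α (ρX g x) = ρX' g (α x))
    (ξ : (P.K h𝒰 ρX hX).ℍ1 h𝒰) (x : Hlev1 h𝒰 P.ρM P.discM) :
    pair11 (evalPairing P h𝒰 ρX' hX') h𝒰 hX' ((coefHom P h𝒰 hX hX' α hα).mapℍ1 h𝒰 ξ) x =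
      (lvlHom h𝒰 hX hX' α hα).mapH2 (pair11 (evalPairing P h𝒰 ρX hX) h𝒰 hX ξ x) := by
  have h := pair11_natural h𝒰 hX hX' (coefPairingHom P h𝒰 hX hX' α hα) ξ x
  have hx : (lvlHom h𝒰 P.discM P.discM (coefPairingHom P h𝒰 hX hX' α hα).b.φM
      (coefPairingHom P h𝒰 hX hX' α hα).b.commM).mapH1 x = x := by
    obtain ⟨z, rfl⟩ := (lvl h𝒰 P.ρM P.discM).π1_surjective x
    rfl
  rw [hx] at h
  exact h

end Coef

section Main

variable {ι : Type*} {Gq : ι → Type*} [∀ q, Group (Gq q)] {𝒰q : ∀ q, Set (Subgroup (Gq q))}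
variable {I C : Type*} [AddCommGroup I] [Module k I] [AddCommGroup C] [Module k C]
variable {Iq W : ι → Type*} [∀ q, AddCommGroup (Iq q)] [∀ q, Module k (Iq q)]
  [∀ q, AddCommGroup (W q)] [∀ q, Module k (W q)]

variable (P : Resolved k 𝒰 P1 P0 A) [Module.Finite k P0] [Module.Finite k P1]
  (h𝒰 : IsLevelBasis 𝒰) (h𝒰q : ∀ q, IsLevelBasis (𝒰q q))
  (r : ∀ q, Gq q →* G) (hr : ∀ q, IsLevelHom (r q) (𝒰q q) 𝒰)
  {ρI : Representation k G I} (hI : IsDiscrete 𝒰 ρI)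
  {ρC : Representation k G C} (hC : IsDiscrete 𝒰 ρC)
  {ρIq : ∀ q, Representation k G (Iq q)} (hIq : ∀ q, IsDiscrete 𝒰 (ρIq q))
  {ρW : ∀ q, Representation k (Gq q) (W q)} (hW : ∀ q, IsDiscrete (𝒰q q) (ρW q))
  (t : I →ₗ[k] C) (ht : ∀ g x, t (ρI g x) = ρC g (t x))
  (inc : ∀ q, Iq q →ₗ[k] I) (hinc : ∀ q g x, inc q (ρIq q g x) = ρI g (inc q x))
  (prj : ∀ q, I →ₗ[k] Iq q) (hprj : ∀ q g x, prj q (ρI g x) = ρIq q g (prj q x))
  (ev : ∀ q, Iq q →ₗ[k] W q) (hev : ∀ q g x, ev q (ρIq q (r q g) x) = ρW q g (ev q x))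

/-- **Hypothesis `hK` of the final assembly.**  A class `h ∈ H¹(G; A)` is locally trivial at all
`q` iff it is orthogonal to the image of `ℍ¹(K(P; I)) → ℍ¹(K(P; C))` under `pair11`. -/
theorem forall_resH1_eq_zero_iff (p : ℕ) (hpA : ∀ m : A, p • m = 0)
    -- (P2) plain `H²` of the product `I = ∏ I_q` is detected on the factors
    (hP2 : ∀ x : Hlev2 h𝒰 ρI hI,
      (∀ q, (lvlHom h𝒰 hI (hIq q) (prj q) (hprj q)).mapH2 x = 0) → x = 0)
    -- (S1) Shapiro ∘ inflation is onto on `ℍ¹`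
    (hS1 : ∀ q, Surjective ((KPHom (hr q) h𝒰 (h𝒰q q) (hIq q) (hW q) P (ev q) (hev q)).ppℍ1
      (hr q) h𝒰 (h𝒰q q)))
    -- (S2) Shapiro ∘ inflation is injective on plain `H²`
    (hS2 : ∀ q, Injective (resH2 (hr q) h𝒰 (h𝒰q q) (hIq q) (hW q) (ev q) (hev q)))
    -- (LG) local–global injectivity on `p`-torsion
    (hLG : ∀ q (w : Hlev2 h𝒰 (ρIq q) (hIq q)), p • w = 0 →
      (lvlHom h𝒰 hI hC t ht).mapH2 ((lvlHom h𝒰 (hIq q) hI (inc q) (hinc q)).mapH2 w) = 0 → w = 0)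
    -- (RK) local right kernels
    (hRK : ∀ q (x : Hlev1 (h𝒰q q) (comapResolved (r q) (hr q) P).ρM
        (comapResolved (r q) (hr q) P).discM),
      (∀ z, pair11 (evalPairing (comapResolved (r q) (hr q) P) (h𝒰q q) (ρW q) (hW q)) (h𝒰q q)
        (hW q) z x = 0) → x = 0)
    (h : Hlev1 h𝒰 P.ρM P.discM) :
    (∀ q, resH1 (hr q) h𝒰 (h𝒰q q) P.discM (comapResolved (r q) (hr q) P).discM LinearMap.id
        (fun _ _ => rfl) h = 0) ↔
      ∀ y : (P.K h𝒰 ρI hI).ℍ1 h𝒰,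
        pair11 (evalPairing P h𝒰 ρC hC) h𝒰 hC ((coefHom P h𝒰 hI hC t ht).mapℍ1 h𝒰 y) h = 0 := by
  constructor
  · intro hres y
    rw [pair11_coefHom P h𝒰 hI hC t ht y h]
    have h0 : pair11 (evalPairing P h𝒰 ρI hI) h𝒰 hI y h = 0 := by
      apply hP2
      intro q
      rw [← pair11_coefHom P h𝒰 hI (hIq q) (prj q) (hprj q) y h]
      apply hS2 q
      rw [map_zero, ← pair11_res_eval (hr q) h𝒰 (h𝒰q q) (hIq q) (hW q) P (ev q) (hev q), hres q,
        map_zero]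
    rw [h0, map_zero]
  · intro hy q
    apply hRK q
    intro z
    obtain ⟨y, rfl⟩ := hS1 q z
    rw [pair11_res_eval (hr q) h𝒰 (h𝒰q q) (hIq q) (hW q) P (ev q) (hev q) y h]
    have e3 := hy ((coefHom P h𝒰 (hIq q) hI (inc q) (hinc q)).mapℍ1 h𝒰 y)
    rw [pair11_coefHom P h𝒰 hI hC t ht, pair11_coefHom P h𝒰 (hIq q) hI (inc q) (hinc q)] at e3
    have hp0 : p • pair11 (evalPairing P h𝒰 (ρIq q) (hIq q)) h𝒰 (hIq q) y h = 0 := by
      rw [← map_nsmul, DualityAdapter29.nsmul_Hlev1_eq_zero h𝒰 P.ρM P.discM p hpA h, map_zero]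
    rw [hLG q _ hp0 e3, map_zero]

end Main

end Fermat.Agent.PT.PRO.HK20
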