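/-
Program F (S55, Poitou–Tate), chapter PRO, helper20.

`MainGeneric20`: the final count for the honest pairing `pair11`, generic in the ring `k`.

Data: a resolved module `P → A` over `(G, 𝒰)` (`p A = 0`, `H¹_lev(G; A)` finite), coefficient
modules `I` (`= I_S`), `C` (`= C_S`), `Iq q`, over `G`, `W q` (`= ℚ̄_qˣ`) over the local groups
`Gq q`, and a module `N` (the `H²`-coefficients, `= M`) with local versions `Nq q`.

Inputs: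
* the invariant `τ` on `H²_lev(G; C)[p]` and the left/right kernels of
  `pair11 : ℍ¹(K(P; C)) × H¹_lev(A) → H²_lev(C)` (global duality);
* the inputs (P2), (S1), (S2), (LG), (RK) of `HK20.forall_resH1_eq_zero_iff`;
* the (★) block: `b : ℍ¹(K(P; C)) →+ H²_lev(N)` with
  (hab) `b e = 0 ↔ e ∈ t_* ℍ¹(K(P; I))`, (hbc) `(∀ q, res_q h = 0) ↔ h ∈ range b`.

Output: `{h ∈ H²_lev(N) | ∀ q, res_q h = 0}` is finite of the same cardinality as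
`{h ∈ H¹_lev(A) | ∀ q, res_q h = 0}`.
-/
import Mathlib
import Fermat.Agent.PT.PRO.HK20
import Fermat.Agent.PT.PRO.PairP4
import Fermat.Agent.PT.PRO.AssemblyAnn20

set_option autoImplicit false

namespace Fermat.Agent.PT.PRO.MainGeneric20

open Function
open Fermat.Agent.PT.PRO.HyperLevel25 Fermat.Agent.PT.PRO.Resolved4
open Fermat.Agent.PT.PRO.ExtPairing4 Fermat.Agent.PT.PRO.ExtPairingB4
open Fermat.Agent.PT.PRO.HyperRes25 Fermat.Agent.PT.PRO.PairingRes1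
open Fermat.Agent.PT.PRO.InvP4 Fermat.Agent.PT.PRO.PairP4

variable {k G : Type*} [CommRing k] [Group G] {𝒰 : Set (Subgroup G)}
variable {P1 P0 A : Type*} [AddCommGroup P1] [Module k P1] [AddCommGroup P0] [Module k P0]
  [AddCommGroup A] [Module k A]
variable {ι : Type*} {Gq : ι → Type*} [∀ q, Group (Gq q)] {𝒰q : ∀ q, Set (Subgroup (Gq q))}
variable {I C N : Type*} [AddCommGroup I] [Module k I] [AddCommGroup C] [Module k C]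
  [AddCommGroup N] [Module k N]
variable {Iq W Nq : ι → Type*} [∀ q, AddCommGroup (Iq q)] [∀ q, Module k (Iq q)]
  [∀ q, AddCommGroup (W q)] [∀ q, Module k (W q)]
  [∀ q, AddCommGroup (Nq q)] [∀ q, Module k (Nq q)]

variable (P : Resolved k 𝒰 P1 P0 A) [Module.Finite k P0] [Module.Finite k P1]
  (h𝒰 : IsLevelBasis 𝒰) (h𝒰q : ∀ q, IsLevelBasis (𝒰q q))
  (r : ∀ q, Gq q →* G) (hr : ∀ q, IsLevelHom (r q) (𝒰q q) 𝒰)
  {ρI : Representation k G I} (hI : IsDiscrete 𝒰 ρI)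
  {ρC : Representation k G C} (hC : IsDiscrete 𝒰 ρC)
  {ρN : Representation k G N} (hN : IsDiscrete 𝒰 ρN)
  {ρIq : ∀ q, Representation k G (Iq q)} (hIq : ∀ q, IsDiscrete 𝒰 (ρIq q))
  {ρW : ∀ q, Representation k (Gq q) (W q)} (hW : ∀ q, IsDiscrete (𝒰q q) (ρW q))
  {ρNq : ∀ q, Representation k (Gq q) (Nq q)} (hNq : ∀ q, IsDiscrete (𝒰q q) (ρNq q))
  (t : I →ₗ[k] C) (ht : ∀ g x, t (ρI g x) = ρC g (t x))
  (inc : ∀ q, Iq q →ₗ[k] I) (hinc : ∀ q g x, inc q (ρIq q g x) = ρI g (inc q x))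
  (prj : ∀ q, I →ₗ[k] Iq q) (hprj : ∀ q g x, prj q (ρI g x) = ρIq q g (prj q x))
  (ev : ∀ q, Iq q →ₗ[k] W q) (hev : ∀ q g x, ev q (ρIq q (r q g) x) = ρW q g (ev q x))
  (ν : ∀ q, N →ₗ[k] Nq q) (hν : ∀ q g x, ν q (ρN (r q g) x) = ρNq q g (ν q x))

/-- The locally trivial classes of `H¹_lev(G; A)`. -/
def Sha1 (h : Hlev1 h𝒰 P.ρM P.discM) : Prop :=
  ∀ q, resH1 (hr q) h𝒰 (h𝒰q q) P.discM (comapResolved (r q) (hr q) P).discM LinearMap.id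
    (fun _ _ => rfl) h = 0

/-- The locally trivial classes of `H²_lev(G; N)`. -/
def Sha2 (h : Hlev2 h𝒰 ρN hN) : Prop :=
  ∀ q, resH2 (hr q) h𝒰 (h𝒰q q) hN (hNq q) (ν q) (hν q) h = 0

/-- **The final count, generic form.** -/
theorem card_sha2_eq_card_sha1 (p : ℕ) [Fact p.Prime] (hpA : ∀ m : A, p • m = 0)
    [Finite (Hlev1 h𝒰 P.ρM P.discM)]
    -- the invariant on `H²_lev(C)[p]`
    (τ : pTor p (Hlev2 h𝒰 ρC hC) →+ ZMod p) (hτ : Injective τ)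
    -- global duality: left and right kernels of `pair11` for `K(P; C)`
    (hL : ∀ ξ : (P.K h𝒰 ρC hC).ℍ1 h𝒰,
      (∀ x, pair11 (evalPairing P h𝒰 ρC hC) h𝒰 hC ξ x = 0) → ξ = 0)
    (hR : ∀ x : Hlev1 h𝒰 P.ρM P.discM,
      (∀ ξ, pair11 (evalPairing P h𝒰 ρC hC) h𝒰 hC ξ x = 0) → x = 0)
    -- (P2), (S1), (S2), (LG), (RK): see `HK20`
    (hP2 : ∀ x : Hlev2 h𝒰 ρI hI,
      (∀ q, (lvlHom h𝒰 hI (hIq q) (prj q) (hprj q)).mapH2 x = 0) → x = 0)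
    (hS1 : ∀ q, Surjective ((KPHom (hr q) h𝒰 (h𝒰q q) (hIq q) (hW q) P (ev q) (hev q)).ppℍ1
      (hr q) h𝒰 (h𝒰q q)))
    (hS2 : ∀ q, Injective (resH2 (hr q) h𝒰 (h𝒰q q) (hIq q) (hW q) (ev q) (hev q)))
    (hLG : ∀ q (w : Hlev2 h𝒰 (ρIq q) (hIq q)), p • w = 0 →
      (lvlHom h𝒰 hI hC t ht).mapH2 ((lvlHom h𝒰 (hIq q) hI (inc q) (hinc q)).mapH2 w) = 0 → w = 0)
    (hRK : ∀ q (x : Hlev1 (h𝒰q q) (comapResolved (r q) (hr q) P).ρM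
        (comapResolved (r q) (hr q) P).discM),
      (∀ z, pair11 (evalPairing (comapResolved (r q) (hr q) P) (h𝒰q q) (ρW q) (hW q)) (h𝒰q q)
        (hW q) z x = 0) → x = 0)
    -- the (★) block
    (b : (P.K h𝒰 ρC hC).ℍ1 h𝒰 →+ Hlev2 h𝒰 ρN hN)
    (hab : ∀ e : (P.K h𝒰 ρC hC).ℍ1 h𝒰,
      b e = 0 ↔ ∃ x, (HK20.coefHom P h𝒰 hI hC t ht).mapℍ1 h𝒰 x = e)
    (hbc : ∀ h : Hlev2 h𝒰 ρN hN, Sha2 h𝒰 h𝒰q r hr hN hNq ν hν h ↔ ∃ e, b e = h) :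
    Finite {h : Hlev2 h𝒰 ρN hN // Sha2 h𝒰 h𝒰q r hr hN hNq ν hν h} ∧
      Nat.card {h : Hlev2 h𝒰 ρN hN // Sha2 h𝒰 h𝒰q r hr hN hNq ν hν h} =
        Nat.card {h : Hlev1 h𝒰 P.ρM P.discM // Sha1 P h𝒰 h𝒰q r hr h} := by
  classical
  -- the maps of the abstract count
  let a : (P.K h𝒰 ρI hI).ℍ1 h𝒰 →+ (P.K h𝒰 ρC hC).ℍ1 h𝒰 :=
    ((HK20.coefHom P h𝒰 hI hC t ht).mapℍ1 h𝒰).toAddMonoidHom
  let c : Hlev2 h𝒰 ρN hN →+ (∀ q, Hlev2 (h𝒰q q) (ρNq q) (hNq q)) :=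
    AddMonoidHom.pi fun q => (resH2 (hr q) h𝒰 (h𝒰q q) hN (hNq q) (ν q) (hν q)).toAddMonoidHom
  let l : Hlev1 h𝒰 P.ρM P.discM →+ (∀ q, Hlev1 (h𝒰q q) (comapResolved (r q) (hr q) P).ρM
      (comapResolved (r q) (hr q) P).discM) :=
    AddMonoidHom.pi fun q => (resH1 (hr q) h𝒰 (h𝒰q q) P.discM
      (comapResolved (r q) (hr q) P).discM LinearMap.id (fun _ _ => rfl)).toAddMonoidHom
  have hc : ∀ h, c h = 0 ↔ Sha2 h𝒰 h𝒰q r hr hN hNq ν hν h := fun h =>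
    ⟨fun e q => congrFun e q, fun e => funext e⟩
  have hl : ∀ h, h ∈ l.ker ↔ Sha1 P h𝒰 h𝒰q r hr h := fun h =>
    ⟨fun e q => congrFun (AddMonoidHom.mem_ker.1 e) q, fun e => AddMonoidHom.mem_ker.2 (funext e)⟩
  obtain ⟨hfin, hcard⟩ := AssemblyAnn20.card_ker_eq_of_annihilator p
    (DualityAdapter29.nsmul_Hlev1_eq_zero h𝒰 P.ρM P.discM p hpA) a b c hab
    (fun h => (hc h).trans (hbc h)) l.ker
    (alphaP (evalPairing P h𝒰 ρC hC) h𝒰 hC hpA τ)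
    (alphaP_injective (evalPairing P h𝒰 ρC hC) h𝒰 hC hpA τ hτ hL)
    (alphaP_right_kernel (evalPairing P h𝒰 ρC hC) h𝒰 hC hpA τ hτ hR)
    (fun h => by
      rw [hl h]
      refine (HK20.forall_resH1_eq_zero_iff P h𝒰 h𝒰q r hr hI hC hIq hW t ht inc hinc prj hprj
        ev hev p hpA hP2 hS1 hS2 hLG hRK h).trans ?_
      refine forall_congr' fun y => ?_
      exact (alphaP_eq_zero_iff (evalPairing P h𝒰 ρC hC) h𝒰 hC hpA τ hτ _ h).symm)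
  have e2 : {h : Hlev2 h𝒰 ρN hN // Sha2 h𝒰 h𝒰q r hr hN hNq ν hν h} ≃ ↥c.ker :=
    Equiv.subtypeEquivRight fun h => ((hc h).symm.trans AddMonoidHom.mem_ker.symm)
  have e1 : {h : Hlev1 h𝒰 P.ρM P.discM // Sha1 P h𝒰 h𝒰q r hr h} ≃ ↥l.ker :=
    Equiv.subtypeEquivRight fun h => (hl h).symm
  refine ⟨Finite.of_equiv _ e2.symm, ?_⟩
  rw [Nat.card_congr e2, Nat.card_congr e1, hcard]

end Fermat.Agent.PT.PRO.MainGeneric20
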