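/-
Program F (S55, Poitou–Tate), chapter PRO, helper20.

`MainWrap20`: the final count (`MainGeneric20.card_sha2_eq_card_sha1`) for a RAW resolution
`R : IndRes20.Res k G P1 P0 A` with discrete `P₀`, with every hypothesis that mentions a derived
module (`Hom(P_i, X)`, `ℍ¹(K(P; X))`, …) WRAPPED in a generic-`k` definition, so that the theorem
can be instantiated at `k = ℤ` without ever elaborating a compound module type at `ℤ`
(the `AddCommGroup.toIntModule` diamond).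

Wrappers (all generic in `k`; their arguments are base modules only):
* `S1At`   : `Λ¹ = (KXPHom … ε hε).ppℍ1` is surjective      (Shapiro ∘ inflation, hyper `ℍ¹`);
* `S2hAt`  : `Λ² = (KXPHom … ε hε).ppℍ2` is injective       (the same on `ℍ²`; used by `(hbc)`);
* `RKAt`   : trivial right kernel of `pair11` for `K(P; W)`  (local duality);
* `StarAt` : the (★) block `b : ℍ¹(K(P; C)) →+ H²_lev(N)` with `(hab)`, `(hbc)`;
* the global duality package is `InvFund18.AlphaPackage`.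
-/
import Mathlib
import Fermat.Agent.PT.PRO.MainGeneric20
import Fermat.Agent.PT.PRO.InvFund18
import Fermat.Agent.PT.PRO.PairingResObj1

set_option autoImplicit false

namespace Fermat.Agent.PT.PRO.MainWrap20

open Function
open Fermat.Agent.PT.PRO.HyperLevel25 Fermat.Agent.PT.PRO.Resolved4
open Fermat.Agent.PT.PRO.ExtPairing4 Fermat.Agent.PT.PRO.ExtPairingB4
open Fermat.Agent.PT.PRO.HyperRes25 Fermat.Agent.PT.PRO.PairingRes1
open Fermat.Agent.PT.PRO.InvP4 Fermat.Agent.PT.PRO.PairP4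
open Fermat.Agent.PT.PRO.IndRes20 Fermat.Agent.PT.PRO.Setup20 Fermat.Agent.PT.PRO.Objects20

section Wrappers

variable {k G G' : Type} [CommRing k] [Group G] [Group G']
  {𝒰 : Set (Subgroup G)} {𝒰' : Set (Subgroup G')}
variable {P1 P0 A X X' W N : Type} [AddCommGroup P1] [Module k P1] [AddCommGroup P0]
  [Module k P0] [AddCommGroup A] [Module k A] [AddCommGroup X] [Module k X]
  [AddCommGroup X'] [Module k X'] [AddCommGroup W] [Module k W] [AddCommGroup N] [Module k N]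

variable (R : Res k G P1 P0 A) (h0 : IsDiscrete 𝒰 R.ρ0) [Module.Finite k P0] [Module.Finite k P1]
  (h𝒰 : IsLevelBasis 𝒰) (h𝒰' : IsLevelBasis 𝒰')
  (f : G' →* G) (hf : IsLevelHom f 𝒰' 𝒰)
  {ρX : Representation k G X} (hX : IsDiscrete 𝒰 ρX)
  {ρX' : Representation k G X'} (hX' : IsDiscrete 𝒰 ρX')
  {ρW : Representation k G' W} (hW : IsDiscrete 𝒰' ρW)
  {ρN : Representation k G N} (hN : IsDiscrete 𝒰 ρN)

/-- **(S1)**: `Λ¹ : ℍ¹(G; K(P; X)) → ℍ¹(G'; K(P|_{G'}; W))` (change of group along `f`, coefficient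
map `ε`) is surjective. -/
def S1At (ε : X →ₗ[k] W) (hε : ∀ g x, ε (ρX (f g) x) = ρW g (ε x)) : Prop :=
  Surjective ((KXPHom R h0 h𝒰 h𝒰' f hf hX hW ε hε).ppℍ1 hf h𝒰 h𝒰')

/-- **(S2h)**: `Λ² : ℍ²(G; K(P; X)) → ℍ²(G'; K(P|_{G'}; W))` is injective. -/
def S2hAt (ε : X →ₗ[k] W) (hε : ∀ g x, ε (ρX (f g) x) = ρW g (ε x)) : Prop :=
  Injective ((KXPHom R h0 h𝒰 h𝒰' f hf hX hW ε hε).ppℍ2 hf h𝒰 h𝒰')

/-- **(RK)**: the right kernel of `pair11 : ℍ¹(K(P; X)) × H¹_lev(A) → H²_lev(X)` is trivial. -/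
def RKAt (ρX : Representation k G X) (hX : IsDiscrete 𝒰 ρX) : Prop :=
  ∀ x : Hlev1 h𝒰 (toResolved R h0).ρM (toResolved R h0).discM,
    (∀ z, pair11 (evP R h0 h𝒰 ρX hX) h𝒰 hX z x = 0) → x = 0

/-- **(LK)**: the left kernel of `pair11` is trivial. -/
def LKAt (ρX : Representation k G X) (hX : IsDiscrete 𝒰 ρX) : Prop :=
  ∀ ξ : (KX R h0 h𝒰 ρX hX).ℍ1 h𝒰,
    (∀ x, pair11 (evP R h0 h𝒰 ρX hX) h𝒰 hX ξ x = 0) → ξ = 0

/-- **The (★) block**: a homomorphism `b : ℍ¹(K(P; X')) →+ H²_lev(N)` whose kernel is the image of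
`ℍ¹(K(P; X))` under `t : X → X'` and whose range is cut out by the predicate `sha2`. -/
def StarAt (t : X →ₗ[k] X') (ht : ∀ g x, t (ρX g x) = ρX' g (t x))
    (sha2 : Hlev2 h𝒰 ρN hN → Prop) : Prop :=
  ∃ b : (KX R h0 h𝒰 ρX' hX').ℍ1 h𝒰 →+ Hlev2 h𝒰 ρN hN,
    (∀ e, b e = 0 ↔ ∃ x, (KXmap R h0 h𝒰 hX hX' t ht).mapℍ1 h𝒰 x = e) ∧
      ∀ h, sha2 h ↔ ∃ e, b e = h

variable {R h0 h𝒰}

/-- The duality package gives the left kernel. -/
theorem lkAt_of_alphaPackage {ρC : Representation k G X} {hC : IsDiscrete 𝒰 ρC} {p : ℕ}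
    [Fact p.Prime] {hpA : ∀ m : A, p • m = 0}
    (H : InvFund18.AlphaPackage R h0 h𝒰 ρC hC p hpA) : LKAt R h0 h𝒰 ρC hC := by
  obtain ⟨τ, -, hinj, -, hiff⟩ := H
  intro ξ hξ
  apply hinj
  rw [map_zero]
  ext x
  exact (hiff ξ x).2 (hξ x)

/-- The duality package gives the right kernel. -/
theorem rkAt_of_alphaPackage {ρC : Representation k G X} {hC : IsDiscrete 𝒰 ρC} {p : ℕ}
    [Fact p.Prime] {hpA : ∀ m : A, p • m = 0}
    (H : InvFund18.AlphaPackage R h0 h𝒰 ρC hC p hpA) : RKAt R h0 h𝒰 ρC hC := by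
  obtain ⟨τ, -, -, hr, hiff⟩ := H
  intro x hx
  exact hr x fun ξ => (hiff ξ x).2 (hx ξ)

end Wrappers

section Main

variable {k G : Type} [CommRing k] [Group G] {𝒰 : Set (Subgroup G)}
variable {P1 P0 A : Type} [AddCommGroup P1] [Module k P1] [AddCommGroup P0] [Module k P0]
  [AddCommGroup A] [Module k A]
variable {ι : Type} {Gq : ι → Type} [∀ q, Group (Gq q)] {𝒰q : ∀ q, Set (Subgroup (Gq q))}
variable {I C N : Type} [AddCommGroup I] [Module k I] [AddCommGroup C] [Module k C]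
  [AddCommGroup N] [Module k N]
variable {Iq W Nq : ι → Type} [∀ q, AddCommGroup (Iq q)] [∀ q, Module k (Iq q)]
  [∀ q, AddCommGroup (W q)] [∀ q, Module k (W q)]
  [∀ q, AddCommGroup (Nq q)] [∀ q, Module k (Nq q)]

variable (R : Res k G P1 P0 A) (h0 : IsDiscrete 𝒰 R.ρ0) [Module.Finite k P0] [Module.Finite k P1]
  (h𝒰 : IsLevelBasis 𝒰) (h𝒰q : ∀ q, IsLevelBasis (𝒰q q))
  (r : ∀ q, Gq q →* G) (hr : ∀ q, IsLevelHom (r q) (𝒰q q) 𝒰)
  (hA : IsDiscrete 𝒰 R.ρM) (hAq : ∀ q, IsDiscrete (𝒰q q) (R.ρM.comp (r q)))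
  {ρI : Representation k G I} (hI : IsDiscrete 𝒰 ρI)
  {ρC : Representation k G C} (hC : IsDiscrete 𝒰 ρC)
  {ρN : Representation k G N} (hN : IsDiscrete 𝒰 ρN)
  {ρIq : ∀ q, Representation k G (Iq q)} (hIq : ∀ q, IsDiscrete 𝒰 (ρIq q))
  {ρW : ∀ q, Representation k (Gq q) (W q)} (hW : ∀ q, IsDiscrete (𝒰q q) (ρW q))
  {ρNq : ∀ q, Representation k (Gq q) (Nq q)} (hNq : ∀ q, IsDiscrete (𝒰q q) (ρNq q))
  (t : I →ₗ[k] C) (ht : ∀ g x, t (ρI g x) = ρC g (t x))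
  (inc : ∀ q, Iq q →ₗ[k] I) (hinc : ∀ q g x, inc q (ρIq q g x) = ρI g (inc q x))
  (prj : ∀ q, I →ₗ[k] Iq q) (hprj : ∀ q g x, prj q (ρI g x) = ρIq q g (prj q x))
  (ev : ∀ q, Iq q →ₗ[k] W q) (hev : ∀ q g x, ev q (ρIq q (r q g) x) = ρW q g (ev q x))
  (ν : ∀ q, N →ₗ[k] Nq q) (hν : ∀ q g x, ν q (ρN (r q g) x) = ρNq q g (ν q x))

/-- **The final count, wrapped form** (instantiable at `k = ℤ`). -/
theorem card_sha2_eq_card_sha1 (p : ℕ) [Fact p.Prime] (hpA : ∀ m : A, p • m = 0)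
    [Finite (Hlev1 h𝒰 R.ρM hA)]
    -- global duality for `K(P; C)`
    (hdual : InvFund18.AlphaPackage R h0 h𝒰 ρC hC p hpA)
    -- (P2) plain `H²` of the product `I = ∏ I_q` is detected on the factors
    (hP2 : ∀ x : Hlev2 h𝒰 ρI hI,
      (∀ q, (lvlHom h𝒰 hI (hIq q) (prj q) (hprj q)).mapH2 x = 0) → x = 0)
    -- (S1)
    (hS1 : ∀ q, S1At R h0 h𝒰 (h𝒰q q) (r q) (hr q) (hIq q) (hW q) (ev q) (hev q))
    -- (S2)
    (hS2 : ∀ q, Injective (resH2 (hr q) h𝒰 (h𝒰q q) (hIq q) (hW q) (ev q) (hev q)))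
    -- (LG)
    (hLG : ∀ q (w : Hlev2 h𝒰 (ρIq q) (hIq q)), p • w = 0 →
      (lvlHom h𝒰 hI hC t ht).mapH2 ((lvlHom h𝒰 (hIq q) hI (inc q) (hinc q)).mapH2 w) = 0 → w = 0)
    -- (RK)
    (hRK : ∀ q, RKAt (R.comap (r q)) (comap_disc0 R h0 (r q) (hr q)) (h𝒰q q) (ρW q) (hW q))
    -- (★)
    (hstar : StarAt R h0 h𝒰 hI hC hN t ht
      (fun h => ∀ q, resH2 (hr q) h𝒰 (h𝒰q q) hN (hNq q) (ν q) (hν q) h = 0)) :
    Finite {h : Hlev2 h𝒰 ρN hN //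
        ∀ q, resH2 (hr q) h𝒰 (h𝒰q q) hN (hNq q) (ν q) (hν q) h = 0} ∧
      Nat.card {h : Hlev2 h𝒰 ρN hN //
          ∀ q, resH2 (hr q) h𝒰 (h𝒰q q) hN (hNq q) (ν q) (hν q) h = 0} =
        Nat.card {h : Hlev1 h𝒰 R.ρM hA //
          ∀ q, resH1 (hr q) h𝒰 (h𝒰q q) hA (hAq q) LinearMap.id (fun _ _ => rfl) h = 0} := by
  obtain ⟨τ, hτ, -, -, -⟩ := id hdual
  obtain ⟨b, hab, hbc⟩ := hstar
  have : Finite (Hlev1 h𝒰 (toResolved R h0).ρM (toResolved R h0).discM) :=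
    ‹Finite (Hlev1 h𝒰 R.ρM hA)›
  exact MainGeneric20.card_sha2_eq_card_sha1 (toResolved R h0) h𝒰 h𝒰q r hr hI hC hN hIq hW hNq
    t ht inc hinc prj hprj ev hev ν hν p hpA τ hτ (lkAt_of_alphaPackage hdual)
    (rkAt_of_alphaPackage hdual) hP2 hS1 hS2 hLG hRK b hab hbc

end Main

end Fermat.Agent.PT.PRO.MainWrap20
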