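/-
Program F (S55, Poitou–Tate), chapter PRO, helper25.

`HyperProd25`: finite products.  For a FINITE family `Y i : Cx k 𝒰 (Y0 i) (Y1 i)` of two-term
complexes of discrete `G`-modules: the product complex `piCx Y`, its projections, and
`ℍ^r(∏ Y_i) ≅ ∏ ℍ^r(Y_i)` for `r = 1, 2` (`bijective_piℍ1`, `bijective_piℍ2`).
(Used for `I_S = ∏_{q ∈ S} I_{S,q}`.)
-/
import Fermat.Agent.PT.PRO.HyperCompare25

set_option autoImplicit false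

namespace Fermat.Agent.PT.PRO.HyperProd25

open Function Fermat.Agent.PT.PRO.HyperLevel25 Fermat.Agent.PT.PRO.HyperCompare25

variable {k G : Type*} [CommRing k] [Group G] {𝒰 : Set (Subgroup G)}
variable {ι : Type*}

section Rep

variable {Y : ι → Type*} [∀ i, AddCommGroup (Y i)] [∀ i, Module k (Y i)]

/-- The product of a family of representations. -/
def piRep (ρ : ∀ i, Representation k G (Y i)) : Representation k G (∀ i, Y i) where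
  toFun g := LinearMap.pi fun i => (ρ i g).comp (LinearMap.proj i)
  map_one' := by
    apply LinearMap.ext; intro y; funext i
    simp only [LinearMap.pi_apply, LinearMap.comp_apply, LinearMap.proj_apply, map_one,
      Module.End.one_apply]
  map_mul' g h := by
    apply LinearMap.ext; intro y; funext i
    simp only [LinearMap.pi_apply, LinearMap.comp_apply, LinearMap.proj_apply, map_mul,
      Module.End.mul_apply]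

@[simp] lemma piRep_apply (ρ : ∀ i, Representation k G (Y i)) (g : G) (y : ∀ i, Y i) (i : ι) :
    piRep ρ g y i = ρ i g (y i) := rfl

lemma isDiscrete_piRep [Finite ι] (h𝒰 : IsLevelBasis 𝒰) {ρ : ∀ i, Representation k G (Y i)}
    (hρ : ∀ i, IsDiscrete 𝒰 (ρ i)) : IsDiscrete 𝒰 (piRep ρ) := by
  intro y
  choose U hU hfix using fun i => hρ i (y i)
  obtain ⟨W, hW, hWle⟩ := h𝒰.exists_le_of_finite U hU
  refine ⟨W, hW, fun s hs => ?_⟩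
  funext i
  rw [piRep_apply]
  exact hfix i s (hWle i hs)

lemma dZero_piRep (ρ : ∀ i, Representation k G (Y i)) (y : ∀ i, Y i) (g : G) (i : ι) :
    dZero (piRep ρ) y g i = dZero (ρ i) (y i) g := rfl

lemma dOne_piRep (ρ : ∀ i, Representation k G (Y i)) (c : G → ∀ i, Y i) (p : G × G) (i : ι) :
    dOne (piRep ρ) c p i = dOne (ρ i) (fun g => c g i) p := rfl

lemma dTwo_piRep (ρ : ∀ i, Representation k G (Y i)) (c : G × G → ∀ i, Y i) (p : G × G × G)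
    (i : ι) : dTwo (piRep ρ) c p i = dTwo (ρ i) (fun q => c q i) p := rfl

/-- A finite family of level 1-cochains assembles to a level cochain into the product. -/
lemma isLevel₁_pi [Finite ι] (h𝒰 : IsLevelBasis 𝒰) {X : ι → Type*} {c : ∀ i, G → X i}
    (hc : ∀ i, IsLevel₁ 𝒰 (c i)) : IsLevel₁ 𝒰 (fun g i => c i g) := by
  choose U hU h using hc
  obtain ⟨W, hW, hWle⟩ := h𝒰.exists_le_of_finite U hU
  refine ⟨W, hW, fun g s hs => ?_⟩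
  funext i
  exact h i g s (hWle i hs)

/-- A finite family of level 2-cochains assembles to a level cochain into the product. -/
lemma isLevel₂_pi [Finite ι] (h𝒰 : IsLevelBasis 𝒰) {X : ι → Type*} {c : ∀ i, G × G → X i}
    (hc : ∀ i, IsLevel₂ 𝒰 (c i)) : IsLevel₂ 𝒰 (fun q i => c i q) := by
  choose U hU h using hc
  obtain ⟨W, hW, hWle⟩ := h𝒰.exists_le_of_finite U hU
  refine ⟨W, hW, fun g g' s s' hs hs' => ?_⟩
  funext i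
  exact h i g g' s s' (hWle i hs) (hWle i hs')

end Rep

section Cx

variable {Y0 Y1 : ι → Type*} [∀ i, AddCommGroup (Y0 i)] [∀ i, Module k (Y0 i)]
  [∀ i, AddCommGroup (Y1 i)] [∀ i, Module k (Y1 i)]

/-- The product of a finite family of two-term complexes. -/
def piCx [Finite ι] (h𝒰 : IsLevelBasis 𝒰) (Y : ∀ i, Cx k 𝒰 (Y0 i) (Y1 i)) :
    Cx k 𝒰 (∀ i, Y0 i) (∀ i, Y1 i) where
  ρ0 := piRep fun i => (Y i).ρ0
  ρ1 := piRep fun i => (Y i).ρ1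
  f := LinearMap.pi fun i => (Y i).f.comp (LinearMap.proj i)
  comm g y := by
    funext i
    exact (Y i).comm g (y i)
  disc0 := isDiscrete_piRep h𝒰 fun i => (Y i).disc0
  disc1 := isDiscrete_piRep h𝒰 fun i => (Y i).disc1

variable [Finite ι] (h𝒰 : IsLevelBasis 𝒰) (Y : ∀ i, Cx k 𝒰 (Y0 i) (Y1 i))

@[simp] lemma piCx_f_apply (y : ∀ i, Y0 i) (i : ι) : (piCx h𝒰 Y).f y i = (Y i).f (y i) := rfl

/-- The `i`-th projection `∏ Y → Y i`. -/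
def piProj (i : ι) : Cx.Hom (piCx h𝒰 Y) (Y i) where
  φ0 := LinearMap.proj i
  φ1 := LinearMap.proj i
  comm0 _ _ := rfl
  comm1 _ _ := rfl
  commf _ := rfl

/-- `ℍ¹(∏ Y) → ∏ ℍ¹(Y i)`. -/
def piℍ1 : (piCx h𝒰 Y).ℍ1 h𝒰 →ₗ[k] ∀ i, (Y i).ℍ1 h𝒰 :=
  LinearMap.pi fun i => (piProj h𝒰 Y i).mapℍ1 h𝒰

/-- `ℍ²(∏ Y) → ∏ ℍ²(Y i)`. -/
def piℍ2 : (piCx h𝒰 Y).ℍ2 h𝒰 →ₗ[k] ∀ i, (Y i).ℍ2 h𝒰 :=
  LinearMap.pi fun i => (piProj h𝒰 Y i).mapℍ2 h𝒰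

lemma piℍ1_apply (x : (piCx h𝒰 Y).ℍ1 h𝒰) (i : ι) :
    piℍ1 h𝒰 Y x i = (piProj h𝒰 Y i).mapℍ1 h𝒰 x := rfl

lemma piℍ2_apply (x : (piCx h𝒰 Y).ℍ2 h𝒰) (i : ι) :
    piℍ2 h𝒰 Y x i = (piProj h𝒰 Y i).mapℍ2 h𝒰 x := rfl

/-- Assemble a family of total level 1-cochains. -/
def asm1 (w : ∀ i, K1lev k h𝒰 (Y0 i) (Y1 i)) : K1lev k h𝒰 (∀ i, Y0 i) (∀ i, Y1 i) :=
  ⟨(fun g i => (w i).1.1 g, fun i => (w i).1.2), isLevel₁_pi h𝒰 fun i => (w i).2⟩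

/-- Assemble a family of total level 2-cochains. -/
def asm2 (w : ∀ i, K2lev k h𝒰 (Y0 i) (Y1 i)) : K2lev k h𝒰 (∀ i, Y0 i) (∀ i, Y1 i) :=
  ⟨(fun q i => (w i).1.1 q, fun g i => (w i).1.2 g),
    isLevel₂_pi h𝒰 fun i => (w i).2.1, isLevel₁_pi h𝒰 fun i => (w i).2.2⟩

lemma D0_pi (y : ∀ i, Y0 i) :
    (piCx h𝒰 Y).D0 y = (fun g i => ((Y i).D0 (y i)).1 g, fun i => ((Y i).D0 (y i)).2) := rfl

lemma D1_pi (x : (G → ∀ i, Y0 i) × (∀ i, Y1 i)) :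
    (piCx h𝒰 Y).D1 x = (fun q i => ((Y i).D1 (fun g => x.1 g i, x.2 i)).1 q,
      fun g i => ((Y i).D1 (fun g => x.1 g i, x.2 i)).2 g) := rfl

lemma D2_pi (x : (G × G → ∀ i, Y0 i) × (G → ∀ i, Y1 i)) :
    (piCx h𝒰 Y).D2 x = (fun q i => ((Y i).D2 (fun q => x.1 q i, fun g => x.2 g i)).1 q,
      fun q i => ((Y i).D2 (fun q => x.1 q i, fun g => x.2 g i)).2 q) := rfl

theorem injective_piℍ1 : Injective (piℍ1 h𝒰 Y) := by
  rw [injective_iff_map_eq_zero]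
  intro cls hcls
  obtain ⟨z, rfl⟩ := ((piCx h𝒰 Y).tot h𝒰).π1_surjective cls
  have hi : ∀ i, ∃ y : Y0 i, (Y i).D0 y = ((piProj h𝒰 Y i).map1 z.1.1) := by
    intro i
    have h0 : (piProj h𝒰 Y i).mapℍ1 h𝒰 (((piCx h𝒰 Y).tot h𝒰).π1 z) = 0 := congrFun hcls i
    change ((piProj h𝒰 Y i).tot h𝒰).mapH1 _ = 0 at h0
    rw [Cpx.Hom.mapH1_π1, Cpx.π1_eq_zero_iff] at h0
    obtain ⟨y, hy⟩ := h0
    exact ⟨y, congrArg Subtype.val hy⟩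
  choose y hy using hi
  rw [Cpx.π1_eq_zero_iff]
  refine ⟨y, ?_⟩
  apply Subtype.ext
  show (piCx h𝒰 Y).D0 y = z.1.1
  rw [D0_pi]
  refine Prod.ext ?_ ?_
  · funext g i
    show ((Y i).D0 (y i)).1 g = z.1.1.1 g i
    rw [hy i]; rfl
  · funext i
    show ((Y i).D0 (y i)).2 = z.1.1.2 i
    rw [hy i]; rfl

theorem surjective_piℍ1 : Surjective (piℍ1 h𝒰 Y) := by
  intro x
  have hi : ∀ i, ∃ z : ((Y i).tot h𝒰).Z1, ((Y i).tot h𝒰).π1 z = x i :=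
    fun i => ((Y i).tot h𝒰).π1_surjective (x i)
  choose z hz using hi
  let w : K1lev k h𝒰 (∀ i, Y0 i) (∀ i, Y1 i) := asm1 h𝒰 fun i => (z i).1
  have hw : w ∈ ((piCx h𝒰 Y).tot h𝒰).Z1 := by
    rw [Cx.mem_Z1_iff]
    constructor
    · funext p i
      have := ((Y i).mem_Z1_iff h𝒰 (z i).1).1 (z i).2
      exact congrFun this.1 p
    · funext g i
      have := ((Y i).mem_Z1_iff h𝒰 (z i).1).1 (z i).2
      exact congrFun this.2 g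
  refine ⟨((piCx h𝒰 Y).tot h𝒰).π1 ⟨w, hw⟩, ?_⟩
  funext i
  rw [piℍ1_apply, ← hz i]
  rfl

theorem injective_piℍ2 : Injective (piℍ2 h𝒰 Y) := by
  rw [injective_iff_map_eq_zero]
  intro cls hcls
  obtain ⟨z, rfl⟩ := ((piCx h𝒰 Y).tot h𝒰).π2_surjective cls
  have hi : ∀ i, ∃ x : K1lev k h𝒰 (Y0 i) (Y1 i),
      (Y i).D1 x.1 = ((piProj h𝒰 Y i).map2 z.1.1) := by
    intro i
    have h0 : (piProj h𝒰 Y i).mapℍ2 h𝒰 (((piCx h𝒰 Y).tot h𝒰).π2 z) = 0 := congrFun hcls i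
    change ((piProj h𝒰 Y i).tot h𝒰).mapH2 _ = 0 at h0
    rw [Cpx.Hom.mapH2_π2, Cpx.π2_eq_zero_iff] at h0
    obtain ⟨x, hx⟩ := h0
    exact ⟨x, congrArg Subtype.val hx⟩
  choose x hx using hi
  rw [Cpx.π2_eq_zero_iff]
  refine ⟨asm1 h𝒰 x, ?_⟩
  apply Subtype.ext
  show (piCx h𝒰 Y).D1 (asm1 h𝒰 x).1 = z.1.1
  rw [D1_pi]
  refine Prod.ext ?_ ?_
  · funext q i
    show ((Y i).D1 (x i).1).1 q = z.1.1.1 q i
    rw [hx i]; rfl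
  · funext g i
    show ((Y i).D1 (x i).1).2 g = z.1.1.2 g i
    rw [hx i]; rfl

theorem surjective_piℍ2 : Surjective (piℍ2 h𝒰 Y) := by
  intro x
  have hi : ∀ i, ∃ z : ((Y i).tot h𝒰).Z2, ((Y i).tot h𝒰).π2 z = x i :=
    fun i => ((Y i).tot h𝒰).π2_surjective (x i)
  choose z hz using hi
  let w : K2lev k h𝒰 (∀ i, Y0 i) (∀ i, Y1 i) := asm2 h𝒰 fun i => (z i).1
  have hw : w ∈ ((piCx h𝒰 Y).tot h𝒰).Z2 := by
    rw [Cx.mem_Z2_iff]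
    constructor
    · funext p i
      have := ((Y i).mem_Z2_iff h𝒰 (z i).1).1 (z i).2
      exact congrFun this.1 p
    · funext q i
      have := ((Y i).mem_Z2_iff h𝒰 (z i).1).1 (z i).2
      exact congrFun this.2 q
  refine ⟨((piCx h𝒰 Y).tot h𝒰).π2 ⟨w, hw⟩, ?_⟩
  funext i
  rw [piℍ2_apply, ← hz i]
  rfl

/-- `ℍ¹(∏ Y_i) ≅ ∏ ℍ¹(Y_i)` for a finite family. -/
theorem bijective_piℍ1 : Bijective (piℍ1 h𝒰 Y) := ⟨injective_piℍ1 h𝒰 Y, surjective_piℍ1 h𝒰 Y⟩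

/-- `ℍ²(∏ Y_i) ≅ ∏ ℍ²(Y_i)` for a finite family. -/
theorem bijective_piℍ2 : Bijective (piℍ2 h𝒰 Y) := ⟨injective_piℍ2 h𝒰 Y, surjective_piℍ2 h𝒰 Y⟩

/-- The linear equivalence `ℍ¹(∏ Y_i) ≃ ∏ ℍ¹(Y_i)`. -/
noncomputable def piℍ1Equiv : (piCx h𝒰 Y).ℍ1 h𝒰 ≃ₗ[k] ∀ i, (Y i).ℍ1 h𝒰 :=
  LinearEquiv.ofBijective (piℍ1 h𝒰 Y) (bijective_piℍ1 h𝒰 Y)

/-- The linear equivalence `ℍ²(∏ Y_i) ≃ ∏ ℍ²(Y_i)`. -/
noncomputable def piℍ2Equiv : (piCx h𝒰 Y).ℍ2 h𝒰 ≃ₗ[k] ∀ i, (Y i).ℍ2 h𝒰 :=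
  LinearEquiv.ofBijective (piℍ2 h𝒰 Y) (bijective_piℍ2 h𝒰 Y)

end Cx

/-! ## Termwise isomorphisms of two-term complexes -/

section Iso

variable {A0 A1 B0 B1 : Type*}
  [AddCommGroup A0] [Module k A0] [AddCommGroup A1] [Module k A1]
  [AddCommGroup B0] [Module k B0] [AddCommGroup B1] [Module k B1]
  {A : Cx k 𝒰 A0 A1} {B : Cx k 𝒰 B0 B1} (φ : Cx.Hom A B) (h𝒰 : IsLevelBasis 𝒰)

lemma bijective_tot_m1 (h0 : Bijective φ.φ0) (h1 : Bijective φ.φ1) :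
    Bijective (φ.tot h𝒰).m1 := by
  constructor
  · rintro ⟨⟨c, e⟩, hx⟩ ⟨⟨c', e'⟩, hx'⟩ hxx
    have hxx' : φ.map1 (c, e) = φ.map1 (c', e') := congrArg Subtype.val hxx
    rw [Cx.Hom.map1_apply, Cx.Hom.map1_apply, Prod.mk.injEq] at hxx'
    apply Subtype.ext
    exact Prod.ext (h0.1.comp_left hxx'.1) (h1.1 hxx'.2)
  · rintro ⟨⟨c, e⟩, hx⟩
    have hc : IsLevel₁ 𝒰 c := hx
    refine ⟨⟨(Function.surjInv h0.2 ∘ c, Function.surjInv h1.2 e),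
      (mem_K1lev h𝒰 _).2 (hc.comp (Function.surjInv h0.2))⟩, ?_⟩
    apply Subtype.ext
    show φ.map1 _ = (c, e)
    rw [Cx.Hom.map1_apply]
    refine Prod.ext ?_ (Function.surjInv_eq h1.2 e)
    funext g
    exact Function.surjInv_eq h0.2 (c g)

lemma bijective_tot_m2 (h0 : Bijective φ.φ0) (h1 : Bijective φ.φ1) :
    Bijective (φ.tot h𝒰).m2 := by
  constructor
  · rintro ⟨⟨c, e⟩, hx⟩ ⟨⟨c', e'⟩, hx'⟩ hxx
    have hxx' : φ.map2 (c, e) = φ.map2 (c', e') := congrArg Subtype.val hxx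
    rw [Cx.Hom.map2_apply, Cx.Hom.map2_apply, Prod.mk.injEq] at hxx'
    apply Subtype.ext
    exact Prod.ext (h0.1.comp_left hxx'.1) (h1.1.comp_left hxx'.2)
  · rintro ⟨⟨c, e⟩, hx⟩
    have hc : IsLevel₂ 𝒰 c := hx.1
    have he : IsLevel₁ 𝒰 e := hx.2
    refine ⟨⟨(Function.surjInv h0.2 ∘ c, Function.surjInv h1.2 ∘ e),
      (mem_K2lev h𝒰 _).2 ⟨hc.comp (Function.surjInv h0.2), he.comp (Function.surjInv h1.2)⟩⟩, ?_⟩
    apply Subtype.ext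
    show φ.map2 _ = (c, e)
    rw [Cx.Hom.map2_apply]
    refine Prod.ext ?_ ?_
    · funext g
      exact Function.surjInv_eq h0.2 (c g)
    · funext g
      exact Function.surjInv_eq h1.2 (e g)

lemma injective_tot_m3 (h0 : Injective φ.φ0) (h1 : Injective φ.φ1) :
    Injective (φ.tot h𝒰).m3 := by
  rintro ⟨c, e⟩ ⟨c', e'⟩ hxx
  have hxx' : φ.map3 (c, e) = φ.map3 (c', e') := hxx
  rw [Cx.Hom.map3_apply, Cx.Hom.map3_apply, Prod.mk.injEq] at hxx'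
  exact Prod.ext (h0.comp_left hxx'.1) (h1.comp_left hxx'.2)

/-- A termwise bijective morphism of two-term complexes induces a bijection on `ℍ¹`. -/
theorem bijective_mapℍ1_of_bijective (h0 : Bijective φ.φ0) (h1 : Bijective φ.φ1) :
    Bijective (φ.mapℍ1 h𝒰) :=
  cpx_bijective_mapH1 (φ.tot h𝒰) h0.2 (bijective_tot_m1 φ h𝒰 h0 h1)
    (bijective_tot_m2 φ h𝒰 h0 h1).1

/-- A termwise bijective morphism of two-term complexes induces a bijection on `ℍ²`. -/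
theorem bijective_mapℍ2_of_bijective (h0 : Bijective φ.φ0) (h1 : Bijective φ.φ1) :
    Bijective (φ.mapℍ2 h𝒰) :=
  cpx_bijective_mapH2 (φ.tot h𝒰) (bijective_tot_m1 φ h𝒰 h0 h1).2
    (bijective_tot_m2 φ h𝒰 h0 h1) (injective_tot_m3 φ h𝒰 h0.1 h1.1)

end Iso

/-! ## Naturality of the product decomposition -/

section PiNat

variable {Y0 Y1 Z0 Z1 : ι → Type*} [∀ i, AddCommGroup (Y0 i)] [∀ i, Module k (Y0 i)]
  [∀ i, AddCommGroup (Y1 i)] [∀ i, Module k (Y1 i)]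
  [∀ i, AddCommGroup (Z0 i)] [∀ i, Module k (Z0 i)]
  [∀ i, AddCommGroup (Z1 i)] [∀ i, Module k (Z1 i)]
variable [Finite ι] (h𝒰 : IsLevelBasis 𝒰) {Y : ∀ i, Cx k 𝒰 (Y0 i) (Y1 i)}
  {Z : ∀ i, Cx k 𝒰 (Z0 i) (Z1 i)}

/-- The product of a family of morphisms. -/
def piHom (φ : ∀ i, Cx.Hom (Y i) (Z i)) : Cx.Hom (piCx h𝒰 Y) (piCx h𝒰 Z) where
  φ0 := LinearMap.pi fun i => (φ i).φ0.comp (LinearMap.proj i)
  φ1 := LinearMap.pi fun i => (φ i).φ1.comp (LinearMap.proj i)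
  comm0 g y := by funext i; exact (φ i).comm0 g (y i)
  comm1 g y := by funext i; exact (φ i).comm1 g (y i)
  commf y := by funext i; exact (φ i).commf (y i)

lemma piℍ1_piHom (φ : ∀ i, Cx.Hom (Y i) (Z i)) (x : (piCx h𝒰 Y).ℍ1 h𝒰) (i : ι) :
    piℍ1 h𝒰 Z ((piHom h𝒰 φ).mapℍ1 h𝒰 x) i = (φ i).mapℍ1 h𝒰 (piℍ1 h𝒰 Y x i) := by
  obtain ⟨z, rfl⟩ := ((piCx h𝒰 Y).tot h𝒰).π1_surjective x
  rfl

lemma piℍ2_piHom (φ : ∀ i, Cx.Hom (Y i) (Z i)) (x : (piCx h𝒰 Y).ℍ2 h𝒰) (i : ι) :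
    piℍ2 h𝒰 Z ((piHom h𝒰 φ).mapℍ2 h𝒰 x) i = (φ i).mapℍ2 h𝒰 (piℍ2 h𝒰 Y x i) := by
  obtain ⟨z, rfl⟩ := ((piCx h𝒰 Y).tot h𝒰).π2_surjective x
  rfl

variable {A0 A1 : Type*} [AddCommGroup A0] [Module k A0] [AddCommGroup A1] [Module k A1]
  {A : Cx k 𝒰 A0 A1}

/-- A family of morphisms `A → Y i` assembles to `A → ∏ Y`. -/
def piLift (φ : ∀ i, Cx.Hom A (Y i)) : Cx.Hom A (piCx h𝒰 Y) where
  φ0 := LinearMap.pi fun i => (φ i).φ0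
  φ1 := LinearMap.pi fun i => (φ i).φ1
  comm0 g y := by funext i; exact (φ i).comm0 g y
  comm1 g y := by funext i; exact (φ i).comm1 g y
  commf y := by funext i; exact (φ i).commf y

lemma piℍ1_piLift (φ : ∀ i, Cx.Hom A (Y i)) (x : A.ℍ1 h𝒰) (i : ι) :
    piℍ1 h𝒰 Y ((piLift h𝒰 φ).mapℍ1 h𝒰 x) i = (φ i).mapℍ1 h𝒰 x := by
  obtain ⟨z, rfl⟩ := (A.tot h𝒰).π1_surjective x
  rfl

lemma piℍ2_piLift (φ : ∀ i, Cx.Hom A (Y i)) (x : A.ℍ2 h𝒰) (i : ι) :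
    piℍ2 h𝒰 Y ((piLift h𝒰 φ).mapℍ2 h𝒰 x) i = (φ i).mapℍ2 h𝒰 x := by
  obtain ⟨z, rfl⟩ := (A.tot h𝒰).π2_surjective x
  rfl

end PiNat

end Fermat.Agent.PT.PRO.HyperProd25
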