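/-
Program F (S55), chapter PRO, helper13.

Composition of a morphism of `G`-complexes `α : Y → Y'` with a change-of-group morphism
`c : PHom f Y' Z`: if `a : PHom f Y Z` has `a.φ_j = c.φ_j ∘ α.φ_j` then
`a.ppℍ^r = c.ppℍ^r ∘ α.mapℍ^r`; bijectivity transfers if `α` is termwise bijective.
`compRight_bijective`: post-composition with a linear equivalence is bijective.
-/
import Mathlib
import Fermat.Agent.PT.PRO.HyperRes25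
import Fermat.Agent.PT.PRO.HyperProd25
import Fermat.Agent.PT.PRO.HK20

set_option autoImplicit false

namespace Fermat.Agent.PT.PRO.PHomCompose13

open Function
open Fermat.Agent.PT.PRO.HyperLevel25 Fermat.Agent.PT.PRO.HyperRes25

section Compose

variable {k G H : Type*} [CommRing k] [Group G] [Group H]
variable {𝒰G : Set (Subgroup G)} {𝒰 : Set (Subgroup H)}
variable {Y0 Y1 Y0' Y1' Z0 Z1 : Type*}
  [AddCommGroup Y0] [Module k Y0] [AddCommGroup Y1] [Module k Y1]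
  [AddCommGroup Y0'] [Module k Y0'] [AddCommGroup Y1'] [Module k Y1']
  [AddCommGroup Z0] [Module k Z0] [AddCommGroup Z1] [Module k Z1]
variable {f : H →* G} {Y : Cx k 𝒰G Y0 Y1} {Y' : Cx k 𝒰G Y0' Y1'} {Z : Cx k 𝒰 Z0 Z1}
variable (a : PHom f Y Z) (c : PHom f Y' Z) (α : Cx.Hom Y Y')
  (h0 : ∀ y, a.φ0 y = c.φ0 (α.φ0 y)) (h1 : ∀ y, a.φ1 y = c.φ1 (α.φ1 y))
  (hf : IsLevelHom f 𝒰 𝒰G) (h𝒰G : IsLevelBasis 𝒰G) (h𝒰 : IsLevelBasis 𝒰)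

include h0 h1 in
/-- `a.ppℍ1 = c.ppℍ1 ∘ α.mapℍ1` if `a.φ_j = c.φ_j ∘ α.φ_j`. -/
theorem ppℍ1_eq_comp (x : Y.ℍ1 h𝒰G) :
    a.ppℍ1 hf h𝒰G h𝒰 x = c.ppℍ1 hf h𝒰G h𝒰 (α.mapℍ1 h𝒰G x) := by
  obtain ⟨z, rfl⟩ := (Y.tot h𝒰G).π1_surjective x
  change (Z.tot h𝒰).π1 ((a.tot hf h𝒰G h𝒰).mapZ1 z) =
    (Z.tot h𝒰).π1 ((c.tot hf h𝒰G h𝒰).mapZ1 ((α.tot h𝒰G).mapZ1 z))
  congr 1
  apply Subtype.ext
  apply Subtype.ext
  refine Prod.ext ?_ ?_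
  · funext g
    exact h0 _
  · exact h1 _

include h0 h1 in
/-- `a.ppℍ2 = c.ppℍ2 ∘ α.mapℍ2` if `a.φ_j = c.φ_j ∘ α.φ_j`. -/
theorem ppℍ2_eq_comp (x : Y.ℍ2 h𝒰G) :
    a.ppℍ2 hf h𝒰G h𝒰 x = c.ppℍ2 hf h𝒰G h𝒰 (α.mapℍ2 h𝒰G x) := by
  obtain ⟨z, rfl⟩ := (Y.tot h𝒰G).π2_surjective x
  change (Z.tot h𝒰).π2 ((a.tot hf h𝒰G h𝒰).mapZ2 z) =
    (Z.tot h𝒰).π2 ((c.tot hf h𝒰G h𝒰).mapZ2 ((α.tot h𝒰G).mapZ2 z))
  congr 1
  apply Subtype.ext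
  apply Subtype.ext
  refine Prod.ext ?_ ?_
  · funext g
    exact h0 _
  · funext g
    exact h1 _

include h0 h1 in
theorem ppℍ1_bijective_of_comp (hα0 : Bijective α.φ0) (hα1 : Bijective α.φ1)
    (hc : Bijective (c.ppℍ1 hf h𝒰G h𝒰)) : Bijective (a.ppℍ1 hf h𝒰G h𝒰) := by
  have hα := HyperProd25.bijective_mapℍ1_of_bijective α h𝒰G hα0 hα1
  have : ⇑(a.ppℍ1 hf h𝒰G h𝒰) = ⇑(c.ppℍ1 hf h𝒰G h𝒰) ∘ ⇑(α.mapℍ1 h𝒰G) :=
    funext (ppℍ1_eq_comp a c α h0 h1 hf h𝒰G h𝒰)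
  rw [this]
  exact hc.comp hα

include h0 h1 in
theorem ppℍ2_bijective_of_comp (hα0 : Bijective α.φ0) (hα1 : Bijective α.φ1)
    (hc : Bijective (c.ppℍ2 hf h𝒰G h𝒰)) : Bijective (a.ppℍ2 hf h𝒰G h𝒰) := by
  have hα := HyperProd25.bijective_mapℍ2_of_bijective α h𝒰G hα0 hα1
  have : ⇑(a.ppℍ2 hf h𝒰G h𝒰) = ⇑(c.ppℍ2 hf h𝒰G h𝒰) ∘ ⇑(α.mapℍ2 h𝒰G) :=
    funext (ppℍ2_eq_comp a c α h0 h1 hf h𝒰G h𝒰)
  rw [this]
  exact hc.comp hα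

end Compose

/-- Post-composition with a linear equivalence is bijective. -/
theorem compRight_bijective {k P X X' : Type*} [CommRing k] [AddCommGroup P] [Module k P]
    [AddCommGroup X] [Module k X] [AddCommGroup X'] [Module k X'] (e : X ≃ₗ[k] X') :
    Bijective (LinearMap.compRight k (M := P) e.toLinearMap) := by
  refine ⟨fun φ ψ h => ?_, fun ψ => ⟨e.symm.toLinearMap.comp ψ, ?_⟩⟩
  · ext x
    have := congrArg (fun χ : P →ₗ[k] X' => χ x) h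
    exact e.injective this
  · ext x
    simp

end Fermat.Agent.PT.PRO.PHomCompose13
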