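/-
Program F (S55, Poitou–Tate), chapter PRO, row 409 (FUNDRAW).  Owner: helper18.

`FundRaw18`: from the class-formation hypotheses `Interface8.IsFundClass p C u` on a finite group
`Q` (Mathlib `groupCohomology`) to the RAW cochain statements consumed by the limit argument:

* Part A (raw, generic `k`): `isCocycleOn_relIndex_smul` (the averaging lemma: a cocycle on `N`
  vanishing on `P ≤ N` is killed by `[N : P]` in `H¹(N)`), `h1NoPTorsion_of_sylow`
  (`H¹(P) = 0` for one `P ≤ N` of index prime to `p` ⇒ `H¹(N)` has no `p`-torsion);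
* Part B (`k = ℤ`, `C : Rep ℤ Q`): `isCoboundaryOn_of_subsingleton` (Mathlib `H1 (resSub H C)`
  trivial ⇒ raw cocycles on `H` are coboundaries), `h1NoPTorsion_of_h1`,
  `IsFundClass.h1NoPTorsion`.
-/
import Mathlib
import Fermat.Agent.PT.PRO.HyperColimP18
import Fermat.Agent.PT.FG.Interface8
import Fermat.Agent.PT.FG.Transfer2

set_option autoImplicit false

namespace Fermat.Agent.PT.PRO.FundRaw18

open Fermat.Agent.PT.PRO.HyperLevel25 Fermat.Agent.PT.PRO.GlobalDuality20
  Fermat.Agent.PT.PRO.HyperColim18 Fermat.Agent.PT.PRO.HyperColimP18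

/-! ## Part A: raw Sylow argument in degree 1 -/

section Raw

variable {k : Type*} [CommRing k] {G : Type*} [Group G] {X : Type*} [AddCommGroup X] [Module k X]
variable {ρ : Representation k G X} {N P : Subgroup G}

lemma isCocycleOn_dZero (x : X) : IsCocycleOn ρ N (dZero ρ x) := by
  intro s _ s' _
  simp only [dZero_apply, map_mul, Module.End.mul_apply, map_sub]
  abel

lemma isCoboundaryOn_dZero (x : X) : IsCoboundaryOn ρ N (dZero ρ x) :=
  ⟨x, fun _ _ => rfl⟩

lemma isCocycleOn_sub {v w : G → X} (hv : IsCocycleOn ρ N v) (hw : IsCocycleOn ρ N w) :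
    IsCocycleOn ρ N (v - w) := by
  intro s hs s' hs'
  simp only [Pi.sub_apply, hv s hs s' hs', hw s hs s' hs', map_sub]
  abel

lemma isCoboundaryOn_add {v w : G → X} (hv : IsCoboundaryOn ρ N v) (hw : IsCoboundaryOn ρ N w) :
    IsCoboundaryOn ρ N (v + w) := by
  obtain ⟨x, hx⟩ := hv
  obtain ⟨y, hy⟩ := hw
  exact ⟨x + y, fun s hs => by simp only [Pi.add_apply, hx s hs, hy s hs, map_add]; abel⟩

lemma isCoboundaryOn_sub {v w : G → X} (hv : IsCoboundaryOn ρ N v) (hw : IsCoboundaryOn ρ N w) :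
    IsCoboundaryOn ρ N (v - w) := by
  obtain ⟨x, hx⟩ := hv
  obtain ⟨y, hy⟩ := hw
  exact ⟨x - y, fun s hs => by simp only [Pi.sub_apply, hx s hs, hy s hs, map_sub]; abel⟩

lemma isCocycleOn_mono {v : G → X} (hv : IsCocycleOn ρ N v) (h : P ≤ N) : IsCocycleOn ρ P v :=
  fun s hs s' hs' => hv s (h hs) s' (h hs')

/-- **Averaging lemma**: a cocycle on `N` which vanishes on `P ≤ N` (of finite index in `N`) is
killed by `[N : P]` in `H¹(N)`. -/
theorem isCocycleOn_relIndex_smul [Finite (N ⧸ P.subgroupOf N)] {v : G → X}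
    (hv : IsCocycleOn ρ N v) (h0 : ∀ s ∈ P, v s = 0) :
    IsCoboundaryOn ρ N (((P.relIndex N : ℕ) : k) • v) := by
  classical
  have : Fintype (N ⧸ P.subgroupOf N) := Fintype.ofFinite _
  -- right-`P`-invariance on `N`
  have hinv : ∀ s : N, ∀ t : N, t ∈ P.subgroupOf N → v ((s * t : N) : G) = v s := by
    intro s t ht
    have ht' : (t : G) ∈ P := Subgroup.mem_subgroupOf.1 ht
    rw [Subgroup.coe_mul, hv s s.2 t t.2, h0 t ht', map_zero, zero_add]
  refine ⟨-∑ c : N ⧸ P.subgroupOf N, v (c.out : N), fun s hs => ?_⟩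
  -- translate the representatives
  have h1 : ∀ c : N ⧸ P.subgroupOf N,
      v (s * (c.out : N)) = v (((⟨s, hs⟩ : N) • c).out : N) := by
    intro c
    have hmk : ((⟨s, hs⟩ * c.out : N) : N ⧸ P.subgroupOf N) = (⟨s, hs⟩ : N) • c := by
      conv_rhs => rw [← QuotientGroup.out_eq' c]
      rfl
    obtain ⟨t, ht⟩ := QuotientGroup.mk_out_eq_mul (P.subgroupOf N) (⟨s, hs⟩ * c.out : N)
    rw [hmk] at ht
    have := hinv (⟨s, hs⟩ * c.out : N) t t.2
    rw [← ht] at this
    rw [this]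
    rfl
  have h2 : ∑ c : N ⧸ P.subgroupOf N, v (s * (c.out : N)) =
      ∑ c : N ⧸ P.subgroupOf N, v (c.out : N) := by
    rw [Finset.sum_congr rfl (fun c _ => h1 c)]
    exact Fintype.sum_equiv (MulAction.toPerm (⟨s, hs⟩ : N)) _ _ (fun c => rfl)
  have h3 : ∑ c : N ⧸ P.subgroupOf N, v (s * (c.out : N)) =
      ρ s (∑ c : N ⧸ P.subgroupOf N, v (c.out : N)) + ((P.relIndex N : ℕ) : k) • v s := by
    rw [map_sum, Nat.cast_smul_eq_nsmul, Subgroup.relIndex, Subgroup.index,
      Nat.card_eq_fintype_card, ← Finset.card_univ, ← Finset.sum_const, ← Finset.sum_add_distrib]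
    exact Finset.sum_congr rfl (fun c _ => hv s hs _ (c.out : N).2)
  rw [h2] at h3
  rw [Pi.smul_apply, map_neg]
  have : ((P.relIndex N : ℕ) : k) • v s =
      ∑ c : N ⧸ P.subgroupOf N, v (c.out : N) - ρ s (∑ c : N ⧸ P.subgroupOf N, v (c.out : N)) := by
    rw [eq_sub_iff_add_eq, add_comm, ← h3]
  rw [this]
  abel

/-- **Sylow argument in degree 1, raw form**: if `P ≤ N` has index prime to `p` in `N` and every
cocycle on `P` is a coboundary, then `H¹(N; X)` has no `p`-torsion. -/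
theorem h1NoPTorsion_of_sylow [Finite (N ⧸ P.subgroupOf N)] (hPN : P ≤ N) {p : ℕ}
    (hcop : Nat.Coprime p (P.relIndex N))
    (hP : ∀ v : G → X, IsCocycleOn ρ P v → IsCoboundaryOn ρ P v) : H1NoPTorsion ρ N p := by
  intro v hv hpv
  obtain ⟨x, hx⟩ := hP v (isCocycleOn_mono hv hPN)
  have hv' : IsCocycleOn ρ N (v - dZero ρ x) := isCocycleOn_sub hv (isCocycleOn_dZero x)
  have h0 : ∀ s ∈ P, (v - dZero ρ x) s = 0 := fun s hs => by
    simp only [Pi.sub_apply, dZero_apply, hx s hs, sub_self]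
  have hm := isCocycleOn_relIndex_smul hv' h0
  have hp' : IsCoboundaryOn ρ N ((p : k) • (v - dZero ρ x)) := by
    rw [smul_sub]
    exact isCoboundaryOn_sub hpv (IsCoboundaryOn.smul (isCoboundaryOn_dZero x) _)
  have hcop' : IsCoprime ((P.relIndex N : ℕ) : ℤ) (p : ℤ) := by
    rw [Int.isCoprime_iff_gcd_eq_one, Int.gcd_natCast_natCast, Nat.gcd_comm]
    exact hcop
  obtain ⟨α, β, hαβ⟩ := hcop'
  have hαβk : (α : k) * ((P.relIndex N : ℕ) : k) + (β : k) * (p : k) = 1 := by
    have := congrArg (Int.cast : ℤ → k) hαβ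
    simpa using this
  have h1 : v - dZero ρ x = (α : k) • (((P.relIndex N : ℕ) : k) • (v - dZero ρ x))
      + (β : k) • ((p : k) • (v - dZero ρ x)) := by
    rw [smul_smul, smul_smul, ← add_smul, hαβk, one_smul]
  have h2 : IsCoboundaryOn ρ N (v - dZero ρ x) := by
    rw [h1]
    exact isCoboundaryOn_add (IsCoboundaryOn.smul hm _) (IsCoboundaryOn.smul hp' _)
  have h3 : v = (v - dZero ρ x) + dZero ρ x := by abel
  rw [h3]
  exact isCoboundaryOn_add h2 (isCoboundaryOn_dZero x)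

end Raw

/-! ## Part B: from Mathlib group cohomology to raw cochains -/

section Bridge

open CategoryTheory groupCohomology Fermat.Agent.PT.FG.Interface8

variable {k : Type} [CommRing k] {Q : Type} [Group Q] (C : Rep.{0} k Q)

/-- If Mathlib's `H¹(H, C)` is trivial, raw cocycles on `H` are coboundaries. -/
theorem isCoboundaryOn_of_subsingleton (H : Subgroup Q)
    (h : Subsingleton (H1 (Rep.res H.subtype C)))
    (v : Q → C.V) (hv : IsCocycleOn C.ρ H v) : IsCoboundaryOn C.ρ H v := by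
  have hf : (fun s : H => v s.1) ∈ cocycles₁ (Rep.res H.subtype C) := by
    rw [mem_cocycles₁_iff]
    intro s t
    exact hv s s.2 t t.2
  have h0 : H1π (Rep.res H.subtype C) ⟨fun s : H => v s.1, hf⟩ = 0 := Subsingleton.elim _ _
  rw [H1π_eq_zero_iff] at h0
  obtain ⟨x, hx⟩ := h0
  refine ⟨x, fun s hs => ?_⟩
  have := congrFun hx ⟨s, hs⟩
  exact this.symm

/-- **`H¹(N; C)` has no `p`-torsion** (raw form) if `H¹(H, C) = 0` for all `p`-subgroups `H`. -/
theorem h1NoPTorsion_of_h1 [Finite Q] {p : ℕ} [Fact p.Prime]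
    (h1 : ∀ H : Subgroup Q, IsPGroup p H → Subsingleton (H1 (Rep.res H.subtype C)))
    (N : Subgroup Q) : H1NoPTorsion C.ρ N p := by
  obtain ⟨P⟩ : Nonempty (Sylow p N) := inferInstance
  have hPN : (P : Subgroup N).map N.subtype ≤ N := Subgroup.map_subtype_le _
  have hpg : IsPGroup p ((P : Subgroup N).map N.subtype) := P.isPGroup'.map _
  have hsub : ((P : Subgroup N).map N.subtype).subgroupOf N = (P : Subgroup N) :=
    Subgroup.comap_map_eq_self_of_injective (Subgroup.subtype_injective N) _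
  have hcop : Nat.Coprime p (((P : Subgroup N).map N.subtype).relIndex N) := by
    rw [Subgroup.relIndex, hsub]
    exact (Nat.Prime.coprime_iff_not_dvd Fact.out).2 P.not_dvd_index
  exact h1NoPTorsion_of_sylow hPN hcop
    (fun v hv => isCoboundaryOn_of_subsingleton C _ (h1 _ hpg) v hv)

end Bridge

section BridgeInt

open CategoryTheory groupCohomology Fermat.Agent.PT.FG.Interface8

variable {Q : Type} [Group Q] [Finite Q] {X : Type} [AddCommGroup X] [Module ℤ X]

/-- `IsFundClass` gives "no `p`-torsion in `H¹(N; X)`" for every subgroup `N`, raw form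
(`X` with an arbitrary `Module ℤ X` instance). -/
theorem h1NoPTorsion_of_isFundClass (ρ : Representation ℤ Q X) {p : ℕ} [Fact p.Prime]
    {u : H2 (Rep.of ρ)} (hu : IsFundClass p (Rep.of ρ) u) (N : Subgroup Q) :
    H1NoPTorsion ρ N p :=
  h1NoPTorsion_of_h1 (Rep.of ρ) hu.h1 N

end BridgeInt

/-! ## Part C: the `p`-torsion of `H²` has rank `≤ 1` -/

/-- Raw form of "`H²(G; X)[p]` has `𝔽_p`-dimension `≤ 1`": two 2-cocycles killed by `p` in
cohomology are linearly dependent modulo `p` and coboundaries. -/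
def H2pRankLeOne {k : Type*} [CommRing k] {G : Type*} [Group G] {X : Type*} [AddCommGroup X]
    [Module k X] (ρ : Representation k G X) (p : ℕ) : Prop :=
  ∀ φ ψ : G × G → X, dTwo ρ φ = 0 → dTwo ρ ψ = 0 →
    (∃ u, (p : k) • φ = dOne ρ u) → (∃ u, (p : k) • ψ = dOne ρ u) →
    ∃ a b : ℤ, ¬((p : ℤ) ∣ a ∧ (p : ℤ) ∣ b) ∧ ∃ w, (a : k) • φ + (b : k) • ψ = dOne ρ w

/-- In a finite cyclic group two elements killed by the prime `p` are dependent modulo `p`. -/
lemma exists_dependent {A : Type*} [AddCommGroup A] [Finite A] [IsAddCyclic A] {p : ℕ}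
    (hp : p.Prime) (a b : A) (ha : p • a = 0) (hb : p • b = 0) :
    ∃ α β : ℤ, ¬((p : ℤ) ∣ α ∧ (p : ℤ) ∣ β) ∧ α • a + β • b = 0 := by
  classical
  have : Fintype A := Fintype.ofFinite A
  have hcard : (Finset.univ.filter (fun t : A => p • t = 0)).card <
      (Finset.univ : Finset (Fin p × Fin p)).card := by
    have h1 := IsAddCyclic.card_nsmul_eq_zero_le (α := A) hp.pos
    have h2 : (Finset.univ : Finset (Fin p × Fin p)).card = p * p := by
      simp
    rw [h2]
    calc _ ≤ p := h1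
      _ < p * p := by nlinarith [hp.two_le]
  obtain ⟨⟨i, j⟩, -, ⟨i', j'⟩, -, hne, heq⟩ :=
    Finset.exists_ne_map_eq_of_card_lt_of_maps_to hcard
      (f := fun ij : Fin p × Fin p => ij.1.val • a + ij.2.val • b)
      (fun ij _ => by
        refine Finset.mem_coe.2 (Finset.mem_filter.2 ⟨Finset.mem_univ _, ?_⟩)
        rw [smul_add, smul_comm p, smul_comm p (ij.2.val), ha, hb, smul_zero, smul_zero,
          add_zero])
  refine ⟨(i.val : ℤ) - i'.val, (j.val : ℤ) - j'.val, ?_, ?_⟩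
  · rintro ⟨h1, h2⟩
    have hi := i.2
    have hi' := i'.2
    have hj := j.2
    have hj' := j'.2
    have e1 : (i.val : ℤ) - i'.val = 0 :=
      Int.eq_zero_of_abs_lt_dvd h1 (abs_lt.2 ⟨by omega, by omega⟩)
    have e2 : (j.val : ℤ) - j'.val = 0 :=
      Int.eq_zero_of_abs_lt_dvd h2 (abs_lt.2 ⟨by omega, by omega⟩)
    apply hne
    have e1' : i = i' := Fin.ext (by omega)
    have e2' : j = j' := Fin.ext (by omega)
    rw [e1', e2']
  · simp only at heq
    rw [sub_smul, sub_smul, natCast_zsmul, natCast_zsmul, natCast_zsmul, natCast_zsmul]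
    rw [← sub_eq_zero] at heq
    rw [← heq]
    abel

section BridgeTwo

open CategoryTheory groupCohomology Fermat.Agent.PT.FG Fermat.Agent.PT.FG.Interface8

variable {k : Type} [CommRing k] {Q : Type} [Group Q] (C : Rep.{0} k Q)

lemma mem_cocycles₂_of_dTwo {φ : Q × Q → C.V} (h : dTwo C.ρ φ = 0) : φ ∈ cocycles₂ C := by
  rw [mem_cocycles₂_iff]
  intro g h' j
  have := congrFun h (g, h', j)
  simp only [dTwo_apply, Pi.zero_apply] at this
  rw [← sub_eq_zero, ← neg_eq_zero, ← this]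
  abel

lemma H2π_eq_zero_of_dOne {φ : Q × Q → C.V} (hφ : φ ∈ cocycles₂ C) {w : Q → C.V}
    (h : φ = dOne C.ρ w) : H2π C ⟨φ, hφ⟩ = 0 := by
  rw [H2π_eq_zero_iff]
  exact ⟨w, h.symm⟩

lemma exists_dOne_of_H2π_eq_zero {φ : Q × Q → C.V} (hφ : φ ∈ cocycles₂ C)
    (h : H2π C ⟨φ, hφ⟩ = 0) : ∃ w : Q → C.V, φ = dOne C.ρ w := by
  rw [H2π_eq_zero_iff] at h
  obtain ⟨w, hw⟩ := h
  exact ⟨w, hw.symm⟩

/-- **`H²(Q; C)[p]` has rank `≤ 1`** (raw form) if `H²(P, C)` is finite cyclic for one Sylow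
`p`-subgroup `P`. -/
theorem h2pRankLeOne_of_cyclic [Finite Q] {p : ℕ} [Fact p.Prime] (P : Sylow p Q)
    [Finite (H2 (Rep.res (P : Subgroup Q).subtype C))]
    [IsAddCyclic (H2 (Rep.res (P : Subgroup Q).subtype C))] : H2pRankLeOne C.ρ p := by
  rintro φ ψ hφ hψ ⟨u₁, hu₁⟩ ⟨u₂, hu₂⟩
  have hφc := mem_cocycles₂_of_dTwo C hφ
  have hψc := mem_cocycles₂_of_dTwo C hψ
  have hx : p • H2π C ⟨φ, hφc⟩ = 0 := by
    rw [← Nat.cast_smul_eq_nsmul k, ← map_smul]
    exact H2π_eq_zero_of_dOne C ((cocycles₂ C).smul_mem _ hφc) hu₁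
  have hy : p • H2π C ⟨ψ, hψc⟩ = 0 := by
    rw [← Nat.cast_smul_eq_nsmul k, ← map_smul]
    exact H2π_eq_zero_of_dOne C ((cocycles₂ C).smul_mem _ hψc) hu₂
  obtain ⟨α, β, hαβ, hdep⟩ := exists_dependent (Fact.out : p.Prime)
    ((Transfer2.jMap (P : Subgroup Q) C 2).hom (H2π C ⟨φ, hφc⟩))
    ((Transfer2.jMap (P : Subgroup Q) C 2).hom (H2π C ⟨ψ, hψc⟩))
    (by rw [← map_nsmul, hx, map_zero]) (by rw [← map_nsmul, hy, map_zero])
  refine ⟨α, β, hαβ, ?_⟩
  have hmem : (α : k) • φ + (β : k) • ψ ∈ cocycles₂ C :=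
    (cocycles₂ C).add_mem ((cocycles₂ C).smul_mem _ hφc) ((cocycles₂ C).smul_mem _ hψc)
  have hz : H2π C ⟨(α : k) • φ + (β : k) • ψ, hmem⟩ =
      α • H2π C ⟨φ, hφc⟩ + β • H2π C ⟨ψ, hψc⟩ := by
    rw [← Int.cast_smul_eq_zsmul k α, ← Int.cast_smul_eq_zsmul k β, ← map_smul, ← map_smul,
      ← map_add]
    rfl
  apply exists_dOne_of_H2π_eq_zero C hmem
  apply Transfer2.eq_zero_of_jMap_eq_zero (P : Subgroup Q) C (Transfer2.sylow_coprime_index P) 2
  · refine ⟨1, ?_⟩
    rw [pow_one, hz, smul_add, smul_comm p α, smul_comm p β, hx, hy, smul_zero, smul_zero,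
      add_zero]
  · rw [hz, map_add, map_zsmul, map_zsmul]
    exact hdep

end BridgeTwo

section BridgeTwoInt

open CategoryTheory groupCohomology Fermat.Agent.PT.FG.Interface8

variable {Q : Type} [Group Q] [Finite Q] {X : Type} [AddCommGroup X] [Module ℤ X]

/-- `IsFundClass` gives "`H²(Q; X)[p]` has rank `≤ 1`", raw form. -/
theorem h2pRankLeOne_of_isFundClass (ρ : Representation ℤ Q X) {p : ℕ} [Fact p.Prime]
    {u : H2 (Rep.of ρ)} (hu : IsFundClass p (Rep.of ρ) u) : H2pRankLeOne ρ p := by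
  obtain ⟨P⟩ : Nonempty (Sylow p Q) := inferInstance
  have hcard := hu.card P P.isPGroup'
  have hord := hu.order P P.isPGroup'
  have hfin : Finite (H2 (Rep.res (P : Subgroup Q).subtype (Rep.of ρ))) :=
    Nat.finite_of_card_ne_zero (by rw [hcard]; exact Nat.card_pos.ne')
  have hcyc : IsAddCyclic (H2 (Rep.res (P : Subgroup Q).subtype (Rep.of ρ))) :=
    isAddCyclic_of_addOrderOf_eq_card _ (hord.trans hcard.symm)
  exact h2pRankLeOne_of_cyclic (Rep.of ρ) P

end BridgeTwoInt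

/-! ## Versions for an abstract `C : Rep ℤ Q` and the consumer forms

At `k = ℤ` the instance `Module ℤ C.V` carried by `C : Rep ℤ Q` (or by a submodule such as
`fixedSub V ρ`) is not syntactically the canonical `ℤ`-module structure found by type class
search, so the statements below pass it explicitly; they are what the generic-`k` statements of
`HyperColimP18`/`DescendRes18` specialise to. -/

section Abstract

open CategoryTheory groupCohomology Fermat.Agent.PT.FG.Interface8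

variable {Q : Type} [Group Q] [Finite Q]

/-- `IsFundClass` gives "no `p`-torsion in `H¹(N; C)`" for every subgroup `N` (raw form). -/
theorem h1NoPTorsion_of_isFundClass' {C : Rep ℤ Q} {p : ℕ} [Fact p.Prime] {u : H2 C}
    (hu : IsFundClass p C u) (N : Subgroup Q) :
    @H1NoPTorsion ℤ _ Q _ C.V _ C.hV2 C.ρ N p :=
  h1NoPTorsion_of_h1 C hu.h1 N

/-- `IsFundClass` gives "`H²(Q; C)[p]` has rank `≤ 1`" (raw form). -/
theorem h2pRankLeOne_of_isFundClass' {C : Rep ℤ Q} {p : ℕ} [Fact p.Prime] {u : H2 C}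
    (hu : IsFundClass p C u) : @H2pRankLeOne ℤ _ Q _ C.V _ C.hV2 C.ρ p := by
  obtain ⟨P⟩ : Nonempty (Sylow p Q) := inferInstance
  have hcard := hu.card P P.isPGroup'
  have hord := hu.order P P.isPGroup'
  have hfin : Finite (H2 (Rep.res (P : Subgroup Q).subtype C)) :=
    Nat.finite_of_card_ne_zero (by rw [hcard]; exact Nat.card_pos.ne')
  have hcyc : IsAddCyclic (H2 (Rep.res (P : Subgroup Q).subtype C)) :=
    isAddCyclic_of_addOrderOf_eq_card _ (hord.trans hcard.symm)
  exact h2pRankLeOne_of_cyclic C P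

end Abstract

section Consumer

open CategoryTheory groupCohomology

variable {k : Type} [CommRing k] {G : Type} [Group G] {C : Type} [AddCommGroup C] [Module k C]

/-- The finite-level module `C^V` over `G ⧸ V` as an object of `Rep k (G ⧸ V)` (generic `k`, so
that the module instance is the submodule one also at `k = ℤ`). -/
def fixedObj (V : Subgroup G) [V.Normal] (ρC : Representation k G C) : Rep.{0} k (G ⧸ V) :=
  Rep.of (fixedRep V ρC)

@[simp] lemma fixedObj_ρ (V : Subgroup G) [V.Normal] (ρC : Representation k G C) :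
    (fixedObj V ρC).ρ = fixedRep V ρC := rfl

/-- If at every finite level `(G ⧸ V', C^{V'})` (`V' ∈ 𝒰` normal) `H¹` vanishes on `p`-subgroups
(the field `h1` of `Interface8.IsFundClass p (fixedObj V' ρC) u`), then `H¹(V/V'; C^{V'})` has
no `p`-torsion (raw form) for all `V' ≤ V`: the hypothesis `hH1` of `DescendRes18.hypP_datum`. -/
theorem hH1_of_h1 (ρC : Representation k G C) {𝒰 : Set (Subgroup G)}
    (h𝒰 : IsLevelBasis 𝒰) {p : ℕ} [Fact p.Prime]
    (hfund : ∀ V' ∈ 𝒰, ∀ hn : V'.Normal, haveI := hn;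
      ∀ H : Subgroup (G ⧸ V'), IsPGroup p H →
        Subsingleton (H1 (Rep.res H.subtype (fixedObj V' ρC))))
    (V : Subgroup G) : ∀ V' ∈ 𝒰, ∀ _ : V'.Normal, V' ≤ V →
      H1NoPTorsion (fixedRep V' ρC) (V.map (QuotientGroup.mk' V')) p := by
  intro V' hV' hn _
  have : V'.FiniteIndex := h𝒰.finiteIndex V' hV'
  exact h1NoPTorsion_of_h1 (fixedObj V' ρC) (hfund V' hV' hn) _

/-- If `H²(P, C^{V})` is finite cyclic for a Sylow `p`-subgroup `P` of `G ⧸ V`, then
`H²(G ⧸ V; C^V)[p]` has rank `≤ 1` (raw form). -/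
theorem h2pRankLeOne_fixedRep (ρC : Representation k G C) (V : Subgroup G) [V.Normal]
    [Finite (G ⧸ V)] {p : ℕ} [Fact p.Prime] (P : Sylow p (G ⧸ V))
    [Finite (H2 (Rep.res (P : Subgroup (G ⧸ V)).subtype (fixedObj V ρC)))]
    [IsAddCyclic (H2 (Rep.res (P : Subgroup (G ⧸ V)).subtype (fixedObj V ρC)))] :
    H2pRankLeOne (fixedRep V ρC) p :=
  h2pRankLeOne_of_cyclic (fixedObj V ρC) P

end Consumer

end Fermat.Agent.PT.PRO.FundRaw18
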