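/-
Program F (S55, Poitou–Tate), chapter PRO, helper12.

`FundHyp12`: the finite-level hypotheses `HypR` / `HypP` of the limit argument for `K(P; C)`, from
FUNDAMENTAL CLASSES AT FINITE LEVELS.

For a level group `(G, 𝒰)`, a discrete `C`, a resolved module `P₁ → P₀ → M` (`P₀, P₁` f.g. free,
`P₀` discrete, `p M = 0`), assume that for every normal `V ∈ 𝒰` the finite group `G ⧸ V` acting
on `C^V` has a class `u` with `Interface8.IsFundClass p (fixedObj V ρC) u`.  Then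
(`tn02r_raw`, `tn02l_raw` of FG + `DescendRes18` + `FundRaw18`) the `(1,1)`-pairing of `K(P; C)`
has trivial right kernel, and trivial left kernel if moreover `RECN` holds.

To avoid the `ℤ`-module diamond (`AddCommGroup.toIntModule` versus `LinearMap.module`,
`Submodule.module`) the statements are split into
* a `k`-GENERIC part (`k : Type`, a PID): Props `TNrFixed`, `TNlFixed`, `H1Fixed` (the finite-level
  inputs), `goodSet`, `hypR_of_fixed`, `hypP_of_fixed`, and the packaged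
  `pair11_right_kernel_of_fixed`, `pair11_left_kernel_of_fixed`;
* a `ℤ`-part whose statements only involve the `k`-generic definitions:
  `tnrFixed_of_fund`, `tnlFixed_of_fund`, `h1Fixed_of_fund`.
-/
import Mathlib
import Fermat.Agent.PT.PRO.RightKernel12
import Fermat.Agent.PT.PRO.FundRaw18
import Fermat.Agent.PT.FG.TN02Final3

set_option autoImplicit false

namespace Fermat.Agent.PT.PRO.FundHyp12

open Fermat.Agent.PT.PRO.HyperLevel25 Fermat.Agent.PT.PRO.Pairing20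
  Fermat.Agent.PT.PRO.GlobalDuality20 Fermat.Agent.PT.PRO.GlobalDuality20b
  Fermat.Agent.PT.PRO.HyperColim18 Fermat.Agent.PT.PRO.HyperColimP18
  Fermat.Agent.PT.PRO.IndResTransport20 Fermat.Agent.PT.PRO.IndRes20
  Fermat.Agent.PT.PRO.DescendRes18 Fermat.Agent.PT.PRO.RightKernel12
  Fermat.Agent.PT.PRO.FundRaw18 Fermat.Agent.PT.PRO.IndTN20
open Fermat.Agent.PT.FG.Interface8
open groupCohomology

section Good

variable {k : Type*} [CommRing k] {G : Type*} [Group G] {Y : Type*} [AddCommGroup Y] [Module k Y]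

/-- The normal members of `𝒰` acting trivially on `Y`. -/
def goodSet (𝒰 : Set (Subgroup G)) (ρ : Representation k G Y) : Set (Subgroup G) :=
  {V | V ∈ 𝒰 ∧ V.Normal ∧ ∀ s ∈ V, ∀ x, ρ s x = x}

theorem goodSet_sub (𝒰 : Set (Subgroup G)) (ρ : Representation k G Y) : goodSet 𝒰 ρ ⊆ 𝒰 :=
  fun _ h => h.1

theorem goodSet_normal (𝒰 : Set (Subgroup G)) (ρ : Representation k G Y) :
    ∀ V ∈ goodSet 𝒰 ρ, V.Normal := fun _ h => h.2.1

theorem goodSet_trivial (𝒰 : Set (Subgroup G)) (ρ : Representation k G Y) :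
    ∀ V ∈ goodSet 𝒰 ρ, ∀ s ∈ V, ∀ x, ρ s x = x := fun _ h => h.2.2

/-- For a finitely generated discrete module the good subgroups are cofinal. -/
theorem goodSet_cofinal {𝒰 : Set (Subgroup G)} (h𝒰 : IsLevelBasis 𝒰) (ρ : Representation k G Y)
    [Module.Finite k Y] (hρ : IsDiscrete 𝒰 ρ) : ∀ U ∈ 𝒰, ∃ V ∈ goodSet 𝒰 ρ, V ≤ U := by
  intro U hU
  obtain ⟨S, hS⟩ := (Module.Finite.fg_top : (⊤ : Submodule k Y).FG)
  choose W hW hWfix using hρ
  -- a member below `U` and all the `W s`, `s ∈ S`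
  obtain ⟨W₀, hW₀, hle⟩ := h𝒰.exists_le_of_finite
    (fun i : Option ↥S => i.elim U (fun s => W s.1))
    (fun i => by cases i with
      | none => exact hU
      | some s => exact hW s.1)
  obtain ⟨V, hV, hVle, hVn⟩ := h𝒰.normal W₀ hW₀
  refine ⟨V, ⟨hV, hVn, fun s hs x => ?_⟩, hVle.trans (hle none)⟩
  -- the fixed vectors of `s` form a submodule containing the generators
  have hx : x ∈ Submodule.span k (S : Set Y) := by rw [hS]; trivial
  refine Submodule.span_induction (p := fun y _ => ρ s y = y) ?_ ?_ ?_ ?_ hx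
  · intro y hy
    exact hWfix y s (hle (some ⟨y, hy⟩) (hVle hs))
  · exact map_zero _
  · intro y z _ _ hy hz
    rw [map_add, hy, hz]
  · intro a y _ hy
    rw [map_smul, hy]

end Good

/-! ### The `k`-generic part -/

section Generic

variable {k : Type} [CommRing k] {G : Type} [Group G] {P1 P0 M C : Type}
  [AddCommGroup P1] [Module k P1] [AddCommGroup P0] [Module k P0] [AddCommGroup M] [Module k M]
  [AddCommGroup C] [Module k C]

/-- Finite-level input: raw `(0,2)` Tate–Nakayama, right kernel, for all f.g. free modules over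
all finite quotients `G ⧸ V` with coefficients `C^V`. -/
def TNrFixed (ρC : Representation k G C) (𝒰 : Set (Subgroup G)) (p : ℕ) : Prop :=
  ∀ V ∈ 𝒰, ∀ hn : V.Normal, haveI := hn;
    ∀ (_ : Fintype (G ⧸ V)) (_ : DecidableEq (G ⧸ V)) (P : Type) [AddCommGroup P] [Module k P]
      (_ : Module.Free k P) (_ : Module.Finite k P) (ρ : Representation k (G ⧸ V) P),
      TN02rProp ρ (fixedRep V ρC) p

/-- Finite-level input: raw `(0,2)` Tate–Nakayama, left kernel. -/
def TNlFixed (ρC : Representation k G C) (𝒰 : Set (Subgroup G)) (p : ℕ) : Prop :=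
  ∀ V ∈ 𝒰, ∀ hn : V.Normal, haveI := hn;
    ∀ (_ : Fintype (G ⧸ V)) (_ : DecidableEq (G ⧸ V)) (P : Type) [AddCommGroup P] [Module k P]
      (_ : Module.Free k P) (_ : Module.Finite k P) (ρ : Representation k (G ⧸ V) P),
      TN02lProp ρ (fixedRep V ρC) p

/-- Finite-level input: `H¹(H, C^V) = 0` for the `p`-subgroups `H` of the finite quotients. -/
def H1Fixed (ρC : Representation k G C) (𝒰 : Set (Subgroup G)) (p : ℕ) : Prop :=
  ∀ V ∈ 𝒰, ∀ hn : V.Normal, haveI := hn;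
    ∀ H : Subgroup (G ⧸ V), IsPGroup p H →
      Subsingleton (H1 (Rep.res H.subtype (fixedObj V ρC)))

variable [IsDomain k] [IsPrincipalIdealRing k]

/-- The induced module `P₁'` of a resolution by f.g. free modules over a finite group is
f.g. free. -/
theorem free_finite_indP1 {Q : Type} [Group Q] [Fintype Q] (R : Res k Q P1 P0 M)
    [Module.Free k P0] [Module.Finite k P0] [Module.Free k P1] [Module.Finite k P1] :
    Module.Free k ↥(indP1 R) ∧ Module.Finite k ↥(indP1 R) := by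
  have : Module.Finite k (Q → P0) := Module.Finite.pi
  have : Module.Free k (Q → P0) := Module.Free.pi _ _
  exact ⟨inferInstance, inferInstance⟩

variable (R : Res k G P1 P0 M) (ρC : Representation k G C) {𝒰 : Set (Subgroup G)} {p : ℕ}
  [Fact p.Prime]
  [Module.Free k P0] [Module.Finite k P0] [Module.Free k P1] [Module.Finite k P1]

/-- **`HypR` for `K(P; C)` from the finite-level inputs.** -/
theorem hypR_of_fixed (h𝒰 : IsLevelBasis 𝒰) (hpM : ∀ m : M, (p : k) • m = 0)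
    (hC : IsDiscrete 𝒰 ρC) (h0 : IsDiscrete 𝒰 R.ρ0)
    (hTNr : TNrFixed ρC 𝒰 p) (hH1 : H1Fixed ρC 𝒰 p) :
    HypR (R.datum ρC) 𝒰 (goodSet 𝒰 R.ρ0) p := by
  refine hypR_datum_of_TN02 R ρC h𝒰 (Fact.out : p.Prime) hpM hC (goodSet_sub 𝒰 R.ρ0)
    (goodSet_normal 𝒰 R.ρ0) (goodSet_cofinal h𝒰 R.ρ0 h0)
    (fun V hV => h𝒰.finiteIndex V hV.1) (goodSet_trivial 𝒰 R.ρ0) ?_ ?_
  · intro V hV
    have := goodSet_normal 𝒰 R.ρ0 V hV
    intro i1 i2
    obtain ⟨hfree, hfin⟩ := free_finite_indP1 (resQuot R V (goodSet_trivial 𝒰 R.ρ0 V hV))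
    exact hTNr V hV.1 hV.2.1 i1 i2 _ hfree hfin _
  · intro V _
    exact hH1_of_h1 ρC h𝒰 hH1 V

/-- **`HypP` for `K(P; C)` from the finite-level inputs** and `RECN`. -/
theorem hypP_of_fixed (h𝒰 : IsLevelBasis 𝒰) (hpM : ∀ m : M, (p : k) • m = 0)
    (hC : IsDiscrete 𝒰 ρC) (h0 : IsDiscrete 𝒰 R.ρ0)
    (hTNl : TNlFixed ρC 𝒰 p) (hTNr : TNrFixed ρC 𝒰 p) (hH1 : H1Fixed ρC 𝒰 p)
    (hRECN : ∀ U ∈ goodSet 𝒰 R.ρ0, ∃ V ∈ goodSet 𝒰 R.ρ0, V ≤ U ∧
      ∀ e, FixedBy (R.datum ρC).ρY1 V e →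
        ∃ n' : P1 →ₗ[k] C, (∀ g, (R.datum ρC).ρY1 g n' = n') ∧
          nrm (R.datum ρC).ρY1 V e = (p : k) • n') :
    HypP (R.datum ρC) 𝒰 (goodSet 𝒰 R.ρ0) p := by
  refine hypP_datum R ρC h𝒰 (Fact.out : p.Prime) hpM hC (goodSet_sub 𝒰 R.ρ0)
    (goodSet_normal 𝒰 R.ρ0) (goodSet_cofinal h𝒰 R.ρ0 h0) ?_ ?_ ?_ hRECN
  · intro V hV
    have := goodSet_normal 𝒰 R.ρ0 V hV
    have := h𝒰.finiteIndex V hV.1
    classical
    let i1 : Fintype (G ⧸ V) := Fintype.ofFinite _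
    obtain ⟨hfree, hfin⟩ := free_finite_indP1 (resQuot R V (goodSet_trivial 𝒰 R.ρ0 V hV))
    exact tnlAt_datum_of_TN02 R ρC V (goodSet_trivial 𝒰 R.ρ0 V hV) p hpM
      (hTNl V hV.1 hV.2.1 i1 inferInstance _ hfree hfin _)
  · intro V hV
    have := goodSet_normal 𝒰 R.ρ0 V hV
    have := h𝒰.finiteIndex V hV.1
    classical
    let i1 : Fintype (G ⧸ V) := Fintype.ofFinite _
    obtain ⟨hfree, hfin⟩ := free_finite_indP1 (resQuot R V (goodSet_trivial 𝒰 R.ρ0 V hV))
    exact tnrAt_datum_of_TN02 R ρC V (goodSet_trivial 𝒰 R.ρ0 V hV) p hpM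
      (hTNr V hV.1 hV.2.1 i1 inferInstance _ hfree hfin _)
  · intro V _
    exact hH1_of_h1 ρC h𝒰 hH1 V

end Generic

/-! ### Packaged form for `Resolved4.Resolved` and `ExtPairingB4.evalPairing` (`k`-generic) -/

section Packaged

open Function Fermat.Agent.PT.PRO.Resolved4 Fermat.Agent.PT.PRO.ExtPairing4
  Fermat.Agent.PT.PRO.ExtPairingB4

variable {k : Type} [CommRing k] {G : Type} [Group G] {𝒰 : Set (Subgroup G)}
variable {P1 P0 M C : Type} [AddCommGroup P1] [Module k P1]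
  [AddCommGroup P0] [Module k P0] [AddCommGroup M] [Module k M] [AddCommGroup C] [Module k C]

/-- The raw resolution underlying a resolved module. -/
def toRes (P : Resolved k 𝒰 P1 P0 M) : Res k G P1 P0 M where
  ρ1 := P.ρ1
  ρ0 := P.ρ0
  ρM := P.ρM
  ι := P.ι
  ι_comm := P.ι_comm
  ι_inj := P.ι_inj
  π := P.π
  π_comm := P.π_comm
  π_surj := P.π_surj
  exact x := P.exact x

variable (P : Resolved k 𝒰 P1 P0 M) [Module.Finite k P0] [Module.Finite k P1]
  (h𝒰 : IsLevelBasis 𝒰) (ρC : Representation k G C) (hC : IsDiscrete 𝒰 ρC)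

/-- The datum of the evaluation pairing of `K(P; C)` is the datum of the raw resolution. -/
theorem toDatum_evalPairing :
    toDatum (evalPairing P h𝒰 ρC hC) = (toRes P).datum ρC := rfl

/-- The `(1,1)`-pairing `ℍ¹(K(P; C)) × H¹(M) → H²(C)` has trivial right kernel. -/
def RightKernelTrivial : Prop :=
  ∀ x : Hlev1 h𝒰 P.ρM P.discM,
    (∀ ξ, pair11 (evalPairing P h𝒰 ρC hC) h𝒰 hC ξ x = 0) → x = 0

/-- The `(1,1)`-pairing `ℍ¹(K(P; C)) × H¹(M) → H²(C)` has trivial left kernel. -/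
def LeftKernelTrivial : Prop :=
  ∀ ξ : (P.K h𝒰 ρC hC).ℍ1 h𝒰,
    (∀ x, pair11 (evalPairing P h𝒰 ρC hC) h𝒰 hC ξ x = 0) → ξ = 0

/-- The hypothesis `RECN` for `K(P; C)` on the good subgroups. -/
def RecnGood (p : ℕ) : Prop :=
  ∀ U ∈ goodSet 𝒰 P.ρ0, ∃ V ∈ goodSet 𝒰 P.ρ0, V ≤ U ∧
    ∀ e, FixedBy (Representation.linHom P.ρ1 ρC) V e →
      ∃ n' : P1 →ₗ[k] C, (∀ g, Representation.linHom P.ρ1 ρC g n' = n') ∧
        nrm (Representation.linHom P.ρ1 ρC) V e = (p : k) • n'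

variable {p : ℕ} [Fact p.Prime] [IsDomain k] [IsPrincipalIdealRing k]
  [Module.Free k P0] [Module.Free k P1]

/-- **Right kernel of the `(1,1)`-pairing of `K(P; C)`** from the finite-level inputs (no `RECN`:
this is the form for the LOCAL data). -/
theorem pair11_right_kernel_of_fixed (hpM : ∀ m : M, p • m = 0)
    (hTNr : TNrFixed ρC 𝒰 p) (hH1 : H1Fixed ρC 𝒰 p) :
    RightKernelTrivial P h𝒰 ρC hC := fun x h =>
  pair11_right_kernel_r (evalPairing P h𝒰 ρC hC) h𝒰 hC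
    (ℱ := goodSet 𝒰 P.ρ0) (p := p)
    (by
      rw [toDatum_evalPairing]
      exact hypR_of_fixed (toRes P) ρC h𝒰
        (fun m => (Nat.cast_smul_eq_nsmul k p m).trans (hpM m)) hC P.disc0 hTNr hH1) x h

/-- **Left kernel of the `(1,1)`-pairing of `K(P; C)`** from the finite-level inputs and `RECN`
(GLOBAL data). -/
theorem pair11_left_kernel_of_fixed (hpM : ∀ m : M, p • m = 0)
    (hTNl : TNlFixed ρC 𝒰 p) (hTNr : TNrFixed ρC 𝒰 p) (hH1 : H1Fixed ρC 𝒰 p)
    (hRECN : RecnGood P ρC p) :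
    LeftKernelTrivial P h𝒰 ρC hC := fun ξ h =>
  pair11_left_kernel (evalPairing P h𝒰 ρC hC) h𝒰 hC
    (ℱ := goodSet 𝒰 P.ρ0) (p := p)
    (by
      rw [toDatum_evalPairing]
      exact hypP_of_fixed (toRes P) ρC h𝒰
        (fun m => (Nat.cast_smul_eq_nsmul k p m).trans (hpM m)) hC P.disc0 hTNl hTNr hH1
        hRECN) ξ h

end Packaged

/-! ### The `ℤ`-part: the finite-level inputs from fundamental classes -/

section Int

variable {G : Type} [Group G] {C : Type} [AddCommGroup C] [Module ℤ C]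
  (ρC : Representation ℤ G C) {𝒰 : Set (Subgroup G)} {p : ℕ} [Fact p.Prime]

/-- Fundamental classes at all finite levels of `(G, 𝒰, C)`. -/
def FundFixed (ρC : Representation ℤ G C) (𝒰 : Set (Subgroup G)) (p : ℕ) : Prop :=
  ∀ V ∈ 𝒰, ∀ hn : V.Normal, haveI := hn;
    ∃ u : H2 (fixedObj V ρC), IsFundClass p (fixedObj V ρC) u

theorem tnrFixed_of_fund (hfund : FundFixed ρC 𝒰 p) : TNrFixed ρC 𝒰 p := by
  intro V hV hn
  have := hn
  intro i1 i2 P _ _ hfree hfin ρ
  obtain ⟨u, hu⟩ := hfund V hV hn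
  exact @Fermat.Agent.PT.FG.TN02Final3.tn02r_raw _ _ _ _ _ _ (fixedSub V ρC).addCommGroup
    (fixedSub V ρC).module ρ (fixedRep V ρC) i1 p _ hfree hfin u hu

theorem tnlFixed_of_fund (hfund : FundFixed ρC 𝒰 p) : TNlFixed ρC 𝒰 p := by
  intro V hV hn
  have := hn
  intro i1 i2 P _ _ hfree hfin ρ
  obtain ⟨u, hu⟩ := hfund V hV hn
  exact @Fermat.Agent.PT.FG.TN02Final3.tn02l_raw _ _ _ _ _ _ (fixedSub V ρC).addCommGroup
    (fixedSub V ρC).module ρ (fixedRep V ρC) i1 p _ hfree hfin u hu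

omit [Fact p.Prime] in
theorem h1Fixed_of_fund (hfund : FundFixed ρC 𝒰 p) : H1Fixed ρC 𝒰 p := by
  intro V hV hn
  have := hn
  obtain ⟨u, hu⟩ := hfund V hV hn
  exact hu.h1

end Int

end Fermat.Agent.PT.PRO.FundHyp12
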