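/-
Program F (S55, Poitou–Tate), chapter PRO, helper29.

`LevelEquiv29`: the three models of plain level cohomology on main agree.

* `LevelCoh28.H1 / H2 𝓑 A`   (helper28; `Rep k G`, bundled `LevelBasis`; used by BR's `ShaBridge13`);
* `Resolved4.Hlev1 / Hlev2`   (helper4; `lvl`, plain `Representation`; target of `pair11`);
* `HyperCompare25.Hp1 / Hp2`  (helper25; `plainCpx`; cone sequence, `incl1/incl2`, `plainPHom`).

Contents: `plainCpx_eq_lvl` (`rfl`); linear equivalences `h1Equiv`, `h2Equiv :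
LevelCoh28.H_i 𝓑 A ≃ₗ[k] Hlev_i (basis 𝓑) A.ρ _` with formulas on representatives; the SAME for
the underlying `ℤ`-representation (`k = ZMod p` ⇝ `ℤ`): additive equivalences `h1IntEquiv`,
`h2IntEquiv : LevelCoh28.H_i 𝓑 A ≃+ Hlev_i (basis 𝓑) (IntRep20.intRep A) _`; naturality of all
four for coefficient maps (`LevelCoh28.mapH_i` vs `lvlHom`) and for change of group
(`LevelCohRes28.ppH_i` vs `HyperRes25.plainPHom`); `ppH_i_eq_zero_iff` (vanishing of a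
localisation can be tested in either model); `h_iIntEquiv_eq_dict`, `h_iEquiv_eq_dict`: these
equivalences are helper13's generic `LevelDict13.H_iAddEquiv` at `e = AddEquiv.refl`, so the
naturality lemmas here apply to them as well.
-/
import Mathlib
import Fermat.Agent.PT.PRO.HyperLevel25
import Fermat.Agent.PT.PRO.HyperCompare25
import Fermat.Agent.PT.PRO.HyperRes25
import Fermat.Agent.PT.PRO.Resolved4
import Fermat.Agent.PT.PRO.LevelCoh28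
import Fermat.Agent.PT.PRO.LevelCohRes28
import Fermat.Agent.PT.PRO.LevelCompare13
import Fermat.Agent.PT.PRO.IntRep20
import Fermat.Agent.PT.PRO.LevelDict13

set_option autoImplicit false

universe u

namespace Fermat.Agent.PT.PRO.LevelEquiv29

open Function Fermat.Agent.PT.PRO Fermat.Agent.PT.PRO.HyperLevel25 Fermat.Agent.PT.PRO.IntRep20

/-! ### `plainCpx = lvl` -/

section Same

variable {k G : Type*} [CommRing k] [Group G] {𝒰 : Set (Subgroup G)}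
variable {Y : Type*} [AddCommGroup Y] [Module k Y]

theorem plainCpx_eq_lvl (h𝒰 : IsLevelBasis 𝒰) (ρ : Representation k G Y) (hρ : IsDiscrete 𝒰 ρ) :
    HyperCompare25.plainCpx h𝒰 ρ hρ = Resolved4.lvl h𝒰 ρ hρ := rfl

end Same

/-! ### `LevelCoh28.H_i ≃ Hlev_i` -/

section Equiv

variable {k G : Type u} [CommRing k] [Group G] (𝓑 : LevelCoh28.LevelBasis G) (A : Rep.{u} k G)

/-- The `HyperLevel25` form of the basis axioms. -/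
theorem basis (𝓑 : LevelCoh28.LevelBasis G) : IsLevelBasis 𝓑.sets :=
  LevelCompare13.isLevelBasis_iff.1 𝓑.isBasis

variable (hA : LevelCoh28.IsDiscrete 𝓑.sets A)

/-- Level 1-cocycles of `LevelCoh28` as 1-cocycles of `lvl`. -/
def toZ1 : ↥(LevelCoh28.Z1 𝓑 A) →ₗ[k] (Resolved4.lvl (basis 𝓑) A.ρ hA).Z1 where
  toFun c := Resolved4.mkZ1 (basis 𝓑) A.ρ hA c.1 c.2.2
    ((LevelCompare13.mem_cocycles₁_iff A c.1).1 c.2.1)
  map_add' _ _ := rfl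
  map_smul' _ _ := rfl

/-- Level 2-cocycles of `LevelCoh28` as 2-cocycles of `lvl`. -/
def toZ2 : ↥(LevelCoh28.Z2 𝓑 A) →ₗ[k] (Resolved4.lvl (basis 𝓑) A.ρ hA).Z2 where
  toFun c := Resolved4.mkZ2 (basis 𝓑) A.ρ hA c.1 ((LevelCompare13.isLevel₂_iff c.1).1 c.2.2)
    ((LevelCompare13.mem_cocycles₂_iff A c.1).1 c.2.1)
  map_add' _ _ := rfl
  map_smul' _ _ := rfl

@[simp] theorem coe_toZ1 (c : ↥(LevelCoh28.Z1 𝓑 A)) :
    (((toZ1 𝓑 A hA c : (Resolved4.lvl (basis 𝓑) A.ρ hA).Z1) : lev₁ k (basis 𝓑) A) : G → A) = c.1 :=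
  rfl

@[simp] theorem coe_toZ2 (c : ↥(LevelCoh28.Z2 𝓑 A)) :
    (((toZ2 𝓑 A hA c : (Resolved4.lvl (basis 𝓑) A.ρ hA).Z2) : lev₂ k (basis 𝓑) A) : G × G → A) =
      c.1 := rfl

/-- The comparison map `LevelCoh28.H1 → Hlev1`. -/
noncomputable def h1Hom : LevelCoh28.H1 𝓑 A →ₗ[k] Resolved4.Hlev1 (basis 𝓑) A.ρ hA :=
  Submodule.liftQ _ ((Resolved4.lvl (basis 𝓑) A.ρ hA).π1 ∘ₗ toZ1 𝓑 A hA) (by
    intro c hc
    rw [LinearMap.mem_ker, LinearMap.comp_apply, Cpx.π1_eq_zero_iff]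
    obtain ⟨a, ha⟩ := (LevelCompare13.mem_coboundaries₁_iff A c.1).1 hc
    refine ⟨a, Subtype.ext ?_⟩
    exact ha)

theorem h1Hom_mk (c : ↥(LevelCoh28.Z1 𝓑 A)) :
    h1Hom 𝓑 A hA (LevelCoh28.H1mk 𝓑 A c) =
      (Resolved4.lvl (basis 𝓑) A.ρ hA).π1 (toZ1 𝓑 A hA c) := rfl

theorem h1Hom_injective : Injective (h1Hom 𝓑 A hA) := by
  rw [← LinearMap.ker_eq_bot, LinearMap.ker_eq_bot']
  intro x hx
  obtain ⟨c, rfl⟩ := LevelCoh28.H1mk_surjective 𝓑 A x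
  rw [h1Hom_mk, Cpx.π1_eq_zero_iff] at hx
  obtain ⟨a, ha⟩ := hx
  rw [LevelCoh28.H1mk_eq_zero_iff, LevelCompare13.mem_coboundaries₁_iff]
  exact ⟨a, congrArg (fun z : lev₁ k (basis 𝓑) A => (z : G → A)) ha⟩

theorem h1Hom_surjective : Surjective (h1Hom 𝓑 A hA) := by
  intro x
  obtain ⟨z, rfl⟩ := (Resolved4.lvl (basis 𝓑) A.ρ hA).π1_surjective x
  have hz : HyperLevel25.dOne A.ρ (z.1 : G → A) = 0 :=
    (Resolved4.mem_lvl_Z1_iff (basis 𝓑) A.ρ hA z.1).1 z.2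
  refine ⟨LevelCoh28.H1mk 𝓑 A ⟨z.1.1, (LevelCompare13.mem_cocycles₁_iff A _).2 hz, z.1.2⟩, ?_⟩
  rw [h1Hom_mk]
  rfl

/-- `LevelCoh28.H1 𝓑 A ≃ Hlev1`. -/
noncomputable def h1Equiv : LevelCoh28.H1 𝓑 A ≃ₗ[k] Resolved4.Hlev1 (basis 𝓑) A.ρ hA :=
  LinearEquiv.ofBijective (h1Hom 𝓑 A hA) ⟨h1Hom_injective 𝓑 A hA, h1Hom_surjective 𝓑 A hA⟩

@[simp] theorem h1Equiv_mk (c : ↥(LevelCoh28.Z1 𝓑 A)) :
    h1Equiv 𝓑 A hA (LevelCoh28.H1mk 𝓑 A c) =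
      (Resolved4.lvl (basis 𝓑) A.ρ hA).π1 (toZ1 𝓑 A hA c) := rfl

/-- The comparison map `LevelCoh28.H2 → Hlev2`. -/
noncomputable def h2Hom : LevelCoh28.H2 𝓑 A →ₗ[k] Resolved4.Hlev2 (basis 𝓑) A.ρ hA :=
  Submodule.liftQ _ ((Resolved4.lvl (basis 𝓑) A.ρ hA).π2 ∘ₗ toZ2 𝓑 A hA) (by
    intro c hc
    rw [LinearMap.mem_ker, LinearMap.comp_apply, Cpx.π2_eq_zero_iff]
    obtain ⟨x, hx, hxc⟩ := (LevelCoh28.mem_B2_iff 𝓑 A c.1).1 hc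
    refine ⟨⟨x, hx⟩, Subtype.ext ?_⟩
    show HyperLevel25.dOne A.ρ x = c.1
    rw [LevelCompare13.dOne_eq, hxc])

theorem h2Hom_mk (c : ↥(LevelCoh28.Z2 𝓑 A)) :
    h2Hom 𝓑 A hA (LevelCoh28.H2mk 𝓑 A c) =
      (Resolved4.lvl (basis 𝓑) A.ρ hA).π2 (toZ2 𝓑 A hA c) := rfl

theorem h2Hom_injective : Injective (h2Hom 𝓑 A hA) := by
  rw [← LinearMap.ker_eq_bot, LinearMap.ker_eq_bot']
  intro x hx
  obtain ⟨c, rfl⟩ := LevelCoh28.H2mk_surjective 𝓑 A x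
  rw [h2Hom_mk, Cpx.π2_eq_zero_iff] at hx
  obtain ⟨b, hb⟩ := hx
  rw [LevelCoh28.H2mk_eq_zero_iff, LevelCoh28.mem_B2_iff]
  refine ⟨b.1, b.2, ?_⟩
  rw [← LevelCompare13.dOne_eq]
  exact congrArg (fun z : lev₂ k (basis 𝓑) A => (z : G × G → A)) hb

theorem h2Hom_surjective : Surjective (h2Hom 𝓑 A hA) := by
  intro x
  obtain ⟨z, rfl⟩ := (Resolved4.lvl (basis 𝓑) A.ρ hA).π2_surjective x
  have hz : HyperLevel25.dTwo A.ρ (z.1 : G × G → A) = 0 :=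
    (Resolved4.mem_lvl_Z2_iff (basis 𝓑) A.ρ hA z.1).1 z.2
  refine ⟨LevelCoh28.H2mk 𝓑 A ⟨z.1.1, (LevelCompare13.mem_cocycles₂_iff A _).2 hz,
    (LevelCompare13.isLevel₂_iff _).2 z.1.2⟩, ?_⟩
  rw [h2Hom_mk]
  rfl

/-- `LevelCoh28.H2 𝓑 A ≃ Hlev2`. -/
noncomputable def h2Equiv : LevelCoh28.H2 𝓑 A ≃ₗ[k] Resolved4.Hlev2 (basis 𝓑) A.ρ hA :=
  LinearEquiv.ofBijective (h2Hom 𝓑 A hA) ⟨h2Hom_injective 𝓑 A hA, h2Hom_surjective 𝓑 A hA⟩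

@[simp] theorem h2Equiv_mk (c : ↥(LevelCoh28.Z2 𝓑 A)) :
    h2Equiv 𝓑 A hA (LevelCoh28.H2mk 𝓑 A c) =
      (Resolved4.lvl (basis 𝓑) A.ρ hA).π2 (toZ2 𝓑 A hA c) := rfl

end Equiv

/-! ### `LevelCoh28.H_i ≃+ Hlev_i` of the underlying `ℤ`-representation `IntRep20.intRep A` -/

section IntEquiv

variable {k G : Type u} [CommRing k] [Group G] (𝓑 : LevelCoh28.LevelBasis G) (A : Rep.{u} k G)
variable (hA : LevelCoh28.IsDiscrete 𝓑.sets A)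

/-- Level 1-cocycles of `LevelCoh28` as 1-cocycles of `lvl` for the underlying `ℤ`-representation. -/
def toZ1Int : ↥(LevelCoh28.Z1 𝓑 A) →+ (Resolved4.lvl (basis 𝓑) (intRep A) hA).Z1 where
  toFun c := Resolved4.mkZ1 (basis 𝓑) (intRep A) hA c.1 c.2.2
    ((LevelCompare13.mem_cocycles₁_iff A c.1).1 c.2.1)
  map_zero' := rfl
  map_add' _ _ := rfl

/-- Level 2-cocycles of `LevelCoh28` as 2-cocycles of `lvl` for the underlying `ℤ`-representation. -/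
def toZ2Int : ↥(LevelCoh28.Z2 𝓑 A) →+ (Resolved4.lvl (basis 𝓑) (intRep A) hA).Z2 where
  toFun c := Resolved4.mkZ2 (basis 𝓑) (intRep A) hA c.1 ((LevelCompare13.isLevel₂_iff c.1).1 c.2.2)
    ((LevelCompare13.mem_cocycles₂_iff A c.1).1 c.2.1)
  map_zero' := rfl
  map_add' _ _ := rfl

@[simp] theorem coe_toZ1Int (c : ↥(LevelCoh28.Z1 𝓑 A)) :
    (((toZ1Int 𝓑 A hA c : (Resolved4.lvl (basis 𝓑) (intRep A) hA).Z1) :
      lev₁ ℤ (basis 𝓑) A) : G → A) = c.1 := rfl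

@[simp] theorem coe_toZ2Int (c : ↥(LevelCoh28.Z2 𝓑 A)) :
    (((toZ2Int 𝓑 A hA c : (Resolved4.lvl (basis 𝓑) (intRep A) hA).Z2) :
      lev₂ ℤ (basis 𝓑) A) : G × G → A) = c.1 := rfl

/-- The comparison map `LevelCoh28.H1 → Hlev1` (`ℤ`-coefficients version). -/
noncomputable def h1IntHom : LevelCoh28.H1 𝓑 A →+ Resolved4.Hlev1 (basis 𝓑) (intRep A) hA :=
  QuotientAddGroup.lift
    ((groupCohomology.coboundaries₁ A).comap (LevelCoh28.Z1 𝓑 A).subtype).toAddSubgroup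
    (((Resolved4.lvl (basis 𝓑) (intRep A) hA).π1 : _ →+ _).comp (toZ1Int 𝓑 A hA)) (by
    intro c hc
    rw [AddMonoidHom.mem_ker, AddMonoidHom.comp_apply]
    show (Resolved4.lvl (basis 𝓑) (intRep A) hA).π1 (toZ1Int 𝓑 A hA c) = 0
    rw [Cpx.π1_eq_zero_iff]
    obtain ⟨a, ha⟩ := (LevelCompare13.mem_coboundaries₁_iff A c.1).1 hc
    refine ⟨a, Subtype.ext ?_⟩
    exact ha)

theorem h1IntHom_mk (c : ↥(LevelCoh28.Z1 𝓑 A)) :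
    h1IntHom 𝓑 A hA (LevelCoh28.H1mk 𝓑 A c) =
      (Resolved4.lvl (basis 𝓑) (intRep A) hA).π1 (toZ1Int 𝓑 A hA c) := rfl

theorem h1IntHom_injective : Injective (h1IntHom 𝓑 A hA) := by
  rw [injective_iff_map_eq_zero]
  intro x hx
  obtain ⟨c, rfl⟩ := LevelCoh28.H1mk_surjective 𝓑 A x
  rw [h1IntHom_mk, Cpx.π1_eq_zero_iff] at hx
  obtain ⟨a, ha⟩ := hx
  rw [LevelCoh28.H1mk_eq_zero_iff, LevelCompare13.mem_coboundaries₁_iff]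
  exact ⟨a, congrArg (fun z : lev₁ ℤ (basis 𝓑) A => (z : G → A)) ha⟩

theorem h1IntHom_surjective : Surjective (h1IntHom 𝓑 A hA) := by
  intro x
  obtain ⟨z, rfl⟩ := (Resolved4.lvl (basis 𝓑) (intRep A) hA).π1_surjective x
  have hz : HyperLevel25.dOne (intRep A) (z.1 : G → A) = 0 :=
    (Resolved4.mem_lvl_Z1_iff (basis 𝓑) (intRep A) hA z.1).1 z.2
  refine ⟨LevelCoh28.H1mk 𝓑 A ⟨z.1.1, (LevelCompare13.mem_cocycles₁_iff A _).2 hz, z.1.2⟩, ?_⟩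
  rw [h1IntHom_mk]
  rfl

/-- `LevelCoh28.H1 𝓑 A ≃+ Hlev1` of the underlying `ℤ`-representation. -/
noncomputable def h1IntEquiv : LevelCoh28.H1 𝓑 A ≃+ Resolved4.Hlev1 (basis 𝓑) (intRep A) hA :=
  AddEquiv.ofBijective (h1IntHom 𝓑 A hA) ⟨h1IntHom_injective 𝓑 A hA, h1IntHom_surjective 𝓑 A hA⟩

@[simp] theorem h1IntEquiv_mk (c : ↥(LevelCoh28.Z1 𝓑 A)) :
    h1IntEquiv 𝓑 A hA (LevelCoh28.H1mk 𝓑 A c) =
      (Resolved4.lvl (basis 𝓑) (intRep A) hA).π1 (toZ1Int 𝓑 A hA c) := rfl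

/-- The comparison map `LevelCoh28.H2 → Hlev2` (`ℤ`-coefficients version). -/
noncomputable def h2IntHom : LevelCoh28.H2 𝓑 A →+ Resolved4.Hlev2 (basis 𝓑) (intRep A) hA :=
  QuotientAddGroup.lift
    ((LevelCoh28.B2 𝓑 A).comap (LevelCoh28.Z2 𝓑 A).subtype).toAddSubgroup
    (((Resolved4.lvl (basis 𝓑) (intRep A) hA).π2 : _ →+ _).comp (toZ2Int 𝓑 A hA)) (by
    intro c hc
    rw [AddMonoidHom.mem_ker, AddMonoidHom.comp_apply]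
    show (Resolved4.lvl (basis 𝓑) (intRep A) hA).π2 (toZ2Int 𝓑 A hA c) = 0
    rw [Cpx.π2_eq_zero_iff]
    obtain ⟨x, hx, hxc⟩ := (LevelCoh28.mem_B2_iff 𝓑 A c.1).1 hc
    refine ⟨⟨x, hx⟩, Subtype.ext ?_⟩
    show HyperLevel25.dOne A.ρ x = c.1
    rw [LevelCompare13.dOne_eq, hxc])

theorem h2IntHom_mk (c : ↥(LevelCoh28.Z2 𝓑 A)) :
    h2IntHom 𝓑 A hA (LevelCoh28.H2mk 𝓑 A c) =
      (Resolved4.lvl (basis 𝓑) (intRep A) hA).π2 (toZ2Int 𝓑 A hA c) := rfl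

theorem h2IntHom_injective : Injective (h2IntHom 𝓑 A hA) := by
  rw [injective_iff_map_eq_zero]
  intro x hx
  obtain ⟨c, rfl⟩ := LevelCoh28.H2mk_surjective 𝓑 A x
  rw [h2IntHom_mk, Cpx.π2_eq_zero_iff] at hx
  obtain ⟨b, hb⟩ := hx
  rw [LevelCoh28.H2mk_eq_zero_iff, LevelCoh28.mem_B2_iff]
  refine ⟨b.1, b.2, ?_⟩
  rw [← LevelCompare13.dOne_eq]
  exact congrArg (fun z : lev₂ ℤ (basis 𝓑) A => (z : G × G → A)) hb

theorem h2IntHom_surjective : Surjective (h2IntHom 𝓑 A hA) := by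
  intro x
  obtain ⟨z, rfl⟩ := (Resolved4.lvl (basis 𝓑) (intRep A) hA).π2_surjective x
  have hz : HyperLevel25.dTwo (intRep A) (z.1 : G × G → A) = 0 :=
    (Resolved4.mem_lvl_Z2_iff (basis 𝓑) (intRep A) hA z.1).1 z.2
  refine ⟨LevelCoh28.H2mk 𝓑 A ⟨z.1.1, (LevelCompare13.mem_cocycles₂_iff A _).2 hz,
    (LevelCompare13.isLevel₂_iff _).2 z.1.2⟩, ?_⟩
  rw [h2IntHom_mk]
  rfl

/-- `LevelCoh28.H2 𝓑 A ≃+ Hlev2` of the underlying `ℤ`-representation. -/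
noncomputable def h2IntEquiv : LevelCoh28.H2 𝓑 A ≃+ Resolved4.Hlev2 (basis 𝓑) (intRep A) hA :=
  AddEquiv.ofBijective (h2IntHom 𝓑 A hA) ⟨h2IntHom_injective 𝓑 A hA, h2IntHom_surjective 𝓑 A hA⟩

@[simp] theorem h2IntEquiv_mk (c : ↥(LevelCoh28.Z2 𝓑 A)) :
    h2IntEquiv 𝓑 A hA (LevelCoh28.H2mk 𝓑 A c) =
      (Resolved4.lvl (basis 𝓑) (intRep A) hA).π2 (toZ2Int 𝓑 A hA c) := rfl

/-- Inverse on representatives (degree 1). -/
theorem h1IntEquiv_symm_π1 (z : (Resolved4.lvl (basis 𝓑) (intRep A) hA).Z1) :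
    (h1IntEquiv 𝓑 A hA).symm ((Resolved4.lvl (basis 𝓑) (intRep A) hA).π1 z) =
      LevelCoh28.H1mk 𝓑 A ⟨z.1.1, (LevelCompare13.mem_cocycles₁_iff A _).2
        ((Resolved4.mem_lvl_Z1_iff (basis 𝓑) (intRep A) hA z.1).1 z.2), z.1.2⟩ := by
  rw [AddEquiv.symm_apply_eq, h1IntEquiv_mk]
  rfl

/-- Inverse on representatives (degree 2). -/
theorem h2IntEquiv_symm_π2 (z : (Resolved4.lvl (basis 𝓑) (intRep A) hA).Z2) :
    (h2IntEquiv 𝓑 A hA).symm ((Resolved4.lvl (basis 𝓑) (intRep A) hA).π2 z) =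
      LevelCoh28.H2mk 𝓑 A ⟨z.1.1, (LevelCompare13.mem_cocycles₂_iff A _).2
        ((Resolved4.mem_lvl_Z2_iff (basis 𝓑) (intRep A) hA z.1).1 z.2),
        (LevelCompare13.isLevel₂_iff _).2 z.1.2⟩ := by
  rw [AddEquiv.symm_apply_eq, h2IntEquiv_mk]
  rfl

/-- A class of `LevelCoh28.H1` killed by `n` in `k` is killed by `n` in `Hlev1`. -/
theorem nsmul_h1IntEquiv (n : ℕ) (hn : (n : k) = 0) (x : LevelCoh28.H1 𝓑 A) :
    n • h1IntEquiv 𝓑 A hA x = 0 := by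
  rw [← map_nsmul]
  have : n • x = 0 := by
    have h : (n : k) • x = 0 := by rw [hn, zero_smul]
    rwa [Nat.cast_smul_eq_nsmul] at h
  rw [this, map_zero]

/-- A class of `LevelCoh28.H2` killed by `n` in `k` is killed by `n` in `Hlev2`. -/
theorem nsmul_h2IntEquiv (n : ℕ) (hn : (n : k) = 0) (x : LevelCoh28.H2 𝓑 A) :
    n • h2IntEquiv 𝓑 A hA x = 0 := by
  rw [← map_nsmul]
  have : n • x = 0 := by
    have h : (n : k) • x = 0 := by rw [hn, zero_smul]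
    rwa [Nat.cast_smul_eq_nsmul] at h
  rw [this, map_zero]

/-- `h1IntEquiv` is helper13's generic dictionary `LevelDict13.H1AddEquiv` at `e = id`. -/
theorem h1IntEquiv_eq_dict (x : LevelCoh28.H1 𝓑 A) :
    h1IntEquiv 𝓑 A hA x =
      LevelDict13.H1AddEquiv 𝓑 A (intRep A) (AddEquiv.refl A) (fun _ _ => rfl) (basis 𝓑) hA x := by
  obtain ⟨c, rfl⟩ := LevelCoh28.H1mk_surjective 𝓑 A x
  rfl

/-- `h2IntEquiv` is helper13's generic dictionary `LevelDict13.H2AddEquiv` at `e = id`. -/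
theorem h2IntEquiv_eq_dict (x : LevelCoh28.H2 𝓑 A) :
    h2IntEquiv 𝓑 A hA x =
      LevelDict13.H2AddEquiv 𝓑 A (intRep A) (AddEquiv.refl A) (fun _ _ => rfl) (basis 𝓑) hA x := by
  obtain ⟨c, rfl⟩ := LevelCoh28.H2mk_surjective 𝓑 A x
  rfl

/-- The `k`-linear `h1Equiv` is `LevelDict13.H1AddEquiv` at `k₂ = k`, `e = id`. -/
theorem h1Equiv_eq_dict (x : LevelCoh28.H1 𝓑 A) :
    h1Equiv 𝓑 A hA x =
      LevelDict13.H1AddEquiv 𝓑 A A.ρ (AddEquiv.refl A) (fun _ _ => rfl) (basis 𝓑) hA x := by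
  obtain ⟨c, rfl⟩ := LevelCoh28.H1mk_surjective 𝓑 A x
  rfl

/-- The `k`-linear `h2Equiv` is `LevelDict13.H2AddEquiv` at `k₂ = k`, `e = id`. -/
theorem h2Equiv_eq_dict (x : LevelCoh28.H2 𝓑 A) :
    h2Equiv 𝓑 A hA x =
      LevelDict13.H2AddEquiv 𝓑 A A.ρ (AddEquiv.refl A) (fun _ _ => rfl) (basis 𝓑) hA x := by
  obtain ⟨c, rfl⟩ := LevelCoh28.H2mk_surjective 𝓑 A x
  rfl

end IntEquiv

/-! ### Naturality for coefficient maps -/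

section NatCoeff

variable {k G : Type u} [CommRing k] [Group G] (𝓑 : LevelCoh28.LevelBasis G) {A B : Rep.{u} k G}
variable (hA : LevelCoh28.IsDiscrete 𝓑.sets A) (hB : LevelCoh28.IsDiscrete 𝓑.sets B)
variable (φ : A →ₗ[k] B) (hφ : ∀ g a, φ (A.ρ g a) = B.ρ g (φ a))

theorem h1Equiv_mapH1 (x : LevelCoh28.H1 𝓑 A) :
    h1Equiv 𝓑 B hB (LevelCoh28.mapH1 (𝓑 := 𝓑) φ hφ x) =
      (Resolved4.lvlHom (basis 𝓑) hA hB φ hφ).mapH1 (h1Equiv 𝓑 A hA x) := by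
  obtain ⟨c, rfl⟩ := LevelCoh28.H1mk_surjective 𝓑 A x
  rw [LevelCoh28.mapH1_mk, h1Equiv_mk, h1Equiv_mk, Cpx.Hom.mapH1_π1]
  rfl

theorem h2Equiv_mapH2 (x : LevelCoh28.H2 𝓑 A) :
    h2Equiv 𝓑 B hB (LevelCoh28.mapH2 (𝓑 := 𝓑) φ hφ x) =
      (Resolved4.lvlHom (basis 𝓑) hA hB φ hφ).mapH2 (h2Equiv 𝓑 A hA x) := by
  obtain ⟨c, rfl⟩ := LevelCoh28.H2mk_surjective 𝓑 A x
  rw [LevelCoh28.mapH2_mk, h2Equiv_mk, h2Equiv_mk, Cpx.Hom.mapH2_π2]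
  rfl

variable (φ' : A →ₗ[ℤ] B) (hφ' : ∀ g a, φ' (intRep A g a) = intRep B g (φ' a))
  (hφφ' : ∀ a, φ' a = φ a)

include hφφ' in
theorem h1IntEquiv_mapH1 (x : LevelCoh28.H1 𝓑 A) :
    h1IntEquiv 𝓑 B hB (LevelCoh28.mapH1 (𝓑 := 𝓑) φ hφ x) =
      (Resolved4.lvlHom (basis 𝓑) (ρA := intRep A) (ρB := intRep B) hA hB φ' hφ').mapH1
        (h1IntEquiv 𝓑 A hA x) := by
  obtain ⟨c, rfl⟩ := LevelCoh28.H1mk_surjective 𝓑 A x
  rw [LevelCoh28.mapH1_mk, h1IntEquiv_mk, h1IntEquiv_mk, Cpx.Hom.mapH1_π1]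
  congr 1
  apply Subtype.ext
  apply Subtype.ext
  funext g
  exact (hφφ' _).symm

include hφφ' in
theorem h2IntEquiv_mapH2 (x : LevelCoh28.H2 𝓑 A) :
    h2IntEquiv 𝓑 B hB (LevelCoh28.mapH2 (𝓑 := 𝓑) φ hφ x) =
      (Resolved4.lvlHom (basis 𝓑) (ρA := intRep A) (ρB := intRep B) hA hB φ' hφ').mapH2
        (h2IntEquiv 𝓑 A hA x) := by
  obtain ⟨c, rfl⟩ := LevelCoh28.H2mk_surjective 𝓑 A x
  rw [LevelCoh28.mapH2_mk, h2IntEquiv_mk, h2IntEquiv_mk, Cpx.Hom.mapH2_π2]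
  congr 1
  apply Subtype.ext
  apply Subtype.ext
  funext g
  exact (hφφ' _).symm

end NatCoeff

/-! ### Naturality for change of group -/

section NatGroup

variable {k G H : Type u} [CommRing k] [Group G] [Group H]
variable {𝓑G : LevelCoh28.LevelBasis G} {𝓑H : LevelCoh28.LevelBasis H}
variable (f : G →* H) {A : Rep.{u} k H} {B : Rep.{u} k G}
variable (hA : LevelCoh28.IsDiscrete 𝓑H.sets A) (hB : LevelCoh28.IsDiscrete 𝓑G.sets B)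
variable (φ : A →ₗ[k] B) (hφ : ∀ (g : G) (a : A), φ (A.ρ (f g) a) = B.ρ g (φ a))
variable (hf : LevelCohRes28.IsLevelHom f 𝓑G.sets 𝓑H.sets)

/-- The two notions of continuity of a homomorphism for level bases agree. -/
theorem isLevelHom_iff {f : G →* H} {𝒰G : Set (Subgroup G)} {𝒰H : Set (Subgroup H)} :
    LevelCohRes28.IsLevelHom f 𝒰G 𝒰H ↔ HyperRes25.IsLevelHom f 𝒰G 𝒰H := Iff.rfl

theorem h1Equiv_ppH1 (x : LevelCoh28.H1 𝓑H A) :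
    h1Equiv 𝓑G B hB (LevelCohRes28.ppH1 f φ hφ hf x) =
      (HyperRes25.plainPHom (isLevelHom_iff.1 hf) (basis 𝓑H) (basis 𝓑G) hA hB φ hφ).mapH1
        (h1Equiv 𝓑H A hA x) := by
  obtain ⟨c, rfl⟩ := LevelCoh28.H1mk_surjective 𝓑H A x
  rw [LevelCohRes28.ppH1_mk, h1Equiv_mk, h1Equiv_mk]
  rfl

theorem h2Equiv_ppH2 (x : LevelCoh28.H2 𝓑H A) :
    h2Equiv 𝓑G B hB (LevelCohRes28.ppH2 f φ hφ hf x) =
      (HyperRes25.plainPHom (isLevelHom_iff.1 hf) (basis 𝓑H) (basis 𝓑G) hA hB φ hφ).mapH2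
        (h2Equiv 𝓑H A hA x) := by
  obtain ⟨c, rfl⟩ := LevelCoh28.H2mk_surjective 𝓑H A x
  rw [LevelCohRes28.ppH2_mk, h2Equiv_mk, h2Equiv_mk]
  rfl

variable (φ' : A →ₗ[ℤ] B) (hφ' : ∀ (g : G) (a : A), φ' (intRep A (f g) a) = intRep B g (φ' a))
  (hφφ' : ∀ a, φ' a = φ a)

include hφφ' in
theorem h1IntEquiv_ppH1 (x : LevelCoh28.H1 𝓑H A) :
    h1IntEquiv 𝓑G B hB (LevelCohRes28.ppH1 f φ hφ hf x) =
      (HyperRes25.plainPHom (isLevelHom_iff.1 hf) (basis 𝓑H) (basis 𝓑G)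
        (ρ := intRep A) (ρ' := intRep B) hA hB φ' hφ').mapH1 (h1IntEquiv 𝓑H A hA x) := by
  obtain ⟨c, rfl⟩ := LevelCoh28.H1mk_surjective 𝓑H A x
  rw [LevelCohRes28.ppH1_mk, h1IntEquiv_mk, h1IntEquiv_mk]
  show (HyperCompare25.plainCpx (basis 𝓑G) (intRep B) hB).π1 _ =
    Cpx.Hom.mapH1 _ ((HyperCompare25.plainCpx (basis 𝓑H) (intRep A) hA).π1 _)
  rw [Cpx.Hom.mapH1_π1]
  congr 1
  apply Subtype.ext
  apply Subtype.ext
  funext g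
  exact (hφφ' _).symm

include hφφ' in
theorem h2IntEquiv_ppH2 (x : LevelCoh28.H2 𝓑H A) :
    h2IntEquiv 𝓑G B hB (LevelCohRes28.ppH2 f φ hφ hf x) =
      (HyperRes25.plainPHom (isLevelHom_iff.1 hf) (basis 𝓑H) (basis 𝓑G)
        (ρ := intRep A) (ρ' := intRep B) hA hB φ' hφ').mapH2 (h2IntEquiv 𝓑H A hA x) := by
  obtain ⟨c, rfl⟩ := LevelCoh28.H2mk_surjective 𝓑H A x
  rw [LevelCohRes28.ppH2_mk, h2IntEquiv_mk, h2IntEquiv_mk]
  show (HyperCompare25.plainCpx (basis 𝓑G) (intRep B) hB).π2 _ =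
    Cpx.Hom.mapH2 _ ((HyperCompare25.plainCpx (basis 𝓑H) (intRep A) hA).π2 _)
  rw [Cpx.Hom.mapH2_π2]
  congr 1
  apply Subtype.ext
  apply Subtype.ext
  funext g
  exact (hφφ' _).symm

include hφφ' in
/-- Vanishing of a localisation in `LevelCoh28` form ⇔ vanishing in `Hlev` (`ℤ`) form. -/
theorem ppH1_eq_zero_iff (x : LevelCoh28.H1 𝓑H A) :
    LevelCohRes28.ppH1 f φ hφ hf x = 0 ↔
      (HyperRes25.plainPHom (isLevelHom_iff.1 hf) (basis 𝓑H) (basis 𝓑G)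
        (ρ := intRep A) (ρ' := intRep B) hA hB φ' hφ').mapH1 (h1IntEquiv 𝓑H A hA x) = 0 := by
  rw [← h1IntEquiv_ppH1 f hA hB φ hφ hf φ' hφ' hφφ' x]
  exact ((h1IntEquiv 𝓑G B hB).map_eq_zero_iff).symm

include hφφ' in
/-- Vanishing of a localisation in `LevelCoh28` form ⇔ vanishing in `Hlev` (`ℤ`) form. -/
theorem ppH2_eq_zero_iff (x : LevelCoh28.H2 𝓑H A) :
    LevelCohRes28.ppH2 f φ hφ hf x = 0 ↔
      (HyperRes25.plainPHom (isLevelHom_iff.1 hf) (basis 𝓑H) (basis 𝓑G)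
        (ρ := intRep A) (ρ' := intRep B) hA hB φ' hφ').mapH2 (h2IntEquiv 𝓑H A hA x) = 0 := by
  rw [← h2IntEquiv_ppH2 f hA hB φ hφ hf φ' hφ' hφφ' x]
  exact ((h2IntEquiv 𝓑G B hB).map_eq_zero_iff).symm

end NatGroup

end Fermat.Agent.PT.PRO.LevelEquiv29
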