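/-
Program F (S55, Poitou–Tate), chapter PRO, helper4.  Item (N2) of PLAN v4.

`PairingRes4`: naturality of the `(1,1)` pairing `pair11 : ℍ¹(Y) × H¹(M) → H²(C)` for a CHANGE OF
GROUP `f : G' →* G` (continuous for the level bases).

* `lvlRes f hf b hb : Cpx.Hom (lvl h𝒰 ρA hA) (lvl h𝒰' ρB hB)` for `b : A →ₗ B` equivariant over `f`
  (`b (ρA (f g) a) = ρB g (b a)`): `c ↦ b ∘ c ∘ f`, `φ ↦ b ∘ φ ∘ (f × f)`;
  `resHlev1 := (lvlRes ..).mapH1`, `resHlev2 := (lvlRes ..).mapH2` (+ `resHlev1_cl1`, `resHlev2_cl2`);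
* `Resolved.comap f hf P` : restriction of a resolved module along `f`;
* `structure PairingRes f B B'` : `a : PHom f Y Y'`, `b0 b1 bM` over `f` (covariant), `γ` over `f`,
  compatibilities;
* `pair11_res` : `pair11 B' (a.ppℍ1 ξ) (resHlev1 bM x) = resHlev2 γ (pair11 B ξ x)`;
* `evalRes` : the instance used for `(r_q, ev_q)`: `P' = P.comap f`, `b = id`,
  `B = evalPairing P ρC`, `B' = evalPairing (P.comap f) ρC'`, `a = K(P; γ)` over `f`.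
-/
import Mathlib
import Fermat.Agent.PT.PRO.ExtPairingB4
import Fermat.Agent.PT.PRO.HyperRes25

set_option autoImplicit false

namespace Fermat.Agent.PT.PRO.PairingRes4

open Function Fermat.Agent.PT.PRO.HyperLevel25 Fermat.Agent.PT.PRO.Resolved4
  Fermat.Agent.PT.PRO.ExtPairing4 Fermat.Agent.PT.PRO.ExtPairingB4
  Fermat.Agent.PT.PRO.HyperRes25

variable {k G G' : Type*} [CommRing k] [Group G] [Group G']
variable {𝒰 : Set (Subgroup G)} {𝒰' : Set (Subgroup G')}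

/-! ## Restriction of plain level cohomology along `(f, b)` -/

section LvlRes

variable {A B : Type*} [AddCommGroup A] [Module k A] [AddCommGroup B] [Module k B]
variable {f : G' →* G} (hf : IsLevelHom f 𝒰' 𝒰) (h𝒰 : IsLevelBasis 𝒰) (h𝒰' : IsLevelBasis 𝒰')
variable {ρA : Representation k G A} {ρB : Representation k G' B}
variable (hA : IsDiscrete 𝒰 ρA) (hB : IsDiscrete 𝒰' ρB)
variable (b : A →ₗ[k] B)

/-- `c ↦ b ∘ c ∘ f` on level 1-cochains. -/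
def resLev₁ : lev₁ k h𝒰 A →ₗ[k] lev₁ k h𝒰' B :=
  ((b.compLeft G').comp (LinearMap.funLeft k A ⇑f)).restrict
    (fun _ hc => (hf.isLevel₁ hc).comp _)

/-- `φ ↦ b ∘ φ ∘ (f × f)` on level 2-cochains. -/
def resLev₂ : lev₂ k h𝒰 A →ₗ[k] lev₂ k h𝒰' B :=
  ((b.compLeft (G' × G')).comp (LinearMap.funLeft k A (Prod.map ⇑f ⇑f))).restrict
    (fun _ hc => (hf.isLevel₂ hc).comp _)

@[simp] lemma coe_resLev₁ (c : lev₁ k h𝒰 A) :
    ((resLev₁ hf h𝒰 h𝒰' b c : lev₁ k h𝒰' B) : G' → B) = ⇑b ∘ (c : G → A) ∘ ⇑f := rfl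

@[simp] lemma coe_resLev₂ (c : lev₂ k h𝒰 A) :
    ((resLev₂ hf h𝒰 h𝒰' b c : lev₂ k h𝒰' B) : G' × G' → B) =
      ⇑b ∘ (c : G × G → A) ∘ Prod.map ⇑f ⇑f := rfl

variable (hb : ∀ g a, b (ρA (f g) a) = ρB g (b a))

/-- The morphism of level complexes induced by `(f, b)`. -/
def lvlRes : Cpx.Hom (lvl h𝒰 ρA hA) (lvl h𝒰' ρB hB) where
  m0 := b
  m1 := resLev₁ hf h𝒰 h𝒰' b
  m2 := resLev₂ hf h𝒰 h𝒰' b
  m3 := (b.compLeft (G' × G' × G')).comp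
    (LinearMap.funLeft k A (Prod.map ⇑f (Prod.map ⇑f ⇑f)))
  c0 y := Subtype.ext (dZero_precomp ρA ρB b hb y).symm
  c1 c := Subtype.ext (dOne_precomp ρA ρB b hb c).symm
  c2 c := (dTwo_precomp ρA ρB b hb c).symm

/-- Restriction `H¹_lev(G; A) → H¹_lev(G'; B)`. -/
def resHlev1 : Hlev1 h𝒰 ρA hA →ₗ[k] Hlev1 h𝒰' ρB hB := (lvlRes hf h𝒰 h𝒰' hA hB b hb).mapH1

/-- Restriction `H²_lev(G; A) → H²_lev(G'; B)`. -/
def resHlev2 : Hlev2 h𝒰 ρA hA →ₗ[k] Hlev2 h𝒰' ρB hB := (lvlRes hf h𝒰 h𝒰' hA hB b hb).mapH2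

lemma resHlev1_π1 (z : (lvl h𝒰 ρA hA).Z1) :
    resHlev1 hf h𝒰 h𝒰' hA hB b hb ((lvl h𝒰 ρA hA).π1 z) =
      (lvl h𝒰' ρB hB).π1 ((lvlRes hf h𝒰 h𝒰' hA hB b hb).mapZ1 z) := rfl

lemma resHlev2_π2 (z : (lvl h𝒰 ρA hA).Z2) :
    resHlev2 hf h𝒰 h𝒰' hA hB b hb ((lvl h𝒰 ρA hA).π2 z) =
      (lvl h𝒰' ρB hB).π2 ((lvlRes hf h𝒰 h𝒰' hA hB b hb).mapZ2 z) := rfl

include hb in
lemma dOne_res_eq_zero {c : G → A} (hc : dOne ρA c = 0) : dOne ρB (⇑b ∘ c ∘ ⇑f) = 0 := by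
  rw [dOne_precomp ρA ρB b hb c, hc]
  funext q
  simp

include hb in
lemma dTwo_res_eq_zero {c : G × G → A} (hc : dTwo ρA c = 0) :
    dTwo ρB (⇑b ∘ c ∘ Prod.map ⇑f ⇑f) = 0 := by
  rw [dTwo_precomp ρA ρB b hb c, hc]
  funext q
  simp

/-- Restriction of the class of a raw 1-cocycle. -/
lemma resHlev1_cl1 (c : G → A) (hl : IsLevel₁ 𝒰 c) (hc : dOne ρA c = 0) :
    resHlev1 hf h𝒰 h𝒰' hA hB b hb (cl1 h𝒰 ρA hA c hl hc) =
      cl1 h𝒰' ρB hB (⇑b ∘ c ∘ ⇑f) ((hf.isLevel₁ hl).comp _) (dOne_res_eq_zero b hb hc) := rfl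

/-- Restriction of the class of a raw 2-cocycle. -/
lemma resHlev2_cl2 (c : G × G → A) (hl : IsLevel₂ 𝒰 c) (hc : dTwo ρA c = 0) :
    resHlev2 hf h𝒰 h𝒰' hA hB b hb (cl2 h𝒰 ρA hA c hl hc) =
      cl2 h𝒰' ρB hB (⇑b ∘ c ∘ Prod.map ⇑f ⇑f) ((hf.isLevel₂ hl).comp _)
        (dTwo_res_eq_zero b hb hc) := rfl

end LvlRes

/-! ## Restriction of a resolved module -/

section Comap

variable {P1 P0 M : Type*} [AddCommGroup P1] [Module k P1] [AddCommGroup P0] [Module k P0]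
  [AddCommGroup M] [Module k M]

/-- Restriction of a resolved module along a continuous group homomorphism. -/
def _root_.Fermat.Agent.PT.PRO.Resolved4.Resolved.comap (f : G' →* G) (hf : IsLevelHom f 𝒰' 𝒰)
    (P : Resolved k 𝒰 P1 P0 M) : Resolved k 𝒰' P1 P0 M where
  ρ1 := P.ρ1.comp f
  ρ0 := P.ρ0.comp f
  ρM := P.ρM.comp f
  ι := P.ι
  π := P.π
  ι_comm g x := P.ι_comm (f g) x
  π_comm g x := P.π_comm (f g) x
  ι_inj := P.ι_inj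
  π_surj := P.π_surj
  exact := P.exact
  disc0 := hf.isDiscrete P.disc0

end Comap

/-! ## Naturality of `pair11` for a change of group -/

section Natural

variable {Y0 Y1 P1 P0 M C : Type*}
  [AddCommGroup Y0] [Module k Y0] [AddCommGroup Y1] [Module k Y1]
  [AddCommGroup P1] [Module k P1] [AddCommGroup P0] [Module k P0]
  [AddCommGroup M] [Module k M] [AddCommGroup C] [Module k C]
variable {Y0' Y1' P1' P0' M' C' : Type*}
  [AddCommGroup Y0'] [Module k Y0'] [AddCommGroup Y1'] [Module k Y1']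
  [AddCommGroup P1'] [Module k P1'] [AddCommGroup P0'] [Module k P0']
  [AddCommGroup M'] [Module k M'] [AddCommGroup C'] [Module k C']
variable {Y : Cx k 𝒰 Y0 Y1} {P : Resolved k 𝒰 P1 P0 M} {ρC : Representation k G C}
variable {Y' : Cx k 𝒰' Y0' Y1'} {P' : Resolved k 𝒰' P1' P0' M'} {ρC' : Representation k G' C'}

/-- A morphism of pairing data over a group homomorphism `f : G' →* G`: everything is covariant
(restriction). -/
structure PairingRes (f : G' →* G) (B : Pairing Y P ρC) (B' : Pairing Y' P' ρC') where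
  a : PHom f Y Y'
  b0 : P0 →ₗ[k] P0'
  b1 : P1 →ₗ[k] P1'
  bM : M →ₗ[k] M'
  comm0 : ∀ g x, b0 (P.ρ0 (f g) x) = P'.ρ0 g (b0 x)
  comm1 : ∀ g x, b1 (P.ρ1 (f g) x) = P'.ρ1 g (b1 x)
  commM : ∀ g x, bM (P.ρM (f g) x) = P'.ρM g (bM x)
  commι : ∀ x, b0 (P.ι x) = P'.ι (b1 x)
  commπ : ∀ x, bM (P.π x) = P'.π (b0 x)
  γ : C →ₗ[k] C'
  hγ : ∀ g c, γ (ρC (f g) c) = ρC' g (γ c)
  h0 : ∀ y x, B'.β0 (a.φ0 y) (b0 x) = γ (B.β0 y x)
  h1 : ∀ y x, B'.β1 (a.φ1 y) (b1 x) = γ (B.β1 y x)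

variable {f : G' →* G} {B : Pairing Y P ρC} {B' : Pairing Y' P' ρC'}
variable (hf : IsLevelHom f 𝒰' 𝒰) (h𝒰 : IsLevelBasis 𝒰) (h𝒰' : IsLevelBasis 𝒰')
variable (hC : IsDiscrete 𝒰 ρC) (hC' : IsDiscrete 𝒰' ρC')

/-- Restriction of raw hyper-1-cocycle data along a `PHom`. -/
def hz1Res (hf : IsLevelHom f 𝒰' 𝒰) (a : PHom f Y Y') (ξ : HZ1 Y) : HZ1 Y' where
  c := ⇑a.φ0 ∘ ξ.c ∘ ⇑f
  e := a.φ1 ξ.e
  lev := (hf.isLevel₁ ξ.lev).comp _
  hc g h := by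
    have h1 := congrFun (dOne_precomp Y.ρ0 Y'.ρ0 a.φ0 a.comm0 ξ.c) (g, h)
    rw [h1, Function.comp_apply, Function.comp_apply, Prod.map_apply, ξ.hc, map_zero]
  he g := by
    rw [Function.comp_apply, Function.comp_apply, ← a.commf, ξ.he, dZero_apply, dZero_apply,
      map_sub, a.comm1]

lemma cls_hz1Res (a : PHom f Y Y') (ξ : HZ1 Y) :
    (hz1Res hf a ξ).cls h𝒰' = a.ppℍ1 hf h𝒰 h𝒰' (ξ.cls h𝒰) := rfl

/-- Restriction of a lift. -/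
def lift1Res (hf : IsLevelHom f 𝒰' 𝒰) (F : PairingRes f B B') (L : Lift1 P) : Lift1 P' where
  xt := ⇑F.b0 ∘ L.xt ∘ ⇑f
  y' := ⇑F.b1 ∘ L.y' ∘ Prod.map ⇑f ⇑f
  lev := (hf.isLevel₁ L.lev).comp _
  hy g h := by
    have h1 := congrFun (dOne_precomp P.ρ0 P'.ρ0 F.b0 F.comm0 L.xt) (g, h)
    rw [h1, Function.comp_apply, Function.comp_apply, Function.comp_apply, Function.comp_apply,
      Prod.map_apply, ← F.commι, L.hy]

lemma lifts_lift1Res (F : PairingRes f B B') {L : Lift1 P} {x : G → M} (hL : L.Lifts x) :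
    (lift1Res hf F L).Lifts (⇑F.bM ∘ x ∘ ⇑f) := fun g => by
  show P'.π (F.b0 (L.xt (f g))) = F.bM (x (f g))
  rw [← F.commπ, hL (f g)]

/-- Raw naturality of the `(1,1)` cochain. -/
lemma p11_res (F : PairingRes f B B') (ξ : HZ1 Y) (L : Lift1 P) :
    B'.p11 (hz1Res hf F.a ξ).c (hz1Res hf F.a ξ).e (lift1Res hf F L).xt (lift1Res hf F L).y' =
      ⇑F.γ ∘ B.p11 ξ.c ξ.e L.xt L.y' ∘ Prod.map ⇑f ⇑f := by
  funext ⟨g, h⟩
  show B'.β0 (F.a.φ0 (ξ.c (f g))) (P'.ρ0 g (F.b0 (L.xt (f h)))) +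
      B'.β1 (F.a.φ1 ξ.e) (F.b1 (L.y' (f g, f h))) =
    F.γ (B.β0 (ξ.c (f g)) (P.ρ0 (f g) (L.xt (f h))) + B.β1 ξ.e (L.y' (f g, f h)))
  rw [map_add, ← F.h0, ← F.h1, F.comm0]

/-- **Naturality of the `(1,1)` pairing for a change of group** (item (N2)). -/
theorem pair11_res (F : PairingRes f B B') (ξ : Y.ℍ1 h𝒰) (x : Hlev1 h𝒰 P.ρM P.discM) :
    pair11 B' h𝒰' hC' (F.a.ppℍ1 hf h𝒰 h𝒰' ξ)
        (resHlev1 hf h𝒰 h𝒰' P.discM P'.discM F.bM F.commM x) =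
      resHlev2 hf h𝒰 h𝒰' hC hC' F.γ F.hγ (pair11 B h𝒰 hC ξ x) := by
  obtain ⟨ξ', rfl⟩ := HZ1.cls_surjective h𝒰 ξ
  obtain ⟨z, rfl⟩ := (lvl h𝒰 P.ρM P.discM).π1_surjective x
  obtain ⟨L, hL⟩ := Lift1.exists_lift (P := P) (fn1_level h𝒰 z) (fn1_cocycle h𝒰 z)
  rw [← cls_hz1Res, resHlev1_π1,
    pair11_mk B' h𝒰' hC' (hz1Res hf F.a ξ') _ (lift1Res hf F L) (lifts_lift1Res hf F hL),
    pair11_mk B h𝒰 hC ξ' z L hL]
  unfold cls11
  rw [resHlev2_cl2]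
  exact cl2_congr (p11_res hf F ξ' L) _ _ _ _

end Natural

/-! ## The instance used for `(r_q, ev_q)`: `K(P; C)` with evaluation, restricted along `f` -/

section EvalRes

variable {P1 P0 M C C' : Type*}
  [AddCommGroup P1] [Module k P1] [AddCommGroup P0] [Module k P0]
  [AddCommGroup M] [Module k M] [AddCommGroup C] [Module k C] [AddCommGroup C'] [Module k C']
variable (P : Resolved k 𝒰 P1 P0 M) [Module.Finite k P0] [Module.Finite k P1]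
variable {f : G' →* G} (hf : IsLevelHom f 𝒰' 𝒰) (h𝒰 : IsLevelBasis 𝒰) (h𝒰' : IsLevelBasis 𝒰')
variable {ρC : Representation k G C} {ρC' : Representation k G' C'}
variable (hC : IsDiscrete 𝒰 ρC) (hC' : IsDiscrete 𝒰' ρC')
variable (γ : C →ₗ[k] C') (hγ : ∀ g c, γ (ρC (f g) c) = ρC' g (γ c))

/-- `K(P; C) → K(P|_{G'}; C')` over `f`: post-composition with `γ`. -/
def kRes : PHom f (P.K h𝒰 ρC hC) ((P.comap f hf).K h𝒰' ρC' hC') where
  φ0 := LinearMap.compRight k γ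
  φ1 := LinearMap.compRight k γ
  comm0 g y := by
    ext x
    simp only [Resolved.K, Resolved.comap, LinearMap.compRight_apply, Representation.linHom_apply,
      LinearMap.comp_apply, hγ, MonoidHom.comp_apply, map_inv]
  comm1 g y := by
    ext x
    simp only [Resolved.K, Resolved.comap, LinearMap.compRight_apply, Representation.linHom_apply,
      LinearMap.comp_apply, hγ, MonoidHom.comp_apply, map_inv]
  commf y := by
    ext x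
    simp only [Resolved.K, Resolved.comap, LinearMap.compRight_apply, LinearMap.lcomp_apply,
      LinearMap.comp_apply]

@[simp] lemma kRes_φ0 (y : P0 →ₗ[k] C) : (kRes P hf h𝒰 h𝒰' hC hC' γ hγ).φ0 y = γ ∘ₗ y := rfl

@[simp] lemma kRes_φ1 (y : P1 →ₗ[k] C) : (kRes P hf h𝒰 h𝒰' hC hC' γ hγ).φ1 y = γ ∘ₗ y := rfl

/-- The restriction datum for the evaluation pairings. -/
def evalRes : PairingRes f (evalPairing P h𝒰 ρC hC)
    (evalPairing (P.comap f hf) h𝒰' ρC' hC') where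
  a := kRes P hf h𝒰 h𝒰' hC hC' γ hγ
  b0 := LinearMap.id
  b1 := LinearMap.id
  bM := LinearMap.id
  comm0 _ _ := rfl
  comm1 _ _ := rfl
  commM _ _ := rfl
  commι _ := rfl
  commπ _ := rfl
  γ := γ
  hγ := hγ
  h0 _ _ := rfl
  h1 _ _ := rfl

/-- **(N2) for `K(P; ·)` with evaluation**: restriction along `f` and `γ : C → C'` over `f`
commutes with the `(1,1)` pairing; the `H¹`-variable is restricted by `[x] ↦ [x ∘ f]`. -/
theorem pair11_evalRes (ξ : (P.K h𝒰 ρC hC).ℍ1 h𝒰) (x : Hlev1 h𝒰 P.ρM P.discM) :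
    pair11 (evalPairing (P.comap f hf) h𝒰' ρC' hC') h𝒰' hC'
        ((kRes P hf h𝒰 h𝒰' hC hC' γ hγ).ppℍ1 hf h𝒰 h𝒰' ξ)
        (resHlev1 hf h𝒰 h𝒰' P.discM (P.comap f hf).discM LinearMap.id (fun _ _ => rfl) x) =
      resHlev2 hf h𝒰 h𝒰' hC hC' γ hγ (pair11 (evalPairing P h𝒰 ρC hC) h𝒰 hC ξ x) :=
  pair11_res hf h𝒰 h𝒰' hC hC' (evalRes P hf h𝒰 h𝒰' hC hC' γ hγ) ξ x

end EvalRes

end Fermat.Agent.PT.PRO.PairingRes4
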