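/-
Program F (S55, Poitou–Tate), chapter PRO, helper4.

`InvP4`: the "invariant map" on the `p`-torsion of level `H²`.

* pure algebra: `pTor p T` (the subgroup `T[p]`), `RankLeOne p T` ("any two elements of `T[p]` are
  `𝔽_p`-dependent"), `exists_injective_pTor : RankLeOne p T → ∃ τ : T[p] →+ ZMod p, injective`;
* finite-level input `FinRankLeOne ρ p` (RAW: two 2-cocycles of the finite quotient whose
  `p`-multiples are coboundaries are dependent modulo coboundaries; this is what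
  `Interface8.IsFundClass` gives on each finite layer, via Sylow);
* `exists_normal_levelAt₂` (a level 2-cochain with values in a discrete module is of level `W` for
  a normal `W` of the basis), `infl₃`, `infl₃_dTwo` (inflation commutes with `d²`);
* `rankLeOne_Hlev2`: exhaustion by finite levels ⇒ `RankLeOne p (Hlev2 h𝒰 ρ hρ)`;
* `exists_inv`: `∃ τ : (Hlev2 ..)[p] →+ ZMod p` injective.
-/
import Mathlib
import Fermat.Agent.PT.PRO.Resolved4
import Fermat.Agent.PT.PRO.HyperColim18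

set_option autoImplicit false
set_option linter.style.haveILetI false

namespace Fermat.Agent.PT.PRO.InvP4

open Fermat.Agent.PT.PRO.HyperLevel25 Fermat.Agent.PT.PRO.Resolved4
  Fermat.Agent.PT.PRO.GlobalDuality20 Fermat.Agent.PT.PRO.HyperColim18

/-! ### Pure algebra -/

section Algebra

variable (p : ℕ) (T : Type*) [AddCommGroup T]

/-- The `p`-torsion subgroup `T[p]`. -/
def pTor : AddSubgroup T where
  carrier := {x | p • x = 0}
  zero_mem' := smul_zero _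
  add_mem' := fun {x y} hx hy => by
    have hx' : p • x = 0 := hx
    have hy' : p • y = 0 := hy
    show p • (x + y) = 0
    rw [smul_add, hx', hy', add_zero]
  neg_mem' := fun {x} hx => by
    have hx' : p • x = 0 := hx
    show p • (-x) = 0
    rw [smul_neg, hx', neg_zero]

variable {p T}

lemma mem_pTor {x : T} : x ∈ pTor p T ↔ p • x = 0 := Iff.rfl

variable (p T)

/-- "`T[p]` has `𝔽_p`-rank at most one": any two elements killed by `p` are dependent. -/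
def RankLeOne : Prop :=
  ∀ x y : T, p • x = 0 → p • y = 0 →
    ∃ a b : ℤ, ¬ ((p : ℤ) ∣ a ∧ (p : ℤ) ∣ b) ∧ a • x + b • y = 0

variable {p T}

/-- A vector space over `ℤ/p` in which any two vectors are dependent embeds in `ℤ/p`. -/
theorem exists_injective_of_dependent [Fact p.Prime] {V : Type*} [AddCommGroup V]
    [Module (ZMod p) V]
    (h : ∀ x y : V, ∃ a b : ZMod p, ¬ (a = 0 ∧ b = 0) ∧ a • x + b • y = 0) :
    ∃ τ : V →+ ZMod p, Function.Injective τ := by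
  classical
  by_cases hz : ∀ x : V, x = 0
  · exact ⟨0, fun x y _ => by rw [hz x, hz y]⟩
  · push Not at hz
    obtain ⟨x₀, hx₀⟩ := hz
    have hg0 : ∀ c : ZMod p, c • x₀ = 0 → c = 0 := by
      intro c hc
      by_contra hne
      apply hx₀
      have : c⁻¹ • (c • x₀) = x₀ := by rw [smul_smul, inv_mul_cancel₀ hne, one_smul]
      rw [← this, hc, smul_zero]
    have hginj : Function.Injective (LinearMap.toSpanSingleton (ZMod p) V x₀) := by
      rw [injective_iff_map_eq_zero]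
      intro c hc
      exact hg0 c (by simpa [LinearMap.toSpanSingleton_apply] using hc)
    have hgsurj : Function.Surjective (LinearMap.toSpanSingleton (ZMod p) V x₀) := by
      intro y
      obtain ⟨a, b, hab, hrel⟩ := h x₀ y
      have hb : b ≠ 0 := by
        intro hb0
        apply hab
        rw [hb0, zero_smul, add_zero] at hrel
        exact ⟨hg0 _ hrel, hb0⟩
      refine ⟨b⁻¹ * -a, ?_⟩
      show (b⁻¹ * -a) • x₀ = y
      have h1 : a • x₀ = -(b • y) := eq_neg_of_add_eq_zero_left hrel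
      rw [mul_smul, neg_smul, h1, neg_neg, smul_smul, inv_mul_cancel₀ hb, one_smul]
    exact ⟨(LinearEquiv.ofBijective (LinearMap.toSpanSingleton (ZMod p) V x₀)
      ⟨hginj, hgsurj⟩).symm.toLinearMap.toAddMonoidHom,
      (LinearEquiv.ofBijective (LinearMap.toSpanSingleton (ZMod p) V x₀)
        ⟨hginj, hgsurj⟩).symm.injective⟩

/-- If `T[p]` has rank at most one, it embeds in `ℤ/p`. -/
theorem exists_injective_pTor [Fact p.Prime] (h : RankLeOne p T) :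
    ∃ τ : pTor p T →+ ZMod p, Function.Injective τ := by
  have hP : ∀ x : pTor p T, p • x = 0 := fun x => Subtype.ext (by
    rw [AddSubgroup.coe_nsmul]; exact x.2)
  letI : Module (ZMod p) (pTor p T) := AddCommGroup.zmodModule hP
  refine exists_injective_of_dependent (p := p) (V := pTor p T) (fun x y => ?_)
  obtain ⟨a, b, hab, hrel⟩ := h (x : T) (y : T) x.2 y.2
  refine ⟨(a : ZMod p), (b : ZMod p), fun h0 => hab
    ⟨(ZMod.intCast_zmod_eq_zero_iff_dvd a p).1 h0.1,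
      (ZMod.intCast_zmod_eq_zero_iff_dvd b p).1 h0.2⟩, ?_⟩
  rw [Int.cast_smul_eq_zsmul, Int.cast_smul_eq_zsmul]
  apply Subtype.ext
  rw [AddSubgroup.coe_add, AddSubgroup.coe_zsmul, AddSubgroup.coe_zsmul]
  exact hrel

end Algebra

/-! ### Level cochains: normal levels in degree 2, inflation in degree 3 -/

section Level

variable {k : Type*} [CommRing k] {G : Type*} [Group G] {𝒰 : Set (Subgroup G)}
variable {Y : Type*} [AddCommGroup Y] [Module k Y]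

/-- A level 2-cochain with values in a discrete module is of level `W` (right-invariant in both
variables, values fixed) for some normal `W` of the basis. -/
lemma exists_normal_levelAt₂ (h𝒰 : IsLevelBasis 𝒰) {ρ : Representation k G Y}
    (hρ : IsDiscrete 𝒰 ρ) {φ : G × G → Y} (hφ : IsLevel₂ 𝒰 φ) :
    ∃ W ∈ 𝒰, W.Normal ∧ IsLevelAt₂ ρ W φ := by
  obtain ⟨U, hU, hφU⟩ := hφ
  have := h𝒰.finiteIndex U hU
  have : Finite (G ⧸ U) := Subgroup.finite_quotient_of_finiteIndex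
  choose V hV𝒰 hVP using hρ
  obtain ⟨W₀, hW₀, hW₀le⟩ := h𝒰.exists_le_of_finite
    (fun q : (G ⧸ U) × (G ⧸ U) => V (φ (q.1.out, q.2.out))) (fun q => hV𝒰 _)
  obtain ⟨W₁, hW₁, hW₁le⟩ := h𝒰.inf W₀ hW₀ U hU
  obtain ⟨W, hW, hWle, hWn⟩ := h𝒰.normal W₁ hW₁
  have hWU : W ≤ U := hWle.trans (hW₁le.trans inf_le_right)
  have hWW₀ : W ≤ W₀ := hWle.trans (hW₁le.trans inf_le_left)
  refine ⟨W, hW, hWn, fun g g' s s' hs hs' => hφU g g' s s' (hWU hs) (hWU hs'), ?_⟩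
  rintro ⟨g, g'⟩ t ht
  obtain ⟨s, hs, h⟩ := out_eq_mul U g
  obtain ⟨s', hs', h'⟩ := out_eq_mul U g'
  have e : φ (g, g') = φ ((g : G ⧸ U).out, (g' : G ⧸ U).out) := by
    rw [h, h', hφU g g' s s' hs hs']
  rw [e]
  exact hVP _ t (hW₀le ((g : G ⧸ U), (g' : G ⧸ U)) (hWW₀ ht))

/-- Inflation of a 3-cochain. -/
def infl₃ {V : Subgroup G} {ρ : Representation k G Y}
    (φ : (G ⧸ V) × (G ⧸ V) × (G ⧸ V) → fixedSub V ρ) : G × G × G → Y :=
  fun q => (φ ((q.1 : G ⧸ V), (q.2.1 : G ⧸ V), (q.2.2 : G ⧸ V)) : Y)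

lemma infl₃_injective {V : Subgroup G} {ρ : Representation k G Y} :
    Function.Injective (infl₃ (V := V) (ρ := ρ)) := by
  intro c c' h
  funext ⟨q, q', q''⟩
  induction q using QuotientGroup.induction_on with
  | H g =>
    induction q' using QuotientGroup.induction_on with
    | H g' =>
      induction q'' using QuotientGroup.induction_on with
      | H g'' => exact Subtype.ext (congrFun h (g, g', g''))

lemma infl₃_dTwo (V : Subgroup G) [V.Normal] (ρ : Representation k G Y)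
    (φ : (G ⧸ V) × (G ⧸ V) → fixedSub V ρ) :
    infl₃ (dTwo (fixedRep V ρ) φ) = dTwo ρ (infl₂ φ) := by
  funext ⟨g, h, j⟩
  simp only [infl₃, dTwo_apply, Submodule.coe_add, Submodule.coe_sub, fixedRep_mk, infl₂_apply,
    QuotientGroup.mk_mul]

lemma infl₃_zero {V : Subgroup G} {ρ : Representation k G Y} :
    infl₃ (V := V) (ρ := ρ) 0 = 0 := rfl

/-- Descent of the cocycle condition. -/
lemma dTwo_desc₂ (V : Subgroup G) [V.Normal] (ρ : Representation k G Y) {φ : G × G → Y}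
    (hφ : IsLevelAt₂ ρ V φ) (h : dTwo ρ φ = 0) : dTwo (fixedRep V ρ) (desc₂ φ hφ) = 0 := by
  apply infl₃_injective
  rw [infl₃_dTwo, infl₂_desc₂, h, infl₃_zero]

end Level

/-! ### Exhaustion: rank `≤ 1` for level `H²` from the finite layers -/

section Main

variable {k : Type*} [CommRing k] {G : Type*} [Group G] {𝒰 : Set (Subgroup G)}
variable {Y : Type*} [AddCommGroup Y] [Module k Y]

/-- RAW finite-level statement "`H²(Q, X)[p]` has rank `≤ 1`": two 2-cocycles whose `p`-multiples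
are coboundaries are `𝔽_p`-dependent modulo coboundaries. -/
def FinRankLeOne {Q : Type*} [Group Q] {X : Type*} [AddCommGroup X] [Module k X]
    (ρ : Representation k Q X) (p : ℕ) : Prop :=
  ∀ φ ψ : Q × Q → X, dTwo ρ φ = 0 → dTwo ρ ψ = 0 →
    (∃ v : Q → X, p • φ = dOne ρ v) → (∃ v : Q → X, p • ψ = dOne ρ v) →
    ∃ a b : ℤ, ¬ ((p : ℤ) ∣ a ∧ (p : ℤ) ∣ b) ∧ ∃ v : Q → X, a • φ + b • ψ = dOne ρ v

/-- The same with `ℤ`-casts of `p` (the form produced by `FinLayerBridge26`). -/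
lemma finRankLeOne_of_int {Q : Type*} [Group Q] {X : Type*} [AddCommGroup X] [Module k X]
    (ρ : Representation k Q X) (p : ℕ)
    (h : ∀ φ ψ : Q × Q → X, dTwo ρ φ = 0 → dTwo ρ ψ = 0 →
      (∃ v : Q → X, (p : ℤ) • φ = dOne ρ v) → (∃ v : Q → X, (p : ℤ) • ψ = dOne ρ v) →
      ∃ a b : ℤ, ¬ ((p : ℤ) ∣ a ∧ (p : ℤ) ∣ b) ∧ ∃ v : Q → X, a • φ + b • ψ = dOne ρ v) :
    FinRankLeOne ρ p := by
  intro φ ψ hφ hψ ⟨v, hv⟩ ⟨w, hw⟩
  exact h φ ψ hφ hψ ⟨v, by rw [natCast_zsmul, hv]⟩ ⟨w, by rw [natCast_zsmul, hw]⟩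

variable (h𝒰 : IsLevelBasis 𝒰) (ρ : Representation k G Y) (hρ : IsDiscrete 𝒰 ρ)

include h𝒰 hρ in
/-- Two level cochains `φ, ψ` (degree 2) and `u, u'` (degree 1) are of level `V` for a common
`V` in a cofinal family. -/
lemma exists_common_level {ℱ : Set (Subgroup G)} (hcof : ∀ U ∈ 𝒰, ∃ V ∈ ℱ, V ≤ U)
    {φ ψ : G × G → Y} {u u' : G → Y} (hφ : IsLevel₂ 𝒰 φ) (hψ : IsLevel₂ 𝒰 ψ)
    (hu : IsLevel₁ 𝒰 u) (hu' : IsLevel₁ 𝒰 u') :
    ∃ V ∈ ℱ, IsLevelAt₂ ρ V φ ∧ IsLevelAt₂ ρ V ψ ∧ IsLevelAt₁ ρ V u ∧ IsLevelAt₁ ρ V u' := by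
  obtain ⟨W₁, hW₁, -, h1⟩ := exists_normal_levelAt₂ h𝒰 hρ hφ
  obtain ⟨W₂, hW₂, -, h2⟩ := exists_normal_levelAt₂ h𝒰 hρ hψ
  obtain ⟨W₃, hW₃, -, h3a, h3b⟩ := h𝒰.exists_normal_fixing hρ hu
  obtain ⟨W₄, hW₄, -, h4a, h4b⟩ := h𝒰.exists_normal_fixing hρ hu'
  obtain ⟨A, hA, hAle⟩ := h𝒰.inf W₁ hW₁ W₂ hW₂
  obtain ⟨B, hB, hBle⟩ := h𝒰.inf W₃ hW₃ W₄ hW₄
  obtain ⟨C, hC, hCle⟩ := h𝒰.inf A hA B hB
  obtain ⟨V, hV, hVle⟩ := hcof C hC
  have l1 : V ≤ W₁ := hVle.trans (hCle.trans (inf_le_left.trans (hAle.trans inf_le_left)))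
  have l2 : V ≤ W₂ := hVle.trans (hCle.trans (inf_le_left.trans (hAle.trans inf_le_right)))
  have l3 : V ≤ W₃ := hVle.trans (hCle.trans (inf_le_right.trans (hBle.trans inf_le_left)))
  have l4 : V ≤ W₄ := hVle.trans (hCle.trans (inf_le_right.trans (hBle.trans inf_le_right)))
  exact ⟨V, hV, h1.mono l1, h2.mono l2,
    ⟨fun g s hs => h3a g s (l3 hs), fun g s hs => h3b g s (l3 hs)⟩,
    ⟨fun g s hs => h4a g s (l4 hs), fun g s hs => h4b g s (l4 hs)⟩⟩

/-- **Exhaustion.**  If `H²(G ⧸ V, Y^V)[p]` has rank `≤ 1` (raw form) for the `V` of a cofinal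
family `ℱ` of normal members of the basis, then `H²_lev(G, Y)[p]` has rank `≤ 1`. -/
theorem rankLeOne_Hlev2 (p : ℕ) {ℱ : Set (Subgroup G)} (hsub : ℱ ⊆ 𝒰)
    (hnormal : ∀ V ∈ ℱ, V.Normal) (hcof : ∀ U ∈ 𝒰, ∃ V ∈ ℱ, V ≤ U)
    (hfin : ∀ V (hV : V ∈ ℱ), haveI := hnormal V hV; FinRankLeOne (fixedRep V ρ) p) :
    RankLeOne p (Hlev2 h𝒰 ρ hρ) := by
  intro x y hx hy
  obtain ⟨z, rfl⟩ := (lvl h𝒰 ρ hρ).π2_surjective x
  obtain ⟨w, rfl⟩ := (lvl h𝒰 ρ hρ).π2_surjective y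
  rw [← map_nsmul, π2_lvl_eq_zero_iff] at hx hy
  obtain ⟨u, hu, hux⟩ := hx
  obtain ⟨u', hu', huy⟩ := hy
  set φ : G × G → Y := ((z : lev₂ k h𝒰 Y) : G × G → Y) with hφdef
  set ψ : G × G → Y := ((w : lev₂ k h𝒰 Y) : G × G → Y) with hψdef
  have hφl : IsLevel₂ 𝒰 φ := (z : lev₂ k h𝒰 Y).2
  have hψl : IsLevel₂ 𝒰 ψ := (w : lev₂ k h𝒰 Y).2
  have hφc : dTwo ρ φ = 0 := (mem_lvl_Z2_iff h𝒰 ρ hρ _).1 z.2
  have hψc : dTwo ρ ψ = 0 := (mem_lvl_Z2_iff h𝒰 ρ hρ _).1 w.2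
  have hux' : dOne ρ u = p • φ := hux
  have huy' : dOne ρ u' = p • ψ := huy
  obtain ⟨V, hV, hφV, hψV, huV, hu'V⟩ := exists_common_level h𝒰 ρ hρ hcof hφl hψl hu hu'
  have := hnormal V hV
  obtain ⟨a, b, hab, v, hv⟩ := hfin V hV (desc₂ φ hφV) (desc₂ ψ hψV)
    (dTwo_desc₂ V ρ hφV hφc) (dTwo_desc₂ V ρ hψV hψc)
    ⟨desc₁ u huV, by
      apply infl₂_injective
      rw [infl₂_dOne, infl₁_desc₁, hux']
      funext q
      simp only [infl₂, Pi.smul_apply, Submodule.coe_smul_of_tower, desc₂]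
      obtain ⟨g, g'⟩ := q
      obtain ⟨s, hs, h⟩ := out_eq_mul V g
      obtain ⟨s', hs', h'⟩ := out_eq_mul V g'
      simp only [h, h', hφV.1 g g' s s' hs hs']⟩
    ⟨desc₁ u' hu'V, by
      apply infl₂_injective
      rw [infl₂_dOne, infl₁_desc₁, huy']
      funext q
      simp only [infl₂, Pi.smul_apply, Submodule.coe_smul_of_tower, desc₂]
      obtain ⟨g, g'⟩ := q
      obtain ⟨s, hs, h⟩ := out_eq_mul V g
      obtain ⟨s', hs', h'⟩ := out_eq_mul V g'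
      simp only [h, h', hψV.1 g g' s s' hs hs']⟩
  refine ⟨a, b, hab, ?_⟩
  rw [← map_zsmul, ← map_zsmul, ← map_add, π2_lvl_eq_zero_iff]
  refine ⟨infl₁ v, (isLevelAt₁_infl₁ v).isLevel₁ (hsub hV), ?_⟩
  rw [← infl₂_dOne, ← hv]
  funext q
  obtain ⟨g, g'⟩ := q
  obtain ⟨s, hs, h⟩ := out_eq_mul V g
  obtain ⟨s', hs', h'⟩ := out_eq_mul V g'
  show ((a • desc₂ φ hφV + b • desc₂ ψ hψV) ((g : G ⧸ V), (g' : G ⧸ V)) : Y) =
    (a • φ + b • ψ) (g, g')
  simp only [Pi.add_apply, Pi.smul_apply, Submodule.coe_add, Submodule.coe_smul_of_tower, desc₂,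
    h, h', hφV.1 g g' s s' hs hs', hψV.1 g g' s s' hs hs']

/-- **The invariant map on `H²_lev[p]`.** -/
theorem exists_inv (p : ℕ) [Fact p.Prime] {ℱ : Set (Subgroup G)} (hsub : ℱ ⊆ 𝒰)
    (hnormal : ∀ V ∈ ℱ, V.Normal) (hcof : ∀ U ∈ 𝒰, ∃ V ∈ ℱ, V ≤ U)
    (hfin : ∀ V (hV : V ∈ ℱ), haveI := hnormal V hV; FinRankLeOne (fixedRep V ρ) p) :
    ∃ τ : pTor p (Hlev2 h𝒰 ρ hρ) →+ ZMod p, Function.Injective τ :=
  exists_injective_pTor (rankLeOne_Hlev2 h𝒰 ρ hρ p hsub hnormal hcof hfin)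

end Main

end Fermat.Agent.PT.PRO.InvP4
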