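/-
Program F (S55, Poitou–Tate), chapter PRO — helper27.  **Exhaustion for "`f_*` is injective on the
`p`-torsion of `H²`"** (the limit half of (LG), local–global injectivity, of PLAN v4).

`f : X → C` an equivariant map of discrete `G`-modules.  If for a cofinal family `ℱ` of normal
members `V` of the level basis the RAW finite-level statement
`FinInjP (fixedRep V ρX) (fixedRep V ρC) (fixedMap V f) p` holds (a 2-cocycle `φ'` of `G ⧸ V` in
`X^V` with `p • φ'` a coboundary and `f ∘ φ'` a coboundary is a coboundary), then a level 2-cocycle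
`φ` of `G` in `X` with `p • φ = d(level)` and `f ∘ φ = d(level)` is `d(level)`, i.e.
`(lvlHom f).mapH2` is injective on the `p`-torsion of `Hlev2`.

Also: transport of `FinInjP` along isomorphisms of the group and of the modules, and the bridge
from Mathlib's `groupCohomology.H2` (`Rep ℤ Q`, morphism `g : A ⟶ B`).
-/
import Mathlib
import Fermat.Agent.PT.PRO.InvP4
import Fermat.Agent.PT.PRO.FundRaw18

set_option autoImplicit false
set_option linter.unusedSectionVars false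

namespace Fermat.Agent.PT.PRO.LimitInj27

open Fermat.Agent.PT.PRO.HyperLevel25 Fermat.Agent.PT.PRO.GlobalDuality20
  Fermat.Agent.PT.PRO.HyperColim18 Fermat.Agent.PT.PRO.Resolved4 Fermat.Agent.PT.PRO.InvP4

variable {k : Type*} [CommRing k]

/-! ### The raw finite-level statement -/

/-- RAW finite-level statement: `f_* : H²(Q, X) → H²(Q, C)` is injective on `p`-torsion. -/
def FinInjP {Q : Type*} [Group Q] {X C : Type*} [AddCommGroup X] [Module k X] [AddCommGroup C]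
    [Module k C] (ρX : Representation k Q X) (ρC : Representation k Q C) (f : X →ₗ[k] C)
    (p : ℕ) : Prop :=
  ∀ φ : Q × Q → X, dTwo ρX φ = 0 → (∃ v : Q → X, p • φ = dOne ρX v) →
    (∃ u : Q → C, ⇑f ∘ φ = dOne ρC u) → ∃ v : Q → X, φ = dOne ρX v

/-! ### Exhaustion -/

section Limit

variable {G : Type*} [Group G] {𝒰 : Set (Subgroup G)}
variable {X C : Type*} [AddCommGroup X] [Module k X] [AddCommGroup C] [Module k C]
variable (h𝒰 : IsLevelBasis 𝒰) (ρX : Representation k G X) (hX : IsDiscrete 𝒰 ρX)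
  (ρC : Representation k G C) (hC : IsDiscrete 𝒰 ρC)
  (f : X →ₗ[k] C) (hf : ∀ g x, f (ρX g x) = ρC g (f x))

include h𝒰 hX hC in
/-- a level 2-cochain and a level 1-cochain of `X` and a level 1-cochain of `C` are of level `V`
for a common `V` of a cofinal family -/
lemma exists_common_level₃ {ℱ : Set (Subgroup G)} (hcof : ∀ U ∈ 𝒰, ∃ V ∈ ℱ, V ≤ U)
    {φ : G × G → X} {ψ : G → X} {u : G → C} (hφ : IsLevel₂ 𝒰 φ) (hψ : IsLevel₁ 𝒰 ψ)
    (hu : IsLevel₁ 𝒰 u) :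
    ∃ V ∈ ℱ, IsLevelAt₂ ρX V φ ∧ IsLevelAt₁ ρX V ψ ∧ IsLevelAt₁ ρC V u := by
  obtain ⟨W₁, hW₁, -, h1⟩ := exists_normal_levelAt₂ h𝒰 hX hφ
  obtain ⟨W₂, hW₂, -, h2a, h2b⟩ := h𝒰.exists_normal_fixing hX hψ
  obtain ⟨W₃, hW₃, -, h3a, h3b⟩ := h𝒰.exists_normal_fixing hC hu
  obtain ⟨A, hA, hAle⟩ := h𝒰.inf W₁ hW₁ W₂ hW₂
  obtain ⟨B, hB, hBle⟩ := h𝒰.inf A hA W₃ hW₃
  obtain ⟨V, hV, hVle⟩ := hcof B hB
  have l1 : V ≤ W₁ := hVle.trans (hBle.trans (inf_le_left.trans (hAle.trans inf_le_left)))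
  have l2 : V ≤ W₂ := hVle.trans (hBle.trans (inf_le_left.trans (hAle.trans inf_le_right)))
  have l3 : V ≤ W₃ := hVle.trans (hBle.trans inf_le_right)
  exact ⟨V, hV, h1.mono l1,
    ⟨fun g s hs => h2a g s (l2 hs), fun g s hs => h2b g s (l2 hs)⟩,
    ⟨fun g s hs => h3a g s (l3 hs), fun g s hs => h3b g s (l3 hs)⟩⟩

include h𝒰 hX hC in
/-- **Exhaustion, raw form.** -/
theorem exists_level_dOne_of_fin (p : ℕ) {ℱ : Set (Subgroup G)} (hsub : ℱ ⊆ 𝒰)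
    (hnormal : ∀ V ∈ ℱ, V.Normal) (hcof : ∀ U ∈ 𝒰, ∃ V ∈ ℱ, V ≤ U)
    (hfin : ∀ V (hV : V ∈ ℱ), haveI := hnormal V hV;
      FinInjP (fixedRep V ρX) (fixedRep V ρC) (fixedMap V ρX ρC f hf) p)
    {φ : G × G → X} (hφl : IsLevel₂ 𝒰 φ) (hφc : dTwo ρX φ = 0)
    {ψ : G → X} (hψl : IsLevel₁ 𝒰 ψ) (hψ : p • φ = dOne ρX ψ)
    {u : G → C} (hul : IsLevel₁ 𝒰 u) (hu : ⇑f ∘ φ = dOne ρC u) :
    ∃ v : G → X, IsLevel₁ 𝒰 v ∧ φ = dOne ρX v := by
  obtain ⟨V, hV, hφV, hψV, huV⟩ := exists_common_level₃ h𝒰 ρX hX ρC hC hcof hφl hψl hul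
  have := hnormal V hV
  have key : ∀ g g' : G, ((desc₂ φ hφV ((g : G ⧸ V), (g' : G ⧸ V)) : fixedSub V ρX) : X) =
      φ (g, g') := fun g g' => congrFun (infl₂_desc₂ φ hφV) (g, g')
  obtain ⟨v, hv⟩ := hfin V hV (desc₂ φ hφV) (dTwo_desc₂ V ρX hφV hφc)
    ⟨desc₁ ψ hψV, by
      apply infl₂_injective
      rw [infl₂_dOne, infl₁_desc₁, ← hψ]
      funext ⟨g, g'⟩
      simp only [infl₂_apply, Pi.smul_apply, Submodule.coe_smul_of_tower, key]⟩
    ⟨desc₁ u huV, by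
      apply infl₂_injective
      rw [infl₂_dOne, infl₁_desc₁, ← hu]
      funext ⟨g, g'⟩
      simp only [infl₂_apply, Function.comp_apply, coe_fixedMap, key]⟩
  refine ⟨infl₁ v, (isLevelAt₁_infl₁ v).isLevel₁ (hsub hV), ?_⟩
  rw [← infl₂_dOne, ← hv, infl₂_desc₂]

/-- **Exhaustion, `Hlev2` form**: `(lvlHom f).mapH2` is injective on `p`-torsion. -/
theorem eq_zero_of_fin (p : ℕ) {ℱ : Set (Subgroup G)} (hsub : ℱ ⊆ 𝒰)
    (hnormal : ∀ V ∈ ℱ, V.Normal) (hcof : ∀ U ∈ 𝒰, ∃ V ∈ ℱ, V ≤ U)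
    (hfin : ∀ V (hV : V ∈ ℱ), haveI := hnormal V hV;
      FinInjP (fixedRep V ρX) (fixedRep V ρC) (fixedMap V ρX ρC f hf) p)
    (x : Hlev2 h𝒰 ρX hX) (hpx : p • x = 0) (hfx : (lvlHom h𝒰 hX hC f hf).mapH2 x = 0) :
    x = 0 := by
  obtain ⟨z, rfl⟩ := (lvl h𝒰 ρX hX).π2_surjective x
  rw [← map_nsmul, π2_lvl_eq_zero_iff] at hpx
  rw [Cpx.Hom.mapH2_π2, π2_lvl_eq_zero_iff] at hfx
  obtain ⟨ψ, hψl, hψ⟩ := hpx
  obtain ⟨u, hul, hu⟩ := hfx
  set φ : G × G → X := ((z : lev₂ k h𝒰 X) : G × G → X) with hφdef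
  have hφl : IsLevel₂ 𝒰 φ := (z : lev₂ k h𝒰 X).2
  have hφc : dTwo ρX φ = 0 := (mem_lvl_Z2_iff h𝒰 ρX hX _).1 z.2
  obtain ⟨v, hvl, hv⟩ := exists_level_dOne_of_fin h𝒰 ρX hX ρC hC f hf p hsub hnormal hcof hfin
    hφl hφc hψl hψ.symm hul hu.symm
  rw [π2_lvl_eq_zero_iff]
  exact ⟨v, hvl, hv.symm⟩

end Limit

/-! ### Exhaustion with lifting through a short exact sequence `E → I → C` -/

/-- RAW finite-level statement with lifting: a 2-cocycle `φ` of `Q` in `X` with `p • φ` a coboundary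
and `inc ∘ φ = d y + dg ∘ e` (`y` a 1-cochain in `I`, `e` a 2-cochain in `E`) is a coboundary. -/
def FinInjLift {Q : Type*} [Group Q] {X I E : Type*} [AddCommGroup X] [Module k X]
    [AddCommGroup I] [Module k I] [AddCommGroup E] [Module k E]
    (ρX : Representation k Q X) (ρI : Representation k Q I) (inc : X →ₗ[k] I) (dg : E →ₗ[k] I)
    (p : ℕ) : Prop :=
  ∀ φ : Q × Q → X, dTwo ρX φ = 0 → (∃ v : Q → X, p • φ = dOne ρX v) →
    (∃ (y : Q → I) (e : Q × Q → E), ⇑inc ∘ φ = dOne ρI y + ⇑dg ∘ e) →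
    ∃ v : Q → X, φ = dOne ρX v

section LimitLift

variable {G : Type*} [Group G] {𝒰 : Set (Subgroup G)}
variable {X I E C : Type*} [AddCommGroup X] [Module k X] [AddCommGroup I] [Module k I]
  [AddCommGroup E] [Module k E] [AddCommGroup C] [Module k C]
variable (h𝒰 : IsLevelBasis 𝒰) (ρX : Representation k G X) (hX : IsDiscrete 𝒰 ρX)
  (ρI : Representation k G I) (hI : IsDiscrete 𝒰 ρI)
  (ρE : Representation k G E) (hE : IsDiscrete 𝒰 ρE)
  (ρC : Representation k G C) (hC : IsDiscrete 𝒰 ρC)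
  (inc : X →ₗ[k] I) (hinc : ∀ g x, inc (ρX g x) = ρI g (inc x))
  (dg : E →ₗ[k] I) (hdg : ∀ g b, dg (ρE g b) = ρI g (dg b))
  (t : I →ₗ[k] C) (ht : ∀ g x, t (ρI g x) = ρC g (t x))

include h𝒰 hI hE hdg ht in
/-- **Lifting.**  If `t ∘ c = d u` with `c` a level 2-cochain of `I` and `u` a level 1-cochain of
`C`, then `c = d y + dg ∘ e` with level cochains `y` (of `I`) and `e` (of `E`). -/
lemma exists_level_lift (hdginj : Function.Injective dg) (htsurj : Function.Surjective t)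
    (hker : ∀ x, t x = 0 → ∃ b, dg b = x)
    {c : G × G → I} (hcl : IsLevel₂ 𝒰 c) {u : G → C} (hul : IsLevel₁ 𝒰 u)
    (hu : ⇑t ∘ c = dOne ρC u) :
    ∃ (y : G → I) (e : G × G → E), IsLevel₁ 𝒰 y ∧ IsLevel₂ 𝒰 e ∧ c = dOne ρI y + ⇑dg ∘ e := by
  classical
  set y : G → I := Function.surjInv htsurj ∘ u with hy
  have hyl : IsLevel₁ 𝒰 y := hul.comp _
  have hty : ⇑t ∘ y = u := by
    funext g
    exact Function.surjInv_eq htsurj (u g)
  have hdy : IsLevel₂ 𝒰 (dOne ρI y) := h𝒰.isLevel₂_dOne hI hyl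
  have hzero : ∀ q : G × G, t (c q - dOne ρI y q) = 0 := by
    intro q
    have h1 : t (c q) = dOne ρC u q := congrFun hu q
    have h2 : t (dOne ρI y q) = dOne ρC u q := by
      obtain ⟨g, g'⟩ := q
      simp only [dOne_apply, map_add, map_sub, ht]
      have e1 : ∀ g, t (y g) = u g := fun g => congrFun hty g
      rw [e1, e1, e1]
    rw [map_sub, h1, h2, sub_self]
  choose e he using fun q => hker _ (hzero q)
  refine ⟨y, e, hyl, ?_, ?_⟩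
  · obtain ⟨U₁, hU₁, h1⟩ := hcl
    obtain ⟨U₂, hU₂, h2⟩ := hdy
    obtain ⟨W, hW, hWle⟩ := h𝒰.inf U₁ hU₁ U₂ hU₂
    refine ⟨W, hW, fun g g' s s' hs hs' => hdginj ?_⟩
    rw [he, he, h1 g g' s s' (hWle hs).1 (hWle hs').1, h2 g g' s s' (hWle hs).2 (hWle hs').2]
  · funext q
    simp only [Pi.add_apply, Function.comp_apply, he]
    abel

include h𝒰 hX hI hE in
/-- two level 2-cochains and two level 1-cochains of three discrete modules are of level `V` for a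
common `V` of a cofinal family -/
lemma exists_common_level₄ {ℱ : Set (Subgroup G)} (hcof : ∀ U ∈ 𝒰, ∃ V ∈ ℱ, V ≤ U)
    {φ : G × G → X} {ψ : G → X} {y : G → I} {e : G × G → E} (hφ : IsLevel₂ 𝒰 φ)
    (hψ : IsLevel₁ 𝒰 ψ) (hy : IsLevel₁ 𝒰 y) (he : IsLevel₂ 𝒰 e) :
    ∃ V ∈ ℱ, IsLevelAt₂ ρX V φ ∧ IsLevelAt₁ ρX V ψ ∧ IsLevelAt₁ ρI V y ∧ IsLevelAt₂ ρE V e := by
  obtain ⟨W₁, hW₁, -, h1⟩ := exists_normal_levelAt₂ h𝒰 hX hφ
  obtain ⟨W₂, hW₂, -, h2a, h2b⟩ := h𝒰.exists_normal_fixing hX hψ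
  obtain ⟨W₃, hW₃, -, h3a, h3b⟩ := h𝒰.exists_normal_fixing hI hy
  obtain ⟨W₄, hW₄, -, h4⟩ := exists_normal_levelAt₂ h𝒰 hE he
  obtain ⟨A, hA, hAle⟩ := h𝒰.inf W₁ hW₁ W₂ hW₂
  obtain ⟨B, hB, hBle⟩ := h𝒰.inf W₃ hW₃ W₄ hW₄
  obtain ⟨D, hD, hDle⟩ := h𝒰.inf A hA B hB
  obtain ⟨V, hV, hVle⟩ := hcof D hD
  have l1 : V ≤ W₁ := hVle.trans (hDle.trans (inf_le_left.trans (hAle.trans inf_le_left)))
  have l2 : V ≤ W₂ := hVle.trans (hDle.trans (inf_le_left.trans (hAle.trans inf_le_right)))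
  have l3 : V ≤ W₃ := hVle.trans (hDle.trans (inf_le_right.trans (hBle.trans inf_le_left)))
  have l4 : V ≤ W₄ := hVle.trans (hDle.trans (inf_le_right.trans (hBle.trans inf_le_right)))
  exact ⟨V, hV, h1.mono l1,
    ⟨fun g s hs => h2a g s (l2 hs), fun g s hs => h2b g s (l2 hs)⟩,
    ⟨fun g s hs => h3a g s (l3 hs), fun g s hs => h3b g s (l3 hs)⟩, h4.mono l4⟩

include h𝒰 hX hI hE hC hdg ht in
/-- **Exhaustion with lifting, raw form.** -/
theorem exists_level_dOne_of_finLift (p : ℕ) {ℱ : Set (Subgroup G)} (hsub : ℱ ⊆ 𝒰)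
    (hnormal : ∀ V ∈ ℱ, V.Normal) (hcof : ∀ U ∈ 𝒰, ∃ V ∈ ℱ, V ≤ U)
    (hdginj : Function.Injective dg) (htsurj : Function.Surjective t)
    (hker : ∀ x, t x = 0 → ∃ b, dg b = x)
    (hfin : ∀ V (hV : V ∈ ℱ), haveI := hnormal V hV;
      FinInjLift (fixedRep V ρX) (fixedRep V ρI) (fixedMap V ρX ρI inc hinc)
        (fixedMap V ρE ρI dg hdg) p)
    {φ : G × G → X} (hφl : IsLevel₂ 𝒰 φ) (hφc : dTwo ρX φ = 0)
    {ψ : G → X} (hψl : IsLevel₁ 𝒰 ψ) (hψ : p • φ = dOne ρX ψ)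
    {u : G → C} (hul : IsLevel₁ 𝒰 u) (hu : ⇑t ∘ (⇑inc ∘ φ) = dOne ρC u) :
    ∃ v : G → X, IsLevel₁ 𝒰 v ∧ φ = dOne ρX v := by
  obtain ⟨y, e, hyl, hel, hye⟩ := exists_level_lift h𝒰 ρI hI ρE hE ρC dg hdg t ht hdginj htsurj
    hker (hφl.comp inc) hul hu
  obtain ⟨V, hV, hφV, hψV, hyV, heV⟩ :=
    exists_common_level₄ h𝒰 ρX hX ρI hI ρE hE hcof hφl hψl hyl hel
  have := hnormal V hV
  have key : ∀ g g' : G, ((desc₂ φ hφV ((g : G ⧸ V), (g' : G ⧸ V)) : fixedSub V ρX) : X) =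
      φ (g, g') := fun g g' => congrFun (infl₂_desc₂ φ hφV) (g, g')
  have keyE : ∀ g g' : G, ((desc₂ e heV ((g : G ⧸ V), (g' : G ⧸ V)) : fixedSub V ρE) : E) =
      e (g, g') := fun g g' => congrFun (infl₂_desc₂ e heV) (g, g')
  obtain ⟨v, hv⟩ := hfin V hV (desc₂ φ hφV) (dTwo_desc₂ V ρX hφV hφc)
    ⟨desc₁ ψ hψV, by
      apply infl₂_injective
      rw [infl₂_dOne, infl₁_desc₁, ← hψ]
      funext ⟨g, g'⟩
      simp only [infl₂_apply, Pi.smul_apply, Submodule.coe_smul_of_tower, key]⟩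
    ⟨desc₁ y hyV, desc₂ e heV, by
      apply infl₂_injective
      have h1 : infl₂ (dOne (fixedRep V ρI) (desc₁ y hyV)) = dOne ρI y := by
        rw [infl₂_dOne, infl₁_desc₁]
      funext ⟨g, g'⟩
      have h2 := congrFun h1 (g, g')
      have h3 := congrFun hye (g, g')
      simp only [infl₂_apply, Function.comp_apply, Pi.add_apply, Submodule.coe_add,
        coe_fixedMap, key, keyE] at h2 h3 ⊢
      rw [h2, h3]⟩
  refine ⟨infl₁ v, (isLevelAt₁_infl₁ v).isLevel₁ (hsub hV), ?_⟩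
  rw [← infl₂_dOne, ← hv, infl₂_desc₂]

include hE in
/-- **Exhaustion with lifting, `Hlev2` form**: `(t ∘ inc)_*` is injective on the `p`-torsion of
`Hlev2(X)`, in the shape of hypothesis `hLG` of `HK20.forall_resH1_eq_zero_iff`. -/
theorem eq_zero_of_finLift (p : ℕ) {ℱ : Set (Subgroup G)} (hsub : ℱ ⊆ 𝒰)
    (hnormal : ∀ V ∈ ℱ, V.Normal) (hcof : ∀ U ∈ 𝒰, ∃ V ∈ ℱ, V ≤ U)
    (hdginj : Function.Injective dg) (htsurj : Function.Surjective t)
    (hker : ∀ x, t x = 0 → ∃ b, dg b = x)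
    (hfin : ∀ V (hV : V ∈ ℱ), haveI := hnormal V hV;
      FinInjLift (fixedRep V ρX) (fixedRep V ρI) (fixedMap V ρX ρI inc hinc)
        (fixedMap V ρE ρI dg hdg) p)
    (x : Hlev2 h𝒰 ρX hX) (hpx : p • x = 0)
    (hfx : (lvlHom h𝒰 hI hC t ht).mapH2 ((lvlHom h𝒰 hX hI inc hinc).mapH2 x) = 0) :
    x = 0 := by
  obtain ⟨z, rfl⟩ := (lvl h𝒰 ρX hX).π2_surjective x
  rw [← map_nsmul, π2_lvl_eq_zero_iff] at hpx
  rw [Cpx.Hom.mapH2_π2, Cpx.Hom.mapH2_π2, π2_lvl_eq_zero_iff] at hfx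
  obtain ⟨ψ, hψl, hψ⟩ := hpx
  obtain ⟨u, hul, hu⟩ := hfx
  set φ : G × G → X := ((z : lev₂ k h𝒰 X) : G × G → X) with hφdef
  have hφl : IsLevel₂ 𝒰 φ := (z : lev₂ k h𝒰 X).2
  have hφc : dTwo ρX φ = 0 := (mem_lvl_Z2_iff h𝒰 ρX hX _).1 z.2
  obtain ⟨v, hvl, hv⟩ := exists_level_dOne_of_finLift h𝒰 ρX hX ρI hI ρE hE ρC hC inc hinc dg hdg
    t ht p hsub hnormal hcof hdginj htsurj hker hfin hφl hφc hψl hψ.symm hul hu.symm
  rw [π2_lvl_eq_zero_iff]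
  exact ⟨v, hvl, hv.symm⟩

end LimitLift

/-! ### Transport of the finite-level statement -/

section Transport

variable {Q Q₀ : Type*} [Group Q] [Group Q₀]
variable {X I E A B : Type*} [AddCommGroup X] [Module k X] [AddCommGroup I] [Module k I]
  [AddCommGroup E] [Module k E] [AddCommGroup A] [Module k A] [AddCommGroup B] [Module k B]

/-- **Transport.**  `ε : Q ≃* Q₀`, `a : X ≃+ A` equivariant over `ε`, `c : I →+ B` equivariant over
`ε` with `c ∘ inc = j ∘ a` and `c ∘ dg = 0`: the statement `FinInjP` for `j : A → B` over `Q₀`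
gives the statement `FinInjLift` for `X → I ← E` over `Q`. -/
theorem finInjLift_of_finInjP {ρX : Representation k Q X} {ρI : Representation k Q I}
    {inc : X →ₗ[k] I} {dg : E →ₗ[k] I} {ρA : Representation k Q₀ A} {ρB : Representation k Q₀ B}
    {j : A →ₗ[k] B} {p : ℕ} (ε : Q ≃* Q₀) (a : X ≃+ A)
    (ha : ∀ g x, a (ρX g x) = ρA (ε g) (a x)) (c : I →+ B)
    (hc : ∀ g y, c (ρI g y) = ρB (ε g) (c y)) (hcinc : ∀ x, c (inc x) = j (a x))
    (hcdg : ∀ b, c (dg b) = 0) (h : FinInjP ρA ρB j p) : FinInjLift ρX ρI inc dg p := by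
  intro φ hφ hpφ hlift
  obtain ⟨ψ, hψ⟩ := hpφ
  obtain ⟨y, e, hye⟩ := hlift
  have ha' : ∀ g x, ρA g (a x) = a (ρX (ε.symm g) x) := fun g x => by
    rw [ha, MulEquiv.apply_symm_apply]
  have hc' : ∀ g x, ρB g (c x) = c (ρI (ε.symm g) x) := fun g x => by
    rw [hc, MulEquiv.apply_symm_apply]
  obtain ⟨v₀, hv₀⟩ := h (fun q => a (φ (ε.symm q.1, ε.symm q.2)))
    (by
      funext ⟨g, g', g''⟩
      have h1 := congrFun hφ (ε.symm g, ε.symm g', ε.symm g'')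
      simp only [dTwo_apply, Pi.zero_apply] at h1 ⊢
      rw [ha', ← map_sub, ← map_add, ← map_sub, map_mul, map_mul, h1, map_zero])
    ⟨fun g => a (ψ (ε.symm g)), by
      funext ⟨g, g'⟩
      have h1 := congrFun hψ (ε.symm g, ε.symm g')
      simp only [dOne_apply, Pi.smul_apply] at h1 ⊢
      rw [ha', ← map_sub, ← map_add, map_mul, ← h1, map_nsmul]⟩
    ⟨fun g => c (y (ε.symm g)), by
      funext ⟨g, g'⟩
      have h1 := congrFun hye (ε.symm g, ε.symm g')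
      simp only [Function.comp_apply, dOne_apply, Pi.add_apply] at h1 ⊢
      rw [← hcinc, h1, map_add, hcdg, add_zero, hc', ← map_sub, ← map_add, map_mul]⟩
  refine ⟨fun g => a.symm (v₀ (ε g)), ?_⟩
  funext ⟨g, g'⟩
  apply a.injective
  have h1 := congrFun hv₀ (ε g, ε g')
  simp only [dOne_apply, MulEquiv.symm_apply_apply] at h1 ⊢
  rw [h1, map_add, map_sub, ha, AddEquiv.apply_symm_apply, AddEquiv.apply_symm_apply,
    AddEquiv.apply_symm_apply, map_mul]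

end Transport

/-! ### Bridge from Mathlib's `groupCohomology` -/

section Bridge

open CategoryTheory groupCohomology Fermat.Agent.PT.FG Fermat.Agent.PT.FG.Interface8
  Fermat.Agent.PT.PRO.FundRaw18

variable {k : Type} [CommRing k] {Q : Type} [Group Q] {A B : Rep.{0} k Q}

/-- If `g_* : H²(Q, A) → H²(Q, B)` (Mathlib) is injective on `p`-torsion, the raw statement
`FinInjP` holds. -/
theorem finInjP_of_pushH (g : A ⟶ B) (p : ℕ)
    (h : ∀ x : H2 A, p • x = 0 → pushH 2 g x = 0 → x = 0) :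
    FinInjP A.ρ B.ρ g.hom.toLinearMap p := by
  intro φ hφ hpφ hgφ
  obtain ⟨ψ, hψ⟩ := hpφ
  obtain ⟨u, hu⟩ := hgφ
  have hφc : φ ∈ cocycles₂ A := mem_cocycles₂_of_dTwo A hφ
  apply exists_dOne_of_H2π_eq_zero A hφc
  apply h
  · have h1 : p • (⟨φ, hφc⟩ : cocycles₂ A) = ⟨p • φ, (cocycles₂ A).nsmul_mem hφc p⟩ := rfl
    rw [← map_nsmul, h1]
    exact H2π_eq_zero_of_dOne A _ hψ
  · have h2 : pushH 2 g (H2π A ⟨φ, hφc⟩) =
        H2π B (mapCocycles₂ (MonoidHom.id Q) g ⟨φ, hφc⟩) :=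
      H2π_comp_map_apply (MonoidHom.id Q) g ⟨φ, hφc⟩
    rw [h2, H2π_eq_zero_iff]
    refine ⟨u, ?_⟩
    have h3 : d₁₂ B u = dOne B.ρ u := by
      funext ⟨σ, τ⟩
      rfl
    rw [h3, ← hu]
    rfl

end Bridge

end Fermat.Agent.PT.PRO.LimitInj27
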