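/-
Program F (S55, Poitou–Tate), chapter PRO, helper10.

`ProdDict10`: dictionary between the `Rep`-based finite product `Objects21.piRep A`
(in particular `Objects21.IS S = ∏_{q ∈ S} ISq S q`) and the product statements of
`ProdInst10` / `HyperProd10` / `HyperProd25`.

All statements are for a GENERIC commutative ring `k` and `A : ι → Rep.{0} k G`, so that the
`Module k` instances are the ones carried by `Rep` (for `k = ℤ` plain elaboration would pick
`AddCommGroup.toIntModule`, see `Objects21.Lin`): specialise `k := ℤ` AFTER applying them.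

* `piProj A i : Lin (piRep A) (A i)`, `piProj_ρ`, `piProj_bijective`;
* `piRep_ρ_eq : (piRep A).ρ = HyperProd25.piRep (fun i => (A i).ρ)` (`rfl`);
* `prod_ℍ1_K_pi`, `prod_ℍ2_K_pi` : `ℍ^r(K(P; piRep A)) → ∏ ℍ^r(K(P; A i))` bijective;
* `prod_Hlev1_pi`, `prod_Hlev2_pi`, `Hlev2_pi_eq_zero_of_forall` : plain level cohomology;
* the same for `IS S` : `ISproj S q`, `prod_ℍ1_K_IS`, `prod_ℍ2_K_IS`, `prod_Hlev2_IS`,
  `Hlev2_IS_eq_zero_of_forall`.
-/
import Fermat.Agent.PT.PRO.ProdInst10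
import Fermat.Agent.PT.PRO.LevelCompare13
import Fermat.Agent.PT.GLUE.Objects21

set_option autoImplicit false

namespace Fermat.Agent.PT.PRO.ProdDict10

open Function Fermat.Agent.PT.PRO.HyperLevel25 Fermat.Agent.PT.PRO.Resolved4
  Fermat.Agent.PT.PRO.ProdInst10 Fermat.Agent.PT.GLUE.Objects21

/-! ## General `Rep`-based products -/

section Pi

variable {k G : Type} [CommRing k] [Group G] {ι : Type} (A : ι → Rep.{0} k G)

/-- The `i`-th projection `piRep A → A i`. -/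
noncomputable def piProj (i : ι) : Lin (piRep A) (A i) :=
  LinearMap.proj i ∘ₗ (piEquiv A).toLinearMap

@[simp] theorem piProj_apply (i : ι) (x : piRep A) : piProj A i x = piEquiv A x i := rfl

theorem piProj_ρ (i : ι) (g : G) (x : piRep A) :
    piProj A i ((piRep A).ρ g x) = (A i).ρ g (piProj A i x) := rfl

theorem piProj_bijective : Bijective (fun (x : piRep A) (i : ι) => piProj A i x) :=
  (piEquiv A).bijective

/-- The action on `Objects21.piRep A` is `HyperProd25.piRep` of the actions. -/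
theorem piRep_ρ_eq : (piRep A).ρ = HyperProd25.piRep (fun i => (A i).ρ) := rfl

variable [Finite ι] {𝒰 : Set (Subgroup G)} (h𝒰 : HyperLevel25.IsLevelBasis 𝒰)
  (hA : ∀ i, HyperLevel25.IsDiscrete 𝒰 (A i).ρ)

include h𝒰 hA in
/-- Discreteness of the product, in `HyperLevel25` vocabulary. -/
theorem isDiscrete_piRep' : HyperLevel25.IsDiscrete 𝒰 (piRep A).ρ :=
  HyperProd25.isDiscrete_piRep h𝒰 hA

variable {P1 P0 M : Type} [AddCommGroup P1] [Module k P1] [AddCommGroup P0] [Module k P0]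
  [AddCommGroup M] [Module k M] (P : Resolved k 𝒰 P1 P0 M) [Module.Finite k P0]
  [Module.Finite k P1] (hpi : HyperLevel25.IsDiscrete 𝒰 (piRep A).ρ)

/-- `ℍ¹(K(P; piRep A)) → ∏ ℍ¹(K(P; A i))` is bijective. -/
theorem prod_ℍ1_K_pi :
    Bijective (fun (x : (P.K h𝒰 (piRep A).ρ hpi).ℍ1 h𝒰) (i : ι) =>
      (KMap10 P h𝒰 hpi (hA i) (piProj A i) (piProj_ρ A i)).mapℍ1 h𝒰 x) :=
  prod_ℍ1_K P h𝒰 hpi hA (piProj A) (piProj_ρ A) (piProj_bijective A)

/-- `ℍ²(K(P; piRep A)) → ∏ ℍ²(K(P; A i))` is bijective. -/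
theorem prod_ℍ2_K_pi :
    Bijective (fun (x : (P.K h𝒰 (piRep A).ρ hpi).ℍ2 h𝒰) (i : ι) =>
      (KMap10 P h𝒰 hpi (hA i) (piProj A i) (piProj_ρ A i)).mapℍ2 h𝒰 x) :=
  prod_ℍ2_K P h𝒰 hpi hA (piProj A) (piProj_ρ A) (piProj_bijective A)

/-- `Hlev1(piRep A) → ∏ Hlev1(A i)` is bijective. -/
theorem prod_Hlev1_pi :
    Bijective (fun (x : Hlev1 h𝒰 (piRep A).ρ hpi) (i : ι) =>
      (lvlHom h𝒰 hpi (hA i) (piProj A i) (piProj_ρ A i)).mapH1 x) :=
  prod_Hlev1 h𝒰 hpi hA (piProj A) (piProj_ρ A) (piProj_bijective A)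

/-- `Hlev2(piRep A) → ∏ Hlev2(A i)` is bijective. -/
theorem prod_Hlev2_pi :
    Bijective (fun (x : Hlev2 h𝒰 (piRep A).ρ hpi) (i : ι) =>
      (lvlHom h𝒰 hpi (hA i) (piProj A i) (piProj_ρ A i)).mapH2 x) :=
  prod_Hlev2 h𝒰 hpi hA (piProj A) (piProj_ρ A) (piProj_bijective A)

/-- A class of `Hlev2(piRep A)` with vanishing components is zero. -/
theorem Hlev2_pi_eq_zero_of_forall (x : Hlev2 h𝒰 (piRep A).ρ hpi)
    (hx : ∀ i, (lvlHom h𝒰 hpi (hA i) (piProj A i) (piProj_ρ A i)).mapH2 x = 0) : x = 0 :=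
  Hlev2_eq_zero_of_forall h𝒰 hpi hA (piProj A) (piProj_ρ A) (piProj_bijective A) x hx

end Pi

/-! ## The `S`-ideles `I_S = ∏_{q ∈ S} I_{S,q}` -/

section IS

local notation "Γ" => (AlgebraicClosure ℚ ≃ₐ[ℚ] AlgebraicClosure ℚ)

variable (S : Finset Nat.Primes)

/-- `levelS S` is a level basis in the sense of `HyperLevel25`. -/
theorem isLevelBasis_levelS' : HyperLevel25.IsLevelBasis (levelS S).sets :=
  LevelCompare13.isLevelBasis_iff.1 (levelS S).isBasis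

/-- The projection `I_S → I_{S,q}`. -/
noncomputable def ISproj (q : ↥S) : Lin (IS S) (ISq S ((q : Nat.Primes) : ℕ)) :=
  piProj (fun q : ↥S => ISq S ((q : Nat.Primes) : ℕ)) q

@[simp] theorem ISproj_apply (q : ↥S) (x : IS S) : ISproj S q x = ISequiv S x q := rfl

theorem ISproj_ρ (q : ↥S) (g : Γ) (x : IS S) :
    ISproj S q ((IS S).ρ g x) = (ISq S ((q : Nat.Primes) : ℕ)).ρ g (ISproj S q x) := rfl

theorem ISproj_bijective : Bijective (fun (x : IS S) (q : ↥S) => ISproj S q x) :=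
  (ISequiv S).bijective

theorem ISproj_diag (q : ↥S) (b : ES S) :
    ISproj S q (diag S b) = diagq S ((q : Nat.Primes) : ℕ) b := rfl

/-- Discreteness of `I_{S,q}`, `I_S` in `HyperLevel25` vocabulary. -/
theorem isDiscrete_ISq' (q : ↥S) :
    HyperLevel25.IsDiscrete (levelS S).sets (ISq S ((q : Nat.Primes) : ℕ)).ρ :=
  isDiscrete_ISq S ((q : Nat.Primes) : ℕ)

theorem isDiscrete_IS' : HyperLevel25.IsDiscrete (levelS S).sets (IS S).ρ :=
  isDiscrete_IS S

variable {P1 P0 M : Type} [AddCommGroup P1] [Module ℤ P1] [AddCommGroup P0] [Module ℤ P0]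
  [AddCommGroup M] [Module ℤ M] (P : Resolved ℤ (levelS S).sets P1 P0 M) [Module.Finite ℤ P0]
  [Module.Finite ℤ P1]

/-- `ℍ¹(K(P; I_S)) → ∏_q ℍ¹(K(P; I_{S,q}))` is bijective. -/
theorem prod_ℍ1_K_IS :
    Bijective (fun (x : (P.K (isLevelBasis_levelS' S) (IS S).ρ (isDiscrete_IS' S)).ℍ1
        (isLevelBasis_levelS' S)) (q : ↥S) =>
      (KMap10 P (isLevelBasis_levelS' S) (isDiscrete_IS' S) (isDiscrete_ISq' S q)
        (ISproj S q) (ISproj_ρ S q)).mapℍ1 (isLevelBasis_levelS' S) x) :=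
  prod_ℍ1_K P (isLevelBasis_levelS' S) (isDiscrete_IS' S) (isDiscrete_ISq' S)
    (ISproj S) (ISproj_ρ S) (ISproj_bijective S)

/-- `ℍ²(K(P; I_S)) → ∏_q ℍ²(K(P; I_{S,q}))` is bijective. -/
theorem prod_ℍ2_K_IS :
    Bijective (fun (x : (P.K (isLevelBasis_levelS' S) (IS S).ρ (isDiscrete_IS' S)).ℍ2
        (isLevelBasis_levelS' S)) (q : ↥S) =>
      (KMap10 P (isLevelBasis_levelS' S) (isDiscrete_IS' S) (isDiscrete_ISq' S q)
        (ISproj S q) (ISproj_ρ S q)).mapℍ2 (isLevelBasis_levelS' S) x) :=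
  prod_ℍ2_K P (isLevelBasis_levelS' S) (isDiscrete_IS' S) (isDiscrete_ISq' S)
    (ISproj S) (ISproj_ρ S) (ISproj_bijective S)

/-- `Hlev2(I_S) → ∏_q Hlev2(I_{S,q})` is bijective. -/
theorem prod_Hlev2_IS :
    Bijective (fun (x : Hlev2 (isLevelBasis_levelS' S) (IS S).ρ (isDiscrete_IS' S)) (q : ↥S) =>
      (lvlHom (isLevelBasis_levelS' S) (isDiscrete_IS' S) (isDiscrete_ISq' S q)
        (ISproj S q) (ISproj_ρ S q)).mapH2 x) :=
  prod_Hlev2 (isLevelBasis_levelS' S) (isDiscrete_IS' S) (isDiscrete_ISq' S)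
    (ISproj S) (ISproj_ρ S) (ISproj_bijective S)

/-- `Hlev1(I_S) → ∏_q Hlev1(I_{S,q})` is bijective. -/
theorem prod_Hlev1_IS :
    Bijective (fun (x : Hlev1 (isLevelBasis_levelS' S) (IS S).ρ (isDiscrete_IS' S)) (q : ↥S) =>
      (lvlHom (isLevelBasis_levelS' S) (isDiscrete_IS' S) (isDiscrete_ISq' S q)
        (ISproj S q) (ISproj_ρ S q)).mapH1 x) :=
  prod_Hlev1 (isLevelBasis_levelS' S) (isDiscrete_IS' S) (isDiscrete_ISq' S)
    (ISproj S) (ISproj_ρ S) (ISproj_bijective S)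

/-- (P2) of PLAN v4 / `hprojB` of `LocalGlobal20`: a class of `Hlev2(I_S)` whose components in
all `Hlev2(I_{S,q})` vanish is zero. -/
theorem Hlev2_IS_eq_zero_of_forall
    (x : Hlev2 (isLevelBasis_levelS' S) (IS S).ρ (isDiscrete_IS' S))
    (hx : ∀ q : ↥S, (lvlHom (isLevelBasis_levelS' S) (isDiscrete_IS' S) (isDiscrete_ISq' S q)
        (ISproj S q) (ISproj_ρ S q)).mapH2 x = 0) : x = 0 :=
  Hlev2_eq_zero_of_forall (isLevelBasis_levelS' S) (isDiscrete_IS' S) (isDiscrete_ISq' S)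
    (ISproj S) (ISproj_ρ S) (ISproj_bijective S) x hx

end IS

end Fermat.Agent.PT.PRO.ProdDict10
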