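/-
Program F (S55, Poitou–Tate), chapter PRO, helper7: row 390 (PRO-KerIso), GENERIC part.

For an `𝔽_p`-vector space `M` of finite dimension with `G`-action `ρM`, a character
`χ : G →* 𝔽_pˣ`, `A := M' = Hom(M, 𝔽_p)(χ)` (carrier `Module.Dual (ZMod p) M`), a `ℤ[G]`-module
`X` "containing `μ_p`" (an injective additive `j : 𝔽_p → X` onto `X[p]` with `g (j a) = j (χ(g) a)`)
and a presentation `P₁ --ι--> P₀ --π--> A → 0` of `ℤ[G]`-modules, the map

  `κ : M → Hom_ℤ(P₀, X)`,   `κ(m)(x) = j (π(x)(m))`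

is additive, `G`-equivariant (conjugation action `Representation.linHom ρ0 ρX` on the target),
injective, lands in `ker (Hom(P₀, X) → Hom(P₁, X))` and is onto that kernel.  These are EXACTLY the
hypotheses `hι hfι hinj hker` of `HyperCompare25.bijective_incl1 / bijective_incl2`, so that
`H^r(G; M) ≅ ℍ^r(G; K(P; X))` for `p`-divisible `X` (`comparison1`, `comparison2` below, stated
for `Resolved4.Resolved.K`, which is by `rfl` also `HomCx29.homCx`).

INSTANCE HYGIENE.  Everything is stated over a commutative ring `k` with `IntSurj k`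
(`ℤ → k` onto: `k = ℤ` via `intSurj_int`, or `k = ZMod n`), for which additive maps are automatically
`k`-linear (`mkLin`).  This is deliberate: a file written directly over `ℤ` gets
`AddCommGroup.toIntModule` as the module structure of `P₀ →ₗ[ℤ] X`, whereas the `k`-generic code of
`HyperLevel25`, `HomCx29`, `Resolved4`, `IndRes20` specialised to `k := ℤ` carries
`LinearMap.module`; the two are not defeq for an arbitrary `Module ℤ X` instance.  Being `k`-generic
here, all instances agree syntactically with the consumers'.  All module structures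
(`[Module k M]`, `[Module k (Module.Dual (ZMod p) M)]`, `[Module k X]`, ...) are ARBITRARY instance
variables, so the statements apply to whatever instances the consumer has (carriers of `Rep ℤ G`,
`AddCommGroup.toIntModule`, ...).
-/
import Mathlib
import Fermat.Prelude.Def_GroupCohomology_Selmer
import Fermat.Agent.PT.PRO.HyperLevel25
import Fermat.Agent.PT.PRO.HyperCompare25
import Fermat.Agent.PT.PRO.HomCx29
import Fermat.Agent.PT.PRO.Resolved4

set_option autoImplicit false
set_option linter.unusedSectionVars false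

namespace Fermat.Agent.PT.PRO.KerIso7

open Function Fermat.Agent.PT.PRO.HyperLevel25

/-! ### Additive maps are `k`-linear when `ℤ → k` is onto -/

/-- `ℤ → k` is onto (`k = ℤ`, `k = ZMod n`). -/
def IntSurj (k : Type*) [CommRing k] : Prop := Surjective (Int.cast : ℤ → k)

theorem intSurj_int : IntSurj ℤ := fun n => ⟨n, Int.cast_id⟩

theorem intSurj_zmod (n : ℕ) : IntSurj (ZMod n) := ZMod.intCast_surjective

section MkLin

variable {k : Type*} [CommRing k] (hk : IntSurj k)
variable {V W : Type*} [AddCommGroup V] [AddCommGroup W] [Module k V] [Module k W]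

/-- An additive map as a `k`-linear map (`ℤ → k` onto), for ARBITRARY `Module k` instances on source
and target (`AddMonoidHom.toIntLinearMap` only covers the default instances over `ℤ`). -/
def mkLin (f : V →+ W) : V →ₗ[k] W where
  toFun := f
  map_add' := f.map_add
  map_smul' c v := by
    obtain ⟨n, rfl⟩ := hk c
    exact map_intCast_smul f k k n v

@[simp] theorem mkLin_apply (f : V →+ W) (v : V) : mkLin hk f v = f v := rfl

end MkLin

/-! ### Restriction of scalars -/

section IntRep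

variable {k : Type*} [CommRing k] (hk : IntSurj k)
variable {F : Type*} [CommRing F] {G : Type*} [Group G] {V : Type*} [AddCommGroup V] [Module F V]
  [Module k V]

/-- The representation `ρ` regarded as a `k`-linear representation (same maps; `k = ℤ`), for an
ARBITRARY `Module k V` instance. -/
def intRep (ρ : Representation F G V) : Representation k G V where
  toFun g := mkLin hk (ρ g).toAddMonoidHom
  map_one' := by
    ext v
    simp
  map_mul' g h := by
    ext v
    simp

@[simp] theorem intRep_apply (ρ : Representation F G V) (g : G) (v : V) :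
    intRep hk ρ g v = ρ g v := rfl

theorem isDiscrete_intRep {𝒰 : Set (Subgroup G)} {ρ : Representation F G V}
    (h : IsDiscrete 𝒰 ρ) : IsDiscrete 𝒰 (intRep hk ρ) := h

theorem isDiscrete_intRep_iff {𝒰 : Set (Subgroup G)} {ρ : Representation F G V} :
    IsDiscrete 𝒰 (intRep hk ρ) ↔ IsDiscrete 𝒰 ρ := Iff.rfl

end IntRep

/-! ### The map `κ` on `Hom(A, X)` -/

section Kap

variable {k : Type*} [CommRing k] (hk : IntSurj k)
variable {p : ℕ} [Fact p.Prime]
variable {M : Type*} [AddCommGroup M] [Module (ZMod p) M]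
variable [Module k (Module.Dual (ZMod p) M)]
variable {X : Type*} [AddCommGroup X] [Module k X]

/-- Evaluation at `m`, as an additive map on the dual. -/
def evAt (m : M) : Module.Dual (ZMod p) M →+ ZMod p where
  toFun a := a m
  map_zero' := rfl
  map_add' _ _ := rfl

@[simp] theorem evAt_apply (m : M) (a : Module.Dual (ZMod p) M) : evAt m a = a m := rfl

/-- `κ(m) = (a ↦ j (a m)) ∈ Hom_k(M', X)`. -/
def kap (j : ZMod p →+ X) (m : M) : Module.Dual (ZMod p) M →ₗ[k] X :=
  mkLin hk (j.comp (evAt m))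

@[simp] theorem kap_apply (j : ZMod p →+ X) (m : M) (a : Module.Dual (ZMod p) M) :
    kap hk j m a = j (a m) := rfl

theorem kap_add (j : ZMod p →+ X) (m m' : M) :
    kap hk j (m + m') = kap hk j m + kap hk j m' := by
  ext a
  simp only [kap_apply, LinearMap.add_apply, map_add]

theorem kap_zero (j : ZMod p →+ X) : kap hk j (0 : M) = 0 := by
  ext a
  simp only [kap_apply, LinearMap.zero_apply, map_zero]

theorem kap_injective (j : ZMod p →+ X) (hj : Injective j) :
    Injective (kap hk j : M → (Module.Dual (ZMod p) M →ₗ[k] X)) := by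
  intro m m' h
  rw [← sub_eq_zero]
  apply (Module.forall_dual_apply_eq_zero_iff (ZMod p) (m - m')).1
  intro a
  rw [map_sub, sub_eq_zero]
  apply hj
  exact LinearMap.congr_fun h a

theorem kap_surjective [FiniteDimensional (ZMod p) M] (j : ZMod p →+ X) (hj : Injective j)
    (hsurj : ∀ x : X, p • x = 0 → ∃ a, j a = x) :
    Surjective (kap hk j : M → (Module.Dual (ZMod p) M →ₗ[k] X)) := by
  intro φ
  have hφ : ∀ a : Module.Dual (ZMod p) M, p • φ a = 0 := by
    intro a
    have h0 : p • a = 0 := by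
      rw [← Nat.cast_smul_eq_nsmul (ZMod p), ZMod.natCast_self, zero_smul]
    rw [← map_nsmul, h0, map_zero]
  choose c hc using fun a => hsurj (φ a) (hφ a)
  let f₀ : Module.Dual (ZMod p) M →+ ZMod p :=
    { toFun := c
      map_zero' := by
        apply hj
        rw [hc, map_zero, map_zero]
      map_add' := fun a b => by
        apply hj
        rw [hc, map_add, map_add, hc, hc] }
  obtain ⟨m, hm⟩ := (Module.evalEquiv (ZMod p) M).surjective (AddMonoidHom.toZModLinearMap p f₀)
  refine ⟨m, ?_⟩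
  ext a
  rw [kap_apply, ← hc a]
  congr 1
  have := LinearMap.congr_fun hm a
  rw [Module.evalEquiv_apply, Module.Dual.eval_apply] at this
  exact this

/-- Equivariance of `κ`: `κ(g m) = g ∘ κ(m) ∘ g⁻¹` when `A = M'` carries the `χ`-twisted dual action
and `g (j a) = j (χ(g) a)`. -/
theorem kap_equivariant {G : Type*} [Group G] (ρM : Representation (ZMod p) G M)
    (χ : G →* (ZMod p)ˣ) (ρA : Representation k G (Module.Dual (ZMod p) M))
    (hA : ∀ g a, ρA g a = (χ g : ZMod p) • (a ∘ₗ ρM g⁻¹))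
    (ρX : Representation k G X) (j : ZMod p →+ X)
    (hj : ∀ g a, ρX g (j a) = j ((χ g : ZMod p) * a)) (g : G) (m : M) :
    kap hk j (ρM g m) = Representation.linHom ρA ρX g (kap hk j m) := by
  ext a
  rw [Representation.linHom_apply, LinearMap.comp_apply, LinearMap.comp_apply, kap_apply,
    kap_apply, hj, hA, LinearMap.smul_apply, LinearMap.comp_apply, inv_inv, smul_eq_mul,
    ← mul_assoc, map_inv, Units.mul_inv, one_mul]

/-- Change of coefficients: `λ ∘ κ_X(m) = κ_{X'}(m)` if `λ ∘ j = j'`. -/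
theorem comp_kap {X' : Type*} [AddCommGroup X'] [Module k X'] (lam : X →ₗ[k] X')
    (j : ZMod p →+ X) (j' : ZMod p →+ X') (h : ∀ a, lam (j a) = j' a) (m : M) :
    lam ∘ₗ kap hk j m = kap hk j' m := by
  ext a
  rw [LinearMap.comp_apply, kap_apply, kap_apply, h]

end Kap

/-! ### The map `κ` into `Hom(P₀, X)` for a presentation `P₁ → P₀ → A → 0` -/

section KapRes

variable {k : Type*} [CommRing k] (hk : IntSurj k)
variable {p : ℕ} [Fact p.Prime]
variable {M : Type*} [AddCommGroup M] [Module (ZMod p) M] [Module k M]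
variable [Module k (Module.Dual (ZMod p) M)]
variable {X : Type*} [AddCommGroup X] [Module k X]
variable {P0 P1 : Type*} [AddCommGroup P0] [Module k P0] [AddCommGroup P1] [Module k P1]

/-- `κ : M → Hom_k(P₀, X)`, `κ(m)(x) = j (π(x)(m))`, as a `k`-linear map. -/
def kapRes (j : ZMod p →+ X) (π : P0 →ₗ[k] Module.Dual (ZMod p) M) : M →ₗ[k] (P0 →ₗ[k] X) :=
  mkLin hk
    { toFun := fun m => kap hk j m ∘ₗ π
      map_zero' := by rw [kap_zero, LinearMap.zero_comp]
      map_add' := fun m m' => by rw [kap_add, LinearMap.add_comp] }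

@[simp] theorem kapRes_apply (j : ZMod p →+ X) (π : P0 →ₗ[k] Module.Dual (ZMod p) M) (m : M)
    (x : P0) : kapRes hk j π m x = j (π x m) := rfl

theorem kapRes_eq (j : ZMod p →+ X) (π : P0 →ₗ[k] Module.Dual (ZMod p) M) (m : M) :
    kapRes hk j π m = kap hk j m ∘ₗ π := rfl

/-- `hfι`: `κ(m)` vanishes on `ι P₁`. -/
theorem lcomp_kapRes (j : ZMod p →+ X) (π : P0 →ₗ[k] Module.Dual (ZMod p) M) (ι : P1 →ₗ[k] P0)
    (h : ∀ y, π (ι y) = 0) (m : M) : LinearMap.lcomp k X ι (kapRes hk j π m) = 0 := by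
  ext y
  rw [LinearMap.lcomp_apply', LinearMap.comp_apply, kapRes_apply, h, LinearMap.zero_apply,
    map_zero, LinearMap.zero_apply]

/-- `hinj`. -/
theorem kapRes_injective (j : ZMod p →+ X) (hj : Injective j)
    (π : P0 →ₗ[k] Module.Dual (ZMod p) M) (hπ : Surjective π) :
    Injective (kapRes hk j π) := by
  intro m m' h
  apply kap_injective hk j hj
  ext a
  obtain ⟨x, rfl⟩ := hπ a
  exact LinearMap.congr_fun h x

/-- `hker`: every `b : P₀ → X` vanishing on `ι P₁` is `κ(m)`. -/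
theorem exists_kapRes_eq [FiniteDimensional (ZMod p) M] (j : ZMod p →+ X) (hj : Injective j)
    (hsurj : ∀ x : X, p • x = 0 → ∃ a, j a = x)
    (π : P0 →ₗ[k] Module.Dual (ZMod p) M) (hπ : Surjective π) (ι : P1 →ₗ[k] P0)
    (hex : Function.Exact ι π) (b : P0 →ₗ[k] X) (hb : LinearMap.lcomp k X ι b = 0) :
    ∃ m : M, kapRes hk j π m = b := by
  obtain ⟨m, hm⟩ := kap_surjective hk j hj hsurj
    ((HomCx29.kerLcompEquiv (X := X) ι π hπ hex).symm ⟨b, LinearMap.mem_ker.2 hb⟩)
  refine ⟨m, ?_⟩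
  rw [kapRes_eq, hm]
  have := (HomCx29.kerLcompEquiv (X := X) ι π hπ hex).apply_symm_apply
    ⟨b, LinearMap.mem_ker.2 hb⟩
  exact congrArg Subtype.val this

/-- `hι`: equivariance of `κ`. -/
theorem kapRes_equivariant {G : Type*} [Group G] (ρM : Representation (ZMod p) G M)
    (χ : G →* (ZMod p)ˣ) (ρA : Representation k G (Module.Dual (ZMod p) M))
    (hA : ∀ g a, ρA g a = (χ g : ZMod p) • (a ∘ₗ ρM g⁻¹))
    (ρX : Representation k G X) (j : ZMod p →+ X)
    (hj : ∀ g a, ρX g (j a) = j ((χ g : ZMod p) * a))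
    (ρ0 : Representation k G P0) (π : P0 →ₗ[k] Module.Dual (ZMod p) M)
    (hπc : ∀ g x, π (ρ0 g x) = ρA g (π x)) (g : G) (m : M) :
    kapRes hk j π (intRep hk ρM g m) = Representation.linHom ρ0 ρX g (kapRes hk j π m) := by
  rw [intRep_apply, kapRes_eq, kap_equivariant hk ρM χ ρA hA ρX j hj g m]
  ext x
  simp only [LinearMap.comp_apply, Representation.linHom_apply, kapRes_apply, kap_apply, hπc]

/-- Change of coefficients. -/
theorem comp_kapRes {X' : Type*} [AddCommGroup X'] [Module k X'] (lam : X →ₗ[k] X')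
    (j : ZMod p →+ X) (j' : ZMod p →+ X') (h : ∀ a, lam (j a) = j' a)
    (π : P0 →ₗ[k] Module.Dual (ZMod p) M) (m : M) :
    lam ∘ₗ kapRes hk j π m = kapRes hk j' π m := by
  ext x
  rw [LinearMap.comp_apply, kapRes_apply, kapRes_apply, h]

/-- Change of presentation: `κ_P(m) ∘ φ₀ = κ_Q(m)` for `φ₀ : Q₀ → P₀` over the identity of `A`. -/
theorem kapRes_comp {Q0 : Type*} [AddCommGroup Q0] [Module k Q0] (j : ZMod p →+ X)
    (π : P0 →ₗ[k] Module.Dual (ZMod p) M) (π' : Q0 →ₗ[k] Module.Dual (ZMod p) M)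
    (φ0 : Q0 →ₗ[k] P0) (h : ∀ x, π (φ0 x) = π' x) (m : M) :
    kapRes hk j π m ∘ₗ φ0 = kapRes hk j π' m := by
  ext x
  rw [LinearMap.comp_apply, kapRes_apply, kapRes_apply, h]

end KapRes

/-! ### `μ_p ⊂ X` as a structure, divisibility, and the comparison `H^r(G; M) ≅ ℍ^r(G; K(P; X))` -/

section Compare

variable {k : Type*} [CommRing k] (hk : IntSurj k)
variable {p : ℕ} [Fact p.Prime] {G : Type*} [Group G]
variable {X : Type*} [AddCommGroup X] [Module k X]

/-- "`μ_p ⊂ X`": an injective additive `j : 𝔽_p → X` onto the `p`-torsion of `X`, on which `G` acts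
through `χ`. -/
structure MuData (χ : G →* (ZMod p)ˣ) (ρX : Representation k G X) where
  j : ZMod p →+ X
  inj : Injective j
  surj : ∀ x : X, p • x = 0 → ∃ a, j a = x
  equiv : ∀ g a, ρX g (j a) = j ((χ g : ZMod p) * a)

/-- Restriction of `μ_p ⊂ X` along a group homomorphism. -/
def MuData.comap {H : Type*} [Group H] {χ : G →* (ZMod p)ˣ} {ρX : Representation k G X}
    (D : MuData χ ρX) (r : H →* G) : MuData (χ.comp r) (ρX.comp r) where
  j := D.j
  inj := D.inj
  surj := D.surj
  equiv h a := D.equiv (r h) a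

@[simp] theorem MuData.comap_j {H : Type*} [Group H] {χ : G →* (ZMod p)ˣ}
    {ρX : Representation k G X} (D : MuData χ ρX) (r : H →* G) : (D.comap r).j = D.j := rfl

variable {M : Type*} [AddCommGroup M] [Module (ZMod p) M] [Module k M]
variable [Module k (Module.Dual (ZMod p) M)]
variable {P0 P1 : Type*} [AddCommGroup P0] [Module k P0] [AddCommGroup P1] [Module k P1]

/-- `p` kills `M' = Module.Dual (ZMod p) M`, for any `k`-module structure. -/
theorem natCast_smul_dual (a : Module.Dual (ZMod p) M) : (p : k) • a = 0 := by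
  rw [Nat.cast_smul_eq_nsmul k, ← Nat.cast_smul_eq_nsmul (ZMod p), ZMod.natCast_self, zero_smul]

/-- `hsurj`: if `X` is `p`-divisible and `P₁` is projective then `Hom(P₀, X) → Hom(P₁, X)` is
onto (`0 → P₁ → P₀ → M' → 0` exact). -/
theorem lcomp_surjective_of_div [Module.Projective k P1] (ι : P1 →ₗ[k] P0) (hι : Injective ι)
    (π : P0 →ₗ[k] Module.Dual (ZMod p) M) (hex : Function.Exact ι π)
    (hdiv : ∀ x : X, ∃ y : X, (p : k) • y = x) : Surjective (LinearMap.lcomp k X ι) := by
  obtain ⟨h, -, h2⟩ := HomCx29.exists_homotopy ι hι (p : k) (fun x => by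
    rw [LinearMap.mem_range]
    exact (hex _).1 (by rw [map_smul, natCast_smul_dual]))
  exact HomCx29.lcomp_surjective ι (p : k) h h2 hdiv

variable {𝒰 : Set (Subgroup G)} (h𝒰 : IsLevelBasis 𝒰)
variable [FiniteDimensional (ZMod p) M] [Module.Finite k P0] [Module.Finite k P1]
variable (P : Resolved4.Resolved k 𝒰 P1 P0 (Module.Dual (ZMod p) M))
  (ρM : Representation (ZMod p) G M) (hM : IsDiscrete 𝒰 ρM) (χ : G →* (ZMod p)ˣ)
  (hA : ∀ g a, P.ρM g a = (χ g : ZMod p) • (a ∘ₗ ρM g⁻¹))
  {ρX : Representation k G X} (hX : IsDiscrete 𝒰 ρX) (D : MuData χ ρX)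

/-- `H¹(G, 𝒰; M) → ℍ¹(G, 𝒰; K(P; X))`, `[c] ↦ [(κ ∘ c, 0)]`, for a resolved `M' = M.dualTwist χ`. -/
noncomputable def compare1 :
    HyperCompare25.Hp1 h𝒰 (intRep hk ρM) (isDiscrete_intRep hk hM) →ₗ[k]
      (P.K h𝒰 ρX hX).ℍ1 h𝒰 :=
  HyperCompare25.incl1 (P.K h𝒰 ρX hX) h𝒰 (isDiscrete_intRep hk hM) (kapRes hk D.j P.π)
    (kapRes_equivariant hk ρM χ P.ρM hA ρX D.j D.equiv P.ρ0 P.π P.π_comm)
    (lcomp_kapRes hk D.j P.π P.ι P.π_ι)

/-- `H²(G, 𝒰; M) → ℍ²(G, 𝒰; K(P; X))`, `[c] ↦ [(κ ∘ c, 0)]`. -/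
noncomputable def compare2 :
    HyperCompare25.Hp2 h𝒰 (intRep hk ρM) (isDiscrete_intRep hk hM) →ₗ[k]
      (P.K h𝒰 ρX hX).ℍ2 h𝒰 :=
  HyperCompare25.incl2 (P.K h𝒰 ρX hX) h𝒰 (isDiscrete_intRep hk hM) (kapRes hk D.j P.π)
    (kapRes_equivariant hk ρM χ P.ρM hA ρX D.j D.equiv P.ρ0 P.π P.π_comm)
    (lcomp_kapRes hk D.j P.π P.ι P.π_ι)

/-- **`H¹(G; M) ≅ ℍ¹(G; K(P; X)) = Ext¹_G(M', X)`** for `p`-divisible `X ⊇ μ_p`, `X[p] = μ_p`. -/
theorem compare1_bijective [Module.Projective k P1] (hdiv : ∀ x : X, ∃ y : X, (p : k) • y = x) :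
    Bijective (compare1 hk h𝒰 P ρM hM χ hA hX D) :=
  HyperCompare25.bijective_incl1 (P.K h𝒰 ρX hX) h𝒰 (isDiscrete_intRep hk hM) (kapRes hk D.j P.π)
    (kapRes_equivariant hk ρM χ P.ρM hA ρX D.j D.equiv P.ρ0 P.π P.π_comm)
    (lcomp_kapRes hk D.j P.π P.ι P.π_ι)
    (kapRes_injective hk D.j D.inj P.π P.π_surj)
    (fun b hb => exists_kapRes_eq hk D.j D.inj D.surj P.π P.π_surj P.ι P.exact b hb)
    (lcomp_surjective_of_div P.ι P.ι_inj P.π P.exact hdiv)

/-- **`H²(G; M) ≅ ℍ²(G; K(P; X)) = Ext²_G(M', X)`** for `p`-divisible `X ⊇ μ_p`, `X[p] = μ_p`. -/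
theorem compare2_bijective [Module.Projective k P1] (hdiv : ∀ x : X, ∃ y : X, (p : k) • y = x) :
    Bijective (compare2 hk h𝒰 P ρM hM χ hA hX D) :=
  HyperCompare25.bijective_incl2 (P.K h𝒰 ρX hX) h𝒰 (isDiscrete_intRep hk hM) (kapRes hk D.j P.π)
    (kapRes_equivariant hk ρM χ P.ρM hA ρX D.j D.equiv P.ρ0 P.π P.π_comm)
    (lcomp_kapRes hk D.j P.π P.ι P.π_ι)
    (kapRes_injective hk D.j D.inj P.π P.π_surj)
    (fun b hb => exists_kapRes_eq hk D.j D.inj D.surj P.π P.π_surj P.ι P.exact b hb)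
    (lcomp_surjective_of_div P.ι P.ι_inj P.π P.exact hdiv)

end Compare

end Fermat.Agent.PT.PRO.KerIso7
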