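/-
Program F (S55, Poitou–Tate), chapter PRO, helper7: row 390 (PRO-KerIso), CONCRETE part.

The `MuData` ("`μ_p ⊂ X`", see `KerIso7`) of the three Galois modules of the spine:

* `muQbar p`      : `X = ℚ̄ˣ` (`Representation.ofMulDistribMulAction Γ ℚ̄ˣ`), `χ = cycloChar p`;
* `muES p S hpS`  : `X = ES S` (helper21's `S`-units of `ℚ_S`, `p ∈ S`), `χ = cycloChar p`;
* `muLoc p q`     : `X = unitsLoc q = ℚ̄_qˣ` over `Γ_q`, `χ = cycloChar p ∘ r_q`;

with the compatibilities `locE S q ∘ j_ES = j_loc` (`locE_muES`), `incl ∘ j_ES = j_ℚ̄`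
(`esIncl_muES`), the `p`-divisibility of `unitsLoc q` and `ℚ̄ˣ` (that of `ES S` is
`ESDivisible27.exists_zsmul_eq`), and the `hA` hypotheses of `KerIso7` for `M.dualTwist χ`
(`dualTwist_hA`, `dualTwist_res_hA`).  Everything is over `k := ℤ` (`intSurj_int`).
-/
import Mathlib
import Fermat.Prelude.Def_GroupCohomology_ContinuousUnramified
import Fermat.Agent.PT.PRO.KerIso7
import Fermat.Agent.PT.BR.HomMu7
import Fermat.Agent.PT.GLUE.Objects21
import Fermat.Agent.PT.GLUE.ESDivisible27

set_option autoImplicit false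
set_option linter.unusedSectionVars false

namespace Fermat.Agent.PT.PRO.KerIsoGal7

open Function ExtCitation
open Fermat.Agent.PT.PRO.KerIso7 Fermat.Agent.PT.BR.HomMu7 Fermat.Agent.PT.GLUE.Objects21
open Fermat.Agent.PT.GLUE.ESDivisible27

local notation "Qbar" => AlgebraicClosure ℚ
local notation "Γ" => (AlgebraicClosure ℚ ≃ₐ[ℚ] AlgebraicClosure ℚ)

variable (p : ℕ) [Fact p.Prime]

/-! ### `X = ℚ̄ˣ` -/

/-- `μ_p ⊂ ℚ̄ˣ`. -/
noncomputable def muQbar :
    MuData (k := ℤ) (cycloChar p) (Representation.ofMulDistribMulAction Γ Qbarˣ) where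
  j := expZeta p
  inj := expZeta_injective p
  surj _ hx := exists_expZeta_eq p hx
  equiv g a := smul_expZeta p g a

@[simp] theorem muQbar_j : (muQbar p).j = expZeta p := rfl

/-- `ℚ̄ˣ` is `p`-divisible. -/
theorem exists_nsmul_eq_Qbar (x : Additive Qbarˣ) : ∃ y : Additive Qbarˣ, p • y = x := by
  have hp : p ≠ 0 := (Fact.out : p.Prime).ne_zero
  obtain ⟨z, hz⟩ := IsAlgClosed.exists_pow_nat_eq ((Additive.toMul x : Qbarˣ) : Qbar)
    (Nat.pos_of_ne_zero hp)
  have hz0 : z ≠ 0 := by
    rintro rfl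
    rw [zero_pow hp] at hz
    exact (Additive.toMul x).ne_zero hz.symm
  refine ⟨Additive.ofMul (Units.mk0 z hz0), ?_⟩
  apply Additive.toMul.injective
  apply Units.ext
  rw [toMul_nsmul, toMul_ofMul, Units.val_pow_eq_pow_val, Units.val_mk0, hz]

/-- `ℚ̄ˣ` is `p`-divisible, `ℤ`-scalar form (the `hdiv` of `KerIso7.compare?_bijective`). -/
theorem exists_zsmul_eq_Qbar (x : Additive Qbarˣ) : ∃ y : Additive Qbarˣ, (p : ℤ) • y = x := by
  obtain ⟨y, hy⟩ := exists_nsmul_eq_Qbar p x
  exact ⟨y, (natCast_zsmul y p).trans hy⟩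

/-! ### `X = ES S` -/

section ES

variable (S : Finset Nat.Primes) (hpS : pPrime p ∈ S)

theorem toMul_expZeta_pow (a : ZMod p) : (Additive.toMul (expZeta p a) : Qbarˣ) ^ p = 1 := by
  rw [← toMul_nsmul, ← map_nsmul, ← Nat.cast_smul_eq_nsmul (ZMod p), ZMod.natCast_self, zero_smul,
    map_zero, toMul_zero]

include hpS in
theorem toMul_expZeta_mem (a : ZMod p) : (Additive.toMul (expZeta p a) : Qbarˣ) ∈ ESgroup S :=
  mem_ESgroup_of_pow_eq_one (Fact.out : p.Prime) hpS _ (toMul_expZeta_pow p a)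

/-- `a ↦ ζ^a ∈ E_S`, with values in the plain type `Additive (ESgroup S)` (the carrier of `ES S`). -/
noncomputable def jES' : ZMod p →+ Additive (ESgroup S) where
  toFun a := Additive.ofMul (⟨Additive.toMul (expZeta p a), toMul_expZeta_mem p S hpS a⟩ : ESgroup S)
  map_zero' := by
    apply Additive.toMul.injective
    apply Subtype.ext
    show Additive.toMul (expZeta p 0) = 1
    rw [map_zero, toMul_zero]
  map_add' a b := by
    apply Additive.toMul.injective
    apply Subtype.ext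
    show Additive.toMul (expZeta p (a + b)) =
      Additive.toMul (expZeta p a) * Additive.toMul (expZeta p b)
    rw [map_add, toMul_add]

theorem coe_jES' (a : ZMod p) :
    ((Additive.toMul (jES' p S hpS a) : ESgroup S) : Qbarˣ) = Additive.toMul (expZeta p a) := rfl

theorem jES'_injective : Injective (jES' p S hpS) := by
  intro a b h
  apply expZeta_injective p
  apply Additive.toMul.injective
  rw [← coe_jES' p S hpS a, ← coe_jES' p S hpS b, h]

theorem exists_jES'_eq (x : Additive (ESgroup S)) (hx : p • x = 0) :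
    ∃ a, jES' p S hpS a = x := by
  have h1 : p • (Additive.ofMul ((Additive.toMul x : ESgroup S) : Qbarˣ)) = 0 := by
    apply Additive.toMul.injective
    rw [toMul_nsmul, toMul_ofMul, toMul_zero]
    have h2 := congrArg (fun y : Additive (ESgroup S) => ((Additive.toMul y : ESgroup S) : Qbarˣ)) hx
    simpa using h2
  obtain ⟨a, ha⟩ := exists_expZeta_eq p h1
  refine ⟨a, ?_⟩
  apply Additive.toMul.injective
  apply Subtype.ext
  rw [coe_jES', ha, toMul_ofMul]

theorem smul_jES' (g : Γ) (a : ZMod p) :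
    Additive.ofMul (g • (Additive.toMul (jES' p S hpS a) : ESgroup S)) =
      jES' p S hpS (((cycloChar p g : (ZMod p)ˣ) : ZMod p) * a) := by
  apply Additive.toMul.injective
  apply Subtype.ext
  rw [coe_jES', ← smul_expZeta, toMul_ofMul, toMul_ofMul, coe_smul_ES, coe_jES']

/-- `μ_p ⊂ E_S` (`p ∈ S`). -/
noncomputable def muES : MuData (k := ℤ) (cycloChar p) (ES S).ρ where
  j := jES' p S hpS
  inj := jES'_injective p S hpS
  surj := exists_jES'_eq p S hpS
  equiv := smul_jES' p S hpS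

theorem muES_j_apply (a : ZMod p) : (muES p S hpS).j a = jES' p S hpS a := rfl

/-- The inclusion `E_S → ℚ̄ˣ`, as a `ℤ`-linear map (for the module structure carried by `ES S`). -/
noncomputable def esIncl : ES S →ₗ[ℤ] Additive Qbarˣ :=
  (mkLin intSurj_int (MonoidHom.toAdditive (ESgroup S).subtype :
    Additive (ESgroup S) →+ Additive Qbarˣ) : Additive (ESgroup S) →ₗ[ℤ] Additive Qbarˣ)

theorem esIncl_apply (b : Additive (ESgroup S)) :
    esIncl S b = Additive.ofMul ((Additive.toMul b : ESgroup S) : Qbarˣ) := rfl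

theorem esIncl_ρ (g : Γ) (b : ES S) :
    esIncl S ((ES S).ρ g b) = Representation.ofMulDistribMulAction Γ Qbarˣ g (esIncl S b) := rfl

theorem esIncl_injective : Injective (esIncl S) := by
  intro b b' h
  have h' : (Additive.ofMul ((Additive.toMul (α := ESgroup S) b : ESgroup S) : Qbarˣ)) =
      Additive.ofMul ((Additive.toMul (α := ESgroup S) b' : ESgroup S) : Qbarˣ) := h
  exact Additive.toMul.injective (Subtype.ext (Additive.ofMul.injective h'))

theorem esIncl_muES (a : ZMod p) : esIncl S ((muES p S hpS).j a) = (muQbar p).j a := rfl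

end ES

/-! ### `X = unitsLoc q = ℚ̄_qˣ` -/

section Loc

variable (q : ℕ) [Fact q.Prime]

local notation "Γq" => (PadicAlgCl q ≃ₐ[ℚ_[q]] PadicAlgCl q)

/-- The embedding `ℚ̄ˣ → ℚ̄_qˣ` (values in the plain type `Additive ℚ̄_qˣ`, the carrier of
`unitsLoc q`). -/
noncomputable def unitsEmb : Additive Qbarˣ →+ Additive (PadicAlgCl q)ˣ :=
  MonoidHom.toAdditive (Units.map ((padicEmbedding q : Qbar →+* PadicAlgCl q) : Qbar →* PadicAlgCl q))

theorem coe_unitsEmb (x : Additive Qbarˣ) :
    ((Additive.toMul (unitsEmb q x) : (PadicAlgCl q)ˣ) : PadicAlgCl q) =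
      padicEmbedding q ((Additive.toMul x : Qbarˣ) : Qbar) := rfl

theorem unitsEmb_injective : Injective (unitsEmb q) := by
  intro x y h
  apply Additive.toMul.injective
  apply Units.ext
  apply (padicEmbedding q).injective
  exact (coe_unitsEmb q x).symm.trans ((congrArg (fun z : Additive (PadicAlgCl q)ˣ =>
    ((Additive.toMul z : (PadicAlgCl q)ˣ) : PadicAlgCl q)) h).trans (coe_unitsEmb q y))

theorem smul_unitsEmb (h : Γq) (x : Additive Qbarˣ) :
    Additive.ofMul (h • (Additive.toMul (unitsEmb q x) : (PadicAlgCl q)ˣ)) =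
      unitsEmb q (Additive.ofMul (localGaloisToGlobal q h • (Additive.toMul x : Qbarˣ))) := by
  apply Additive.toMul.injective
  apply Units.ext
  exact (padicEmbedding_localGaloisToGlobal q h _).symm

theorem unitsEmb_ρ (h : Γq) (x : Additive Qbarˣ) :
    (unitsLoc q).ρ h (unitsEmb q x) =
      unitsEmb q (Representation.ofMulDistribMulAction Γ Qbarˣ (localGaloisToGlobal q h) x) :=
  smul_unitsEmb q h x

theorem exists_unitsEmb_expZeta_eq (x : Additive (PadicAlgCl q)ˣ) (hx : p • x = 0) :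
    ∃ a, unitsEmb q (expZeta p a) = x := by
  have : NeZero p := ⟨(Fact.out : p.Prime).ne_zero⟩
  have hζ : IsPrimitiveRoot (padicEmbedding q (Fermat.Agent.S14.Fields.zeta p)) p :=
    (Fermat.Agent.S14.Fields.zeta_spec p).map_of_injective (padicEmbedding q).injective
  have hx' : ((Additive.toMul x : (PadicAlgCl q)ˣ) : PadicAlgCl q) ^ p = 1 := by
    have h2 := congrArg (fun y : Additive (PadicAlgCl q)ˣ =>
      ((Additive.toMul y : (PadicAlgCl q)ˣ) : PadicAlgCl q)) hx
    simpa using h2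
  obtain ⟨i, -, hi⟩ := hζ.eq_pow_of_pow_eq_one hx'
  refine ⟨(i : ZMod p), ?_⟩
  apply Additive.toMul.injective
  apply Units.ext
  rw [coe_unitsEmb, expZeta_natCast, toMul_ofMul, Units.val_pow_eq_pow_val, coe_zetaU, map_pow, hi]

theorem smul_unitsEmb_expZeta (h : Γq) (a : ZMod p) :
    Additive.ofMul (h • (Additive.toMul (unitsEmb q (expZeta p a)) : (PadicAlgCl q)ˣ)) =
      unitsEmb q (expZeta p ((((cycloChar p).comp (localGaloisToGlobal q) h : (ZMod p)ˣ) : ZMod p) * a)) := by
  rw [smul_unitsEmb, smul_expZeta]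
  rfl

/-- `μ_p ⊂ ℚ̄_qˣ`, with `Γ_q` acting through `cycloChar p ∘ r_q`. -/
noncomputable def muLoc :
    MuData (k := ℤ) ((cycloChar p).comp (localGaloisToGlobal q)) (unitsLoc q).ρ where
  j := (unitsEmb q).comp (expZeta p)
  inj := (unitsEmb_injective q).comp (expZeta_injective p)
  surj := exists_unitsEmb_expZeta_eq p q
  equiv := smul_unitsEmb_expZeta p q

theorem muLoc_j_apply (a : ZMod p) : (muLoc p q).j a = unitsEmb q (expZeta p a) := rfl

/-- `locE S q ∘ j_{E_S} = j_{ℚ̄_q}`: the `MuData` are compatible with the localisation `E_S → ℚ̄_qˣ`. -/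
theorem locE_muES (S : Finset Nat.Primes) (hpS : pPrime p ∈ S) (a : ZMod p) :
    locE S q ((muES p S hpS).j a) = (muLoc p q).j a := rfl

/-- `locE S q = unitsEmb q ∘ esIncl S`. -/
theorem locE_eq (S : Finset Nat.Primes) (b : ES S) : locE S q b = unitsEmb q (esIncl S b) := rfl

/-- `ℚ̄_qˣ` is `p`-divisible. -/
theorem exists_nsmul_eq_padic (x : Additive (PadicAlgCl q)ˣ) :
    ∃ y : Additive (PadicAlgCl q)ˣ, p • y = x := by
  have hp : p ≠ 0 := (Fact.out : p.Prime).ne_zero
  obtain ⟨z, hz⟩ := IsAlgClosed.exists_pow_nat_eq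
    ((Additive.toMul x : (PadicAlgCl q)ˣ) : PadicAlgCl q) (Nat.pos_of_ne_zero hp)
  have hz0 : z ≠ 0 := by
    rintro rfl
    rw [zero_pow hp] at hz
    exact (Additive.toMul x).ne_zero hz.symm
  refine ⟨Additive.ofMul (Units.mk0 z hz0), ?_⟩
  apply Additive.toMul.injective
  apply Units.ext
  rw [toMul_nsmul, toMul_ofMul, Units.val_pow_eq_pow_val, Units.val_mk0, hz]

/-- `ℚ̄_qˣ` is `p`-divisible, in the form of the `hdiv` of `KerIso7.compare?_bijective`. -/
theorem exists_zsmul_eq_unitsLoc (x : unitsLoc q) : ∃ y : unitsLoc q, (p : ℤ) • y = x := by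
  obtain ⟨y, hy⟩ := exists_nsmul_eq_padic p q x
  have key : ∀ z : unitsLoc q, (p : ℤ) • z = p • z := fun z => Nat.cast_smul_eq_nsmul ℤ p z
  exact ⟨y, (key y).trans hy⟩

end Loc

/-! ### The `hA` hypotheses for `M.dualTwist χ` -/

section DualTwist

variable {p}
variable {G : Type} [Group G] (M : Rep (ZMod p) G) (χ : G →* (ZMod p)ˣ)

/-- `hA` of `KerIso7` for the `ℤ`-restriction of `M.dualTwist χ`. -/
theorem dualTwist_hA [Module ℤ (Module.Dual (ZMod p) M)] (g : G) (a : Module.Dual (ZMod p) M) :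
    intRep (V := Module.Dual (ZMod p) M) intSurj_int (M.dualTwist χ).ρ g a =
      (χ g : ZMod p) • (a ∘ₗ M.ρ g⁻¹) := rfl

/-- `hA` after restriction along `r : H → G`. -/
theorem dualTwist_res_hA {H : Type} [Group H] (r : H →* G) [Module ℤ (Module.Dual (ZMod p) M)]
    (h : H) (a : Module.Dual (ZMod p) M) :
    intRep (V := Module.Dual (ZMod p) M) intSurj_int ((M.dualTwist χ).ρ.comp r) h a =
      ((χ.comp r) h : ZMod p) • (a ∘ₗ (M.ρ.comp r) h⁻¹) := by
  rw [intRep_apply, MonoidHom.comp_apply, MonoidHom.comp_apply, MonoidHom.comp_apply, map_inv]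
  rfl

end DualTwist

end Fermat.Agent.PT.PRO.KerIsoGal7
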