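/-
Program F (S55, Poitou–Tate), chapter PRO, helper7: row 390 (PRO-KerIso), ADAPTERS for the final
assembly (helper20's PLAN v4 / helper25's `StarH2_25`).

* `compare1_natural`, `compare2_natural` : THE SQUARE.  For `f : G' →* G` (level hom), a raw resolution
  `R` of `M' = Module.Dual (ZMod p) M` over `G`, coefficients `ε : X → W` over `f` with
  `ε ∘ j_X = j_W`:
      `Φ_{G'} ∘ res_f = ppℍ^r(KXPHom ε) ∘ Φ_G`
  where `Φ = KerIso7.compare^r : H^r(M) ≅ ℍ^r(K(P; X))`, `res_f = (plainPHom … id).mapH^r`.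
* `compare1_KXmap`, `compare2_KXmap` : naturality in the coefficients over the same group.
* `intRep_eq` : `KerIso7.intRep intSurj_int A.ρ = IntRep20.intRep A` (`rfl`), and the `hA` hypothesis
  for `A := M.dualTwist χ : Rep (ZMod p) G` resolved by a raw `R` with
  `R.ρM = IntRep20.intRep A` (`hA_of_eq`; `hA_freeRes` for `HpAt29.freeRes (IntRep20.intRep A)`).
  So `compare^r intSurj_int h𝒰 (Setup20.toResolved R h0) M.ρ hM χ (hA_of_eq M χ R hR) hX D` is a map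
  `Hp^r h𝒰 (IntRep20.intRep M) _ →ₗ[ℤ] (Objects20.KX R h0 h𝒰 ρX hX).ℍ^r h𝒰` (types agree by `rfl`).
  NOTE: keep `X` CONCRETE (or stay `k`-generic) when stating things over `ℤ`: for a VARIABLE
  `[Module ℤ X]`, `(p : ℤ) • y` elaborates to the canonical `zsmul`, and `(KX …).ℍ1` re-synthesises
  `AddCommGroup.toIntModule (P0 →ₗ[ℤ] X)` instead of `LinearMap.module`.
-/
import Mathlib
import Fermat.Agent.PT.PRO.KerIso7
import Fermat.Agent.PT.PRO.IntRep20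
import Fermat.Agent.PT.PRO.HpAt29
import Fermat.Agent.PT.PRO.Setup20
import Fermat.Agent.PT.PRO.Objects20
import Fermat.Agent.PT.PRO.HyperRes25

set_option autoImplicit false
set_option linter.unusedSectionVars false

namespace Fermat.Agent.PT.PRO.KerIsoMain7

open Function
open Fermat.Agent.PT.PRO.HyperLevel25 Fermat.Agent.PT.PRO.HyperCompare25
open Fermat.Agent.PT.PRO.HyperRes25 Fermat.Agent.PT.PRO.IndRes20
open Fermat.Agent.PT.PRO.Setup20 Fermat.Agent.PT.PRO.Objects20 Fermat.Agent.PT.PRO.KerIso7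

/-! ### The square, generic form -/

section Generic

variable {k : Type*} [CommRing k] (hk : IntSurj k)
variable {p : ℕ} [Fact p.Prime] {G G' : Type*} [Group G] [Group G']
variable {𝒰 : Set (Subgroup G)} {𝒰' : Set (Subgroup G')}
variable {M : Type*} [AddCommGroup M] [Module (ZMod p) M] [Module k M]
  [FiniteDimensional (ZMod p) M] [Module k (Module.Dual (ZMod p) M)]
variable {P0 P1 : Type*} [AddCommGroup P0] [Module k P0] [AddCommGroup P1] [Module k P1]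
  [Module.Finite k P0] [Module.Finite k P1]
variable {X W : Type*} [AddCommGroup X] [Module k X] [AddCommGroup W] [Module k W]

variable (R : Res k G P1 P0 (Module.Dual (ZMod p) M)) (h0 : IsDiscrete 𝒰 R.ρ0)
  (h𝒰 : IsLevelBasis 𝒰) (h𝒰' : IsLevelBasis 𝒰')
  (ρM : Representation (ZMod p) G M) (hM : IsDiscrete 𝒰 ρM) (χ : G →* (ZMod p)ˣ)
  (hA : ∀ g a, R.ρM g a = (χ g : ZMod p) • (a ∘ₗ ρM g⁻¹))
  {ρX : Representation k G X} (hX : IsDiscrete 𝒰 ρX) (D : MuData χ ρX)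
  (f : G' →* G) (hf : IsLevelHom f 𝒰' 𝒰)
  {ρW : Representation k G' W} (hW : IsDiscrete 𝒰' ρW) (D' : MuData (χ.comp f) ρW)
  (ε : X →ₗ[k] W) (hε : ∀ g x, ε (ρX (f g) x) = ρW g (ε x)) (hεj : ∀ a, ε (D.j a) = D'.j a)

include hA in
/-- The `hA` hypothesis for the restricted resolution `R.comap f`. -/
theorem hA_comap (g : G') (a : Module.Dual (ZMod p) M) :
    (R.comap f).ρM g a = ((χ.comp f) g : ZMod p) • (a ∘ₗ (ρM.comp f) g⁻¹) := by
  show R.ρM (f g) a = _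
  rw [hA, MonoidHom.comp_apply, MonoidHom.comp_apply, map_inv f g]

/-- The restriction `H^r(G; M) → H^r(G'; M)` along `f` (plain level cohomology, `k`-linear
restriction `intRep` of `ρM`). -/
noncomputable def resPlain :
    Cpx.Hom (plainCpx h𝒰 (intRep hk ρM) (isDiscrete_intRep hk hM))
      (plainCpx h𝒰' (intRep hk (ρM.comp f))
        (isDiscrete_intRep hk (IsLevelHom.isDiscrete hf hM))) :=
  plainPHom hf h𝒰 h𝒰' (isDiscrete_intRep hk hM)
    (isDiscrete_intRep hk (IsLevelHom.isDiscrete hf hM)) LinearMap.id (fun _ _ => rfl)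

include hεj in
/-- **The square in degree 1**: `Φ¹_{G'} ∘ res_f = ppℍ¹(KXPHom ε) ∘ Φ¹_G`. -/
theorem compare1_natural
    (x : Hp1 h𝒰 (intRep hk ρM) (isDiscrete_intRep hk hM)) :
    compare1 hk h𝒰' (toResolved (R.comap f) (comap_disc0 R h0 f hf)) (ρM.comp f)
        (IsLevelHom.isDiscrete hf hM) (χ.comp f) (hA_comap R ρM χ hA f) hW D'
        ((resPlain hk h𝒰 h𝒰' ρM hM f hf).mapH1 x) =
      (KXPHom R h0 h𝒰 h𝒰' f hf hX hW ε hε).ppℍ1 hf h𝒰 h𝒰'
        (compare1 hk h𝒰 (toResolved R h0) ρM hM χ hA hX D x) :=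
  incl1_natural (KXPHom R h0 h𝒰 h𝒰' f hf hX hW ε hε) hf h𝒰 h𝒰' _ _ _ _ _ _ _ _ _ _
    (fun m => (comp_kapRes hk ε D.j D'.j hεj R.π m).symm) x

include hεj in
/-- **The square in degree 2**: `Φ²_{G'} ∘ res_f = ppℍ²(KXPHom ε) ∘ Φ²_G`. -/
theorem compare2_natural
    (x : Hp2 h𝒰 (intRep hk ρM) (isDiscrete_intRep hk hM)) :
    compare2 hk h𝒰' (toResolved (R.comap f) (comap_disc0 R h0 f hf)) (ρM.comp f)
        (IsLevelHom.isDiscrete hf hM) (χ.comp f) (hA_comap R ρM χ hA f) hW D'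
        ((resPlain hk h𝒰 h𝒰' ρM hM f hf).mapH2 x) =
      (KXPHom R h0 h𝒰 h𝒰' f hf hX hW ε hε).ppℍ2 hf h𝒰 h𝒰'
        (compare2 hk h𝒰 (toResolved R h0) ρM hM χ hA hX D x) :=
  incl2_natural (KXPHom R h0 h𝒰 h𝒰' f hf hX hW ε hε) hf h𝒰 h𝒰' _ _ _ _ _ _ _ _ _ _
    (fun m => (comp_kapRes hk ε D.j D'.j hεj R.π m).symm) x

/-- Naturality in the coefficients over the same group: `Φ¹_{X'} = mapℍ¹(KXmap α) ∘ Φ¹_X`. -/
theorem compare1_KXmap {X' : Type*} [AddCommGroup X'] [Module k X']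
    {ρX' : Representation k G X'} (hX' : IsDiscrete 𝒰 ρX') (D₂ : MuData χ ρX')
    (α : X →ₗ[k] X') (hα : ∀ g x, α (ρX g x) = ρX' g (α x)) (hαj : ∀ a, α (D.j a) = D₂.j a)
    (x : Hp1 h𝒰 (intRep hk ρM) (isDiscrete_intRep hk hM)) :
    compare1 hk h𝒰 (toResolved R h0) ρM hM χ hA hX' D₂ x =
      (KXmap R h0 h𝒰 hX hX' α hα).mapℍ1 h𝒰
        (compare1 hk h𝒰 (toResolved R h0) ρM hM χ hA hX D x) := by
  obtain ⟨z, rfl⟩ := (plainCpx h𝒰 (intRep hk ρM) (isDiscrete_intRep hk hM)).π1_surjective x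
  show ((KX R h0 h𝒰 ρX' hX').tot h𝒰).π1 _ = ((KX R h0 h𝒰 ρX' hX').tot h𝒰).π1 _
  congr 1
  apply Subtype.ext; apply Subtype.ext
  show ((⇑(kapRes hk D₂.j R.π) ∘ z.1.1, (0 : P1 →ₗ[k] X')) :
      (G → (P0 →ₗ[k] X')) × (P1 →ₗ[k] X')) =
    (KXmap R h0 h𝒰 hX hX' α hα).map1 (⇑(kapRes hk D.j R.π) ∘ z.1.1, 0)
  rw [Cx.Hom.map1_apply]
  refine Prod.ext ?_ (map_zero _).symm
  funext g
  exact (comp_kapRes hk α D.j D₂.j hαj R.π (z.1.1 g)).symm

/-- Naturality in the coefficients over the same group: `Φ²_{X'} = mapℍ²(KXmap α) ∘ Φ²_X`. -/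
theorem compare2_KXmap {X' : Type*} [AddCommGroup X'] [Module k X']
    {ρX' : Representation k G X'} (hX' : IsDiscrete 𝒰 ρX') (D₂ : MuData χ ρX')
    (α : X →ₗ[k] X') (hα : ∀ g x, α (ρX g x) = ρX' g (α x)) (hαj : ∀ a, α (D.j a) = D₂.j a)
    (x : Hp2 h𝒰 (intRep hk ρM) (isDiscrete_intRep hk hM)) :
    compare2 hk h𝒰 (toResolved R h0) ρM hM χ hA hX' D₂ x =
      (KXmap R h0 h𝒰 hX hX' α hα).mapℍ2 h𝒰
        (compare2 hk h𝒰 (toResolved R h0) ρM hM χ hA hX D x) := by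
  obtain ⟨z, rfl⟩ := (plainCpx h𝒰 (intRep hk ρM) (isDiscrete_intRep hk hM)).π2_surjective x
  show ((KX R h0 h𝒰 ρX' hX').tot h𝒰).π2 _ = ((KX R h0 h𝒰 ρX' hX').tot h𝒰).π2 _
  congr 1
  apply Subtype.ext; apply Subtype.ext
  show ((⇑(kapRes hk D₂.j R.π) ∘ z.1.1, (0 : G → (P1 →ₗ[k] X'))) :
      (G × G → (P0 →ₗ[k] X')) × (G → (P1 →ₗ[k] X'))) =
    (KXmap R h0 h𝒰 hX hX' α hα).map2 (⇑(kapRes hk D.j R.π) ∘ z.1.1, 0)
  rw [Cx.Hom.map2_apply]
  refine Prod.ext ?_ ?_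
  · funext g
    exact (comp_kapRes hk α D.j D₂.j hαj R.π (z.1.1 g)).symm
  · funext g
    exact (map_zero _).symm

end Generic

/-! ### Specialisation to `Rep (ZMod p) G`, `IntRep20.intRep`, `k = ℤ` -/

section Rep

variable {p : ℕ} [Fact p.Prime] {G G' : Type} [Group G] [Group G']
variable {𝒰 : Set (Subgroup G)} {𝒰' : Set (Subgroup G')}

/-- `KerIso7.intRep` (default `ℤ`-module structure) IS `IntRep20.intRep`. -/
theorem intRep_eq (A : Rep (ZMod p) G) : intRep intSurj_int A.ρ = IntRep20.intRep A := rfl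

variable (M : Rep (ZMod p) G) [FiniteDimensional (ZMod p) M] (χ : G →* (ZMod p)ˣ)

/-- `hA` for the canonical resolution of `IntRep20.intRep (M.dualTwist χ)`. -/
theorem hA_freeRes (g : G) (a : Module.Dual (ZMod p) M) :
    (HpAt29.freeRes (IntRep20.intRep (M.dualTwist χ))).ρM g a =
      (χ g : ZMod p) • (a ∘ₗ M.ρ g⁻¹) := rfl

variable {P0 P1 : Type*} [AddCommGroup P0] [Module ℤ P0] [AddCommGroup P1] [Module ℤ P1]
  [Module.Finite ℤ P0] [Module.Finite ℤ P1]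
variable {X : Type*} [AddCommGroup X] [Module ℤ X]
variable (R : Res ℤ G P1 P0 (M.dualTwist χ)) (hR : R.ρM = IntRep20.intRep (M.dualTwist χ))
  (h0 : IsDiscrete 𝒰 R.ρ0) (h𝒰 : IsLevelBasis 𝒰) (hM : LevelCoh28.IsDiscrete 𝒰 M)
  {ρX : Representation ℤ G X} (hX : IsDiscrete 𝒰 ρX) (D : MuData χ ρX)

include hR in
theorem hA_of_eq (g : G) (a : Module.Dual (ZMod p) M) :
    R.ρM g a = (χ g : ZMod p) • (a ∘ₗ M.ρ g⁻¹) := by
  rw [hR]
  rfl

end Rep

end Fermat.Agent.PT.PRO.KerIsoMain7
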