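/-
Program F (S55, Poitou–Tate), chapter PRO, helper25.

`HyperProdCor25`: the "jointly bijective projections" form of `HyperProd25`:
if `φ i : A → Y i` (finite family) are morphisms of two-term complexes such that
`A⁰ → ∏ Y⁰_i` and `A¹ → ∏ Y¹_i` are bijective, then `ℍ^r(A) → ∏ ℍ^r(Y_i)` is bijective (r = 1, 2).
Also in `PHom (MonoidHom.id G)` form.
-/
import Fermat.Agent.PT.PRO.HyperProd25
import Fermat.Agent.PT.PRO.HyperRes25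

set_option autoImplicit false

namespace Fermat.Agent.PT.PRO.HyperProdCor25

open Function Fermat.Agent.PT.PRO.HyperLevel25 Fermat.Agent.PT.PRO.HyperCompare25
  Fermat.Agent.PT.PRO.HyperProd25 Fermat.Agent.PT.PRO.HyperRes25

variable {k G : Type*} [CommRing k] [Group G] {𝒰 : Set (Subgroup G)}
variable {ι : Type*} [Finite ι]
variable {Y0 Y1 : ι → Type*} [∀ i, AddCommGroup (Y0 i)] [∀ i, Module k (Y0 i)]
  [∀ i, AddCommGroup (Y1 i)] [∀ i, Module k (Y1 i)]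
variable {A0 A1 : Type*} [AddCommGroup A0] [Module k A0] [AddCommGroup A1] [Module k A1]
variable (h𝒰 : IsLevelBasis 𝒰) {A : Cx k 𝒰 A0 A1} {Y : ∀ i, Cx k 𝒰 (Y0 i) (Y1 i)}

/-- `ℍ¹(A) → ∏ ℍ¹(Y i)` is bijective when the `φ i` are jointly bijective termwise. -/
theorem prod_ℍ1_bijective (φ : ∀ i, Cx.Hom A (Y i))
    (h0 : Bijective (fun (y : A0) (i : ι) => (φ i).φ0 y))
    (h1 : Bijective (fun (y : A1) (i : ι) => (φ i).φ1 y)) :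
    Bijective (fun (x : A.ℍ1 h𝒰) (i : ι) => (φ i).mapℍ1 h𝒰 x) := by
  have hb : Bijective ((piLift h𝒰 φ).mapℍ1 h𝒰) :=
    bijective_mapℍ1_of_bijective (piLift h𝒰 φ) h𝒰 h0 h1
  have hc := (bijective_piℍ1 h𝒰 Y).comp hb
  have heq : (fun (x : A.ℍ1 h𝒰) (i : ι) => (φ i).mapℍ1 h𝒰 x) =
      ⇑(piℍ1 h𝒰 Y) ∘ ⇑((piLift h𝒰 φ).mapℍ1 h𝒰) := by
    funext x i
    exact (piℍ1_piLift h𝒰 φ x i).symm
  rw [heq]
  exact hc

/-- `ℍ²(A) → ∏ ℍ²(Y i)` is bijective when the `φ i` are jointly bijective termwise. -/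
theorem prod_ℍ2_bijective (φ : ∀ i, Cx.Hom A (Y i))
    (h0 : Bijective (fun (y : A0) (i : ι) => (φ i).φ0 y))
    (h1 : Bijective (fun (y : A1) (i : ι) => (φ i).φ1 y)) :
    Bijective (fun (x : A.ℍ2 h𝒰) (i : ι) => (φ i).mapℍ2 h𝒰 x) := by
  have hb : Bijective ((piLift h𝒰 φ).mapℍ2 h𝒰) :=
    bijective_mapℍ2_of_bijective (piLift h𝒰 φ) h𝒰 h0 h1
  have hc := (bijective_piℍ2 h𝒰 Y).comp hb
  have heq : (fun (x : A.ℍ2 h𝒰) (i : ι) => (φ i).mapℍ2 h𝒰 x) =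
      ⇑(piℍ2 h𝒰 Y) ∘ ⇑((piLift h𝒰 φ).mapℍ2 h𝒰) := by
    funext x i
    exact (piℍ2_piLift h𝒰 φ x i).symm
  rw [heq]
  exact hc

/-- A morphism over the identity of `G` is a morphism of `G`-complexes. -/
def homOfPHom {B0 B1 : Type*} [AddCommGroup B0] [Module k B0] [AddCommGroup B1] [Module k B1]
    {B : Cx k 𝒰 B0 B1} (a : PHom (MonoidHom.id G) A B) : Cx.Hom A B where
  φ0 := a.φ0
  φ1 := a.φ1
  comm0 := a.comm0
  comm1 := a.comm1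
  commf := a.commf

lemma ppℍ1_eq_mapℍ1 {B0 B1 : Type*} [AddCommGroup B0] [Module k B0] [AddCommGroup B1]
    [Module k B1] {B : Cx k 𝒰 B0 B1} (a : PHom (MonoidHom.id G) A B) (x : A.ℍ1 h𝒰) :
    a.ppℍ1 (isLevelHom_id 𝒰) h𝒰 h𝒰 x = (homOfPHom a).mapℍ1 h𝒰 x := by
  obtain ⟨z, rfl⟩ := (A.tot h𝒰).π1_surjective x
  rfl

lemma ppℍ2_eq_mapℍ2 {B0 B1 : Type*} [AddCommGroup B0] [Module k B0] [AddCommGroup B1]
    [Module k B1] {B : Cx k 𝒰 B0 B1} (a : PHom (MonoidHom.id G) A B) (x : A.ℍ2 h𝒰) :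
    a.ppℍ2 (isLevelHom_id 𝒰) h𝒰 h𝒰 x = (homOfPHom a).mapℍ2 h𝒰 x := by
  obtain ⟨z, rfl⟩ := (A.tot h𝒰).π2_surjective x
  rfl

/-- `PHom` form (the shape of helper4's request to helper10), degree 1. -/
theorem prod_ppℍ1_bijective (a : ∀ i, PHom (MonoidHom.id G) A (Y i))
    (h0 : Bijective (fun (y : A0) (i : ι) => (a i).φ0 y))
    (h1 : Bijective (fun (y : A1) (i : ι) => (a i).φ1 y)) :
    Bijective (fun (x : A.ℍ1 h𝒰) (i : ι) => (a i).ppℍ1 (isLevelHom_id 𝒰) h𝒰 h𝒰 x) := by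
  have := prod_ℍ1_bijective h𝒰 (fun i => homOfPHom (a i)) h0 h1
  have heq : (fun (x : A.ℍ1 h𝒰) (i : ι) => (a i).ppℍ1 (isLevelHom_id 𝒰) h𝒰 h𝒰 x) =
      (fun (x : A.ℍ1 h𝒰) (i : ι) => (homOfPHom (a i)).mapℍ1 h𝒰 x) := by
    funext x i
    exact ppℍ1_eq_mapℍ1 h𝒰 (a i) x
  rw [heq]
  exact this

/-- `PHom` form, degree 2. -/
theorem prod_ppℍ2_bijective (a : ∀ i, PHom (MonoidHom.id G) A (Y i))
    (h0 : Bijective (fun (y : A0) (i : ι) => (a i).φ0 y))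
    (h1 : Bijective (fun (y : A1) (i : ι) => (a i).φ1 y)) :
    Bijective (fun (x : A.ℍ2 h𝒰) (i : ι) => (a i).ppℍ2 (isLevelHom_id 𝒰) h𝒰 h𝒰 x) := by
  have := prod_ℍ2_bijective h𝒰 (fun i => homOfPHom (a i)) h0 h1
  have heq : (fun (x : A.ℍ2 h𝒰) (i : ι) => (a i).ppℍ2 (isLevelHom_id 𝒰) h𝒰 h𝒰 x) =
      (fun (x : A.ℍ2 h𝒰) (i : ι) => (homOfPHom (a i)).mapℍ2 h𝒰 x) := by
    funext x i
    exact ppℍ2_eq_mapℍ2 h𝒰 (a i) x
  rw [heq]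
  exact this

end Fermat.Agent.PT.PRO.HyperProdCor25
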