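/-
Program F (S55, Poitou–Tate), chapter PRO, helper10.

`HyperProd10`: level (hyper)cohomology commutes with FINITE products of coefficients.

* Abstract part (`cpx_prod_*`): a family of morphisms of four-term complexes `φ i : T → T_i`
  which is jointly bijective in degrees `1, 2`, jointly surjective in degree `0` and jointly
  injective in degree `3` is jointly bijective on `H¹` and `H²`.
* `prod_ℍ1_bijective`, `prod_ℍ2_bijective`: for a finite family of morphisms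
  `a i : PHom (MonoidHom.id G) Y (Yi i)` of two-term complexes of discrete `G`-modules such that
  `Y⁰ → ∏ Z⁰_i` and `Y¹ → ∏ Z¹_i` are bijective, the maps
  `ℍ^r(G; Y) → ∏ ℍ^r(G; Y_i)` (`r = 1, 2`) are bijective.
  (Finiteness of the index type is used exactly once: a tuple of level cochains is a level
  cochain into the product, `IsLevelBasis.exists_le_of_finite`.)
* `prod_mapℍ1_bijective`, `prod_mapℍ2_bijective`: the same for `Cx.Hom` / `mapℍ`.
* `prod_Hp1_bijective`, `prod_Hp2_bijective` (`plainHom`) and `prod_ppHp1_bijective`,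
  `prod_ppHp2_bijective` (`plainPHom` over the identity): the same for the plain level cohomology
  `Hp1`, `Hp2` of `HyperCompare25`.
-/
import Fermat.Agent.PT.PRO.HyperLevel25
import Fermat.Agent.PT.PRO.HyperRes25

set_option autoImplicit false

namespace Fermat.Agent.PT.PRO.HyperProd10

open Function Fermat.Agent.PT.PRO.HyperLevel25 Fermat.Agent.PT.PRO.HyperCompare25
  Fermat.Agent.PT.PRO.HyperRes25

/-! ## Abstract part: jointly bijective families of morphisms of four-term complexes -/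

section Abstract

variable {k : Type*} [CommRing k] {ι : Type*}
variable {X0 X1 X2 X3 : Type*}
  [AddCommGroup X0] [Module k X0] [AddCommGroup X1] [Module k X1]
  [AddCommGroup X2] [Module k X2] [AddCommGroup X3] [Module k X3]
variable {W0 W1 W2 W3 : ι → Type*}
  [∀ i, AddCommGroup (W0 i)] [∀ i, Module k (W0 i)]
  [∀ i, AddCommGroup (W1 i)] [∀ i, Module k (W1 i)]
  [∀ i, AddCommGroup (W2 i)] [∀ i, Module k (W2 i)]
  [∀ i, AddCommGroup (W3 i)] [∀ i, Module k (W3 i)]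
variable {T : Cpx k X0 X1 X2 X3} {Ti : ∀ i, Cpx k (W0 i) (W1 i) (W2 i) (W3 i)}
  (φ : ∀ i, Cpx.Hom T (Ti i))

/-- Joint injectivity on `H¹`. -/
theorem cpx_prod_mapH1_injective
    (h0 : Surjective (fun (x : X0) (i : ι) => (φ i).m0 x))
    (h1 : Injective (fun (x : X1) (i : ι) => (φ i).m1 x)) :
    Injective (fun (x : T.H1) (i : ι) => (φ i).mapH1 x) := by
  intro x x' hxx
  obtain ⟨z, rfl⟩ := T.π1_surjective x
  obtain ⟨z', rfl⟩ := T.π1_surjective x'
  have hi : ∀ i, ∃ y, (Ti i).d0 y = (φ i).m1 (z : X1) - (φ i).m1 (z' : X1) := by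
    intro i
    have := congrFun hxx i
    simp only [Cpx.Hom.mapH1_π1] at this
    rw [Cpx.π1_eq_iff] at this
    simpa only [Cpx.Hom.coe_mapZ1] using this
  choose yi hyi using hi
  obtain ⟨y, hy⟩ := h0 yi
  rw [Cpx.π1_eq_iff]
  refine ⟨y, h1 ?_⟩
  funext i
  show (φ i).m1 (T.d0 y) = (φ i).m1 ((z : X1) - (z' : X1))
  rw [(φ i).c0, map_sub, ← hyi i]
  exact congrArg (Ti i).d0 (congrFun hy i)

/-- Joint surjectivity on `H¹`. -/
theorem cpx_prod_mapH1_surjective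
    (h1 : Surjective (fun (x : X1) (i : ι) => (φ i).m1 x))
    (h2 : Injective (fun (x : X2) (i : ι) => (φ i).m2 x)) :
    Surjective (fun (x : T.H1) (i : ι) => (φ i).mapH1 x) := by
  intro w
  have hi : ∀ i, ∃ z : (Ti i).Z1, (Ti i).π1 z = w i := fun i => (Ti i).π1_surjective (w i)
  choose zi hzi using hi
  obtain ⟨z, hz⟩ := h1 (fun i => ((zi i : (Ti i).Z1) : W1 i))
  have hz' : ∀ i, (φ i).m1 z = ((zi i : (Ti i).Z1) : W1 i) := fun i => congrFun hz i
  have hmem : z ∈ T.Z1 := by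
    rw [LinearMap.mem_ker]
    apply h2
    funext i
    show (φ i).m2 (T.d1 z) = (φ i).m2 0
    rw [(φ i).c1, hz' i, map_zero]
    exact (zi i).2
  refine ⟨T.π1 ⟨z, hmem⟩, ?_⟩
  funext i
  show (φ i).mapH1 (T.π1 ⟨z, hmem⟩) = w i
  rw [Cpx.Hom.mapH1_π1, ← hzi i]
  congr 1
  exact Subtype.ext (hz' i)

/-- Joint injectivity on `H²`. -/
theorem cpx_prod_mapH2_injective
    (h1 : Surjective (fun (x : X1) (i : ι) => (φ i).m1 x))
    (h2 : Injective (fun (x : X2) (i : ι) => (φ i).m2 x)) :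
    Injective (fun (x : T.H2) (i : ι) => (φ i).mapH2 x) := by
  intro x x' hxx
  obtain ⟨z, rfl⟩ := T.π2_surjective x
  obtain ⟨z', rfl⟩ := T.π2_surjective x'
  have hi : ∀ i, ∃ y, (Ti i).d1 y = (φ i).m2 (z : X2) - (φ i).m2 (z' : X2) := by
    intro i
    have := congrFun hxx i
    simp only [Cpx.Hom.mapH2_π2] at this
    rw [Cpx.π2_eq_iff] at this
    simpa only [Cpx.Hom.coe_mapZ2] using this
  choose yi hyi using hi
  obtain ⟨y, hy⟩ := h1 yi
  rw [Cpx.π2_eq_iff]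
  refine ⟨y, h2 ?_⟩
  funext i
  show (φ i).m2 (T.d1 y) = (φ i).m2 ((z : X2) - (z' : X2))
  rw [(φ i).c1, map_sub, ← hyi i]
  exact congrArg (Ti i).d1 (congrFun hy i)

/-- Joint surjectivity on `H²`. -/
theorem cpx_prod_mapH2_surjective
    (h2 : Surjective (fun (x : X2) (i : ι) => (φ i).m2 x))
    (h3 : Injective (fun (x : X3) (i : ι) => (φ i).m3 x)) :
    Surjective (fun (x : T.H2) (i : ι) => (φ i).mapH2 x) := by
  intro w
  have hi : ∀ i, ∃ z : (Ti i).Z2, (Ti i).π2 z = w i := fun i => (Ti i).π2_surjective (w i)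
  choose zi hzi using hi
  obtain ⟨z, hz⟩ := h2 (fun i => ((zi i : (Ti i).Z2) : W2 i))
  have hz' : ∀ i, (φ i).m2 z = ((zi i : (Ti i).Z2) : W2 i) := fun i => congrFun hz i
  have hmem : z ∈ T.Z2 := by
    rw [LinearMap.mem_ker]
    apply h3
    funext i
    show (φ i).m3 (T.d2 z) = (φ i).m3 0
    rw [(φ i).c2, hz' i, map_zero]
    exact (zi i).2
  refine ⟨T.π2 ⟨z, hmem⟩, ?_⟩
  funext i
  show (φ i).mapH2 (T.π2 ⟨z, hmem⟩) = w i
  rw [Cpx.Hom.mapH2_π2, ← hzi i]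
  congr 1
  exact Subtype.ext (hz' i)

/-- Joint bijectivity on `H¹`. -/
theorem cpx_prod_mapH1_bijective
    (h0 : Surjective (fun (x : X0) (i : ι) => (φ i).m0 x))
    (h1 : Bijective (fun (x : X1) (i : ι) => (φ i).m1 x))
    (h2 : Injective (fun (x : X2) (i : ι) => (φ i).m2 x)) :
    Bijective (fun (x : T.H1) (i : ι) => (φ i).mapH1 x) :=
  ⟨cpx_prod_mapH1_injective φ h0 h1.1, cpx_prod_mapH1_surjective φ h1.2 h2⟩

/-- Joint bijectivity on `H²`. -/
theorem cpx_prod_mapH2_bijective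
    (h1 : Surjective (fun (x : X1) (i : ι) => (φ i).m1 x))
    (h2 : Bijective (fun (x : X2) (i : ι) => (φ i).m2 x))
    (h3 : Injective (fun (x : X3) (i : ι) => (φ i).m3 x)) :
    Bijective (fun (x : T.H2) (i : ι) => (φ i).mapH2 x) :=
  ⟨cpx_prod_mapH2_injective φ h1 h2.1, cpx_prod_mapH2_surjective φ h2.2 h3⟩

end Abstract

/-! ## Tuples of level cochains -/

section LevelTuple

variable {G : Type*} [Group G] {𝒰 : Set (Subgroup G)} {ι : Type*} [Finite ι]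

/-- A cochain into a finite "product" (any type injecting into a product) is level as soon as all
its components are. -/
lemma isLevel₁_of_forall (h𝒰 : IsLevelBasis 𝒰) {Y : Type*} {Z : ι → Type*}
    (p : Y → ∀ i, Z i) (hp : Injective p) (c : G → Y)
    (hc : ∀ i, IsLevel₁ 𝒰 (fun g => p (c g) i)) : IsLevel₁ 𝒰 c := by
  choose U hU hUc using hc
  obtain ⟨W, hW, hWle⟩ := h𝒰.exists_le_of_finite U hU
  refine ⟨W, hW, fun g s hs => hp ?_⟩
  funext i
  exact hUc i g s (hWle i hs)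

/-- The same for 2-cochains. -/
lemma isLevel₂_of_forall (h𝒰 : IsLevelBasis 𝒰) {Y : Type*} {Z : ι → Type*}
    (p : Y → ∀ i, Z i) (hp : Injective p) (c : G × G → Y)
    (hc : ∀ i, IsLevel₂ 𝒰 (fun g => p (c g) i)) : IsLevel₂ 𝒰 c := by
  choose U hU hUc using hc
  obtain ⟨W, hW, hWle⟩ := h𝒰.exists_le_of_finite U hU
  refine ⟨W, hW, fun g g' s s' hs hs' => hp ?_⟩
  funext i
  exact hUc i g g' s s' (hWle i hs) (hWle i hs')

end LevelTuple

/-! ## Level hypercohomology of a finite product -/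

section Hyper

variable {k G : Type*} [CommRing k] [Group G] {𝒰 : Set (Subgroup G)}
variable {ι : Type*}
variable {Y0 Y1 : Type*} [AddCommGroup Y0] [Module k Y0] [AddCommGroup Y1] [Module k Y1]
variable {Z0 Z1 : ι → Type*}
  [∀ i, AddCommGroup (Z0 i)] [∀ i, Module k (Z0 i)]
  [∀ i, AddCommGroup (Z1 i)] [∀ i, Module k (Z1 i)]
variable {Y : Cx k 𝒰 Y0 Y1} {Yi : ∀ i, Cx k 𝒰 (Z0 i) (Z1 i)}
  (a : ∀ i, PHom (MonoidHom.id G) Y (Yi i)) (h𝒰 : IsLevelBasis 𝒰)

/-- Degree `0` of the family of total complexes is the family `φ⁰`. -/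
lemma tot_m0_apply (i : ι) (y : Y0) :
    ((a i).tot (isLevelHom_id 𝒰) h𝒰 h𝒰).m0 y = (a i).φ0 y := rfl

lemma coe_tot_m1_apply (i : ι) (x : K1lev k h𝒰 Y0 Y1) :
    ((((a i).tot (isLevelHom_id 𝒰) h𝒰 h𝒰).m1 x : K1lev k h𝒰 (Z0 i) (Z1 i)) :
      (G → Z0 i) × Z1 i) = (⇑(a i).φ0 ∘ x.1.1, (a i).φ1 x.1.2) := rfl

lemma coe_tot_m2_apply (i : ι) (x : K2lev k h𝒰 Y0 Y1) :
    ((((a i).tot (isLevelHom_id 𝒰) h𝒰 h𝒰).m2 x : K2lev k h𝒰 (Z0 i) (Z1 i)) :
      (G × G → Z0 i) × (G → Z1 i)) = (⇑(a i).φ0 ∘ x.1.1, ⇑(a i).φ1 ∘ x.1.2) := rfl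

lemma tot_m3_apply (i : ι) (x : (G × G × G → Y0) × (G × G → Y1)) :
    ((a i).tot (isLevelHom_id 𝒰) h𝒰 h𝒰).m3 x = (⇑(a i).φ0 ∘ x.1, ⇑(a i).φ1 ∘ x.2) := rfl

/-- Joint injectivity of the total complexes in degree `1`. -/
theorem tot_m1_injective
    (h0 : Injective (fun (y : Y0) (i : ι) => (a i).φ0 y))
    (h1 : Injective (fun (y : Y1) (i : ι) => (a i).φ1 y)) :
    Injective (fun (x : K1lev k h𝒰 Y0 Y1) (i : ι) =>
      ((a i).tot (isLevelHom_id 𝒰) h𝒰 h𝒰).m1 x) := by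
  intro x x' hxx
  have hi : ∀ i, (⇑(a i).φ0 ∘ x.1.1, (a i).φ1 x.1.2) = (⇑(a i).φ0 ∘ x'.1.1, (a i).φ1 x'.1.2) :=
    fun i => by
      rw [← coe_tot_m1_apply a h𝒰 i x, ← coe_tot_m1_apply a h𝒰 i x']
      exact congrArg Subtype.val (congrFun hxx i)
  apply Subtype.ext
  refine Prod.ext ?_ ?_
  · funext g
    apply h0
    funext i
    exact congrFun (congrArg Prod.fst (hi i)) g
  · apply h1
    funext i
    exact congrArg Prod.snd (hi i)

/-- Joint injectivity of the total complexes in degree `2`. -/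
theorem tot_m2_injective
    (h0 : Injective (fun (y : Y0) (i : ι) => (a i).φ0 y))
    (h1 : Injective (fun (y : Y1) (i : ι) => (a i).φ1 y)) :
    Injective (fun (x : K2lev k h𝒰 Y0 Y1) (i : ι) =>
      ((a i).tot (isLevelHom_id 𝒰) h𝒰 h𝒰).m2 x) := by
  intro x x' hxx
  have hi : ∀ i, (⇑(a i).φ0 ∘ x.1.1, ⇑(a i).φ1 ∘ x.1.2) =
      (⇑(a i).φ0 ∘ x'.1.1, ⇑(a i).φ1 ∘ x'.1.2) :=
    fun i => by
      rw [← coe_tot_m2_apply a h𝒰 i x, ← coe_tot_m2_apply a h𝒰 i x']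
      exact congrArg Subtype.val (congrFun hxx i)
  apply Subtype.ext
  refine Prod.ext ?_ ?_
  · funext g
    apply h0
    funext i
    exact congrFun (congrArg Prod.fst (hi i)) g
  · funext g
    apply h1
    funext i
    exact congrFun (congrArg Prod.snd (hi i)) g

/-- Joint injectivity of the total complexes in degree `3`. -/
theorem tot_m3_injective
    (h0 : Injective (fun (y : Y0) (i : ι) => (a i).φ0 y))
    (h1 : Injective (fun (y : Y1) (i : ι) => (a i).φ1 y)) :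
    Injective (fun (x : (G × G × G → Y0) × (G × G → Y1)) (i : ι) =>
      ((a i).tot (isLevelHom_id 𝒰) h𝒰 h𝒰).m3 x) := by
  intro x x' hxx
  have hi : ∀ i, (⇑(a i).φ0 ∘ x.1, ⇑(a i).φ1 ∘ x.2) = (⇑(a i).φ0 ∘ x'.1, ⇑(a i).φ1 ∘ x'.2) :=
    fun i => by
      rw [← tot_m3_apply a h𝒰 i x, ← tot_m3_apply a h𝒰 i x']
      exact congrFun hxx i
  refine Prod.ext ?_ ?_
  · funext g
    apply h0
    funext i
    exact congrFun (congrArg Prod.fst (hi i)) g
  · funext g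
    apply h1
    funext i
    exact congrFun (congrArg Prod.snd (hi i)) g

variable [Finite ι]

/-- Joint surjectivity of the total complexes in degree `1` (this uses finiteness of `ι`). -/
theorem tot_m1_surjective
    (h0 : Bijective (fun (y : Y0) (i : ι) => (a i).φ0 y))
    (h1 : Surjective (fun (y : Y1) (i : ι) => (a i).φ1 y)) :
    Surjective (fun (x : K1lev k h𝒰 Y0 Y1) (i : ι) =>
      ((a i).tot (isLevelHom_id 𝒰) h𝒰 h𝒰).m1 x) := by
  intro w
  let c : G → Y0 := fun g => surjInv h0.2 (fun i => (w i).1.1 g)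
  have hc : ∀ i g, (a i).φ0 (c g) = (w i).1.1 g := fun i g =>
    congrFun (surjInv_eq h0.2 (fun i => (w i).1.1 g)) i
  obtain ⟨e, he⟩ := h1 (fun i => (w i).1.2)
  have hlev : IsLevel₁ 𝒰 c := by
    refine isLevel₁_of_forall h𝒰 _ h0.1 c (fun i => ?_)
    have : (fun g => (a i).φ0 (c g)) = (w i).1.1 := funext (hc i)
    rw [this]
    exact (w i).2
  refine ⟨⟨(c, e), hlev⟩, ?_⟩
  funext i
  apply Subtype.ext
  rw [coe_tot_m1_apply]
  exact Prod.ext (funext (hc i)) (congrFun he i)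

/-- Joint surjectivity of the total complexes in degree `2` (this uses finiteness of `ι`). -/
theorem tot_m2_surjective
    (h0 : Bijective (fun (y : Y0) (i : ι) => (a i).φ0 y))
    (h1 : Bijective (fun (y : Y1) (i : ι) => (a i).φ1 y)) :
    Surjective (fun (x : K2lev k h𝒰 Y0 Y1) (i : ι) =>
      ((a i).tot (isLevelHom_id 𝒰) h𝒰 h𝒰).m2 x) := by
  intro w
  let c : G × G → Y0 := fun g => surjInv h0.2 (fun i => (w i).1.1 g)
  have hc : ∀ i g, (a i).φ0 (c g) = (w i).1.1 g := fun i g =>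
    congrFun (surjInv_eq h0.2 (fun i => (w i).1.1 g)) i
  let e : G → Y1 := fun g => surjInv h1.2 (fun i => (w i).1.2 g)
  have he : ∀ i g, (a i).φ1 (e g) = (w i).1.2 g := fun i g =>
    congrFun (surjInv_eq h1.2 (fun i => (w i).1.2 g)) i
  have hlevc : IsLevel₂ 𝒰 c := by
    refine isLevel₂_of_forall h𝒰 _ h0.1 c (fun i => ?_)
    have : (fun g => (a i).φ0 (c g)) = (w i).1.1 := funext (hc i)
    rw [this]
    exact (w i).2.1
  have hleve : IsLevel₁ 𝒰 e := by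
    refine isLevel₁_of_forall h𝒰 _ h1.1 e (fun i => ?_)
    have : (fun g => (a i).φ1 (e g)) = (w i).1.2 := funext (he i)
    rw [this]
    exact (w i).2.2
  refine ⟨⟨(c, e), ⟨hlevc, hleve⟩⟩, ?_⟩
  funext i
  apply Subtype.ext
  rw [coe_tot_m2_apply]
  exact Prod.ext (funext (hc i)) (funext (he i))

/-- **Level `ℍ¹` commutes with finite products.** -/
theorem prod_ℍ1_bijective
    (h0 : Bijective (fun (y : Y0) (i : ι) => (a i).φ0 y))
    (h1 : Bijective (fun (y : Y1) (i : ι) => (a i).φ1 y)) :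
    Bijective (fun (x : Y.ℍ1 h𝒰) (i : ι) => (a i).ppℍ1 (isLevelHom_id 𝒰) h𝒰 h𝒰 x) :=
  cpx_prod_mapH1_bijective (fun i => (a i).tot (isLevelHom_id 𝒰) h𝒰 h𝒰) h0.2
    ⟨tot_m1_injective a h𝒰 h0.1 h1.1, tot_m1_surjective a h𝒰 h0 h1.2⟩
    (tot_m2_injective a h𝒰 h0.1 h1.1)

/-- **Level `ℍ²` commutes with finite products.** -/
theorem prod_ℍ2_bijective
    (h0 : Bijective (fun (y : Y0) (i : ι) => (a i).φ0 y))
    (h1 : Bijective (fun (y : Y1) (i : ι) => (a i).φ1 y)) :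
    Bijective (fun (x : Y.ℍ2 h𝒰) (i : ι) => (a i).ppℍ2 (isLevelHom_id 𝒰) h𝒰 h𝒰 x) :=
  cpx_prod_mapH2_bijective (fun i => (a i).tot (isLevelHom_id 𝒰) h𝒰 h𝒰)
    (tot_m1_surjective a h𝒰 h0 h1.2)
    ⟨tot_m2_injective a h𝒰 h0.1 h1.1, tot_m2_surjective a h𝒰 h0 h1⟩
    (tot_m3_injective a h𝒰 h0.1 h1.1)

end Hyper

/-! ## Variants: `Cx.Hom` / `mapℍ`, and linear equivalences -/

section HyperVariants

variable {k G : Type*} [CommRing k] [Group G] {𝒰 : Set (Subgroup G)}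
variable {ι : Type*} [Finite ι]
variable {Y0 Y1 : Type*} [AddCommGroup Y0] [Module k Y0] [AddCommGroup Y1] [Module k Y1]
variable {Z0 Z1 : ι → Type*}
  [∀ i, AddCommGroup (Z0 i)] [∀ i, Module k (Z0 i)]
  [∀ i, AddCommGroup (Z1 i)] [∀ i, Module k (Z1 i)]
variable {Y : Cx k 𝒰 Y0 Y1} {Yi : ∀ i, Cx k 𝒰 (Z0 i) (Z1 i)}

/-- `ℍ¹` commutes with finite products, for a family of `Cx.Hom`. -/
theorem prod_mapℍ1_bijective (b : ∀ i, Cx.Hom Y (Yi i)) (h𝒰 : IsLevelBasis 𝒰)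
    (h0 : Bijective (fun (y : Y0) (i : ι) => (b i).φ0 y))
    (h1 : Bijective (fun (y : Y1) (i : ι) => (b i).φ1 y)) :
    Bijective (fun (x : Y.ℍ1 h𝒰) (i : ι) => (b i).mapℍ1 h𝒰 x) := by
  have := prod_ℍ1_bijective (fun i => PHom.ofHom (b i)) h𝒰 h0 h1
  convert this using 2 with x
  funext i
  exact (PHom.ppℍ1_ofHom (b i) h𝒰 x).symm

/-- `ℍ²` commutes with finite products, for a family of `Cx.Hom`. -/
theorem prod_mapℍ2_bijective (b : ∀ i, Cx.Hom Y (Yi i)) (h𝒰 : IsLevelBasis 𝒰)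
    (h0 : Bijective (fun (y : Y0) (i : ι) => (b i).φ0 y))
    (h1 : Bijective (fun (y : Y1) (i : ι) => (b i).φ1 y)) :
    Bijective (fun (x : Y.ℍ2 h𝒰) (i : ι) => (b i).mapℍ2 h𝒰 x) := by
  have := prod_ℍ2_bijective (fun i => PHom.ofHom (b i)) h𝒰 h0 h1
  convert this using 2 with x
  funext i
  exact (PHom.ppℍ2_ofHom (b i) h𝒰 x).symm

variable (a : ∀ i, PHom (MonoidHom.id G) Y (Yi i)) (h𝒰 : IsLevelBasis 𝒰)

/-- The linear equivalence `ℍ¹(G; Y) ≃ ∏ ℍ¹(G; Y_i)`. -/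
noncomputable def prodℍ1Equiv
    (h0 : Bijective (fun (y : Y0) (i : ι) => (a i).φ0 y))
    (h1 : Bijective (fun (y : Y1) (i : ι) => (a i).φ1 y)) :
    Y.ℍ1 h𝒰 ≃ₗ[k] (∀ i, (Yi i).ℍ1 h𝒰) :=
  LinearEquiv.ofBijective (LinearMap.pi fun i => (a i).ppℍ1 (isLevelHom_id 𝒰) h𝒰 h𝒰)
    (prod_ℍ1_bijective a h𝒰 h0 h1)

/-- The linear equivalence `ℍ²(G; Y) ≃ ∏ ℍ²(G; Y_i)`. -/
noncomputable def prodℍ2Equiv
    (h0 : Bijective (fun (y : Y0) (i : ι) => (a i).φ0 y))
    (h1 : Bijective (fun (y : Y1) (i : ι) => (a i).φ1 y)) :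
    Y.ℍ2 h𝒰 ≃ₗ[k] (∀ i, (Yi i).ℍ2 h𝒰) :=
  LinearEquiv.ofBijective (LinearMap.pi fun i => (a i).ppℍ2 (isLevelHom_id 𝒰) h𝒰 h𝒰)
    (prod_ℍ2_bijective a h𝒰 h0 h1)

@[simp] lemma prodℍ1Equiv_apply
    (h0 : Bijective (fun (y : Y0) (i : ι) => (a i).φ0 y))
    (h1 : Bijective (fun (y : Y1) (i : ι) => (a i).φ1 y)) (x : Y.ℍ1 h𝒰) (i : ι) :
    prodℍ1Equiv a h𝒰 h0 h1 x i = (a i).ppℍ1 (isLevelHom_id 𝒰) h𝒰 h𝒰 x := rfl

@[simp] lemma prodℍ2Equiv_apply
    (h0 : Bijective (fun (y : Y0) (i : ι) => (a i).φ0 y))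
    (h1 : Bijective (fun (y : Y1) (i : ι) => (a i).φ1 y)) (x : Y.ℍ2 h𝒰) (i : ι) :
    prodℍ2Equiv a h𝒰 h0 h1 x i = (a i).ppℍ2 (isLevelHom_id 𝒰) h𝒰 h𝒰 x := rfl

end HyperVariants

/-! ## Plain level cohomology of a finite product -/

section Plain

variable {k G : Type*} [CommRing k] [Group G] {𝒰 : Set (Subgroup G)}
variable {ι : Type*}
variable {V : Type*} [AddCommGroup V] [Module k V]
variable {Vi : ι → Type*} [∀ i, AddCommGroup (Vi i)] [∀ i, Module k (Vi i)]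
variable (h𝒰 : IsLevelBasis 𝒰) (p : ∀ i, V →ₗ[k] Vi i)

omit [Group G] in
/-- Cochains (any domain): joint injectivity. -/
lemma fun_prod_injective {D : Type*} (hp : Injective (fun (y : V) (i : ι) => p i y))
    {c c' : D → V} (h : ∀ i, ⇑(p i) ∘ c = ⇑(p i) ∘ c') : c = c' := by
  funext g
  apply hp
  funext i
  exact congrFun (h i) g

variable [Finite ι]

/-- Level 1-cochains: joint surjectivity. -/
lemma lev₁_prod_surjective (hp : Bijective (fun (y : V) (i : ι) => p i y))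
    (w : ∀ i, lev₁ k h𝒰 (Vi i)) :
    ∃ c : lev₁ k h𝒰 V, ∀ i, ⇑(p i) ∘ (c : G → V) = (w i : G → Vi i) := by
  let c : G → V := fun g => surjInv hp.2 (fun i => (w i).1 g)
  have hc : ∀ i g, p i (c g) = (w i).1 g := fun i g =>
    congrFun (surjInv_eq hp.2 (fun i => (w i).1 g)) i
  have hlev : IsLevel₁ 𝒰 c := by
    refine isLevel₁_of_forall h𝒰 _ hp.1 c (fun i => ?_)
    have : (fun g => p i (c g)) = (w i).1 := funext (hc i)
    rw [this]
    exact (w i).2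
  exact ⟨⟨c, hlev⟩, fun i => funext (hc i)⟩

/-- Level 2-cochains: joint surjectivity. -/
lemma lev₂_prod_surjective (hp : Bijective (fun (y : V) (i : ι) => p i y))
    (w : ∀ i, lev₂ k h𝒰 (Vi i)) :
    ∃ c : lev₂ k h𝒰 V, ∀ i, ⇑(p i) ∘ (c : G × G → V) = (w i : G × G → Vi i) := by
  let c : G × G → V := fun g => surjInv hp.2 (fun i => (w i).1 g)
  have hc : ∀ i g, p i (c g) = (w i).1 g := fun i g =>
    congrFun (surjInv_eq hp.2 (fun i => (w i).1 g)) i
  have hlev : IsLevel₂ 𝒰 c := by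
    refine isLevel₂_of_forall h𝒰 _ hp.1 c (fun i => ?_)
    have : (fun g => p i (c g)) = (w i).1 := funext (hc i)
    rw [this]
    exact (w i).2
  exact ⟨⟨c, hlev⟩, fun i => funext (hc i)⟩

variable {T : Cpx k V (lev₁ k h𝒰 V) (lev₂ k h𝒰 V) (G × G × G → V)}
  {Ti : ∀ i, Cpx k (Vi i) (lev₁ k h𝒰 (Vi i)) (lev₂ k h𝒰 (Vi i)) (G × G × G → Vi i)}
  (ψ : ∀ i, Cpx.Hom T (Ti i))

/-- General form for level complexes on `V`, `lev₁`, `lev₂`, `G³ → V` (covers `plainCpx` with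
`plainHom` or `plainPHom` over the identity, and `Resolved4.lvl` with `lvlHom`): a family of
morphisms which is "post-composition with `p i`" in every degree, with `V → ∏ V_i` bijective, is
jointly bijective on `H¹`. -/
theorem lev_prod_mapH1_bijective (hp : Bijective (fun (y : V) (i : ι) => p i y))
    (hm0 : ∀ i y, (ψ i).m0 y = p i y)
    (hm1 : ∀ i (c : lev₁ k h𝒰 V), (((ψ i).m1 c : lev₁ k h𝒰 (Vi i)) : G → Vi i) = ⇑(p i) ∘ (c : G → V))
    (hm2 : ∀ i (c : lev₂ k h𝒰 V),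
      (((ψ i).m2 c : lev₂ k h𝒰 (Vi i)) : G × G → Vi i) = ⇑(p i) ∘ (c : G × G → V)) :
    Bijective (fun (x : T.H1) (i : ι) => (ψ i).mapH1 x) := by
  refine cpx_prod_mapH1_bijective ψ ?_ ⟨?_, ?_⟩ ?_
  · intro w
    obtain ⟨y, hy⟩ := hp.2 w
    exact ⟨y, funext fun i => (hm0 i y).trans (congrFun hy i)⟩
  · intro c c' h
    apply Subtype.ext
    refine fun_prod_injective p hp.1 (fun i => ?_)
    rw [← hm1 i c, ← hm1 i c']
    exact congrArg Subtype.val (congrFun h i)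
  · intro w
    obtain ⟨c, hc⟩ := lev₁_prod_surjective h𝒰 p hp w
    exact ⟨c, funext fun i => Subtype.ext ((hm1 i c).trans (hc i))⟩
  · intro c c' h
    apply Subtype.ext
    refine fun_prod_injective p hp.1 (fun i => ?_)
    rw [← hm2 i c, ← hm2 i c']
    exact congrArg Subtype.val (congrFun h i)

/-- General form for level complexes: joint bijectivity on `H²`. -/
theorem lev_prod_mapH2_bijective (hp : Bijective (fun (y : V) (i : ι) => p i y))
    (hm1 : ∀ i (c : lev₁ k h𝒰 V), (((ψ i).m1 c : lev₁ k h𝒰 (Vi i)) : G → Vi i) = ⇑(p i) ∘ (c : G → V))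
    (hm2 : ∀ i (c : lev₂ k h𝒰 V),
      (((ψ i).m2 c : lev₂ k h𝒰 (Vi i)) : G × G → Vi i) = ⇑(p i) ∘ (c : G × G → V))
    (hm3 : ∀ i (c : G × G × G → V), (ψ i).m3 c = ⇑(p i) ∘ c) :
    Bijective (fun (x : T.H2) (i : ι) => (ψ i).mapH2 x) := by
  refine cpx_prod_mapH2_bijective ψ ?_ ⟨?_, ?_⟩ ?_
  · intro w
    obtain ⟨c, hc⟩ := lev₁_prod_surjective h𝒰 p hp w
    exact ⟨c, funext fun i => Subtype.ext ((hm1 i c).trans (hc i))⟩
  · intro c c' h
    apply Subtype.ext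
    refine fun_prod_injective p hp.1 (fun i => ?_)
    rw [← hm2 i c, ← hm2 i c']
    exact congrArg Subtype.val (congrFun h i)
  · intro w
    obtain ⟨c, hc⟩ := lev₂_prod_surjective h𝒰 p hp w
    exact ⟨c, funext fun i => Subtype.ext ((hm2 i c).trans (hc i))⟩
  · intro c c' h
    refine fun_prod_injective p hp.1 (fun i => ?_)
    rw [← hm3 i c, ← hm3 i c']
    exact congrFun h i

variable {ρ : Representation k G V} (hρ : IsDiscrete 𝒰 ρ)
  {ρi : ∀ i, Representation k G (Vi i)} (hρi : ∀ i, IsDiscrete 𝒰 (ρi i))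
  (hpρ : ∀ i g y, p i (ρ g y) = ρi i g (p i y))

/-- Plain level `H¹` commutes with finite products (`plainHom`). -/
theorem prod_Hp1_bijective (hp : Bijective (fun (y : V) (i : ι) => p i y)) :
    Bijective (fun (x : Hp1 h𝒰 ρ hρ) (i : ι) =>
      (plainHom h𝒰 hρ (hρi i) (p i) (hpρ i)).mapH1 x) :=
  lev_prod_mapH1_bijective h𝒰 p (fun i => plainHom h𝒰 hρ (hρi i) (p i) (hpρ i)) hp
    (fun _ _ => rfl) (fun _ _ => rfl) (fun _ _ => rfl)

/-- Plain level `H²` commutes with finite products (`plainHom`). -/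
theorem prod_Hp2_bijective (hp : Bijective (fun (y : V) (i : ι) => p i y)) :
    Bijective (fun (x : Hp2 h𝒰 ρ hρ) (i : ι) =>
      (plainHom h𝒰 hρ (hρi i) (p i) (hpρ i)).mapH2 x) :=
  lev_prod_mapH2_bijective h𝒰 p (fun i => plainHom h𝒰 hρ (hρi i) (p i) (hpρ i)) hp
    (fun _ _ => rfl) (fun _ _ => rfl) (fun _ _ => rfl)

/-- Plain level `H¹` commutes with finite products (`plainPHom` over the identity of `G`). -/
theorem prod_ppHp1_bijective (hp : Bijective (fun (y : V) (i : ι) => p i y)) :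
    Bijective (fun (x : Hp1 h𝒰 ρ hρ) (i : ι) =>
      (plainPHom (isLevelHom_id 𝒰) h𝒰 h𝒰 hρ (hρi i) (p i) (hpρ i)).mapH1 x) :=
  lev_prod_mapH1_bijective h𝒰 p
    (fun i => plainPHom (isLevelHom_id 𝒰) h𝒰 h𝒰 hρ (hρi i) (p i) (hpρ i)) hp
    (fun _ _ => rfl) (fun _ _ => rfl) (fun _ _ => rfl)

/-- Plain level `H²` commutes with finite products (`plainPHom` over the identity of `G`). -/
theorem prod_ppHp2_bijective (hp : Bijective (fun (y : V) (i : ι) => p i y)) :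
    Bijective (fun (x : Hp2 h𝒰 ρ hρ) (i : ι) =>
      (plainPHom (isLevelHom_id 𝒰) h𝒰 h𝒰 hρ (hρi i) (p i) (hpρ i)).mapH2 x) :=
  lev_prod_mapH2_bijective h𝒰 p
    (fun i => plainPHom (isLevelHom_id 𝒰) h𝒰 h𝒰 hρ (hρi i) (p i) (hpρ i)) hp
    (fun _ _ => rfl) (fun _ _ => rfl) (fun _ _ => rfl)

end Plain

end Fermat.Agent.PT.PRO.HyperProd10
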