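/-
Program F (S55, Poitou–Tate), chapter PRO, helper10.

`ProdInst10`: instantiation of "level (hyper)cohomology commutes with finite products"
(`HyperProd10` / helper25's `HyperProd25`, `HyperProdCor25`, `PlainProd25`) for the complexes
`K(P; X) = [Hom(P₀, X) → Hom(P₁, X)]` and a finite product of coefficient modules.

* `compRight_prod_bijective` : `V → ∏ V_i` bijective ⇒ `Hom(F, V) → ∏ Hom(F, V_i)` bijective.
* `prod_ℍ1_of_compRight`, `prod_ℍ2_of_compRight` : MODEL-INDEPENDENT form: any family of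
  `Cx.Hom`'s between complexes on `Hom(F₀, ·) , Hom(F₁, ·)` that is post-composition with `p i`
  in both degrees (`p` jointly bijective, finite index set) is jointly bijective on `ℍ¹`, `ℍ²`.
* `prod_ℍ1_homCx`, `prod_ℍ2_homCx` : for helper29's `HomCx29.homCx` / `homCxMap`;
  `prod_ℍ1_homCx_piRep`, `prod_ℍ2_homCx_piRep` : with `X = HyperProd25.piRep` and the projections.
* `KMap10` : functoriality of helper4's `Resolved4.Resolved.K` in the coefficient module;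
  `prod_ℍ1_K`, `prod_ℍ2_K`, `prod_ℍ1_K_piRep`, `prod_ℍ2_K_piRep` : the same for `Resolved.K`.
* `prod_Hlev1`, `prod_Hlev2` (+ `_piRep` forms, and `Hlev2_eq_zero_of_forall`) : the plain level
  cohomology `Resolved4.Hlev1`, `Hlev2` of a finite product, via `Resolved4.lvlHom`.
-/
import Fermat.Agent.PT.PRO.HyperProd10
import Fermat.Agent.PT.PRO.HyperProd25
import Fermat.Agent.PT.PRO.HomCx29
import Fermat.Agent.PT.PRO.Resolved4

set_option autoImplicit false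

namespace Fermat.Agent.PT.PRO.ProdInst10

open Function Fermat.Agent.PT.PRO.HyperLevel25 Fermat.Agent.PT.PRO.HyperCompare25
  Fermat.Agent.PT.PRO.HyperRes25 Fermat.Agent.PT.PRO.HyperProd10
  Fermat.Agent.PT.PRO.HomCx29 Fermat.Agent.PT.PRO.Resolved4

/-! ## `Hom(F, ·)` commutes with products -/

section Lin

variable {k : Type*} [CommRing k] {ι : Type*}
variable {F V : Type*} [AddCommGroup F] [Module k F] [AddCommGroup V] [Module k V]
variable {Vi : ι → Type*} [∀ i, AddCommGroup (Vi i)] [∀ i, Module k (Vi i)]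

/-- If `V → ∏ V_i` is bijective then so is `Hom(F, V) → ∏ Hom(F, V_i)`. -/
theorem compRight_prod_bijective (p : ∀ i, V →ₗ[k] Vi i)
    (hp : Bijective (fun (y : V) (i : ι) => p i y)) :
    Bijective (fun (f : F →ₗ[k] V) (i : ι) => (p i) ∘ₗ f) := by
  constructor
  · intro f f' h
    apply LinearMap.ext
    intro x
    apply hp.1
    funext i
    exact LinearMap.congr_fun (congrFun h i) x
  · intro w
    let e : V ≃ₗ[k] (∀ i, Vi i) := LinearEquiv.ofBijective (LinearMap.pi p) hp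
    refine ⟨e.symm.toLinearMap ∘ₗ LinearMap.pi w, ?_⟩
    funext i
    apply LinearMap.ext
    intro x
    have h1 : e (e.symm (LinearMap.pi w x)) = LinearMap.pi w x := e.apply_symm_apply _
    exact congrFun h1 i

end Lin

/-! ## Model-independent form -/

section Model

variable {k G : Type*} [CommRing k] [Group G] {𝒰 : Set (Subgroup G)}
variable {ι : Type*} [Finite ι]
variable {F0 F1 V : Type*} [AddCommGroup F0] [Module k F0] [AddCommGroup F1] [Module k F1]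
  [AddCommGroup V] [Module k V]
variable {Vi : ι → Type*} [∀ i, AddCommGroup (Vi i)] [∀ i, Module k (Vi i)]
variable {Y : Cx k 𝒰 (F0 →ₗ[k] V) (F1 →ₗ[k] V)}
  {Yi : ∀ i, Cx k 𝒰 (F0 →ₗ[k] Vi i) (F1 →ₗ[k] Vi i)}
  (b : ∀ i, Cx.Hom Y (Yi i)) (h𝒰 : IsLevelBasis 𝒰) (p : ∀ i, V →ₗ[k] Vi i)

/-- `ℍ¹(K(P; V)) → ∏ ℍ¹(K(P; V_i))` is bijective (any model of `K`). -/
theorem prod_ℍ1_of_compRight (hp : Bijective (fun (y : V) (i : ι) => p i y))
    (h0 : ∀ i (f : F0 →ₗ[k] V), (b i).φ0 f = (p i) ∘ₗ f)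
    (h1 : ∀ i (f : F1 →ₗ[k] V), (b i).φ1 f = (p i) ∘ₗ f) :
    Bijective (fun (x : Y.ℍ1 h𝒰) (i : ι) => (b i).mapℍ1 h𝒰 x) := by
  refine prod_mapℍ1_bijective b h𝒰 ?_ ?_
  · have := compRight_prod_bijective (F := F0) p hp
    convert this using 2 with f
    funext i
    exact h0 i f
  · have := compRight_prod_bijective (F := F1) p hp
    convert this using 2 with f
    funext i
    exact h1 i f

/-- `ℍ²(K(P; V)) → ∏ ℍ²(K(P; V_i))` is bijective (any model of `K`). -/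
theorem prod_ℍ2_of_compRight (hp : Bijective (fun (y : V) (i : ι) => p i y))
    (h0 : ∀ i (f : F0 →ₗ[k] V), (b i).φ0 f = (p i) ∘ₗ f)
    (h1 : ∀ i (f : F1 →ₗ[k] V), (b i).φ1 f = (p i) ∘ₗ f) :
    Bijective (fun (x : Y.ℍ2 h𝒰) (i : ι) => (b i).mapℍ2 h𝒰 x) := by
  refine prod_mapℍ2_bijective b h𝒰 ?_ ?_
  · have := compRight_prod_bijective (F := F0) p hp
    convert this using 2 with f
    funext i
    exact h0 i f
  · have := compRight_prod_bijective (F := F1) p hp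
    convert this using 2 with f
    funext i
    exact h1 i f

end Model

/-! ## `HomCx29.homCx` -/

section HomCx

variable {k G : Type*} [CommRing k] [Group G] {𝒰 : Set (Subgroup G)}
variable {ι : Type*} [Finite ι]
variable {F0 F1 V : Type*} [AddCommGroup F0] [Module k F0] [AddCommGroup F1] [Module k F1]
  [AddCommGroup V] [Module k V]
variable {Vi : ι → Type*} [∀ i, AddCommGroup (Vi i)] [∀ i, Module k (Vi i)]
variable (h𝒰 : IsLevelBasis 𝒰) (ρ0 : Representation k G F0) (ρ1 : Representation k G F1)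
  (j : F1 →ₗ[k] F0) (hj : ∀ g x, j (ρ1 g x) = ρ0 g (j x))
  [Module.Finite k F0] [Module.Finite k F1] (h0 : IsDiscrete 𝒰 ρ0) (h1 : IsDiscrete 𝒰 ρ1)
variable {ρV : Representation k G V} (hV : IsDiscrete 𝒰 ρV)
  {ρVi : ∀ i, Representation k G (Vi i)} (hVi : ∀ i, IsDiscrete 𝒰 (ρVi i))
  (p : ∀ i, V →ₗ[k] Vi i) (hpρ : ∀ i g x, p i (ρV g x) = ρVi i g (p i x))

/-- `ℍ¹` of `homCx` with coefficients in a finite product. -/
theorem prod_ℍ1_homCx (hp : Bijective (fun (y : V) (i : ι) => p i y)) :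
    Bijective (fun (x : (homCx h𝒰 ρ0 ρ1 ρV j hj h0 h1 hV).ℍ1 h𝒰) (i : ι) =>
      (homCxMap h𝒰 ρ0 ρ1 j hj h0 h1 hV (hVi i) (p i) (hpρ i)).mapℍ1 h𝒰 x) :=
  prod_ℍ1_of_compRight (fun i => homCxMap h𝒰 ρ0 ρ1 j hj h0 h1 hV (hVi i) (p i) (hpρ i)) h𝒰 p hp
    (fun _ _ => rfl) (fun _ _ => rfl)

/-- `ℍ²` of `homCx` with coefficients in a finite product. -/
theorem prod_ℍ2_homCx (hp : Bijective (fun (y : V) (i : ι) => p i y)) :
    Bijective (fun (x : (homCx h𝒰 ρ0 ρ1 ρV j hj h0 h1 hV).ℍ2 h𝒰) (i : ι) =>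
      (homCxMap h𝒰 ρ0 ρ1 j hj h0 h1 hV (hVi i) (p i) (hpρ i)).mapℍ2 h𝒰 x) :=
  prod_ℍ2_of_compRight (fun i => homCxMap h𝒰 ρ0 ρ1 j hj h0 h1 hV (hVi i) (p i) (hpρ i)) h𝒰 p hp
    (fun _ _ => rfl) (fun _ _ => rfl)

/-- `ℍ¹(homCx(∏ X_i)) ≅ ∏ ℍ¹(homCx(X_i))` for `HyperProd25.piRep`. -/
theorem prod_ℍ1_homCx_piRep :
    Bijective (fun (x : (homCx h𝒰 ρ0 ρ1 (HyperProd25.piRep ρVi) j hj h0 h1
        (HyperProd25.isDiscrete_piRep h𝒰 hVi)).ℍ1 h𝒰) (i : ι) =>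
      (homCxMap h𝒰 ρ0 ρ1 j hj h0 h1 (HyperProd25.isDiscrete_piRep h𝒰 hVi) (hVi i)
        (LinearMap.proj i) (fun _ _ => rfl)).mapℍ1 h𝒰 x) :=
  prod_ℍ1_homCx h𝒰 ρ0 ρ1 j hj h0 h1 (HyperProd25.isDiscrete_piRep h𝒰 hVi) hVi
    (fun i => LinearMap.proj i) (fun _ _ _ => rfl) bijective_id

/-- `ℍ²(homCx(∏ X_i)) ≅ ∏ ℍ²(homCx(X_i))` for `HyperProd25.piRep`. -/
theorem prod_ℍ2_homCx_piRep :
    Bijective (fun (x : (homCx h𝒰 ρ0 ρ1 (HyperProd25.piRep ρVi) j hj h0 h1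
        (HyperProd25.isDiscrete_piRep h𝒰 hVi)).ℍ2 h𝒰) (i : ι) =>
      (homCxMap h𝒰 ρ0 ρ1 j hj h0 h1 (HyperProd25.isDiscrete_piRep h𝒰 hVi) (hVi i)
        (LinearMap.proj i) (fun _ _ => rfl)).mapℍ2 h𝒰 x) :=
  prod_ℍ2_homCx h𝒰 ρ0 ρ1 j hj h0 h1 (HyperProd25.isDiscrete_piRep h𝒰 hVi) hVi
    (fun i => LinearMap.proj i) (fun _ _ _ => rfl) bijective_id

end HomCx

/-! ## `Resolved4.Resolved.K` -/

section ResolvedK

variable {k G : Type*} [CommRing k] [Group G] {𝒰 : Set (Subgroup G)}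
variable {P1 P0 M : Type*} [AddCommGroup P1] [Module k P1] [AddCommGroup P0] [Module k P0]
  [AddCommGroup M] [Module k M]
variable {C C' : Type*} [AddCommGroup C] [Module k C] [AddCommGroup C'] [Module k C']

/-- Functoriality of `K(P; C)` in the coefficient module `C`: `φ ↦ α ∘ φ`. -/
def KMap10 (P : Resolved k 𝒰 P1 P0 M) [Module.Finite k P0] [Module.Finite k P1]
    (h𝒰 : IsLevelBasis 𝒰) {ρC : Representation k G C} {ρC' : Representation k G C'}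
    (hC : IsDiscrete 𝒰 ρC) (hC' : IsDiscrete 𝒰 ρC') (α : C →ₗ[k] C')
    (hα : ∀ g x, α (ρC g x) = ρC' g (α x)) :
    Cx.Hom (P.K h𝒰 ρC hC) (P.K h𝒰 ρC' hC') where
  φ0 := LinearMap.compRight k α
  φ1 := LinearMap.compRight k α
  comm0 g φ := by
    ext x
    simp only [Resolved.K, LinearMap.compRight_apply, Representation.linHom_apply,
      LinearMap.comp_apply, hα]
  comm1 g φ := by
    ext x
    simp only [Resolved.K, LinearMap.compRight_apply, Representation.linHom_apply,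
      LinearMap.comp_apply, hα]
  commf φ := by
    ext x
    simp only [Resolved.K, LinearMap.compRight_apply, LinearMap.lcomp_apply,
      LinearMap.comp_apply]

@[simp] lemma KMap10_φ0_apply (P : Resolved k 𝒰 P1 P0 M) [Module.Finite k P0]
    [Module.Finite k P1] (h𝒰 : IsLevelBasis 𝒰) {ρC : Representation k G C}
    {ρC' : Representation k G C'} (hC : IsDiscrete 𝒰 ρC) (hC' : IsDiscrete 𝒰 ρC')
    (α : C →ₗ[k] C') (hα : ∀ g x, α (ρC g x) = ρC' g (α x)) (φ : P0 →ₗ[k] C) :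
    (KMap10 P h𝒰 hC hC' α hα).φ0 φ = α ∘ₗ φ := rfl

@[simp] lemma KMap10_φ1_apply (P : Resolved k 𝒰 P1 P0 M) [Module.Finite k P0]
    [Module.Finite k P1] (h𝒰 : IsLevelBasis 𝒰) {ρC : Representation k G C}
    {ρC' : Representation k G C'} (hC : IsDiscrete 𝒰 ρC) (hC' : IsDiscrete 𝒰 ρC')
    (α : C →ₗ[k] C') (hα : ∀ g x, α (ρC g x) = ρC' g (α x)) (φ : P1 →ₗ[k] C) :
    (KMap10 P h𝒰 hC hC' α hα).φ1 φ = α ∘ₗ φ := rfl

variable {ι : Type*} [Finite ι]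
variable {V : Type*} [AddCommGroup V] [Module k V]
variable {Vi : ι → Type*} [∀ i, AddCommGroup (Vi i)] [∀ i, Module k (Vi i)]
variable (P : Resolved k 𝒰 P1 P0 M) [Module.Finite k P0] [Module.Finite k P1]
  (h𝒰 : IsLevelBasis 𝒰)
variable {ρV : Representation k G V} (hV : IsDiscrete 𝒰 ρV)
  {ρVi : ∀ i, Representation k G (Vi i)} (hVi : ∀ i, IsDiscrete 𝒰 (ρVi i))
  (p : ∀ i, V →ₗ[k] Vi i) (hpρ : ∀ i g x, p i (ρV g x) = ρVi i g (p i x))

/-- `ℍ¹(K(P; V)) → ∏ ℍ¹(K(P; V_i))` is bijective when `V → ∏ V_i` is. -/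
theorem prod_ℍ1_K (hp : Bijective (fun (y : V) (i : ι) => p i y)) :
    Bijective (fun (x : (P.K h𝒰 ρV hV).ℍ1 h𝒰) (i : ι) =>
      (KMap10 P h𝒰 hV (hVi i) (p i) (hpρ i)).mapℍ1 h𝒰 x) :=
  prod_ℍ1_of_compRight (fun i => KMap10 P h𝒰 hV (hVi i) (p i) (hpρ i)) h𝒰 p hp
    (fun _ _ => rfl) (fun _ _ => rfl)

/-- `ℍ²(K(P; V)) → ∏ ℍ²(K(P; V_i))` is bijective when `V → ∏ V_i` is. -/
theorem prod_ℍ2_K (hp : Bijective (fun (y : V) (i : ι) => p i y)) :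
    Bijective (fun (x : (P.K h𝒰 ρV hV).ℍ2 h𝒰) (i : ι) =>
      (KMap10 P h𝒰 hV (hVi i) (p i) (hpρ i)).mapℍ2 h𝒰 x) :=
  prod_ℍ2_of_compRight (fun i => KMap10 P h𝒰 hV (hVi i) (p i) (hpρ i)) h𝒰 p hp
    (fun _ _ => rfl) (fun _ _ => rfl)

/-- `ℍ¹(K(P; ∏ X_i)) ≅ ∏ ℍ¹(K(P; X_i))` for `HyperProd25.piRep`. -/
theorem prod_ℍ1_K_piRep :
    Bijective (fun (x : (P.K h𝒰 (HyperProd25.piRep ρVi)
        (HyperProd25.isDiscrete_piRep h𝒰 hVi)).ℍ1 h𝒰) (i : ι) =>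
      (KMap10 P h𝒰 (HyperProd25.isDiscrete_piRep h𝒰 hVi) (hVi i) (LinearMap.proj i)
        (fun _ _ => rfl)).mapℍ1 h𝒰 x) :=
  prod_ℍ1_K P h𝒰 (HyperProd25.isDiscrete_piRep h𝒰 hVi) hVi (fun i => LinearMap.proj i)
    (fun _ _ _ => rfl) bijective_id

/-- `ℍ²(K(P; ∏ X_i)) ≅ ∏ ℍ²(K(P; X_i))` for `HyperProd25.piRep`. -/
theorem prod_ℍ2_K_piRep :
    Bijective (fun (x : (P.K h𝒰 (HyperProd25.piRep ρVi)
        (HyperProd25.isDiscrete_piRep h𝒰 hVi)).ℍ2 h𝒰) (i : ι) =>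
      (KMap10 P h𝒰 (HyperProd25.isDiscrete_piRep h𝒰 hVi) (hVi i) (LinearMap.proj i)
        (fun _ _ => rfl)).mapℍ2 h𝒰 x) :=
  prod_ℍ2_K P h𝒰 (HyperProd25.isDiscrete_piRep h𝒰 hVi) hVi (fun i => LinearMap.proj i)
    (fun _ _ _ => rfl) bijective_id

end ResolvedK

/-! ## Plain level cohomology `Resolved4.Hlev1`, `Hlev2` of a finite product -/

section Hlev

variable {k G : Type*} [CommRing k] [Group G] {𝒰 : Set (Subgroup G)}
variable {ι : Type*} [Finite ι]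
variable {V : Type*} [AddCommGroup V] [Module k V]
variable {Vi : ι → Type*} [∀ i, AddCommGroup (Vi i)] [∀ i, Module k (Vi i)]
variable (h𝒰 : IsLevelBasis 𝒰)
variable {ρV : Representation k G V} (hV : IsDiscrete 𝒰 ρV)
  {ρVi : ∀ i, Representation k G (Vi i)} (hVi : ∀ i, IsDiscrete 𝒰 (ρVi i))
  (p : ∀ i, V →ₗ[k] Vi i) (hpρ : ∀ i g x, p i (ρV g x) = ρVi i g (p i x))

/-- `Hlev1(V) → ∏ Hlev1(V_i)` is bijective when `V → ∏ V_i` is. -/
theorem prod_Hlev1 (hp : Bijective (fun (y : V) (i : ι) => p i y)) :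
    Bijective (fun (x : Hlev1 h𝒰 ρV hV) (i : ι) =>
      (lvlHom h𝒰 hV (hVi i) (p i) (hpρ i)).mapH1 x) :=
  lev_prod_mapH1_bijective h𝒰 p (fun i => lvlHom h𝒰 hV (hVi i) (p i) (hpρ i)) hp
    (fun _ _ => rfl) (fun _ _ => rfl) (fun _ _ => rfl)

/-- `Hlev2(V) → ∏ Hlev2(V_i)` is bijective when `V → ∏ V_i` is. -/
theorem prod_Hlev2 (hp : Bijective (fun (y : V) (i : ι) => p i y)) :
    Bijective (fun (x : Hlev2 h𝒰 ρV hV) (i : ι) =>
      (lvlHom h𝒰 hV (hVi i) (p i) (hpρ i)).mapH2 x) :=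
  lev_prod_mapH2_bijective h𝒰 p (fun i => lvlHom h𝒰 hV (hVi i) (p i) (hpρ i)) hp
    (fun _ _ => rfl) (fun _ _ => rfl) (fun _ _ => rfl)

/-- The shape `hprojB` of `LocalGlobal20.forall_res_eq_zero_iff`: a class in `Hlev2(V)` all of
whose components vanish is zero. -/
theorem Hlev2_eq_zero_of_forall (hp : Bijective (fun (y : V) (i : ι) => p i y))
    (x : Hlev2 h𝒰 ρV hV) (hx : ∀ i, (lvlHom h𝒰 hV (hVi i) (p i) (hpρ i)).mapH2 x = 0) :
    x = 0 := by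
  apply (prod_Hlev2 h𝒰 hV hVi p hpρ hp).1
  funext i
  show (lvlHom h𝒰 hV (hVi i) (p i) (hpρ i)).mapH2 x = (lvlHom h𝒰 hV (hVi i) (p i) (hpρ i)).mapH2 0
  rw [hx i, map_zero]

/-- The same for `Hlev1`. -/
theorem Hlev1_eq_zero_of_forall (hp : Bijective (fun (y : V) (i : ι) => p i y))
    (x : Hlev1 h𝒰 ρV hV) (hx : ∀ i, (lvlHom h𝒰 hV (hVi i) (p i) (hpρ i)).mapH1 x = 0) :
    x = 0 := by
  apply (prod_Hlev1 h𝒰 hV hVi p hpρ hp).1
  funext i
  show (lvlHom h𝒰 hV (hVi i) (p i) (hpρ i)).mapH1 x = (lvlHom h𝒰 hV (hVi i) (p i) (hpρ i)).mapH1 0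
  rw [hx i, map_zero]

/-- `Hlev1(∏ X_i) ≅ ∏ Hlev1(X_i)` for `HyperProd25.piRep`. -/
theorem prod_Hlev1_piRep :
    Bijective (fun (x : Hlev1 h𝒰 (HyperProd25.piRep ρVi)
        (HyperProd25.isDiscrete_piRep h𝒰 hVi)) (i : ι) =>
      (lvlHom h𝒰 (HyperProd25.isDiscrete_piRep h𝒰 hVi) (hVi i) (LinearMap.proj i)
        (fun _ _ => rfl)).mapH1 x) :=
  prod_Hlev1 h𝒰 (HyperProd25.isDiscrete_piRep h𝒰 hVi) hVi (fun i => LinearMap.proj i)
    (fun _ _ _ => rfl) bijective_id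

/-- `Hlev2(∏ X_i) ≅ ∏ Hlev2(X_i)` for `HyperProd25.piRep`. -/
theorem prod_Hlev2_piRep :
    Bijective (fun (x : Hlev2 h𝒰 (HyperProd25.piRep ρVi)
        (HyperProd25.isDiscrete_piRep h𝒰 hVi)) (i : ι) =>
      (lvlHom h𝒰 (HyperProd25.isDiscrete_piRep h𝒰 hVi) (hVi i) (LinearMap.proj i)
        (fun _ _ => rfl)).mapH2 x) :=
  prod_Hlev2 h𝒰 (HyperProd25.isDiscrete_piRep h𝒰 hVi) hVi (fun i => LinearMap.proj i)
    (fun _ _ _ => rfl) bijective_id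

end Hlev

end Fermat.Agent.PT.PRO.ProdInst10
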