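/-
Program F (S55, Poitou–Tate), chapter PRO, helper25.

`StarBlock25`: the (★) block of the final assembly (`AssemblyAnn20`), as ONE conditional theorem on
abstract modules.

Layer A (abstract two-term complexes).  `0 → K_E → K_I → K_C → 0` a termwise short exact sequence
of `HyperLevel25.Cx`'s over `(G, 𝒰)`, `N → K_E⁰` the kernel of a surjective `f_E` (the divisible
case).  Then `Φ : H²(G; N) ≃ ℍ²(G; K_E)` (`HyperCompare25.bijective_incl2`), and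
`bMap := Φ⁻¹ ∘ δ : ℍ¹(K_C) → H²(G; N)` satisfies

* `bMap_eq_zero_iff`   : `bMap e = 0 ↔ ∃ x, ψ_* x = e`                         (hab);
* `exists_bMap_eq_iff` : `(∃ e, bMap e = h) ↔ φ_* (Φ h) = 0` in `ℍ²(K_I)`      (hbc, global half).

Layer B (the local half).  For a family of places `q`: groups `G_q → G`, complexes `K_{I,q}` over
`G` with projections `K_I → K_{I,q}` jointly injective on `ℍ²` (products), morphisms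
`K_{I,q} → K_{E,q}` over `G_q → G` injective on `ℍ²` (hyper-Shapiro ∘ inflation, (S2h)), kernels
`N_q → K_{E,q}⁰` with `H²(G_q; N_q) → ℍ²(G_q; K_{E,q})` injective (local divisible case) and
`ν_q : N → N_q` compatible with all this.  Then

* `mapℍ2_incl2_eq_zero_iff` : `φ_* (Φ h) = 0 ↔ ∀ q, res_q h = 0`;
* `forall_resN_eq_zero_iff` : `(∀ q, res_q h = 0) ↔ ∃ e, bMap e = h`           (hbc).

Layer C: the same for `K_X = P.K` (`Resolved4.Resolved.K`, `X = E, I, C, I_q`) of a resolved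
module `0 → P₁ → P₀ → A → 0` with `P₀, P₁` finite projective, in the vocabulary of `HK20`
(`HK20.coefHom`, `PairingRes1.KPHom`, `PairingRes1.comapResolved`):

* `coefHom_shortExact`, `bK`, `bK_eq_zero_iff` (hab), `forall_res_eq_zero_iff_exists_bK` (hbc),
  and the packaged `exists_b`.
-/
import Mathlib
import Fermat.Agent.PT.PRO.HyperLevel25
import Fermat.Agent.PT.PRO.HyperCompare25
import Fermat.Agent.PT.PRO.HyperRes25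
import Fermat.Agent.PT.PRO.HyperProdCor25
import Fermat.Agent.PT.PRO.HomCx29
import Fermat.Agent.PT.PRO.ProdInst10
import Fermat.Agent.PT.PRO.HK20

set_option autoImplicit false

namespace Fermat.Agent.PT.PRO.StarBlock25

open Function Fermat.Agent.PT.PRO.HyperLevel25 Fermat.Agent.PT.PRO.HyperCompare25
  Fermat.Agent.PT.PRO.HyperRes25

/-! ## Layer A: the global half on abstract two-term complexes -/

section Abstract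

variable {k G : Type*} [CommRing k] [Group G] {𝒰 : Set (Subgroup G)}
variable {E0 E1 I0 I1 C0 C1 N : Type*}
  [AddCommGroup E0] [Module k E0] [AddCommGroup E1] [Module k E1]
  [AddCommGroup I0] [Module k I0] [AddCommGroup I1] [Module k I1]
  [AddCommGroup C0] [Module k C0] [AddCommGroup C1] [Module k C1]
  [AddCommGroup N] [Module k N]
variable {KE : Cx k 𝒰 E0 E1} {KI : Cx k 𝒰 I0 I1} {KC : Cx k 𝒰 C0 C1}
variable {φ : Cx.Hom KE KI} {ψ : Cx.Hom KI KC} (hse : Cx.Hom.ShortExact φ ψ)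
  (h𝒰 : IsLevelBasis 𝒰)
variable {ρN : Representation k G N} (hN : IsDiscrete 𝒰 ρN) (ι0 : N →ₗ[k] E0)
  (hι : ∀ g n, ι0 (ρN g n) = KE.ρ0 g (ι0 n)) (hfι : ∀ n, KE.f (ι0 n) = 0)
  (hinj : Injective ι0) (hker : ∀ b, KE.f b = 0 → ∃ n, ι0 n = b) (hsurj : Surjective KE.f)

/-- `Φ : H²(G; N) ≃ ℍ²(G; K_E)` (the divisible case), as a linear equivalence. -/
noncomputable def Φ : Hp2 h𝒰 ρN hN ≃ₗ[k] KE.ℍ2 h𝒰 :=
  LinearEquiv.ofBijective (incl2 KE h𝒰 hN ι0 hι hfι)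
    (bijective_incl2 KE h𝒰 hN ι0 hι hfι hinj hker hsurj)

@[simp] lemma Φ_apply (h : Hp2 h𝒰 ρN hN) :
    Φ h𝒰 hN ι0 hι hfι hinj hker hsurj h = incl2 KE h𝒰 hN ι0 hι hfι h := rfl

/-- `b := Φ⁻¹ ∘ δ : ℍ¹(G; K_C) → H²(G; N)`. -/
noncomputable def bMap : KC.ℍ1 h𝒰 →ₗ[k] Hp2 h𝒰 ρN hN :=
  (Φ h𝒰 hN ι0 hι hfι hinj hker hsurj).symm.toLinearMap ∘ₗ Cx.Hom.δ hse h𝒰

/-- `Φ (b e) = δ e`. -/
theorem incl2_bMap (e : KC.ℍ1 h𝒰) :
    incl2 KE h𝒰 hN ι0 hι hfι (bMap hse h𝒰 hN ι0 hι hfι hinj hker hsurj e) =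
      Cx.Hom.δ hse h𝒰 e :=
  (Φ h𝒰 hN ι0 hι hfι hinj hker hsurj).apply_symm_apply _

/-- **(hab)**: `b e = 0` iff `e` comes from `ℍ¹(K_I)`. -/
theorem bMap_eq_zero_iff (e : KC.ℍ1 h𝒰) :
    bMap hse h𝒰 hN ι0 hι hfι hinj hker hsurj e = 0 ↔ ∃ x, ψ.mapℍ1 h𝒰 x = e := by
  have h1 : bMap hse h𝒰 hN ι0 hι hfι hinj hker hsurj e = 0 ↔ Cx.Hom.δ hse h𝒰 e = 0 := by
    show (Φ h𝒰 hN ι0 hι hfι hinj hker hsurj).symm (Cx.Hom.δ hse h𝒰 e) = 0 ↔ _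
    exact LinearEquiv.map_eq_zero_iff _
  rw [h1]
  exact Cx.Hom.exact_mapℍ1_δ hse h𝒰 e

/-- **(hbc), global half**: `h` is in the image of `b` iff `Φ h` dies in `ℍ²(K_I)`. -/
theorem exists_bMap_eq_iff (h : Hp2 h𝒰 ρN hN) :
    (∃ e, bMap hse h𝒰 hN ι0 hι hfι hinj hker hsurj e = h) ↔
      φ.mapℍ2 h𝒰 (incl2 KE h𝒰 hN ι0 hι hfι h) = 0 := by
  rw [Cx.Hom.exact_δ_mapℍ2 hse h𝒰 (incl2 KE h𝒰 hN ι0 hι hfι h)]
  constructor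
  · rintro ⟨e, rfl⟩
    exact ⟨e, (incl2_bMap hse h𝒰 hN ι0 hι hfι hinj hker hsurj e).symm⟩
  · rintro ⟨e, he⟩
    refine ⟨e, ?_⟩
    apply (bijective_incl2 KE h𝒰 hN ι0 hι hfι hinj hker hsurj).1
    rw [incl2_bMap, he]

/-! ## Layer B: the local half on abstract two-term complexes -/

section Local

variable {Q : Type*} {Gq : Q → Type*} [∀ q, Group (Gq q)] {𝒰q : ∀ q, Set (Subgroup (Gq q))}
variable {r : ∀ q, Gq q →* G} (hr : ∀ q, IsLevelHom (r q) (𝒰q q) 𝒰)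
  (h𝒰q : ∀ q, IsLevelBasis (𝒰q q))
variable {J0 J1 L0 L1 Nq : Q → Type*}
  [∀ q, AddCommGroup (J0 q)] [∀ q, Module k (J0 q)]
  [∀ q, AddCommGroup (J1 q)] [∀ q, Module k (J1 q)]
  [∀ q, AddCommGroup (L0 q)] [∀ q, Module k (L0 q)]
  [∀ q, AddCommGroup (L1 q)] [∀ q, Module k (L1 q)]
  [∀ q, AddCommGroup (Nq q)] [∀ q, Module k (Nq q)]
variable {KIq : ∀ q, Cx k 𝒰 (J0 q) (J1 q)} {KEq : ∀ q, Cx k (𝒰q q) (L0 q) (L1 q)}
variable (φ) (prj : ∀ q, Cx.Hom KI (KIq q)) (sh : ∀ q, PHom (r q) (KIq q) (KEq q))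
variable {ρNq : ∀ q, Representation k (Gq q) (Nq q)} (hNq : ∀ q, IsDiscrete (𝒰q q) (ρNq q))
  (ι0q : ∀ q, Nq q →ₗ[k] L0 q) (hιq : ∀ q g n, ι0q q (ρNq q g n) = (KEq q).ρ0 g (ι0q q n))
  (hfιq : ∀ q n, (KEq q).f (ι0q q n) = 0)
variable (ν : ∀ q, N →ₗ[k] Nq q) (hν : ∀ q g n, ν q (ρN (r q g) n) = ρNq q g (ν q n))

/-- The composite `K_E → K_I → K_{I,q} → K_{E,q}` as a morphism over `r_q : G_q → G`. -/
def locPHom (q : Q) : PHom (r q) KE (KEq q) where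
  φ0 := (sh q).φ0 ∘ₗ (prj q).φ0 ∘ₗ φ.φ0
  φ1 := (sh q).φ1 ∘ₗ (prj q).φ1 ∘ₗ φ.φ1
  comm0 g y := by
    simp only [LinearMap.comp_apply]
    rw [φ.comm0, (prj q).comm0, (sh q).comm0]
  comm1 g y := by
    simp only [LinearMap.comp_apply]
    rw [φ.comm1, (prj q).comm1, (sh q).comm1]
  commf y := by
    simp only [LinearMap.comp_apply]
    rw [φ.commf, (prj q).commf, (sh q).commf]

lemma locPHom_ppℍ2 (q : Q) (x : KE.ℍ2 h𝒰) :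
    (locPHom φ prj sh q).ppℍ2 (hr q) h𝒰 (h𝒰q q) x =
      (sh q).ppℍ2 (hr q) h𝒰 (h𝒰q q) ((prj q).mapℍ2 h𝒰 (φ.mapℍ2 h𝒰 x)) := by
  obtain ⟨z, rfl⟩ := (KE.tot h𝒰).π2_surjective x
  rfl

lemma locPHom_ppℍ1 (q : Q) (x : KE.ℍ1 h𝒰) :
    (locPHom φ prj sh q).ppℍ1 (hr q) h𝒰 (h𝒰q q) x =
      (sh q).ppℍ1 (hr q) h𝒰 (h𝒰q q) ((prj q).mapℍ1 h𝒰 (φ.mapℍ1 h𝒰 x)) := by
  obtain ⟨z, rfl⟩ := (KE.tot h𝒰).π1_surjective x
  rfl

/-- The localisation `res_q : H²(G; N) → H²(G_q; N_q)`, `[c] ↦ [ν_q ∘ c ∘ (r_q × r_q)]`. -/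
def resN (q : Q) : Hp2 h𝒰 ρN hN →ₗ[k] Hp2 (h𝒰q q) (ρNq q) (hNq q) :=
  (plainPHom (hr q) h𝒰 (h𝒰q q) hN (hNq q) (ν q) (hν q)).mapH2

/-- The localisation in degree one, `res_q : H¹(G; N) → H¹(G_q; N_q)`. -/
def resN1 (q : Q) : Hp1 h𝒰 ρN hN →ₗ[k] Hp1 (h𝒰q q) (ρNq q) (hNq q) :=
  (plainPHom (hr q) h𝒰 (h𝒰q q) hN (hNq q) (ν q) (hν q)).mapH1

include hfιq hιq in
/-- The square `Φ_q ∘ res_q = Λ²_q ∘ (proj_q)_* ∘ φ_* ∘ Φ`. -/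
theorem incl2_resN (hνι : ∀ q n, ι0q q (ν q n) = (sh q).φ0 ((prj q).φ0 (φ.φ0 (ι0 n))))
    (q : Q) (h : Hp2 h𝒰 ρN hN) :
    incl2 (KEq q) (h𝒰q q) (hNq q) (ι0q q) (hιq q) (hfιq q)
        (resN h𝒰 hN hr h𝒰q hNq ν hν q h) =
      (sh q).ppℍ2 (hr q) h𝒰 (h𝒰q q)
        ((prj q).mapℍ2 h𝒰 (φ.mapℍ2 h𝒰 (incl2 KE h𝒰 hN ι0 hι hfι h))) := by
  rw [← locPHom_ppℍ2]
  exact incl2_natural (locPHom φ prj sh q) (hr q) h𝒰 (h𝒰q q) hN ι0 hι hfι (hNq q) (ι0q q)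
    (hιq q) (hfιq q) (ν q) (hν q) (hνι q) h

/-- **The local half of (hbc)**: `Φ h` dies in `ℍ²(K_I)` iff all localisations of `h` vanish. -/
theorem mapℍ2_incl2_eq_zero_iff
    (hprj : ∀ w : KI.ℍ2 h𝒰, (∀ q, (prj q).mapℍ2 h𝒰 w = 0) → w = 0)
    (hsh : ∀ q, Injective ((sh q).ppℍ2 (hr q) h𝒰 (h𝒰q q)))
    (hincl : ∀ q, Injective (incl2 (KEq q) (h𝒰q q) (hNq q) (ι0q q) (hιq q) (hfιq q)))
    (hνι : ∀ q n, ι0q q (ν q n) = (sh q).φ0 ((prj q).φ0 (φ.φ0 (ι0 n))))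
    (h : Hp2 h𝒰 ρN hN) :
    φ.mapℍ2 h𝒰 (incl2 KE h𝒰 hN ι0 hι hfι h) = 0 ↔
      ∀ q, resN h𝒰 hN hr h𝒰q hNq ν hν q h = 0 := by
  constructor
  · intro h0 q
    apply hincl q
    rw [incl2_resN φ h𝒰 hN ι0 hι hfι hr h𝒰q prj sh hNq ι0q hιq hfιq ν hν hνι q h, h0, map_zero,
      map_zero, map_zero]
  · intro h0
    apply hprj
    intro q
    apply hsh q
    rw [← incl2_resN φ h𝒰 hN ι0 hι hfι hr h𝒰q prj sh hNq ι0q hιq hfιq ν hν hνι q h, h0 q,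
      map_zero, map_zero]

/-- **(hbc)**: all localisations of `h ∈ H²(G; N)` vanish iff `h` is in the image of `b`. -/
theorem forall_resN_eq_zero_iff
    (hprj : ∀ w : KI.ℍ2 h𝒰, (∀ q, (prj q).mapℍ2 h𝒰 w = 0) → w = 0)
    (hsh : ∀ q, Injective ((sh q).ppℍ2 (hr q) h𝒰 (h𝒰q q)))
    (hincl : ∀ q, Injective (incl2 (KEq q) (h𝒰q q) (hNq q) (ι0q q) (hιq q) (hfιq q)))
    (hνι : ∀ q n, ι0q q (ν q n) = (sh q).φ0 ((prj q).φ0 (φ.φ0 (ι0 n))))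
    (h : Hp2 h𝒰 ρN hN) :
    (∀ q, resN h𝒰 hN hr h𝒰q hNq ν hν q h = 0) ↔
      ∃ e, bMap hse h𝒰 hN ι0 hι hfι hinj hker hsurj e = h := by
  rw [exists_bMap_eq_iff hse h𝒰 hN ι0 hι hfι hinj hker hsurj h]
  exact (mapℍ2_incl2_eq_zero_iff φ h𝒰 hN ι0 hι hfι hr h𝒰q prj sh hNq ι0q hιq hfιq ν hν hprj hsh
    hincl hνι h).symm

end Local

end Abstract

/-! ## Layer C: the block for `K(P; X)` of a resolved module -/

section ResolvedForm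

open Fermat.Agent.PT.PRO.Resolved4 Fermat.Agent.PT.PRO.HK20 Fermat.Agent.PT.PRO.PairingRes1

variable {k G : Type*} [CommRing k] [Group G] {𝒰 : Set (Subgroup G)}
variable {P1 P0 A E I C N : Type*} [AddCommGroup P1] [Module k P1] [AddCommGroup P0] [Module k P0]
  [AddCommGroup A] [Module k A] [AddCommGroup E] [Module k E] [AddCommGroup I] [Module k I]
  [AddCommGroup C] [Module k C] [AddCommGroup N] [Module k N]
variable (P : Resolved k 𝒰 P1 P0 A) [Module.Finite k P0] [Module.Finite k P1]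
  (h𝒰 : IsLevelBasis 𝒰)
  {ρE : Representation k G E} (hE : IsDiscrete 𝒰 ρE)
  {ρI : Representation k G I} (hI : IsDiscrete 𝒰 ρI)
  {ρC : Representation k G C} (hC : IsDiscrete 𝒰 ρC)
  (d : E →ₗ[k] I) (hd : ∀ g x, d (ρE g x) = ρI g (d x))
  (t : I →ₗ[k] C) (ht : ∀ g x, t (ρI g x) = ρC g (t x))

/-- `0 → E → I → C → 0` exact and `P₀, P₁` projective ⇒ `0 → K(P;E) → K(P;I) → K(P;C) → 0` is
termwise short exact. -/
theorem coefHom_shortExact [Module.Projective k P0] [Module.Projective k P1]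
    (hdinj : Injective d) (htsurj : Surjective t) (hex : Function.Exact d t) :
    Cx.Hom.ShortExact (coefHom P h𝒰 hE hI d hd) (coefHom P h𝒰 hI hC t ht) where
  inj0 := HomCx29.compRight_injective d hdinj
  inj1 := HomCx29.compRight_injective d hdinj
  surj0 := HomCx29.compRight_surjective t htsurj
  surj1 := HomCx29.compRight_surjective t htsurj
  exact0 := HomCx29.compRight_exact d t hdinj hex
  exact1 := HomCx29.compRight_exact d t hdinj hex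

variable [Module.Projective k P0] [Module.Projective k P1]
  (hdinj : Injective d) (htsurj : Surjective t) (hex : Function.Exact d t)
variable {ρN : Representation k G N} (hN : IsDiscrete 𝒰 ρN) (ι0 : N →ₗ[k] (P0 →ₗ[k] E))
  (hι : ∀ g n, ι0 (ρN g n) = (P.K h𝒰 ρE hE).ρ0 g (ι0 n))
  (hfι : ∀ n, (P.K h𝒰 ρE hE).f (ι0 n) = 0)
  (hinj : Injective ι0) (hker : ∀ b, (P.K h𝒰 ρE hE).f b = 0 → ∃ n, ι0 n = b)
  (hsurj : Surjective (P.K h𝒰 ρE hE).f)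

/-- `b := Φ⁻¹ ∘ δ : ℍ¹(K(P; C)) → H²(G; N)` for `0 → E → I → C → 0`, `N = ker f_E`. -/
noncomputable def bK : (P.K h𝒰 ρC hC).ℍ1 h𝒰 →ₗ[k] Hp2 h𝒰 ρN hN :=
  bMap (coefHom_shortExact P h𝒰 hE hI hC d hd t ht hdinj htsurj hex) h𝒰 hN ι0 hι hfι hinj hker
    hsurj

/-- `Φ (b e) = δ e`. -/
theorem incl2_bK (e : (P.K h𝒰 ρC hC).ℍ1 h𝒰) :
    incl2 (P.K h𝒰 ρE hE) h𝒰 hN ι0 hι hfι
        (bK P h𝒰 hE hI hC d hd t ht hdinj htsurj hex hN ι0 hι hfι hinj hker hsurj e) =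
      Cx.Hom.δ (coefHom_shortExact P h𝒰 hE hI hC d hd t ht hdinj htsurj hex) h𝒰 e :=
  incl2_bMap _ h𝒰 hN ι0 hι hfι hinj hker hsurj e

/-- **(hab)** for `K(P; ·)`. -/
theorem bK_eq_zero_iff (e : (P.K h𝒰 ρC hC).ℍ1 h𝒰) :
    bK P h𝒰 hE hI hC d hd t ht hdinj htsurj hex hN ι0 hι hfι hinj hker hsurj e = 0 ↔
      ∃ x, (coefHom P h𝒰 hI hC t ht).mapℍ1 h𝒰 x = e :=
  bMap_eq_zero_iff _ h𝒰 hN ι0 hι hfι hinj hker hsurj e

/-- **(hbc), global half**, for `K(P; ·)`. -/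
theorem exists_bK_eq_iff (h : Hp2 h𝒰 ρN hN) :
    (∃ e, bK P h𝒰 hE hI hC d hd t ht hdinj htsurj hex hN ι0 hι hfι hinj hker hsurj e = h) ↔
      (coefHom P h𝒰 hE hI d hd).mapℍ2 h𝒰 (incl2 (P.K h𝒰 ρE hE) h𝒰 hN ι0 hι hfι h) = 0 :=
  exists_bMap_eq_iff _ h𝒰 hN ι0 hι hfι hinj hker hsurj h

section LocalK

variable {Q : Type*} {Gq : Q → Type*} [∀ q, Group (Gq q)] {𝒰q : ∀ q, Set (Subgroup (Gq q))}
  (h𝒰q : ∀ q, IsLevelBasis (𝒰q q)) {r : ∀ q, Gq q →* G} (hr : ∀ q, IsLevelHom (r q) (𝒰q q) 𝒰)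
variable {Iq W Nq : Q → Type*} [∀ q, AddCommGroup (Iq q)] [∀ q, Module k (Iq q)]
  [∀ q, AddCommGroup (W q)] [∀ q, Module k (W q)]
  [∀ q, AddCommGroup (Nq q)] [∀ q, Module k (Nq q)]
  {ρIq : ∀ q, Representation k G (Iq q)} (hIq : ∀ q, IsDiscrete 𝒰 (ρIq q))
  {ρW : ∀ q, Representation k (Gq q) (W q)} (hW : ∀ q, IsDiscrete (𝒰q q) (ρW q))
  (prj : ∀ q, I →ₗ[k] Iq q) (hprj : ∀ q g x, prj q (ρI g x) = ρIq q g (prj q x))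
  (ev : ∀ q, Iq q →ₗ[k] W q) (hev : ∀ q g x, ev q (ρIq q (r q g) x) = ρW q g (ev q x))
variable {ρNq : ∀ q, Representation k (Gq q) (Nq q)} (hNq : ∀ q, IsDiscrete (𝒰q q) (ρNq q))
  (ι0q : ∀ q, Nq q →ₗ[k] (P0 →ₗ[k] W q))
  (hιq : ∀ q g n, ι0q q (ρNq q g n) =
    ((comapResolved (r q) (hr q) P).K (h𝒰q q) (ρW q) (hW q)).ρ0 g (ι0q q n))
  (hfιq : ∀ q n, ((comapResolved (r q) (hr q) P).K (h𝒰q q) (ρW q) (hW q)).f (ι0q q n) = 0)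
  (ν : ∀ q, N →ₗ[k] Nq q) (hν : ∀ q g n, ν q (ρN (r q g) n) = ρNq q g (ν q n))

omit [Module.Projective k P0] [Module.Projective k P1] in
/-- **(hbc), local half**, for `K(P; ·)`: `Φ h` dies in `ℍ²(K(P; I))` iff all localisations
`res_q h ∈ H²(G_q; N_q)` vanish.  Inputs: (P2h) `ℍ²(K(P; I)) → ∏ ℍ²(K(P; I_q))` injective,
(S2h) `Λ²_q : ℍ²(G; K(P; I_q)) → ℍ²(G_q; K(P; W_q))` injective, the local divisible case
(`H²(G_q; N_q) → ℍ²(G_q; K(P; W_q))` injective), and `κ_q ∘ ν_q = (ev_q ∘ prj_q ∘ d) ∘ κ`. -/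
theorem mapℍ2_incl2_K_eq_zero_iff
    (hP2h : ∀ w : (P.K h𝒰 ρI hI).ℍ2 h𝒰,
      (∀ q, (coefHom P h𝒰 hI (hIq q) (prj q) (hprj q)).mapℍ2 h𝒰 w = 0) → w = 0)
    (hS2h : ∀ q, Injective ((KPHom (hr q) h𝒰 (h𝒰q q) (hIq q) (hW q) P (ev q) (hev q)).ppℍ2
      (hr q) h𝒰 (h𝒰q q)))
    (hincl : ∀ q, Injective (incl2 ((comapResolved (r q) (hr q) P).K (h𝒰q q) (ρW q) (hW q))
      (h𝒰q q) (hNq q) (ι0q q) (hιq q) (hfιq q)))
    (hνι : ∀ q n x, ι0q q (ν q n) x = ev q (prj q (d (ι0 n x))))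
    (h : Hp2 h𝒰 ρN hN) :
    (coefHom P h𝒰 hE hI d hd).mapℍ2 h𝒰 (incl2 (P.K h𝒰 ρE hE) h𝒰 hN ι0 hι hfι h) = 0 ↔
      ∀ q, (plainPHom (hr q) h𝒰 (h𝒰q q) hN (hNq q) (ν q) (hν q)).mapH2 h = 0 :=
  mapℍ2_incl2_eq_zero_iff (coefHom P h𝒰 hE hI d hd) h𝒰 hN ι0 hι hfι hr h𝒰q
    (fun q => coefHom P h𝒰 hI (hIq q) (prj q) (hprj q))
    (fun q => KPHom (hr q) h𝒰 (h𝒰q q) (hIq q) (hW q) P (ev q) (hev q))
    hNq ι0q hιq hfιq ν hν hP2h hS2h hincl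
    (fun q n => LinearMap.ext fun x => hνι q n x) h

/-- **(hbc)** for `K(P; ·)`: all localisations of `h ∈ H²(G; N)` vanish iff `h ∈ im b`. -/
theorem forall_res_eq_zero_iff_exists_bK
    (hP2h : ∀ w : (P.K h𝒰 ρI hI).ℍ2 h𝒰,
      (∀ q, (coefHom P h𝒰 hI (hIq q) (prj q) (hprj q)).mapℍ2 h𝒰 w = 0) → w = 0)
    (hS2h : ∀ q, Injective ((KPHom (hr q) h𝒰 (h𝒰q q) (hIq q) (hW q) P (ev q) (hev q)).ppℍ2
      (hr q) h𝒰 (h𝒰q q)))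
    (hincl : ∀ q, Injective (incl2 ((comapResolved (r q) (hr q) P).K (h𝒰q q) (ρW q) (hW q))
      (h𝒰q q) (hNq q) (ι0q q) (hιq q) (hfιq q)))
    (hνι : ∀ q n x, ι0q q (ν q n) x = ev q (prj q (d (ι0 n x))))
    (h : Hp2 h𝒰 ρN hN) :
    (∀ q, (plainPHom (hr q) h𝒰 (h𝒰q q) hN (hNq q) (ν q) (hν q)).mapH2 h = 0) ↔
      ∃ e, bK P h𝒰 hE hI hC d hd t ht hdinj htsurj hex hN ι0 hι hfι hinj hker hsurj e = h := by
  rw [exists_bK_eq_iff P h𝒰 hE hI hC d hd t ht hdinj htsurj hex hN ι0 hι hfι hinj hker hsurj h]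
  exact (mapℍ2_incl2_K_eq_zero_iff P h𝒰 hE hI d hd hN ι0 hι hfι h𝒰q hr hIq hW prj hprj ev hev
    hNq ι0q hιq hfιq ν hν hP2h hS2h hincl hνι h).symm

omit [Module.Projective k P0] [Module.Projective k P1] in
/-- (P2h) from `I ≅ ∏_q I_q` (finite product). -/
theorem hP2h_of_prod [Finite Q] (hprod : Bijective (fun (x : I) (q : Q) => prj q x))
    (w : (P.K h𝒰 ρI hI).ℍ2 h𝒰)
    (hw : ∀ q, (coefHom P h𝒰 hI (hIq q) (prj q) (hprj q)).mapℍ2 h𝒰 w = 0) : w = 0 := by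
  have hb := ProdInst10.prod_ℍ2_of_compRight
    (fun q => coefHom P h𝒰 hI (hIq q) (prj q) (hprj q)) h𝒰 prj hprod
    (fun _ _ => rfl) (fun _ _ => rfl)
  apply hb.1
  funext q
  exact (hw q).trans (map_zero _).symm

include hE hd hdinj htsurj hex hι hfι hinj hker hsurj hprj in
/-- **The (★) block, packaged**: there is `b : ℍ¹(K(P; C)) → H²(G; N)` with (hab) and (hbc). -/
theorem exists_b [Finite Q] (hprod : Bijective (fun (x : I) (q : Q) => prj q x))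
    (hS2h : ∀ q, Injective ((KPHom (hr q) h𝒰 (h𝒰q q) (hIq q) (hW q) P (ev q) (hev q)).ppℍ2
      (hr q) h𝒰 (h𝒰q q)))
    (hincl : ∀ q, Injective (incl2 ((comapResolved (r q) (hr q) P).K (h𝒰q q) (ρW q) (hW q))
      (h𝒰q q) (hNq q) (ι0q q) (hιq q) (hfιq q)))
    (hνι : ∀ q n x, ι0q q (ν q n) x = ev q (prj q (d (ι0 n x)))) :
    ∃ b : (P.K h𝒰 ρC hC).ℍ1 h𝒰 →ₗ[k] Hp2 h𝒰 ρN hN,
      (∀ e, b e = 0 ↔ ∃ x, (coefHom P h𝒰 hI hC t ht).mapℍ1 h𝒰 x = e) ∧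
      (∀ h, (∀ q, (plainPHom (hr q) h𝒰 (h𝒰q q) hN (hNq q) (ν q) (hν q)).mapH2 h = 0) ↔
        ∃ e, b e = h) :=
  ⟨bK P h𝒰 hE hI hC d hd t ht hdinj htsurj hex hN ι0 hι hfι hinj hker hsurj,
    bK_eq_zero_iff P h𝒰 hE hI hC d hd t ht hdinj htsurj hex hN ι0 hι hfι hinj hker hsurj,
    forall_res_eq_zero_iff_exists_bK P h𝒰 hE hI hC d hd t ht hdinj htsurj hex hN ι0 hι hfι hinj
      hker hsurj h𝒰q hr hIq hW prj hprj ev hev hNq ι0q hιq hfιq ν hν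
      (hP2h_of_prod P h𝒰 hI hIq prj hprj hprod) hS2h hincl hνι⟩

end LocalK

end ResolvedForm

end Fermat.Agent.PT.PRO.StarBlock25
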