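/-
Program F (S55, Poitou–Tate), chapter PRO, helper7: the (★) block `MainWrap20.StarAt`.

* `starAt_of_muData` (`k`-generic, `hk : IntSurj k`): `StarBlock25.exists_b` with the kernel data
  `ι0 := KerIso7.kapRes hk D.j R.π` (global, `D : MuData χ ρE`) and
  `ι0q q := kapRes hk (D' q).j R.π` (local, `D' q : MuData (χ.comp (r q)) (ρW q)`), all hypotheses
  `hι hfι hinj hker hsurj hιq hfιq hincl hνι` discharged from `KerIso7` (`E`, `W q` `p`-divisible,
  `ev_q ∘ prj_q ∘ d ∘ j_E = j_{W_q}`), in the LITERAL shape `MainWrap20.StarAt … (fun h => ∀ q,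
  PairingRes1.resH2 … LinearMap.id … h = 0)`.  Only remaining hypothesis: `(S2h)`
  (`∀ q, MainWrap20.S2hAt …`), plus the short exact sequence `0 → E → I → C → 0` and `I = ∏ I_q`.
* `starAt_S55`: the instantiation at the S55 objects (`k = ℤ`, `G = Γ`, `𝒰 = levelS S`, `Q = ↥S`,
  `G_q = Γ_q`, `E/I/C = ES/IS/CS S`, `I_q = ISq S q`, `W_q = unitsLoc q`, `prj = ProdDict10.ISproj`,
  `ev = LocS2_29.evq`, `R = HpAt29.freeRes (IntRep20.intRep (M.dualTwist (cycloChar p)))`,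
  `N = IntRep20.intRep M`).
-/
import Mathlib
import Fermat.Agent.PT.PRO.KerIsoMain7
import Fermat.Agent.PT.PRO.KerIsoGal7
import Fermat.Agent.PT.PRO.StarBlock25
import Fermat.Agent.PT.PRO.MainWrap20
import Fermat.Agent.PT.PRO.LevelEquiv29
import Fermat.Agent.PT.PRO.ProdDict10
import Fermat.Agent.PT.GLUE.LocS2_29

set_option autoImplicit false
set_option linter.unusedSectionVars false

namespace Fermat.Agent.PT.PRO.StarS55_7

open Function
open Fermat.Agent.PT.PRO.HyperLevel25 Fermat.Agent.PT.PRO.HyperCompare25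
open Fermat.Agent.PT.PRO.HyperRes25 Fermat.Agent.PT.PRO.IndRes20 Fermat.Agent.PT.PRO.Resolved4
open Fermat.Agent.PT.PRO.Setup20 Fermat.Agent.PT.PRO.Objects20 Fermat.Agent.PT.PRO.KerIso7
open Fermat.Agent.PT.PRO.PairingRes1

section Generic

variable {k : Type} [CommRing k] (hk : IntSurj k)
variable {p : ℕ} [Fact p.Prime] {G : Type} [Group G] {𝒰 : Set (Subgroup G)}
variable {M : Type} [AddCommGroup M] [Module (ZMod p) M] [Module k M]
  [FiniteDimensional (ZMod p) M] [Module k (Module.Dual (ZMod p) M)]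
variable {P0 P1 : Type} [AddCommGroup P0] [Module k P0] [AddCommGroup P1] [Module k P1]
  [Module.Finite k P0] [Module.Finite k P1] [Module.Projective k P0] [Module.Projective k P1]
variable {E I C : Type} [AddCommGroup E] [Module k E] [AddCommGroup I] [Module k I]
  [AddCommGroup C] [Module k C]
variable {Q : Type} [Finite Q] {Gq : Q → Type} [∀ q, Group (Gq q)] {𝒰q : ∀ q, Set (Subgroup (Gq q))}
variable {Iq W : Q → Type} [∀ q, AddCommGroup (Iq q)] [∀ q, Module k (Iq q)]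
  [∀ q, AddCommGroup (W q)] [∀ q, Module k (W q)]

variable (R : Res k G P1 P0 (Module.Dual (ZMod p) M)) (h0 : IsDiscrete 𝒰 R.ρ0)
  (h𝒰 : IsLevelBasis 𝒰) (h𝒰q : ∀ q, IsLevelBasis (𝒰q q))
  (r : ∀ q, Gq q →* G) (hr : ∀ q, IsLevelHom (r q) (𝒰q q) 𝒰)
  (ρM : Representation (ZMod p) G M) (hM : IsDiscrete 𝒰 ρM) (χ : G →* (ZMod p)ˣ)
  (hA : ∀ g a, R.ρM g a = (χ g : ZMod p) • (a ∘ₗ ρM g⁻¹))
  {ρE : Representation k G E} (hE : IsDiscrete 𝒰 ρE)
  {ρI : Representation k G I} (hI : IsDiscrete 𝒰 ρI)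
  {ρC : Representation k G C} (hC : IsDiscrete 𝒰 ρC)
  {ρIq : ∀ q, Representation k G (Iq q)} (hIq : ∀ q, IsDiscrete 𝒰 (ρIq q))
  {ρW : ∀ q, Representation k (Gq q) (W q)} (hW : ∀ q, IsDiscrete (𝒰q q) (ρW q))
  (d : E →ₗ[k] I) (hd : ∀ g x, d (ρE g x) = ρI g (d x))
  (t : I →ₗ[k] C) (ht : ∀ g x, t (ρI g x) = ρC g (t x))
  (hdinj : Injective d) (htsurj : Surjective t) (hex : Function.Exact d t)
  (prj : ∀ q, I →ₗ[k] Iq q) (hprj : ∀ q g x, prj q (ρI g x) = ρIq q g (prj q x))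
  (hprod : Bijective (fun (x : I) (q : Q) => prj q x))
  (ev : ∀ q, Iq q →ₗ[k] W q) (hev : ∀ q g x, ev q (ρIq q (r q g) x) = ρW q g (ev q x))
  (D : MuData χ ρE) (D' : ∀ q, MuData (χ.comp (r q)) (ρW q))
  (hDD' : ∀ q a, ev q (prj q (d (D.j a))) = (D' q).j a)
  (hdivE : ∀ x : E, ∃ y : E, (p : k) • y = x)
  (hdivW : ∀ q (x : W q), ∃ y : W q, (p : k) • y = x)

include hA hE hd hprj hdinj htsurj hex hprod hDD' hdivE hdivW in
/-- **The (★) block from `μ_p`-data** (`k`-generic). -/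
theorem starAt_of_muData
    (hS2h : ∀ q, MainWrap20.S2hAt R h0 h𝒰 (h𝒰q q) (r q) (hr q) (hIq q) (hW q) (ev q) (hev q)) :
    MainWrap20.StarAt R h0 h𝒰 hI hC (isDiscrete_intRep hk hM) t ht
      (fun h => ∀ q, resH2 (hr q) h𝒰 (h𝒰q q) (isDiscrete_intRep hk hM)
        (isDiscrete_intRep hk (IsLevelHom.isDiscrete (hr q) hM)) LinearMap.id
        (fun _ _ => rfl) h = 0) := by
  obtain ⟨b, hab, hbc⟩ := StarBlock25.exists_b (toResolved R h0) h𝒰 hE hI hC d hd t ht hdinj htsurj hex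
    (isDiscrete_intRep hk hM) (kapRes hk D.j R.π)
    (kapRes_equivariant hk ρM χ R.ρM hA ρE D.j D.equiv R.ρ0 R.π R.π_comm)
    (lcomp_kapRes hk D.j R.π R.ι (toResolved R h0).π_ι)
    (kapRes_injective hk D.j D.inj R.π R.π_surj)
    (fun b hb => exists_kapRes_eq hk D.j D.inj D.surj R.π R.π_surj R.ι (toResolved R h0).exact b hb)
    (lcomp_surjective_of_div R.ι R.ι_inj R.π (toResolved R h0).exact hdivE)
    h𝒰q hr hIq hW prj hprj ev hev
    (fun q => isDiscrete_intRep hk (IsLevelHom.isDiscrete (hr q) hM))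
    (fun q => kapRes hk (D' q).j R.π)
    (fun q => kapRes_equivariant hk (ρM.comp (r q)) (χ.comp (r q)) (R.comap (r q)).ρM
      (KerIsoMain7.hA_comap R ρM χ hA (r q)) (ρW q) (D' q).j (D' q).equiv (R.comap (r q)).ρ0 R.π
      (R.comap (r q)).π_comm)
    (fun q => lcomp_kapRes hk (D' q).j R.π R.ι (toResolved R h0).π_ι)
    (fun q => LinearMap.id) (fun q g n => rfl) hprod hS2h
    (fun q => (compare2_bijective hk (h𝒰q q)
      (toResolved (R.comap (r q)) (comap_disc0 R h0 (r q) (hr q))) (ρM.comp (r q))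
      (IsLevelHom.isDiscrete (hr q) hM) (χ.comp (r q)) (KerIsoMain7.hA_comap R ρM χ hA (r q))
      (hW q) (D' q) (hdivW q)).1)
    (fun q n x => by
      rw [LinearMap.id_apply, kapRes_apply, kapRes_apply, hDD'])
  exact ⟨b.toAddMonoidHom, hab, hbc⟩

end Generic

/-! ### The instantiation at the S55 objects -/

section S55

open ExtCitation
open Fermat.Agent.PT.GLUE.Objects21 Fermat.Agent.PT.GLUE.LocS2_29 Fermat.Agent.PT.PRO.ProdDict10
open Fermat.Agent.PT.PRO.KerIsoGal7 Fermat.Agent.PT.PRO.LevelEquiv29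

local notation "Qbar" => AlgebraicClosure ℚ
local notation "Γ" => (AlgebraicClosure ℚ ≃ₐ[ℚ] AlgebraicClosure ℚ)

variable (p : ℕ) [Fact p.Prime] (S : Finset Nat.Primes) (hpS : pPrime p ∈ S)
  (M : Rep.{0} (ZMod p) Γ) [FiniteDimensional (ZMod p) M]

/-- `ev_q ∘ prj_q ∘ diag ∘ j_{E_S} = j_{ℚ̄_q}`. -/
theorem evq_ISproj_diag_muES (q : ↥S) (a : ZMod p) :
    evq S ((q : Nat.Primes) : ℕ) (ISproj S q (diag S ((muES p S hpS).j a))) =
      (muLoc p ((q : Nat.Primes) : ℕ)).j a := by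
  rw [ISproj_diag]
  exact (Fermat.Agent.PT.GLUE.SmCoind21.ev_lift _ _ _ (isDiscrete_ES S) (locE S ((q : Nat.Primes) : ℕ))
    (locE_ρ S ((q : Nat.Primes) : ℕ)) _).trans (locE_muES p ((q : Nat.Primes) : ℕ) S hpS a)

/-- `0 → E_S → I_S → C_S → 0` is exact in the middle. -/
theorem exact_diag_toCS : Function.Exact (diag S) (toCS S) := fun x => toCS_eq_zero_iff S x

variable [Finite (M.dualTwist (cycloChar p))]

include hpS in
/-- **The (★) block at the S55 objects**, from `(S2h)` alone. -/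
theorem starAt_S55
    (h0 : IsDiscrete (levelS S).sets
      (HpAt29.freeRes (IntRep20.intRep (M.dualTwist (cycloChar p)))).ρ0)
    (hM : IsDiscrete (levelS S).sets (IntRep20.intRep M))
    (hS2h : ∀ q : ↥S, MainWrap20.S2hAt
      (HpAt29.freeRes (IntRep20.intRep (M.dualTwist (cycloChar p)))) h0 (basis (levelS S))
      (basis (levelLoc ((q : Nat.Primes) : ℕ))) (localGaloisToGlobal ((q : Nat.Primes) : ℕ))
      (isLevelHom_loc S ((q : Nat.Primes) : ℕ)) (isDiscrete_ISq' S q)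
      (isDiscrete_unitsLoc ((q : Nat.Primes) : ℕ)) (evq S ((q : Nat.Primes) : ℕ))
      (evq_ρ S ((q : Nat.Primes) : ℕ))) :
    MainWrap20.StarAt (HpAt29.freeRes (IntRep20.intRep (M.dualTwist (cycloChar p)))) h0
      (basis (levelS S)) (isDiscrete_IS' S) (isDiscrete_CS S) hM (toCS S) (toCS_ρ S)
      (fun h => ∀ q : ↥S, resH2 (isLevelHom_loc S ((q : Nat.Primes) : ℕ)) (basis (levelS S))
        (basis (levelLoc ((q : Nat.Primes) : ℕ))) hM
        (IsLevelHom.isDiscrete (isLevelHom_loc S ((q : Nat.Primes) : ℕ)) hM) LinearMap.id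
        (fun _ _ => rfl) h = 0) :=
  starAt_of_muData intSurj_int
    (HpAt29.freeRes (IntRep20.intRep (M.dualTwist (cycloChar p)))) h0 (basis (levelS S))
    (fun q : ↥S => basis (levelLoc ((q : Nat.Primes) : ℕ)))
    (fun q : ↥S => localGaloisToGlobal ((q : Nat.Primes) : ℕ))
    (fun q : ↥S => isLevelHom_loc S ((q : Nat.Primes) : ℕ))
    M.ρ hM (cycloChar p) (KerIsoMain7.hA_freeRes M (cycloChar p))
    (isDiscrete_ES S) (isDiscrete_IS' S) (isDiscrete_CS S) (isDiscrete_ISq' S)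
    (fun q : ↥S => isDiscrete_unitsLoc ((q : Nat.Primes) : ℕ))
    (diag S) (diag_ρ S) (toCS S) (toCS_ρ S)
    (Fermat.Agent.PT.GLUE.Objects21.diag_injective S ⟨pPrime p, hpS⟩) (toCS_surjective S) (exact_diag_toCS S)
    (ISproj S) (ISproj_ρ S) (ISproj_bijective S)
    (fun q : ↥S => evq S ((q : Nat.Primes) : ℕ)) (fun q : ↥S => evq_ρ S ((q : Nat.Primes) : ℕ))
    (muES p S hpS) (fun q : ↥S => muLoc p ((q : Nat.Primes) : ℕ))
    (evq_ISproj_diag_muES p S hpS)
    (Fermat.Agent.PT.GLUE.ESDivisible27.exists_zsmul_eq (Fact.out) hpS)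
    (fun q : ↥S => exists_zsmul_eq_unitsLoc p ((q : Nat.Primes) : ℕ))
    hS2h

end S55

end Fermat.Agent.PT.PRO.StarS55_7
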