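/-
Program F (S55, Poitou–Tate), chapter PRO, helper29.

`Transport29`: the LAST step of `Main20`.  `MainGeneric20.card_sha2_eq_card_sha1` produces, in the
`ℤ`-linear level model `Resolved4.Hlev1 / Hlev2` (bases `levelS S`, `levelLoc q` of
`GLUE/Objects21`), the finiteness and equality of cardinalities of the locally trivial classes in
`H²_lev(Γ; M)` and `H¹_lev(Γ; A)`.  Here this is transported to the `ZMod p`-linear statement

  `finrank ker (ShaBridge13.locH1 S A) = finrank ker (ShaBridge13.locH2 S M)` (+ finite-dim.),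

i.e. the hypothesis of `ShaBridge13.s55_of_level`, through `LevelEquiv29.h_iIntEquiv`
(`LevelCoh28.H_i ≃+ Hlev_i (intRep ·)`), `LevelEquiv29.ppH_i_eq_zero_iff`, `BasisCompare13`
(`globalBasis S = levelS S`, `pullBasis (primeLocalToGlobal q) = levelLoc q`) and
`AssemblyAnn20.finrank_eq_of_card_eq`.
-/
import Mathlib
import Fermat.Agent.PT.PRO.LevelEquiv29
import Fermat.Agent.PT.PRO.PairingRes1
import Fermat.Agent.PT.PRO.AssemblyAnn20
import Fermat.Agent.PT.BR.ShaBridge13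
import Fermat.Agent.PT.GLUE.BasisCompare13

set_option autoImplicit false

namespace Fermat.Agent.PT.PRO.Transport29

open Function
open Fermat.Agent.PT.PRO Fermat.Agent.PT.PRO.HyperLevel25 Fermat.Agent.PT.PRO.Resolved4
open Fermat.Agent.PT.PRO.IntRep20 Fermat.Agent.PT.PRO.LevelEquiv29

/-! ### Abstract counting -/

section Abstract

variable {p : ℕ} [Fact p.Prime]
variable {H1 H2 Q1 Q2 : Type*} [AddCommGroup H1] [Module (ZMod p) H1] [AddCommGroup H2]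
  [Module (ZMod p) H2] [AddCommMonoid Q1] [Module (ZMod p) Q1] [AddCommMonoid Q2]
  [Module (ZMod p) Q2]

/-- If the kernels of two `𝔽_p`-linear maps are in bijection with two finite sets of the same
cardinality, they are finite-dimensional of the same dimension. -/
theorem finrank_ker_eq_of_card (loc1 : H1 →ₗ[ZMod p] Q1) (loc2 : H2 →ₗ[ZMod p] Q2)
    {H1' H2' : Type*} (e1 : H1 ≃ H1') (e2 : H2 ≃ H2') (P1 : H1' → Prop) (P2 : H2' → Prop)
    (h1 : ∀ h, loc1 h = 0 ↔ P1 (e1 h)) (h2 : ∀ x, loc2 x = 0 ↔ P2 (e2 x))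
    (hfin1 : Finite {h // P1 h}) (hfin2 : Finite {x // P2 x})
    (hcard : Nat.card {x // P2 x} = Nat.card {h // P1 h}) :
    ∃ (_ : FiniteDimensional (ZMod p) ↥(LinearMap.ker loc1))
      (_ : FiniteDimensional (ZMod p) ↥(LinearMap.ker loc2)),
      Module.finrank (ZMod p) ↥(LinearMap.ker loc1) =
        Module.finrank (ZMod p) ↥(LinearMap.ker loc2) := by
  let E1 : ↥(LinearMap.ker loc1) ≃ {h // P1 h} :=
    e1.subtypeEquiv (fun h => by rw [LinearMap.mem_ker]; exact h1 h)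
  let E2 : ↥(LinearMap.ker loc2) ≃ {x // P2 x} :=
    e2.subtypeEquiv (fun x => by rw [LinearMap.mem_ker]; exact h2 x)
  have : Finite ↥(LinearMap.ker loc1) := Finite.of_equiv _ E1.symm
  have : Finite ↥(LinearMap.ker loc2) := Finite.of_equiv _ E2.symm
  refine ⟨Module.Finite.of_finite, Module.Finite.of_finite, ?_⟩
  apply AssemblyAnn20.finrank_eq_of_card_eq p
  rw [Nat.card_congr E1, Nat.card_congr E2, hcard]

end Abstract

/-! ### Generic bases -/

section Generic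

variable {p : ℕ} [Fact p.Prime] {G : Type} [Group G] {ι : Type} {Gq : ι → Type}
  [∀ q, Group (Gq q)]
variable (r : ∀ q, Gq q →* G) (𝓑 : LevelCoh28.LevelBasis G)
  (𝓑q : ∀ q, LevelCoh28.LevelBasis (Gq q))
variable (hf : ∀ q, LevelCohRes28.IsLevelHom (r q) (𝓑q q).sets 𝓑.sets)

/-- Total localisation in degree 1 for arbitrary level bases. -/
noncomputable def loc1 (A : Rep.{0} (ZMod p) G) :
    LevelCoh28.H1 𝓑 A →ₗ[ZMod p] ∀ q, LevelCoh28.H1 (𝓑q q) (Rep.res (r q) A) :=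
  LinearMap.pi fun q => LevelCohRes28.ppH1 (𝓑G := 𝓑q q) (𝓑H := 𝓑) (r q)
    (LinearMap.id : A →ₗ[ZMod p] Rep.res (r q) A) (fun _ _ => rfl) (hf q)

/-- Total localisation in degree 2 for arbitrary level bases. -/
noncomputable def loc2 (M : Rep.{0} (ZMod p) G) :
    LevelCoh28.H2 𝓑 M →ₗ[ZMod p] ∀ q, LevelCoh28.H2 (𝓑q q) (Rep.res (r q) M) :=
  LinearMap.pi fun q => LevelCohRes28.ppH2 (𝓑G := 𝓑q q) (𝓑H := 𝓑) (r q)
    (LinearMap.id : M →ₗ[ZMod p] Rep.res (r q) M) (fun _ _ => rfl) (hf q)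

/-- The conclusion, for arbitrary level bases. -/
def Concl (A M : Rep.{0} (ZMod p) G) : Prop :=
  ∃ (_ : FiniteDimensional (ZMod p) ↥(LinearMap.ker (loc1 r 𝓑 𝓑q hf A)))
    (_ : FiniteDimensional (ZMod p) ↥(LinearMap.ker (loc2 r 𝓑 𝓑q hf M))),
    Module.finrank (ZMod p) ↥(LinearMap.ker (loc1 r 𝓑 𝓑q hf A)) =
      Module.finrank (ZMod p) ↥(LinearMap.ker (loc2 r 𝓑 𝓑q hf M))

/-- The conclusion only depends on the bases up to equality. -/
theorem Concl.congr {𝓑 𝓑' : LevelCoh28.LevelBasis G} (e : 𝓑 = 𝓑')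
    {𝓑q 𝓑q' : ∀ q, LevelCoh28.LevelBasis (Gq q)} (eq : 𝓑q = 𝓑q')
    (hf : ∀ q, LevelCohRes28.IsLevelHom (r q) (𝓑q q).sets 𝓑.sets)
    (hf' : ∀ q, LevelCohRes28.IsLevelHom (r q) (𝓑q' q).sets 𝓑'.sets)
    (A M : Rep.{0} (ZMod p) G) (h : Concl r 𝓑 𝓑q hf A M) : Concl r 𝓑' 𝓑q' hf' A M := by
  subst e
  subst eq
  exact h

theorem loc1_eq_zero_iff (A : Rep.{0} (ZMod p) G) (x : LevelCoh28.H1 𝓑 A) :
    loc1 r 𝓑 𝓑q hf A x = 0 ↔ ∀ q, LevelCohRes28.ppH1 (𝓑G := 𝓑q q) (𝓑H := 𝓑) (r q)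
      (A := A) (B := Rep.res (r q) A) (LinearMap.id : A →ₗ[ZMod p] Rep.res (r q) A)
      (fun _ _ => rfl) (hf q) x = 0 :=
  ⟨fun h q => congrFun h q, fun h => funext h⟩

theorem loc2_eq_zero_iff (M : Rep.{0} (ZMod p) G) (x : LevelCoh28.H2 𝓑 M) :
    loc2 r 𝓑 𝓑q hf M x = 0 ↔ ∀ q, LevelCohRes28.ppH2 (𝓑G := 𝓑q q) (𝓑H := 𝓑) (r q)
      (A := M) (B := Rep.res (r q) M) (LinearMap.id : M →ₗ[ZMod p] Rep.res (r q) M)
      (fun _ _ => rfl) (hf q) x = 0 :=
  ⟨fun h q => congrFun h q, fun h => funext h⟩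

/-- **Transport, generic bases.** -/
theorem concl_of_card (A M : Rep.{0} (ZMod p) G)
    (h𝒰 : IsLevelBasis 𝓑.sets) (h𝒰q : ∀ q, IsLevelBasis (𝓑q q).sets)
    (hr : ∀ q, HyperRes25.IsLevelHom (r q) (𝓑q q).sets 𝓑.sets)
    (hA : IsDiscrete 𝓑.sets (intRep A))
    (hAq : ∀ q, IsDiscrete (𝓑q q).sets ((intRep A).comp (r q)))
    (hM : IsDiscrete 𝓑.sets (intRep M))
    (hMq : ∀ q, IsDiscrete (𝓑q q).sets ((intRep M).comp (r q)))
    (hfin1 : Finite {h : Hlev1 h𝒰 (intRep A) hA // ∀ q, PairingRes1.resH1 (hr q) h𝒰 (h𝒰q q) hA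
      (hAq q) LinearMap.id (fun _ _ => rfl) h = 0})
    (hfin2 : Finite {h : Hlev2 h𝒰 (intRep M) hM // ∀ q, PairingRes1.resH2 (hr q) h𝒰 (h𝒰q q) hM
      (hMq q) LinearMap.id (fun _ _ => rfl) h = 0})
    (hcard : Nat.card {h : Hlev2 h𝒰 (intRep M) hM // ∀ q, PairingRes1.resH2 (hr q) h𝒰 (h𝒰q q)
        hM (hMq q) LinearMap.id (fun _ _ => rfl) h = 0} =
      Nat.card {h : Hlev1 h𝒰 (intRep A) hA // ∀ q, PairingRes1.resH1 (hr q) h𝒰 (h𝒰q q) hA
        (hAq q) LinearMap.id (fun _ _ => rfl) h = 0}) :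
    Concl r 𝓑 𝓑q hf A M := by
  have h1 : ∀ x : LevelCoh28.H1 𝓑 A, loc1 r 𝓑 𝓑q hf A x = 0 ↔
      ∀ q, PairingRes1.resH1 (hr q) h𝒰 (h𝒰q q) hA (hAq q) LinearMap.id (fun _ _ => rfl)
        ((h1IntEquiv 𝓑 A hA).toEquiv x) = 0 := by
    intro x
    rw [loc1_eq_zero_iff]
    refine forall_congr' fun q => ?_
    exact ppH1_eq_zero_iff (r q) (B := Rep.res (r q) A) hA (hAq q) LinearMap.id
      (fun _ _ => rfl) (hf q) LinearMap.id (fun _ _ => rfl) (fun _ => rfl) x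
  have h2 : ∀ x : LevelCoh28.H2 𝓑 M, loc2 r 𝓑 𝓑q hf M x = 0 ↔
      ∀ q, PairingRes1.resH2 (hr q) h𝒰 (h𝒰q q) hM (hMq q) LinearMap.id (fun _ _ => rfl)
        ((h2IntEquiv 𝓑 M hM).toEquiv x) = 0 := by
    intro x
    rw [loc2_eq_zero_iff]
    refine forall_congr' fun q => ?_
    exact ppH2_eq_zero_iff (r q) (B := Rep.res (r q) M) hM (hMq q) LinearMap.id
      (fun _ _ => rfl) (hf q) LinearMap.id (fun _ _ => rfl) (fun _ => rfl) x
  exact finrank_ker_eq_of_card (H1 := LevelCoh28.H1 𝓑 A) (H2 := LevelCoh28.H2 𝓑 M)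
    (Q1 := ∀ q, LevelCoh28.H1 (𝓑q q) (Rep.res (r q) A))
    (Q2 := ∀ q, LevelCoh28.H2 (𝓑q q) (Rep.res (r q) M))
    (loc1 r 𝓑 𝓑q hf A) (loc2 r 𝓑 𝓑q hf M)
    (h1IntEquiv 𝓑 A hA).toEquiv (h2IntEquiv 𝓑 M hM).toEquiv
    (fun h : Hlev1 h𝒰 (intRep A) hA => ∀ q, PairingRes1.resH1 (hr q) h𝒰 (h𝒰q q) hA (hAq q)
      LinearMap.id (fun _ _ => rfl) h = 0)
    (fun h : Hlev2 h𝒰 (intRep M) hM => ∀ q, PairingRes1.resH2 (hr q) h𝒰 (h𝒰q q) hM (hMq q)
      LinearMap.id (fun _ _ => rfl) h = 0) h1 h2 hfin1 hfin2 hcard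

end Generic

/-! ### The arithmetic case: `ShaBridge13.locH1 / locH2` -/

section Arith

open Fermat.Agent.PT.BR Fermat.Agent.PT.BR.LevelBridge13 Fermat.Agent.PT.GLUE
open Fermat.Agent.PT.GLUE.Objects21 ExtCitation

local notation "Γ" => (AlgebraicClosure ℚ ≃ₐ[ℚ] AlgebraicClosure ℚ)

variable {p : ℕ} [Fact p.Prime] (S : Finset Nat.Primes)

/-- `ShaBridge13.locH1` is the generic `loc1` for the bases of `LevelBridge13`. -/
theorem locH1_eq (A : Rep.{0} (ZMod p) Γ) :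
    ShaBridge13.locH1 S A =
      loc1 (fun q : ↥S => primeLocalToGlobal q.1) (globalBasis S)
        (fun q : ↥S => pullBasis (primeLocalToGlobal q.1))
        (fun q : ↥S => ShaBridge13.isLevelHom_pull S (primeLocalToGlobal q.1)) A := rfl

/-- `ShaBridge13.locH2` is the generic `loc2` for the bases of `LevelBridge13`. -/
theorem locH2_eq (M : Rep.{0} (ZMod p) Γ) :
    ShaBridge13.locH2 S M =
      loc2 (fun q : ↥S => primeLocalToGlobal q.1) (globalBasis S)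
        (fun q : ↥S => pullBasis (primeLocalToGlobal q.1))
        (fun q : ↥S => ShaBridge13.isLevelHom_pull S (primeLocalToGlobal q.1)) M := rfl

/-- **Last step of `Main20`** (helper20's spec): from the count of `MainGeneric20` at
`𝒰 = (levelS S).sets`, `𝒰q q = (levelLoc q).sets`, `r q = localGaloisToGlobal q`, to the hypothesis
of `ShaBridge13.s55_of_level`. -/
theorem finrank_eq_of_card (M A : Rep.{0} (ZMod p) Γ)
    (h𝒰 : IsLevelBasis (levelS S).sets)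
    (h𝒰q : ∀ q : ↥S, IsLevelBasis (levelLoc ((q : Nat.Primes) : ℕ)).sets)
    (hr : ∀ q : ↥S, HyperRes25.IsLevelHom (localGaloisToGlobal ((q : Nat.Primes) : ℕ))
      (levelLoc ((q : Nat.Primes) : ℕ)).sets (levelS S).sets)
    (hA : IsDiscrete (levelS S).sets (intRep A))
    (hAq : ∀ q : ↥S, IsDiscrete (levelLoc ((q : Nat.Primes) : ℕ)).sets
      ((intRep A).comp (localGaloisToGlobal ((q : Nat.Primes) : ℕ))))
    (hM : IsDiscrete (levelS S).sets (intRep M))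
    (hMq : ∀ q : ↥S, IsDiscrete (levelLoc ((q : Nat.Primes) : ℕ)).sets
      ((intRep M).comp (localGaloisToGlobal ((q : Nat.Primes) : ℕ))))
    [Finite (Hlev1 h𝒰 (intRep A) hA)]
    (hfin : Finite {h : Hlev2 h𝒰 (intRep M) hM // ∀ q, PairingRes1.resH2 (hr q) h𝒰 (h𝒰q q) hM
      (hMq q) LinearMap.id (fun _ _ => rfl) h = 0})
    (hcard : Nat.card {h : Hlev2 h𝒰 (intRep M) hM // ∀ q, PairingRes1.resH2 (hr q) h𝒰 (h𝒰q q)
        hM (hMq q) LinearMap.id (fun _ _ => rfl) h = 0} =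
      Nat.card {h : Hlev1 h𝒰 (intRep A) hA // ∀ q, PairingRes1.resH1 (hr q) h𝒰 (h𝒰q q) hA
        (hAq q) LinearMap.id (fun _ _ => rfl) h = 0}) :
    ∃ (_ : FiniteDimensional (ZMod p) ↥(LinearMap.ker (ShaBridge13.locH1 S A)))
      (_ : FiniteDimensional (ZMod p) ↥(LinearMap.ker (ShaBridge13.locH2 S M))),
      Module.finrank (ZMod p) ↥(LinearMap.ker (ShaBridge13.locH1 S A)) =
        Module.finrank (ZMod p) ↥(LinearMap.ker (ShaBridge13.locH2 S M)) := by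
  have key : Concl (p := p) (fun q : ↥S => primeLocalToGlobal q.1) (levelS S)
      (fun q : ↥S => (levelLoc ((q : Nat.Primes) : ℕ) :
        LevelCoh28.LevelBasis (primeLocalGaloisGroup q.1)))
      (fun q => isLevelHom_iff.2 (hr q)) A M :=
    concl_of_card (fun q : ↥S => primeLocalToGlobal q.1) (levelS S)
      (fun q : ↥S => (levelLoc ((q : Nat.Primes) : ℕ) :
        LevelCoh28.LevelBasis (primeLocalGaloisGroup q.1)))
      (fun q => isLevelHom_iff.2 (hr q)) A M h𝒰 h𝒰q hr hA hAq hM hMq inferInstance hfin hcard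
  have e1 : levelS S = globalBasis S := (BasisCompare13.globalBasis_eq S).symm
  have e2 : (fun q : ↥S => (levelLoc ((q : Nat.Primes) : ℕ) :
      LevelCoh28.LevelBasis (primeLocalGaloisGroup q.1))) =
      fun q : ↥S => pullBasis (primeLocalToGlobal q.1) :=
    funext fun q => (BasisCompare13.pullBasis_prime_eq q.1).symm
  exact Concl.congr (fun q : ↥S => primeLocalToGlobal q.1) e1 e2 _
    (fun q : ↥S => ShaBridge13.isLevelHom_pull S (primeLocalToGlobal q.1)) A M key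

end Arith

end Fermat.Agent.PT.PRO.Transport29
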