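/-
Program F (S55, Poitou–Tate), chapter PRO — final assembly (helper4, program integrator).

`MainFinal4.main`: the hypothesis of `ShaBridge13.s55_of_level`
(`ker (locH1 S A)`, `ker (locH2 S M)` finite-dimensional of the same dimension, `A = M^∨(1)`),
from the verbatim hypotheses of S55 and ONLY three remaining inputs:

* `hL1  : InterfaceCF23.LocalInjectivity p S`                       (GLOB (L1));
* `hS1  : (S1)`  and  `hS2h : (S2h)` in `MainWrap20.S1At / S2hAt` shape (hyper-Shapiro half).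

Everything else is plugged in here:
`MainWrap20.card_sha2_eq_card_sha1` (helper20) at the S55 objects of `GLUE/Objects21`,
`Transport29.finrank_eq_of_card` (helper29), the duality package `InvFund18.alphaPackage_of_isFundClass`
(helper18) on `GlobalHypP8.trivFam` (helper8) from `FundLevel2.fundFixed_CS` (helper2, (G1)) and
`GexNormFinal15.gexNormLevel` (helper15, (GEX)) with `FundClassExists6.fundClassExists` (helper6, (GCF')),
`ProdDict10.Hlev2_IS_eq_zero_of_forall` (helper10, (P2)), `LocS2_29.resH2_injective` (helper29, (S2)),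
`LocalGlobalInst27.hLG_inclq` (helper27, (LG)), `LocalHypR11.pair11_right_kernel_local` (helper11, (RK)),
`StarS55_7.starAt_S55` (helper7/helper25, (★)), `FinH1S55_9` (helper9, finiteness + discreteness).
-/
import Fermat.Statements.S55
import Fermat.Agent.PT.BR.ShaBridge13
import Fermat.Agent.PT.PRO.MainWrap20
import Fermat.Agent.PT.PRO.Transport29
import Fermat.Agent.PT.PRO.FinH1S55_9
import Fermat.Agent.PT.PRO.ProdDict10
import Fermat.Agent.PT.PRO.GlobalHypP8
import Fermat.Agent.PT.PRO.InvFund18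
import Fermat.Agent.PT.PRO.StarS55_7
import Fermat.Agent.PT.GLUE.LocS2_29
import Fermat.Agent.PT.GLUE.LocalHypR11
import Fermat.Agent.PT.GLUE.LocalGlobalInst27
import Fermat.Agent.PT.GLUE.FundLevel2
import Fermat.Agent.PT.GLUE.GexNormFinal15
import Fermat.Agent.PT.GLOB.FundClassExists6
import Fermat.Agent.PT.GLOB.LocalInj14

set_option autoImplicit false
open CategoryTheory Module groupCohomology ExtCitation
open Fermat.Agent.PT Fermat.Agent.PT.PRO Fermat.Agent.PT.GLUE Fermat.Agent.PT.GLUE.Objects21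
open Fermat.Agent.PT.PRO.HyperLevel25 Fermat.Agent.PT.PRO.Resolved4
open Fermat.Agent.PT.PRO.HyperRes25 Fermat.Agent.PT.PRO.PairingRes1
open Fermat.Agent.PT.PRO.IntRep20 Fermat.Agent.PT.PRO.LevelEquiv29
open Fermat.Agent.PT.PRO.ProdDict10 Fermat.Agent.PT.GLUE.LocS2_29
open Fermat.Agent.PT.GLUE.LevelTheta21
open Fermat.Agent.PT.PRO.IndRes20 Fermat.Agent.PT.PRO.Setup20 Fermat.Agent.PT.PRO.Objects20

namespace Fermat.Agent.PT.PRO.MainFinal4

local notation "Γ" => (AlgebraicClosure ℚ ≃ₐ[ℚ] AlgebraicClosure ℚ)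

variable {p : ℕ} [Fact p.Prime]

theorem main (hp2 : p ≠ 2) (S : Finset Nat.Primes) (hpS : pPrime p ∈ S)
    (M : Rep.{0} (ZMod p) Γ) [FiniteDimensional (ZMod p) M]
    (hsm : ∀ m : M, ∃ F : IntermediateField ℚ (AlgebraicClosure ℚ), FiniteDimensional ℚ F ∧
      ∀ s ∈ F.fixingSubgroup, M.ρ s m = m)
    (hMur : ∀ q : Nat.Primes, q ∉ S → ∀ A : ValuationSubring (AlgebraicClosure ℚ),
      A.LiesOverPrime (q : ℕ) → ∀ g ∈ A.inertiaSubgroupIn ℚ, M.ρ g = 1)
    (A : Rep.{0} (ZMod p) Γ) (hAM : A = M.dualTwist (cycloChar p)) [Finite A]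
    (hL1 : GLOB.InterfaceCF23.LocalInjectivity p S)
    (hS1 : ∀ (h0 : IsDiscrete (levelS S).sets (HpAt29.freeRes (IntRep20.intRep A)).ρ0) (q : ↥S),
      MainWrap20.S1At
      (HpAt29.freeRes (IntRep20.intRep A)) h0 (basis (levelS S))
      (basis (levelLoc ((q : Nat.Primes) : ℕ))) (localGaloisToGlobal ((q : Nat.Primes) : ℕ))
      (isLevelHom_loc S ((q : Nat.Primes) : ℕ)) (isDiscrete_ISq' S q)
      (isDiscrete_unitsLoc ((q : Nat.Primes) : ℕ)) (evq S ((q : Nat.Primes) : ℕ))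
      (evq_ρ S ((q : Nat.Primes) : ℕ)))
    (hS2h : ∀ (h0 : IsDiscrete (levelS S).sets (HpAt29.freeRes (IntRep20.intRep A)).ρ0) (q : ↥S),
      MainWrap20.S2hAt
      (HpAt29.freeRes (IntRep20.intRep A)) h0 (basis (levelS S))
      (basis (levelLoc ((q : Nat.Primes) : ℕ))) (localGaloisToGlobal ((q : Nat.Primes) : ℕ))
      (isLevelHom_loc S ((q : Nat.Primes) : ℕ)) (isDiscrete_ISq' S q)
      (isDiscrete_unitsLoc ((q : Nat.Primes) : ℕ)) (evq S ((q : Nat.Primes) : ℕ))
      (evq_ρ S ((q : Nat.Primes) : ℕ))) :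
    ∃ (_ : FiniteDimensional (ZMod p) ↥(LinearMap.ker (BR.ShaBridge13.locH1 S A)))
      (_ : FiniteDimensional (ZMod p) ↥(LinearMap.ker (BR.ShaBridge13.locH2 S M))),
      Module.finrank (ZMod p) ↥(LinearMap.ker (BR.ShaBridge13.locH1 S A)) =
        Module.finrank (ZMod p) ↥(LinearMap.ker (BR.ShaBridge13.locH2 S M)) := by
  classical
  subst hAM
  have hp : p.Prime := Fact.out
  have hpS' : ∃ q ∈ S, (q : ℕ) = p := ⟨pPrime p, hpS, rfl⟩
  -- global inputs
  have hGCF := GLOB.FundClassExists6.fundClassExists p S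
  have hfund := GLUE.FundLevel2.fundFixed_CS p hp2 hpS hGCF
  have hgex := GLUE.GexNormFinal15.gexNormLevel (S := S) hp hp2 hpS
  -- objects
  have hA : IsDiscrete (levelS S).sets (intRep (M.dualTwist (cycloChar p))) :=
    FinH1S55_9.isDiscrete_intRep_dualTwist S hpS M hsm hMur
  have hM : IsDiscrete (levelS S).sets (intRep M) :=
    FinH1S55_9.isDiscrete_intRep_self S hpS M hsm hMur
  have h0 : IsDiscrete (levelS S).sets
      (HpAt29.freeRes (IntRep20.intRep (M.dualTwist (cycloChar p)))).ρ0 :=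
    FreeRes29.isDiscrete_freeRep (basis (levelS S)) hA
  have hpA : ∀ m : (M.dualTwist (cycloChar p)), p • m = 0 := fun m => by
    rw [← Nat.cast_smul_eq_nsmul (ZMod p), ZMod.natCast_self, zero_smul]
  have hFin1 : Finite (Hlev1 (basis (levelS S)) (intRep (M.dualTwist (cycloChar p))) hA) :=
    FinH1S55_9.finite_Hlev1_dualTwist S hpS M hsm hMur (basis (levelS S)) hA
  have : Finite (Hlev1 (basis (levelS S))
      (HpAt29.freeRes (IntRep20.intRep (M.dualTwist (cycloChar p)))).ρM hA) := hFin1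
  -- duality package
  have hdual : InvFund18.AlphaPackage
      (HpAt29.freeRes (IntRep20.intRep (M.dualTwist (cycloChar p)))) h0 (basis (levelS S))
      (CS S).ρ (isDiscrete_CS S) p hpA :=
    InvFund18.alphaPackage_of_isFundClass _ (CS S).ρ (basis (levelS S)) h0 hpA (isDiscrete_CS S)
      (GlobalHypP8.trivFam_sub _ _) (GlobalHypP8.trivFam_normal _ _)
      (GlobalHypP8.trivFam_cofinal _ (basis (levelS S)) h0) (GlobalHypP8.trivFam_triv0 _ _)
      hfund (GlobalHypP8.gexNorm_trivFam _ hgex)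
  -- the count
  obtain ⟨hfin, hcard⟩ := MainWrap20.card_sha2_eq_card_sha1
    (HpAt29.freeRes (IntRep20.intRep (M.dualTwist (cycloChar p)))) h0 (basis (levelS S))
    (fun q : ↥S => basis (levelLoc ((q : Nat.Primes) : ℕ)))
    (fun q : ↥S => localGaloisToGlobal ((q : Nat.Primes) : ℕ))
    (fun q : ↥S => isLevelHom_loc S ((q : Nat.Primes) : ℕ))
    hA (fun q : ↥S => IsLevelHom.isDiscrete (isLevelHom_loc S ((q : Nat.Primes) : ℕ)) hA)
    (isDiscrete_IS' S) (isDiscrete_CS S) hM (isDiscrete_ISq' S)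
    (fun q : ↥S => isDiscrete_unitsLoc ((q : Nat.Primes) : ℕ))
    (fun q : ↥S => IsLevelHom.isDiscrete (isLevelHom_loc S ((q : Nat.Primes) : ℕ)) hM)
    (toCS S) (toCS_ρ S) (inclq S) (inclq_ρ S) (ISproj S) (ISproj_ρ S)
    (fun q : ↥S => evq S ((q : Nat.Primes) : ℕ)) (fun q : ↥S => evq_ρ S ((q : Nat.Primes) : ℕ))
    (fun _ : ↥S => LinearMap.id) (fun _ _ _ => rfl) p hpA hdual
    (Hlev2_IS_eq_zero_of_forall S)
    (hS1 h0)
    (fun q : ↥S => LocS2_29.resH2_injective S ((q : Nat.Primes) : ℕ))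
    (GLUE.LocalGlobalInst27.hLG_inclq S p hp hp2 hpS' hL1 (basis (levelS S)) (isDiscrete_ISq' S)
      (isDiscrete_IS' S) (isDiscrete_CS S))
    (fun q : ↥S => fun x hx =>
      GLUE.LocalHypR11.pair11_right_kernel_local ((q : Nat.Primes) : ℕ) _ p hpA x hx)
    (StarS55_7.starAt_S55 p S hpS M h0 hM (hS2h h0))
  exact Transport29.finrank_eq_of_card S M (M.dualTwist (cycloChar p)) (basis (levelS S))
    (fun q : ↥S => basis (levelLoc ((q : Nat.Primes) : ℕ)))
    (fun q : ↥S => isLevelHom_loc S ((q : Nat.Primes) : ℕ))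
    hA (fun q : ↥S => IsLevelHom.isDiscrete (isLevelHom_loc S ((q : Nat.Primes) : ℕ)) hA)
    hM (fun q : ↥S => IsLevelHom.isDiscrete (isLevelHom_loc S ((q : Nat.Primes) : ℕ)) hM)
    hfin hcard

/-- **S55 from the three remaining inputs** (`(L1)`, `(S1)`, `(S2h)`), in the literal shape of the
frozen statement. -/
theorem s55_of_inputs (hp2 : p ≠ 2) (S : Finset Nat.Primes) (hpS : pPrime p ∈ S)
    (M : Rep.{0} (ZMod p) Γ) [FiniteDimensional (ZMod p) M]
    (hsm : ∀ m : M, ∃ F : IntermediateField ℚ (AlgebraicClosure ℚ), FiniteDimensional ℚ F ∧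
      ∀ s ∈ F.fixingSubgroup, M.ρ s m = m)
    (hMur : ∀ q : Nat.Primes, q ∉ S → ∀ A : ValuationSubring (AlgebraicClosure ℚ),
      A.LiesOverPrime (q : ℕ) → ∀ g ∈ A.inertiaSubgroupIn ℚ, M.ρ g = 1)
    (hL1 : GLOB.InterfaceCF23.LocalInjectivity p S)
    (hS1 : ∀ (A : Rep.{0} (ZMod p) Γ) [Finite A]
      (h0 : IsDiscrete (levelS S).sets (HpAt29.freeRes (IntRep20.intRep A)).ρ0) (q : ↥S),
      MainWrap20.S1At
      (HpAt29.freeRes (IntRep20.intRep A)) h0 (basis (levelS S))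
      (basis (levelLoc ((q : Nat.Primes) : ℕ))) (localGaloisToGlobal ((q : Nat.Primes) : ℕ))
      (isLevelHom_loc S ((q : Nat.Primes) : ℕ)) (isDiscrete_ISq' S q)
      (isDiscrete_unitsLoc ((q : Nat.Primes) : ℕ)) (evq S ((q : Nat.Primes) : ℕ))
      (evq_ρ S ((q : Nat.Primes) : ℕ)))
    (hS2h : ∀ (A : Rep.{0} (ZMod p) Γ) [Finite A]
      (h0 : IsDiscrete (levelS S).sets (HpAt29.freeRes (IntRep20.intRep A)).ρ0) (q : ↥S),
      MainWrap20.S2hAt
      (HpAt29.freeRes (IntRep20.intRep A)) h0 (basis (levelS S))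
      (basis (levelLoc ((q : Nat.Primes) : ℕ))) (localGaloisToGlobal ((q : Nat.Primes) : ℕ))
      (isLevelHom_loc S ((q : Nat.Primes) : ℕ)) (isDiscrete_ISq' S q)
      (isDiscrete_unitsLoc ((q : Nat.Primes) : ℕ)) (evq S ((q : Nat.Primes) : ℕ))
      (evq_ρ S ((q : Nat.Primes) : ℕ))) :
    ∃ B : sha₁ S (M.dualTwist (cycloChar p)) →ₗ[ZMod p] sha₂ S M →ₗ[ZMod p] ZMod p,
      (∀ y, (∀ x, B y x = 0) → y = 0) ∧ (∀ x, (∀ y, B y x = 0) → x = 0) := by
  have : FiniteDimensional (ZMod p) (M.dualTwist (cycloChar p)) :=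
    inferInstanceAs (FiniteDimensional (ZMod p) (Module.Dual (ZMod p) M))
  have : Finite (M.dualTwist (cycloChar p)) := Module.finite_of_finite (ZMod p)
  obtain ⟨_, _, h⟩ := main hp2 S hpS M hsm hMur (M.dualTwist (cycloChar p)) rfl hL1
    (hS1 (M.dualTwist (cycloChar p))) (hS2h (M.dualTwist (cycloChar p)))
  exact BR.ShaBridge13.s55_of_level hp2 S M _ rfl h

end Fermat.Agent.PT.PRO.MainFinal4
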