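/-
Program F (S55, Poitou–Tate), chapter PRO, helper10.

`AlphaS55_10`: the GLOBAL DUALITY PACKAGE for the canonical resolution of a finite
`𝔽_p[G]`-module, in the shapes consumed by `MainWrap20.card_sha2_eq_card_sha1`
(= `MainGeneric20.card_sha2_eq_card_sha1` with wrapped hypotheses).

For `A : Rep (ZMod p) G` finite and discrete, `R := resOf A = HpAt29.freeRes (IntRep20.intRep A)`
(`0 → Rel ℤ A → ℤ[A] → A → 0`), a level basis `𝒰`, a discrete `ℤ[G]`-module `C`: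

  `hfund : GlobalHypP8.FundOn ρC 𝒰 p`       (fundamental classes at `p` on all `(G ⧸ V, C^V)`)
  `hgex  : GlobalHypP8.GexNormLevel ρC 𝒰 p`  ((GEXnorm) on the normal levels)

give
* `alphaPackage`  : `InvFund18.AlphaPackage R h0 h𝒰 ρC hC p hpA`  (the `hdual` of `MainWrap20`);
* `exists_inv`    : `∃ τ : pTor p (Hlev2 h𝒰 ρC hC) →+ ZMod p, Injective τ`;
* `lkAt`, `rkAt`  : `MainWrap20.LKAt / RKAt R h0 h𝒰 ρC hC`, i.e. `hL`, `hR` of
  `MainGeneric20.card_sha2_eq_card_sha1` for `P := Setup20.toResolved R h0`.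
Then the specialisation to `Γ = Gal(ℚ̄/ℚ)`, `𝒰 = (levelS S).sets`, `C = C_S` (`Objects21.CS S`).
-/
import Mathlib
import Fermat.Agent.PT.PRO.MainWrap20
import Fermat.Agent.PT.PRO.GlobalHypP8
import Fermat.Agent.PT.PRO.HpAt29
import Fermat.Agent.PT.PRO.IntRep20
import Fermat.Agent.PT.PRO.LevelEquiv29
import Fermat.Agent.PT.GLUE.Objects21

set_option autoImplicit false

namespace Fermat.Agent.PT.PRO.AlphaS55_10

open Function
open Fermat.Agent.PT.PRO.HyperLevel25 Fermat.Agent.PT.PRO.Resolved4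
open Fermat.Agent.PT.PRO.IndRes20 Fermat.Agent.PT.PRO.Setup20 Fermat.Agent.PT.PRO.Objects20
open Fermat.Agent.PT.PRO.InvP4

/-! ## Generic group -/

section Generic

variable {p : ℕ} [Fact p.Prime] {G : Type} [Group G] {𝒰 : Set (Subgroup G)}
  (A : Rep.{0} (ZMod p) G)

/-- The canonical resolution `0 → Rel ℤ A → ℤ[A] → A → 0` of (the underlying `ℤ[G]`-module of)
a `𝔽_p[G]`-module.  (NO type ascription on purpose: the `Module ℤ` instances on `Rel ℤ A`,
`A →₀ ℤ` must be the structural ones of `HpAt29.freeRes`, not `AddCommGroup.toIntModule`.) -/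
noncomputable abbrev resOf := HpAt29.freeRes (IntRep20.intRep A)

/-- `ℤ[A]` is discrete if `A` is. -/
theorem disc0 (h𝒰 : IsLevelBasis 𝒰) (hA : LevelCoh28.IsDiscrete 𝒰 A) :
    IsDiscrete 𝒰 (resOf A).ρ0 :=
  FreeRes29.isDiscrete_freeRep h𝒰 ((IntRep20.isDiscrete_intRep_iff 𝒰 A).2 hA)

/-- `p` kills a `𝔽_p`-module. -/
theorem nsmul_eq_zero (m : A) : p • m = 0 := by
  rw [← Nat.cast_smul_eq_nsmul (ZMod p) p m, ZMod.natCast_self, zero_smul]

variable [Finite A] {C : Type} [AddCommGroup C] [Module ℤ C] (ρC : Representation ℤ G C)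

/-- **The global duality package** from fundamental classes at the finite levels and (GEXnorm):
the hypothesis `hdual` of `MainWrap20.card_sha2_eq_card_sha1`. -/
theorem alphaPackage (h𝒰 : IsLevelBasis 𝒰) (hA : LevelCoh28.IsDiscrete 𝒰 A)
    (hC : IsDiscrete 𝒰 ρC) (hfund : GlobalHypP8.FundOn ρC 𝒰 p)
    (hgex : GlobalHypP8.GexNormLevel ρC 𝒰 p) :
    InvFund18.AlphaPackage (resOf A) (disc0 A h𝒰 hA) h𝒰 ρC hC p (nsmul_eq_zero A) :=
  InvFund18.alphaPackage_of_hypP (resOf A) (disc0 A h𝒰 hA) h𝒰 ρC hC p (nsmul_eq_zero A)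
    (GlobalHypP8.hypPDatum_level (resOf A) ρC h𝒰 (nsmul_eq_zero A) hC (disc0 A h𝒰 hA) hfund hgex)
    (InvFund18.exists_inv_of_isFundClass ρC h𝒰 hC hfund)

/-- The invariant `τ : H²_lev(G; C)[p] ↪ ℤ/p`. -/
theorem exists_inv (h𝒰 : IsLevelBasis 𝒰) (hC : IsDiscrete 𝒰 ρC)
    (hfund : GlobalHypP8.FundOn ρC 𝒰 p) :
    ∃ τ : pTor p (Hlev2 h𝒰 ρC hC) →+ ZMod p, Injective τ :=
  InvFund18.exists_inv_of_isFundClass ρC h𝒰 hC hfund

/-- `hL` of `MainGeneric20.card_sha2_eq_card_sha1` (wrapped): trivial left kernel of `pair11`. -/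
theorem lkAt (h𝒰 : IsLevelBasis 𝒰) (hA : LevelCoh28.IsDiscrete 𝒰 A)
    (hC : IsDiscrete 𝒰 ρC) (hfund : GlobalHypP8.FundOn ρC 𝒰 p)
    (hgex : GlobalHypP8.GexNormLevel ρC 𝒰 p) :
    MainWrap20.LKAt (resOf A) (disc0 A h𝒰 hA) h𝒰 ρC hC :=
  MainWrap20.lkAt_of_alphaPackage (alphaPackage A ρC h𝒰 hA hC hfund hgex)

/-- `hR` of `MainGeneric20.card_sha2_eq_card_sha1` (wrapped): trivial right kernel of `pair11`. -/
theorem rkAt (h𝒰 : IsLevelBasis 𝒰) (hA : LevelCoh28.IsDiscrete 𝒰 A)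
    (hC : IsDiscrete 𝒰 ρC) (hfund : GlobalHypP8.FundOn ρC 𝒰 p)
    (hgex : GlobalHypP8.GexNormLevel ρC 𝒰 p) :
    MainWrap20.RKAt (resOf A) (disc0 A h𝒰 hA) h𝒰 ρC hC :=
  MainWrap20.rkAt_of_alphaPackage (alphaPackage A ρC h𝒰 hA hC hfund hgex)

end Generic

/-! ## `Γ = Gal(ℚ̄/ℚ)`, the levels of `G_S`, and `C_S` -/

section S55

open Fermat.Agent.PT.GLUE.Objects21

local notation "Γ" => (AlgebraicClosure ℚ ≃ₐ[ℚ] AlgebraicClosure ℚ)

variable {p : ℕ} [Fact p.Prime] (S : Finset Nat.Primes) (A : Rep.{0} (ZMod p) Γ) [Finite A]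

/-- `C_S` is discrete, in `HyperLevel25` vocabulary. -/
theorem isDiscrete_CS' : IsDiscrete (levelS S).sets (CS S).ρ := isDiscrete_CS S

/-- **The global duality package for `K(P; C_S)`**, `P` the canonical resolution of `A`: the
hypothesis `hdual` of `MainWrap20.card_sha2_eq_card_sha1` for the S55 datum, from (G1)
(`hfund`, e.g. `FundLevel2.fundFixed_CS`) and (GEX) (`hgex`, e.g. `GexNorm15.gexNormLevel`). -/
theorem alphaPackage_CS (hA : LevelCoh28.IsDiscrete (levelS S).sets A)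
    (hfund : GlobalHypP8.FundOn (CS S).ρ (levelS S).sets p)
    (hgex : GlobalHypP8.GexNormLevel (CS S).ρ (levelS S).sets p) :
    InvFund18.AlphaPackage (resOf A) (disc0 A (LevelEquiv29.basis (levelS S)) hA)
      (LevelEquiv29.basis (levelS S)) (CS S).ρ (isDiscrete_CS' S) p (nsmul_eq_zero A) :=
  alphaPackage A (CS S).ρ (LevelEquiv29.basis (levelS S)) hA (isDiscrete_CS' S) hfund hgex

/-- The invariant `τ : H²_lev(Γ, levelS S; C_S)[p] ↪ ℤ/p`. -/
theorem exists_inv_CS (hfund : GlobalHypP8.FundOn (CS S).ρ (levelS S).sets p) :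
    ∃ τ : pTor p (Hlev2 (LevelEquiv29.basis (levelS S)) (CS S).ρ (isDiscrete_CS' S)) →+ ZMod p,
      Injective τ :=
  exists_inv (CS S).ρ (LevelEquiv29.basis (levelS S)) (isDiscrete_CS' S) hfund

/-- `hL` for the S55 datum (wrapped form `MainWrap20.LKAt`). -/
theorem lkAt_CS (hA : LevelCoh28.IsDiscrete (levelS S).sets A)
    (hfund : GlobalHypP8.FundOn (CS S).ρ (levelS S).sets p)
    (hgex : GlobalHypP8.GexNormLevel (CS S).ρ (levelS S).sets p) :
    MainWrap20.LKAt (resOf A) (disc0 A (LevelEquiv29.basis (levelS S)) hA)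
      (LevelEquiv29.basis (levelS S)) (CS S).ρ (isDiscrete_CS' S) :=
  lkAt A (CS S).ρ (LevelEquiv29.basis (levelS S)) hA (isDiscrete_CS' S) hfund hgex

/-- `hR` for the S55 datum (wrapped form `MainWrap20.RKAt`). -/
theorem rkAt_CS (hA : LevelCoh28.IsDiscrete (levelS S).sets A)
    (hfund : GlobalHypP8.FundOn (CS S).ρ (levelS S).sets p)
    (hgex : GlobalHypP8.GexNormLevel (CS S).ρ (levelS S).sets p) :
    MainWrap20.RKAt (resOf A) (disc0 A (LevelEquiv29.basis (levelS S)) hA)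
      (LevelEquiv29.basis (levelS S)) (CS S).ρ (isDiscrete_CS' S) :=
  rkAt A (CS S).ρ (LevelEquiv29.basis (levelS S)) hA (isDiscrete_CS' S) hfund hgex

omit [Fact p.Prime] in
/-- The literal (unfolded) shape of the hypothesis `hfund` delivered by
`FundLevel2.fundFixed_CS` is `GlobalHypP8.FundOn`. -/
theorem fundOn_of_forall
    (h : ∀ V ∈ (levelS S).sets, ∀ hn : V.Normal, haveI := hn;
      ∃ u : groupCohomology.H2 (FundRaw18.fixedObj V (CS S).ρ),
        Fermat.Agent.PT.FG.Interface8.IsFundClass p (FundRaw18.fixedObj V (CS S).ρ) u) :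
    GlobalHypP8.FundOn (CS S).ρ (levelS S).sets p := h

end S55

end Fermat.Agent.PT.PRO.AlphaS55_10
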