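/-
Program F (S55, Poitou–Tate), chapter PRO: the final assembly, abstractly.

* `finrank_ker_eq_of_duality`: from the exact sequence `(★)  P1 -a→ E1 -b→ H2 -c→ P2`, the global
  duality `α : E1 ≃ Dual H1`, the local duality `λ : P1 ≃ Dual Q1` and the compatibility
  `α ∘ a = loc^T ∘ λ` one gets `dim ker c = dim ker loc`, i.e. `dim Ш²(A^D) = dim Ш¹(A)`.
* `bijective_of_devissage`: Milne, ADT I.1.8(b): the dévissage that upgrades `α¹` from coinduced
  modules to all finite modules, as an abstract statement about two families of 5-term exact rows.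
-/
import Mathlib

set_option autoImplicit false

namespace Fermat.Agent.PT.PRO.Assembly25

open Module

section Final

variable {k : Type*} [Field k]
  {P1 E1 H2 P2 H1 Q1 : Type*}
  [AddCommGroup P1] [Module k P1] [AddCommGroup E1] [Module k E1]
  [AddCommGroup H2] [Module k H2] [AddCommGroup P2] [Module k P2]
  [AddCommGroup H1] [Module k H1] [AddCommGroup Q1] [Module k Q1]

/-- The image of `a` corresponds under the dualities to the image of the transpose of `loc`. -/
theorem map_range_eq_range_dualMap (a : P1 →ₗ[k] E1) (loc : H1 →ₗ[k] Q1)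
    (α : E1 →ₗ[k] Dual k H1) (lam : P1 →ₗ[k] Dual k Q1) (hlam : Function.Surjective lam)
    (hcomp : ∀ x, α (a x) = (lam x).comp loc) :
    (LinearMap.range a).map α = LinearMap.range loc.dualMap := by
  ext φ
  constructor
  · rintro ⟨_, ⟨x, rfl⟩, rfl⟩
    exact ⟨lam x, (hcomp x).symm⟩
  · rintro ⟨ψ, rfl⟩
    obtain ⟨x, rfl⟩ := hlam ψ
    exact ⟨a x, ⟨x, rfl⟩, hcomp x⟩

/-- **Final assembly.** `dim ker c = dim ker loc`. -/
theorem finrank_ker_eq_of_duality [FiniteDimensional k H1]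
    (a : P1 →ₗ[k] E1) (b : E1 →ₗ[k] H2) (c : H2 →ₗ[k] P2)
    (hab : LinearMap.range a = LinearMap.ker b) (hbc : LinearMap.range b = LinearMap.ker c)
    (loc : H1 →ₗ[k] Q1)
    (α : E1 →ₗ[k] Dual k H1) (hα : Function.Bijective α)
    (lam : P1 →ₗ[k] Dual k Q1) (hlam : Function.Surjective lam)
    (hcomp : ∀ x, α (a x) = (lam x).comp loc) :
    finrank k (LinearMap.ker c) = finrank k (LinearMap.ker loc) := by
  let αe : E1 ≃ₗ[k] Dual k H1 := LinearEquiv.ofBijective α hα
  have hE1 : FiniteDimensional k E1 := αe.symm.finiteDimensional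
  have hE1rank : finrank k E1 = finrank k H1 := by
    rw [αe.finrank_eq, Subspace.dual_finrank_eq]
  -- `dim range a = dim range loc`
  have hra : finrank k (LinearMap.range a) = finrank k (LinearMap.range loc) := by
    have h1 : finrank k ((LinearMap.range a).map α) = finrank k (LinearMap.range a) :=
      LinearEquiv.finrank_eq (Submodule.equivMapOfInjective α hα.1 _).symm
    rw [← h1, map_range_eq_range_dualMap a loc α lam hlam hcomp,
      LinearMap.finrank_range_dualMap_eq_finrank_range]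
  -- rank–nullity twice
  have h2 := LinearMap.finrank_range_add_finrank_ker b
  have h3 := LinearMap.finrank_range_add_finrank_ker loc
  rw [← hbc]
  rw [← hab, hra, hE1rank] at h2
  omega

/-- Variant with linear equivalences. -/
theorem finrank_ker_eq_of_duality' [FiniteDimensional k H1]
    (a : P1 →ₗ[k] E1) (b : E1 →ₗ[k] H2) (c : H2 →ₗ[k] P2)
    (hab : LinearMap.range a = LinearMap.ker b) (hbc : LinearMap.range b = LinearMap.ker c)
    (loc : H1 →ₗ[k] Q1)
    (α : E1 ≃ₗ[k] Dual k H1) (lam : P1 ≃ₗ[k] Dual k Q1)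
    (hcomp : ∀ x, α (a x) = (lam x).comp loc) :
    finrank k (LinearMap.ker c) = finrank k (LinearMap.ker loc) :=
  finrank_ker_eq_of_duality a b c hab hbc loc α.toLinearMap α.bijective lam.toLinearMap
    lam.surjective hcomp

/-- Finite-dimensionality of `ker c` in the same situation. -/
theorem finiteDimensional_ker_of_duality [FiniteDimensional k H1]
    (b : E1 →ₗ[k] H2) (c : H2 →ₗ[k] P2)
    (hbc : LinearMap.range b = LinearMap.ker c)
    (α : E1 →ₗ[k] Dual k H1) (hα : Function.Bijective α) :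
    FiniteDimensional k (LinearMap.ker c) := by
  let αe : E1 ≃ₗ[k] Dual k H1 := LinearEquiv.ofBijective α hα
  have hE1 : FiniteDimensional k E1 := αe.symm.finiteDimensional
  rw [← hbc]
  infer_instance

end Final

section Devissage

/-- **Milne, ADT I.1.8(b)** as an abstract statement.  `ι` indexes the finite modules; `X1 M`, `X2 M`
play the role of `Ext¹(M, C)`, `Ext²(M, C)` and `Y1 M`, `Y2 M` of `H¹(M)^*`, `H⁰(M)^*`.
If `α2` is bijective for all `M`, and every `M` sits in `0 → M → M0 → M2 → 0` with `α1 M0`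
bijective, giving exact rows `X1 M2 → X1 M0 → X1 M → X2 M2 → X2 M0` (and the same for `Y`) that
commute with `α`, then `α1 M` is bijective for every `M`. -/
theorem bijective_of_devissage {ι : Type*} (X1 X2 Y1 Y2 : ι → Type*)
    [∀ M, AddCommGroup (X1 M)] [∀ M, AddCommGroup (X2 M)]
    [∀ M, AddCommGroup (Y1 M)] [∀ M, AddCommGroup (Y2 M)]
    (α1 : ∀ M, X1 M →+ Y1 M) (α2 : ∀ M, X2 M →+ Y2 M)
    (hα2 : ∀ M, Function.Bijective (α2 M))
    (hemb : ∀ M : ι, ∃ (M0 M2 : ι) (f1 : X1 M2 →+ X1 M0) (f2 : X1 M0 →+ X1 M)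
      (f3 : X1 M →+ X2 M2) (f4 : X2 M2 →+ X2 M0)
      (g1 : Y1 M2 →+ Y1 M0) (g2 : Y1 M0 →+ Y1 M) (g3 : Y1 M →+ Y2 M2) (g4 : Y2 M2 →+ Y2 M0),
      Function.Bijective (α1 M0) ∧
      Function.Exact f1 f2 ∧ Function.Exact f2 f3 ∧ Function.Exact f3 f4 ∧
      Function.Exact g1 g2 ∧ Function.Exact g2 g3 ∧ Function.Exact g3 g4 ∧
      g1.comp (α1 M2) = (α1 M0).comp f1 ∧ g2.comp (α1 M0) = (α1 M).comp f2 ∧
      g3.comp (α1 M) = (α2 M2).comp f3 ∧ g4.comp (α2 M2) = (α2 M0).comp f4) :
    ∀ M, Function.Bijective (α1 M) := by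
  -- Step 1: surjectivity for all `M`.
  have hsurj : ∀ M, Function.Surjective (α1 M) := by
    intro M
    obtain ⟨M0, M2, f1, f2, f3, f4, g1, g2, g3, g4, hM0, hf12, hf23, hf34, hg12, hg23, hg34,
      hc1, hc2, hc3, hc4⟩ := hemb M
    exact AddMonoidHom.surjective_of_surjective_of_surjective_of_injective f2 f3 f4 g2 g3 g4
      (α1 M0) (α1 M) (α2 M2) (α2 M0) hc2 hc3 hc4 hf34 hg23 hg34 hM0.2 (hα2 M2).2 (hα2 M0).1
  -- Step 2: injectivity.
  intro M
  refine ⟨?_, hsurj M⟩
  obtain ⟨M0, M2, f1, f2, f3, f4, g1, g2, g3, g4, hM0, hf12, hf23, hf34, hg12, hg23, hg34,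
    hc1, hc2, hc3, hc4⟩ := hemb M
  exact AddMonoidHom.injective_of_surjective_of_injective_of_injective f1 f2 f3 g1 g2 g3
    (α1 M2) (α1 M0) (α1 M) (α2 M2) hc1 hc2 hc3 hf12 hf23 hg12 (hsurj M2) hM0.1 (hα2 M2).1

end Devissage

end Fermat.Agent.PT.PRO.Assembly25
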