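/-
Program F (S55, Poitou–Tate), chapter PRO, helper26: bridge from `FG.Interface8.IsFundClass` (Mathlib
group cohomology of a finite layer `Q = G ⧸ V'`) to the RAW finite-layer statements consumed by
`HyperColimP18.hypP_of_descend` and `InvP4`:

* (a) `h1NoPTorsion_of_pSubgroups`, `h1NoPTorsion_of_isFundClass`: `H¹(N; X)` has no `p`-torsion in
  the raw form `HyperColimP18.H1NoPTorsion ρ N p`;
* (b) `exists_combination_eq_zero` (Mathlib side) and `h2_pTorsion_rank_le_one` (raw cochains):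
  `H²(Q, X)[p]` has `𝔽_p`-rank at most one (it embeds, by the abstract transfer `Transfer2.jMap`, in
  the `p`-torsion of the cyclic group `H²(P, X)`, `P` a Sylow `p`-subgroup).
-/
import Mathlib
import Fermat.Agent.PT.PRO.HyperColimP18
import Fermat.Agent.PT.FG.Interface8
import Fermat.Agent.PT.FG.InfResPrimary2
import Fermat.Agent.PT.FG.Transfer2

set_option autoImplicit false
set_option linter.style.haveILetI false
set_option linter.unusedSectionVars false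

open CategoryTheory groupCohomology

namespace Fermat.Agent.PT.PRO.FinLayerBridge26

open Fermat.Agent.PT.PRO.HyperLevel25 Fermat.Agent.PT.PRO.HyperColimP18 Fermat.Agent.PT.FG

variable {Q : Type} [Group Q] [Finite Q] {X : Type} [AddCommGroup X]
  (ρ : Representation ℤ Q X) (p : ℕ) [Fact p.Prime]

/-- **(a)** If `H¹(P, X) = 0` for the `p`-subgroups `P ≤ N`, then `H¹(N; X)` has no `p`-torsion, in
the raw form of `HyperColimP18`. -/
theorem h1NoPTorsion_of_pSubgroups (N : Subgroup Q)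
    (h : ∀ P : Subgroup Q, P ≤ N → IsPGroup p P →
      Subsingleton (H1 (Interface8.resSub P (Rep.of ρ)))) :
    H1NoPTorsion ρ N p := by
  intro v hv hb
  let B : Rep ℤ N := Rep.res N.subtype (Rep.of ρ)
  let f : N → B := fun s => v s
  have hf : f ∈ cocycles₁ B := by
    rw [mem_cocycles₁_iff]
    intro g h
    exact hv g g.2 h h.2
  have hy : (p : ℕ) ^ 1 • H1π B ⟨f, hf⟩ = 0 := by
    rw [pow_one, ← map_nsmul, H1π_eq_zero_iff]
    obtain ⟨x, hx⟩ := hb
    refine ⟨x, ?_⟩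
    funext s
    have := hx s s.2
    simp only [Pi.smul_apply] at this
    rw [d₀₁_hom_apply]
    show B.ρ s x - x = p • f s
    rw [← Nat.cast_smul_eq_nsmul ℤ]
    exact this.symm
  have hzero : H1π B ⟨f, hf⟩ = 0 :=
    InfResPrimary2.h1_noPTorsion_of_pSubgroups (Rep.of ρ) N
      (fun P hP hPp => @ModuleCat.isZero_of_subsingleton _ _ _ (h P hP hPp)) _ ⟨1, hy⟩
  rw [H1π_eq_zero_iff] at hzero
  obtain ⟨x, hx⟩ := hzero
  refine ⟨x, fun s hs => ?_⟩
  have := congrFun hx ⟨s, hs⟩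
  rw [d₀₁_hom_apply] at this
  exact this.symm

/-- Field `hH1` of `HyperColimP18.hypP_of_descend` from a fundamental class at `p`. -/
theorem h1NoPTorsion_of_isFundClass {u : H2 (Rep.of ρ)}
    (hu : Interface8.IsFundClass p (Rep.of ρ) u) (N : Subgroup Q) : H1NoPTorsion ρ N p :=
  h1NoPTorsion_of_pSubgroups ρ p N (fun P _ hP => hu.h1 P hP)

/-- In an abelian group whose `p`-torsion embeds (by `j`) into a cyclic group, any two elements killed
by `p` are linearly dependent mod `p`. -/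
theorem exists_combination_aux26 {A Z : Type*} [AddCommGroup A] [AddCommGroup Z] [IsAddCyclic Z]
    (p : ℕ) (hpp : p.Prime) (j : A →+ Z) (hinj : ∀ z : A, p • z = 0 → j z = 0 → z = 0)
    (x y : A) (hx : p • x = 0) (hy : p • y = 0) :
    ∃ a b : ℤ, ¬ ((p : ℤ) ∣ a ∧ (p : ℤ) ∣ b) ∧ a • x + b • y = 0 := by
  classical
  have hp1 : ¬ (p : ℤ) ∣ 1 := fun h => by
    have h1 : p ∣ 1 := Int.natCast_dvd_natCast.mp (by simpa using h)
    exact hpp.one_lt.ne' (Nat.dvd_one.mp h1)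
  let T : AddSubgroup Z := (nsmulAddMonoidHom p).ker
  haveI : IsAddCyclic T := AddSubgroup.isAddCyclic T
  obtain ⟨t, ht⟩ := IsAddCyclic.exists_generator (α := T)
  have htp : p • (t : Z) = 0 := t.2
  have htp' : (p : ℤ) • (t : Z) = 0 := by rw [natCast_zsmul]; exact htp
  have hjx : j x ∈ T := by
    show p • j x = 0
    rw [← map_nsmul, hx, map_zero]
  have hjy : j y ∈ T := by
    show p • j y = 0
    rw [← map_nsmul, hy, map_zero]
  obtain ⟨c₁, hc₁⟩ := AddSubgroup.mem_zmultiples_iff.mp (ht ⟨j x, hjx⟩)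
  obtain ⟨c₂, hc₂⟩ := AddSubgroup.mem_zmultiples_iff.mp (ht ⟨j y, hjy⟩)
  have hc₁' : c₁ • (t : Z) = j x := by
    have := congrArg (fun z : T => (z : Z)) hc₁
    simpa using this
  have hc₂' : c₂ • (t : Z) = j y := by
    have := congrArg (fun z : T => (z : Z)) hc₂
    simpa using this
  by_cases hdiv : (p : ℤ) ∣ c₁ ∧ (p : ℤ) ∣ c₂
  · obtain ⟨⟨d, hd⟩, -⟩ := hdiv
    have hjx0 : j x = 0 := by
      rw [← hc₁', hd, mul_comm, mul_smul, htp', smul_zero]
    have hx0 : x = 0 := hinj x hx hjx0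
    exact ⟨1, 0, fun h => hp1 h.1, by rw [hx0, smul_zero, zero_smul, add_zero]⟩
  · refine ⟨c₂, -c₁, fun h => hdiv ⟨(dvd_neg.mp h.2), h.1⟩, ?_⟩
    apply hinj
    · rw [smul_add, smul_comm p c₂ x, smul_comm p (-c₁) y, hx, hy, smul_zero, smul_zero,
        add_zero]
    · rw [map_add, map_zsmul, map_zsmul, ← hc₁', ← hc₂', smul_smul, smul_smul, neg_mul,
        neg_smul, mul_comm c₂ c₁, add_neg_cancel]

/-- **(b), Mathlib side**: `H²(Q, X)[p]` has `𝔽_p`-rank at most one when `X` has a fundamental class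
at `p`. -/
theorem exists_combination_eq_zero {u : H2 (Rep.of ρ)}
    (hu : Interface8.IsFundClass p (Rep.of ρ) u) (x y : H2 (Rep.of ρ))
    (hx : p • x = 0) (hy : p • y = 0) :
    ∃ a b : ℤ, ¬ ((p : ℤ) ∣ a ∧ (p : ℤ) ∣ b) ∧ a • x + b • y = 0 := by
  classical
  have hpp : p.Prime := Fact.out
  let P : Sylow p Q := default
  have hP : IsPGroup p (P : Subgroup Q) := P.isPGroup'
  have hcard : Nat.card (H2 (Interface8.resSub (P : Subgroup Q) (Rep.of ρ))) =
      Nat.card (P : Subgroup Q) := hu.card _ hP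
  have hord := hu.order _ hP
  haveI : Finite (H2 (Interface8.resSub (P : Subgroup Q) (Rep.of ρ))) :=
    Nat.finite_of_card_ne_zero (by rw [hcard]; exact Nat.card_pos.ne')
  haveI : IsAddCyclic (H2 (Interface8.resSub (P : Subgroup Q) (Rep.of ρ))) :=
    isAddCyclic_of_addOrderOf_eq_card _ (hord.trans hcard.symm)
  -- the abstract restriction map of `Transfer2`
  let j : H2 (Rep.of ρ) →+ H2 (Interface8.resSub (P : Subgroup Q) (Rep.of ρ)) :=
    (Transfer2.jMap (P : Subgroup Q) (Rep.of ρ) 2).hom.toAddMonoidHom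
  have hinj : ∀ z : H2 (Rep.of ρ), p • z = 0 → j z = 0 → z = 0 := fun z hz hjz =>
    Transfer2.eq_zero_of_jMap_eq_zero (P : Subgroup Q) (Rep.of ρ)
      (Transfer2.sylow_coprime_index P) 2 z ⟨1, by rwa [pow_one]⟩ hjz
  exact exists_combination_aux26 p hpp j hinj x y hx hy

/-- A raw 2-cocycle. -/
theorem mem_cocycles₂_of_dTwo {φ : Q × Q → X} (h : dTwo ρ φ = 0) :
    (φ : Q × Q → (Rep.of ρ)) ∈ cocycles₂ (Rep.of ρ) := by
  rw [mem_cocycles₂_def]
  intro g h' j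
  exact congrFun h (g, h', j)

theorem d₁₂_eq_dOne (v : Q → X) : (d₁₂ (Rep.of ρ)).hom v = dOne ρ v := by
  funext g
  rw [d₁₂_hom_apply]
  rfl

/-- **(b), raw form**: `H²(Q, X)[p]` has `𝔽_p`-rank at most one. -/
theorem h2_pTorsion_rank_le_one {u : H2 (Rep.of ρ)}
    (hu : Interface8.IsFundClass p (Rep.of ρ) u) :
    ∀ φ ψ : Q × Q → X, dTwo ρ φ = 0 → dTwo ρ ψ = 0 →
      (∃ v : Q → X, (p : ℤ) • φ = dOne ρ v) → (∃ v : Q → X, (p : ℤ) • ψ = dOne ρ v) →
      ∃ a b : ℤ, ¬ ((p : ℤ) ∣ a ∧ (p : ℤ) ∣ b) ∧ ∃ v : Q → X, a • φ + b • ψ = dOne ρ v := by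
  intro φ ψ hφ hψ ⟨v₁, hv₁⟩ ⟨v₂, hv₂⟩
  let cφ : cocycles₂ (Rep.of ρ) := ⟨φ, mem_cocycles₂_of_dTwo ρ hφ⟩
  let cψ : cocycles₂ (Rep.of ρ) := ⟨ψ, mem_cocycles₂_of_dTwo ρ hψ⟩
  have hx : p • H2π (Rep.of ρ) cφ = 0 := by
    rw [← map_nsmul, H2π_eq_zero_iff]
    refine ⟨v₁, ?_⟩
    rw [d₁₂_eq_dOne, ← hv₁, Nat.cast_smul_eq_nsmul]
    rfl
  have hy : p • H2π (Rep.of ρ) cψ = 0 := by
    rw [← map_nsmul, H2π_eq_zero_iff]
    refine ⟨v₂, ?_⟩
    rw [d₁₂_eq_dOne, ← hv₂, Nat.cast_smul_eq_nsmul]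
    rfl
  obtain ⟨a, b, hab, h0⟩ := exists_combination_eq_zero ρ p hu _ _ hx hy
  refine ⟨a, b, hab, ?_⟩
  rw [← map_zsmul, ← map_zsmul, ← map_add, H2π_eq_zero_iff] at h0
  obtain ⟨v, hv⟩ := h0
  refine ⟨v, ?_⟩
  rw [← d₁₂_eq_dOne, hv]
  rfl

end Fermat.Agent.PT.PRO.FinLayerBridge26
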