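/-
Program F (S55, Poitou–Tate), chapter PRO, helper28.  Row (PRO-P4b).

Shapiro's lemma for the level HYPERcohomology of a two-term complex `f : X⁰ → X¹` of discrete
`H`-modules: for `i : H →* G` (continuous, basis of `H` induced from `G`), the forward maps
`ℍʳ(G; Coind X⁰ → Coind X¹) → ℍʳ(H; X⁰ → X¹)`, `(c, e) ↦ (ev ∘ c ∘ i, ev ∘ e ∘ i)`, are bijective
for `r = 1, 2`.

Part 1: raw cochain forms of `ShapiroLevel28` (degrees 0, 1, 2).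
Part 2: raw cochain forms of hyper-Shapiro (surjective / injective, `r = 1, 2`), by diagram chase:
  `hyper₁_surj_raw`, `hyper₁_inj_raw`, `hyper₂_surj_raw`, `hyper₂_inj_raw`.
Part 3: packaging in helper25's framework (`HyperLevel25.Cx`, `HyperRes25.PHom`):
  `coindCx i h𝒰G Y : Cx k 𝒰G _ _`, `evPHom i h𝒰G Y : PHom i (coindCx i h𝒰G Y) Y`,
  `ppℍ1_bijective`, `ppℍ2_bijective` (+ `_injective`, `_surjective`), `shℍ1`, `shℍ2`,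
  `coindHom` and naturality `ppℍ1_coindHom`, `ppℍ2_coindHom`.
Hypotheses: `hcont : IsLevelHom i 𝒰H 𝒰G` (continuity) and
`hind : ∀ V ∈ 𝒰H, ∃ U ∈ 𝒰G, U.comap i ≤ V` (the basis of `H` is induced from `G`).
-/
import Mathlib
import Fermat.Agent.PT.PRO.LevelCoh28
import Fermat.Agent.PT.PRO.LevelCohRes28
import Fermat.Agent.PT.PRO.SmoothCoind28
import Fermat.Agent.PT.PRO.ShapiroLevel28
import Fermat.Agent.PT.PRO.HyperRes25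
import Fermat.Agent.PT.PRO.LevelCompare13

set_option autoImplicit false
set_option linter.unusedSectionVars false
set_option linter.style.haveILetI false

universe u

open CategoryTheory groupCohomology

namespace Fermat.Agent.PT.PRO.HyperShapiro28

open Fermat.Agent.PT.PRO.LevelCoh28 Fermat.Agent.PT.PRO.LevelCohRes28
  Fermat.Agent.PT.PRO.SmoothCoind28 Fermat.Agent.PT.PRO.ShapiroLevel28

variable {k G H : Type u} [CommRing k] [Group G] [Group H]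

/-! ### Part 1: raw cochain forms of Shapiro's lemma -/

section Raw

variable (i : H →* G) (𝓑G : LevelBasis G) (𝓑H : LevelBasis H)
  (hcont : IsLevelHom i 𝓑H.sets 𝓑G.sets)
  (hind : ∀ V ∈ 𝓑H.sets, ∃ U ∈ 𝓑G.sets, U.comap i ≤ V)
  (X : Rep.{u} k H) (hX : IsDiscrete 𝓑H.sets X)

include hcont hind hX in
/-- Degree 1, surjectivity: every level 1-cocycle of `H` is, up to a coboundary, the image of a
level 1-cocycle of `G` with values in `Coind X`. -/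
theorem sh1_surj_raw {c : H → X} (hc : c ∈ Z1 𝓑H X) :
    ∃ c' : G → scoind (k := k) i 𝓑G X, c' ∈ Z1 𝓑G (scoind (k := k) i 𝓑G X) ∧
      ∃ x : X, pp₁ i (ev i 𝓑G X) c' = c + (d₀₁ X).hom x := by
  obtain ⟨y, hy⟩ := sh1_surjective i 𝓑G 𝓑H hcont hind X hX (H1mk 𝓑H X ⟨c, hc⟩)
  obtain ⟨z, rfl⟩ := H1mk_surjective 𝓑G _ y
  rw [sh1_mk, ← sub_eq_zero, ← map_sub, H1mk_eq_zero_iff] at hy
  obtain ⟨x, hx⟩ := hy
  refine ⟨z.1, z.2, x, ?_⟩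
  have hx' : (d₀₁ X).hom x = pp₁ i (ev i 𝓑G X) (z : G → scoind (k := k) i 𝓑G X) - c := hx
  rw [hx']
  abel

include hcont hind hX in
/-- Degree 1, injectivity. -/
theorem sh1_inj_raw {c' : G → scoind (k := k) i 𝓑G X}
    (hc' : c' ∈ Z1 𝓑G (scoind (k := k) i 𝓑G X))
    (h : pp₁ i (ev i 𝓑G X) c' ∈ coboundaries₁ X) :
    c' ∈ coboundaries₁ (scoind (k := k) i 𝓑G X) := by
  have h0 : sh1 i 𝓑G 𝓑H hcont X (H1mk 𝓑G _ ⟨c', hc'⟩) = 0 := by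
    rw [sh1_mk, H1mk_eq_zero_iff]
    exact h
  have h1 := sh1_injective i 𝓑G 𝓑H hcont hind X hX (h0.trans (map_zero _).symm)
  exact (H1mk_eq_zero_iff 𝓑G _ ⟨c', hc'⟩).1 h1

include hcont hind hX in
/-- Degree 2, surjectivity. -/
theorem sh2_surj_raw {c : H × H → X} (hc : c ∈ Z2 𝓑H X) :
    ∃ c' : G × G → scoind (k := k) i 𝓑G X, c' ∈ Z2 𝓑G (scoind (k := k) i 𝓑G X) ∧
      ∃ b : H → X, IsLevel₁ 𝓑H.sets b ∧ pp₂ i (ev i 𝓑G X) c' = c + (d₁₂ X).hom b := by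
  obtain ⟨y, hy⟩ := sh2_surjective i 𝓑G 𝓑H hcont hind X hX (H2mk 𝓑H X ⟨c, hc⟩)
  obtain ⟨z, rfl⟩ := H2mk_surjective 𝓑G _ y
  rw [sh2_mk, ← sub_eq_zero, ← map_sub, H2mk_eq_zero_iff] at hy
  obtain ⟨b, hb, hbz⟩ := (mem_B2_iff 𝓑H X _).1 hy
  refine ⟨z.1, z.2, b, hb, ?_⟩
  have hx' : (d₁₂ X).hom b = pp₂ i (ev i 𝓑G X) (z : G × G → scoind (k := k) i 𝓑G X) - c := hbz
  rw [hx']
  abel

include hcont hind hX in
/-- Degree 2, injectivity. -/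
theorem sh2_inj_raw {c' : G × G → scoind (k := k) i 𝓑G X}
    (hc' : c' ∈ Z2 𝓑G (scoind (k := k) i 𝓑G X))
    (h : pp₂ i (ev i 𝓑G X) c' ∈ B2 𝓑H X) :
    c' ∈ B2 𝓑G (scoind (k := k) i 𝓑G X) := by
  have h0 : sh2 i 𝓑G 𝓑H hcont X (H2mk 𝓑G _ ⟨c', hc'⟩) = 0 := by
    rw [sh2_mk, H2mk_eq_zero_iff]
    exact h
  have h1 := sh2_injective i 𝓑G 𝓑H hcont hind X hX (h0.trans (map_zero _).symm)
  exact (H2mk_eq_zero_iff 𝓑G _ ⟨c', hc'⟩).1 h1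

/-- Degree 0: an element of `Coind X` whose coboundary vanishes is the constant function with
value an `H`-invariant. -/
theorem eq_constFun_of_d₀₁_eq_zero {y : scoind (k := k) i 𝓑G X}
    (h : (d₀₁ (scoind (k := k) i 𝓑G X)).hom y = 0) :
    ∃ hx : ev i 𝓑G X y ∈ X.ρ.invariants, y = constFun i 𝓑G X (ev i 𝓑G X y) hx := by
  have hy : y ∈ (scoind (k := k) i 𝓑G X).ρ.invariants := fun g => by
    have := congrFun h g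
    rw [d₀₁_hom_apply] at this
    exact sub_eq_zero.1 this
  exact ⟨ev_mem_invariants i 𝓑G X hy, eq_constFun_of_mem_invariants i 𝓑G X hy⟩

theorem d₀₁_constFun (x : X) (hx : x ∈ X.ρ.invariants) :
    (d₀₁ (scoind (k := k) i 𝓑G X)).hom (constFun i 𝓑G X x hx) = 0 := by
  funext g
  rw [d₀₁_hom_apply, constFun_mem_invariants i 𝓑G X x hx g, sub_self]
  rfl

end Raw

/-! ### Part 2: raw cochain forms of hyper-Shapiro -/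

section Hyper

theorem comp_add' {S M N : Type*} [AddCommGroup M] [AddCommGroup N] [Module k M] [Module k N]
    (f : M →ₗ[k] N) (a b : S → M) : f ∘ (a + b) = f ∘ a + f ∘ b := by
  funext s
  simp

theorem comp_sub' {S M N : Type*} [AddCommGroup M] [AddCommGroup N] [Module k M] [Module k N]
    (f : M →ₗ[k] N) (a b : S → M) : f ∘ (a - b) = f ∘ a - f ∘ b := by
  funext s
  simp

variable (i : H →* G) (𝓑G : LevelBasis G) (𝓑H : LevelBasis H)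
  (hcont : IsLevelHom i 𝓑H.sets 𝓑G.sets)
  (hind : ∀ V ∈ 𝓑H.sets, ∃ U ∈ 𝓑G.sets, U.comap i ≤ V)
  {X0 X1 : Rep.{u} k H} (f : X0 →ₗ[k] X1) (hf : ∀ h x, f (X0.ρ h x) = X1.ρ h (f x))
  (hX0 : IsDiscrete 𝓑H.sets X0) (hX1 : IsDiscrete 𝓑H.sets X1)

theorem pp₁_scoindMap_comp (c' : G → scoind (k := k) i 𝓑G X0) :
    pp₁ i (ev i 𝓑G X1) (scoindMap i 𝓑G f hf ∘ c') = f ∘ pp₁ i (ev i 𝓑G X0) c' := rfl

theorem pp₂_scoindMap_comp (c' : G × G → scoind (k := k) i 𝓑G X0) :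
    pp₂ i (ev i 𝓑G X1) (scoindMap i 𝓑G f hf ∘ c') = f ∘ pp₂ i (ev i 𝓑G X0) c' := rfl

theorem mem_invariants_of_d₀₁_eq_zero {X : Rep.{u} k H} {w : X} (h : (d₀₁ X).hom w = 0) :
    w ∈ X.ρ.invariants := fun g => by
  have := congrFun h g
  rw [d₀₁_hom_apply] at this
  exact sub_eq_zero.1 this

include hcont hind hX0 hX1 in
/-- **`ℍ¹`, surjectivity** (raw). -/
theorem hyper₁_surj_raw {c : H → X0} {e : X1} (hc : c ∈ Z1 𝓑H X0)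
    (hce : f ∘ c = (d₀₁ X1).hom e) :
    ∃ (c' : G → scoind (k := k) i 𝓑G X0) (e' : scoind (k := k) i 𝓑G X1) (y : X0),
      c' ∈ Z1 𝓑G (scoind (k := k) i 𝓑G X0) ∧
      scoindMap i 𝓑G f hf ∘ c' = (d₀₁ (scoind (k := k) i 𝓑G X1)).hom e' ∧
      pp₁ i (ev i 𝓑G X0) c' = c + (d₀₁ X0).hom y ∧ ev i 𝓑G X1 e' = e + f y := by
  obtain ⟨c', hc', y, hy⟩ := sh1_surj_raw i 𝓑G 𝓑H hcont hind X0 hX0 hc
  have hCf := scoindMap_equivariant i 𝓑G f hf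
  have h1 : scoindMap i 𝓑G f hf ∘ c' ∈ Z1 𝓑G (scoind (k := k) i 𝓑G X1) :=
    comp_mem_Z1 (scoindMap i 𝓑G f hf) hCf hc'
  have h2 : pp₁ i (ev i 𝓑G X1) (scoindMap i 𝓑G f hf ∘ c') = (d₀₁ X1).hom (e + f y) := by
    rw [pp₁_scoindMap_comp, hy, comp_add', hce, map_add, d₀₁_comp f hf]
  obtain ⟨e'₀, he'₀⟩ := sh1_inj_raw i 𝓑G 𝓑H hcont hind X1 hX1 h1 ⟨e + f y, h2.symm⟩
  have he'₀' : (d₀₁ (scoind (k := k) i 𝓑G X1)).hom e'₀ = scoindMap i 𝓑G f hf ∘ c' := he'₀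
  -- correct `e'₀` by a constant function
  have hw : (d₀₁ X1).hom (ev i 𝓑G X1 e'₀ - (e + f y)) = 0 := by
    rw [map_sub, ← pp₁_d₀₁ i (ev i 𝓑G X1) (ev_equivariant i 𝓑G X1), he'₀', h2, sub_self]
  have hwinv := mem_invariants_of_d₀₁_eq_zero hw
  refine ⟨c', e'₀ - constFun i 𝓑G X1 _ hwinv, y, hc', ?_, hy, ?_⟩
  · rw [map_sub, d₀₁_constFun, sub_zero, he'₀']
  · rw [map_sub, ev_constFun]
    abel

include hcont hind hX0 in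
/-- **`ℍ¹`, injectivity** (raw). -/
theorem hyper₁_inj_raw {c' : G → scoind (k := k) i 𝓑G X0} {e' : scoind (k := k) i 𝓑G X1}
    (hc' : c' ∈ Z1 𝓑G (scoind (k := k) i 𝓑G X0))
    (hce' : scoindMap i 𝓑G f hf ∘ c' = (d₀₁ (scoind (k := k) i 𝓑G X1)).hom e')
    {y : X0} (h1 : pp₁ i (ev i 𝓑G X0) c' = (d₀₁ X0).hom y) (h2 : ev i 𝓑G X1 e' = f y) :
    ∃ y' : scoind (k := k) i 𝓑G X0,
      c' = (d₀₁ (scoind (k := k) i 𝓑G X0)).hom y' ∧ e' = scoindMap i 𝓑G f hf y' := by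
  have hCf := scoindMap_equivariant i 𝓑G f hf
  obtain ⟨y'₀, hy'₀⟩ := sh1_inj_raw i 𝓑G 𝓑H hcont hind X0 hX0 hc' ⟨y, h1.symm⟩
  have hy'₀' : (d₀₁ (scoind (k := k) i 𝓑G X0)).hom y'₀ = c' := hy'₀
  have hw : (d₀₁ X0).hom (ev i 𝓑G X0 y'₀ - y) = 0 := by
    rw [map_sub, ← pp₁_d₀₁ i (ev i 𝓑G X0) (ev_equivariant i 𝓑G X0), hy'₀', h1, sub_self]
  have hwinv := mem_invariants_of_d₀₁_eq_zero hw
  set y' := y'₀ - constFun i 𝓑G X0 _ hwinv with hy'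
  have hdy' : (d₀₁ (scoind (k := k) i 𝓑G X0)).hom y' = c' := by
    rw [hy', map_sub, d₀₁_constFun, sub_zero, hy'₀']
  have hev : ev i 𝓑G X0 y' = y := by
    rw [hy', map_sub, ev_constFun]
    abel
  refine ⟨y', hdy'.symm, ?_⟩
  -- `z = e' - Cf y'` is invariant with `ev z = 0`
  have hz : (d₀₁ (scoind (k := k) i 𝓑G X1)).hom (e' - scoindMap i 𝓑G f hf y') = 0 := by
    rw [map_sub, ← hce', d₀₁_comp (scoindMap i 𝓑G f hf) hCf, hdy', sub_self]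
  obtain ⟨hx, hconst⟩ := eq_constFun_of_d₀₁_eq_zero i 𝓑G X1 hz
  have hev0 : ev i 𝓑G X1 (e' - scoindMap i 𝓑G f hf y') = 0 := by
    rw [map_sub, h2, ev_scoindMap, hev, sub_self]
  have hz0 : e' - scoindMap i 𝓑G f hf y' = 0 := by
    rw [hconst]
    refine Subtype.ext (funext fun g => ?_)
    exact hev0
  exact sub_eq_zero.1 hz0

include hcont hind hX0 hX1 in
/-- **`ℍ²`, injectivity** (raw). -/
theorem hyper₂_inj_raw {c' : G × G → scoind (k := k) i 𝓑G X0} {e' : G → scoind (k := k) i 𝓑G X1}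
    (hc' : c' ∈ Z2 𝓑G (scoind (k := k) i 𝓑G X0)) (he' : IsLevel₁ 𝓑G.sets e')
    (hce' : scoindMap i 𝓑G f hf ∘ c' = (d₁₂ (scoind (k := k) i 𝓑G X1)).hom e')
    {b : H → X0} (hb : IsLevel₁ 𝓑H.sets b) {v : X1}
    (h1 : pp₂ i (ev i 𝓑G X0) c' = (d₁₂ X0).hom b)
    (h2 : pp₁ i (ev i 𝓑G X1) e' = f ∘ b - (d₀₁ X1).hom v) :
    ∃ (b' : G → scoind (k := k) i 𝓑G X0) (v' : scoind (k := k) i 𝓑G X1),
      IsLevel₁ 𝓑G.sets b' ∧ c' = (d₁₂ (scoind (k := k) i 𝓑G X0)).hom b' ∧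
      e' = scoindMap i 𝓑G f hf ∘ b' - (d₀₁ (scoind (k := k) i 𝓑G X1)).hom v' := by
  have hCf := scoindMap_equivariant i 𝓑G f hf
  have hev0 := ev_equivariant i 𝓑G X0
  have hev1 := ev_equivariant i 𝓑G X1
  -- step 1: `c' = d b'₀`
  have hB : c' ∈ B2 𝓑G (scoind (k := k) i 𝓑G X0) :=
    sh2_inj_raw i 𝓑G 𝓑H hcont hind X0 hX0 hc' ((mem_B2_iff 𝓑H X0 _).2 ⟨b, hb, h1.symm⟩)
  obtain ⟨b'₀, hb'₀, hdb'₀⟩ := (mem_B2_iff 𝓑G _ _).1 hB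
  -- step 2: `z = pp b'₀ - b` is a level cocycle of `H`
  have hppb'₀ : IsLevel₁ 𝓑H.sets (pp₁ i (ev i 𝓑G X0) b'₀) :=
    pp₁_mem_levelCochains₁ i (ev i 𝓑G X0) hev0 hcont hb'₀
  have hz : pp₁ i (ev i 𝓑G X0) b'₀ - b ∈ Z1 𝓑H X0 := by
    refine mem_Z1_of 𝓑H X0 ?_ (hppb'₀.sub 𝓑H.isBasis hb)
    rw [map_sub, ← pp₂_d₁₂ i (ev i 𝓑G X0) hev0, hdb'₀, h1, sub_self]
  obtain ⟨z', hz', y0, hy0⟩ := sh1_surj_raw i 𝓑G 𝓑H hcont hind X0 hX0 hz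
  -- step 3: corrected `b'`
  have hb'₁ : IsLevel₁ 𝓑G.sets (b'₀ - z') := hb'₀.sub 𝓑G.isBasis hz'.2
  have hdb'₁ : (d₁₂ (scoind (k := k) i 𝓑G X0)).hom (b'₀ - z') = c' := by
    rw [map_sub, hdb'₀, d₁₂_eq_zero_of_mem_Z1 𝓑G _ hz', sub_zero]
  have hppb'₁ : pp₁ i (ev i 𝓑G X0) (b'₀ - z') = b - (d₀₁ X0).hom y0 := by
    rw [map_sub, hy0]
    abel
  -- step 4: `ε = e' - Cf ∘ b'₁` is a level cocycle with coboundary image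
  have hε : e' - scoindMap i 𝓑G f hf ∘ (b'₀ - z') ∈ Z1 𝓑G (scoind (k := k) i 𝓑G X1) := by
    refine mem_Z1_of 𝓑G _ ?_ (he'.sub 𝓑G.isBasis (hb'₁.comp _))
    rw [map_sub, d₁₂_comp (scoindMap i 𝓑G f hf) hCf, hdb'₁, hce', sub_self]
  have hppε : pp₁ i (ev i 𝓑G X1) (e' - scoindMap i 𝓑G f hf ∘ (b'₀ - z')) =
      (d₀₁ X1).hom (f y0 - v) := by
    rw [map_sub, pp₁_scoindMap_comp, hppb'₁, h2, comp_sub', map_sub, d₀₁_comp f hf]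
    abel
  obtain ⟨v'₀, hv'₀⟩ := sh1_inj_raw i 𝓑G 𝓑H hcont hind X1 hX1 hε ⟨f y0 - v, hppε.symm⟩
  have hv'₀' : (d₀₁ (scoind (k := k) i 𝓑G X1)).hom v'₀ =
      e' - scoindMap i 𝓑G f hf ∘ (b'₀ - z') := hv'₀
  refine ⟨b'₀ - z', -v'₀, hb'₁, hdb'₁.symm, ?_⟩
  rw [map_neg, hv'₀']
  abel

include hcont hind hX0 hX1 in
/-- **`ℍ²`, surjectivity** (raw). -/
theorem hyper₂_surj_raw {c : H × H → X0} {e : H → X1} (hc : c ∈ Z2 𝓑H X0)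
    (he : IsLevel₁ 𝓑H.sets e) (hce : f ∘ c = (d₁₂ X1).hom e) :
    ∃ (c' : G × G → scoind (k := k) i 𝓑G X0) (e' : G → scoind (k := k) i 𝓑G X1)
      (b : H → X0) (v : X1),
      c' ∈ Z2 𝓑G (scoind (k := k) i 𝓑G X0) ∧ IsLevel₁ 𝓑G.sets e' ∧
      scoindMap i 𝓑G f hf ∘ c' = (d₁₂ (scoind (k := k) i 𝓑G X1)).hom e' ∧
      IsLevel₁ 𝓑H.sets b ∧
      pp₂ i (ev i 𝓑G X0) c' = c + (d₁₂ X0).hom b ∧
      pp₁ i (ev i 𝓑G X1) e' = e + (f ∘ b - (d₀₁ X1).hom v) := by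
  have hCf := scoindMap_equivariant i 𝓑G f hf
  have hev1 := ev_equivariant i 𝓑G X1
  obtain ⟨c', hc', b, hb, hcb⟩ := sh2_surj_raw i 𝓑G 𝓑H hcont hind X0 hX0 hc
  -- `Cf ∘ c'` is a level cocycle whose image is a coboundary
  have h1 : scoindMap i 𝓑G f hf ∘ c' ∈ Z2 𝓑G (scoind (k := k) i 𝓑G X1) :=
    comp_mem_Z2 (scoindMap i 𝓑G f hf) hCf hc'
  have hefb : IsLevel₁ 𝓑H.sets (e + f ∘ b) := he.add 𝓑H.isBasis (hb.comp _)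
  have h2 : pp₂ i (ev i 𝓑G X1) (scoindMap i 𝓑G f hf ∘ c') = (d₁₂ X1).hom (e + f ∘ b) := by
    rw [pp₂_scoindMap_comp, hcb, comp_add', hce, map_add, d₁₂_comp f hf]
  have hB : scoindMap i 𝓑G f hf ∘ c' ∈ B2 𝓑G (scoind (k := k) i 𝓑G X1) :=
    sh2_inj_raw i 𝓑G 𝓑H hcont hind X1 hX1 h1 ((mem_B2_iff 𝓑H X1 _).2 ⟨_, hefb, h2.symm⟩)
  obtain ⟨e'₀, he'₀, hde'₀⟩ := (mem_B2_iff 𝓑G _ _).1 hB
  -- `z = pp e'₀ - (e + f ∘ b)` is a level cocycle of `H`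
  have hppe'₀ : IsLevel₁ 𝓑H.sets (pp₁ i (ev i 𝓑G X1) e'₀) :=
    pp₁_mem_levelCochains₁ i (ev i 𝓑G X1) hev1 hcont he'₀
  have hz : pp₁ i (ev i 𝓑G X1) e'₀ - (e + f ∘ b) ∈ Z1 𝓑H X1 := by
    refine mem_Z1_of 𝓑H X1 ?_ (hppe'₀.sub 𝓑H.isBasis hefb)
    rw [map_sub, ← pp₂_d₁₂ i (ev i 𝓑G X1) hev1, hde'₀, h2, sub_self]
  obtain ⟨z', hz', v0, hv0⟩ := sh1_surj_raw i 𝓑G 𝓑H hcont hind X1 hX1 hz
  refine ⟨c', e'₀ - z', b, v0, hc', he'₀.sub 𝓑G.isBasis hz'.2, ?_, hb, hcb, ?_⟩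
  · rw [map_sub, hde'₀, d₁₂_eq_zero_of_mem_Z1 𝓑G _ hz', sub_zero]
  · rw [map_sub, hv0]
    abel

end Hyper

/-! ### Part 3: packaging in the framework of `HyperLevel25` / `HyperRes25` -/

section Package

variable {Y0 Y1 : Type u} [AddCommGroup Y0] [Module k Y0] [AddCommGroup Y1] [Module k Y1]

/-- Bundle a `HyperLevel25` level basis into a `LevelCoh28.LevelBasis`. -/
def toBasis {Γ : Type u} [Group Γ] {𝒰 : Set (Subgroup Γ)} (h : HyperLevel25.IsLevelBasis 𝒰) :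
    LevelBasis Γ :=
  ⟨𝒰, LevelCompare13.isLevelBasis_iff.2 h⟩

@[simp] theorem toBasis_sets {Γ : Type u} [Group Γ] {𝒰 : Set (Subgroup Γ)}
    (h : HyperLevel25.IsLevelBasis 𝒰) : (toBasis h).sets = 𝒰 := rfl

variable (i : H →* G) {𝒰G : Set (Subgroup G)} {𝒰H : Set (Subgroup H)}
  (h𝒰G : HyperLevel25.IsLevelBasis 𝒰G) (h𝒰H : HyperLevel25.IsLevelBasis 𝒰H)

/-- The smooth coinduction `Coind X⁰ → Coind X¹` of a two-term complex of discrete `H`-modules,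
as a two-term complex of discrete `G`-modules. -/
noncomputable def coindCx (Y : HyperLevel25.Cx k 𝒰H Y0 Y1) :
    HyperLevel25.Cx k 𝒰G ↥(scoindV i (toBasis h𝒰G) (Rep.of Y.ρ0))
      ↥(scoindV i (toBasis h𝒰G) (Rep.of Y.ρ1)) where
  ρ0 := scoindρ i (toBasis h𝒰G) (Rep.of Y.ρ0)
  ρ1 := scoindρ i (toBasis h𝒰G) (Rep.of Y.ρ1)
  f := scoindMap i (toBasis h𝒰G) (X := Rep.of Y.ρ0) (Y := Rep.of Y.ρ1) Y.f Y.comm
  comm := fun g y => scoindMap_equivariant i (toBasis h𝒰G) (X := Rep.of Y.ρ0) (Y := Rep.of Y.ρ1)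
    Y.f Y.comm g y
  disc0 := isDiscrete_scoind i (toBasis h𝒰G) (Rep.of Y.ρ0)
  disc1 := isDiscrete_scoind i (toBasis h𝒰G) (Rep.of Y.ρ1)

/-- Evaluation at `1`, as a morphism of complexes over `i : H →* G`. -/
noncomputable def evPHom (Y : HyperLevel25.Cx k 𝒰H Y0 Y1) :
    HyperRes25.PHom i (coindCx i h𝒰G Y) Y where
  φ0 := ev i (toBasis h𝒰G) (Rep.of Y.ρ0)
  φ1 := ev i (toBasis h𝒰G) (Rep.of Y.ρ1)
  comm0 := fun h y => ev_equivariant i (toBasis h𝒰G) (Rep.of Y.ρ0) h y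
  comm1 := fun h y => ev_equivariant i (toBasis h𝒰G) (Rep.of Y.ρ1) h y
  commf := fun _ => rfl

variable (hcont : HyperRes25.IsLevelHom i 𝒰H 𝒰G)
  (hind : ∀ V ∈ 𝒰H, ∃ U ∈ 𝒰G, U.comap i ≤ V) (Y : HyperLevel25.Cx k 𝒰H Y0 Y1)

include hind in
/-- **Hyper-Shapiro, `ℍ¹`, surjectivity.** -/
theorem ppℍ1_surjective :
    Function.Surjective ((evPHom i h𝒰G Y).ppℍ1 hcont h𝒰G h𝒰H) := by
  intro x
  obtain ⟨z, rfl⟩ := (Y.tot h𝒰H).π1_surjective x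
  obtain ⟨hz1, hz2⟩ := (Y.mem_Z1_iff h𝒰H z.1).1 z.2
  have hclev : IsLevel₁ 𝒰H z.1.1.1 := z.1.2
  have hc : z.1.1.1 ∈ Z1 (toBasis h𝒰H) (Rep.of Y.ρ0) :=
    mem_Z1_of (toBasis h𝒰H) (Rep.of Y.ρ0)
      ((LevelCompare13.dOne_eq (Rep.of Y.ρ0) _).symm.trans hz1) hclev
  have hce : ⇑Y.f ∘ z.1.1.1 = (d₀₁ (Rep.of Y.ρ1)).hom z.1.1.2 :=
    hz2.trans (LevelCompare13.dZero_eq (Rep.of Y.ρ1) _)
  obtain ⟨c', e', y, hc', hce', h1, h2⟩ :=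
    hyper₁_surj_raw i (toBasis h𝒰G) (toBasis h𝒰H) hcont hind (X0 := Rep.of Y.ρ0)
      (X1 := Rep.of Y.ρ1) Y.f Y.comm Y.disc0 Y.disc1 hc hce
  have hz' : (⟨(c', e'), hc'.2⟩ : HyperLevel25.K1lev k h𝒰G
      ↥(scoindV i (toBasis h𝒰G) (Rep.of Y.ρ0)) ↥(scoindV i (toBasis h𝒰G) (Rep.of Y.ρ1))) ∈
      ((coindCx i h𝒰G Y).tot h𝒰G).Z1 := by
    refine ((coindCx i h𝒰G Y).mem_Z1_iff h𝒰G _).2 ⟨?_, ?_⟩
    · exact (LevelCompare13.dOne_eq (scoind (k := k) i (toBasis h𝒰G) (Rep.of Y.ρ0)) c').trans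
        (d₁₂_eq_zero_of_mem_Z1 _ _ hc')
    · exact hce'.trans
        (LevelCompare13.dZero_eq (scoind (k := k) i (toBasis h𝒰G) (Rep.of Y.ρ1)) e').symm
  refine ⟨((coindCx i h𝒰G Y).tot h𝒰G).π1 ⟨_, hz'⟩, ?_⟩
  rw [HyperRes25.PHom.ppℍ1_π1, HyperLevel25.Cpx.π1_eq_iff]
  refine ⟨y, Subtype.ext (Prod.ext ?_ ?_)⟩
  · show HyperLevel25.dZero Y.ρ0 y = pp₁ i (ev i (toBasis h𝒰G) (Rep.of Y.ρ0)) c' - z.1.1.1
    rw [h1, LevelCompare13.dZero_eq (Rep.of Y.ρ0)]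
    abel
  · show Y.f y = ev i (toBasis h𝒰G) (Rep.of Y.ρ1) e' - z.1.1.2
    rw [h2]
    abel

include hind in
/-- **Hyper-Shapiro, `ℍ¹`, injectivity.** -/
theorem ppℍ1_injective :
    Function.Injective ((evPHom i h𝒰G Y).ppℍ1 hcont h𝒰G h𝒰H) := by
  rw [injective_iff_map_eq_zero]
  intro x hx
  obtain ⟨z', rfl⟩ := ((coindCx i h𝒰G Y).tot h𝒰G).π1_surjective x
  rw [HyperRes25.PHom.ppℍ1_π1, HyperLevel25.Cpx.π1_eq_zero_iff] at hx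
  obtain ⟨y, hy⟩ := hx
  obtain ⟨hz1, hz2⟩ := ((coindCx i h𝒰G Y).mem_Z1_iff h𝒰G z'.1).1 z'.2
  have hc' : z'.1.1.1 ∈ Z1 (toBasis h𝒰G) (scoind (k := k) i (toBasis h𝒰G) (Rep.of Y.ρ0)) :=
    mem_Z1_of (toBasis h𝒰G) (scoind (k := k) i (toBasis h𝒰G) (Rep.of Y.ρ0))
      ((LevelCompare13.dOne_eq (scoind (k := k) i (toBasis h𝒰G) (Rep.of Y.ρ0)) _).symm.trans hz1)
      z'.1.2
  have hce' : scoindMap i (toBasis h𝒰G) (X := Rep.of Y.ρ0) (Y := Rep.of Y.ρ1) Y.f Y.comm ∘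
      z'.1.1.1 = (d₀₁ (scoind (k := k) i (toBasis h𝒰G) (Rep.of Y.ρ1))).hom z'.1.1.2 :=
    hz2.trans (LevelCompare13.dZero_eq (scoind (k := k) i (toBasis h𝒰G) (Rep.of Y.ρ1)) _)
  have hy1 : HyperLevel25.dZero Y.ρ0 y =
      pp₁ i (ev i (toBasis h𝒰G) (Rep.of Y.ρ0)) z'.1.1.1 := congrArg (fun w => w.1.1) hy
  have hy2 : Y.f y = ev i (toBasis h𝒰G) (Rep.of Y.ρ1) z'.1.1.2 := congrArg (fun w => w.1.2) hy
  obtain ⟨y', hy'1, hy'2⟩ :=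
    hyper₁_inj_raw i (toBasis h𝒰G) (toBasis h𝒰H) hcont hind (X0 := Rep.of Y.ρ0)
      (X1 := Rep.of Y.ρ1) Y.f Y.comm Y.disc0 hc' hce'
      (hy1.symm.trans (LevelCompare13.dZero_eq (Rep.of Y.ρ0) y)) hy2.symm
  rw [HyperLevel25.Cpx.π1_eq_zero_iff]
  refine ⟨y', Subtype.ext (Prod.ext ?_ ?_)⟩
  · exact (LevelCompare13.dZero_eq (scoind (k := k) i (toBasis h𝒰G) (Rep.of Y.ρ0)) y').trans
      hy'1.symm
  · exact hy'2.symm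

include hind in
/-- **Hyper-Shapiro, `ℍ²`, injectivity.** -/
theorem ppℍ2_injective :
    Function.Injective ((evPHom i h𝒰G Y).ppℍ2 hcont h𝒰G h𝒰H) := by
  rw [injective_iff_map_eq_zero]
  intro x hx
  obtain ⟨z', rfl⟩ := ((coindCx i h𝒰G Y).tot h𝒰G).π2_surjective x
  rw [HyperRes25.PHom.ppℍ2_π2, HyperLevel25.Cpx.π2_eq_zero_iff] at hx
  obtain ⟨w, hw⟩ := hx
  obtain ⟨hz1, hz2⟩ := ((coindCx i h𝒰G Y).mem_Z2_iff h𝒰G z'.1).1 z'.2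
  have hc' : z'.1.1.1 ∈ Z2 (toBasis h𝒰G) (scoind (k := k) i (toBasis h𝒰G) (Rep.of Y.ρ0)) :=
    mem_Z2_of (toBasis h𝒰G) (scoind (k := k) i (toBasis h𝒰G) (Rep.of Y.ρ0))
      ((LevelCompare13.dTwo_eq (scoind (k := k) i (toBasis h𝒰G) (Rep.of Y.ρ0)) _).symm.trans hz1)
      ((LevelCompare13.isLevel₂_iff _).2 z'.1.2.1)
  have he' : IsLevel₁ 𝒰G z'.1.1.2 := z'.1.2.2
  have hce' : scoindMap i (toBasis h𝒰G) (X := Rep.of Y.ρ0) (Y := Rep.of Y.ρ1) Y.f Y.comm ∘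
      z'.1.1.1 = (d₁₂ (scoind (k := k) i (toBasis h𝒰G) (Rep.of Y.ρ1))).hom z'.1.1.2 :=
    hz2.trans (LevelCompare13.dOne_eq (scoind (k := k) i (toBasis h𝒰G) (Rep.of Y.ρ1)) _)
  have hb : IsLevel₁ 𝒰H w.1.1 := w.2
  have hw1 : HyperLevel25.dOne Y.ρ0 w.1.1 =
      pp₂ i (ev i (toBasis h𝒰G) (Rep.of Y.ρ0)) z'.1.1.1 := congrArg (fun w => w.1.1) hw
  have hw2 : ⇑Y.f ∘ w.1.1 - HyperLevel25.dZero Y.ρ1 w.1.2 =
      pp₁ i (ev i (toBasis h𝒰G) (Rep.of Y.ρ1)) z'.1.1.2 := congrArg (fun w => w.1.2) hw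
  obtain ⟨b', v', hb', h1, h2⟩ :=
    hyper₂_inj_raw i (toBasis h𝒰G) (toBasis h𝒰H) hcont hind (X0 := Rep.of Y.ρ0)
      (X1 := Rep.of Y.ρ1) Y.f Y.comm Y.disc0 Y.disc1 hc' he' hce' hb (v := w.1.2)
      (hw1.symm.trans (LevelCompare13.dOne_eq (Rep.of Y.ρ0) _))
      (hw2.symm.trans (by rw [LevelCompare13.dZero_eq (Rep.of Y.ρ1)]))
  rw [HyperLevel25.Cpx.π2_eq_zero_iff]
  refine ⟨⟨(b', v'), hb'⟩, Subtype.ext (Prod.ext ?_ ?_)⟩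
  · exact (LevelCompare13.dOne_eq (scoind (k := k) i (toBasis h𝒰G) (Rep.of Y.ρ0)) b').trans
      h1.symm
  · have h3 := LevelCompare13.dZero_eq (scoind (k := k) i (toBasis h𝒰G) (Rep.of Y.ρ1)) v'
    rw [h2, ← h3]
    rfl

include hind in
/-- **Hyper-Shapiro, `ℍ²`, surjectivity.** -/
theorem ppℍ2_surjective :
    Function.Surjective ((evPHom i h𝒰G Y).ppℍ2 hcont h𝒰G h𝒰H) := by
  intro x
  obtain ⟨z, rfl⟩ := (Y.tot h𝒰H).π2_surjective x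
  obtain ⟨hz1, hz2⟩ := (Y.mem_Z2_iff h𝒰H z.1).1 z.2
  have hc : z.1.1.1 ∈ Z2 (toBasis h𝒰H) (Rep.of Y.ρ0) :=
    mem_Z2_of (toBasis h𝒰H) (Rep.of Y.ρ0)
      ((LevelCompare13.dTwo_eq (Rep.of Y.ρ0) _).symm.trans hz1)
      ((LevelCompare13.isLevel₂_iff _).2 z.1.2.1)
  have he : IsLevel₁ 𝒰H z.1.1.2 := z.1.2.2
  have hce : ⇑Y.f ∘ z.1.1.1 = (d₁₂ (Rep.of Y.ρ1)).hom z.1.1.2 :=
    hz2.trans (LevelCompare13.dOne_eq (Rep.of Y.ρ1) _)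
  obtain ⟨c', e', b, v, hc', he', hce', hb, h1, h2⟩ :=
    hyper₂_surj_raw i (toBasis h𝒰G) (toBasis h𝒰H) hcont hind (X0 := Rep.of Y.ρ0)
      (X1 := Rep.of Y.ρ1) Y.f Y.comm Y.disc0 Y.disc1 hc he hce
  have hz' : (⟨(c', e'), ⟨(LevelCompare13.isLevel₂_iff _).1 hc'.2, he'⟩⟩ :
      HyperLevel25.K2lev k h𝒰G
      ↥(scoindV i (toBasis h𝒰G) (Rep.of Y.ρ0)) ↥(scoindV i (toBasis h𝒰G) (Rep.of Y.ρ1))) ∈
      ((coindCx i h𝒰G Y).tot h𝒰G).Z2 := by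
    refine ((coindCx i h𝒰G Y).mem_Z2_iff h𝒰G _).2 ⟨?_, ?_⟩
    · exact (LevelCompare13.dTwo_eq (scoind (k := k) i (toBasis h𝒰G) (Rep.of Y.ρ0)) c').trans
        (d₂₃_eq_zero_of_mem_Z2 _ _ hc')
    · exact hce'.trans
        (LevelCompare13.dOne_eq (scoind (k := k) i (toBasis h𝒰G) (Rep.of Y.ρ1)) e').symm
  refine ⟨((coindCx i h𝒰G Y).tot h𝒰G).π2 ⟨_, hz'⟩, ?_⟩
  rw [HyperRes25.PHom.ppℍ2_π2, HyperLevel25.Cpx.π2_eq_iff]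
  refine ⟨⟨(b, v), hb⟩, Subtype.ext (Prod.ext ?_ ?_)⟩
  · show HyperLevel25.dOne Y.ρ0 b = pp₂ i (ev i (toBasis h𝒰G) (Rep.of Y.ρ0)) c' - z.1.1.1
    rw [h1, LevelCompare13.dOne_eq (Rep.of Y.ρ0)]
    abel
  · show ⇑Y.f ∘ b - HyperLevel25.dZero Y.ρ1 v =
      pp₁ i (ev i (toBasis h𝒰G) (Rep.of Y.ρ1)) e' - z.1.1.2
    rw [h2, LevelCompare13.dZero_eq (Rep.of Y.ρ1)]
    abel

include hind in
/-- **Hyper-Shapiro for `ℍ¹`**: `ℍ¹(G; Coind Y) → ℍ¹(H; Y)` is bijective. -/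
theorem ppℍ1_bijective :
    Function.Bijective ((evPHom i h𝒰G Y).ppℍ1 hcont h𝒰G h𝒰H) :=
  ⟨ppℍ1_injective i h𝒰G h𝒰H hcont hind Y, ppℍ1_surjective i h𝒰G h𝒰H hcont hind Y⟩

include hind in
/-- **Hyper-Shapiro for `ℍ²`**: `ℍ²(G; Coind Y) → ℍ²(H; Y)` is bijective. -/
theorem ppℍ2_bijective :
    Function.Bijective ((evPHom i h𝒰G Y).ppℍ2 hcont h𝒰G h𝒰H) :=
  ⟨ppℍ2_injective i h𝒰G h𝒰H hcont hind Y, ppℍ2_surjective i h𝒰G h𝒰H hcont hind Y⟩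

/-- Hyper-Shapiro as a linear equivalence, `ℍ¹`. -/
noncomputable def shℍ1 : (coindCx i h𝒰G Y).ℍ1 h𝒰G ≃ₗ[k] Y.ℍ1 h𝒰H :=
  LinearEquiv.ofBijective _ (ppℍ1_bijective i h𝒰G h𝒰H hcont hind Y)

/-- Hyper-Shapiro as a linear equivalence, `ℍ²`. -/
noncomputable def shℍ2 : (coindCx i h𝒰G Y).ℍ2 h𝒰G ≃ₗ[k] Y.ℍ2 h𝒰H :=
  LinearEquiv.ofBijective _ (ppℍ2_bijective i h𝒰G h𝒰H hcont hind Y)

@[simp] theorem shℍ1_apply (x : (coindCx i h𝒰G Y).ℍ1 h𝒰G) :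
    shℍ1 i h𝒰G h𝒰H hcont hind Y x = (evPHom i h𝒰G Y).ppℍ1 hcont h𝒰G h𝒰H x := rfl

@[simp] theorem shℍ2_apply (x : (coindCx i h𝒰G Y).ℍ2 h𝒰G) :
    shℍ2 i h𝒰G h𝒰H hcont hind Y x = (evPHom i h𝒰G Y).ppℍ2 hcont h𝒰G h𝒰H x := rfl

/-! #### Functoriality in the complex -/

variable {Z0 Z1 : Type u} [AddCommGroup Z0] [Module k Z0] [AddCommGroup Z1] [Module k Z1]
  {Y} {Z : HyperLevel25.Cx k 𝒰H Z0 Z1}

/-- `Coind` of a morphism of two-term complexes. -/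
noncomputable def coindHom (φ : HyperLevel25.Cx.Hom Y Z) :
    HyperLevel25.Cx.Hom (coindCx i h𝒰G Y) (coindCx i h𝒰G Z) where
  φ0 := scoindMap i (toBasis h𝒰G) (X := Rep.of Y.ρ0) (Y := Rep.of Z.ρ0) φ.φ0 φ.comm0
  φ1 := scoindMap i (toBasis h𝒰G) (X := Rep.of Y.ρ1) (Y := Rep.of Z.ρ1) φ.φ1 φ.comm1
  comm0 := fun _ _ => rfl
  comm1 := fun _ _ => rfl
  commf := fun y => Subtype.ext (funext fun x => φ.commf (y.1 x))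

/-- Hyper-Shapiro is natural in the complex, `ℍ¹`. -/
theorem ppℍ1_coindHom (φ : HyperLevel25.Cx.Hom Y Z) (x : (coindCx i h𝒰G Y).ℍ1 h𝒰G) :
    (evPHom i h𝒰G Z).ppℍ1 hcont h𝒰G h𝒰H ((coindHom i h𝒰G φ).mapℍ1 h𝒰G x) =
      φ.mapℍ1 h𝒰H ((evPHom i h𝒰G Y).ppℍ1 hcont h𝒰G h𝒰H x) :=
  HyperRes25.PHom.ppℍ1_mapℍ1 (evPHom i h𝒰G Y) (evPHom i h𝒰G Z) (coindHom i h𝒰G φ) φ
    (fun _ => rfl) (fun _ => rfl) hcont h𝒰G h𝒰H x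

/-- Hyper-Shapiro is natural in the complex, `ℍ²`. -/
theorem ppℍ2_coindHom (φ : HyperLevel25.Cx.Hom Y Z) (x : (coindCx i h𝒰G Y).ℍ2 h𝒰G) :
    (evPHom i h𝒰G Z).ppℍ2 hcont h𝒰G h𝒰H ((coindHom i h𝒰G φ).mapℍ2 h𝒰G x) =
      φ.mapℍ2 h𝒰H ((evPHom i h𝒰G Y).ppℍ2 hcont h𝒰G h𝒰H x) :=
  HyperRes25.PHom.ppℍ2_mapℍ2 (evPHom i h𝒰G Y) (evPHom i h𝒰G Z) (coindHom i h𝒰G φ) φ
    (fun _ => rfl) (fun _ => rfl) hcont h𝒰G h𝒰H x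

end Package

end Fermat.Agent.PT.PRO.HyperShapiro28
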