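/-
Program F (S55, Poitou–Tate), chapter PRO, helper25 (backup of row HomCoind, requested by the
program integrator).

`HomCoind25`: the Shapiro half of (S1)/(S2h).  For `i : H →* G`, a discrete finitely generated
`G`-module `P` and an `H`-module `W`, the `G`-equivariant isomorphism

  `θ : Hom_k(P, Coind^sm W) ≃ Coind^sm Hom_k(P|_H, W)`,   `θ(φ)(g)(x) = φ(g⁻¹ x)(g)`,

(`theta`, `theta_equivariant`, `theta_bijective`, `ev_theta`), hence for a resolved module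
`P₁ → P₀ → M` a termwise bijective morphism of complexes
`Θ : K(P; Coind^sm W) → coindCx (K(P|_H; W))` (`ThetaHom`) with `evPHom ∘ Θ = KPHom ev`, and so by
`HyperShapiro28.ppℍ1_bijective / ppℍ2_bijective`:

* `fwd_ppℍ1_bijective`, `fwd_ppℍ2_bijective` : the forward map
  `ℍʳ(G; K(P; Coind^sm W)) → ℍʳ(H; K(P|_H; W))`, `(c, e) ↦ (ev ∘ c ∘ i, ev ∘ e)`, induced by
  `PairingRes1.KPHom … (SmoothCoind28.ev i 𝓑G W)`, is bijective for `r = 1, 2`.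
-/
import Mathlib
import Fermat.Agent.PT.PRO.HyperShapiro28
import Fermat.Agent.PT.PRO.PairingRes1
import Fermat.Agent.PT.PRO.HyperProd25

set_option autoImplicit false
set_option linter.unusedSectionVars false

universe u

namespace Fermat.Agent.PT.PRO.HomCoind25

open Function Fermat.Agent.PT.PRO.HyperLevel25 Fermat.Agent.PT.PRO.HyperRes25
  Fermat.Agent.PT.PRO.Resolved4 Fermat.Agent.PT.PRO.PairingRes1
  Fermat.Agent.PT.PRO.SmoothCoind28 Fermat.Agent.PT.PRO.HyperShapiro28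

variable {k G H : Type u} [CommRing k] [Group G] [Group H]

/-! ### The isomorphism `θ` for one module `P` -/

section Theta

variable (i : H →* G) (𝓑G : LevelCoh28.LevelBasis G)
variable {P : Type u} [AddCommGroup P] [Module k P] (ρP : Representation k G P)
variable (W : Rep.{u} k H)


/-- `θ(φ)(g) = (x ↦ φ(g⁻¹ x)(g))`, as a function `G → Hom_k(P, W)`. -/
def thetaFun (φ : P →ₗ[k] ↥(scoindV i 𝓑G W)) (g : G) : P →ₗ[k] W where
  toFun x := (φ (ρP g⁻¹ x)).1 g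
  map_add' x y := by
    rw [map_add, map_add]
    rfl
  map_smul' c x := by
    rw [map_smul, map_smul]
    rfl

@[simp] lemma thetaFun_apply (φ : P →ₗ[k] ↥(scoindV i 𝓑G W)) (g : G) (x : P) :
    thetaFun i 𝓑G ρP W φ g x = (φ (ρP g⁻¹ x)).1 g := rfl

lemma rho_mul_inv (g g' : G) (x : P) : ρP (g * g')⁻¹ x = ρP g'⁻¹ (ρP g⁻¹ x) := by
  rw [mul_inv_rev, map_mul, Module.End.mul_apply]

lemma thetaFun_equivariant (φ : P →ₗ[k] ↥(scoindV i 𝓑G W)) (h : H) (g : G) :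
    thetaFun i 𝓑G ρP W φ (i h * g) =
      Representation.linHom (ρP.comp i) W.ρ h (thetaFun i 𝓑G ρP W φ g) := by
  apply LinearMap.ext
  intro x
  rw [Representation.linHom_apply]
  simp only [LinearMap.comp_apply, thetaFun_apply]
  have hx : ρP (i h * g)⁻¹ x = ρP g⁻¹ ((ρP.comp i) h⁻¹ x) := by
    rw [rho_mul_inv]
    show ρP g⁻¹ (ρP (i h)⁻¹ x) = ρP g⁻¹ (ρP (i h⁻¹) x)
    rw [map_inv i h]
  rw [hx, (φ _).2.1 h g]

/-- If `s` fixes `φ` for the conjugation action then `θ(φ)(g s) = θ(φ)(g)`. -/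
lemma thetaFun_mul_of_fixed (φ : P →ₗ[k] ↥(scoindV i 𝓑G W)) (s : G)
    (hs : Representation.linHom ρP (scoindρ i 𝓑G W) s φ = φ) (g : G) :
    thetaFun i 𝓑G ρP W φ (g * s) = thetaFun i 𝓑G ρP W φ g := by
  apply LinearMap.ext
  intro x
  simp only [thetaFun_apply]
  rw [rho_mul_inv]
  have h1 := LinearMap.congr_fun hs (ρP g⁻¹ x)
  rw [Representation.linHom_apply] at h1
  simp only [LinearMap.comp_apply] at h1
  have h2 := congrFun (congrArg Subtype.val h1) g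
  exact h2

variable [Module.Finite k P] (hP : IsDiscrete 𝓑G.sets ρP)

include hP in
lemma thetaFun_isLevel (φ : P →ₗ[k] ↥(scoindV i 𝓑G W)) :
    LevelCoh28.IsLevel₁ 𝓑G.sets (thetaFun i 𝓑G ρP W φ) := by
  have hd : IsDiscrete (k := k) (Y := P →ₗ[k] ↥(scoindV i 𝓑G W)) 𝓑G.sets
      (Representation.linHom ρP (scoindρ i 𝓑G W)) :=
    Resolved4.isDiscrete_linHom (LevelCompare13.isLevelBasis_iff.1 𝓑G.isBasis) hP
      (show IsDiscrete 𝓑G.sets (scoindρ i 𝓑G W) from isDiscrete_scoind i 𝓑G W)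
  obtain ⟨U, hU, hfix⟩ := hd φ
  exact ⟨U, hU, fun g s hs => thetaFun_mul_of_fixed i 𝓑G ρP W φ s (hfix s hs) g⟩

/-- **`θ : Hom_k(P, Coind^sm W) → Coind^sm Hom_k(P|_H, W)`.** -/
def theta : (P →ₗ[k] ↥(scoindV i 𝓑G W)) →ₗ[k] ↥(scoindV i 𝓑G (Rep.of (Representation.linHom (ρP.comp i) W.ρ))) where
  toFun φ := ⟨thetaFun i 𝓑G ρP W φ,
    fun h g => thetaFun_equivariant i 𝓑G ρP W φ h g, thetaFun_isLevel i 𝓑G ρP W hP φ⟩
  map_add' φ φ' := by
    apply Subtype.ext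
    funext g
    apply LinearMap.ext
    intro x
    rfl
  map_smul' c φ := by
    apply Subtype.ext
    funext g
    apply LinearMap.ext
    intro x
    rfl

@[simp] lemma theta_apply (φ : P →ₗ[k] ↥(scoindV i 𝓑G W)) (g : G) (x : P) :
    (theta i 𝓑G ρP W hP φ).1 g x = (φ (ρP g⁻¹ x)).1 g := rfl

/-- `θ` is `G`-equivariant (conjugation on the source, right translation on the target). -/
lemma theta_equivariant (g : G) (φ : P →ₗ[k] ↥(scoindV i 𝓑G W)) :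
    theta i 𝓑G ρP W hP (Representation.linHom ρP (scoindρ i 𝓑G W) g φ) =
      scoindρ i 𝓑G (Rep.of (Representation.linHom (ρP.comp i) W.ρ)) g (theta i 𝓑G ρP W hP φ) := by
  apply Subtype.ext
  funext g'
  apply LinearMap.ext
  intro x
  show ((Representation.linHom ρP (scoindρ i 𝓑G W) g φ) (ρP g'⁻¹ x)).1 g' =
    (φ (ρP (g' * g)⁻¹ x)).1 (g' * g)
  rw [Representation.linHom_apply, rho_mul_inv]
  rfl

/-- `ev ∘ θ = (ev ∘ ·)`. -/
lemma ev_theta (φ : P →ₗ[k] ↥(scoindV i 𝓑G W)) (x : P) :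
    (theta i 𝓑G ρP W hP φ).1 1 x = (φ x).1 1 := by
  rw [theta_apply, inv_one, map_one, Module.End.one_apply]

lemma theta_injective : Injective (theta i 𝓑G ρP W hP) := by
  intro φ φ' h
  apply LinearMap.ext
  intro y
  apply Subtype.ext
  funext g
  have h1 : (theta i 𝓑G ρP W hP φ).1 g (ρP g y) = (theta i 𝓑G ρP W hP φ').1 g (ρP g y) := by
    rw [h]
  rw [theta_apply, theta_apply, ← Module.End.mul_apply, ← map_mul, inv_mul_cancel, map_one,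
    Module.End.one_apply] at h1
  exact h1

include hP in
/-- The inverse of `θ` on functions: `ψ ↦ (x ↦ (g ↦ ψ(g)(g x)))`. -/
lemma thetaInv_mem (ψ : ↥(scoindV i 𝓑G (Rep.of (Representation.linHom (ρP.comp i) W.ρ)))) (x : P) :
    (fun g => ψ.1 g (ρP g x)) ∈ scoindV i 𝓑G W := by
  refine ⟨fun h g => ?_, ?_⟩
  · show ψ.1 (i h * g) (ρP (i h * g) x) = W.ρ h (ψ.1 g (ρP g x))
    have h1 := ψ.2.1 h g
    have h2 : ψ.1 (i h * g) = Representation.linHom (ρP.comp i) W.ρ h (ψ.1 g) := h1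
    rw [h2, Representation.linHom_apply]
    simp only [LinearMap.comp_apply]
    congr 2
    show ρP (i h⁻¹) (ρP (i h * g) x) = ρP g x
    rw [← Module.End.mul_apply, ← map_mul, map_inv, inv_mul_cancel_left]
  · obtain ⟨U, hU, hψ⟩ := ψ.2.2
    obtain ⟨V, hV, hx⟩ := hP x
    obtain ⟨T, hT, hTle⟩ := 𝓑G.isBasis.directed U hU V hV
    refine ⟨T, hT, fun g s hs => ?_⟩
    show ψ.1 (g * s) (ρP (g * s) x) = ψ.1 g (ρP g x)
    rw [hψ g s (hTle hs).1, map_mul, Module.End.mul_apply, hx s (hTle hs).2]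

lemma theta_surjective : Surjective (theta i 𝓑G ρP W hP) := by
  intro ψ
  let φ : P →ₗ[k] ↥(scoindV i 𝓑G W) :=
    { toFun := fun x => ⟨fun g => ψ.1 g (ρP g x), thetaInv_mem i 𝓑G ρP W hP ψ x⟩
      map_add' := fun x y => by
        apply Subtype.ext
        funext g
        show ψ.1 g (ρP g (x + y)) = ψ.1 g (ρP g x) + ψ.1 g (ρP g y)
        rw [map_add, map_add]
      map_smul' := fun c x => by
        apply Subtype.ext
        funext g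
        show ψ.1 g (ρP g (c • x)) = c • ψ.1 g (ρP g x)
        rw [map_smul, map_smul] }
  refine ⟨φ, ?_⟩
  apply Subtype.ext
  funext g
  apply LinearMap.ext
  intro x
  show ψ.1 g (ρP g (ρP g⁻¹ x)) = ψ.1 g x
  rw [← Module.End.mul_apply, ← map_mul, mul_inv_cancel, map_one, Module.End.one_apply]

theorem theta_bijective : Bijective (theta i 𝓑G ρP W hP) :=
  ⟨theta_injective i 𝓑G ρP W hP, theta_surjective i 𝓑G ρP W hP⟩

end Theta

/-! ### Composition of a coefficient morphism with a morphism over a group homomorphism -/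

section Compose

variable {G' : Type*} [Group G'] {𝒰 : Set (Subgroup G)} {𝒰' : Set (Subgroup G')}
variable {Y0 Y1 Z0 Z1 Y0' Y1' : Type*}
  [AddCommGroup Y0] [Module k Y0] [AddCommGroup Y1] [Module k Y1]
  [AddCommGroup Z0] [Module k Z0] [AddCommGroup Z1] [Module k Z1]
  [AddCommGroup Y0'] [Module k Y0'] [AddCommGroup Y1'] [Module k Y1']
variable {f : G' →* G} {Y : Cx k 𝒰 Y0 Y1} {Z : Cx k 𝒰 Z0 Z1} {Y' : Cx k 𝒰' Y0' Y1'}
  (a : PHom f Y Y') (b : PHom f Z Y') (α : Cx.Hom Y Z)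
  (h0 : ∀ y, a.φ0 y = b.φ0 (α.φ0 y)) (h1 : ∀ y, a.φ1 y = b.φ1 (α.φ1 y))
  (hf : IsLevelHom f 𝒰' 𝒰) (h𝒰 : IsLevelBasis 𝒰) (h𝒰' : IsLevelBasis 𝒰')

include h0 h1 in
lemma ppℍ1_eq_comp (x : Y.ℍ1 h𝒰) :
    a.ppℍ1 hf h𝒰 h𝒰' x = b.ppℍ1 hf h𝒰 h𝒰' (α.mapℍ1 h𝒰 x) := by
  obtain ⟨z, rfl⟩ := (Y.tot h𝒰).π1_surjective x
  show (Y'.tot h𝒰').π1 _ = (Y'.tot h𝒰').π1 _
  congr 1
  apply Subtype.ext; apply Subtype.ext
  show a.map1 z.1.1 = b.map1 (α.map1 z.1.1)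
  rw [PHom.map1_apply, PHom.map1_apply, Cx.Hom.map1_apply]
  refine Prod.ext ?_ (h1 _)
  funext g
  exact h0 _

include h0 h1 in
lemma ppℍ2_eq_comp (x : Y.ℍ2 h𝒰) :
    a.ppℍ2 hf h𝒰 h𝒰' x = b.ppℍ2 hf h𝒰 h𝒰' (α.mapℍ2 h𝒰 x) := by
  obtain ⟨z, rfl⟩ := (Y.tot h𝒰).π2_surjective x
  show (Y'.tot h𝒰').π2 _ = (Y'.tot h𝒰').π2 _
  congr 1
  apply Subtype.ext; apply Subtype.ext
  show a.map2 z.1.1 = b.map2 (α.map2 z.1.1)
  rw [PHom.map2_apply, PHom.map2_apply, Cx.Hom.map2_apply]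
  refine Prod.ext ?_ ?_
  · funext g
    exact h0 _
  · funext g
    exact h1 _

include h0 h1 in
/-- If `a = b ∘ α` termwise, `α` is a termwise bijection and `b` is bijective on `ℍ¹`, so is
`a`. -/
theorem ppℍ1_bijective_of_comp (hα0 : Bijective α.φ0) (hα1 : Bijective α.φ1)
    (hb : Bijective (b.ppℍ1 hf h𝒰 h𝒰')) : Bijective (a.ppℍ1 hf h𝒰 h𝒰') := by
  have h : ⇑(a.ppℍ1 hf h𝒰 h𝒰') = ⇑(b.ppℍ1 hf h𝒰 h𝒰') ∘ ⇑(α.mapℍ1 h𝒰) :=
    funext (ppℍ1_eq_comp a b α h0 h1 hf h𝒰 h𝒰')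
  rw [h]
  exact hb.comp (HyperProd25.bijective_mapℍ1_of_bijective α h𝒰 hα0 hα1)

include h0 h1 in
/-- If `a = b ∘ α` termwise, `α` is a termwise bijection and `b` is bijective on `ℍ²`, so is
`a`. -/
theorem ppℍ2_bijective_of_comp (hα0 : Bijective α.φ0) (hα1 : Bijective α.φ1)
    (hb : Bijective (b.ppℍ2 hf h𝒰 h𝒰')) : Bijective (a.ppℍ2 hf h𝒰 h𝒰') := by
  have h : ⇑(a.ppℍ2 hf h𝒰 h𝒰') = ⇑(b.ppℍ2 hf h𝒰 h𝒰') ∘ ⇑(α.mapℍ2 h𝒰) :=
    funext (ppℍ2_eq_comp a b α h0 h1 hf h𝒰 h𝒰')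
  rw [h]
  exact hb.comp (HyperProd25.bijective_mapℍ2_of_bijective α h𝒰 hα0 hα1)

end Compose

/-! ### The complex `K(P; Coind^sm W)` and hyper-Shapiro for it -/

section Complex

variable (i : H →* G) {𝒰G : Set (Subgroup G)} {𝒰H : Set (Subgroup H)}
  (h𝒰G : IsLevelBasis 𝒰G) (h𝒰H : IsLevelBasis 𝒰H)
  (hcont : IsLevelHom i 𝒰H 𝒰G) (hind : ∀ V ∈ 𝒰H, ∃ U ∈ 𝒰G, U.comap i ≤ V)
variable {P1 P0 M : Type u} [AddCommGroup P1] [Module k P1] [AddCommGroup P0] [Module k P0]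
  [AddCommGroup M] [Module k M]
  (P : Resolved k 𝒰G P1 P0 M) [Module.Finite k P0] [Module.Finite k P1]
  (W : Rep.{u} k H) (hW : IsDiscrete 𝒰H W.ρ)
  (hSc : IsDiscrete (k := k) (Y := ↥(scoindV i (toBasis h𝒰G) W)) 𝒰G
    (scoindρ i (toBasis h𝒰G) W))

/-- `Θ : K(P; Coind^sm W) → Coind^sm K(P|_H; W)`, termwise `θ`. -/
noncomputable def ThetaHom :
    Cx.Hom (P.K h𝒰G (scoindρ i (toBasis h𝒰G) W) hSc)
      (coindCx i h𝒰G ((comapResolved i hcont P).K h𝒰H W.ρ hW)) where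
  φ0 := theta i (toBasis h𝒰G) P.ρ0 W P.disc0
  φ1 := theta i (toBasis h𝒰G) P.ρ1 W P.disc1
  comm0 g φ := theta_equivariant i (toBasis h𝒰G) P.ρ0 W P.disc0 g φ
  comm1 g φ := theta_equivariant i (toBasis h𝒰G) P.ρ1 W P.disc1 g φ
  commf φ := by
    apply Subtype.ext
    funext g
    apply LinearMap.ext
    intro x
    show (φ (P.ι (P.ρ1 g⁻¹ x))).1 g = (φ (P.ρ0 g⁻¹ (P.ι x))).1 g
    rw [P.ι_comm]

lemma ThetaHom_φ0_bijective :
    Bijective (ThetaHom i h𝒰G h𝒰H hcont P W hW hSc).φ0 :=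
  theta_bijective i (toBasis h𝒰G) P.ρ0 W P.disc0

lemma ThetaHom_φ1_bijective :
    Bijective (ThetaHom i h𝒰G h𝒰H hcont P W hW hSc).φ1 :=
  theta_bijective i (toBasis h𝒰G) P.ρ1 W P.disc1

/-- The forward map `K(P; Coind^sm W) → K(P|_H; W)`, `φ ↦ ev ∘ φ`, over `i : H →* G`. -/
noncomputable def fwd :
    PHom i (P.K h𝒰G (scoindρ i (toBasis h𝒰G) W) hSc)
      ((comapResolved i hcont P).K h𝒰H W.ρ hW) :=
  KPHom hcont h𝒰G h𝒰H hSc hW P (ev i (toBasis h𝒰G) W)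
    (fun h f => ev_equivariant i (toBasis h𝒰G) W h f)

include hind in
/-- **Hyper-Shapiro for `K(P; Coind^sm W)`, `ℍ¹`.** -/
theorem fwd_ppℍ1_bijective :
    Bijective ((fwd i h𝒰G h𝒰H hcont P W hW hSc).ppℍ1 hcont h𝒰G h𝒰H) :=
  ppℍ1_bijective_of_comp (fwd i h𝒰G h𝒰H hcont P W hW hSc)
    (evPHom i h𝒰G ((comapResolved i hcont P).K h𝒰H W.ρ hW))
    (ThetaHom i h𝒰G h𝒰H hcont P W hW hSc)
    (fun φ => LinearMap.ext fun x => (ev_theta i (toBasis h𝒰G) P.ρ0 W P.disc0 φ x).symm)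
    (fun φ => LinearMap.ext fun x => (ev_theta i (toBasis h𝒰G) P.ρ1 W P.disc1 φ x).symm)
    hcont h𝒰G h𝒰H (ThetaHom_φ0_bijective i h𝒰G h𝒰H hcont P W hW hSc)
    (ThetaHom_φ1_bijective i h𝒰G h𝒰H hcont P W hW hSc)
    (HyperShapiro28.ppℍ1_bijective i h𝒰G h𝒰H hcont hind _)

include hind in
/-- **Hyper-Shapiro for `K(P; Coind^sm W)`, `ℍ²`.** -/
theorem fwd_ppℍ2_bijective :
    Bijective ((fwd i h𝒰G h𝒰H hcont P W hW hSc).ppℍ2 hcont h𝒰G h𝒰H) :=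
  ppℍ2_bijective_of_comp (fwd i h𝒰G h𝒰H hcont P W hW hSc)
    (evPHom i h𝒰G ((comapResolved i hcont P).K h𝒰H W.ρ hW))
    (ThetaHom i h𝒰G h𝒰H hcont P W hW hSc)
    (fun φ => LinearMap.ext fun x => (ev_theta i (toBasis h𝒰G) P.ρ0 W P.disc0 φ x).symm)
    (fun φ => LinearMap.ext fun x => (ev_theta i (toBasis h𝒰G) P.ρ1 W P.disc1 φ x).symm)
    hcont h𝒰G h𝒰H (ThetaHom_φ0_bijective i h𝒰G h𝒰H hcont P W hW hSc)
    (ThetaHom_φ1_bijective i h𝒰G h𝒰H hcont P W hW hSc)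
    (HyperShapiro28.ppℍ2_bijective i h𝒰G h𝒰H hcont hind _)

end Complex

end Fermat.Agent.PT.PRO.HomCoind25
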