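/-
Program F (S55), chapter PRO, helper13.

**Hyper-Shapiro for `K(P; Coind W)`** (the Shapiro half of (S1)/(S2h)).  For `i : H →* G`, a
resolved module `R` over `G` (`P₀`, `P₁` finitely generated, discrete) and a discrete `H`-module
`W`, the canonical map

  `θ : Hom(P_j, Coind^sm W) → Coind^sm Hom(P_j|_H, W)`, `θ(φ)(g)(p) = φ(g⁻¹ p)(g)`

is a `G`-equivariant linear bijection (`theta`, `theta_equivariant`, `theta_bijective`), compatible
with the differentials (`thetaHom : K(P; Coind W) → coindCx (K(P|_H; W))`) and with evaluation at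
`1` (`ev_theta`).  Combined with helper28's `HyperShapiro28.ppℍ^r_bijective`:

* `fwd_ppℍ1_bijective`, `fwd_ppℍ2_bijective` : the forward map `K(P; Coind W) → K(P|_H; W)`,
  `φ ↦ ev ∘ φ` (`= PairingRes1.KPHom .. (ev ..)`), is bijective on `ℍ¹`, `ℍ²`
  (`hind`: the basis of `H` is induced from `G`).
-/
import Mathlib
import Fermat.Agent.PT.PRO.HyperShapiro28
import Fermat.Agent.PT.PRO.Resolved4
import Fermat.Agent.PT.PRO.PairingRes1
import Fermat.Agent.PT.PRO.PHomCompose13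

set_option autoImplicit false

universe u

namespace Fermat.Agent.PT.PRO.HomCoindIso13

open Function
open Fermat.Agent.PT.PRO.LevelCoh28 Fermat.Agent.PT.PRO.SmoothCoind28
open Fermat.Agent.PT.PRO.HyperShapiro28

variable {k G H : Type u} [CommRing k] [Group G] [Group H]
variable (i : H →* G) (𝓑 : LevelBasis G)
variable {P W : Type u} [AddCommGroup P] [Module k P] [AddCommGroup W] [Module k W]
variable (ρP : Representation k G P) (ρW : Representation k H W)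

/-- `θ(φ)(g) = [p ↦ φ(g⁻¹ p)(g)]`. -/
def thetaFun (φ : P →ₗ[k] ↥(scoindV i 𝓑 (Rep.of ρW))) (g : G) : P →ₗ[k] W where
  toFun p := (φ (ρP g⁻¹ p)).1 g
  map_add' p p' := by
    rw [map_add, map_add]
    rfl
  map_smul' c p := by
    rw [map_smul, map_smul]
    rfl

theorem thetaFun_apply (φ : P →ₗ[k] ↥(scoindV i 𝓑 (Rep.of ρW))) (g : G) (p : P) :
    thetaFun i 𝓑 ρP ρW φ g p = (φ (ρP g⁻¹ p)).1 g := rfl

/-- The `H`-module `Hom(P|_H, W)`. -/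
abbrev homRep : Rep.{u} k H := Rep.of (Representation.linHom (ρP.comp i) ρW)

theorem thetaFun_equivariant (φ : P →ₗ[k] ↥(scoindV i 𝓑 (Rep.of ρW))) (h : H) (g : G) :
    thetaFun i 𝓑 ρP ρW φ (i h * g) = (homRep i ρP ρW).ρ h (thetaFun i 𝓑 ρP ρW φ g) := by
  ext p
  have h1 : (φ (ρP (i h * g)⁻¹ p)).1 (i h * g) = ρW h ((φ (ρP (i h * g)⁻¹ p)).1 g) :=
    (φ (ρP (i h * g)⁻¹ p)).2.1 h g
  have h2 : ρP (i h * g)⁻¹ p = ρP g⁻¹ (ρP (i h⁻¹) p) := by
    rw [mul_inv_rev, map_mul, Module.End.mul_apply, ← map_inv i h]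
  rw [thetaFun_apply, h1, h2]
  rfl

variable [Module.Finite k P]

include 𝓑 in
/-- A finitely generated discrete module is fixed pointwise by a member of the basis. -/
theorem exists_fixing_all (hP : HyperLevel25.IsDiscrete 𝓑.sets ρP) :
    ∃ U ∈ 𝓑.sets, ∀ s ∈ U, ∀ x, ρP s x = x := by
  classical
  have h𝒰 : HyperLevel25.IsLevelBasis 𝓑.sets := LevelCompare13.isLevelBasis_iff.1 𝓑.isBasis
  obtain ⟨T, hT⟩ := (Module.Finite.fg_top : (⊤ : Submodule k P).FG)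
  choose U hU hUfix using hP
  obtain ⟨W₁, hW₁, hW₁le⟩ := h𝒰.exists_le_of_finite (fun t : T => U (t : P)) (fun t => hU _)
  refine ⟨W₁, hW₁, fun s hs x => ?_⟩
  have hx : x ∈ Submodule.span k (T : Set P) := by rw [hT]; trivial
  induction hx using Submodule.span_induction with
  | mem y hy => exact hUfix y s (hW₁le ⟨y, hy⟩ hs)
  | zero => simp
  | add y z _ _ hy hz => rw [map_add, hy, hz]
  | smul c y _ hy => rw [map_smul, hy]

include 𝓑 in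
/-- A linear map from a finitely generated module to the level functions is uniformly level. -/
theorem exists_uniform_level (φ : P →ₗ[k] ↥(scoindV i 𝓑 (Rep.of ρW))) :
    ∃ U ∈ 𝓑.sets, ∀ x g, ∀ s ∈ U, (φ x).1 (g * s) = (φ x).1 g := by
  classical
  have h𝒰 : HyperLevel25.IsLevelBasis 𝓑.sets := LevelCompare13.isLevelBasis_iff.1 𝓑.isBasis
  obtain ⟨T, hT⟩ := (Module.Finite.fg_top : (⊤ : Submodule k P).FG)
  have hl : ∀ x : P, ∃ U ∈ 𝓑.sets, ∀ g, ∀ s ∈ U, (φ x).1 (g * s) = (φ x).1 g :=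
    fun x => (φ x).2.2
  choose U hU hUinv using hl
  obtain ⟨W₁, hW₁, hW₁le⟩ := h𝒰.exists_le_of_finite (fun t : T => U (t : P)) (fun t => hU _)
  refine ⟨W₁, hW₁, fun x g s hs => ?_⟩
  have hx : x ∈ Submodule.span k (T : Set P) := by rw [hT]; trivial
  induction hx using Submodule.span_induction with
  | mem y hy => exact hUinv y g s (hW₁le ⟨y, hy⟩ hs)
  | zero => simp
  | add y z _ _ hy hz =>
    rw [map_add]
    show (φ y).1 (g * s) + (φ z).1 (g * s) = (φ y).1 g + (φ z).1 g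
    rw [hy, hz]
  | smul c y _ hy =>
    rw [map_smul]
    show c • (φ y).1 (g * s) = c • (φ y).1 g
    rw [hy]

theorem thetaFun_isLevel (hP : HyperLevel25.IsDiscrete 𝓑.sets ρP)
    (φ : P →ₗ[k] ↥(scoindV i 𝓑 (Rep.of ρW))) :
    IsLevel₁ 𝓑.sets (thetaFun i 𝓑 ρP ρW φ) := by
  have h𝒰 : HyperLevel25.IsLevelBasis 𝓑.sets := LevelCompare13.isLevelBasis_iff.1 𝓑.isBasis
  obtain ⟨U₁, hU₁, h1⟩ := exists_fixing_all 𝓑 ρP hP
  obtain ⟨U₂, hU₂, h2⟩ := exists_uniform_level i 𝓑 ρW φ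
  obtain ⟨U, hU, hle⟩ := h𝒰.inf U₁ hU₁ U₂ hU₂
  refine ⟨U, hU, fun g s hs => ?_⟩
  ext p
  rw [thetaFun_apply, thetaFun_apply, h2 _ g s (hle hs).2, mul_inv_rev, map_mul,
    Module.End.mul_apply, h1 s⁻¹ (U₁.inv_mem (hle hs).1)]

variable (hP : HyperLevel25.IsDiscrete 𝓑.sets ρP)

/-- `θ : Hom(P, Coind W) → Coind Hom(P|_H, W)`. -/
def theta : (P →ₗ[k] ↥(scoindV i 𝓑 (Rep.of ρW))) →ₗ[k] ↥(scoindV i 𝓑 (homRep i ρP ρW)) where
  toFun φ := ⟨thetaFun i 𝓑 ρP ρW φ, thetaFun_equivariant i 𝓑 ρP ρW φ,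
    thetaFun_isLevel i 𝓑 ρP ρW hP φ⟩
  map_add' _ _ := Subtype.ext (funext fun _ => LinearMap.ext fun _ => rfl)
  map_smul' _ _ := Subtype.ext (funext fun _ => LinearMap.ext fun _ => rfl)

theorem theta_apply (φ : P →ₗ[k] ↥(scoindV i 𝓑 (Rep.of ρW))) (g : G) (p : P) :
    (theta i 𝓑 ρP ρW hP φ).1 g p = (φ (ρP g⁻¹ p)).1 g := rfl

/-- `θ` is `G`-equivariant. -/
theorem theta_equivariant (γ : G) (φ : P →ₗ[k] ↥(scoindV i 𝓑 (Rep.of ρW))) :
    theta i 𝓑 ρP ρW hP (Representation.linHom ρP (scoindρ i 𝓑 (Rep.of ρW)) γ φ) =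
      scoindρ i 𝓑 (homRep i ρP ρW) γ (theta i 𝓑 ρP ρW hP φ) := by
  apply Subtype.ext
  funext g
  ext p
  show ((Representation.linHom ρP (scoindρ i 𝓑 (Rep.of ρW)) γ φ) (ρP g⁻¹ p)).1 g =
    (φ (ρP (g * γ)⁻¹ p)).1 (g * γ)
  rw [Representation.linHom_apply, mul_inv_rev, map_mul, Module.End.mul_apply]
  rfl

theorem theta_injective : Injective (theta i 𝓑 ρP ρW hP) := by
  refine (injective_iff_map_eq_zero _).2 fun φ hφ => ?_
  ext x g
  show (φ x).1 g = 0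
  have h1 := congrFun (congrArg Subtype.val hφ) g
  have h2 : (theta i 𝓑 ρP ρW hP φ).1 g (ρP g x) = 0 := by
    rw [h1]
    rfl
  rw [theta_apply, ← Module.End.mul_apply, ← map_mul, inv_mul_cancel, map_one,
    Module.End.one_apply] at h2
  exact h2

/-- The inverse of `θ` on functions. -/
def thetaInvFun (F : ↥(scoindV i 𝓑 (homRep i ρP ρW))) (x : P) : G → W :=
  fun g => F.1 g (ρP g x)

omit [Module.Finite k P] in
include hP in
theorem thetaInvFun_mem (F : ↥(scoindV i 𝓑 (homRep i ρP ρW))) (x : P) :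
    thetaInvFun i 𝓑 ρP ρW F x ∈ scoindV i 𝓑 (Rep.of ρW) := by
  have h𝒰 : HyperLevel25.IsLevelBasis 𝓑.sets := LevelCompare13.isLevelBasis_iff.1 𝓑.isBasis
  refine ⟨fun h g => ?_, ?_⟩
  · show F.1 (i h * g) (ρP (i h * g) x) = ρW h (F.1 g (ρP g x))
    rw [F.2.1 h g]
    show ρW h (F.1 g (ρP (i h⁻¹) (ρP (i h * g) x))) = ρW h (F.1 g (ρP g x))
    rw [← Module.End.mul_apply, ← map_mul, map_inv, inv_mul_cancel_left]
  · obtain ⟨U₁, hU₁, h1⟩ := F.2.2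
    obtain ⟨U₂, hU₂, h2⟩ := hP x
    obtain ⟨U, hU, hle⟩ := h𝒰.inf U₁ hU₁ U₂ hU₂
    refine ⟨U, hU, fun g s hs => ?_⟩
    show F.1 (g * s) (ρP (g * s) x) = F.1 g (ρP g x)
    rw [h1 g s (hle hs).1, map_mul, Module.End.mul_apply, h2 s (hle hs).2]

theorem theta_surjective : Surjective (theta i 𝓑 ρP ρW hP) := by
  intro F
  let φ : P →ₗ[k] ↥(scoindV i 𝓑 (Rep.of ρW)) :=
    { toFun := fun x => ⟨thetaInvFun i 𝓑 ρP ρW F x, thetaInvFun_mem i 𝓑 ρP ρW hP F x⟩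
      map_add' := fun x y => Subtype.ext (funext fun g => by
        show F.1 g (ρP g (x + y)) = F.1 g (ρP g x) + F.1 g (ρP g y)
        rw [map_add, map_add])
      map_smul' := fun c x => Subtype.ext (funext fun g => by
        show F.1 g (ρP g (c • x)) = c • F.1 g (ρP g x)
        rw [map_smul, map_smul]) }
  refine ⟨φ, Subtype.ext (funext fun g => LinearMap.ext fun p => ?_)⟩
  show F.1 g (ρP g (ρP g⁻¹ p)) = F.1 g p
  rw [← Module.End.mul_apply, ← map_mul, mul_inv_cancel, map_one, Module.End.one_apply]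

theorem theta_bijective : Bijective (theta i 𝓑 ρP ρW hP) :=
  ⟨theta_injective i 𝓑 ρP ρW hP, theta_surjective i 𝓑 ρP ρW hP⟩

/-- `ev ∘ θ = (ev ∘ ·)`. -/
theorem ev_theta (φ : P →ₗ[k] ↥(scoindV i 𝓑 (Rep.of ρW))) :
    ev i 𝓑 (homRep i ρP ρW) (theta i 𝓑 ρP ρW hP φ) =
      LinearMap.compRight k (ev i 𝓑 (Rep.of ρW)) φ := by
  ext p
  show (φ (ρP 1⁻¹ p)).1 1 = (φ p).1 1
  rw [inv_one, map_one, Module.End.one_apply]

/-! ### The isomorphism of complexes `K(P; Coind W) ≅ Coind K(P|_H; W)` -/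

section Complex

open Fermat.Agent.PT.PRO.HyperLevel25 Fermat.Agent.PT.PRO.Resolved4

variable {𝒰G : Set (Subgroup G)} {𝒰H : Set (Subgroup H)}
  (h𝒰G : HyperLevel25.IsLevelBasis 𝒰G) (h𝒰H : HyperLevel25.IsLevelBasis 𝒰H)
  (hcont : HyperRes25.IsLevelHom i 𝒰H 𝒰G)
variable {P1 P0 M : Type u} [AddCommGroup P1] [Module k P1] [AddCommGroup P0] [Module k P0]
  [AddCommGroup M] [Module k M] [Module.Finite k P0] [Module.Finite k P1]
variable (R : Resolved k 𝒰G P1 P0 M) (hW : HyperLevel25.IsDiscrete 𝒰H ρW)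

theorem isDiscrete_scoindρ :
    HyperLevel25.IsDiscrete 𝒰G (scoindρ i (toBasis h𝒰G) (Rep.of ρW)) :=
  isDiscrete_scoind i (toBasis h𝒰G) (Rep.of ρW)

/-- `θ` as a morphism of complexes. -/
noncomputable def thetaHom :
    Cx.Hom (R.K h𝒰G (scoindρ i (toBasis h𝒰G) (Rep.of ρW)) (isDiscrete_scoindρ i ρW h𝒰G))
      (coindCx i h𝒰G ((PairingRes1.comapResolved i hcont R).K h𝒰H ρW hW)) where
  φ0 := theta i (toBasis h𝒰G) R.ρ0 ρW R.disc0
  φ1 := theta i (toBasis h𝒰G) R.ρ1 ρW R.disc1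
  comm0 γ φ := theta_equivariant i (toBasis h𝒰G) R.ρ0 ρW R.disc0 γ φ
  comm1 γ φ := theta_equivariant i (toBasis h𝒰G) R.ρ1 ρW R.disc1 γ φ
  commf φ := by
    apply Subtype.ext
    funext g
    ext p
    show (φ (R.ι (R.ρ1 g⁻¹ p))).1 g = (φ (R.ρ0 g⁻¹ (R.ι p))).1 g
    rw [R.ι_comm]

/-- The forward map `K(P; Coind W) → K(P|_H; W)`, `φ ↦ ev ∘ φ`, over `i`. -/
noncomputable abbrev fwd :
    HyperRes25.PHom i
      (R.K h𝒰G (scoindρ i (toBasis h𝒰G) (Rep.of ρW)) (isDiscrete_scoindρ i ρW h𝒰G))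
      ((PairingRes1.comapResolved i hcont R).K h𝒰H ρW hW) :=
  PairingRes1.KPHom hcont h𝒰G h𝒰H (isDiscrete_scoindρ i ρW h𝒰G) hW R
    (ev i (toBasis h𝒰G) (Rep.of ρW)) (ev_equivariant i (toBasis h𝒰G) (Rep.of ρW))

variable (hind : ∀ V ∈ 𝒰H, ∃ U ∈ 𝒰G, U.comap i ≤ V)

include hind in
/-- **Hyper-Shapiro for `K(P; Coind W)`, `ℍ¹`.** -/
theorem fwd_ppℍ1_bijective :
    Bijective ((fwd i ρW h𝒰G h𝒰H hcont R hW).ppℍ1 hcont h𝒰G h𝒰H) :=
  PHomCompose13.ppℍ1_bijective_of_comp (fwd i ρW h𝒰G h𝒰H hcont R hW)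
    (evPHom i h𝒰G ((PairingRes1.comapResolved i hcont R).K h𝒰H ρW hW))
    (thetaHom i ρW h𝒰G h𝒰H hcont R hW)
    (fun y => (ev_theta i (toBasis h𝒰G) R.ρ0 ρW R.disc0 y).symm)
    (fun y => (ev_theta i (toBasis h𝒰G) R.ρ1 ρW R.disc1 y).symm) hcont h𝒰G h𝒰H
    (theta_bijective i (toBasis h𝒰G) R.ρ0 ρW R.disc0)
    (theta_bijective i (toBasis h𝒰G) R.ρ1 ρW R.disc1)
    (HyperShapiro28.ppℍ1_bijective i h𝒰G h𝒰H hcont hind _)

include hind in
/-- **Hyper-Shapiro for `K(P; Coind W)`, `ℍ²`.** -/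
theorem fwd_ppℍ2_bijective :
    Bijective ((fwd i ρW h𝒰G h𝒰H hcont R hW).ppℍ2 hcont h𝒰G h𝒰H) :=
  PHomCompose13.ppℍ2_bijective_of_comp (fwd i ρW h𝒰G h𝒰H hcont R hW)
    (evPHom i h𝒰G ((PairingRes1.comapResolved i hcont R).K h𝒰H ρW hW))
    (thetaHom i ρW h𝒰G h𝒰H hcont R hW)
    (fun y => (ev_theta i (toBasis h𝒰G) R.ρ0 ρW R.disc0 y).symm)
    (fun y => (ev_theta i (toBasis h𝒰G) R.ρ1 ρW R.disc1 y).symm) hcont h𝒰G h𝒰H
    (theta_bijective i (toBasis h𝒰G) R.ρ0 ρW R.disc0)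
    (theta_bijective i (toBasis h𝒰G) R.ρ1 ρW R.disc1)
    (HyperShapiro28.ppℍ2_bijective i h𝒰G h𝒰H hcont hind _)

end Complex

end Fermat.Agent.PT.PRO.HomCoindIso13
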