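/-
Program F (S55, Poitou–Tate), chapter PRO/GLUE, leaf (LG)-limit (owner helper3).

`InjLimit3`: EXHAUSTION for "injective on `p`-torsion of `H²`".  Let `α : X → X'` be an
equivariant map of discrete `G`-modules (level basis `𝒰`), `ℱ ⊆ 𝒰` a cofinal family of normal
subgroups.  If for every `V ∈ ℱ` the map `H²(G ⧸ V, X^V)[p] → H²(G ⧸ V, X'^V)` induced by `α` is
injective (RAW form `FinInjOnPTor`), then `H²_lev(G; X)[p] → H²_lev(G; X')` is injective: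

* `raw_injOnPTor` (cochain form: `φ` level 2-cocycle, `p • φ = d(level)`, `α ∘ φ = d(level)`
  ⇒ `φ = d(level)`), the shape of hypothesis `(LG)` of PLAN v4 / `LocalGlobal20.hLG`;
* `mapH2_eq_zero_of_pTor` (packaged on `Resolved4.Hlev2`, `Resolved4.lvlHom`).

With `X = I_{S,q}`, `X' = C_S`, `α = toCS ∘ incl_q` the finite-level hypothesis is GLOB's
`InterfaceCF23.LocalInjectivity` transported by GLUE.
-/
import Mathlib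
import Fermat.Agent.PT.PRO.InvP4

set_option autoImplicit false

namespace Fermat.Agent.PT.PRO.InjLimit3

open Fermat.Agent.PT.PRO.HyperLevel25 Fermat.Agent.PT.PRO.GlobalDuality20
  Fermat.Agent.PT.PRO.HyperColim18 Fermat.Agent.PT.PRO.Resolved4 Fermat.Agent.PT.PRO.InvP4

variable {k : Type*} [CommRing k] {G : Type*} [Group G] {𝒰 : Set (Subgroup G)}
variable {Y Y' : Type*} [AddCommGroup Y] [Module k Y] [AddCommGroup Y'] [Module k Y']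

/-- RAW finite-level statement "`α_* : H²(Q, X)[p] → H²(Q, X')` is injective": a 2-cocycle `φ`
of `X` with `p • φ` a coboundary and `α ∘ φ` a coboundary is a coboundary. -/
def FinInjOnPTor {Q : Type*} [Group Q] {X X' : Type*} [AddCommGroup X] [Module k X]
    [AddCommGroup X'] [Module k X'] (ρ : Representation k Q X) (ρ' : Representation k Q X')
    (α : X →ₗ[k] X') (p : ℕ) : Prop :=
  ∀ φ : Q × Q → X, dTwo ρ φ = 0 → (∃ v : Q → X, p • φ = dOne ρ v) →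
    (∃ w : Q → X', (fun q => α (φ q)) = dOne ρ' w) → ∃ v : Q → X, φ = dOne ρ v

variable (h𝒰 : IsLevelBasis 𝒰) (ρ : Representation k G Y) (ρ' : Representation k G Y')
  (hρ : IsDiscrete 𝒰 ρ) (hρ' : IsDiscrete 𝒰 ρ')

include h𝒰 hρ hρ' in
/-- A level 2-cochain and a level 1-cochain of `Y`, and a level 1-cochain of `Y'`, are of level
`V` for a common `V` of a cofinal family. -/
lemma exists_common_level₃ {ℱ : Set (Subgroup G)} (hcof : ∀ U ∈ 𝒰, ∃ V ∈ ℱ, V ≤ U)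
    {φ : G × G → Y} {u : G → Y} {w : G → Y'} (hφ : IsLevel₂ 𝒰 φ) (hu : IsLevel₁ 𝒰 u)
    (hw : IsLevel₁ 𝒰 w) :
    ∃ V ∈ ℱ, IsLevelAt₂ ρ V φ ∧ IsLevelAt₁ ρ V u ∧ IsLevelAt₁ ρ' V w := by
  obtain ⟨W₁, hW₁, -, h1⟩ := exists_normal_levelAt₂ h𝒰 hρ hφ
  obtain ⟨W₂, hW₂, -, h2a, h2b⟩ := h𝒰.exists_normal_fixing hρ hu
  obtain ⟨W₃, hW₃, -, h3a, h3b⟩ := h𝒰.exists_normal_fixing hρ' hw
  obtain ⟨A, hA, hAle⟩ := h𝒰.inf W₁ hW₁ W₂ hW₂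
  obtain ⟨B, hB, hBle⟩ := h𝒰.inf A hA W₃ hW₃
  obtain ⟨V, hV, hVle⟩ := hcof B hB
  have l1 : V ≤ W₁ := hVle.trans (hBle.trans (inf_le_left.trans (hAle.trans inf_le_left)))
  have l2 : V ≤ W₂ := hVle.trans (hBle.trans (inf_le_left.trans (hAle.trans inf_le_right)))
  have l3 : V ≤ W₃ := hVle.trans (hBle.trans inf_le_right)
  exact ⟨V, hV, h1.mono l1,
    ⟨fun g s hs => h2a g s (l2 hs), fun g s hs => h2b g s (l2 hs)⟩,
    ⟨fun g s hs => h3a g s (l3 hs), fun g s hs => h3b g s (l3 hs)⟩⟩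

include h𝒰 hρ hρ' in
/-- **Exhaustion, cochain form.** -/
theorem raw_injOnPTor (α : Y →ₗ[k] Y') (hα : ∀ g y, α (ρ g y) = ρ' g (α y)) (p : ℕ)
    {ℱ : Set (Subgroup G)} (hsub : ℱ ⊆ 𝒰) (hnormal : ∀ V ∈ ℱ, V.Normal)
    (hcof : ∀ U ∈ 𝒰, ∃ V ∈ ℱ, V ≤ U)
    (hfin : ∀ V (hV : V ∈ ℱ), haveI := hnormal V hV;
      FinInjOnPTor (fixedRep V ρ) (fixedRep V ρ') (fixedMap V ρ ρ' α hα) p)
    {φ : G × G → Y} (hφl : IsLevel₂ 𝒰 φ) (hφc : dTwo ρ φ = 0)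
    (hp : ∃ u : G → Y, IsLevel₁ 𝒰 u ∧ p • φ = dOne ρ u)
    (hαφ : ∃ w : G → Y', IsLevel₁ 𝒰 w ∧ (fun q => α (φ q)) = dOne ρ' w) :
    ∃ v : G → Y, IsLevel₁ 𝒰 v ∧ φ = dOne ρ v := by
  obtain ⟨u, hu, hpu⟩ := hp
  obtain ⟨w, hw, hαw⟩ := hαφ
  obtain ⟨V, hV, hφV, huV, hwV⟩ := exists_common_level₃ h𝒰 ρ ρ' hρ hρ' hcof hφl hu hw
  have := hnormal V hV
  have hval : ∀ g g' : G, φ ((g : G ⧸ V).out, (g' : G ⧸ V).out) = φ (g, g') := by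
    intro g g'
    obtain ⟨s, hs, h⟩ := out_eq_mul V g
    obtain ⟨s', hs', h'⟩ := out_eq_mul V g'
    rw [h, h', hφV.1 g g' s s' hs hs']
  obtain ⟨v, hv⟩ := hfin V hV (desc₂ φ hφV) (dTwo_desc₂ V ρ hφV hφc)
    ⟨desc₁ u huV, by
      apply infl₂_injective
      rw [infl₂_dOne, infl₁_desc₁, ← hpu]
      funext ⟨g, g'⟩
      simp only [infl₂, Pi.smul_apply, Submodule.coe_smul_of_tower, desc₂, hval]⟩
    ⟨desc₁ w hwV, by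
      apply infl₂_injective
      rw [infl₂_dOne, infl₁_desc₁, ← hαw]
      funext ⟨g, g'⟩
      simp only [infl₂, coe_fixedMap, desc₂, hval]⟩
  refine ⟨infl₁ v, (isLevelAt₁_infl₁ v).isLevel₁ (hsub hV), ?_⟩
  rw [← infl₂_dOne, ← hv, infl₂_desc₂]

/-- **Exhaustion, packaged form**: `α_* : H²_lev(G; Y) → H²_lev(G; Y')` is injective on
`p`-torsion. -/
theorem mapH2_eq_zero_of_pTor (α : Y →ₗ[k] Y') (hα : ∀ g y, α (ρ g y) = ρ' g (α y)) (p : ℕ)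
    {ℱ : Set (Subgroup G)} (hsub : ℱ ⊆ 𝒰) (hnormal : ∀ V ∈ ℱ, V.Normal)
    (hcof : ∀ U ∈ 𝒰, ∃ V ∈ ℱ, V ≤ U)
    (hfin : ∀ V (hV : V ∈ ℱ), haveI := hnormal V hV;
      FinInjOnPTor (fixedRep V ρ) (fixedRep V ρ') (fixedMap V ρ ρ' α hα) p)
    (x : Hlev2 h𝒰 ρ hρ) (hpx : p • x = 0)
    (hαx : (lvlHom h𝒰 hρ hρ' α hα).mapH2 x = 0) : x = 0 := by
  obtain ⟨z, rfl⟩ := (lvl h𝒰 ρ hρ).π2_surjective x
  rw [← map_nsmul, π2_lvl_eq_zero_iff] at hpx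
  rw [Cpx.Hom.mapH2_π2, π2_lvl_eq_zero_iff] at hαx
  obtain ⟨u, hu, hux⟩ := hpx
  obtain ⟨w, hw, hwx⟩ := hαx
  rw [π2_lvl_eq_zero_iff]
  obtain ⟨v, hv, hφv⟩ := raw_injOnPTor h𝒰 ρ ρ' hρ hρ' α hα p hsub hnormal hcof hfin
    (φ := ((z : lev₂ k h𝒰 Y) : G × G → Y)) (z : lev₂ k h𝒰 Y).2
    ((mem_lvl_Z2_iff h𝒰 ρ hρ _).1 z.2) ⟨u, hu, hux.symm⟩ ⟨w, hw, hwx.symm⟩
  exact ⟨v, hv, hφv.symm⟩

end Fermat.Agent.PT.PRO.InjLimit3
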