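/-
Program F (S55, Poitou–Tate), chapter PRO/GLUE, leaf (LG)-finite-level tools (owner helper3).

`InjTransport3`: two generic tools to produce the finite-level hypothesis
`InjLimit3.FinInjOnPTor ρ ρ' α p` ("`α_* : H²(Q, X)[p] → H²(Q, X')` is injective", raw form):

* `finInjOnPTor_of_H2` : from the Mathlib-`groupCohomology` statement
  `∀ x : H2 A, p • x = 0 → map (MonoidHom.id Q) f 2 x = 0 → x = 0` for `f : A ⟶ C` in `Rep k Q`
  (the shape of GLOB's `InterfaceCF23.LocalInjectivity`);
* `FinInjOnPTor.transport` : transport along a group isomorphism `e : Q ≃* Q'`, a semilinear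
  isomorphism `θ : X ≃ X'₁` of the sources and ANY semilinear map `Φ` of the targets making the
  square commute (`Φ` need not be injective: injectivity of the composite is inherited by the
  first map).
-/
import Mathlib
import Fermat.Agent.PT.PRO.InjLimit3

set_option autoImplicit false

namespace Fermat.Agent.PT.PRO.InjTransport3

open Fermat.Agent.PT.PRO.HyperLevel25 Fermat.Agent.PT.PRO.InjLimit3

open CategoryTheory groupCohomology

section Mathlib

variable {k : Type} [CommRing k] {Q : Type} [Group Q]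

lemma mem_cocycles₂_of_dTwo (A : Rep.{0} k Q) {z : Q × Q → A.V} (hz : dTwo A.ρ z = 0) :
    z ∈ cocycles₂ A := by
  rw [mem_cocycles₂_iff]
  intro g h j
  have := congrFun hz (g, h, j)
  rw [dTwo_apply, Pi.zero_apply] at this
  refine Eq.symm ?_
  rw [← sub_eq_zero, ← this]
  abel

lemma mem_coboundaries₂_iff (A : Rep.{0} k Q) (z : Q × Q → A.V) :
    z ∈ coboundaries₂ A ↔ ∃ t : Q → A.V, z = dOne A.ρ t := by
  constructor
  · rintro ⟨t, ht⟩
    exact ⟨t, ht.symm⟩
  · rintro ⟨t, ht⟩
    exact ⟨t, ht.symm⟩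

/-- From the Mathlib form to the raw form. -/
theorem finInjOnPTor_of_H2 (A C : Rep.{0} k Q) (f : A ⟶ C) (p : ℕ)
    (h : ∀ x : H2 A, p • x = 0 → groupCohomology.map (MonoidHom.id Q) f 2 x = 0 → x = 0) :
    FinInjOnPTor A.ρ C.ρ f.hom.toLinearMap p := by
  intro φ hφ ⟨v, hv⟩ ⟨w, hw⟩
  let x : cocycles₂ A := ⟨φ, mem_cocycles₂_of_dTwo A hφ⟩
  have hx : H2π A x = 0 := by
    refine h _ ?_ ?_
    · rw [← map_nsmul, H2π_eq_zero_iff]
      exact (mem_coboundaries₂_iff A _).2 ⟨v, hv⟩
    · have h1 : groupCohomology.map (MonoidHom.id Q) f 2 (H2π A x) =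
          H2π C (mapCocycles₂ (MonoidHom.id Q) f x) := H2π_comp_map_apply (MonoidHom.id Q) f x
      rw [h1, H2π_eq_zero_iff]
      exact (mem_coboundaries₂_iff C _).2 ⟨w, hw⟩
  rw [H2π_eq_zero_iff] at hx
  exact (mem_coboundaries₂_iff A _).1 hx

end Mathlib

section Transport

variable {k : Type*} [CommRing k] {Q Q' : Type*} [Group Q] [Group Q']
  {X C X' C' : Type*} [AddCommGroup X] [Module k X] [AddCommGroup C] [Module k C]
  [AddCommGroup X'] [Module k X'] [AddCommGroup C'] [Module k C']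

/-- Transport of `FinInjOnPTor` along a group isomorphism and a commutative square of semilinear
maps whose left vertical arrow is bijective. -/
theorem FinInjOnPTor.transport {ρ : Representation k Q X} {ρC : Representation k Q C}
    {ρ' : Representation k Q' X'} {ρC' : Representation k Q' C'}
    {α : X →ₗ[k] C} {α' : X' →ₗ[k] C'} {p : ℕ}
    (h : FinInjOnPTor ρ' ρC' α' p) (e : Q ≃* Q') (θ : X ≃ₗ[k] X') (Φ : C →ₗ[k] C')
    (hθ : ∀ g x, θ (ρ g x) = ρ' (e g) (θ x)) (hΦ : ∀ g c, Φ (ρC g c) = ρC' (e g) (Φ c))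
    (hsq : ∀ x, Φ (α x) = α' (θ x)) : FinInjOnPTor ρ ρC α p := by
  intro φ hφ ⟨v, hv⟩ ⟨w, hw⟩
  have hes : ∀ g', e (e.symm g') = g' := e.apply_symm_apply
  have hθ' : ∀ g' x, ρ' g' (θ x) = θ (ρ (e.symm g') x) := fun g' x => by rw [hθ, hes]
  have hΦ' : ∀ g' c, ρC' g' (Φ c) = Φ (ρC (e.symm g') c) := fun g' c => by rw [hΦ, hes]
  obtain ⟨v', hv'⟩ := h (fun q => θ (φ (e.symm q.1, e.symm q.2))) (by
      funext ⟨g, h, j⟩
      have := congrFun hφ (e.symm g, e.symm h, e.symm j)
      simp only [dTwo_apply, Pi.zero_apply, map_mul] at this ⊢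
      rw [hθ', ← map_sub, ← map_add, ← map_sub, this, map_zero])
    ⟨fun g => θ (v (e.symm g)), by
      funext ⟨g, h⟩
      have := congrFun hv (e.symm g, e.symm h)
      simp only [dOne_apply, Pi.smul_apply, map_mul] at this ⊢
      rw [hθ', ← map_sub, ← map_add, ← this, map_nsmul]⟩
    ⟨fun g => Φ (w (e.symm g)), by
      funext ⟨g, h⟩
      have := congrFun hw (e.symm g, e.symm h)
      simp only [dOne_apply, map_mul] at this ⊢
      rw [hΦ', ← map_sub, ← map_add, ← this, hsq]⟩
  refine ⟨fun g => θ.symm (v' (e g)), ?_⟩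
  funext ⟨g, h⟩
  have := congrFun hv' (e g, e h)
  simp only [dOne_apply, MulEquiv.symm_apply_apply] at this ⊢
  apply θ.injective
  rw [this, map_add, map_sub, hθ, LinearEquiv.apply_symm_apply, LinearEquiv.apply_symm_apply,
    LinearEquiv.apply_symm_apply, map_mul]

end Transport

end Fermat.Agent.PT.PRO.InjTransport3
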