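/-
Program F (S55, Poitou–Tate), chapter PRO (profinite layer, Ext, assembly), helper20: INTERFACE.

ABSTRACT FRAMEWORK.  `G` an abstract group with a *level basis* `𝒰` (a nonempty, downward directed
family of subgroups: the "open" subgroups).  A cochain is *level* if it is invariant under right
translation of every argument by some `U ∈ 𝒰` -- EXACTLY the prelude's `IsLevelConstantS₁/₂`
(`𝒰 = {F.fixingSubgroup | F unramified outside S}`) and `IsLevelConstant₁/₂ r` (`𝒰 = {r⁻¹ (F.fixingSubgroup)}`).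

* `levelCochains₁/₂/₃`, `levelCocycles₁/₂`, `levelCoboundaries₂`, `LH1`, `LH2` : level cohomology of a
  `Rep k G` in degrees 1, 2 (low-degree Mathlib API: functions on `G`, `G × G`, `G × G × G`);
* `Hyper.Z1/B1/H1`, `Hyper.Z2/B2/H2` : hypercohomology in degrees 1, 2 of a two-term complex
  `φ : K⁰ ⟶ K¹` of `Rep k G` (total complex `Tot^n = C^n(K⁰) ⊕ C^(n-1)(K¹)`, `D (c, e) = (d c, φ c - d e)`).
  `Ext^n_G(A, X) := Hyper.Hn (Hom(F₀,X) ⟶ Hom(F₁,X))` for a resolution `0 → F₁ → F₀ → A → 0` by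
  finitely generated `ℤ`-free discrete `G`-modules;
* the FINAL linear algebra step is helper25's `PT/PRO/Assembly25.lean` (`finrank_ker_eq_of_duality`).

Conventions: everything in `Type` (universe 0), `Rep.{0} k G`; cochains are plain functions (Mathlib's
low-degree API `cocycles₁`, `cocycles₂`, `d₀₁`, `d₁₂`, `d₂₃`); NO topology: "continuous" = level.
-/
import Mathlib

set_option autoImplicit false

open groupCohomology CategoryTheory

namespace Fermat.Agent.PT.PRO.Interface20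

/-- A level basis on a group: a nonempty, downward directed family of subgroups. -/
structure LevelBasis (G : Type) [Group G] where
  sets : Set (Subgroup G)
  nonempty : sets.Nonempty
  directed : ∀ U ∈ sets, ∀ V ∈ sets, ∃ W ∈ sets, W ≤ U ⊓ V

variable {k : Type} [CommRing k] {G : Type} [Group G] (𝒰 : LevelBasis G)

/-- Right-`U`-invariant functions of one, two, three variables, for some `U ∈ 𝒰`. -/
def IsLevel₁ {X : Type*} (f : G → X) : Prop :=
  ∃ U ∈ 𝒰.sets, ∀ g s : G, s ∈ U → f (g * s) = f g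

def IsLevel₂ {X : Type*} (f : G × G → X) : Prop :=
  ∃ U ∈ 𝒰.sets, ∀ g g' s s' : G, s ∈ U → s' ∈ U → f (g * s, g' * s') = f (g, g')

def IsLevel₃ {X : Type*} (f : G × G × G → X) : Prop :=
  ∃ U ∈ 𝒰.sets, ∀ g g' g'' s s' s'' : G, s ∈ U → s' ∈ U → s'' ∈ U →
    f (g * s, g' * s', g'' * s'') = f (g, g', g'')

/-- A representation is discrete (smooth) for the level basis. -/
def IsDiscrete (A : Rep.{0} k G) : Prop :=
  ∀ a : A, ∃ U ∈ 𝒰.sets, ∀ s ∈ U, A.ρ s a = a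

variable {𝒰}

theorem IsLevel₁.add {X : Type*} [Add X] {f f' : G → X} (hf : IsLevel₁ 𝒰 f) (hf' : IsLevel₁ 𝒰 f') :
    IsLevel₁ 𝒰 (f + f') := by
  obtain ⟨U, hU, h⟩ := hf
  obtain ⟨V, hV, h'⟩ := hf'
  obtain ⟨W, hW, hle⟩ := 𝒰.directed U hU V hV
  refine ⟨W, hW, fun g s hs => ?_⟩
  simp only [Pi.add_apply]
  rw [h g s (hle hs).1, h' g s (hle hs).2]

theorem IsLevel₂.add {X : Type*} [Add X] {f f' : G × G → X} (hf : IsLevel₂ 𝒰 f)
    (hf' : IsLevel₂ 𝒰 f') : IsLevel₂ 𝒰 (f + f') := by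
  obtain ⟨U, hU, h⟩ := hf
  obtain ⟨V, hV, h'⟩ := hf'
  obtain ⟨W, hW, hle⟩ := 𝒰.directed U hU V hV
  refine ⟨W, hW, fun g g' s s' hs hs' => ?_⟩
  simp only [Pi.add_apply]
  rw [h g g' s s' (hle hs).1 (hle hs').1, h' g g' s s' (hle hs).2 (hle hs').2]

theorem IsLevel₃.add {X : Type*} [Add X] {f f' : G × G × G → X} (hf : IsLevel₃ 𝒰 f)
    (hf' : IsLevel₃ 𝒰 f') : IsLevel₃ 𝒰 (f + f') := by
  obtain ⟨U, hU, h⟩ := hf
  obtain ⟨V, hV, h'⟩ := hf'
  obtain ⟨W, hW, hle⟩ := 𝒰.directed U hU V hV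
  refine ⟨W, hW, fun g g' g'' s s' s'' hs hs' hs'' => ?_⟩
  simp only [Pi.add_apply]
  rw [h g g' g'' s s' s'' (hle hs).1 (hle hs').1 (hle hs'').1,
    h' g g' g'' s s' s'' (hle hs).2 (hle hs').2 (hle hs'').2]

variable (𝒰) in
theorem isLevel₁_const {X : Type*} (x : X) : IsLevel₁ 𝒰 (fun _ : G => x) := by
  obtain ⟨U, hU⟩ := 𝒰.nonempty
  exact ⟨U, hU, fun _ _ _ => rfl⟩

variable (𝒰) in
theorem isLevel₂_const {X : Type*} (x : X) : IsLevel₂ 𝒰 (fun _ : G × G => x) := by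
  obtain ⟨U, hU⟩ := 𝒰.nonempty
  exact ⟨U, hU, fun _ _ _ _ _ _ => rfl⟩

variable (𝒰) in
theorem isLevel₃_const {X : Type*} (x : X) : IsLevel₃ 𝒰 (fun _ : G × G × G => x) := by
  obtain ⟨U, hU⟩ := 𝒰.nonempty
  exact ⟨U, hU, fun _ _ _ _ _ _ _ _ _ => rfl⟩

theorem IsLevel₁.comp {X Y : Type*} {f : G → X} (hf : IsLevel₁ 𝒰 f) (φ : X → Y) :
    IsLevel₁ 𝒰 (φ ∘ f) := by
  obtain ⟨U, hU, h⟩ := hf
  exact ⟨U, hU, fun g s hs => by simp only [Function.comp_apply, h g s hs]⟩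

theorem IsLevel₂.comp {X Y : Type*} {f : G × G → X} (hf : IsLevel₂ 𝒰 f) (φ : X → Y) :
    IsLevel₂ 𝒰 (φ ∘ f) := by
  obtain ⟨U, hU, h⟩ := hf
  exact ⟨U, hU, fun g g' s s' hs hs' => by simp only [Function.comp_apply, h g g' s s' hs hs']⟩

theorem IsLevel₃.comp {X Y : Type*} {f : G × G × G → X} (hf : IsLevel₃ 𝒰 f) (φ : X → Y) :
    IsLevel₃ 𝒰 (φ ∘ f) := by
  obtain ⟨U, hU, h⟩ := hf
  exact ⟨U, hU, fun g g' g'' s s' s'' hs hs' hs'' => by
    simp only [Function.comp_apply, h g g' g'' s s' s'' hs hs' hs'']⟩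

variable (𝒰) (M : Rep.{0} k G)

/-- Level cochains in degrees 1, 2, 3. -/
def levelCochains₁ : Submodule k (G → M) where
  carrier := {f | IsLevel₁ 𝒰 f}
  add_mem' hf hf' := hf.add hf'
  zero_mem' := isLevel₁_const 𝒰 (0 : M)
  smul_mem' c _ hf := hf.comp (c • ·)

def levelCochains₂ : Submodule k (G × G → M) where
  carrier := {f | IsLevel₂ 𝒰 f}
  add_mem' hf hf' := hf.add hf'
  zero_mem' := isLevel₂_const 𝒰 (0 : M)
  smul_mem' c _ hf := hf.comp (c • ·)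

def levelCochains₃ : Submodule k (G × G × G → M) where
  carrier := {f | IsLevel₃ 𝒰 f}
  add_mem' hf hf' := hf.add hf'
  zero_mem' := isLevel₃_const 𝒰 (0 : M)
  smul_mem' c _ hf := hf.comp (c • ·)

/-- Level 1-cocycles, as a submodule of the 1-cochains. -/
def levelCocycles₁ : Submodule k (G → M) := cocycles₁ M ⊓ levelCochains₁ 𝒰 M

/-- Level 2-cocycles. -/
def levelCocycles₂ : Submodule k (G × G → M) := cocycles₂ M ⊓ levelCochains₂ 𝒰 M

/-- 1-coboundaries (all of them: `g ↦ g a - a`). -/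
def levelCoboundaries₁ : Submodule k (G → M) := coboundaries₁ M

/-- Level 2-coboundaries: `d` of LEVEL 1-cochains. -/
def levelCoboundaries₂ : Submodule k (G × G → M) := (levelCochains₁ 𝒰 M).map (d₁₂ M).hom

/-- Level cohomology in degree 1 (for a discrete `M` this is `H¹(G, M)` continuous). -/
abbrev LH1 : Type :=
  ↥(levelCocycles₁ 𝒰 M) ⧸ (levelCoboundaries₁ M).comap (levelCocycles₁ 𝒰 M).subtype

/-- Level cohomology in degree 2. -/
abbrev LH2 : Type :=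
  ↥(levelCocycles₂ 𝒰 M) ⧸ (levelCoboundaries₂ 𝒰 M).comap (levelCocycles₂ 𝒰 M).subtype

namespace Hyper

variable {K₀ K₁ : Rep.{0} k G} (φ : K₀ ⟶ K₁)

/-- Hyper-1-cocycles of `φ : K⁰ ⟶ K¹`: pairs `(c, y)`, `c` a level 1-cocycle of `K⁰`, `y ∈ K¹`,
`φ ∘ c = d y`. -/
def Z1 : Submodule k ((G → K₀) × K₁) where
  carrier := {x | x.1 ∈ levelCocycles₁ 𝒰 K₀ ∧ (fun g => φ.hom (x.1 g)) = (d₀₁ K₁).hom x.2}
  add_mem' {x y} hx hy := by
    refine ⟨Submodule.add_mem _ hx.1 hy.1, ?_⟩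
    funext g
    have h1 := congrFun hx.2 g
    have h2 := congrFun hy.2 g
    simp only [Prod.fst_add, Pi.add_apply, map_add, Prod.snd_add] at h1 h2 ⊢
    rw [h1, h2]
  zero_mem' := by
    refine ⟨Submodule.zero_mem _, ?_⟩
    funext g
    simp
  smul_mem' c x hx := by
    refine ⟨Submodule.smul_mem _ c hx.1, ?_⟩
    funext g
    have h1 := congrFun hx.2 g
    simp only [Prod.smul_fst, Pi.smul_apply, map_smul, Prod.smul_snd] at h1 ⊢
    rw [h1]

/-- Hyper-1-coboundaries: `(d x, φ x)`, `x ∈ K⁰`. -/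
def B1 : Submodule k ((G → K₀) × K₁) :=
  LinearMap.range (LinearMap.prod (d₀₁ K₀).hom φ.hom.toLinearMap)

/-- `ℍ¹(G, K⁰ → K¹)`. -/
abbrev H1 : Type := ↥(Z1 𝒰 φ) ⧸ (B1 φ).comap (Z1 𝒰 φ).subtype

/-- Hyper-2-cocycles: pairs `(c, e)`, `c` a level 2-cocycle of `K⁰`, `e` a level 1-cochain of `K¹`,
`φ ∘ c = d e`. -/
def Z2 : Submodule k ((G × G → K₀) × (G → K₁)) where
  carrier := {x | x.1 ∈ levelCocycles₂ 𝒰 K₀ ∧ x.2 ∈ levelCochains₁ 𝒰 K₁ ∧
    (fun q => φ.hom (x.1 q)) = (d₁₂ K₁).hom x.2}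
  add_mem' {x y} hx hy := by
    refine ⟨Submodule.add_mem _ hx.1 hy.1, Submodule.add_mem _ hx.2.1 hy.2.1, ?_⟩
    funext q
    have h1 := congrFun hx.2.2 q
    have h2 := congrFun hy.2.2 q
    simp only [Prod.fst_add, Pi.add_apply, map_add, Prod.snd_add] at h1 h2 ⊢
    rw [h1, h2]
  zero_mem' := by
    refine ⟨Submodule.zero_mem _, Submodule.zero_mem _, ?_⟩
    funext q
    simp
  smul_mem' c x hx := by
    refine ⟨Submodule.smul_mem _ c hx.1, Submodule.smul_mem _ c hx.2.1, ?_⟩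
    funext q
    have h1 := congrFun hx.2.2 q
    simp only [Prod.smul_fst, Pi.smul_apply, map_smul, Prod.smul_snd] at h1 ⊢
    rw [h1]

/-- Hyper-2-coboundaries: `(d b, φ ∘ b - d y)`, `b` a level 1-cochain of `K⁰`, `y ∈ K¹`. -/
def B2 : Submodule k ((G × G → K₀) × (G → K₁)) where
  carrier := {x | ∃ b ∈ levelCochains₁ 𝒰 K₀, ∃ y : K₁,
    x.1 = (d₁₂ K₀).hom b ∧ x.2 = (fun g => φ.hom (b g)) - (d₀₁ K₁).hom y}
  add_mem' {x x'} hx hx' := by
    obtain ⟨b, hb, y, h1, h2⟩ := hx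
    obtain ⟨b', hb', y', h1', h2'⟩ := hx'
    refine ⟨b + b', Submodule.add_mem _ hb hb', y + y', ?_, ?_⟩
    · rw [Prod.fst_add, h1, h1', map_add]
    · rw [Prod.snd_add, h2, h2', map_add]
      funext g
      simp only [Pi.add_apply, Pi.sub_apply, map_add]
      abel
  zero_mem' := by
    refine ⟨0, Submodule.zero_mem _, 0, by simp, ?_⟩
    funext g
    simp only [map_zero, Pi.zero_apply, sub_zero]
    rfl
  smul_mem' c x hx := by
    obtain ⟨b, hb, y, h1, h2⟩ := hx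
    refine ⟨c • b, Submodule.smul_mem _ c hb, c • y, ?_, ?_⟩
    · rw [Prod.smul_fst, h1, map_smul]
    · rw [Prod.smul_snd, h2, map_smul]
      funext g
      simp only [Pi.smul_apply, Pi.sub_apply, map_smul, smul_sub]

/-- `ℍ²(G, K⁰ → K¹)`. -/
abbrev H2 : Type := ↥(Z2 𝒰 φ) ⧸ (B2 𝒰 φ).comap (Z2 𝒰 φ).subtype

end Hyper

end Fermat.Agent.PT.PRO.Interface20
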