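/-
Program F (S55, Poitou–Tate), chapter PRO, helper8.

`LevelBridgeK8`: the bridge between the two models of level cohomology in degrees 1 and 2:

* `LevelCoh28.H1 𝓑 A`, `LevelCoh28.H2 𝓑 A` (helper28; `A : Rep k G`, `k`-linear, bundled basis);
  this is the model of `BR/ShaBridge13` (`k = ZMod p`);
* `Resolved4.Hlev1 h𝒰 (intRep A) hA`, `Resolved4.Hlev2 h𝒰 (intRep A) hA` (helper4/helper25;
  `ℤ`-linear, the underlying `ℤ`-representation `IntRep20.intRep A`): the model of the pairing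
  machinery of PRO (`k = ℤ`).

Cochains are literally the same functions, so the classes correspond: additive equivalences
`bridgeH1`, `bridgeH2`, with formulas on representatives in both directions, and naturality for
change of group and coefficients (`LevelCohRes28.ppH1/ppH2` against
`HyperRes25.plainPHom`), in particular for the localisation maps of `ShaBridge13`.
-/
import Mathlib
import Fermat.Agent.PT.PRO.Resolved4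
import Fermat.Agent.PT.PRO.HyperRes25
import Fermat.Agent.PT.PRO.LevelCohRes28
import Fermat.Agent.PT.PRO.LevelCompare13
import Fermat.Agent.PT.PRO.IntRep20

set_option autoImplicit false

universe u

namespace Fermat.Agent.PT.PRO.LevelBridgeK8

open Fermat.Agent.PT.PRO Fermat.Agent.PT.PRO.IntRep20

variable {k G : Type u} [CommRing k] [Group G]

/-- The basis axioms of a bundled `LevelCoh28.LevelBasis`, in `HyperLevel25` form. -/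
theorem isLevelBasis (𝓑 : LevelCoh28.LevelBasis G) : HyperLevel25.IsLevelBasis 𝓑.sets :=
  LevelCompare13.isLevelBasis_iff.1 𝓑.isBasis

section Dict

variable (𝓑 : LevelCoh28.LevelBasis G) (A : Rep.{u} k G)

theorem dOne_intRep_eq (c : G → A) :
    HyperLevel25.dOne (intRep A) c = (groupCohomology.d₁₂ A).hom c := by
  funext ⟨g, h⟩
  rw [dOne_intRep, groupCohomology.d₁₂_hom_apply]

theorem dTwo_intRep_eq (c : G × G → A) :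
    HyperLevel25.dTwo (intRep A) c = (groupCohomology.d₂₃ A).hom c := by
  funext ⟨g, h, j⟩
  rw [dTwo_intRep, groupCohomology.d₂₃_hom_apply]

theorem dZero_intRep_eq (a : A) :
    HyperLevel25.dZero (intRep A) a = (groupCohomology.d₀₁ A).hom a := by
  funext g
  rw [dZero_intRep, groupCohomology.d₀₁_hom_apply]

theorem mem_Z1_iff (c : G → A) :
    c ∈ LevelCoh28.Z1 𝓑 A ↔
      HyperLevel25.IsLevel₁ 𝓑.sets c ∧ HyperLevel25.dOne (intRep A) c = 0 := by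
  rw [LevelCoh28.mem_Z1_iff, dOne_intRep_eq, groupCohomology.cocycles₁, LinearMap.mem_ker]
  exact and_comm

theorem mem_Z2_iff (c : G × G → A) :
    c ∈ LevelCoh28.Z2 𝓑 A ↔
      HyperLevel25.IsLevel₂ 𝓑.sets c ∧ HyperLevel25.dTwo (intRep A) c = 0 := by
  rw [LevelCoh28.mem_Z2_iff, dTwo_intRep_eq, groupCohomology.cocycles₂, LinearMap.mem_ker,
    LevelCompare13.isLevel₂_iff]
  exact and_comm

theorem mem_coboundaries₁_iff (c : G → A) :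
    c ∈ groupCohomology.coboundaries₁ A ↔ ∃ a : A, HyperLevel25.dZero (intRep A) a = c := by
  constructor
  · rintro ⟨a, rfl⟩
    exact ⟨a, dZero_intRep_eq A a⟩
  · rintro ⟨a, rfl⟩
    exact ⟨a, (dZero_intRep_eq A a).symm⟩

theorem mem_B2_iff (c : G × G → A) :
    c ∈ LevelCoh28.B2 𝓑 A ↔
      ∃ b : G → A, HyperLevel25.IsLevel₁ 𝓑.sets b ∧ HyperLevel25.dOne (intRep A) b = c := by
  rw [LevelCoh28.mem_B2_iff]
  constructor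
  · rintro ⟨b, hb, rfl⟩
    exact ⟨b, hb, dOne_intRep_eq A b⟩
  · rintro ⟨b, hb, rfl⟩
    exact ⟨b, hb, (dOne_intRep_eq A b).symm⟩

end Dict

/-! ### The bridge on cocycles and on cohomology -/

section Bridge

variable (𝓑 : LevelCoh28.LevelBasis G) (A : Rep.{u} k G)
  (h𝒰 : HyperLevel25.IsLevelBasis 𝓑.sets) (hA : HyperLevel25.IsDiscrete 𝓑.sets (intRep A))

/-- A level 1-cocycle of `Resolved4.lvl` is a level 1-cocycle of `LevelCoh28`. -/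
def toZ1 : (Resolved4.lvl h𝒰 (intRep A) hA).Z1 →+ ↥(LevelCoh28.Z1 𝓑 A) where
  toFun z := ⟨z.1.1, (mem_Z1_iff 𝓑 A _).2 ⟨z.1.2, (Resolved4.mem_lvl_Z1_iff h𝒰 _ hA z.1).1 z.2⟩⟩
  map_zero' := rfl
  map_add' _ _ := rfl

/-- A level 2-cocycle of `Resolved4.lvl` is a level 2-cocycle of `LevelCoh28`. -/
def toZ2 : (Resolved4.lvl h𝒰 (intRep A) hA).Z2 →+ ↥(LevelCoh28.Z2 𝓑 A) where
  toFun z := ⟨z.1.1, (mem_Z2_iff 𝓑 A _).2 ⟨z.1.2, (Resolved4.mem_lvl_Z2_iff h𝒰 _ hA z.1).1 z.2⟩⟩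
  map_zero' := rfl
  map_add' _ _ := rfl

@[simp] theorem coe_toZ1 (z : (Resolved4.lvl h𝒰 (intRep A) hA).Z1) :
    (toZ1 𝓑 A h𝒰 hA z : G → A) = z.1.1 := rfl

@[simp] theorem coe_toZ2 (z : (Resolved4.lvl h𝒰 (intRep A) hA).Z2) :
    (toZ2 𝓑 A h𝒰 hA z : G × G → A) = z.1.1 := rfl

/-- A level 1-cocycle of `LevelCoh28` as a level 1-cocycle of `Resolved4.lvl`. -/
def ofZ1 (c : ↥(LevelCoh28.Z1 𝓑 A)) : (Resolved4.lvl h𝒰 (intRep A) hA).Z1 :=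
  Resolved4.mkZ1 h𝒰 (intRep A) hA (c : G → A) ((mem_Z1_iff 𝓑 A _).1 c.2).1
    ((mem_Z1_iff 𝓑 A _).1 c.2).2

/-- A level 2-cocycle of `LevelCoh28` as a level 2-cocycle of `Resolved4.lvl`. -/
def ofZ2 (c : ↥(LevelCoh28.Z2 𝓑 A)) : (Resolved4.lvl h𝒰 (intRep A) hA).Z2 :=
  Resolved4.mkZ2 h𝒰 (intRep A) hA (c : G × G → A) ((mem_Z2_iff 𝓑 A _).1 c.2).1
    ((mem_Z2_iff 𝓑 A _).1 c.2).2

@[simp] theorem toZ1_ofZ1 (c : ↥(LevelCoh28.Z1 𝓑 A)) : toZ1 𝓑 A h𝒰 hA (ofZ1 𝓑 A h𝒰 hA c) = c :=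
  rfl

@[simp] theorem toZ2_ofZ2 (c : ↥(LevelCoh28.Z2 𝓑 A)) : toZ2 𝓑 A h𝒰 hA (ofZ2 𝓑 A h𝒰 hA c) = c :=
  rfl

@[simp] theorem ofZ1_toZ1 (z : (Resolved4.lvl h𝒰 (intRep A) hA).Z1) :
    ofZ1 𝓑 A h𝒰 hA (toZ1 𝓑 A h𝒰 hA z) = z := rfl

@[simp] theorem ofZ2_toZ2 (z : (Resolved4.lvl h𝒰 (intRep A) hA).Z2) :
    ofZ2 𝓑 A h𝒰 hA (toZ2 𝓑 A h𝒰 hA z) = z := rfl

/-- The class in `LevelCoh28.H1` vanishes iff the class in `Hlev1` does. -/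
theorem H1mk_toZ1_eq_zero_iff (z : (Resolved4.lvl h𝒰 (intRep A) hA).Z1) :
    LevelCoh28.H1mk 𝓑 A (toZ1 𝓑 A h𝒰 hA z) = 0 ↔ (Resolved4.lvl h𝒰 (intRep A) hA).π1 z = 0 := by
  rw [LevelCoh28.H1mk_eq_zero_iff, Resolved4.π1_lvl_eq_zero_iff, mem_coboundaries₁_iff]
  rfl

/-- The class in `LevelCoh28.H2` vanishes iff the class in `Hlev2` does. -/
theorem H2mk_toZ2_eq_zero_iff (z : (Resolved4.lvl h𝒰 (intRep A) hA).Z2) :
    LevelCoh28.H2mk 𝓑 A (toZ2 𝓑 A h𝒰 hA z) = 0 ↔ (Resolved4.lvl h𝒰 (intRep A) hA).π2 z = 0 := by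
  rw [LevelCoh28.H2mk_eq_zero_iff, Resolved4.π2_lvl_eq_zero_iff, mem_B2_iff]
  rfl

/-- The comparison map `Hlev1 → LevelCoh28.H1`. -/
def fwdH1 : Resolved4.Hlev1 h𝒰 (intRep A) hA →ₗ[ℤ] LevelCoh28.H1 𝓑 A :=
  HyperCompare25.descH1 (Resolved4.lvl h𝒰 (intRep A) hA)
    (((LevelCoh28.H1mk 𝓑 A).toAddMonoidHom.comp (toZ1 𝓑 A h𝒰 hA)).toIntLinearMap)
    (fun z hz => by
      have h0 : (Resolved4.lvl h𝒰 (intRep A) hA).π1 z = 0 :=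
        (Submodule.Quotient.mk_eq_zero _).2 hz
      exact (H1mk_toZ1_eq_zero_iff 𝓑 A h𝒰 hA z).2 h0)

/-- The comparison map `Hlev2 → LevelCoh28.H2`. -/
def fwdH2 : Resolved4.Hlev2 h𝒰 (intRep A) hA →ₗ[ℤ] LevelCoh28.H2 𝓑 A :=
  HyperCompare25.descH2 (Resolved4.lvl h𝒰 (intRep A) hA)
    (((LevelCoh28.H2mk 𝓑 A).toAddMonoidHom.comp (toZ2 𝓑 A h𝒰 hA)).toIntLinearMap)
    (fun z hz => by
      have h0 : (Resolved4.lvl h𝒰 (intRep A) hA).π2 z = 0 :=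
        (Submodule.Quotient.mk_eq_zero _).2 hz
      exact (H2mk_toZ2_eq_zero_iff 𝓑 A h𝒰 hA z).2 h0)

theorem fwdH1_π1 (z : (Resolved4.lvl h𝒰 (intRep A) hA).Z1) :
    fwdH1 𝓑 A h𝒰 hA ((Resolved4.lvl h𝒰 (intRep A) hA).π1 z) =
      LevelCoh28.H1mk 𝓑 A (toZ1 𝓑 A h𝒰 hA z) := rfl

theorem fwdH2_π2 (z : (Resolved4.lvl h𝒰 (intRep A) hA).Z2) :
    fwdH2 𝓑 A h𝒰 hA ((Resolved4.lvl h𝒰 (intRep A) hA).π2 z) =
      LevelCoh28.H2mk 𝓑 A (toZ2 𝓑 A h𝒰 hA z) := rfl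

theorem fwdH1_bijective : Function.Bijective (fwdH1 𝓑 A h𝒰 hA) := by
  constructor
  · rw [← LinearMap.ker_eq_bot, LinearMap.ker_eq_bot']
    intro x hx
    obtain ⟨z, rfl⟩ := (Resolved4.lvl h𝒰 (intRep A) hA).π1_surjective x
    rw [fwdH1_π1] at hx
    exact (H1mk_toZ1_eq_zero_iff 𝓑 A h𝒰 hA z).1 hx
  · intro y
    obtain ⟨c, rfl⟩ := LevelCoh28.H1mk_surjective 𝓑 A y
    exact ⟨(Resolved4.lvl h𝒰 (intRep A) hA).π1 (ofZ1 𝓑 A h𝒰 hA c), rfl⟩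

theorem fwdH2_bijective : Function.Bijective (fwdH2 𝓑 A h𝒰 hA) := by
  constructor
  · rw [← LinearMap.ker_eq_bot, LinearMap.ker_eq_bot']
    intro x hx
    obtain ⟨z, rfl⟩ := (Resolved4.lvl h𝒰 (intRep A) hA).π2_surjective x
    rw [fwdH2_π2] at hx
    exact (H2mk_toZ2_eq_zero_iff 𝓑 A h𝒰 hA z).1 hx
  · intro y
    obtain ⟨c, rfl⟩ := LevelCoh28.H2mk_surjective 𝓑 A y
    exact ⟨(Resolved4.lvl h𝒰 (intRep A) hA).π2 (ofZ2 𝓑 A h𝒰 hA c), rfl⟩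

/-- **The bridge in degree 1**: `Hlev1 (intRep A) ≃+ LevelCoh28.H1 𝓑 A`. -/
noncomputable def bridgeH1 : Resolved4.Hlev1 h𝒰 (intRep A) hA ≃+ LevelCoh28.H1 𝓑 A :=
  AddEquiv.ofBijective (fwdH1 𝓑 A h𝒰 hA).toAddMonoidHom (fwdH1_bijective 𝓑 A h𝒰 hA)

/-- **The bridge in degree 2**: `Hlev2 (intRep A) ≃+ LevelCoh28.H2 𝓑 A`. -/
noncomputable def bridgeH2 : Resolved4.Hlev2 h𝒰 (intRep A) hA ≃+ LevelCoh28.H2 𝓑 A :=
  AddEquiv.ofBijective (fwdH2 𝓑 A h𝒰 hA).toAddMonoidHom (fwdH2_bijective 𝓑 A h𝒰 hA)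

@[simp] theorem bridgeH1_π1 (z : (Resolved4.lvl h𝒰 (intRep A) hA).Z1) :
    bridgeH1 𝓑 A h𝒰 hA ((Resolved4.lvl h𝒰 (intRep A) hA).π1 z) =
      LevelCoh28.H1mk 𝓑 A (toZ1 𝓑 A h𝒰 hA z) := rfl

@[simp] theorem bridgeH2_π2 (z : (Resolved4.lvl h𝒰 (intRep A) hA).Z2) :
    bridgeH2 𝓑 A h𝒰 hA ((Resolved4.lvl h𝒰 (intRep A) hA).π2 z) =
      LevelCoh28.H2mk 𝓑 A (toZ2 𝓑 A h𝒰 hA z) := rfl

@[simp] theorem bridgeH1_symm_mk (c : ↥(LevelCoh28.Z1 𝓑 A)) :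
    (bridgeH1 𝓑 A h𝒰 hA).symm (LevelCoh28.H1mk 𝓑 A c) =
      (Resolved4.lvl h𝒰 (intRep A) hA).π1 (ofZ1 𝓑 A h𝒰 hA c) := by
  rw [AddEquiv.symm_apply_eq]
  rfl

@[simp] theorem bridgeH2_symm_mk (c : ↥(LevelCoh28.Z2 𝓑 A)) :
    (bridgeH2 𝓑 A h𝒰 hA).symm (LevelCoh28.H2mk 𝓑 A c) =
      (Resolved4.lvl h𝒰 (intRep A) hA).π2 (ofZ2 𝓑 A h𝒰 hA c) := by
  rw [AddEquiv.symm_apply_eq]
  rfl

/-- Raw form: the bridge on the class of a function. -/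
theorem bridgeH1_mkZ1 (c : G → A) (hl : HyperLevel25.IsLevel₁ 𝓑.sets c)
    (hc : HyperLevel25.dOne (intRep A) c = 0) :
    bridgeH1 𝓑 A h𝒰 hA
        ((Resolved4.lvl h𝒰 (intRep A) hA).π1 (Resolved4.mkZ1 h𝒰 (intRep A) hA c hl hc)) =
      LevelCoh28.H1mk 𝓑 A ⟨c, (mem_Z1_iff 𝓑 A c).2 ⟨hl, hc⟩⟩ := rfl

theorem bridgeH2_mkZ2 (c : G × G → A) (hl : HyperLevel25.IsLevel₂ 𝓑.sets c)
    (hc : HyperLevel25.dTwo (intRep A) c = 0) :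
    bridgeH2 𝓑 A h𝒰 hA
        ((Resolved4.lvl h𝒰 (intRep A) hA).π2 (Resolved4.mkZ2 h𝒰 (intRep A) hA c hl hc)) =
      LevelCoh28.H2mk 𝓑 A ⟨c, (mem_Z2_iff 𝓑 A c).2 ⟨hl, hc⟩⟩ := rfl

/-- The bridge is compatible with scalars from `k`, seen through integers. -/
theorem bridgeH1_zsmul (n : ℤ) (x : Resolved4.Hlev1 h𝒰 (intRep A) hA) :
    bridgeH1 𝓑 A h𝒰 hA (n • x) = n • bridgeH1 𝓑 A h𝒰 hA x := map_zsmul _ n x

theorem bridgeH2_zsmul (n : ℤ) (x : Resolved4.Hlev2 h𝒰 (intRep A) hA) :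
    bridgeH2 𝓑 A h𝒰 hA (n • x) = n • bridgeH2 𝓑 A h𝒰 hA x := map_zsmul _ n x

end Bridge

/-! ### Naturality for change of group and coefficients -/

section Natural

variable {G' : Type u} [Group G'] (f : G' →* G)
  (𝓑 : LevelCoh28.LevelBasis G) (𝓑' : LevelCoh28.LevelBasis G')
  (hf : LevelCohRes28.IsLevelHom f 𝓑'.sets 𝓑.sets)

/-- The two notions of continuity of a group homomorphism agree (definitionally). -/
theorem isLevelHom_iff {𝒰' : Set (Subgroup G')} {𝒰 : Set (Subgroup G)} :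
    LevelCohRes28.IsLevelHom f 𝒰' 𝒰 ↔ HyperRes25.IsLevelHom f 𝒰' 𝒰 := Iff.rfl

/-- The underlying `ℤ`-linear map of a `k`-linear map. -/
def intLin {A B : Type*} [AddCommGroup A] [Module k A] [AddCommGroup B] [Module k B]
    (φ : A →ₗ[k] B) : A →ₗ[ℤ] B := φ.toAddMonoidHom.toIntLinearMap

@[simp] theorem intLin_apply {A B : Type*} [AddCommGroup A] [Module k A] [AddCommGroup B]
    [Module k B] (φ : A →ₗ[k] B) (a : A) : intLin φ a = φ a := rfl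

variable (A : Rep.{u} k G) (B : Rep.{u} k G')
  (h𝒰 : HyperLevel25.IsLevelBasis 𝓑.sets) (hA : HyperLevel25.IsDiscrete 𝓑.sets (intRep A))
  (h𝒰' : HyperLevel25.IsLevelBasis 𝓑'.sets) (hB : HyperLevel25.IsDiscrete 𝓑'.sets (intRep B))
  (φ : A →ₗ[k] B) (hφ : ∀ (g : G') (a : A), φ (A.ρ (f g) a) = B.ρ g (φ a))
  (φ' : A →ₗ[ℤ] B) (hφ' : ∀ (g : G') (a : A), φ' (intRep A (f g) a) = intRep B g (φ' a))
  (hφφ' : ∀ a, φ' a = φ a)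

include hφφ' in
/-- **Naturality of the bridge in degree 1**: the change-of-group map of plain level cohomology
(`HyperRes25.plainPHom`, `k = ℤ`) corresponds to `LevelCohRes28.ppH1`. -/
theorem bridgeH1_natural (x : Resolved4.Hlev1 h𝒰 (intRep A) hA) :
    bridgeH1 𝓑' B h𝒰' hB
        ((HyperRes25.plainPHom ((isLevelHom_iff f).1 hf) h𝒰 h𝒰' hA hB φ' hφ').mapH1 x) =
      LevelCohRes28.ppH1 f φ hφ hf (bridgeH1 𝓑 A h𝒰 hA x) := by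
  obtain ⟨z, rfl⟩ := (Resolved4.lvl h𝒰 (intRep A) hA).π1_surjective x
  rw [bridgeH1_π1, LevelCohRes28.ppH1_mk]
  show LevelCoh28.H1mk 𝓑' B _ = _
  congr 1
  apply Subtype.ext
  funext g
  exact hφφ' _

include hφφ' in
/-- **Naturality of the bridge in degree 2**. -/
theorem bridgeH2_natural (x : Resolved4.Hlev2 h𝒰 (intRep A) hA) :
    bridgeH2 𝓑' B h𝒰' hB
        ((HyperRes25.plainPHom ((isLevelHom_iff f).1 hf) h𝒰 h𝒰' hA hB φ' hφ').mapH2 x) =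
      LevelCohRes28.ppH2 f φ hφ hf (bridgeH2 𝓑 A h𝒰 hA x) := by
  obtain ⟨z, rfl⟩ := (Resolved4.lvl h𝒰 (intRep A) hA).π2_surjective x
  rw [bridgeH2_π2, LevelCohRes28.ppH2_mk]
  show LevelCoh28.H2mk 𝓑' B _ = _
  congr 1
  apply Subtype.ext
  funext g
  exact hφφ' _

/-- Naturality, for the canonical underlying `ℤ`-linear map `intLin φ`. -/
theorem bridgeH1_natural_intLin (x : Resolved4.Hlev1 h𝒰 (intRep A) hA) :
    bridgeH1 𝓑' B h𝒰' hB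
        ((HyperRes25.plainPHom ((isLevelHom_iff f).1 hf) h𝒰 h𝒰' hA hB (intLin φ) hφ).mapH1 x) =
      LevelCohRes28.ppH1 f φ hφ hf (bridgeH1 𝓑 A h𝒰 hA x) :=
  bridgeH1_natural f 𝓑 𝓑' hf A B h𝒰 hA h𝒰' hB φ hφ (intLin φ) hφ (fun _ => rfl) x

theorem bridgeH2_natural_intLin (x : Resolved4.Hlev2 h𝒰 (intRep A) hA) :
    bridgeH2 𝓑' B h𝒰' hB
        ((HyperRes25.plainPHom ((isLevelHom_iff f).1 hf) h𝒰 h𝒰' hA hB (intLin φ) hφ).mapH2 x) =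
      LevelCohRes28.ppH2 f φ hφ hf (bridgeH2 𝓑 A h𝒰 hA x) :=
  bridgeH2_natural f 𝓑 𝓑' hf A B h𝒰 hA h𝒰' hB φ hφ (intLin φ) hφ (fun _ => rfl) x

include hφφ' in
/-- Raw form of naturality in degree 1: on the class of `φ' ∘ c ∘ f`. -/
theorem bridgeH1_pp_raw (z : (Resolved4.lvl h𝒰 (intRep A) hA).Z1)
    (hl : HyperLevel25.IsLevel₁ 𝓑'.sets (⇑φ' ∘ z.1.1 ∘ ⇑f))
    (hc : HyperLevel25.dOne (intRep B) (⇑φ' ∘ z.1.1 ∘ ⇑f) = 0) :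
    bridgeH1 𝓑' B h𝒰' hB ((Resolved4.lvl h𝒰' (intRep B) hB).π1
        (Resolved4.mkZ1 h𝒰' (intRep B) hB (⇑φ' ∘ z.1.1 ∘ ⇑f) hl hc)) =
      LevelCohRes28.ppH1 f φ hφ hf
        (bridgeH1 𝓑 A h𝒰 hA ((Resolved4.lvl h𝒰 (intRep A) hA).π1 z)) := by
  rw [bridgeH1_π1, bridgeH1_π1, LevelCohRes28.ppH1_mk]
  congr 1
  apply Subtype.ext
  funext g
  exact hφφ' _

include hφφ' in
/-- Raw form of naturality in degree 2: on the class of `φ' ∘ c ∘ (f × f)`. -/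
theorem bridgeH2_pp_raw (z : (Resolved4.lvl h𝒰 (intRep A) hA).Z2)
    (hl : HyperLevel25.IsLevel₂ 𝓑'.sets (⇑φ' ∘ z.1.1 ∘ Prod.map ⇑f ⇑f))
    (hc : HyperLevel25.dTwo (intRep B) (⇑φ' ∘ z.1.1 ∘ Prod.map ⇑f ⇑f) = 0) :
    bridgeH2 𝓑' B h𝒰' hB ((Resolved4.lvl h𝒰' (intRep B) hB).π2
        (Resolved4.mkZ2 h𝒰' (intRep B) hB (⇑φ' ∘ z.1.1 ∘ Prod.map ⇑f ⇑f) hl hc)) =
      LevelCohRes28.ppH2 f φ hφ hf
        (bridgeH2 𝓑 A h𝒰 hA ((Resolved4.lvl h𝒰 (intRep A) hA).π2 z)) := by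
  rw [bridgeH2_π2, bridgeH2_π2, LevelCohRes28.ppH2_mk]
  congr 1
  apply Subtype.ext
  funext g
  exact hφφ' _

end Natural

/-! ### Restriction along a group homomorphism (`Rep.res`), the shape of `ShaBridge13.resH1/2` -/

section Res

variable {G' : Type u} [Group G'] (f : G' →* G)
  (𝓑 : LevelCoh28.LevelBasis G) (𝓑' : LevelCoh28.LevelBasis G')
  (hf : LevelCohRes28.IsLevelHom f 𝓑'.sets 𝓑.sets) (A : Rep.{u} k G)
  (h𝒰 : HyperLevel25.IsLevelBasis 𝓑.sets) (hA : HyperLevel25.IsDiscrete 𝓑.sets (intRep A))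
  (h𝒰' : HyperLevel25.IsLevelBasis 𝓑'.sets)

/-- The underlying `ℤ`-representation of a restriction is the restriction. -/
theorem intRep_res : intRep (Rep.res f A) = (intRep A).comp f := rfl

include hf hA in
/-- The restriction of a discrete module along a continuous homomorphism is discrete. -/
theorem isDiscrete_res : HyperLevel25.IsDiscrete 𝓑'.sets (intRep (Rep.res f A)) :=
  HyperRes25.IsLevelHom.isDiscrete ((isLevelHom_iff f).1 hf) hA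

/-- Restriction `Hlev^1(G; A) → Hlev^1(G'; A|_{G'})` (plain level cohomology over `ℤ`). -/
def resHlev1 (hB : HyperLevel25.IsDiscrete 𝓑'.sets (intRep (Rep.res f A))) :
    Resolved4.Hlev1 h𝒰 (intRep A) hA →ₗ[ℤ] Resolved4.Hlev1 h𝒰' (intRep (Rep.res f A)) hB :=
  (HyperRes25.plainPHom ((isLevelHom_iff f).1 hf) h𝒰 h𝒰' hA hB
    (LinearMap.id : A →ₗ[ℤ] A) (fun _ _ => rfl)).mapH1

/-- Restriction `Hlev^2(G; A) → Hlev^2(G'; A|_{G'})` (plain level cohomology over `ℤ`). -/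
def resHlev2 (hB : HyperLevel25.IsDiscrete 𝓑'.sets (intRep (Rep.res f A))) :
    Resolved4.Hlev2 h𝒰 (intRep A) hA →ₗ[ℤ] Resolved4.Hlev2 h𝒰' (intRep (Rep.res f A)) hB :=
  (HyperRes25.plainPHom ((isLevelHom_iff f).1 hf) h𝒰 h𝒰' hA hB
    (LinearMap.id : A →ₗ[ℤ] A) (fun _ _ => rfl)).mapH2

variable (hB : HyperLevel25.IsDiscrete 𝓑'.sets (intRep (Rep.res f A)))

theorem resHlev1_π1 (z : (Resolved4.lvl h𝒰 (intRep A) hA).Z1)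
    (hl : HyperLevel25.IsLevel₁ 𝓑'.sets (z.1.1 ∘ ⇑f))
    (hc : HyperLevel25.dOne (intRep (Rep.res f A)) (z.1.1 ∘ ⇑f) = 0) :
    resHlev1 f 𝓑 𝓑' hf A h𝒰 hA h𝒰' hB ((Resolved4.lvl h𝒰 (intRep A) hA).π1 z) =
      (Resolved4.lvl h𝒰' (intRep (Rep.res f A)) hB).π1
        (Resolved4.mkZ1 h𝒰' (intRep (Rep.res f A)) hB (z.1.1 ∘ ⇑f) hl hc) := rfl

theorem resHlev2_π2 (z : (Resolved4.lvl h𝒰 (intRep A) hA).Z2)
    (hl : HyperLevel25.IsLevel₂ 𝓑'.sets (z.1.1 ∘ Prod.map ⇑f ⇑f))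
    (hc : HyperLevel25.dTwo (intRep (Rep.res f A)) (z.1.1 ∘ Prod.map ⇑f ⇑f) = 0) :
    resHlev2 f 𝓑 𝓑' hf A h𝒰 hA h𝒰' hB ((Resolved4.lvl h𝒰 (intRep A) hA).π2 z) =
      (Resolved4.lvl h𝒰' (intRep (Rep.res f A)) hB).π2
        (Resolved4.mkZ2 h𝒰' (intRep (Rep.res f A)) hB (z.1.1 ∘ Prod.map ⇑f ⇑f) hl hc) := rfl

/-- **The bridge intertwines restriction in degree 1** (right-hand side = the shape of
`ShaBridge13.resH1`). -/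
theorem bridgeH1_res (x : Resolved4.Hlev1 h𝒰 (intRep A) hA) :
    bridgeH1 𝓑' (Rep.res f A) h𝒰' hB (resHlev1 f 𝓑 𝓑' hf A h𝒰 hA h𝒰' hB x) =
      LevelCohRes28.ppH1 (𝓑G := 𝓑') (𝓑H := 𝓑) (A := A) (B := Rep.res f A) f
        (LinearMap.id : A →ₗ[k] Rep.res f A)
        (fun _ _ => rfl) hf (bridgeH1 𝓑 A h𝒰 hA x) :=
  bridgeH1_natural f 𝓑 𝓑' hf A (Rep.res f A) h𝒰 hA h𝒰' hB (LinearMap.id : A →ₗ[k] Rep.res f A)
    (fun _ _ => rfl) (LinearMap.id : A →ₗ[ℤ] A) (fun _ _ => rfl) (fun _ => rfl) x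

/-- **The bridge intertwines restriction in degree 2** (right-hand side = the shape of
`ShaBridge13.resH2`). -/
theorem bridgeH2_res (x : Resolved4.Hlev2 h𝒰 (intRep A) hA) :
    bridgeH2 𝓑' (Rep.res f A) h𝒰' hB (resHlev2 f 𝓑 𝓑' hf A h𝒰 hA h𝒰' hB x) =
      LevelCohRes28.ppH2 (𝓑G := 𝓑') (𝓑H := 𝓑) (A := A) (B := Rep.res f A) f
        (LinearMap.id : A →ₗ[k] Rep.res f A)
        (fun _ _ => rfl) hf (bridgeH2 𝓑 A h𝒰 hA x) :=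
  bridgeH2_natural f 𝓑 𝓑' hf A (Rep.res f A) h𝒰 hA h𝒰' hB (LinearMap.id : A →ₗ[k] Rep.res f A)
    (fun _ _ => rfl) (LinearMap.id : A →ₗ[ℤ] A) (fun _ _ => rfl) (fun _ => rfl) x

/-- Vanishing of the restriction can be tested on either side. -/
theorem resHlev1_eq_zero_iff (x : Resolved4.Hlev1 h𝒰 (intRep A) hA) :
    resHlev1 f 𝓑 𝓑' hf A h𝒰 hA h𝒰' hB x = 0 ↔
      LevelCohRes28.ppH1 (𝓑G := 𝓑') (𝓑H := 𝓑) (A := A) (B := Rep.res f A) f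
        (LinearMap.id : A →ₗ[k] Rep.res f A)
        (fun _ _ => rfl) hf (bridgeH1 𝓑 A h𝒰 hA x) = 0 := by
  rw [← bridgeH1_res f 𝓑 𝓑' hf A h𝒰 hA h𝒰' hB x, AddEquiv.map_eq_zero_iff]

theorem resHlev2_eq_zero_iff (x : Resolved4.Hlev2 h𝒰 (intRep A) hA) :
    resHlev2 f 𝓑 𝓑' hf A h𝒰 hA h𝒰' hB x = 0 ↔
      LevelCohRes28.ppH2 (𝓑G := 𝓑') (𝓑H := 𝓑) (A := A) (B := Rep.res f A) f
        (LinearMap.id : A →ₗ[k] Rep.res f A)
        (fun _ _ => rfl) hf (bridgeH2 𝓑 A h𝒰 hA x) = 0 := by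
  rw [← bridgeH2_res f 𝓑 𝓑' hf A h𝒰 hA h𝒰' hB x, AddEquiv.map_eq_zero_iff]

end Res

/-! ### Coefficient maps (same group) -/

section Coeff

variable (𝓑 : LevelCoh28.LevelBasis G) (A B : Rep.{u} k G)
  (h𝒰 : HyperLevel25.IsLevelBasis 𝓑.sets) (hA : HyperLevel25.IsDiscrete 𝓑.sets (intRep A))
  (hB : HyperLevel25.IsDiscrete 𝓑.sets (intRep B))
  (φ : A →ₗ[k] B) (hφ : ∀ g a, φ (A.ρ g a) = B.ρ g (φ a))

/-- The bridge intertwines the coefficient maps `Resolved4.lvlHom` and `LevelCoh28.mapH1`. -/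
theorem bridgeH1_map (x : Resolved4.Hlev1 h𝒰 (intRep A) hA) :
    bridgeH1 𝓑 B h𝒰 hB ((Resolved4.lvlHom h𝒰 hA hB (intLin φ) hφ).mapH1 x) =
      LevelCoh28.mapH1 (𝓑 := 𝓑) φ hφ (bridgeH1 𝓑 A h𝒰 hA x) := by
  obtain ⟨z, rfl⟩ := (Resolved4.lvl h𝒰 (intRep A) hA).π1_surjective x
  rfl

/-- The bridge intertwines the coefficient maps `Resolved4.lvlHom` and `LevelCoh28.mapH2`. -/
theorem bridgeH2_map (x : Resolved4.Hlev2 h𝒰 (intRep A) hA) :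
    bridgeH2 𝓑 B h𝒰 hB ((Resolved4.lvlHom h𝒰 hA hB (intLin φ) hφ).mapH2 x) =
      LevelCoh28.mapH2 (𝓑 := 𝓑) φ hφ (bridgeH2 𝓑 A h𝒰 hA x) := by
  obtain ⟨z, rfl⟩ := (Resolved4.lvl h𝒰 (intRep A) hA).π2_surjective x
  rfl

end Coeff

end Fermat.Agent.PT.PRO.LevelBridgeK8
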