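/-
Program F (S55, Poitou–Tate), chapter PRO, helper8.

`LevelBridgeRes8`: supplement to `LevelBridgeK8`: the bridges
`bridgeH1 : Hlev1 (intRep A) ≃+ LevelCoh28.H1 𝓑 A`, `bridgeH2` intertwine helper4's restriction maps
`PairingRes4.resHlev1/resHlev2` (the maps appearing in `pair11_res`, `pair11_evalRes`, `k = ℤ`) with
`LevelCohRes28.ppH1/ppH2` (the maps of `ShaBridge13.resH1/resH2`, `k = ZMod p`).
-/
import Mathlib
import Fermat.Agent.PT.PRO.LevelBridgeK8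
import Fermat.Agent.PT.PRO.PairingRes4

set_option autoImplicit false

universe u

namespace Fermat.Agent.PT.PRO.LevelBridgeRes8

open Fermat.Agent.PT.PRO Fermat.Agent.PT.PRO.IntRep20 Fermat.Agent.PT.PRO.LevelBridgeK8

variable {k G G' : Type u} [CommRing k] [Group G] [Group G'] (f : G' →* G)
  (𝓑 : LevelCoh28.LevelBasis G) (𝓑' : LevelCoh28.LevelBasis G')
  (hf : LevelCohRes28.IsLevelHom f 𝓑'.sets 𝓑.sets)
  (A : Rep.{u} k G)
  (h𝒰 : HyperLevel25.IsLevelBasis 𝓑.sets) (hA : HyperLevel25.IsDiscrete 𝓑.sets (intRep A))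
  (h𝒰' : HyperLevel25.IsLevelBasis 𝓑'.sets)

section General

variable (B : Rep.{u} k G') (hB : HyperLevel25.IsDiscrete 𝓑'.sets (intRep B))
  (φ : A →ₗ[k] B) (hφ : ∀ (g : G') (a : A), φ (A.ρ (f g) a) = B.ρ g (φ a))
  (φ' : A →ₗ[ℤ] B) (hφ' : ∀ (g : G') (a : A), φ' (intRep A (f g) a) = intRep B g (φ' a))
  (hφφ' : ∀ a, φ' a = φ a)

include hφφ' in
/-- `bridgeH1` intertwines `PairingRes4.resHlev1` (over `ℤ`) and `LevelCohRes28.ppH1`. -/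
theorem bridgeH1_resHlev1 (x : Resolved4.Hlev1 h𝒰 (intRep A) hA) :
    bridgeH1 𝓑' B h𝒰' hB
        (PairingRes4.resHlev1 ((isLevelHom_iff f).1 hf) h𝒰 h𝒰' hA hB φ' hφ' x) =
      LevelCohRes28.ppH1 f φ hφ hf (bridgeH1 𝓑 A h𝒰 hA x) := by
  obtain ⟨z, rfl⟩ := (Resolved4.lvl h𝒰 (intRep A) hA).π1_surjective x
  rw [PairingRes4.resHlev1_π1, bridgeH1_π1, bridgeH1_π1, LevelCohRes28.ppH1_mk]
  congr 1
  apply Subtype.ext
  funext g
  exact hφφ' _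

include hφφ' in
/-- `bridgeH2` intertwines `PairingRes4.resHlev2` (over `ℤ`) and `LevelCohRes28.ppH2`. -/
theorem bridgeH2_resHlev2 (x : Resolved4.Hlev2 h𝒰 (intRep A) hA) :
    bridgeH2 𝓑' B h𝒰' hB
        (PairingRes4.resHlev2 ((isLevelHom_iff f).1 hf) h𝒰 h𝒰' hA hB φ' hφ' x) =
      LevelCohRes28.ppH2 f φ hφ hf (bridgeH2 𝓑 A h𝒰 hA x) := by
  obtain ⟨z, rfl⟩ := (Resolved4.lvl h𝒰 (intRep A) hA).π2_surjective x
  rw [PairingRes4.resHlev2_π2, bridgeH2_π2, bridgeH2_π2, LevelCohRes28.ppH2_mk]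
  congr 1
  apply Subtype.ext
  funext g
  exact hφφ' _

end General

section Res

variable (hB : HyperLevel25.IsDiscrete 𝓑'.sets ((intRep A).comp f))

/-- The restriction with `b = id` (the `res_q` of `PairingRes4.pair11_evalRes`, target module
`(intRep A).comp f`) corresponds to the localisation map of `ShaBridge13.resH1` (target module
`Rep.res f A`). -/
theorem bridgeH1_resHlev1_id (x : Resolved4.Hlev1 h𝒰 (intRep A) hA) :
    bridgeH1 𝓑' (Rep.res f A) h𝒰' hB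
        (PairingRes4.resHlev1 ((isLevelHom_iff f).1 hf) h𝒰 h𝒰' hA hB
          (LinearMap.id : A →ₗ[ℤ] A) (fun _ _ => rfl) x) =
      LevelCohRes28.ppH1 (𝓑G := 𝓑') (𝓑H := 𝓑) (A := A) (B := Rep.res f A) f
        (LinearMap.id : A →ₗ[k] Rep.res f A) (fun _ _ => rfl) hf (bridgeH1 𝓑 A h𝒰 hA x) :=
  bridgeH1_resHlev1 f 𝓑 𝓑' hf A h𝒰 hA h𝒰' (Rep.res f A) hB (LinearMap.id : A →ₗ[k] Rep.res f A)
    (fun _ _ => rfl) (LinearMap.id : A →ₗ[ℤ] A) (fun _ _ => rfl) (fun _ => rfl) x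

theorem bridgeH2_resHlev2_id (x : Resolved4.Hlev2 h𝒰 (intRep A) hA) :
    bridgeH2 𝓑' (Rep.res f A) h𝒰' hB
        (PairingRes4.resHlev2 ((isLevelHom_iff f).1 hf) h𝒰 h𝒰' hA hB
          (LinearMap.id : A →ₗ[ℤ] A) (fun _ _ => rfl) x) =
      LevelCohRes28.ppH2 (𝓑G := 𝓑') (𝓑H := 𝓑) (A := A) (B := Rep.res f A) f
        (LinearMap.id : A →ₗ[k] Rep.res f A) (fun _ _ => rfl) hf (bridgeH2 𝓑 A h𝒰 hA x) :=
  bridgeH2_resHlev2 f 𝓑 𝓑' hf A h𝒰 hA h𝒰' (Rep.res f A) hB (LinearMap.id : A →ₗ[k] Rep.res f A)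
    (fun _ _ => rfl) (LinearMap.id : A →ₗ[ℤ] A) (fun _ _ => rfl) (fun _ => rfl) x

/-- Vanishing of the restriction can be tested on either side (degree 1). -/
theorem resHlev1_id_eq_zero_iff (x : Resolved4.Hlev1 h𝒰 (intRep A) hA) :
    PairingRes4.resHlev1 ((isLevelHom_iff f).1 hf) h𝒰 h𝒰' hA hB
        (LinearMap.id : A →ₗ[ℤ] A) (fun _ _ => rfl) x = 0 ↔
      LevelCohRes28.ppH1 (𝓑G := 𝓑') (𝓑H := 𝓑) (A := A) (B := Rep.res f A) f
        (LinearMap.id : A →ₗ[k] Rep.res f A) (fun _ _ => rfl) hf (bridgeH1 𝓑 A h𝒰 hA x) = 0 := by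
  rw [← bridgeH1_resHlev1_id f 𝓑 𝓑' hf A h𝒰 hA h𝒰' hB x]
  exact (AddEquiv.map_eq_zero_iff (bridgeH1 𝓑' (Rep.res f A) h𝒰' hB)).symm

/-- Vanishing of the restriction can be tested on either side (degree 2). -/
theorem resHlev2_id_eq_zero_iff (x : Resolved4.Hlev2 h𝒰 (intRep A) hA) :
    PairingRes4.resHlev2 ((isLevelHom_iff f).1 hf) h𝒰 h𝒰' hA hB
        (LinearMap.id : A →ₗ[ℤ] A) (fun _ _ => rfl) x = 0 ↔
      LevelCohRes28.ppH2 (𝓑G := 𝓑') (𝓑H := 𝓑) (A := A) (B := Rep.res f A) f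
        (LinearMap.id : A →ₗ[k] Rep.res f A) (fun _ _ => rfl) hf (bridgeH2 𝓑 A h𝒰 hA x) = 0 := by
  rw [← bridgeH2_resHlev2_id f 𝓑 𝓑' hf A h𝒰 hA h𝒰' hB x]
  exact (AddEquiv.map_eq_zero_iff (bridgeH2 𝓑' (Rep.res f A) h𝒰' hB)).symm

end Res

end Fermat.Agent.PT.PRO.LevelBridgeRes8
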