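/-
Program F (S55, Poitou–Tate), chapter PRO, helper28.

Level cohomology (of `LevelCoh28`) as the colimit of the cohomology of the finite levels.

* `toH1`, `toH2`: the maps to the abstract (Mathlib) group cohomology; `toH1` is injective, and both
  are bijective when every cochain is level (`⊥ ∈ 𝓑.sets`, e.g. the basis `botBasis Q` of a finite
  group `Q`).
* A *finite level* of `(G, 𝓑, A)` is `π : G →* Q` surjective with open kernel, an `Q`-module `X` and
  an `π`-equivariant injection `ι : X → A` onto the `ker π`-invariants.  `infl1`, `infl2` are the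
  inflation maps `Hⁱ(Q, X) → Hⁱ(𝓑, A)` (Mathlib cohomology on the left).
* `exists_infl1_eq`, `exists_infl2_eq`: every class is inflated from every sufficiently fine level.
* `infl1_injective`; `exists_of_infl2_eq_zero`: a class of `H²(Q, X)` which inflates to `0` dies
  at every sufficiently fine level.
* The standard levels `G ⧸ U`, `A.quotientToInvariants U`.
-/
import Mathlib
import Fermat.Agent.PT.PRO.LevelCoh28
import Fermat.Agent.PT.PRO.LevelCohRes28

set_option autoImplicit false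
set_option linter.unusedSectionVars false
set_option linter.style.haveILetI false

universe u

open CategoryTheory groupCohomology

namespace Fermat.Agent.PT.PRO.LevelCohColim28

open Fermat.Agent.PT.PRO.LevelCoh28 Fermat.Agent.PT.PRO.LevelCohRes28

variable {k G : Type u} [CommRing k] [Group G]

/-! ### Level 2-cochains have finite range and a common normal fixing subgroup -/

theorem isLevel₂_finite_range {𝓤 : Set (Subgroup G)} (h𝓤 : IsLevelBasis 𝓤) {X : Type*}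
    {f : G × G → X} (hf : IsLevel₂ 𝓤 f) : (Set.range f).Finite := by
  obtain ⟨U, hU, h⟩ := hf
  haveI := h𝓤.finiteIndex U hU
  haveI : Finite (G ⧸ U) := Subgroup.finite_quotient_of_finiteIndex
  let F : (G ⧸ U) × (G ⧸ U) → X := fun p => f (Quotient.out p.1, Quotient.out p.2)
  refine (Set.finite_range F).subset ?_
  rintro _ ⟨⟨g, g'⟩, rfl⟩
  refine ⟨((g : G ⧸ U), (g' : G ⧸ U)), ?_⟩
  have h1 : ∀ x : G, ∃ s ∈ U, Quotient.out (x : G ⧸ U) = x * s := fun x => by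
    have := QuotientGroup.mk_out_eq_mul U x
    obtain ⟨s, hs⟩ := this
    exact ⟨s, s.2, hs⟩
  obtain ⟨s, hs, e⟩ := h1 g
  obtain ⟨s', hs', e'⟩ := h1 g'
  show f (Quotient.out (g : G ⧸ U), Quotient.out (g' : G ⧸ U)) = f (g, g')
  rw [e, e']
  exact h g g' s hs s' hs'

theorem isLevel₂_exists_normal_fixing {𝓤 : Set (Subgroup G)} (h𝓤 : IsLevelBasis 𝓤)
    {A : Rep.{u} k G} (hA : IsDiscrete 𝓤 A) {f : G × G → A} (hf : IsLevel₂ 𝓤 f) :
    ∃ U ∈ 𝓤, U.Normal ∧ InvOn₂ U f ∧ ∀ s ∈ U, ∀ x, A.ρ s (f x) = f x := by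
  obtain ⟨V, hV, hn, hfix⟩ := hA.exists_fixing h𝓤 (isLevel₂_finite_range h𝓤 hf)
  obtain ⟨U, hU, hinv⟩ := hf
  obtain ⟨W, hW, hWle⟩ := h𝓤.directed U hU V hV
  obtain ⟨W', hW', hW'le, hn'⟩ := h𝓤.normalCore W hW
  exact ⟨W', hW', hn', hinv.mono (hW'le.trans (hWle.trans inf_le_left)),
    fun s hs x => hfix s ((hW'le.trans (hWle.trans inf_le_right)) hs) _ ⟨x, rfl⟩⟩

/-! ### Comparison with the abstract cohomology -/

section ToAbstract

variable (𝓑 : LevelBasis G) (A : Rep.{u} k G)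

/-- Level cocycles as abstract cocycles. -/
def Z1ToCocycles : ↥(Z1 𝓑 A) →ₗ[k] ↥(cocycles₁ A) := Submodule.inclusion inf_le_left

/-- Level cocycles as abstract cocycles. -/
def Z2ToCocycles : ↥(Z2 𝓑 A) →ₗ[k] ↥(cocycles₂ A) := Submodule.inclusion inf_le_left

@[simp] theorem coe_Z1ToCocycles (c : ↥(Z1 𝓑 A)) :
    ((Z1ToCocycles 𝓑 A c : ↥(cocycles₁ A)) : G → A) = (c : G → A) := rfl

@[simp] theorem coe_Z2ToCocycles (c : ↥(Z2 𝓑 A)) :
    ((Z2ToCocycles 𝓑 A c : ↥(cocycles₂ A)) : G × G → A) = (c : G × G → A) := rfl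

/-- The map from level cohomology to abstract cohomology, degree 1. -/
noncomputable def toH1 : H1 𝓑 A →ₗ[k] groupCohomology.H1 A :=
  Submodule.liftQ _ ((H1π A).hom ∘ₗ Z1ToCocycles 𝓑 A) (by
    intro c hc
    rw [LinearMap.mem_ker, LinearMap.comp_apply]
    exact (H1π_eq_zero_iff _).2 hc)

/-- The map from level cohomology to abstract cohomology, degree 2. -/
noncomputable def toH2 : H2 𝓑 A →ₗ[k] groupCohomology.H2 A :=
  Submodule.liftQ _ ((H2π A).hom ∘ₗ Z2ToCocycles 𝓑 A) (by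
    intro c hc
    rw [LinearMap.mem_ker, LinearMap.comp_apply]
    obtain ⟨x, -, hx⟩ := hc
    exact (H2π_eq_zero_iff _).2 ⟨x, hx⟩)

@[simp] theorem toH1_mk (c : ↥(Z1 𝓑 A)) :
    toH1 𝓑 A (H1mk 𝓑 A c) = H1π A (Z1ToCocycles 𝓑 A c) := rfl

@[simp] theorem toH2_mk (c : ↥(Z2 𝓑 A)) :
    toH2 𝓑 A (H2mk 𝓑 A c) = H2π A (Z2ToCocycles 𝓑 A c) := rfl

theorem toH1_injective : Function.Injective (toH1 𝓑 A) := by
  rw [← LinearMap.ker_eq_bot, LinearMap.ker_eq_bot']
  intro x hx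
  obtain ⟨c, rfl⟩ := H1mk_surjective 𝓑 A x
  rw [toH1_mk, H1π_eq_zero_iff] at hx
  exact (H1mk_eq_zero_iff 𝓑 A c).2 hx

/-- The image of `toH1` consists of the classes of level cocycles (the shape of the prelude
`continuousH1S`). -/
theorem mem_range_toH1_iff (x : groupCohomology.H1 A) :
    x ∈ LinearMap.range (toH1 𝓑 A) ↔
      ∃ c : cocycles₁ A, IsLevel₁ 𝓑.sets (c : G → A) ∧ H1π A c = x := by
  constructor
  · rintro ⟨y, rfl⟩
    obtain ⟨c, rfl⟩ := H1mk_surjective 𝓑 A y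
    exact ⟨Z1ToCocycles 𝓑 A c, c.2.2, rfl⟩
  · rintro ⟨c, hc, rfl⟩
    exact ⟨H1mk 𝓑 A ⟨(c : G → A), c.2, hc⟩, rfl⟩

variable {𝓑}

theorem isLevel₁_of_bot_mem (h : ⊥ ∈ 𝓑.sets) {X : Type*} (f : G → X) : IsLevel₁ 𝓑.sets f :=
  ⟨⊥, h, fun g s hs => by rw [Subgroup.mem_bot.1 hs, mul_one]⟩

theorem isLevel₂_of_bot_mem (h : ⊥ ∈ 𝓑.sets) {X : Type*} (f : G × G → X) :
    IsLevel₂ 𝓑.sets f :=
  ⟨⊥, h, fun g g' s hs s' hs' => by
    rw [Subgroup.mem_bot.1 hs, Subgroup.mem_bot.1 hs', mul_one, mul_one]⟩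

theorem toH1_surjective (h : ⊥ ∈ 𝓑.sets) : Function.Surjective (toH1 𝓑 A) := by
  intro x
  induction x using H1_induction_on with
  | h c => exact ⟨H1mk 𝓑 A ⟨(c : G → A), c.2, isLevel₁_of_bot_mem h _⟩, rfl⟩

theorem toH2_surjective (h : ⊥ ∈ 𝓑.sets) : Function.Surjective (toH2 𝓑 A) := by
  intro x
  induction x using H2_induction_on with
  | h c => exact ⟨H2mk 𝓑 A ⟨(c : G × G → A), c.2, isLevel₂_of_bot_mem h _⟩, rfl⟩

theorem toH2_injective (h : ⊥ ∈ 𝓑.sets) : Function.Injective (toH2 𝓑 A) := by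
  rw [← LinearMap.ker_eq_bot, LinearMap.ker_eq_bot']
  intro x hx
  obtain ⟨c, rfl⟩ := H2mk_surjective 𝓑 A x
  rw [toH2_mk, H2π_eq_zero_iff] at hx
  obtain ⟨y, hy⟩ := hx
  exact (H2mk_eq_zero_iff 𝓑 A c).2 ((mem_B2_iff 𝓑 A _).2 ⟨y, isLevel₁_of_bot_mem h _, hy⟩)

/-- If every cochain is level, level `H¹` is abstract `H¹`. -/
noncomputable def H1equiv (h : ⊥ ∈ 𝓑.sets) : H1 𝓑 A ≃ₗ[k] groupCohomology.H1 A :=
  LinearEquiv.ofBijective (toH1 𝓑 A) ⟨toH1_injective 𝓑 A, toH1_surjective A h⟩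

/-- If every cochain is level, level `H²` is abstract `H²`. -/
noncomputable def H2equiv (h : ⊥ ∈ 𝓑.sets) : H2 𝓑 A ≃ₗ[k] groupCohomology.H2 A :=
  LinearEquiv.ofBijective (toH2 𝓑 A) ⟨toH2_injective A h, toH2_surjective A h⟩

@[simp] theorem H1equiv_apply (h : ⊥ ∈ 𝓑.sets) (x : H1 𝓑 A) : H1equiv A h x = toH1 𝓑 A x := rfl

@[simp] theorem H2equiv_apply (h : ⊥ ∈ 𝓑.sets) (x : H2 𝓑 A) : H2equiv A h x = toH2 𝓑 A x := rfl

end ToAbstract

/-! ### The discrete basis of a finite group -/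

/-- The basis `{⊥}` of a finite group: every cochain is level. -/
def botBasis (Q : Type u) [Group Q] [Finite Q] : LevelBasis Q where
  sets := {⊥}
  isBasis :=
    { nonempty := ⟨⊥, rfl⟩
      directed := by
        rintro U rfl V rfl
        exact ⟨⊥, rfl, le_inf le_rfl le_rfl⟩
      normalCore := by
        rintro U rfl
        exact ⟨⊥, rfl, le_rfl, inferInstance⟩
      finiteIndex := by
        rintro U rfl
        infer_instance }

theorem bot_mem_botBasis (Q : Type u) [Group Q] [Finite Q] : ⊥ ∈ (botBasis Q).sets := rfl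

/-! ### Naturality of `toH1`, `toH2` -/

section ToAbstractNatural

variable {H : Type u} [Group H] (f : G →* H) {A : Rep.{u} k H} {B : Rep.{u} k G}
  (φ : A →ₗ[k] B) (hφ : ∀ (g : G) (a : A), φ (A.ρ (f g) a) = B.ρ g (φ a))

/-- The morphism of representations defined by an `f`-equivariant linear map. -/
def repHom : Rep.res f A ⟶ B :=
  Rep.ofHom ⟨φ, fun g => by ext a; exact hφ g a⟩

@[simp] theorem repHom_apply (a : A) : (repHom f φ hφ).hom a = φ a := rfl

variable {𝓑G : LevelBasis G} {𝓑H : LevelBasis H} (hf : IsLevelHom f 𝓑G.sets 𝓑H.sets)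

theorem toH1_ppH1 (x : H1 𝓑H A) :
    toH1 𝓑G B (ppH1 f φ hφ hf x) = (groupCohomology.map f (repHom f φ hφ) 1).hom (toH1 𝓑H A x) := by
  obtain ⟨c, rfl⟩ := H1mk_surjective 𝓑H A x
  rw [ppH1_mk, toH1_mk, toH1_mk]
  have := H1π_comp_map_apply f (repHom f φ hφ) (Z1ToCocycles 𝓑H A c)
  rw [this]
  congr 1

theorem toH2_ppH2 (x : H2 𝓑H A) :
    toH2 𝓑G B (ppH2 f φ hφ hf x) = (groupCohomology.map f (repHom f φ hφ) 2).hom (toH2 𝓑H A x) := by
  obtain ⟨c, rfl⟩ := H2mk_surjective 𝓑H A x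
  rw [ppH2_mk, toH2_mk, toH2_mk]
  have := H2π_comp_map_apply f (repHom f φ hφ) (Z2ToCocycles 𝓑H A c)
  rw [this]
  congr 1

end ToAbstractNatural

/-! ### Finite levels: inflation -/

section Inflation

variable {𝓑 : LevelBasis G} {A : Rep.{u} k G}
  {Q : Type u} [Group Q] [Finite Q] (π : G →* Q) {X : Rep.{u} k Q} (ι : X →ₗ[k] A)
  (hι : ∀ (g : G) (x : X), ι (X.ρ (π g) x) = A.ρ g (ι x))
  (hopen : ∃ V ∈ 𝓑.sets, V ≤ π.ker)

include hopen in
theorem isLevelHom_of_open_ker : IsLevelHom π 𝓑.sets (botBasis Q).sets := by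
  rintro U rfl
  obtain ⟨V, hV, hVle⟩ := hopen
  exact ⟨V, hV, by rwa [MonoidHom.comap_bot]⟩

/-- Inflation `H¹(Q, X) → H¹(𝓑, A)` from a finite level. -/
noncomputable def infl1 : groupCohomology.H1 X →ₗ[k] H1 𝓑 A :=
  ppH1 π ι hι (isLevelHom_of_open_ker π hopen) ∘ₗ
    (H1equiv X (bot_mem_botBasis Q)).symm.toLinearMap

/-- Inflation `H²(Q, X) → H²(𝓑, A)` from a finite level. -/
noncomputable def infl2 : groupCohomology.H2 X →ₗ[k] H2 𝓑 A :=
  ppH2 π ι hι (isLevelHom_of_open_ker π hopen) ∘ₗ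
    (H2equiv X (bot_mem_botBasis Q)).symm.toLinearMap

include hι hopen in
theorem pp₁_mem_Z1_of_cocycle {c : Q → X} (hc : c ∈ cocycles₁ X) : pp₁ π ι c ∈ Z1 𝓑 A :=
  pp₁_mem_Z1 π ι hι (isLevelHom_of_open_ker π hopen)
    (⟨hc, isLevel₁_of_bot_mem (bot_mem_botBasis Q) c⟩ : c ∈ Z1 (botBasis Q) X)

include hι hopen in
theorem pp₂_mem_Z2_of_cocycle {c : Q × Q → X} (hc : c ∈ cocycles₂ X) : pp₂ π ι c ∈ Z2 𝓑 A :=
  pp₂_mem_Z2 π ι hι (isLevelHom_of_open_ker π hopen)
    (⟨hc, isLevel₂_of_bot_mem (bot_mem_botBasis Q) c⟩ : c ∈ Z2 (botBasis Q) X)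

theorem infl1_π (c : cocycles₁ X) :
    infl1 π ι hι hopen (H1π X c) =
      H1mk 𝓑 A ⟨pp₁ π ι (c : Q → X), pp₁_mem_Z1_of_cocycle π ι hι hopen c.2⟩ := by
  have h : (H1equiv X (bot_mem_botBasis Q)).symm (H1π X c) =
      H1mk (botBasis Q) X ⟨(c : Q → X), c.2, isLevel₁_of_bot_mem (bot_mem_botBasis Q) _⟩ := by
    rw [LinearEquiv.symm_apply_eq]
    rfl
  rw [infl1, LinearMap.comp_apply, LinearEquiv.coe_coe, h, ppH1_mk]
  rfl

theorem infl2_π (c : cocycles₂ X) :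
    infl2 π ι hι hopen (H2π X c) =
      H2mk 𝓑 A ⟨pp₂ π ι (c : Q × Q → X), pp₂_mem_Z2_of_cocycle π ι hι hopen c.2⟩ := by
  have h : (H2equiv X (bot_mem_botBasis Q)).symm (H2π X c) =
      H2mk (botBasis Q) X ⟨(c : Q × Q → X), c.2, isLevel₂_of_bot_mem (bot_mem_botBasis Q) _⟩ := by
    rw [LinearEquiv.symm_apply_eq]
    rfl
  rw [infl2, LinearMap.comp_apply, LinearEquiv.coe_coe, h, ppH2_mk]
  rfl

end Inflation

/-! ### Finite levels: descent of cochains -/

section Descent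

variable {A : Rep.{u} k G}
  {Q : Type u} [Group Q] (π : G →* Q) {X : Rep.{u} k Q} (ι : X →ₗ[k] A)
  (hι : ∀ (g : G) (x : X), ι (X.ρ (π g) x) = A.ρ g (ι x))
  (hπ : Function.Surjective π) (hinj : Function.Injective ι)
  (hrange : ∀ a : A, (∀ s ∈ π.ker, A.ρ s a = a) → ∃ x, ι x = a)

include hπ in
theorem exists_mem_ker_surjInv (g : G) :
    ∃ s ∈ π.ker, Function.surjInv hπ (π g) = g * s := by
  refine ⟨g⁻¹ * Function.surjInv hπ (π g), ?_, by group⟩
  rw [MonoidHom.mem_ker, map_mul, map_inv, Function.surjInv_eq hπ, inv_mul_cancel]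

include hπ hrange in
/-- A 1-cochain of `G` which is `ker π`-invariant with `ker π`-fixed values descends to `Q`. -/
theorem exists_descent₁ {b : G → A} (hinv : InvOn₁ π.ker b)
    (hfix : ∀ s ∈ π.ker, ∀ g, A.ρ s (b g) = b g) : ∃ b' : Q → X, pp₁ π ι b' = b := by
  choose r hr using fun g => hrange (b g) (fun s hs => hfix s hs g)
  refine ⟨fun q => r (Function.surjInv hπ q), ?_⟩
  funext g
  obtain ⟨s, hs, e⟩ := exists_mem_ker_surjInv π hπ g
  rw [pp₁_apply, hr, e, hinv g s hs]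

include hπ hrange in
/-- A 2-cochain of `G` which is `ker π`-invariant with `ker π`-fixed values descends to `Q`. -/
theorem exists_descent₂ {c : G × G → A} (hinv : InvOn₂ π.ker c)
    (hfix : ∀ s ∈ π.ker, ∀ x, A.ρ s (c x) = c x) : ∃ c' : Q × Q → X, pp₂ π ι c' = c := by
  choose r hr using fun x => hrange (c x) (fun s hs => hfix s hs x)
  refine ⟨fun q => r (Function.surjInv hπ q.1, Function.surjInv hπ q.2), ?_⟩
  funext ⟨g, g'⟩
  obtain ⟨s, hs, e⟩ := exists_mem_ker_surjInv π hπ g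
  obtain ⟨s', hs', e'⟩ := exists_mem_ker_surjInv π hπ g'
  rw [pp₂_apply, hr]
  simp only [e, e']
  exact hinv g g' s hs s' hs'

include hπ hinj in
theorem pp₁_injective : Function.Injective (pp₁ (k := k) π ι) := by
  intro x y h
  funext q
  obtain ⟨g, rfl⟩ := hπ q
  exact hinj (congrFun h g)

include hπ hinj in
theorem pp₂_injective : Function.Injective (pp₂ (k := k) π ι) := by
  intro x y h
  funext ⟨q, q'⟩
  obtain ⟨g, rfl⟩ := hπ q
  obtain ⟨g', rfl⟩ := hπ q'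
  exact hinj (congrFun h (g, g'))

include hι hπ hinj in
/-- Cocycles descend. -/
theorem mem_cocycles₁_of_pp₁ {b' : Q → X} (h : pp₁ π ι b' ∈ cocycles₁ A) :
    b' ∈ cocycles₁ X := by
  rw [mem_cocycles₁_iff] at h ⊢
  intro q q'
  obtain ⟨g, rfl⟩ := hπ q
  obtain ⟨g', rfl⟩ := hπ q'
  apply hinj
  have := h g g'
  simp only [pp₁_apply, map_mul] at this
  rw [this, map_add, hι]

include hι hπ hinj in
theorem mem_cocycles₂_of_pp₂ {c' : Q × Q → X} (h : pp₂ π ι c' ∈ cocycles₂ A) :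
    c' ∈ cocycles₂ X := by
  rw [mem_cocycles₂_iff] at h ⊢
  intro q q' q''
  obtain ⟨g, rfl⟩ := hπ q
  obtain ⟨g', rfl⟩ := hπ q'
  obtain ⟨g'', rfl⟩ := hπ q''
  apply hinj
  have := h g g' g''
  simp only [pp₂_apply, map_mul] at this
  rw [map_add, map_add, this, hι]

end Descent

/-! ### Level cohomology is the colimit of the finite levels -/

section Colimit

variable {𝓑 : LevelBasis G} {A : Rep.{u} k G}

/-- **Every class of `H¹(𝓑, A)` is inflated from every sufficiently fine finite level.** -/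
theorem exists_infl1_eq (hA : IsDiscrete 𝓑.sets A) (x : H1 𝓑 A) :
    ∃ U ∈ 𝓑.sets, U.Normal ∧ ∀ {Q : Type u} [Group Q] [Finite Q] (π : G →* Q)
      {X : Rep.{u} k Q} (ι : X →ₗ[k] A)
      (hι : ∀ (g : G) (x : X), ι (X.ρ (π g) x) = A.ρ g (ι x))
      (hopen : ∃ V ∈ 𝓑.sets, V ≤ π.ker),
      Function.Surjective π → Function.Injective ι →
      (∀ a : A, (∀ s ∈ π.ker, A.ρ s a = a) → ∃ x, ι x = a) → π.ker ≤ U →
      ∃ y : groupCohomology.H1 X, infl1 π ι hι hopen y = x := by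
  obtain ⟨c, rfl⟩ := H1mk_surjective 𝓑 A x
  obtain ⟨U, hU, hn, hinv, hfix⟩ := c.2.2.exists_normal_fixing 𝓑.isBasis hA
  refine ⟨U, hU, hn, fun {Q} _ _ π {X} ι hι hopen hπ hinj hrange hle => ?_⟩
  obtain ⟨c', hc'⟩ := exists_descent₁ π ι hπ hrange (hinv.mono hle)
    (fun s hs g => hfix s (hle hs) g)
  have hc'Z : c' ∈ cocycles₁ X := mem_cocycles₁_of_pp₁ π ι hι hπ hinj (hc' ▸ c.2.1)
  refine ⟨H1π X ⟨c', hc'Z⟩, ?_⟩
  rw [infl1_π]
  congr 1
  exact Subtype.ext hc'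

/-- **Every class of `H²(𝓑, A)` is inflated from every sufficiently fine finite level.** -/
theorem exists_infl2_eq (hA : IsDiscrete 𝓑.sets A) (x : H2 𝓑 A) :
    ∃ U ∈ 𝓑.sets, U.Normal ∧ ∀ {Q : Type u} [Group Q] [Finite Q] (π : G →* Q)
      {X : Rep.{u} k Q} (ι : X →ₗ[k] A)
      (hι : ∀ (g : G) (x : X), ι (X.ρ (π g) x) = A.ρ g (ι x))
      (hopen : ∃ V ∈ 𝓑.sets, V ≤ π.ker),
      Function.Surjective π → Function.Injective ι →
      (∀ a : A, (∀ s ∈ π.ker, A.ρ s a = a) → ∃ x, ι x = a) → π.ker ≤ U →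
      ∃ y : groupCohomology.H2 X, infl2 π ι hι hopen y = x := by
  obtain ⟨c, rfl⟩ := H2mk_surjective 𝓑 A x
  obtain ⟨U, hU, hn, hinv, hfix⟩ := isLevel₂_exists_normal_fixing 𝓑.isBasis hA c.2.2
  refine ⟨U, hU, hn, fun {Q} _ _ π {X} ι hι hopen hπ hinj hrange hle => ?_⟩
  obtain ⟨c', hc'⟩ := exists_descent₂ π ι hπ hrange (hinv.mono hle)
    (fun s hs g => hfix s (hle hs) g)
  have hc'Z : c' ∈ cocycles₂ X := mem_cocycles₂_of_pp₂ π ι hι hπ hinj (hc' ▸ c.2.1)
  refine ⟨H2π X ⟨c', hc'Z⟩, ?_⟩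
  rw [infl2_π]
  congr 1
  exact Subtype.ext hc'

section Fixed

variable {Q : Type u} [Group Q] [Finite Q] (π : G →* Q) {X : Rep.{u} k Q} (ι : X →ₗ[k] A)
  (hι : ∀ (g : G) (x : X), ι (X.ρ (π g) x) = A.ρ g (ι x))
  (hopen : ∃ V ∈ 𝓑.sets, V ≤ π.ker)
  (hπ : Function.Surjective π) (hinj : Function.Injective ι)
  (hrange : ∀ a : A, (∀ s ∈ π.ker, A.ρ s a = a) → ∃ x, ι x = a)

include hπ hinj hrange in
/-- **Inflation is injective on `H¹`.** -/
theorem infl1_injective : Function.Injective (infl1 (𝓑 := 𝓑) π ι hι hopen) := by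
  rw [← LinearMap.ker_eq_bot, LinearMap.ker_eq_bot']
  intro y hy
  induction y using H1_induction_on with
  | h c =>
    rw [infl1_π, H1mk_eq_zero_iff] at hy
    obtain ⟨a, ha⟩ := hy
    have ha' : (d₀₁ A).hom a = pp₁ π ι (c : Q → X) := ha
    have hfix : ∀ s ∈ π.ker, A.ρ s a = a := fun s hs => by
      have h1 := congrFun ha' s
      rw [d₀₁_hom_apply, pp₁_apply, MonoidHom.mem_ker.1 hs, cocycles₁_map_one, map_zero] at h1
      exact sub_eq_zero.1 h1
    obtain ⟨x₀, rfl⟩ := hrange a hfix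
    rw [H1π_eq_zero_iff]
    refine ⟨x₀, ?_⟩
    apply pp₁_injective π ι hπ hinj
    rw [pp₁_d₀₁ π ι hι]
    exact ha'

/-- **A class of `H²(Q, X)` whose inflation vanishes dies at every sufficiently fine level**
(cochain form: `c` a 2-cocycle of `(Q, X)`; the finer level `(Q', X')` maps to `(Q, X)` by
`t : Q' →* Q` and `j : X → X'`). -/
theorem exists_of_infl2_eq_zero (hA : IsDiscrete 𝓑.sets A) (c : cocycles₂ X)
    (h : infl2 π ι hι hopen (H2π X c) = 0) :
    ∃ U ∈ 𝓑.sets, U.Normal ∧ ∀ {Q' : Type u} [Group Q'] (π' : G →* Q') {X' : Rep.{u} k Q'}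
      (ι' : X' →ₗ[k] A) (_hι' : ∀ (g : G) (x : X'), ι' (X'.ρ (π' g) x) = A.ρ g (ι' x))
      (t : Q' →* Q) (j : X →ₗ[k] X'),
      (∀ g, t (π' g) = π g) → (∀ x, ι' (j x) = ι x) →
      Function.Surjective π' → Function.Injective ι' →
      (∀ a : A, (∀ s ∈ π'.ker, A.ρ s a = a) → ∃ x, ι' x = a) → π'.ker ≤ U →
      pp₂ t j (c : Q × Q → X) ∈ coboundaries₂ X' := by
  rw [infl2_π, H2mk_eq_zero_iff] at h
  obtain ⟨b, hb, hbc⟩ := (mem_B2_iff 𝓑 A _).1 h
  obtain ⟨U, hU, hn, hinv, hfix⟩ := hb.exists_normal_fixing 𝓑.isBasis hA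
  refine ⟨U, hU, hn, fun {Q'} _ π' {X'} ι' hι' t j ht hj hπ' hinj' hrange' hle => ?_⟩
  obtain ⟨b', hb'⟩ := exists_descent₁ π' ι' hπ' hrange' (hinv.mono hle)
    (fun s hs g => hfix s (hle hs) g)
  refine ⟨b', ?_⟩
  apply pp₂_injective π' ι' hπ' hinj'
  rw [pp₂_d₁₂ π' ι' hι', hb', hbc]
  funext ⟨g, g'⟩
  simp only [pp₂_apply, hj, ht]

end Fixed

end Colimit

/-! ### Transition maps between finite levels, in terms of Mathlib's `groupCohomology.map` -/

section Transition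

variable {𝓑 : LevelBasis G} {A : Rep.{u} k G}
  {Q : Type u} [Group Q] [Finite Q] (π : G →* Q) {X : Rep.{u} k Q} (ι : X →ₗ[k] A)
  (hι : ∀ (g : G) (x : X), ι (X.ρ (π g) x) = A.ρ g (ι x))
  (hopen : ∃ V ∈ 𝓑.sets, V ≤ π.ker)
  {Q' : Type u} [Group Q'] [Finite Q'] (π' : G →* Q') {X' : Rep.{u} k Q'} (ι' : X' →ₗ[k] A)
  (hι' : ∀ (g : G) (x : X'), ι' (X'.ρ (π' g) x) = A.ρ g (ι' x))
  (hopen' : ∃ V ∈ 𝓑.sets, V ≤ π'.ker)
  (t : Q' →* Q) (j : X →ₗ[k] X') (ht : ∀ g, t (π' g) = π g) (hj : ∀ x, ι' (j x) = ι x)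

include hι hι' ht hj in
/-- The transition map `j : X → X'` is automatically `t`-equivariant. -/
theorem equivariant_of_transition (hπ' : Function.Surjective π') (hinj' : Function.Injective ι')
    (q : Q') (x : X) : j (X.ρ (t q) x) = X'.ρ q (j x) := by
  obtain ⟨g, rfl⟩ := hπ' q
  apply hinj'
  rw [hj, ht, hι, hι', hj]

variable (hj' : ∀ (q : Q') (x : X), j (X.ρ (t q) x) = X'.ρ q (j x))

include ht hj in
/-- Inflation is compatible with the transition maps, degree 1. -/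
theorem infl1_map (y : groupCohomology.H1 X) :
    infl1 π' ι' hι' hopen' ((groupCohomology.map t (repHom t j hj') 1).hom y) =
      infl1 π ι hι hopen y := by
  induction y using H1_induction_on with
  | h c =>
    have := H1π_comp_map_apply t (repHom t j hj') c
    rw [this, infl1_π, infl1_π]
    congr 1
    refine Subtype.ext ?_
    funext g
    show ι' (j ((c : Q → X) (t (π' g)))) = ι ((c : Q → X) (π g))
    rw [hj, ht]

include ht hj in
/-- Inflation is compatible with the transition maps, degree 2. -/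
theorem infl2_map (y : groupCohomology.H2 X) :
    infl2 π' ι' hι' hopen' ((groupCohomology.map t (repHom t j hj') 2).hom y) =
      infl2 π ι hι hopen y := by
  induction y using H2_induction_on with
  | h c =>
    have := H2π_comp_map_apply t (repHom t j hj') c
    rw [this, infl2_π, infl2_π]
    congr 1
    refine Subtype.ext ?_
    funext g
    show ι' (j ((c : Q × Q → X) (t (π' g.1), t (π' g.2)))) = ι ((c : Q × Q → X) (π g.1, π g.2))
    rw [hj, ht, ht]

end Transition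

section KernelMap

variable {𝓑 : LevelBasis G} {A : Rep.{u} k G}
  {Q : Type u} [Group Q] [Finite Q] (π : G →* Q) {X : Rep.{u} k Q} (ι : X →ₗ[k] A)
  (hι : ∀ (g : G) (x : X), ι (X.ρ (π g) x) = A.ρ g (ι x))
  (hopen : ∃ V ∈ 𝓑.sets, V ≤ π.ker)

/-- **A class of `H²(Q, X)` whose inflation vanishes dies at every sufficiently fine level**
(`groupCohomology.map` form). -/
theorem exists_map_eq_zero_of_infl2_eq_zero (hA : IsDiscrete 𝓑.sets A)
    (y : groupCohomology.H2 X) (h : infl2 π ι hι hopen y = 0) :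
    ∃ U ∈ 𝓑.sets, U.Normal ∧ ∀ {Q' : Type u} [Group Q'] (π' : G →* Q') {X' : Rep.{u} k Q'}
      (ι' : X' →ₗ[k] A) (_hι' : ∀ (g : G) (x : X'), ι' (X'.ρ (π' g) x) = A.ρ g (ι' x))
      (t : Q' →* Q) (j : X →ₗ[k] X')
      (hj' : ∀ (q : Q') (x : X), j (X.ρ (t q) x) = X'.ρ q (j x)),
      (∀ g, t (π' g) = π g) → (∀ x, ι' (j x) = ι x) →
      Function.Surjective π' → Function.Injective ι' →
      (∀ a : A, (∀ s ∈ π'.ker, A.ρ s a = a) → ∃ x, ι' x = a) → π'.ker ≤ U →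
      (groupCohomology.map t (repHom t j hj') 2).hom y = 0 := by
  induction y using H2_induction_on with
  | h c =>
    obtain ⟨U, hU, hn, hall⟩ := exists_of_infl2_eq_zero π ι hι hopen hA c h
    refine ⟨U, hU, hn, fun {Q'} _ π' {X'} ι' hι' t j hj' ht hj hπ' hinj' hrange' hle => ?_⟩
    have h1 := hall π' ι' hι' t j ht hj hπ' hinj' hrange' hle
    have := H2π_comp_map_apply t (repHom t j hj') c
    rw [this, H2π_eq_zero_iff]
    exact h1

end KernelMap

/-! ### The standard finite levels `G ⧸ U`, `A^U` -/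

section Standard

variable (𝓑 : LevelBasis G) (A : Rep.{u} k G) (U : Subgroup G) [U.Normal]

/-- The inclusion `A^U → A`. -/
noncomputable def stdι : (A.quotientToInvariants U) →ₗ[k] A := Submodule.subtype _

theorem stdι_equivariant (g : G) (x : A.quotientToInvariants U) :
    stdι A U ((A.quotientToInvariants U).ρ (QuotientGroup.mk' U g) x) = A.ρ g (stdι A U x) := rfl

theorem stdι_injective : Function.Injective (stdι A U) := Subtype.val_injective

theorem stdι_range (a : A) (h : ∀ s ∈ (QuotientGroup.mk' U).ker, A.ρ s a = a) :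
    ∃ x, stdι A U x = a :=
  ⟨⟨a, fun s => h s (by rw [QuotientGroup.ker_mk']; exact s.2)⟩, rfl⟩

variable {𝓑 U}

theorem std_open_ker (hU : ∃ V ∈ 𝓑.sets, V ≤ U) : ∃ V ∈ 𝓑.sets, V ≤ (QuotientGroup.mk' U).ker := by
  rw [QuotientGroup.ker_mk']
  exact hU

theorem std_finite (hU : ∃ V ∈ 𝓑.sets, V ≤ U) : Finite (G ⧸ U) := by
  obtain ⟨V, hV, hVU⟩ := hU
  haveI := 𝓑.isBasis.finiteIndex V hV
  haveI : U.FiniteIndex := Subgroup.finiteIndex_of_le hVU
  exact Subgroup.finite_quotient_of_finiteIndex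

end Standard

section StandardColimit

variable {𝓑 : LevelBasis G} {A : Rep.{u} k G}

/-- Every class of `H²(𝓑, A)` is inflated from `H²(G ⧸ U, A^U)` for some normal `U` of the
basis. -/
theorem exists_std_infl2_eq (hA : IsDiscrete 𝓑.sets A) (x : H2 𝓑 A) :
    ∃ (U : Subgroup G) (hU : U ∈ 𝓑.sets) (hn : U.Normal),
      haveI := hn
      haveI : Finite (G ⧸ U) := std_finite ⟨U, hU, le_rfl⟩
      ∃ y : groupCohomology.H2 (A.quotientToInvariants U),
        infl2 (QuotientGroup.mk' U) (stdι A U) (stdι_equivariant A U)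
          (std_open_ker ⟨U, hU, le_rfl⟩) y = x := by
  obtain ⟨U, hU, hn, hall⟩ := exists_infl2_eq hA x
  refine ⟨U, hU, hn, ?_⟩
  haveI := hn
  haveI : Finite (G ⧸ U) := std_finite ⟨U, hU, le_rfl⟩
  exact hall (QuotientGroup.mk' U) (stdι A U) (stdι_equivariant A U)
    (std_open_ker ⟨U, hU, le_rfl⟩) (QuotientGroup.mk'_surjective U) (stdι_injective A U)
    (stdι_range A U) (by rw [QuotientGroup.ker_mk'])

/-- Every class of `H¹(𝓑, A)` is inflated from `H¹(G ⧸ U, A^U)` for some normal `U` of the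
basis. -/
theorem exists_std_infl1_eq (hA : IsDiscrete 𝓑.sets A) (x : H1 𝓑 A) :
    ∃ (U : Subgroup G) (hU : U ∈ 𝓑.sets) (hn : U.Normal),
      haveI := hn
      haveI : Finite (G ⧸ U) := std_finite ⟨U, hU, le_rfl⟩
      ∃ y : groupCohomology.H1 (A.quotientToInvariants U),
        infl1 (QuotientGroup.mk' U) (stdι A U) (stdι_equivariant A U)
          (std_open_ker ⟨U, hU, le_rfl⟩) y = x := by
  obtain ⟨U, hU, hn, hall⟩ := exists_infl1_eq hA x
  refine ⟨U, hU, hn, ?_⟩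
  haveI := hn
  haveI : Finite (G ⧸ U) := std_finite ⟨U, hU, le_rfl⟩
  exact hall (QuotientGroup.mk' U) (stdι A U) (stdι_equivariant A U)
    (std_open_ker ⟨U, hU, le_rfl⟩) (QuotientGroup.mk'_surjective U) (stdι_injective A U)
    (stdι_range A U) (by rw [QuotientGroup.ker_mk'])

/-- The transition `G ⧸ V → G ⧸ U` for `V ≤ U`. -/
def stdT {U V : Subgroup G} [U.Normal] [V.Normal] (hVU : V ≤ U) : G ⧸ V →* G ⧸ U :=
  QuotientGroup.map V U (MonoidHom.id G) (by rwa [Subgroup.comap_id])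

@[simp] theorem stdT_mk {U V : Subgroup G} [U.Normal] [V.Normal] (hVU : V ≤ U) (g : G) :
    stdT hVU (QuotientGroup.mk' V g) = QuotientGroup.mk' U g := rfl

/-- The transition `A^U → A^V` for `V ≤ U`. -/
noncomputable def stdJ (A : Rep.{u} k G) {U V : Subgroup G} [U.Normal] [V.Normal] (hVU : V ≤ U) :
    (A.quotientToInvariants U) →ₗ[k] (A.quotientToInvariants V) :=
  Submodule.inclusion (fun _ ha s => ha ⟨s.1, hVU s.2⟩)

@[simp] theorem stdι_stdJ (A : Rep.{u} k G) {U V : Subgroup G} [U.Normal] [V.Normal]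
    (hVU : V ≤ U) (x : A.quotientToInvariants U) : stdι A V (stdJ A hVU x) = stdι A U x := rfl

theorem stdJ_equivariant (A : Rep.{u} k G) {U V : Subgroup G} [U.Normal] [V.Normal]
    (hVU : V ≤ U) (q : G ⧸ V) (x : A.quotientToInvariants U) :
    stdJ A hVU ((A.quotientToInvariants U).ρ (stdT hVU q) x) =
      (A.quotientToInvariants V).ρ q (stdJ A hVU x) := by
  obtain ⟨g, rfl⟩ := QuotientGroup.mk'_surjective V q
  rfl

/-- A class of `H²(G ⧸ U, A^U)` whose inflation to `H²(𝓑, A)` vanishes dies in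
`H²(G ⧸ V, A^V)` for some normal `V ≤ U` of the basis. -/
theorem exists_std_map_eq_zero (hA : IsDiscrete 𝓑.sets A) {U : Subgroup G} [U.Normal]
    (hU : ∃ V ∈ 𝓑.sets, V ≤ U)
    (y : groupCohomology.H2 (A.quotientToInvariants U))
    (h : haveI : Finite (G ⧸ U) := std_finite hU
      infl2 (QuotientGroup.mk' U) (stdι A U) (stdι_equivariant A U) (std_open_ker hU) y = 0) :
    ∃ (V : Subgroup G) (_ : V ∈ 𝓑.sets) (hn : V.Normal) (hVU : V ≤ U),
      haveI := hn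
      (groupCohomology.map (stdT hVU) (repHom (stdT hVU) (stdJ A hVU) (stdJ_equivariant A hVU))
        2).hom y = 0 := by
  haveI : Finite (G ⧸ U) := std_finite hU
  obtain ⟨U', hU', -, hall⟩ := exists_map_eq_zero_of_infl2_eq_zero (QuotientGroup.mk' U)
    (stdι A U) (stdι_equivariant A U) (std_open_ker hU) hA y h
  obtain ⟨V₀, hV₀, hV₀U⟩ := hU
  obtain ⟨W, hW, hWle⟩ := 𝓑.isBasis.directed U' hU' V₀ hV₀
  obtain ⟨V, hV, hVW, hn⟩ := 𝓑.isBasis.normalCore W hW
  have hVU : V ≤ U := hVW.trans (hWle.trans (inf_le_right.trans hV₀U))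
  refine ⟨V, hV, hn, hVU, ?_⟩
  haveI := hn
  exact hall (QuotientGroup.mk' V) (stdι A V) (stdι_equivariant A V) (stdT hVU) (stdJ A hVU)
    (stdJ_equivariant A hVU) (fun _ => rfl) (fun _ => rfl) (QuotientGroup.mk'_surjective V)
    (stdι_injective A V) (stdι_range A V)
    (by rw [QuotientGroup.ker_mk']; exact hVW.trans (hWle.trans inf_le_left))

end StandardColimit

end Fermat.Agent.PT.PRO.LevelCohColim28
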