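/-
Program F (S55, Poitou–Tate), chapter PRO, glue leaf (owner helper3).

`LevelTN3`: the hypotheses `GlobalDuality20b.HypP (R.datum ρC) 𝒰 ℱ p` of the limit argument for
`K(P; C)`, DIRECTLY from class-formation hypotheses `Interface8.IsFundClass p (fixedObj V ρC) u` at
the finite levels `(G ⧸ V, C^V)`:

  FG `TN02Final3.tn02l_raw / tn02r_raw`  →  `DescendRes18.tnlAt_datum_of_TN02 / tnrAt_datum_of_TN02`
  FG `IsFundClass.h1` → `FundRaw18.hH1_of_h1`  →  `DescendRes18.hypP_datum`.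

WARNING (`ℤ`-module diamond).  At `k = ℤ` type class resolution prefers `AddCommGroup.toIntModule`
(and `SubNegMonoid` scalar multiplication) to the honest instances `LinearMap.module`,
`Submodule.module`, …, so a statement ELABORATED at `k = ℤ` differs from the `k := ℤ` instance of
the corresponding generic-`k` statement of chapter PRO.  Therefore every compound statement below is
wrapped in a generic-`k` definition (`TN02At`, `PKills`, `RECNAt`, `HypPK`), which unfolds to the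
`k := ℤ` instance of the PRO statement by `Iff.rfl`/`id`.

* Part A (generic `k`): `hypP_of_tn02At`.
* Part B (`k = ℤ`): `tn02At_of_isFundClass`, `hypPK_of_isFundClass`.
-/
import Mathlib
import Fermat.Agent.PT.PRO.DescendRes18
import Fermat.Agent.PT.PRO.FundRaw18
import Fermat.Agent.PT.FG.TN02Final3

set_option autoImplicit false

namespace Fermat.Agent.PT.PRO.LevelTN3

open Fermat.Agent.PT.PRO.HyperLevel25 Fermat.Agent.PT.PRO.Pairing20
  Fermat.Agent.PT.PRO.GlobalDuality20 Fermat.Agent.PT.PRO.GlobalDuality20b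
  Fermat.Agent.PT.PRO.HyperColim18 Fermat.Agent.PT.PRO.HyperColimP18
  Fermat.Agent.PT.PRO.IndResTransport20 Fermat.Agent.PT.PRO.IndRes20
  Fermat.Agent.PT.PRO.DescendRes18 Fermat.Agent.PT.PRO.FundRaw18
  Fermat.Agent.PT.PRO.IndTN20
  Fermat.Agent.PT.FG.Interface8 Fermat.Agent.PT.FG.TN02Final3

open groupCohomology

/-! ### Part A: generic `k` -/

section Generic

variable {k : Type} [CommRing k] {G : Type} [Group G] {P1 P0 M C : Type}
  [AddCommGroup P1] [Module k P1] [AddCommGroup P0] [Module k P0] [AddCommGroup M] [Module k M]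
  [AddCommGroup C] [Module k C]

/-- `p` kills `M`. -/
def PKills (k : Type) [CommRing k] (p : ℕ) (M : Type) [AddCommGroup M] [Module k M] : Prop :=
  ∀ m : M, (p : k) • m = 0

/-- The raw `(0,2)` Tate–Nakayama statements (`IndTN20.TN02lProp`, `TN02rProp`) for the induced
module `P₁'` of the quotient resolution over the finite group `G ⧸ V`, with values in `C^V`. -/
def TN02At (R : Res k G P1 P0 M) (ρC : Representation k G C) (V : Subgroup G) [V.Normal]
    (h0 : ∀ s ∈ V, ∀ x, R.ρ0 s x = x) (p : ℕ) : Prop :=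
  ∀ (_ : Fintype (G ⧸ V)) (_ : DecidableEq (G ⧸ V)),
    TN02lProp (indρ1 (resQuot R V h0)) (fixedRep V ρC) p ∧
      TN02rProp (indρ1 (resQuot R V h0)) (fixedRep V ρC) p

/-- The norm form of the reciprocity input (field `RECN` of `HypP`) for `K(P; C)`. -/
def RECNAt (R : Res k G P1 P0 M) (ρC : Representation k G C) (ℱ : Set (Subgroup G)) (p : ℕ) :
    Prop :=
  ∀ U ∈ ℱ, ∃ V ∈ ℱ, V ≤ U ∧ ∀ e, FixedBy (R.datum ρC).ρY1 V e →
    ∃ n' : P1 →ₗ[k] C, (∀ g, (R.datum ρC).ρY1 g n' = n') ∧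
      nrm (R.datum ρC).ρY1 V e = (p : k) • n'

/-- `HypP` for `K(P; C)`. -/
def HypPK (R : Res k G P1 P0 M) (ρC : Representation k G C) (𝒰 ℱ : Set (Subgroup G)) (p : ℕ) :
    Prop :=
  HypP (R.datum ρC) 𝒰 ℱ p

/-- `H¹(H, C^V) = 0` for all `p`-subgroups `H` of `G ⧸ V`, for all normal `V ∈ 𝒰`. -/
def H1VanishOnP (ρC : Representation k G C) (𝒰 : Set (Subgroup G)) (p : ℕ) : Prop :=
  ∀ V' ∈ 𝒰, ∀ hn : V'.Normal, haveI := hn;
    ∀ H : Subgroup (G ⧸ V'), IsPGroup p H →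
      Subsingleton (H1 (Rep.res H.subtype (fixedObj V' ρC)))

/-- **`HypP` for `K(P; C)` from the raw `(0,2)` Tate–Nakayama statements at the finite levels.** -/
theorem hypP_of_tn02At (R : Res k G P1 P0 M) (ρC : Representation k G C)
    {𝒰 ℱ : Set (Subgroup G)} {p : ℕ} [Fact p.Prime] (h𝒰 : IsLevelBasis 𝒰)
    (hpM : PKills k p M) (hC : IsDiscrete 𝒰 ρC)
    (hsub : ℱ ⊆ 𝒰) (hnormal : ∀ V ∈ ℱ, V.Normal) (hcof : ∀ U ∈ 𝒰, ∃ V ∈ ℱ, V ≤ U)
    (h0 : ∀ V ∈ ℱ, ∀ s ∈ V, ∀ x, R.ρ0 s x = x)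
    (hTN : ∀ V (hV : V ∈ ℱ), haveI := hnormal V hV; TN02At R ρC V (h0 V hV) p)
    (hH1 : H1VanishOnP ρC 𝒰 p) (hRECN : RECNAt R ρC ℱ p) : HypPK R ρC 𝒰 ℱ p := by
  have hp : p.Prime := Fact.out
  refine hypP_datum R ρC h𝒰 hp hpM hC hsub hnormal hcof ?_ ?_ ?_ hRECN
  · intro V hV
    have hn := hnormal V hV
    have : V.FiniteIndex := h𝒰.finiteIndex V (hsub hV)
    let _ : Fintype (G ⧸ V) := Fintype.ofFinite _
    let _ : DecidableEq (G ⧸ V) := Classical.decEq _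
    exact tnlAt_datum_of_TN02 R ρC V (h0 V hV) p hpM (hTN V hV _ _).1
  · intro V hV
    have hn := hnormal V hV
    have : V.FiniteIndex := h𝒰.finiteIndex V (hsub hV)
    let _ : Fintype (G ⧸ V) := Fintype.ofFinite _
    let _ : DecidableEq (G ⧸ V) := Classical.decEq _
    exact tnrAt_datum_of_TN02 R ρC V (h0 V hV) p hpM (hTN V hV _ _).2
  · intro V _
    exact hH1_of_h1 ρC h𝒰 hH1 V

end Generic

/-! ### Part B: `k = ℤ`, from `IsFundClass` -/

section Int

variable {G : Type} [Group G] {P1 P0 M C : Type} [AddCommGroup P1] [Module ℤ P1]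
  [AddCommGroup P0] [Module ℤ P0] [AddCommGroup M] [Module ℤ M] [AddCommGroup C] [Module ℤ C]

/-- **Raw TN02 at level `V`** from the class-formation hypotheses on `(G ⧸ V, C^V)`. -/
theorem tn02At_of_isFundClass (R : Res ℤ G P1 P0 M) (ρC : Representation ℤ G C)
    (V : Subgroup G) [V.Normal] (h0 : ∀ s ∈ V, ∀ x, R.ρ0 s x = x) (p : ℕ) [Fact p.Prime]
    (hP0 : Module.Free ℤ P0) (hP0' : Module.Finite ℤ P0)
    (hP1 : Module.Free ℤ P1) (hP1' : Module.Finite ℤ P1)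
    (u : H2 (fixedObj V ρC)) (hu : IsFundClass p (fixedObj V ρC) u) :
    TN02At R ρC V h0 p := by
  intro hfin hdec
  have h1 : @Module.Free ℤ ↥(indP1 (resQuot R V h0)) _ _ (Submodule.module _) := inferInstance
  have h2 : @Module.Finite ℤ ↥(indP1 (resQuot R V h0)) _ _ (Submodule.module _) := inferInstance
  exact ⟨@tn02l_raw (G ⧸ V) _ ↥(indP1 (resQuot R V h0)) ↥(fixedSub V ρC) _ (Submodule.module _) _
      (Submodule.module _) (indρ1 (resQuot R V h0)) (fixedRep V ρC) hfin p _ h1 h2 u hu,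
    @tn02r_raw (G ⧸ V) _ ↥(indP1 (resQuot R V h0)) ↥(fixedSub V ρC) _ (Submodule.module _) _
      (Submodule.module _) (indρ1 (resQuot R V h0)) (fixedRep V ρC) hfin p _ h1 h2 u hu⟩

/-- **`HypP` for `K(P; C)` from class-formation hypotheses at all finite levels** (`k = ℤ`):
`P₀`, `P₁` finite free over `ℤ`, `M` killed by `p`, `ℱ ⊆ 𝒰` a cofinal family of normal subgroups
acting trivially on `P₀`, `(C^V, u_V)` a class module at `p` over `G ⧸ V` for every normal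
`V ∈ 𝒰`, and the norm form `RECNAt` of the reciprocity/existence input. -/
theorem hypPK_of_isFundClass (R : Res ℤ G P1 P0 M) (ρC : Representation ℤ G C)
    {𝒰 ℱ : Set (Subgroup G)} {p : ℕ} [Fact p.Prime] (h𝒰 : IsLevelBasis 𝒰)
    (hpM : PKills ℤ p M) (hC : IsDiscrete 𝒰 ρC)
    (hsub : ℱ ⊆ 𝒰) (hnormal : ∀ V ∈ ℱ, V.Normal) (hcof : ∀ U ∈ 𝒰, ∃ V ∈ ℱ, V ≤ U)
    (h0 : ∀ V ∈ ℱ, ∀ s ∈ V, ∀ x, R.ρ0 s x = x)
    (hP0 : Module.Free ℤ P0) (hP0' : Module.Finite ℤ P0)
    (hP1 : Module.Free ℤ P1) (hP1' : Module.Finite ℤ P1)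
    (hfund : ∀ V ∈ 𝒰, ∀ hn : V.Normal, haveI := hn;
      ∃ u : H2 (fixedObj V ρC), IsFundClass p (fixedObj V ρC) u)
    (hRECN : RECNAt R ρC ℱ p) : HypPK R ρC 𝒰 ℱ p := by
  refine hypP_of_tn02At R ρC h𝒰 hpM hC hsub hnormal hcof h0 (fun V hV => ?_) ?_ hRECN
  · have hn := hnormal V hV
    obtain ⟨u, hu⟩ := hfund V (hsub hV) hn
    exact tn02At_of_isFundClass R ρC V (h0 V hV) p hP0 hP0' hP1 hP1' u hu
  · intro V' hV' hn' H hH
    obtain ⟨u, hu⟩ := hfund V' hV' hn'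
    exact hu.h1 H hH

end Int

end Fermat.Agent.PT.PRO.LevelTN3
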