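/-
Program F (S55, Poitou–Tate), chapter PRO, helper20.

`LocalGlobal20`: the diagram chase behind hypothesis `hK` of `AssemblyAnn20`
("`ker(loc)` is the annihilator of the image of `ℍ¹(K(P; I_S))` under the global pairing"),
as a statement about abstract abelian groups and additive maps.  Dictionary (`q ∈ S`):

* `H1 = H¹(Γ; A)`, `H1q q = H¹(Γ_q; A)`, `res q` the localisation;
* `PI = ℍ¹(Γ; K(P; I_S))`, `PIq q = ℍ¹(Γ; K(P; I_{S,q}))`, `incl q`, `proj q` induced by
  `I_{S,q} ⇄ I_S`;  `Eq q = ℍ¹(Γ_q; K(P; ℚ̄_qˣ))`, `sh1 q` = Shapiro ∘ inflation (surjective);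
* `BI = H²(Γ; I_S)`, `BIq q = H²(Γ; I_{S,q})`, `inclB q`, `projB q`; `Bq q = H²(Γ_q; ℚ̄_qˣ)`,
  `sh2 q` (injective); `BC = H²(Γ; C_S)`, `τ = (toCS)_*`;
* `pI`, `pIq q`, `pq q` the `(1,1)`-pairings, natural for the maps above;
* `LG`: `τ ∘ inclB q` is injective on the values of the pairing (local–global injectivity);
* `j : BC → 𝔽_p` injective on the values of the pairing;
* `RK`: the local pairings have trivial right kernel.
-/
import Mathlib

set_option autoImplicit false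

namespace Fermat.Agent.PT.PRO.LocalGlobal20

variable {ι : Type*} {T : Type*} [AddCommGroup T]
variable {H1 PI BI BC : Type*} [AddCommGroup H1] [AddCommGroup PI] [AddCommGroup BI]
  [AddCommGroup BC]
variable {H1q PIq Eq BIq Bq : ι → Type*} [∀ q, AddCommGroup (H1q q)] [∀ q, AddCommGroup (PIq q)]
  [∀ q, AddCommGroup (Eq q)] [∀ q, AddCommGroup (BIq q)] [∀ q, AddCommGroup (Bq q)]

/-- **The local–global chase.**  `res q h = 0` for all `q` iff `h` is orthogonal to all of
`ℍ¹(K(P; I_S))` under the global pairing (composed with `j ∘ τ`). -/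
theorem forall_res_eq_zero_iff
    (res : ∀ q, H1 →+ H1q q)
    (incl : ∀ q, PIq q →+ PI) (proj : ∀ q, PI →+ PIq q)
    (sh1 : ∀ q, PIq q →+ Eq q) (hsh1 : ∀ q, Function.Surjective (sh1 q))
    (inclB : ∀ q, BIq q →+ BI) (projB : ∀ q, BI →+ BIq q)
    (hprojB : ∀ x : BI, (∀ q, projB q x = 0) → x = 0)
    (sh2 : ∀ q, BIq q →+ Bq q) (hsh2 : ∀ q, Function.Injective (sh2 q))
    (τ : BI →+ BC) (j : BC →+ T)
    (pI : PI →+ H1 →+ BI) (pIq : ∀ q, PIq q →+ H1 →+ BIq q) (pq : ∀ q, Eq q →+ H1q q →+ Bq q)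
    (hincl : ∀ q (y : PIq q) (h : H1), pI (incl q y) h = inclB q (pIq q y h))
    (hproj : ∀ q (y : PI) (h : H1), projB q (pI y h) = pIq q (proj q y) h)
    (hN2 : ∀ q (y : PIq q) (h : H1), sh2 q (pIq q y h) = pq q (sh1 q y) (res q h))
    (hLG : ∀ q (y : PIq q) (h : H1), j (τ (inclB q (pIq q y h))) = 0 → pIq q y h = 0)
    (hRK : ∀ q (x : H1q q), (∀ z, pq q z x = 0) → x = 0) (h : H1) :
    (∀ q, res q h = 0) ↔ ∀ y : PI, j (τ (pI y h)) = 0 := by
  constructor
  · intro hres y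
    have : pI y h = 0 := by
      apply hprojB
      intro q
      rw [hproj]
      apply hsh2 q
      rw [hN2, hres q, map_zero, map_zero]
    rw [this, map_zero, map_zero]
  · intro hy q
    apply hRK q
    intro z
    obtain ⟨y, rfl⟩ := hsh1 q z
    rw [← hN2]
    have h1 := hy (incl q y)
    rw [hincl] at h1
    rw [hLG q y h h1, map_zero]

end Fermat.Agent.PT.PRO.LocalGlobal20
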