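/-
Program F (S55, Poitou–Tate), chapter PRO, helper20.

`MainCount20`: the final count at `k = ℤ` on the concrete objects of GLUE (`Objects21`):
`Γ = Gal(ℚ̄/ℚ)` with the level basis `levelS S`, the local groups `Γ_q` (`q ∈ S`) with
`levelLoc q`, the modules `I_{S,q}`, `I_S`, `C_S`, `ℚ̄_qˣ`, and the canonical `ℤ`-free resolution
`resA A` of a finite `𝔽_p[Γ]`-module `A`.

* `alphaPackage` : the global duality package (`τ`, `α = τ ∘ pair11` injective with trivial right
  kernel) from (G1) fundamental classes at the finite levels of `C_S` and (GEX) the norm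
  statement;
* `count` : `{h ∈ H²_lev(Γ; M) | ∀ q ∈ S, res_q h = 0}` is finite of the same cardinality as
  `{h ∈ H¹_lev(Γ; A) | ∀ q ∈ S, res_q h = 0}`, from: the duality package, (S1), (★), and GLOB's
  `LocalInjectivity` (everything else — (P2), (S2), (LG), (RK) — is discharged here from the
  landed files `ProdDict10`, `LocS2_29`, `LocalGlobalLimit27`, `LocalHypR11`).
-/
import Mathlib
import Fermat.Agent.PT.PRO.MainWrap20
import Fermat.Agent.PT.PRO.HpAt29
import Fermat.Agent.PT.PRO.LevelEquiv29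
import Fermat.Agent.PT.PRO.ProdDict10
import Fermat.Agent.PT.PRO.GlobalHypP8
import Fermat.Agent.PT.GLUE.LocS2_29
import Fermat.Agent.PT.GLUE.LocalGlobalLimit27
import Fermat.Agent.PT.GLUE.LocalHypR11
import Fermat.Agent.PT.GLUE.LevelTheta21

set_option autoImplicit false
set_option linter.unusedSectionVars false

namespace Fermat.Agent.PT.PRO.MainCount20

open Function
open Fermat.Agent.PT.PRO Fermat.Agent.PT.GLUE Fermat.Agent.PT.GLUE.Objects21
open Fermat.Agent.PT.PRO.HyperLevel25 Fermat.Agent.PT.PRO.Resolved4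
open Fermat.Agent.PT.PRO.IntRep20 Fermat.Agent.PT.GLUE.LocS2_29

local notation "Qbar" => AlgebraicClosure ℚ
local notation "Γ" => (AlgebraicClosure ℚ ≃ₐ[ℚ] AlgebraicClosure ℚ)

variable {p : ℕ} [Fact p.Prime] (S : Finset Nat.Primes) (A M : Rep.{0} (ZMod p) Γ)

/-- The canonical resolution `0 → Rel ℤ A → ℤ[A] → A → 0` of `A` over `ℤ`. -/
noncomputable def resA := HpAt29.freeRes (intRep A)

/-- `ℤ[A]` is discrete. -/
theorem h0 (hA : IsDiscrete (levelS S).sets (intRep A)) :
    IsDiscrete (levelS S).sets (resA A).ρ0 :=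
  FreeRes29.isDiscrete_freeRep (LevelEquiv29.basis (levelS S)) hA

/-- The level basis of `Γ`. -/
theorem hU : IsLevelBasis (levelS S).sets := LevelEquiv29.basis (levelS S)

/-- The level basis of `Γ_q`. -/
theorem hUq (q : ↥S) : IsLevelBasis (levelLoc ((q : Nat.Primes) : ℕ)).sets :=
  LevelEquiv29.basis (levelLoc ((q : Nat.Primes) : ℕ))

/-- The localisation maps `Γ_q → Γ`. -/
noncomputable abbrev rq (q : ↥S) := localGaloisToGlobal ((q : Nat.Primes) : ℕ)

theorem hrq (q : ↥S) : HyperRes25.IsLevelHom (rq S q) (levelLoc ((q : Nat.Primes) : ℕ)).sets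
    (levelS S).sets := isLevelHom_loc S ((q : Nat.Primes) : ℕ)

/-- The restriction of a discrete `Γ`-module to `Γ_q` is discrete. -/
theorem hAq (hA : IsDiscrete (levelS S).sets (intRep A)) (q : ↥S) :
    IsDiscrete (levelLoc ((q : Nat.Primes) : ℕ)).sets ((intRep A).comp (rq S q)) :=
  HyperRes25.IsLevelHom.isDiscrete (hrq S q) hA

/-- `p` kills `A`. -/
theorem hpA (m : A) : p • m = 0 := by
  have h : (p : ZMod p) • m = 0 := by rw [ZMod.natCast_self, zero_smul]
  rwa [Nat.cast_smul_eq_nsmul] at h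

variable [Finite A]

/-- **The global duality package** for `K(P; C_S)`, `P = resA A`, from (G1) and (GEX). -/
theorem alphaPackage (hA : IsDiscrete (levelS S).sets (intRep A))
    (hfund : GlobalHypP8.FundOn (CS S).ρ (levelS S).sets p)
    (hgex : GlobalHypP8.GexNormLevel (CS S).ρ (levelS S).sets p) :
    InvFund18.AlphaPackage (resA A) (h0 S A hA) (hU S) (CS S).ρ (isDiscrete_CS S) p (hpA A) :=
  InvFund18.alphaPackage_of_isFundClass (resA A) (CS S).ρ (hU S) (h0 S A hA) (hpA A)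
    (isDiscrete_CS S) (GlobalHypP8.trivFam_sub (resA A) (levelS S).sets)
    (GlobalHypP8.trivFam_normal (resA A) (levelS S).sets)
    (GlobalHypP8.trivFam_cofinal (resA A) (hU S) (h0 S A hA))
    (GlobalHypP8.trivFam_triv0 (resA A) (levelS S).sets) hfund
    (GlobalHypP8.gexNorm_trivFam (resA A) hgex)

/-- **The final count on the concrete objects.** -/
theorem count (hp2 : p ≠ 2) (hpS : ∃ q ∈ S, (q : ℕ) = p)
    (hL1 : Fermat.Agent.PT.GLOB.InterfaceCF23.LocalInjectivity p S)
    (hA : IsDiscrete (levelS S).sets (intRep A)) (hM : IsDiscrete (levelS S).sets (intRep M))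
    [Finite (Hlev1 (hU S) (intRep A) hA)]
    (hdual : InvFund18.AlphaPackage (resA A) (h0 S A hA) (hU S) (CS S).ρ (isDiscrete_CS S) p
      (hpA A))
    (hS1 : ∀ q : ↥S, MainWrap20.S1At (resA A) (h0 S A hA) (hU S) (hUq S q) (rq S q) (hrq S q)
      (isDiscrete_ISq S ((q : Nat.Primes) : ℕ)) (isDiscrete_unitsLoc ((q : Nat.Primes) : ℕ))
      (evq S ((q : Nat.Primes) : ℕ)) (evq_ρ S ((q : Nat.Primes) : ℕ)))
    (hstar : MainWrap20.StarAt (resA A) (h0 S A hA) (hU S) (isDiscrete_IS S) (isDiscrete_CS S) hM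
      (toCS S) (toCS_ρ S)
      (fun h => ∀ q : ↥S, PairingRes1.resH2 (hrq S q) (hU S) (hUq S q) hM (hAq S M hM q)
        LinearMap.id (fun _ _ => rfl) h = 0)) :
    Finite {h : Hlev2 (hU S) (intRep M) hM // ∀ q : ↥S, PairingRes1.resH2 (hrq S q) (hU S)
        (hUq S q) hM (hAq S M hM q) LinearMap.id (fun _ _ => rfl) h = 0} ∧
      Nat.card {h : Hlev2 (hU S) (intRep M) hM // ∀ q : ↥S, PairingRes1.resH2 (hrq S q) (hU S)
          (hUq S q) hM (hAq S M hM q) LinearMap.id (fun _ _ => rfl) h = 0} =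
        Nat.card {h : Hlev1 (hU S) (intRep A) hA // ∀ q : ↥S, PairingRes1.resH1 (hrq S q) (hU S)
          (hUq S q) hA (hAq S A hA q) LinearMap.id (fun _ _ => rfl) h = 0} := by
  classical
  have : Finite (Hlev1 (hU S) (resA A).ρM hA) := ‹Finite (Hlev1 (hU S) (intRep A) hA)›
  exact MainWrap20.card_sha2_eq_card_sha1 (resA A) (h0 S A hA) (hU S) (hUq S) (rq S) (hrq S)
    hA (hAq S A hA) (isDiscrete_IS S) (isDiscrete_CS S) hM
    (fun q : ↥S => isDiscrete_ISq S ((q : Nat.Primes) : ℕ))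
    (fun q : ↥S => isDiscrete_unitsLoc ((q : Nat.Primes) : ℕ)) (hAq S M hM)
    (toCS S) (toCS_ρ S)
    (fun q : ↥S => LevelTheta21.inclq S q) (fun q : ↥S => LevelTheta21.inclq_ρ S q)
    (fun q : ↥S => ProdDict10.ISproj S q) (fun q : ↥S => ProdDict10.ISproj_ρ S q)
    (fun q : ↥S => evq S ((q : Nat.Primes) : ℕ)) (fun q : ↥S => evq_ρ S ((q : Nat.Primes) : ℕ))
    (fun _ => LinearMap.id) (fun _ _ _ => rfl) p (hpA A) hdual
    (fun x hx => ProdDict10.Hlev2_IS_eq_zero_of_forall S x hx)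
    hS1
    (fun q : ↥S => resH2_injective S ((q : Nat.Primes) : ℕ))
    (fun q w hpw hw => LocalGlobalLimit27.localGlobal_limit p Fact.out hp2 hpS hL1 q (hU S)
      (isDiscrete_ISq S ((q : Nat.Primes) : ℕ)) (isDiscrete_IS S) (isDiscrete_CS S)
      (LevelTheta21.inclq S q) (LevelTheta21.inclq_ρ S q)
      (fun x => (congrFun (LevelTheta21.ISequiv_inclq S q x) q).trans
        (Pi.single_eq_same (M := fun r : ↥S => ↑(ISq S ((r : Nat.Primes) : ℕ))) q x))
      (fun x q' hq' => (congrFun (LevelTheta21.ISequiv_inclq S q x) q').trans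
        (Pi.single_eq_of_ne (M := fun r : ↥S => ↑(ISq S ((r : Nat.Primes) : ℕ))) hq' x))
      w hpw hw)
    (fun q x hx => LocalHypR11.pair11_right_kernel_local ((q : Nat.Primes) : ℕ)
      (Setup20.toResolved ((resA A).comap (rq S q))
        (Objects20.comap_disc0 (resA A) (h0 S A hA) (rq S q) (hrq S q))) p (hpA A) x hx)
    hstar

end Fermat.Agent.PT.PRO.MainCount20
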