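/-
Program F (S55, Poitou–Tate), chapter PRO, helper29.

`TransportS55_29`: shape check + convenience wrappers for the end of `Main20` / `S55.lean`.
The LITERAL conclusion of `MainWrap20.card_sha2_eq_card_sha1` at the S55 objects
(`k = ℤ`, `G = Γ`, `𝒰 = (levelS S).sets`, `ι = ↥S`, `𝒰q q = (levelLoc q).sets`,
`r q = localGaloisToGlobal q`, `R = HpAt29.freeRes (intRep A)`, `ρN = intRep M`,
`ρNq q = (intRep M).comp (r q)`, `ν q = id`) gives the hypothesis of `ShaBridge13.s55_of_level`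
and hence the conclusion of S55.

NOTE (pitfall): `Transport29.finrank_eq_of_card` takes `[Finite (Hlev1 h𝒰 (intRep A) hA)]` as an
instance argument; when the available instance is stated with `(HpAt29.freeRes (intRep A)).ρM`
(defeq to `intRep A` only after unfolding `freeRes`) instance search does not find it and times out:
pass it explicitly, as done here.
-/
import Mathlib
import Fermat.Agent.PT.PRO.Transport29
import Fermat.Agent.PT.PRO.HpAt29

set_option autoImplicit false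

namespace Fermat.Agent.PT.PRO.TransportS55_29

open Function groupCohomology
open Fermat.Agent.PT.BR Fermat.Agent.PT.PRO Fermat.Agent.PT.PRO.HyperLevel25
open Fermat.Agent.PT.PRO.Resolved4 Fermat.Agent.PT.PRO.IntRep20
open Fermat.Agent.PT.GLUE.Objects21 ExtCitation
open Fermat.Agent.PT.PRO.HyperRes25 Fermat.Agent.PT.PRO.PairingRes1

local notation "Γ" => (AlgebraicClosure ℚ ≃ₐ[ℚ] AlgebraicClosure ℚ)

variable {p : ℕ} [Fact p.Prime] (S : Finset Nat.Primes) (M A : Rep.{0} (ZMod p) Γ)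
  (h𝒰 : IsLevelBasis (levelS S).sets)
  (h𝒰q : ∀ q : ↥S, IsLevelBasis (levelLoc ((q : Nat.Primes) : ℕ)).sets)
  (hr : ∀ q : ↥S, HyperRes25.IsLevelHom (localGaloisToGlobal ((q : Nat.Primes) : ℕ))
    (levelLoc ((q : Nat.Primes) : ℕ)).sets (levelS S).sets)
  (hA : IsDiscrete (levelS S).sets (HpAt29.freeRes (intRep A)).ρM)
  (hAq : ∀ q : ↥S, IsDiscrete (levelLoc ((q : Nat.Primes) : ℕ)).sets
    ((HpAt29.freeRes (intRep A)).ρM.comp (localGaloisToGlobal ((q : Nat.Primes) : ℕ))))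
  (hM : IsDiscrete (levelS S).sets (intRep M))
  (hMq : ∀ q : ↥S, IsDiscrete (levelLoc ((q : Nat.Primes) : ℕ)).sets
    ((intRep M).comp (localGaloisToGlobal ((q : Nat.Primes) : ℕ))))

/-- The conclusion of `MainWrap20.card_sha2_eq_card_sha1` (literal shape, `R = freeRes (intRep A)`)
gives the hypothesis of `ShaBridge13.s55_of_level`. -/
theorem finrank_eq_of_mainWrap
    (hfinA : Finite (Hlev1 h𝒰 (HpAt29.freeRes (intRep A)).ρM hA))
    (hmain : Finite {h : Hlev2 h𝒰 (intRep M) hM //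
        ∀ q, resH2 (hr q) h𝒰 (h𝒰q q) hM (hMq q) LinearMap.id (fun _ _ => rfl) h = 0} ∧
      Nat.card {h : Hlev2 h𝒰 (intRep M) hM //
          ∀ q, resH2 (hr q) h𝒰 (h𝒰q q) hM (hMq q) LinearMap.id (fun _ _ => rfl) h = 0} =
        Nat.card {h : Hlev1 h𝒰 (HpAt29.freeRes (intRep A)).ρM hA //
          ∀ q, resH1 (hr q) h𝒰 (h𝒰q q) hA (hAq q) LinearMap.id (fun _ _ => rfl) h = 0}) :
    ∃ (_ : FiniteDimensional (ZMod p) ↥(LinearMap.ker (ShaBridge13.locH1 S A)))
      (_ : FiniteDimensional (ZMod p) ↥(LinearMap.ker (ShaBridge13.locH2 S M))),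
      Module.finrank (ZMod p) ↥(LinearMap.ker (ShaBridge13.locH1 S A)) =
        Module.finrank (ZMod p) ↥(LinearMap.ker (ShaBridge13.locH2 S M)) := by
  obtain ⟨hfin, hcard⟩ := hmain
  exact @Transport29.finrank_eq_of_card p _ S M A h𝒰 h𝒰q hr hA hAq hM hMq hfinA hfin hcard

/-- The conclusion of `MainWrap20.card_sha2_eq_card_sha1` gives the conclusion of S55. -/
theorem s55_of_mainWrap (hp2 : p ≠ 2) (hAM : A = M.dualTwist (cycloChar p))
    (hfinA : Finite (Hlev1 h𝒰 (HpAt29.freeRes (intRep A)).ρM hA))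
    (hmain : Finite {h : Hlev2 h𝒰 (intRep M) hM //
        ∀ q, resH2 (hr q) h𝒰 (h𝒰q q) hM (hMq q) LinearMap.id (fun _ _ => rfl) h = 0} ∧
      Nat.card {h : Hlev2 h𝒰 (intRep M) hM //
          ∀ q, resH2 (hr q) h𝒰 (h𝒰q q) hM (hMq q) LinearMap.id (fun _ _ => rfl) h = 0} =
        Nat.card {h : Hlev1 h𝒰 (HpAt29.freeRes (intRep A)).ρM hA //
          ∀ q, resH1 (hr q) h𝒰 (h𝒰q q) hA (hAq q) LinearMap.id (fun _ _ => rfl) h = 0}) :
    ∃ B : sha₁ S (M.dualTwist (cycloChar p)) →ₗ[ZMod p] sha₂ S M →ₗ[ZMod p] ZMod p,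
      (∀ y, (∀ x, B y x = 0) → y = 0) ∧ (∀ x, (∀ y, B y x = 0) → x = 0) := by
  obtain ⟨_, _, h⟩ := finrank_eq_of_mainWrap S M A h𝒰 h𝒰q hr hA hAq hM hMq hfinA hmain
  exact ShaBridge13.s55_of_level hp2 S M A hAM h

end Fermat.Agent.PT.PRO.TransportS55_29
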