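/-
Program F (S55, Poitou–Tate), chapter PRO, helper20.

`Main20`: the hypothesis of `ShaBridge13.s55_of_level` under the hypotheses of S55, from the inputs
that are still open in GLOB/GLUE/PRO:

* (L1)  `InterfaceCF23.LocalInjectivity p S`                       (GLOB);
* (G1)  `GlobalHypP8.FundOn (CS S).ρ (levelS S).sets p`             (GLUE, fundamental classes);
* (GEX) `GlobalHypP8.GexNormLevel (CS S).ρ (levelS S).sets p`       (GLUE, `GexNorm15`);
* (S1), (S2h) : `MainWrap20.S1At`, `MainWrap20.S2hAt` at each `q ∈ S` (hyper-Shapiro ∘ inflation).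

Everything else is discharged: `MainCount20.count` ((P2), (S2), (LG), (RK)),
`StarS55_7.starAt_S55` ((★) block), `FinH1S55_9` (finiteness, discreteness),
`TransportS55_29.finrank_eq_of_mainWrap` (transport to `ShaBridge13.locH1/locH2`).
-/
import Mathlib
import Fermat.Agent.PT.PRO.MainCount20
import Fermat.Agent.PT.PRO.StarS55_7
import Fermat.Agent.PT.PRO.TransportS55_29
import Fermat.Agent.PT.PRO.FinH1S55_9

set_option autoImplicit false
set_option linter.unusedSectionVars false

namespace Fermat.Agent.PT.PRO.Main20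

open CategoryTheory groupCohomology ExtCitation
open Fermat.Agent.PT.PRO Fermat.Agent.PT.BR Fermat.Agent.PT.GLUE Fermat.Agent.PT.GLUE.Objects21
open Fermat.Agent.PT.PRO.HyperLevel25 Fermat.Agent.PT.PRO.Resolved4
open Fermat.Agent.PT.PRO.IntRep20 Fermat.Agent.PT.GLUE.LocS2_29
open Fermat.Agent.PT.PRO.MainCount20

local notation "Qbar" => AlgebraicClosure ℚ
local notation "Γ" => (AlgebraicClosure ℚ ≃ₐ[ℚ] AlgebraicClosure ℚ)

variable {p : ℕ} [Fact p.Prime] (S : Finset Nat.Primes) (M : Rep.{0} (ZMod p) Γ)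

/-- **The hypothesis of `ShaBridge13.s55_of_level` under the hypotheses of S55**, modulo the open
inputs (L1), (G1), (GEX), (S1), (S2h).  (`A` is a name for `M.dualTwist (cycloChar p)`: instance
search under binders does not see through `Rep.of`.) -/
theorem main (hp2 : p ≠ 2) (hpS : pPrime p ∈ S) [FiniteDimensional (ZMod p) M]
    (hsm : ∀ m : M, ∃ F : IntermediateField ℚ Qbar, FiniteDimensional ℚ F ∧
      ∀ s ∈ F.fixingSubgroup, M.ρ s m = m)
    (hMur : ∀ q : Nat.Primes, q ∉ S → ∀ A : ValuationSubring Qbar,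
      A.LiesOverPrime (q : ℕ) → ∀ g ∈ A.inertiaSubgroupIn ℚ, M.ρ g = 1)
    (A : Rep.{0} (ZMod p) Γ) (hAM : A = M.dualTwist (cycloChar p)) [Finite A]
    (hL1 : Fermat.Agent.PT.GLOB.InterfaceCF23.LocalInjectivity p S)
    (hfund : GlobalHypP8.FundOn (CS S).ρ (levelS S).sets p)
    (hgex : GlobalHypP8.GexNormLevel (CS S).ρ (levelS S).sets p)
    (hS1 : ∀ (hA : IsDiscrete (levelS S).sets (intRep A)) (q : ↥S),
      MainWrap20.S1At (resA A) (h0 S A hA) (hU S) (hUq S q) (rq S q)
        (hrq S q) (isDiscrete_ISq S ((q : Nat.Primes) : ℕ))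
        (isDiscrete_unitsLoc ((q : Nat.Primes) : ℕ)) (evq S ((q : Nat.Primes) : ℕ))
        (evq_ρ S ((q : Nat.Primes) : ℕ)))
    (hS2h : ∀ (hA : IsDiscrete (levelS S).sets (intRep A)) (q : ↥S),
      MainWrap20.S2hAt (resA A) (h0 S A hA) (hU S) (hUq S q) (rq S q)
        (hrq S q) (isDiscrete_ISq S ((q : Nat.Primes) : ℕ))
        (isDiscrete_unitsLoc ((q : Nat.Primes) : ℕ)) (evq S ((q : Nat.Primes) : ℕ))
        (evq_ρ S ((q : Nat.Primes) : ℕ))) :
    ∃ (_ : FiniteDimensional (ZMod p) ↥(LinearMap.ker (ShaBridge13.locH1 S A)))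
      (_ : FiniteDimensional (ZMod p) ↥(LinearMap.ker (ShaBridge13.locH2 S M))),
      Module.finrank (ZMod p) ↥(LinearMap.ker (ShaBridge13.locH1 S A)) =
        Module.finrank (ZMod p) ↥(LinearMap.ker (ShaBridge13.locH2 S M)) := by
  subst hAM
  have hA : IsDiscrete (levelS S).sets (intRep (M.dualTwist (cycloChar p))) :=
    FinH1S55_9.isDiscrete_intRep_dualTwist S hpS M hsm hMur
  have hM : IsDiscrete (levelS S).sets (intRep M) :=
    FinH1S55_9.isDiscrete_intRep_self S hpS M hsm hMur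
  have hfinA : Finite (Hlev1 (hU S) (intRep (M.dualTwist (cycloChar p))) hA) :=
    FinH1S55_9.finite_Hlev1_dualTwist S hpS M hsm hMur (hU S) hA
  have hcount := count S (M.dualTwist (cycloChar p)) M hp2 ⟨pPrime p, hpS, rfl⟩ hL1 hA hM
    (alphaPackage S _ hA hfund hgex) (hS1 hA)
    (StarS55_7.starAt_S55 p S hpS M (h0 S _ hA) hM (hS2h hA))
  exact TransportS55_29.finrank_eq_of_mainWrap S M (M.dualTwist (cycloChar p)) (hU S) (hUq S)
    (hrq S) hA (hAq S _ hA) hM (hAq S M hM) hfinA hcount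

end Fermat.Agent.PT.PRO.Main20
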