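/-
Program F (S55, Poitou–Tate), chapter PRO, helper20.

`NonDeg20`: adapter from the pairing data of `ExtPairing4` (`Pairing Y P ρC`) to the raw pairing
datum of `Pairing20`, and the consequence of the limit argument (`GlobalDuality20b`): under the
finite-level hypotheses `HypP`, the packaged pairing
`pair11 : ℍ¹(Y) × H¹(G, M) → H²(G, C)` is NON-DEGENERATE on both sides.
-/
import Mathlib
import Fermat.Agent.PT.PRO.ExtPairing4
import Fermat.Agent.PT.PRO.GlobalDuality20b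

set_option autoImplicit false

namespace Fermat.Agent.PT.PRO.NonDeg20

open Fermat.Agent.PT.PRO.HyperLevel25 Fermat.Agent.PT.PRO.Pairing20
open Fermat.Agent.PT.PRO.GlobalDuality20 Fermat.Agent.PT.PRO.GlobalDuality20b
open Fermat.Agent.PT.PRO.Resolved4 Fermat.Agent.PT.PRO.ExtPairing4

variable {k G : Type*} [CommRing k] [Group G] {𝒰 : Set (Subgroup G)}
variable {Y0 Y1 P1 P0 M C : Type*}
  [AddCommGroup Y0] [Module k Y0] [AddCommGroup Y1] [Module k Y1]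
  [AddCommGroup P1] [Module k P1] [AddCommGroup P0] [Module k P0]
  [AddCommGroup M] [Module k M] [AddCommGroup C] [Module k C]
variable {Y : Cx k 𝒰 Y0 Y1} {P : Resolved k 𝒰 P1 P0 M} {ρC : Representation k G C}

/-- The raw pairing datum of `Pairing20` attached to pairing data of `ExtPairing4`. -/
def toDatum (B : Pairing Y P ρC) : Datum k G Y0 Y1 P0 P1 M C where
  ρY0 := Y.ρ0
  ρY1 := Y.ρ1
  ρF0 := P.ρ0
  ρF1 := P.ρ1
  ρA := P.ρM
  ρX := ρC
  f := Y.f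
  f_comm := Y.comm
  ι := P.ι
  ι_comm := P.ι_comm
  ι_inj := P.ι_inj
  π := P.π
  π_comm := P.π_comm
  π_surj := P.π_surj
  exact := fun x => by
    rw [P.exact x]
    rfl
  ev0 := B.β0
  ev1 := B.β1
  ev0_comm := B.equiv0
  ev1_comm := B.equiv1
  ev_compat := B.compat

variable (B : Pairing Y P ρC)

@[simp] lemma toDatum_pairFun (c : G → Y0) (e : Y1) (xt : G → P0) (y' : G × G → P1) :
    (toDatum B).pairFun c e xt y' = B.p11 c e xt y' := rfl

lemma isHyperCocycle_of_HZ1 (ξ : HZ1 Y) : (toDatum B).IsHyperCocycle ξ.c ξ.e :=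
  ⟨funext fun q => ξ.hc q.1 q.2, fun g => ξ.he g⟩

lemma isLift_of_Lift1 (L : Lift1 P) : (toDatum B).IsLift L.xt L.y' := fun q => L.hy q.1 q.2

variable (h𝒰 : IsLevelBasis 𝒰) (hC : IsDiscrete 𝒰 ρC)

/-- **Left non-degeneracy** of `pair11` under the finite-level hypotheses. -/
theorem pair11_left_nondeg {ℱ : Set (Subgroup G)} {p : ℕ} (H : HypP (toDatum B) 𝒰 ℱ p)
    (w : Y.ℍ1 h𝒰) (hw : ∀ x, pair11 B h𝒰 hC w x = 0) : w = 0 := by
  obtain ⟨ξ, rfl⟩ := HZ1.cls_surjective h𝒰 w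
  have hcy := isHyperCocycle_of_HZ1 B ξ
  obtain ⟨y₀, hc, he⟩ := left_kernel (D := toDatum B) h𝒰 H Y.disc0 Y.disc1 hcy ξ.lev
    (fun a' b hab ha' => by
      have hcoc : dOne P.ρM (⇑P.π ∘ a') = 0 := Datum.IsLift.dOne_comp (toDatum B) hab
      have hlev : IsLevel₁ 𝒰 (⇑P.π ∘ a') := IsLevel₁.comp ha' _
      let L : Lift1 P := ⟨a', b, ha', fun g h => hab (g, h)⟩
      have h1 := pair11_cl1 B h𝒰 hC ξ (⇑P.π ∘ a') hlev hcoc L (fun g => rfl)
      rw [hw] at h1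
      obtain ⟨u, hu, hdu⟩ := (cl2_eq_zero_iff _ _).1 h1.symm
      exact ⟨u, hu, hdu.symm⟩)
  rw [HZ1.cls, Cpx.π1_eq_zero_iff]
  refine ⟨y₀, Subtype.ext ?_⟩
  show Y.D0 y₀ = (ξ.c, ξ.e)
  rw [Cx.D0_apply]
  exact Prod.ext hc.symm he.symm

/-- **Right non-degeneracy** of `pair11` under the finite-level hypotheses. -/
theorem pair11_right_nondeg {ℱ : Set (Subgroup G)} {p : ℕ} (H : HypP (toDatum B) 𝒰 ℱ p)
    (x : Hlev1 h𝒰 P.ρM P.discM) (hx : ∀ w, pair11 B h𝒰 hC w x = 0) : x = 0 := by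
  obtain ⟨x₀, hl, hc, rfl⟩ := cl1_surjective x
  obtain ⟨L, hL⟩ := Lift1.exists_lift (P := P) hl hc
  obtain ⟨a₀, ha₀⟩ := right_kernel (D := toDatum B) h𝒰 H P.disc0 (isLift_of_Lift1 B L) L.lev
    (fun c y hcy hclev => by
      let ξ : HZ1 Y := ⟨c, y, hclev, fun g h => congrFun hcy.1 (g, h), fun g => hcy.2 g⟩
      have h1 := pair11_cl1 B h𝒰 hC ξ x₀ hl hc L hL
      rw [hx] at h1
      obtain ⟨u, hu, hdu⟩ := (cl2_eq_zero_iff _ _).1 h1.symm
      exact ⟨u, hu, hdu.symm⟩)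
  rw [cl1_eq_zero_iff]
  refine ⟨a₀, ?_⟩
  have ha₀' : ⇑P.π ∘ L.xt = dZero P.ρM a₀ := ha₀
  rw [← ha₀']
  funext g
  exact hL g

end Fermat.Agent.PT.PRO.NonDeg20
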