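/-
Program F (S55, Poitou–Tate), chapter PRO, helper25.

`PlainProd25`: plain level cohomology commutes with FINITE products:
`Hp^r(G; ∏ A_i) ≅ ∏ Hp^r(G; A_i)` for `r = 1, 2` (`bijective_piHp1`, `bijective_piHp2`),
in the `plainCpx` model of `HyperCompare25` (`= Resolved4.lvl`).
-/
import Fermat.Agent.PT.PRO.HyperProd25

set_option autoImplicit false

namespace Fermat.Agent.PT.PRO.PlainProd25

open Function Fermat.Agent.PT.PRO.HyperLevel25 Fermat.Agent.PT.PRO.HyperCompare25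
  Fermat.Agent.PT.PRO.HyperProd25

variable {k G : Type*} [CommRing k] [Group G] {𝒰 : Set (Subgroup G)}
variable {ι : Type*} [Finite ι]
variable {Y : ι → Type*} [∀ i, AddCommGroup (Y i)] [∀ i, Module k (Y i)]
variable (h𝒰 : IsLevelBasis 𝒰) (ρ : ∀ i, Representation k G (Y i))
  (hρ : ∀ i, IsDiscrete 𝒰 (ρ i))

/-- The `i`-th projection on plain level complexes. -/
def projHom (i : ι) :
    Cpx.Hom (plainCpx h𝒰 (piRep ρ) (isDiscrete_piRep h𝒰 hρ)) (plainCpx h𝒰 (ρ i) (hρ i)) :=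
  plainHom h𝒰 (isDiscrete_piRep h𝒰 hρ) (hρ i) (LinearMap.proj i) (fun _ _ => rfl)

/-- `H¹(G; ∏ A_i) → ∏ H¹(G; A_i)`. -/
def piHp1 : Hp1 h𝒰 (piRep ρ) (isDiscrete_piRep h𝒰 hρ) →ₗ[k] ∀ i, Hp1 h𝒰 (ρ i) (hρ i) :=
  LinearMap.pi fun i => (projHom h𝒰 ρ hρ i).mapH1

/-- `H²(G; ∏ A_i) → ∏ H²(G; A_i)`. -/
def piHp2 : Hp2 h𝒰 (piRep ρ) (isDiscrete_piRep h𝒰 hρ) →ₗ[k] ∀ i, Hp2 h𝒰 (ρ i) (hρ i) :=
  LinearMap.pi fun i => (projHom h𝒰 ρ hρ i).mapH2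

lemma piHp1_apply (x : Hp1 h𝒰 (piRep ρ) (isDiscrete_piRep h𝒰 hρ)) (i : ι) :
    piHp1 h𝒰 ρ hρ x i = (projHom h𝒰 ρ hρ i).mapH1 x := rfl

lemma piHp2_apply (x : Hp2 h𝒰 (piRep ρ) (isDiscrete_piRep h𝒰 hρ)) (i : ι) :
    piHp2 h𝒰 ρ hρ x i = (projHom h𝒰 ρ hρ i).mapH2 x := rfl

theorem injective_piHp1 : Injective (piHp1 h𝒰 ρ hρ) := by
  rw [injective_iff_map_eq_zero]
  intro cls hcls
  obtain ⟨z, rfl⟩ := (plainCpx h𝒰 (piRep ρ) (isDiscrete_piRep h𝒰 hρ)).π1_surjective cls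
  have hi : ∀ i, ∃ y : Y i, dZero (ρ i) y = fun g => z.1.1 g i := by
    intro i
    have h0 : (projHom h𝒰 ρ hρ i).mapH1
        ((plainCpx h𝒰 (piRep ρ) (isDiscrete_piRep h𝒰 hρ)).π1 z) = 0 := congrFun hcls i
    rw [Cpx.Hom.mapH1_π1, Cpx.π1_eq_zero_iff] at h0
    obtain ⟨y, hy⟩ := h0
    exact ⟨y, congrArg Subtype.val hy⟩
  choose y hy using hi
  rw [Cpx.π1_eq_zero_iff]
  refine ⟨y, ?_⟩
  apply Subtype.ext
  funext g i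
  show dZero (ρ i) (y i) g = z.1.1 g i
  rw [hy i]

theorem surjective_piHp1 : Surjective (piHp1 h𝒰 ρ hρ) := by
  intro x
  have hi : ∀ i, ∃ z : (plainCpx h𝒰 (ρ i) (hρ i)).Z1, (plainCpx h𝒰 (ρ i) (hρ i)).π1 z = x i :=
    fun i => (plainCpx h𝒰 (ρ i) (hρ i)).π1_surjective (x i)
  choose z hz using hi
  let w : lev₁ k h𝒰 (∀ i, Y i) := ⟨fun g i => (z i).1.1 g, isLevel₁_pi h𝒰 fun i => (z i).1.2⟩
  have hw : w ∈ (plainCpx h𝒰 (piRep ρ) (isDiscrete_piRep h𝒰 hρ)).Z1 := by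
    rw [mem_plain_Z1_iff]
    funext p i
    have := (mem_plain_Z1_iff h𝒰 (ρ i) (hρ i) (z i).1).1 (z i).2
    exact congrFun this p
  refine ⟨(plainCpx h𝒰 (piRep ρ) (isDiscrete_piRep h𝒰 hρ)).π1 ⟨w, hw⟩, ?_⟩
  funext i
  rw [piHp1_apply, ← hz i]
  rfl

theorem injective_piHp2 : Injective (piHp2 h𝒰 ρ hρ) := by
  rw [injective_iff_map_eq_zero]
  intro cls hcls
  obtain ⟨z, rfl⟩ := (plainCpx h𝒰 (piRep ρ) (isDiscrete_piRep h𝒰 hρ)).π2_surjective cls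
  have hi : ∀ i, ∃ c : lev₁ k h𝒰 (Y i), dOne (ρ i) c.1 = fun q => z.1.1 q i := by
    intro i
    have h0 : (projHom h𝒰 ρ hρ i).mapH2
        ((plainCpx h𝒰 (piRep ρ) (isDiscrete_piRep h𝒰 hρ)).π2 z) = 0 := congrFun hcls i
    rw [Cpx.Hom.mapH2_π2, Cpx.π2_eq_zero_iff] at h0
    obtain ⟨c, hc⟩ := h0
    exact ⟨c, congrArg Subtype.val hc⟩
  choose c hc using hi
  rw [Cpx.π2_eq_zero_iff]
  refine ⟨⟨fun g i => (c i).1 g, isLevel₁_pi h𝒰 fun i => (c i).2⟩, ?_⟩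
  apply Subtype.ext
  funext q i
  show dOne (ρ i) (c i).1 q = z.1.1 q i
  rw [hc i]

theorem surjective_piHp2 : Surjective (piHp2 h𝒰 ρ hρ) := by
  intro x
  have hi : ∀ i, ∃ z : (plainCpx h𝒰 (ρ i) (hρ i)).Z2, (plainCpx h𝒰 (ρ i) (hρ i)).π2 z = x i :=
    fun i => (plainCpx h𝒰 (ρ i) (hρ i)).π2_surjective (x i)
  choose z hz using hi
  let w : lev₂ k h𝒰 (∀ i, Y i) := ⟨fun q i => (z i).1.1 q, isLevel₂_pi h𝒰 fun i => (z i).1.2⟩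
  have hw : w ∈ (plainCpx h𝒰 (piRep ρ) (isDiscrete_piRep h𝒰 hρ)).Z2 := by
    rw [mem_plain_Z2_iff]
    funext p i
    have := (mem_plain_Z2_iff h𝒰 (ρ i) (hρ i) (z i).1).1 (z i).2
    exact congrFun this p
  refine ⟨(plainCpx h𝒰 (piRep ρ) (isDiscrete_piRep h𝒰 hρ)).π2 ⟨w, hw⟩, ?_⟩
  funext i
  rw [piHp2_apply, ← hz i]
  rfl

/-- `H¹(G; ∏ A_i) ≅ ∏ H¹(G; A_i)` for a finite family of discrete modules. -/
theorem bijective_piHp1 : Bijective (piHp1 h𝒰 ρ hρ) :=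
  ⟨injective_piHp1 h𝒰 ρ hρ, surjective_piHp1 h𝒰 ρ hρ⟩

/-- `H²(G; ∏ A_i) ≅ ∏ H²(G; A_i)` for a finite family of discrete modules. -/
theorem bijective_piHp2 : Bijective (piHp2 h𝒰 ρ hρ) :=
  ⟨injective_piHp2 h𝒰 ρ hρ, surjective_piHp2 h𝒰 ρ hρ⟩

include h𝒰 in
/-- Raw form of `injective_piHp2`: a level 2-cochain into a finite product all of whose components
are coboundaries of level cochains is the coboundary of a level cochain. -/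
theorem exists_dOne_eq_of_components (φ : G × G → ∀ i, Y i)
    (h : ∀ i, ∃ u : G → Y i, IsLevel₁ 𝒰 u ∧ dOne (ρ i) u = fun q => φ q i) :
    ∃ u : G → ∀ i, Y i, IsLevel₁ 𝒰 u ∧ dOne (piRep ρ) u = φ := by
  choose u hu hd using h
  refine ⟨fun g i => u i g, isLevel₁_pi h𝒰 hu, ?_⟩
  funext q i
  show dOne (ρ i) (u i) q = φ q i
  rw [hd i]

end Fermat.Agent.PT.PRO.PlainProd25
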