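/-
Program F (S55, Poitou–Tate), chapter PRO, helper26: instantiation of the finite-product theorems
(`HyperProdCor25`, `PlainProd25`) for `K(P; ∏_i X_i)` (plan v4, (P2)).

* `coefHom`: covariant functoriality of `Resolved.K P` in the coefficient module; `idHom`,
  `coefPairingHom`, **`pair11_coefHom`**: naturality of the evaluation `(1,1)`-pairing in the
  coefficients (for `toCS`, the projections and the inclusions of `LocalGlobal20`);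
* `projK i`, `inclK i : K(P; ∏ X_i) ⇄ K(P; X_i)`; `projK_φ0_bijective`, `projK_φ1_bijective`;
  **`prod_ℍ1_K_bijective`, `prod_ℍ2_K_bijective`**: `ℍ^r(K(P; ∏ X_i)) ≃ ∏ ℍ^r(K(P; X_i))`;
* `projLev i`, `inclLev i` on the level complexes `Resolved4.lvl`; **`hlev2_eq_zero_of_proj`**
  (`H²_lev(∏ X_i) → ∏ H²_lev(X_i)` injective, the shape of `LocalGlobal20.hprojB`) and
  `hlev1_eq_zero_of_proj`;
* the same for `HomCx29.homCx`: `projHomCx`, `prod_ℍ1_homCx_bijective`, `prod_ℍ2_homCx_bijective`.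
The dictionary with `Objects21.piRep` / `IS S` is `PT/GLUE/ProdDict26.lean`.
-/
import Mathlib
import Fermat.Agent.PT.PRO.Resolved4
import Fermat.Agent.PT.PRO.HyperProd25
import Fermat.Agent.PT.PRO.HyperProdCor25
import Fermat.Agent.PT.PRO.PlainProd25
import Fermat.Agent.PT.PRO.ExtPairingB4
import Fermat.Agent.PT.PRO.HomCx29

set_option autoImplicit false
set_option linter.unusedSectionVars false

namespace Fermat.Agent.PT.PRO.ProdInst26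

open Function Fermat.Agent.PT.PRO.HyperLevel25 Fermat.Agent.PT.PRO.HyperCompare25
  Fermat.Agent.PT.PRO.HyperProd25 Fermat.Agent.PT.PRO.Resolved4
  Fermat.Agent.PT.PRO.ExtPairing4 Fermat.Agent.PT.PRO.ExtPairingB4

variable {k G : Type*} [CommRing k] [Group G] {𝒰 : Set (Subgroup G)}
variable {P1 P0 M : Type*} [AddCommGroup P1] [Module k P1] [AddCommGroup P0] [Module k P0]
  [AddCommGroup M] [Module k M]

section Coef

variable (P : Resolved k 𝒰 P1 P0 M) [Module.Finite k P0] [Module.Finite k P1]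
  (h𝒰 : IsLevelBasis 𝒰)
variable {C C' : Type*} [AddCommGroup C] [Module k C] [AddCommGroup C'] [Module k C']
  {ρC : Representation k G C} {ρC' : Representation k G C'}
  (hC : IsDiscrete 𝒰 ρC) (hC' : IsDiscrete 𝒰 ρC')

/-- Covariant functoriality of `K(P; -)` in the coefficient module. -/
def coefHom (γ : C →ₗ[k] C') (hγ : ∀ g c, γ (ρC g c) = ρC' g (γ c)) :
    Cx.Hom (P.K h𝒰 ρC hC) (P.K h𝒰 ρC' hC') where
  φ0 := LinearMap.compRight k γ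
  φ1 := LinearMap.compRight k γ
  comm0 g y := by
    ext x
    simp only [Resolved.K, LinearMap.compRight_apply, Representation.linHom_apply,
      LinearMap.comp_apply, hγ]
  comm1 g y := by
    ext x
    simp only [Resolved.K, LinearMap.compRight_apply, Representation.linHom_apply,
      LinearMap.comp_apply, hγ]
  commf y := by
    ext x
    simp only [Resolved.K, LinearMap.compRight_apply, LinearMap.lcomp_apply,
      LinearMap.comp_apply]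

@[simp] lemma coefHom_φ0_apply (γ : C →ₗ[k] C') (hγ : ∀ g c, γ (ρC g c) = ρC' g (γ c))
    (y : P0 →ₗ[k] C) (x : P0) : (coefHom P h𝒰 hC hC' γ hγ).φ0 y x = γ (y x) := rfl

@[simp] lemma coefHom_φ1_apply (γ : C →ₗ[k] C') (hγ : ∀ g c, γ (ρC g c) = ρC' g (γ c))
    (y : P1 →ₗ[k] C) (x : P1) : (coefHom P h𝒰 hC hC' γ hγ).φ1 y x = γ (y x) := rfl

end Coef

section Prod

variable {ι : Type*} [Finite ι] {X : ι → Type*} [∀ i, AddCommGroup (X i)] [∀ i, Module k (X i)]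
variable (P : Resolved k 𝒰 P1 P0 M) [Module.Finite k P0] [Module.Finite k P1]
  (h𝒰 : IsLevelBasis 𝒰) (ρ : ∀ i, Representation k G (X i)) (hρ : ∀ i, IsDiscrete 𝒰 (ρ i))

/-- `K(P; ∏ X_i)`. -/
abbrev Kpi : Cx k 𝒰 (P0 →ₗ[k] ∀ i, X i) (P1 →ₗ[k] ∀ i, X i) :=
  P.K h𝒰 (piRep ρ) (isDiscrete_piRep h𝒰 hρ)

/-- The projection `K(P; ∏ X_i) → K(P; X_i)`. -/
def projK (i : ι) : Cx.Hom (Kpi P h𝒰 ρ hρ) (P.K h𝒰 (ρ i) (hρ i)) :=
  coefHom P h𝒰 (isDiscrete_piRep h𝒰 hρ) (hρ i) (LinearMap.proj i) (fun _ _ => rfl)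

lemma single_equivariant [DecidableEq ι] (i : ι) (g : G) (c : X i) :
    LinearMap.single k X i (ρ i g c) = piRep ρ g (LinearMap.single k X i c) := by
  funext j
  rw [piRep_apply]
  by_cases hj : j = i
  · subst hj
    simp
  · simp [LinearMap.single_apply, Pi.single_eq_of_ne hj]

open Classical in
/-- The inclusion `K(P; X_i) → K(P; ∏ X_i)`. -/
noncomputable def inclK (i : ι) : Cx.Hom (P.K h𝒰 (ρ i) (hρ i)) (Kpi P h𝒰 ρ hρ) :=
  coefHom P h𝒰 (hρ i) (isDiscrete_piRep h𝒰 hρ) (LinearMap.single k X i)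
    (single_equivariant ρ i)

theorem projK_φ0_bijective :
    Bijective (fun (y : P0 →ₗ[k] ∀ i, X i) (i : ι) => (projK P h𝒰 ρ hρ i).φ0 y) := by
  constructor
  · intro y y' h
    ext x i
    exact LinearMap.congr_fun (congrFun h i) x
  · intro f
    exact ⟨LinearMap.pi f, by funext i; ext x; rfl⟩

theorem projK_φ1_bijective :
    Bijective (fun (y : P1 →ₗ[k] ∀ i, X i) (i : ι) => (projK P h𝒰 ρ hρ i).φ1 y) := by
  constructor
  · intro y y' h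
    ext x i
    exact LinearMap.congr_fun (congrFun h i) x
  · intro f
    exact ⟨LinearMap.pi f, by funext i; ext x; rfl⟩

/-- **`ℍ¹(K(P; ∏ X_i)) → ∏ ℍ¹(K(P; X_i))` is bijective.** -/
theorem prod_ℍ1_K_bijective :
    Bijective (fun (x : (Kpi P h𝒰 ρ hρ).ℍ1 h𝒰) (i : ι) => (projK P h𝒰 ρ hρ i).mapℍ1 h𝒰 x) :=
  HyperProdCor25.prod_ℍ1_bijective h𝒰 (projK P h𝒰 ρ hρ) (projK_φ0_bijective P h𝒰 ρ hρ)
    (projK_φ1_bijective P h𝒰 ρ hρ)

/-- **`ℍ²(K(P; ∏ X_i)) → ∏ ℍ²(K(P; X_i))` is bijective.** -/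
theorem prod_ℍ2_K_bijective :
    Bijective (fun (x : (Kpi P h𝒰 ρ hρ).ℍ2 h𝒰) (i : ι) => (projK P h𝒰 ρ hρ i).mapℍ2 h𝒰 x) :=
  HyperProdCor25.prod_ℍ2_bijective h𝒰 (projK P h𝒰 ρ hρ) (projK_φ0_bijective P h𝒰 ρ hρ)
    (projK_φ1_bijective P h𝒰 ρ hρ)

end Prod

section Plain

variable {ι : Type*} [Finite ι] {X : ι → Type*} [∀ i, AddCommGroup (X i)] [∀ i, Module k (X i)]
variable (h𝒰 : IsLevelBasis 𝒰) (ρ : ∀ i, Representation k G (X i))
  (hρ : ∀ i, IsDiscrete 𝒰 (ρ i))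

/-- The projection of level complexes `lvl(∏ X_i) → lvl(X_i)`. -/
def projLev (i : ι) :
    Cpx.Hom (lvl h𝒰 (piRep ρ) (isDiscrete_piRep h𝒰 hρ)) (lvl h𝒰 (ρ i) (hρ i)) :=
  lvlHom h𝒰 (isDiscrete_piRep h𝒰 hρ) (hρ i) (LinearMap.proj i) (fun _ _ => rfl)

open Classical in
/-- The inclusion of level complexes `lvl(X_i) → lvl(∏ X_i)`. -/
noncomputable def inclLev (i : ι) :
    Cpx.Hom (lvl h𝒰 (ρ i) (hρ i)) (lvl h𝒰 (piRep ρ) (isDiscrete_piRep h𝒰 hρ)) :=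
  lvlHom h𝒰 (hρ i) (isDiscrete_piRep h𝒰 hρ) (LinearMap.single k X i) (single_equivariant ρ i)

/-- **`H²_lev(∏ X_i) → ∏ H²_lev(X_i)` is injective** (shape of `LocalGlobal20.hprojB`). -/
theorem hlev2_eq_zero_of_proj (x : Hlev2 h𝒰 (piRep ρ) (isDiscrete_piRep h𝒰 hρ))
    (hx : ∀ i, (projLev h𝒰 ρ hρ i).mapH2 x = 0) : x = 0 := by
  obtain ⟨z, rfl⟩ := (lvl h𝒰 (piRep ρ) (isDiscrete_piRep h𝒰 hρ)).π2_surjective x
  have hi : ∀ i, ∃ u : G → X i, IsLevel₁ 𝒰 u ∧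
      dOne (ρ i) u = fun q => ((z : lev₂ k h𝒰 (∀ i, X i)) : G × G → ∀ i, X i) q i := by
    intro i
    have h0 := hx i
    rw [Cpx.Hom.mapH2_π2, π2_lvl_eq_zero_iff] at h0
    obtain ⟨b, hb, hd⟩ := h0
    exact ⟨b, hb, hd⟩
  obtain ⟨u, hu, hd⟩ := PlainProd25.exists_dOne_eq_of_components h𝒰 ρ _ hi
  rw [π2_lvl_eq_zero_iff]
  exact ⟨u, hu, hd⟩

/-- **`H¹_lev(∏ X_i) → ∏ H¹_lev(X_i)` is injective.** -/
theorem hlev1_eq_zero_of_proj (x : Hlev1 h𝒰 (piRep ρ) (isDiscrete_piRep h𝒰 hρ))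
    (hx : ∀ i, (projLev h𝒰 ρ hρ i).mapH1 x = 0) : x = 0 := by
  obtain ⟨z, rfl⟩ := (lvl h𝒰 (piRep ρ) (isDiscrete_piRep h𝒰 hρ)).π1_surjective x
  have hi : ∀ i, ∃ y : X i,
      dZero (ρ i) y = fun g => ((z : lev₁ k h𝒰 (∀ i, X i)) : G → ∀ i, X i) g i := by
    intro i
    have h0 := hx i
    rw [Cpx.Hom.mapH1_π1, π1_lvl_eq_zero_iff] at h0
    obtain ⟨y, hy⟩ := h0
    exact ⟨y, hy⟩
  choose y hy using hi
  rw [π1_lvl_eq_zero_iff]
  refine ⟨y, ?_⟩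
  funext g i
  show dZero (ρ i) (y i) g = _
  rw [hy i]

end Plain

section PairingNat

variable (P : Resolved k 𝒰 P1 P0 M) [Module.Finite k P0] [Module.Finite k P1]
  (h𝒰 : IsLevelBasis 𝒰)
variable {C C' : Type*} [AddCommGroup C] [Module k C] [AddCommGroup C'] [Module k C']
  {ρC : Representation k G C} {ρC' : Representation k G C'}
  (hC : IsDiscrete 𝒰 ρC) (hC' : IsDiscrete 𝒰 ρC')

/-- The identity morphism of a resolved module. -/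
def idHom : Resolved.Hom P P where
  φ1 := LinearMap.id
  φ0 := LinearMap.id
  φM := LinearMap.id
  comm1 _ _ := rfl
  comm0 _ _ := rfl
  commι _ := rfl
  commπ _ := rfl

/-- A morphism of coefficients as a morphism of the evaluation pairings. -/
def coefPairingHom (γ : C →ₗ[k] C') (hγ : ∀ g c, γ (ρC g c) = ρC' g (γ c)) :
    PairingHom (evalPairing P h𝒰 ρC hC) (evalPairing P h𝒰 ρC' hC') where
  a := coefHom P h𝒰 hC hC' γ hγ
  b := idHom P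
  γ := γ
  hγ := hγ
  h0 _ _ := rfl
  h1 _ _ := rfl

omit [Module.Finite k P0] [Module.Finite k P1] in
lemma lvlHom_id_mapH1 {A : Type*} [AddCommGroup A] [Module k A] {ρA : Representation k G A}
    (hA : IsDiscrete 𝒰 ρA) (hid : ∀ g a, (LinearMap.id : A →ₗ[k] A) (ρA g a) = ρA g (LinearMap.id a))
    (x : Hlev1 h𝒰 ρA hA) :
    (lvlHom h𝒰 hA hA LinearMap.id hid).mapH1 x = x := by
  obtain ⟨z, rfl⟩ := (lvl h𝒰 ρA hA).π1_surjective x
  rw [Cpx.Hom.mapH1_π1]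
  congr 1

/-- **Naturality of the evaluation `(1,1)`-pairing in the coefficient module.** -/
theorem pair11_coefHom (γ : C →ₗ[k] C') (hγ : ∀ g c, γ (ρC g c) = ρC' g (γ c))
    (ξ : (P.K h𝒰 ρC hC).ℍ1 h𝒰) (x : Hlev1 h𝒰 P.ρM P.discM) :
    pair11 (evalPairing P h𝒰 ρC' hC') h𝒰 hC' ((coefHom P h𝒰 hC hC' γ hγ).mapℍ1 h𝒰 ξ) x =
      (lvlHom h𝒰 hC hC' γ hγ).mapH2 (pair11 (evalPairing P h𝒰 ρC hC) h𝒰 hC ξ x) := by
  have h := pair11_natural h𝒰 hC hC' (coefPairingHom P h𝒰 hC hC' γ hγ) ξ x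
  have hid : (lvlHom h𝒰 P.discM P.discM (coefPairingHom P h𝒰 hC hC' γ hγ).b.φM
      (coefPairingHom P h𝒰 hC hC' γ hγ).b.commM).mapH1 x = x :=
    lvlHom_id_mapH1 h𝒰 P.discM _ x
  rw [hid] at h
  exact h

end PairingNat

/-! ### The same for `HomCx29.homCx` (hence `FreeRes29.resCx`) -/

section HomCx

open Fermat.Agent.PT.PRO.HomCx29

variable {F0 F1 : Type*} [AddCommGroup F0] [Module k F0] [AddCommGroup F1] [Module k F1]
variable {ι : Type*} [Finite ι] {X : ι → Type*} [∀ i, AddCommGroup (X i)] [∀ i, Module k (X i)]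
variable (h𝒰 : IsLevelBasis 𝒰) (ρ0 : Representation k G F0) (ρ1 : Representation k G F1)
  (j : F1 →ₗ[k] F0) (hj : ∀ g x, j (ρ1 g x) = ρ0 g (j x))
  [Module.Finite k F0] [Module.Finite k F1] (h0 : IsDiscrete 𝒰 ρ0) (h1 : IsDiscrete 𝒰 ρ1)
  (ρ : ∀ i, Representation k G (X i)) (hρ : ∀ i, IsDiscrete 𝒰 (ρ i))

/-- The projection `homCx(F; ∏ X_i) → homCx(F; X_i)`. -/
def projHomCx (i : ι) :
    Cx.Hom (homCx h𝒰 ρ0 ρ1 (piRep ρ) j hj h0 h1 (isDiscrete_piRep h𝒰 hρ))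
      (homCx h𝒰 ρ0 ρ1 (ρ i) j hj h0 h1 (hρ i)) :=
  homCxMap h𝒰 ρ0 ρ1 j hj h0 h1 (isDiscrete_piRep h𝒰 hρ) (hρ i) (LinearMap.proj i)
    (fun _ _ => rfl)

theorem projHomCx_φ0_bijective :
    Bijective (fun (y : F0 →ₗ[k] ∀ i, X i) (i : ι) =>
      (projHomCx h𝒰 ρ0 ρ1 j hj h0 h1 ρ hρ i).φ0 y) := by
  constructor
  · intro y y' h
    ext x i
    exact LinearMap.congr_fun (congrFun h i) x
  · intro f
    exact ⟨LinearMap.pi f, by funext i; ext x; rfl⟩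

theorem projHomCx_φ1_bijective :
    Bijective (fun (y : F1 →ₗ[k] ∀ i, X i) (i : ι) =>
      (projHomCx h𝒰 ρ0 ρ1 j hj h0 h1 ρ hρ i).φ1 y) := by
  constructor
  · intro y y' h
    ext x i
    exact LinearMap.congr_fun (congrFun h i) x
  · intro f
    exact ⟨LinearMap.pi f, by funext i; ext x; rfl⟩

/-- `ℍ¹(homCx(F; ∏ X_i)) → ∏ ℍ¹(homCx(F; X_i))` is bijective. -/
theorem prod_ℍ1_homCx_bijective :
    Bijective (fun (x : (homCx h𝒰 ρ0 ρ1 (piRep ρ) j hj h0 h1 (isDiscrete_piRep h𝒰 hρ)).ℍ1 h𝒰)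
      (i : ι) => (projHomCx h𝒰 ρ0 ρ1 j hj h0 h1 ρ hρ i).mapℍ1 h𝒰 x) :=
  HyperProdCor25.prod_ℍ1_bijective h𝒰 (projHomCx h𝒰 ρ0 ρ1 j hj h0 h1 ρ hρ)
    (projHomCx_φ0_bijective h𝒰 ρ0 ρ1 j hj h0 h1 ρ hρ)
    (projHomCx_φ1_bijective h𝒰 ρ0 ρ1 j hj h0 h1 ρ hρ)

/-- `ℍ²(homCx(F; ∏ X_i)) → ∏ ℍ²(homCx(F; X_i))` is bijective. -/
theorem prod_ℍ2_homCx_bijective :
    Bijective (fun (x : (homCx h𝒰 ρ0 ρ1 (piRep ρ) j hj h0 h1 (isDiscrete_piRep h𝒰 hρ)).ℍ2 h𝒰)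
      (i : ι) => (projHomCx h𝒰 ρ0 ρ1 j hj h0 h1 ρ hρ i).mapℍ2 h𝒰 x) :=
  HyperProdCor25.prod_ℍ2_bijective h𝒰 (projHomCx h𝒰 ρ0 ρ1 j hj h0 h1 ρ hρ)
    (projHomCx_φ0_bijective h𝒰 ρ0 ρ1 j hj h0 h1 ρ hρ)
    (projHomCx_φ1_bijective h𝒰 ρ0 ρ1 j hj h0 h1 ρ hρ)

end HomCx

end Fermat.Agent.PT.PRO.ProdInst26
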