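/-
Program F (S55, Poitou–Tate): bridge FG → PRO for the `p`-primary inflation injectivity, owner
helper2.  Produces helper18's RAW hypothesis `HyperColimP18.H1NoPTorsion ρ N p` (input of
`inj2pFin_of_noPTorsion` / `inj2pAt_of_noPTorsion` / `hypP_of_descend`) from Mathlib-form
statements about `H¹`:

* `h1NoPTorsion_of_H1`: `(∀ y : H1 (res N.subtype A), p • y = 0 → y = 0) → H1NoPTorsion A.ρ N p`;
* `h1NoPTorsion_of_pSubgroups`, `h1NoPTorsion_of_pSubgroups'` (unbundled `ρ`),
  `h1NoPTorsion_of_subsingleton`: from `H¹(P, A) = 0` for the `p`-subgroups `P ≤ N`, `N` finite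
  (Sylow transfer, `InfResPrimary2.h1_noPTorsion_of_pSubgroups`);
* `h1NoPTorsion_of_isFundClass`: from `Interface8.IsFundClass p C u`, any subgroup `N`.
-/
import Mathlib
import Fermat.Agent.PT.FG.InfResPrimary2
import Fermat.Agent.PT.PRO.HyperColimP18

set_option autoImplicit false

open CategoryTheory groupCohomology Rep

universe u

namespace Fermat.Agent.PT.PRO.RawBridge2

open Fermat.Agent.PT.PRO.HyperColimP18 Fermat.Agent.PT.FG.InfResPrimary2

variable {k G : Type u} [CommRing k] [Group G] (A : Rep.{u} k G) (N : Subgroup G)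

/-- From Mathlib's `H¹(N, A)` to the raw form used by PRO: if `p • y = 0 → y = 0` on
`H1 (res N.subtype A)` then `H1NoPTorsion A.ρ N p`. -/
theorem h1NoPTorsion_of_H1 (p : ℕ)
    (h : ∀ y : H1 (res N.subtype A), p • y = 0 → y = 0) : H1NoPTorsion A.ρ N p := by
  intro v hv ⟨x, hx⟩
  -- the restriction of `v` to `N` is a 1-cocycle
  let φ : N → A.V := fun s => v s
  have hφ : φ ∈ cocycles₁ (res N.subtype A) := by
    rw [mem_cocycles₁_iff]
    intro s t
    exact hv s s.2 t t.2
  have hp : p • H1π (res N.subtype A) ⟨φ, hφ⟩ = 0 := by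
    rw [← map_nsmul, H1π_eq_zero_iff]
    refine ⟨x, ?_⟩
    funext s
    have := hx s s.2
    simp only [Pi.smul_apply] at this
    show (res N.subtype A).ρ s x - x = _
    show A.ρ s x - x = p • v s
    rw [← this, Nat.cast_smul_eq_nsmul]
  have h0 := h _ hp
  obtain ⟨b, hb⟩ := (H1π_eq_zero_iff _).1 h0
  refine ⟨b, fun s hs => ?_⟩
  have := congr_fun hb ⟨s, hs⟩
  exact this.symm


/-- If `H¹(P, A) = 0` for the `p`-subgroups `P ≤ N` (`N` finite) then the raw `H1NoPTorsion`
holds (input of `HyperColimP18.inj2pFin_of_noPTorsion` / `inj2pAt_of_noPTorsion`). -/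
theorem h1NoPTorsion_of_pSubgroups [Finite N] {p : ℕ} [Fact p.Prime]
    (hS : ∀ P : Subgroup G, P ≤ N → IsPGroup p P → Limits.IsZero (H1 (res P.subtype A))) :
    H1NoPTorsion A.ρ N p :=
  h1NoPTorsion_of_H1 A N p fun y hy =>
    h1_noPTorsion_of_pSubgroups A N hS y ⟨1, by rwa [pow_one]⟩

/-- The same for an unbundled representation. -/
theorem h1NoPTorsion_of_pSubgroups' {X : Type u} [AddCommGroup X] [Module k X]
    (ρ : Representation k G X) [Finite N] {p : ℕ} [Fact p.Prime]
    (hS : ∀ P : Subgroup G, P ≤ N → IsPGroup p P →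
      Limits.IsZero (H1 (res P.subtype (Rep.of ρ)))) :
    H1NoPTorsion ρ N p :=
  h1NoPTorsion_of_pSubgroups (Rep.of ρ) N hS

/-- Variant with `Subsingleton` hypotheses (the shape of `Interface8.IsFundClass.h1`); generic in
`k`: for `C : Rep ℤ G` apply it as `h1NoPTorsion_of_subsingleton C N (fun P _ hP => hu.h1 P hP)`
(the `Module ℤ C.V` instance is then found by unification, avoiding the `ℤ`-module diamond). -/
theorem h1NoPTorsion_of_subsingleton [Finite N] {p : ℕ} [Fact p.Prime]
    (h1 : ∀ P : Subgroup G, P ≤ N → IsPGroup p P → Subsingleton (H1 (res P.subtype A))) :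
    H1NoPTorsion A.ρ N p :=
  h1NoPTorsion_of_pSubgroups A N fun P hPN hP =>
    @ModuleCat.isZero_of_subsingleton _ _ _ (h1 P hPN hP)

section interface

open Fermat.Agent.PT.FG.Interface8

/-- **From `IsFundClass` to the raw `H1NoPTorsion`**: for a finite group `G`, `(C, u)` satisfying
the `p`-class-formation hypotheses and ANY subgroup `N ≤ G`. -/
theorem h1NoPTorsion_of_isFundClass {G : Type} [Group G] [Finite G] {p : ℕ} [Fact p.Prime]
    (C : Rep ℤ G) (u : H2 C) (hu : IsFundClass p C u) (N : Subgroup G) :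
    @H1NoPTorsion ℤ _ G _ C.V _ C.hV2 C.ρ N p :=
  h1NoPTorsion_of_subsingleton C N fun P _ hP => hu.h1 P hP

end interface

end Fermat.Agent.PT.PRO.RawBridge2
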