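/-
Program F (S55, Poitou–Tate), chapter PRO, helper28.

Shapiro's lemma (degrees 1, 2) for helper21's smooth coinduction `GLUE.SmCoind21.smCoind`
(the model used for `I_S` in `GLUE.Objects21`), deduced from `ShapiroLevel28` through the
equivariant linear bijection `smCoind φ 𝓑 A ≃ scoind φ 𝓑 A`.
Also: an equivariant linear bijection induces bijections on level cohomology.
-/
import Mathlib
import Fermat.Agent.PT.PRO.LevelCoh28
import Fermat.Agent.PT.PRO.LevelCohRes28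
import Fermat.Agent.PT.PRO.SmoothCoind28
import Fermat.Agent.PT.PRO.ShapiroLevel28
import Fermat.Agent.PT.GLUE.SmCoind21

set_option autoImplicit false
set_option linter.unusedSectionVars false
set_option linter.style.haveILetI false

universe u

open CategoryTheory groupCohomology

namespace Fermat.Agent.PT.PRO.ShapiroSm28

open Fermat.Agent.PT.PRO.LevelCoh28 Fermat.Agent.PT.PRO.LevelCohRes28
  Fermat.Agent.PT.PRO.SmoothCoind28 Fermat.Agent.PT.PRO.ShapiroLevel28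

/-! ### Equivariant bijections induce bijections on level cohomology -/

section Bijective

variable {k G : Type u} [CommRing k] [Group G] {𝓑 : LevelBasis G} {A B : Rep.{u} k G}
  (Φ : A →ₗ[k] B) (hΦ : ∀ g a, Φ (A.ρ g a) = B.ρ g (Φ a)) (hbij : Function.Bijective Φ)

include hbij in
theorem mapH1_bijective : Function.Bijective (mapH1 (𝓑 := 𝓑) Φ hΦ) := by
  choose r hr using hbij.2
  constructor
  · rw [← LinearMap.ker_eq_bot, LinearMap.ker_eq_bot']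
    intro x hx
    obtain ⟨c, rfl⟩ := H1mk_surjective 𝓑 A x
    rw [mapH1_mk, H1mk_eq_zero_iff] at hx
    obtain ⟨b, hb⟩ := hx
    rw [H1mk_eq_zero_iff]
    refine ⟨r b, ?_⟩
    funext g
    apply hbij.1
    have h1 := congrFun (d₀₁_comp Φ hΦ (r b)) g
    have h2 := congrFun hb g
    simp only [Function.comp_apply] at h1
    rw [← h1, hr, h2]
    rfl
  · intro y
    obtain ⟨c, rfl⟩ := H1mk_surjective 𝓑 B y
    have hrc : Φ ∘ (r ∘ (c : G → B)) = (c : G → B) := funext fun g => hr _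
    have hl : IsLevel₁ 𝓑.sets (r ∘ (c : G → B)) := c.2.2.comp r
    have hz : (d₁₂ A).hom (r ∘ (c : G → B)) = 0 := by
      funext x
      apply hbij.1
      have h1 := congrFun (d₁₂_comp Φ hΦ (r ∘ (c : G → B))) x
      rw [hrc, d₁₂_eq_zero_of_mem_Z1 𝓑 B c.2] at h1
      simp only [Function.comp_apply] at h1
      rw [← h1]
      exact (map_zero Φ).symm
    refine ⟨H1mk 𝓑 A ⟨r ∘ (c : G → B), mem_Z1_of 𝓑 A hz hl⟩, ?_⟩
    rw [mapH1_mk]
    congr 1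
    exact Subtype.ext hrc

include hbij in
theorem mapH2_bijective : Function.Bijective (mapH2 (𝓑 := 𝓑) Φ hΦ) := by
  choose r hr using hbij.2
  constructor
  · rw [← LinearMap.ker_eq_bot, LinearMap.ker_eq_bot']
    intro x hx
    obtain ⟨c, rfl⟩ := H2mk_surjective 𝓑 A x
    rw [mapH2_mk, H2mk_eq_zero_iff] at hx
    obtain ⟨b, hbl, hb⟩ := (mem_B2_iff 𝓑 B _).1 hx
    rw [H2mk_eq_zero_iff]
    have hrb : Φ ∘ (r ∘ b) = b := funext fun g => hr _
    refine (mem_B2_iff 𝓑 A _).2 ⟨r ∘ b, hbl.comp r, ?_⟩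
    funext x
    apply hbij.1
    have h1 := congrFun (d₁₂_comp Φ hΦ (r ∘ b)) x
    have h2 := congrFun hb x
    rw [hrb] at h1
    simp only [Function.comp_apply] at h1
    rw [← h1, h2]
    rfl
  · intro y
    obtain ⟨c, rfl⟩ := H2mk_surjective 𝓑 B y
    have hrc : Φ ∘ (r ∘ (c : G × G → B)) = (c : G × G → B) := funext fun g => hr _
    have hl : IsLevel₂ 𝓑.sets (r ∘ (c : G × G → B)) := c.2.2.comp r
    have hz : (d₂₃ A).hom (r ∘ (c : G × G → B)) = 0 := by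
      funext x
      apply hbij.1
      have h1 := congrFun (d₂₃_comp Φ hΦ (r ∘ (c : G × G → B))) x
      rw [hrc, d₂₃_eq_zero_of_mem_Z2 𝓑 B c.2] at h1
      simp only [Function.comp_apply] at h1
      rw [← h1]
      exact (map_zero Φ).symm
    refine ⟨H2mk 𝓑 A ⟨r ∘ (c : G × G → B), mem_Z2_of 𝓑 A hz hl⟩, ?_⟩
    rw [mapH2_mk]
    congr 1
    exact Subtype.ext hrc

end Bijective

/-! ### Comparison of the two models of smooth coinduction -/

section Compare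

open Fermat.Agent.PT.GLUE

variable {k G H : Type} [CommRing k] [Group G] [Group H]
variable (φ : H →* G) (𝓑G : LevelBasis G) (A : Rep.{0} k H)

/-- `GLUE.SmCoind21.smCoind → PRO.SmoothCoind28.scoind`. -/
noncomputable def toScoind : SmCoind21.smCoind φ 𝓑G A →ₗ[k] scoind (k := k) φ 𝓑G A where
  toFun f := ⟨SmCoind21.toFun φ 𝓑G A f, SmCoind21.toFun_equivariant f, SmCoind21.toFun_isLevel f⟩
  map_add' _ _ := rfl
  map_smul' _ _ := rfl

@[simp] theorem toScoind_apply (f : SmCoind21.smCoind φ 𝓑G A) (g : G) :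
    (toScoind φ 𝓑G A f).1 g = SmCoind21.toFun φ 𝓑G A f g := rfl

theorem toScoind_equivariant (γ : G) (f : SmCoind21.smCoind φ 𝓑G A) :
    toScoind φ 𝓑G A ((SmCoind21.smCoind φ 𝓑G A).ρ γ f) =
      (scoind (k := k) φ 𝓑G A).ρ γ (toScoind φ 𝓑G A f) := rfl

theorem toScoind_bijective : Function.Bijective (toScoind φ 𝓑G A) := by
  constructor
  · intro f f' h
    apply SmCoind21.toFun_injective
    have h' := congrArg (fun x : scoind (k := k) φ 𝓑G A => x.1) h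
    exact h'
  · intro f
    exact ⟨SmCoind21.mk φ 𝓑G A f.1 f.2.1 f.2.2, rfl⟩

theorem ev_toScoind (f : SmCoind21.smCoind φ 𝓑G A) :
    ev φ 𝓑G A (toScoind φ 𝓑G A f) = SmCoind21.ev φ 𝓑G A f := rfl

variable (𝓑H : LevelBasis H) (hcont : IsLevelHom φ 𝓑H.sets 𝓑G.sets)
  (hind : ∀ V ∈ 𝓑H.sets, ∃ U ∈ 𝓑G.sets, U.comap φ ≤ V)

/-- The Shapiro map `H¹(𝓑G; smCoind A) → H¹(𝓑H; A)` for helper21's model. -/
noncomputable def shSm1 : H1 𝓑G (SmCoind21.smCoind φ 𝓑G A) →ₗ[k] H1 𝓑H A :=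
  ppH1 φ (SmCoind21.ev φ 𝓑G A) (SmCoind21.ev_ρ φ 𝓑G A) hcont

/-- The Shapiro map `H²(𝓑G; smCoind A) → H²(𝓑H; A)` for helper21's model. -/
noncomputable def shSm2 : H2 𝓑G (SmCoind21.smCoind φ 𝓑G A) →ₗ[k] H2 𝓑H A :=
  ppH2 φ (SmCoind21.ev φ 𝓑G A) (SmCoind21.ev_ρ φ 𝓑G A) hcont

theorem shSm1_eq (x : H1 𝓑G (SmCoind21.smCoind φ 𝓑G A)) :
    shSm1 φ 𝓑G A 𝓑H hcont x =
      sh1 φ 𝓑G 𝓑H hcont A (mapH1 (toScoind φ 𝓑G A) (toScoind_equivariant φ 𝓑G A) x) := by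
  obtain ⟨c, rfl⟩ := H1mk_surjective 𝓑G _ x
  rfl

theorem shSm2_eq (x : H2 𝓑G (SmCoind21.smCoind φ 𝓑G A)) :
    shSm2 φ 𝓑G A 𝓑H hcont x =
      sh2 φ 𝓑G 𝓑H hcont A (mapH2 (toScoind φ 𝓑G A) (toScoind_equivariant φ 𝓑G A) x) := by
  obtain ⟨c, rfl⟩ := H2mk_surjective 𝓑G _ x
  rfl

include hind in
/-- **Shapiro's lemma in degree 1 for `smCoind`.** -/
theorem shSm1_bijective (hA : IsDiscrete 𝓑H.sets A) :
    Function.Bijective (shSm1 φ 𝓑G A 𝓑H hcont) := by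
  have h1 := (sh1_bijective φ 𝓑G 𝓑H hcont hind A hA).comp
    (mapH1_bijective (𝓑 := 𝓑G) (toScoind φ 𝓑G A) (toScoind_equivariant φ 𝓑G A)
      (toScoind_bijective φ 𝓑G A))
  have h2 : ⇑(shSm1 φ 𝓑G A 𝓑H hcont) = ⇑(sh1 φ 𝓑G 𝓑H hcont A) ∘
      ⇑(mapH1 (𝓑 := 𝓑G) (toScoind φ 𝓑G A) (toScoind_equivariant φ 𝓑G A)) :=
    funext fun x => shSm1_eq φ 𝓑G A 𝓑H hcont x
  rw [h2]
  exact h1

include hind in
/-- **Shapiro's lemma in degree 2 for `smCoind`.** -/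
theorem shSm2_bijective (hA : IsDiscrete 𝓑H.sets A) :
    Function.Bijective (shSm2 φ 𝓑G A 𝓑H hcont) := by
  have h1 := (sh2_bijective φ 𝓑G 𝓑H hcont hind A hA).comp
    (mapH2_bijective (𝓑 := 𝓑G) (toScoind φ 𝓑G A) (toScoind_equivariant φ 𝓑G A)
      (toScoind_bijective φ 𝓑G A))
  have h2 : ⇑(shSm2 φ 𝓑G A 𝓑H hcont) = ⇑(sh2 φ 𝓑G 𝓑H hcont A) ∘
      ⇑(mapH2 (𝓑 := 𝓑G) (toScoind φ 𝓑G A) (toScoind_equivariant φ 𝓑G A)) :=
    funext fun x => shSm2_eq φ 𝓑G A 𝓑H hcont x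
  rw [h2]
  exact h1

/-- The hypotheses `hcont`, `hind` hold when the basis of `H` is the pull-back of that of `G`
(e.g. `GLUE.Objects21.comapBasis`, `levelLocS`). -/
theorem isLevelHom_of_comap (h : ∀ U ∈ 𝓑G.sets, U.comap φ ∈ 𝓑H.sets) :
    IsLevelHom φ 𝓑H.sets 𝓑G.sets := fun U hU => ⟨U.comap φ, h U hU, le_rfl⟩

theorem induced_of_comap (h : ∀ V ∈ 𝓑H.sets, ∃ U ∈ 𝓑G.sets, V = U.comap φ) :
    ∀ V ∈ 𝓑H.sets, ∃ U ∈ 𝓑G.sets, U.comap φ ≤ V := fun V hV => by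
  obtain ⟨U, hU, rfl⟩ := h V hV
  exact ⟨U, hU, le_rfl⟩

end Compare

end Fermat.Agent.PT.PRO.ShapiroSm28
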