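/-
Program F (S55, Poitou–Tate), chapter PRO, helper25.

`StarBlockKap25`: the (★) block `StarBlock25.exists_b` with all hypotheses on the kernels
`N = ker f_E`, `N_q = ker f_{W_q}` discharged by helper7's `KerIso7` (`μ_p ⊂ X` as `MuData`):

`P → A` a resolved module with `A = M' = Hom(M, 𝔽_p)(χ)` (carrier `Module.Dual (ZMod p) M`),
`0 → E → I → C → 0` exact, `I ≅ ∏_q I_q`, `ev_q : I_q → W_q` over `r_q : G_q → G`;
`E` and the `W_q` `p`-divisible with `μ_p ⊂ E`, `μ_p ⊂ W_q` compatible under `ev_q ∘ prj_q ∘ d`.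
Then there is `b : ℍ¹(G; K(P; C)) → H²(G; M)` with

* (hab) `b e = 0 ↔ e ∈ im (ℍ¹(K(P; I)) → ℍ¹(K(P; C)))`;
* (hbc) `(∀ q, res_q h = 0) ↔ h ∈ im b`, `res_q : H²(G; M) → H²(G_q; M)` the restriction.

The only remaining cohomological input is (S2h): injectivity of
`Λ²_q = (KPHom ev_q).ppℍ2 : ℍ²(G; K(P; I_q)) → ℍ²(G_q; K(P; W_q))`.

The coefficient representations `ρN` (of `G` on `M`, over `k`) and `ρNq q` (of `G_q` on `M`) are
ARBITRARY representations agreeing pointwise with `ρM` resp. `ρM ∘ r_q`, so that both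
`IntRep20.intRep` and `KerIso7.intRep` (and restrictions `Rep.res`) fit without conversion.
-/
import Mathlib
import Fermat.Agent.PT.PRO.StarBlock25
import Fermat.Agent.PT.PRO.KerIso7

set_option autoImplicit false
set_option linter.unusedSectionVars false

namespace Fermat.Agent.PT.PRO.StarBlockKap25

open Function Fermat.Agent.PT.PRO.HyperLevel25 Fermat.Agent.PT.PRO.HyperCompare25
  Fermat.Agent.PT.PRO.HyperRes25 Fermat.Agent.PT.PRO.Resolved4 Fermat.Agent.PT.PRO.HK20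
  Fermat.Agent.PT.PRO.PairingRes1 Fermat.Agent.PT.PRO.KerIso7

variable {k : Type*} [CommRing k] (hk : IntSurj k)
variable {p : ℕ} [Fact p.Prime] {G : Type*} [Group G] {𝒰 : Set (Subgroup G)}
variable {M : Type*} [AddCommGroup M] [Module (ZMod p) M] [Module k M]
  [Module k (Module.Dual (ZMod p) M)] [FiniteDimensional (ZMod p) M]
variable {P0 P1 E I C : Type*} [AddCommGroup P0] [Module k P0] [AddCommGroup P1] [Module k P1]
  [AddCommGroup E] [Module k E] [AddCommGroup I] [Module k I] [AddCommGroup C] [Module k C]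
variable (P : Resolved k 𝒰 P1 P0 (Module.Dual (ZMod p) M))
  [Module.Finite k P0] [Module.Finite k P1] [Module.Projective k P0] [Module.Projective k P1]
  (h𝒰 : IsLevelBasis 𝒰)
  {ρM : Representation (ZMod p) G M} {χ : G →* (ZMod p)ˣ}
  (hA : ∀ g a, P.ρM g a = (χ g : ZMod p) • (a ∘ₗ ρM g⁻¹))
  {ρN : Representation k G M} (hρN : ∀ g m, ρN g m = ρM g m) (hN : IsDiscrete 𝒰 ρN)
  {ρE : Representation k G E} (hE : IsDiscrete 𝒰 ρE)
  {ρI : Representation k G I} (hI : IsDiscrete 𝒰 ρI)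
  {ρC : Representation k G C} (hC : IsDiscrete 𝒰 ρC)
  (d : E →ₗ[k] I) (hd : ∀ g x, d (ρE g x) = ρI g (d x))
  (t : I →ₗ[k] C) (ht : ∀ g x, t (ρI g x) = ρC g (t x))
  (hdinj : Injective d) (htsurj : Surjective t) (hex : Function.Exact d t)
  (D : MuData χ ρE) (hdiv : ∀ x : E, ∃ y : E, (p : k) • y = x)

/-! ### The global kernel data -/

include hρN hA in
/-- `hι` for `κ = kapRes D.j P.π` and an arbitrary `k`-form `ρN` of `ρM`. -/
theorem kap_hι (g : G) (n : M) :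
    kapRes hk D.j P.π (ρN g n) = (P.K h𝒰 ρE hE).ρ0 g (kapRes hk D.j P.π n) := by
  rw [hρN g n]
  exact kapRes_equivariant hk ρM χ P.ρM hA ρE D.j D.equiv P.ρ0 P.π P.π_comm g n

/-- `hfι`. -/
theorem kap_hfι (n : M) : (P.K h𝒰 ρE hE).f (kapRes hk D.j P.π n) = 0 :=
  lcomp_kapRes hk D.j P.π P.ι P.π_ι n

/-- `hker`. -/
theorem kap_hker (b : P0 →ₗ[k] E) (hb : (P.K h𝒰 ρE hE).f b = 0) :
    ∃ n, kapRes hk D.j P.π n = b :=
  exists_kapRes_eq hk D.j D.inj D.surj P.π P.π_surj P.ι P.exact b hb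

include hdiv in
/-- `hsurj`. -/
theorem kap_hsurj : Surjective (P.K h𝒰 ρE hE).f :=
  lcomp_surjective_of_div P.ι P.ι_inj P.π P.exact hdiv

/-- `Φ : H²(G; M) → ℍ²(G; K(P; E))` for an arbitrary `k`-form `ρN` of `ρM`. -/
noncomputable def Φkap : Hp2 h𝒰 ρN hN →ₗ[k] (P.K h𝒰 ρE hE).ℍ2 h𝒰 :=
  incl2 (P.K h𝒰 ρE hE) h𝒰 hN (kapRes hk D.j P.π) (kap_hι hk P h𝒰 hA hρN hE D)
    (kap_hfι hk P h𝒰 hE D)

include hdiv in
/-- `Φ` is bijective (`E` `p`-divisible, `μ_p ⊂ E`). -/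
theorem Φkap_bijective : Bijective (Φkap hk P h𝒰 hA hρN hN hE D) :=
  bijective_incl2 (P.K h𝒰 ρE hE) h𝒰 hN (kapRes hk D.j P.π) (kap_hι hk P h𝒰 hA hρN hE D)
    (kap_hfι hk P h𝒰 hE D) (kapRes_injective hk D.j D.inj P.π P.π_surj)
    (kap_hker hk P h𝒰 hE D) (kap_hsurj P h𝒰 hE hdiv)

/-! ### The local data and the packaged block -/

section Local

variable {Q : Type*} [Finite Q] {Gq : Q → Type*} [∀ q, Group (Gq q)]
  {𝒰q : ∀ q, Set (Subgroup (Gq q))}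
  (h𝒰q : ∀ q, IsLevelBasis (𝒰q q)) {r : ∀ q, Gq q →* G} (hr : ∀ q, IsLevelHom (r q) (𝒰q q) 𝒰)
variable {Iq W : Q → Type*} [∀ q, AddCommGroup (Iq q)] [∀ q, Module k (Iq q)]
  [∀ q, AddCommGroup (W q)] [∀ q, Module k (W q)]
  {ρIq : ∀ q, Representation k G (Iq q)} (hIq : ∀ q, IsDiscrete 𝒰 (ρIq q))
  {ρW : ∀ q, Representation k (Gq q) (W q)} (hW : ∀ q, IsDiscrete (𝒰q q) (ρW q))
  (prj : ∀ q, I →ₗ[k] Iq q) (hprj : ∀ q g x, prj q (ρI g x) = ρIq q g (prj q x))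
  (ev : ∀ q, Iq q →ₗ[k] W q) (hev : ∀ q g x, ev q (ρIq q (r q g) x) = ρW q g (ev q x))
  {ρNq : ∀ q, Representation k (Gq q) M} (hρNq : ∀ q g m, ρNq q g m = ρM (r q g) m)
  (hNq : ∀ q, IsDiscrete (𝒰q q) (ρNq q))
  (Dq : ∀ q, MuData (χ.comp (r q)) (ρW q))
  (hdivq : ∀ q (x : W q), ∃ y : W q, (p : k) • y = x)

include hA in
/-- The twisted-dual description of the action on `A`, restricted along `r_q`. -/
theorem hA_comap (q : Q) (g : Gq q) (a : Module.Dual (ZMod p) M) :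
    (comapResolved (r q) (hr q) P).ρM g a =
      ((χ.comp (r q)) g : ZMod p) • (a ∘ₗ (ρM.comp (r q)) g⁻¹) := by
  show P.ρM (r q g) a = (χ (r q g) : ZMod p) • (a ∘ₗ ρM (r q g⁻¹))
  rw [hA, map_inv (r q) g]

include hρNq hA in
/-- `hιq`. -/
theorem kap_hιq (q : Q) (g : Gq q) (n : M) :
    kapRes hk (Dq q).j P.π (ρNq q g n) =
      ((comapResolved (r q) (hr q) P).K (h𝒰q q) (ρW q) (hW q)).ρ0 g
        (kapRes hk (Dq q).j P.π n) := by
  rw [hρNq q g n]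
  exact kapRes_equivariant hk (ρM.comp (r q)) (χ.comp (r q)) (comapResolved (r q) (hr q) P).ρM
    (hA_comap P hA hr q) (ρW q) (Dq q).j (Dq q).equiv (comapResolved (r q) (hr q) P).ρ0
    P.π (comapResolved (r q) (hr q) P).π_comm g n

/-- `hfιq`. -/
theorem kap_hfιq (q : Q) (n : M) :
    ((comapResolved (r q) (hr q) P).K (h𝒰q q) (ρW q) (hW q)).f (kapRes hk (Dq q).j P.π n) = 0 :=
  lcomp_kapRes hk (Dq q).j P.π P.ι P.π_ι n

include hdivq in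
/-- The local comparison `Φ_q : H²(G_q; M) → ℍ²(G_q; K(P; W_q))` is bijective. -/
theorem Φkap_loc_bijective (q : Q) :
    Bijective (incl2 ((comapResolved (r q) (hr q) P).K (h𝒰q q) (ρW q) (hW q)) (h𝒰q q) (hNq q)
      (kapRes hk (Dq q).j P.π) (kap_hιq hk P hA h𝒰q hr hW hρNq Dq q)
      (kap_hfιq hk P h𝒰q hr hW Dq q)) :=
  bijective_incl2 _ (h𝒰q q) (hNq q) (kapRes hk (Dq q).j P.π)
    (kap_hιq hk P hA h𝒰q hr hW hρNq Dq q) (kap_hfιq hk P h𝒰q hr hW Dq q)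
    (kapRes_injective hk (Dq q).j (Dq q).inj P.π P.π_surj)
    (fun b hb => exists_kapRes_eq hk (Dq q).j (Dq q).inj (Dq q).surj P.π P.π_surj P.ι P.exact b hb)
    (lcomp_surjective_of_div P.ι P.ι_inj P.π P.exact (hdivq q))

include hρN hρNq in
/-- Equivariance of the identity `M → M` over `r_q`. -/
theorem hν_id (q : Q) (g : Gq q) (n : M) :
    (LinearMap.id : M →ₗ[k] M) (ρN (r q g) n) = ρNq q g ((LinearMap.id : M →ₗ[k] M) n) := by
  rw [LinearMap.id_apply, LinearMap.id_apply, hρN, hρNq]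

/-- The restriction `res_q : H²(G; M) → H²(G_q; M)`. -/
def resM2 (q : Q) : Hp2 h𝒰 ρN hN →ₗ[k] Hp2 (h𝒰q q) (ρNq q) (hNq q) :=
  (plainPHom (hr q) h𝒰 (h𝒰q q) hN (hNq q) (LinearMap.id : M →ₗ[k] M)
    (hν_id hρN hρNq q)).mapH2

include hk hA hρN hE hd hdinj htsurj hex hdiv hprj hρNq hdivq in
/-- **The (★) block with `κ` from `KerIso7`.**  Inputs: `0 → E → I → C → 0`, `I ≅ ∏ I_q`,
(S2h), `μ_p ⊂ E`, `μ_p ⊂ W_q` (`MuData`) compatible under `ev_q ∘ prj_q ∘ d`, `p`-divisibility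
of `E` and `W_q`.  Output: `b : ℍ¹(K(P; C)) → H²(G; M)` with (hab) and (hbc). -/
theorem exists_b_kap (hprod : Bijective (fun (x : I) (q : Q) => prj q x))
    (hS2h : ∀ q, Injective ((KPHom (hr q) h𝒰 (h𝒰q q) (hIq q) (hW q) P (ev q) (hev q)).ppℍ2
      (hr q) h𝒰 (h𝒰q q)))
    (hloc : ∀ q a, ev q (prj q (d (D.j a))) = (Dq q).j a) :
    ∃ b : (P.K h𝒰 ρC hC).ℍ1 h𝒰 →ₗ[k] Hp2 h𝒰 ρN hN,
      (∀ e, b e = 0 ↔ ∃ x, (coefHom P h𝒰 hI hC t ht).mapℍ1 h𝒰 x = e) ∧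
      (∀ h, (∀ q, resM2 h𝒰 hρN hN h𝒰q hr hρNq hNq q h = 0) ↔ ∃ e, b e = h) :=
  StarBlock25.exists_b P h𝒰 hE hI hC d hd t ht hdinj htsurj hex hN (kapRes hk D.j P.π)
    (kap_hι hk P h𝒰 hA hρN hE D) (kap_hfι hk P h𝒰 hE D)
    (kapRes_injective hk D.j D.inj P.π P.π_surj) (kap_hker hk P h𝒰 hE D)
    (kap_hsurj P h𝒰 hE hdiv) h𝒰q hr hIq hW prj hprj ev hev hNq
    (fun q => kapRes hk (Dq q).j P.π) (kap_hιq hk P hA h𝒰q hr hW hρNq Dq)
    (kap_hfιq hk P h𝒰q hr hW Dq) (fun _ => LinearMap.id) (hν_id hρN hρNq) hprod hS2h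
    (fun q => (Φkap_loc_bijective hk P hA h𝒰q hr hW hρNq hNq Dq hdivq q).1)
    (fun q n x => by
      rw [LinearMap.id_apply, kapRes_apply, kapRes_apply, hloc])

end Local

end Fermat.Agent.PT.PRO.StarBlockKap25
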