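/-
PROGRAM F (S55), chapter PRO.  helper9.
`unitsLoc q = ℚ̄_qˣ` (helper21's `Objects21.unitsLoc`) is a divisible group, and its `p`-torsion is
`μ_p(ℚ̄_q)`, the image of `μ_p(ℚ̄)` under `padicEmbedding q`:
* `exists_pow_eq`, `exists_nsmul_eq`, `exists_zsmul_eq`, `surjective_nsmul`: divisibility, in the same
  shapes as helper27's `ESDivisible27` for `E_S`;
* `lcomp_surjective_unitsLoc`: restriction `Hom(F₀, ℚ̄_qˣ) → Hom(F₁, ℚ̄_qˣ)` is surjective for
  `ι : F₁ ↪ F₀` with `p F₀ ⊆ ι F₁`, `F₁` projective (the hypothesis `hsurj` of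
  `HyperCompare25.bijective_incl1/2` for `K(P; unitsLoc q)`), and the general `lcomp_surjective_of_div`;
* `zetaLoc`, `zetaLocA`, `zetaLoc_spec`, `eq_nsmul_zetaLoc_of_nsmul_eq_zero`: the `p`-torsion of `unitsLoc q` is
  cyclic generated by the image of `ζ_p ∈ ℚ̄`; `rho_zetaLoc` : Galois acts on it through
  `localGaloisToGlobal q` and the action on `ζ_p ∈ ℚ̄`.
-/
import Mathlib
import Fermat.Agent.PT.GLUE.Objects21
import Fermat.Agent.PT.PRO.HomCx29
import Fermat.Agent.PT.BR.HomMu7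

set_option autoImplicit false
set_option linter.unusedSectionVars false
set_option linter.style.haveILetI false

namespace Fermat.Agent.PT.PRO.UnitsLocDiv9

open Function
open Fermat.Agent.PT.GLUE.Objects21

local notation "Qbar" => AlgebraicClosure ℚ

section Div

variable (q : ℕ) [Fact q.Prime] {p : ℕ} (hp : 0 < p)

include hp in
/-- `ℚ̄_qˣ` is `p`-divisible. -/
theorem exists_pow_eq (u : (PadicAlgCl q)ˣ) : ∃ y : (PadicAlgCl q)ˣ, y ^ p = u := by
  obtain ⟨z, hz⟩ := IsAlgClosed.exists_pow_nat_eq (u : PadicAlgCl q) hp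
  have hz0 : z ≠ 0 := by
    rintro rfl
    rw [zero_pow hp.ne'] at hz
    exact u.ne_zero hz.symm
  refine ⟨Units.mk0 z hz0, ?_⟩
  apply Units.ext
  rw [Units.val_pow_eq_pow_val, Units.val_mk0, hz]

include hp in
theorem exists_nsmul_eq (a : unitsLoc q) : ∃ b : unitsLoc q, p • b = a := by
  obtain ⟨y, hy⟩ := exists_pow_eq q hp (Additive.toMul (α := (PadicAlgCl q)ˣ) a)
  exact ⟨Additive.ofMul y, congrArg Additive.ofMul hy⟩

include hp in
theorem exists_zsmul_eq (a : unitsLoc q) : ∃ b : unitsLoc q, (p : ℤ) • b = a := by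
  obtain ⟨b, hb⟩ := exists_nsmul_eq q hp a
  exact ⟨b, by rw [Nat.cast_smul_eq_nsmul ℤ]; exact hb⟩

include hp in
/-- the `p`-th power map of `unitsLoc q` is surjective -/
theorem surjective_nsmul : Surjective fun b : unitsLoc q => p • b :=
  fun a => exists_nsmul_eq q hp a

end Div

section Lcomp

variable {k : Type*} [CommRing k]
variable {F0 F1 X : Type*} [AddCommGroup F0] [Module k F0] [AddCommGroup F1] [Module k F1]
  [AddCommGroup X] [Module k X]

/-- `X` `a`-divisible, `ι : F₁ ↪ F₀` with `a F₀ ⊆ ι F₁`, `F₁` projective ⇒ restriction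
`Hom(F₀, X) → Hom(F₁, X)` is surjective. -/
theorem lcomp_surjective_of_div [Module.Projective k F1] (ι : F1 →ₗ[k] F0) (hinj : Injective ι)
    (a : k) (ha : ∀ x : F0, a • x ∈ LinearMap.range ι) (hdiv : ∀ x : X, ∃ y : X, a • y = x) :
    Surjective (LinearMap.lcomp k X ι) := by
  obtain ⟨h, -, h2⟩ := HomCx29.exists_homotopy ι hinj a ha
  exact HomCx29.lcomp_surjective ι a h h2 hdiv

end Lcomp

section LcompLoc

variable (q : ℕ) [Fact q.Prime] {p : ℕ} (hp : 0 < p)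
variable {F0 F1 : Type*} [AddCommGroup F0] [AddCommGroup F1]

include hp in
/-- Restriction `Hom(F₀, ℚ̄_qˣ) → Hom(F₁, ℚ̄_qˣ)` is surjective (`p F₀ ⊆ ι F₁`, `F₁` `ℤ`-projective). -/
theorem lcomp_surjective_unitsLoc [Module.Projective ℤ F1] (ι : F1 →ₗ[ℤ] F0) (hinj : Injective ι)
    (ha : ∀ x : F0, (p : ℤ) • x ∈ LinearMap.range ι) :
    Surjective (LinearMap.lcomp ℤ (Additive (PadicAlgCl q)ˣ) ι) :=
  lcomp_surjective_of_div ι hinj (p : ℤ) ha (fun x => exists_zsmul_eq q hp x)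

include hp in
/-- The same with the carrier written `(unitsLoc q).V`. -/
theorem lcomp_surjective_unitsLoc' [Module.Projective ℤ F1] (ι : F1 →ₗ[ℤ] F0) (hinj : Injective ι)
    (ha : ∀ x : F0, (p : ℤ) • x ∈ LinearMap.range ι) :
    Surjective (LinearMap.lcomp ℤ (unitsLoc q).V ι) :=
  lcomp_surjective_of_div ι hinj (p : ℤ) ha (fun x => exists_zsmul_eq q hp x)

end LcompLoc

section Torsion

open Fermat.Agent.PT.BR.HomMu7

variable (q : ℕ) [Fact q.Prime] (p : ℕ) [Fact p.Prime]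

/-- The image in `ℚ̄_qˣ` of the chosen primitive `p`-th root of unity `ζ_p ∈ ℚ̄` (helper7's
`HomMu7.zetaU`). -/
noncomputable def zetaLoc : (PadicAlgCl q)ˣ :=
  Units.map ((padicEmbedding q : Qbar →+* PadicAlgCl q) : Qbar →* PadicAlgCl q) (zetaU p)

@[simp] theorem coe_zetaLoc :
    ((zetaLoc q p : (PadicAlgCl q)ˣ) : PadicAlgCl q) = padicEmbedding q ((zetaU p : Qbarˣ) : Qbar) :=
  rfl

theorem zetaLoc_spec : IsPrimitiveRoot (zetaLoc q p) p := by
  rw [← IsPrimitiveRoot.coe_units_iff, coe_zetaLoc]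
  exact (IsPrimitiveRoot.coe_units_iff.2 (zetaU_spec p)).map_of_injective
    (padicEmbedding q).toRingHom.injective

theorem zetaLoc_pow_p : zetaLoc q p ^ p = 1 := (zetaLoc_spec q p).pow_eq_one

/-- `ζ` as an element of `unitsLoc q`. -/
noncomputable def zetaLocA : (unitsLoc q).V :=
  (Additive.ofMul (zetaLoc q p) : Additive (PadicAlgCl q)ˣ)

theorem toMul_zetaLocA : Additive.toMul (α := (PadicAlgCl q)ˣ) (zetaLocA q p) = zetaLoc q p := rfl

/-- `p • ζ = 0` in `unitsLoc q`. -/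
theorem nsmul_zetaLocA : p • zetaLocA q p = 0 :=
  congrArg (Additive.ofMul (α := (PadicAlgCl q)ˣ)) (zetaLoc_pow_p q p)

/-- The `p`-torsion of `ℚ̄_qˣ` is generated by `ζ`. -/
theorem exists_pow_eq_of_pow_eq_one (u : (PadicAlgCl q)ˣ) (hu : u ^ p = 1) :
    ∃ i : ℕ, i < p ∧ zetaLoc q p ^ i = u := by
  haveI : NeZero p := ⟨(Fact.out : p.Prime).ne_zero⟩
  have h1 : IsPrimitiveRoot ((zetaLoc q p : (PadicAlgCl q)ˣ) : PadicAlgCl q) p :=
    IsPrimitiveRoot.coe_units_iff.2 (zetaLoc_spec q p)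
  have h2 : ((u : (PadicAlgCl q)ˣ) : PadicAlgCl q) ^ p = 1 := by
    rw [← Units.val_pow_eq_pow_val, hu, Units.val_one]
  obtain ⟨i, hi, h⟩ := h1.eq_pow_of_pow_eq_one h2
  exact ⟨i, hi, Units.ext (by rw [Units.val_pow_eq_pow_val, h])⟩

/-- The `p`-torsion of `unitsLoc q` is generated by `ζ` (additive form). -/
theorem eq_nsmul_zetaLoc_of_nsmul_eq_zero (a : unitsLoc q) (ha : p • a = 0) :
    ∃ i : ℕ, i < p ∧ a = i • zetaLocA q p := by
  obtain ⟨i, hi, h⟩ := exists_pow_eq_of_pow_eq_one q p (Additive.toMul (α := (PadicAlgCl q)ˣ) a)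
    (congrArg (Additive.toMul (α := (PadicAlgCl q)ˣ)) ha)
  exact ⟨i, hi, (congrArg (Additive.ofMul (α := (PadicAlgCl q)ˣ)) h).symm⟩

/-- The Galois action on `ζ ∈ ℚ̄_qˣ` is through `localGaloisToGlobal q` and the action on
`ζ_p ∈ ℚ̄ˣ`. -/
theorem smul_zetaLoc (τ : PadicAlgCl q ≃ₐ[ℚ_[q]] PadicAlgCl q) :
    τ • zetaLoc q p =
      Units.map ((padicEmbedding q : Qbar →+* PadicAlgCl q) : Qbar →* PadicAlgCl q)
        (localGaloisToGlobal q τ • zetaU p) := by
  apply Units.ext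
  rw [AlgEquiv.smul_units_def, Units.coe_map, Units.coe_map, AlgEquiv.smul_units_def,
    Units.coe_map]
  exact (padicEmbedding_localGaloisToGlobal q τ _).symm

/-- `τ • ζ = ζ ^ cycloExp(r_q τ)`. -/
theorem smul_zetaLoc_eq_pow (τ : PadicAlgCl q ≃ₐ[ℚ_[q]] PadicAlgCl q) :
    τ • zetaLoc q p = zetaLoc q p ^ ExtCitation.cycloExp p (localGaloisToGlobal q τ) := by
  rw [smul_zetaLoc, smul_zetaU, map_pow]
  rfl

/-- The same in `unitsLoc q`. -/
theorem rho_zetaLoc (τ : PadicAlgCl q ≃ₐ[ℚ_[q]] PadicAlgCl q) :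
    (unitsLoc q).ρ τ (zetaLocA q p) =
      ExtCitation.cycloExp p (localGaloisToGlobal q τ) • zetaLocA q p := by
  show Additive.ofMul (α := (PadicAlgCl q)ˣ) (τ • zetaLoc q p) = _
  rw [smul_zetaLoc_eq_pow]
  rfl

end Torsion

end Fermat.Agent.PT.PRO.UnitsLocDiv9
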